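/-
TR / (PL): THE SEAM node side → Hecke side (architect: helper40).  Definitions only.

`F = ℚ̄·F_{Mp}` with its Gauss valuation ring `O_∞ = OInf h` and residue map `redInf h` onto the
mod `p` function field `κ` of level `M`; `Δ̄ = deltaBar h := redInf h f_Δ`, `f_Δ = Δ(q)/Δ(q^p)`
(`TR/Unit/FDelta.lean`).  The places `Q` of `κ` with `0 < Q.ord Δ̄` are the supersingular points
(the nodes of the special fibre).

`PLInf` ("`p`-adic Picard–Lefschetz", `∞`-side): under the hypotheses of `TR.Top.TRKey` on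
`(V, L)` — `V ≅ (ℤ/p)²` killed by `p`, `L ⊂ V` of order `p`, inertia acting trivially on `V / L`
and through the mod `p` cyclotomic character on `L`, and the depth property — for every `x ∈ V`
and every Kummer function `f` of `x` (`div f = p·D`, `[D] = x`) which is a unit of `O_∞`, there is
`c : ℤ` with `ord_Q (redInf f) ≡ c · ord_Q Δ̄ (mod p)` at every non-cuspidal place `Q` with
`0 < ord_Q Δ̄`.

The Hecke side (`eis`, (OLD-a), helper56) consumes exactly this; the node side proves it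
(`TR/PL/Asm.lean`).
-/
import Mathlib
import Fermat.Agent.TR.Unit.FDelta
import Fermat.Agent.BAD.BadU
import Fermat.Agent.ESJ.Jac.KummerPair

set_option autoImplicit false
set_option linter.unusedSectionVars false

noncomputable section

namespace Fermat.Agent.TR.PL.Seam

open AlgebraicCurve ModularCurve Fermat.Agent.BAD.TwoVal Fermat.Agent.BAD.BadU
  Fermat.Agent.TR.Unit.FDelta Fermat.Agent.ESJ.Jac

local notation "Qb" => AlgebraicClosure ℚ
local notation "GQ" => (AlgebraicClosure ℚ ≃ₐ[ℚ] AlgebraicClosure ℚ)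

variable {A : ValuationSubring Qb} {k : Type} [Field k] {π : A →+* k} {M q : ℕ} [NeZero M]
  [NeZero q]

/-- `Δ̄ = red_∞ (Δ(q)/Δ(q^q))`, a function on the `∞`-component of the special fibre (zeros exactly
at the supersingular points, poles at the cusps). -/
def deltaBar (h : BadSetup A π M q) : ↥(modularFunctionFieldFullC k M) :=
  redInf h ⟨fDelta Qb M q h.hℓ, f_mem_OInf h (coe_fDelta h.hℓ)⟩

/-- `Q` is a non-cuspidal place of `κ`: the `j`-function `J̄` (the element of `κ` with `q`-expansion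
`jqModC k`) is regular at `Q`. -/
def NonCusp (Q : Place k (modularFunctionFieldFullC k M)) : Prop :=
  ∀ Jb : modularFunctionFieldFullC k M, (Jb : LaurentSeries k) = jqModC k → 0 ≤ Q.ord Jb

theorem nonCusp_iff {Q : Place k (modularFunctionFieldFullC k M)}
    {Jb : modularFunctionFieldFullC k M} (hJb : (Jb : LaurentSeries k) = jqModC k) :
    NonCusp Q ↔ 0 ≤ Q.ord Jb :=
  ⟨fun h => h Jb hJb, fun h Jb' hJb' => by
    have : Jb' = Jb := Subtype.ext (hJb'.trans hJb.symm)
    rw [this]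
    exact h⟩

/-- The conclusion of (PL∞) for one Kummer function `f` (a unit of `O_∞`): the orders of
`redInf f` at the non-cuspidal places `Q` with `0 < ord_Q Δ̄` (the supersingular points) are
`≡ c · ord_Q Δ̄` modulo `p`, for one `c : ℤ`. -/
def PLConcl (h : BadSetup A π M q) (p : ℕ)
    (f : laurentBaseChange Qb (modularFunctionFieldFull (M * q))) (hf : f ∈ OInf h) : Prop :=
  ∃ c : ℤ, ∀ Q : Place k (modularFunctionFieldFullC k M), NonCusp Q → 0 < Q.ord (deltaBar h) →
    (p : ℤ) ∣ Q.ord (redInf h ⟨f, hf⟩) - c * Q.ord (deltaBar h)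

/-- **(PL∞)**: the seam node side → Hecke side.  Binders = those of `TR.Top.TRKey` on `(V, L)`
((H), (NE), (NO) are not needed here). -/
def PLInf : Prop :=
  ∀ (A : ValuationSubring Qb) (M p : ℕ) [NeZero M] [NeZero p]
    (h : BadSetup A (IsLocalRing.residue A) M p), A.LiesOverPrime p → 5 ≤ p →
    ∀ W : laurentBaseChange Qb (modularFunctionFieldFull (M * p)) ≃ₐ[Qb]
      laurentBaseChange Qb (modularFunctionFieldFull (M * p)), IsAL M p W →
    ∀ V L : AddSubgroup (JZero (M * p)), L ≤ V → (∀ x ∈ V, p • x = 0) →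
      Nat.card V = p ^ 2 → Nat.card L = p →
    -- (ST)
    (∀ σ ∈ A.inertiaSubgroupIn ℚ, ∀ v ∈ V, σ • v - v ∈ L) →
    (∀ σ ∈ A.inertiaSubgroupIn ℚ, ∀ a : ℕ, (∀ μ : Qb, μ ^ p = 1 → σ μ = μ ^ a) →
      ∀ v ∈ L, σ • v = a • v) →
    -- (DEEP)
    (∀ σ ∈ A.inertiaSubgroupIn ℚ, ∀ ρ : A.ValueGroup, ρ ^ (p - 1) < A.valuation ((p : ℕ) : Qb) →
      (∀ c ∈ A, (∀ τ ∈ A.inertiaSubgroupIn ℚ, (∀ x ∈ V, τ • x = x) → τ c = c) →
        A.valuation (σ c - c) ≤ ρ) →
      ∀ x ∈ V, σ • x = x) →
    ∀ x ∈ V, ∀ f : laurentBaseChange Qb (modularFunctionFieldFull (M * p)),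
      IsKummerPair p x f → ∀ hf : f ∈ OInf h, f⁻¹ ∈ OInf h → PLConcl h p f hf

end Fermat.Agent.TR.PL.Seam
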