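/-
TR / (PL), brick PL-F, the ABSTRACT ARITHMETIC ASSEMBLY (helper45; Mathlib only).

Per node `s` of the special fibre: `k s` the thickness (`ξ η = p ^ (k s) u`), `a s` with
`a s * k s = 12`, `m s` the order at `s` of the reduction of the Kummer function.  The Newton
relation at `s` reads `N = e * k s * m s + p * γ s` (`e` the ramification index of the field of
definition, `γ s` the valuation of the product of the annulus values).  Then

* `exists_const_of_congr`  : `∀ s, u * k s * m s ≡ ν [ZMOD p]`, `u` prime to `p`, `p ≥ 5`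
                             ⟹ `∃ c, ∀ s, m s ≡ c * a s [ZMOD p]`;
* `assembly_tame`          : `p ∤ e`;
* `assembly_wild`          : `e = p * e₁`, `p ∤ e₁`, and `γ s ≡ γ s' [ZMOD p]`;
* `assembly`               : both at once (`e = p ^ t * e₁`, `t ≤ 1`).
-/
import Mathlib

set_option autoImplicit false

namespace Fermat.Agent.TR.PL.AssemblyArith

variable {ι : Type*} {p : ℕ}

/-- `12` is invertible modulo a prime `p ≥ 5`. -/
theorem isCoprime_twelve (hp : p.Prime) (hp5 : 5 ≤ p) : IsCoprime (12 : ℤ) (p : ℤ) := by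
  have h : Nat.Coprime 12 p := by
    rw [Nat.coprime_comm, hp.coprime_iff_not_dvd]
    intro hd
    have h1 : p ∣ 2 * 2 * 3 := hd
    rcases (Nat.Prime.dvd_mul hp).1 h1 with h2 | h2
    · rcases (Nat.Prime.dvd_mul hp).1 h2 with h3 | h3
      · exact absurd (Nat.le_of_dvd (by norm_num) h3) (by omega)
      · exact absurd (Nat.le_of_dvd (by norm_num) h3) (by omega)
    · exact absurd (Nat.le_of_dvd (by norm_num) h2) (by omega)
  exact_mod_cast (Nat.isCoprime_iff_coprime.2 h)

/-- Cancellation of a factor prime to `p`. -/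
theorem modEq_of_mul_left {u x y : ℤ} (hu : IsCoprime u (p : ℤ))
    (h : u * x ≡ u * y [ZMOD p]) : x ≡ y [ZMOD p] := by
  rw [Int.modEq_iff_dvd] at h ⊢
  have h1 : (p : ℤ) ∣ u * (y - x) := by rwa [mul_sub]
  exact hu.symm.dvd_of_dvd_mul_left h1

/-- **The core.**  If `u * k s * m s` is constant modulo `p` (`u` prime to `p`) and
`a s * k s = 12`, `p ≥ 5`, then `m s ≡ c * a s` modulo `p` with `c` independent of `s`. -/
theorem exists_const_of_congr (hp : p.Prime) (hp5 : 5 ≤ p) (k m a : ι → ℤ) {u ν : ℤ}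
    (hu : IsCoprime u (p : ℤ)) (hak : ∀ s, a s * k s = 12)
    (h : ∀ s, u * k s * m s ≡ ν [ZMOD p]) : ∃ c : ℤ, ∀ s, m s ≡ c * a s [ZMOD p] := by
  have h12 := isCoprime_twelve hp hp5
  have hc : IsCoprime (12 * u) (p : ℤ) := h12.mul_left hu
  obtain ⟨x, y, hxy⟩ := hc
  -- `x * (12 * u) ≡ 1`
  refine ⟨x * ν, fun s => ?_⟩
  apply modEq_of_mul_left (p := p) (u := 12 * u) (h12.mul_left hu)
  have e1 : 12 * u * m s = a s * (u * k s * m s) := by
    rw [← hak s]; ring
  have e2 : 12 * u * (x * ν * a s) = (x * (12 * u)) * (a s * ν) := by ring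
  rw [e1, e2]
  have h1 : x * (12 * u) ≡ 1 [ZMOD p] := by
    rw [Int.modEq_iff_dvd]
    exact ⟨y, by linear_combination -hxy⟩
  have h2 : a s * (u * k s * m s) ≡ a s * ν [ZMOD p] := (h s).mul_left _
  calc a s * (u * k s * m s) ≡ a s * ν [ZMOD p] := h2
    _ = 1 * (a s * ν) := (one_mul _).symm
    _ ≡ x * (12 * u) * (a s * ν) [ZMOD p] := (h1.symm).mul_right _

/-- The same, from pairwise congruences (no constant `ν` given). -/
theorem exists_const_of_pairwise (hp : p.Prime) (hp5 : 5 ≤ p) (k m a : ι → ℤ) {u : ℤ}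
    (hu : IsCoprime u (p : ℤ)) (hak : ∀ s, a s * k s = 12)
    (h : ∀ s s', u * k s * m s ≡ u * k s' * m s' [ZMOD p]) :
    ∃ c : ℤ, ∀ s, m s ≡ c * a s [ZMOD p] := by
  rcases isEmpty_or_nonempty ι with hι | ⟨⟨s₀⟩⟩
  · exact ⟨0, fun s => (hι.false s).elim⟩
  · exact exists_const_of_congr hp hp5 k m a hu hak fun s => h s s₀

/-- **Tame assembly.**  `N = e * k s * m s + p * γ s` at every node, `p ∤ e`. -/
theorem assembly_tame (hp : p.Prime) (hp5 : 5 ≤ p) (k m a γ : ι → ℤ) {e N : ℤ}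
    (he : IsCoprime e (p : ℤ)) (hak : ∀ s, a s * k s = 12)
    (hrel : ∀ s, N = e * k s * m s + p * γ s) : ∃ c : ℤ, ∀ s, m s ≡ c * a s [ZMOD p] := by
  refine exists_const_of_congr hp hp5 k m a (ν := N) he hak fun s => ?_
  rw [Int.modEq_iff_dvd]
  exact ⟨γ s, by rw [hrel s]; ring⟩

/-- **Wild assembly.**  `N = p * e₁ * k s * m s + p * γ s` at every node, `p ∤ e₁`, and the
`γ s` are congruent to each other modulo `p` (the node-local lemma PL-D). -/
theorem assembly_wild (hp : p.Prime) (hp5 : 5 ≤ p) (k m a γ : ι → ℤ) {e₁ N : ℤ}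
    (he : IsCoprime e₁ (p : ℤ)) (hak : ∀ s, a s * k s = 12)
    (hrel : ∀ s, N = (p : ℤ) * e₁ * k s * m s + p * γ s)
    (hγ : ∀ s s', γ s ≡ γ s' [ZMOD p]) : ∃ c : ℤ, ∀ s, m s ≡ c * a s [ZMOD p] := by
  have hp0 : (p : ℤ) ≠ 0 := by exact_mod_cast hp.ne_zero
  refine exists_const_of_pairwise hp hp5 k m a he hak fun s s' => ?_
  have h1 : (p : ℤ) * (e₁ * k s * m s + γ s) = p * (e₁ * k s' * m s' + γ s') := by
    have := (hrel s).symm.trans (hrel s')
    linear_combination this
  have h2 : e₁ * k s * m s + γ s = e₁ * k s' * m s' + γ s' := mul_left_cancel₀ hp0 h1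
  have h3 : e₁ * k s * m s = e₁ * k s' * m s' + (γ s' - γ s) := by linear_combination h2
  rw [h3]
  have h4 : γ s' - γ s ≡ 0 [ZMOD p] := by
    have := (hγ s' s).sub_right (γ s)
    rwa [sub_self] at this
  simpa using (Int.ModEq.refl (e₁ * k s' * m s')).add h4

/-- **Assembly, both cases.**  `e = p ^ t * e₁` with `t ≤ 1`, `p ∤ e₁`; in the wild case
(`t = 1`) the `γ s` are congruent to each other modulo `p`. -/
theorem assembly (hp : p.Prime) (hp5 : 5 ≤ p) (k m a γ : ι → ℤ) {e₁ N : ℤ} {t : ℕ} (ht : t ≤ 1)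
    (he : IsCoprime e₁ (p : ℤ)) (hak : ∀ s, a s * k s = 12)
    (hrel : ∀ s, N = (p : ℤ) ^ t * e₁ * k s * m s + p * γ s)
    (hγ : t = 1 → ∀ s s', γ s ≡ γ s' [ZMOD p]) : ∃ c : ℤ, ∀ s, m s ≡ c * a s [ZMOD p] := by
  interval_cases t
  · exact assembly_tame hp hp5 k m a γ (N := N) he hak fun s => by rw [hrel s]; ring
  · exact assembly_wild hp hp5 k m a γ (N := N) he hak (fun s => by rw [hrel s]; ring) (hγ rfl)

/-- **Assembly from the node-wise Newton congruences** (the output shape of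
`Node.Newton.newton_tame`): `K s * m s ≡ V [ZMOD p]` where `K s = e * k s` is the thickness
over the ramified base and `V = ord_0 f - ord_∞ f` does not depend on the node. -/
theorem assembly_of_newton_tame (hp : p.Prime) (hp5 : 5 ≤ p) (k m a K : ι → ℤ) {e V : ℤ}
    (he : IsCoprime e (p : ℤ)) (hak : ∀ s, a s * k s = 12) (hK : ∀ s, K s = e * k s)
    (h : ∀ s, K s * m s ≡ V [ZMOD p]) : ∃ c : ℤ, ∀ s, m s ≡ c * a s [ZMOD p] :=
  exists_const_of_congr hp hp5 k m a he hak fun s => by rw [← hK s]; exact h s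

/-- **Assembly from the node-wise wild Newton congruences** (the output shape of
`Node.Newton.newton_wild`): `K' s * m s ≡ V - c s [ZMOD p]` with `K' s = e₁ * k s`
(`K s = p * K' s` the thickness over the ramified base), `V` independent of the node and the
`c s` congruent to each other modulo `p`. -/
theorem assembly_of_newton_wild (hp : p.Prime) (hp5 : 5 ≤ p) (k m a K' c : ι → ℤ) {e₁ V : ℤ}
    (he : IsCoprime e₁ (p : ℤ)) (hak : ∀ s, a s * k s = 12) (hK : ∀ s, K' s = e₁ * k s)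
    (h : ∀ s, K' s * m s ≡ V - c s [ZMOD p]) (hc : ∀ s s', c s ≡ c s' [ZMOD p]) :
    ∃ c : ℤ, ∀ s, m s ≡ c * a s [ZMOD p] := by
  refine exists_const_of_pairwise hp hp5 k m a he hak fun s s' => ?_
  rw [← hK s, ← hK s']
  calc K' s * m s ≡ V - c s [ZMOD p] := h s
    _ ≡ V - c s' [ZMOD p] := (Int.ModEq.refl V).sub (hc s s')
    _ ≡ K' s' * m s' [ZMOD p] := (h s').symm

end Fermat.Agent.TR.PL.AssemblyArith
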