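/-
TR / (PL), the arithmetic assembly in the literal shape of the cut v2 (helper45; imports
`TR/PL/AssemblyArith` only).

Per node `i` : `k i` the thickness, `A i` with `A i * k i = 12` (`A i = ord_{e₁ i} Δ̄`),
`a i` the vertical exponent of the local factorisation `f₀ / g_i ^ p = Y * b * ξ_i ^ (a i)`,
`m i = ord_{e₁ i} (redInf f₀) = a i + p * δ i`, `γ i` the `w`-adic order of the constant
`b_0 / b_∞` of the local generator `g_i`, and `N` the `w`-adic order of `β₀`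
(`f₀ / β₀ ∈ OZero ˣ`); `e'' = p ^ t * (p - 1)`, `t ≤ 1`, is the ramification index of `K''`.

* `rel_of_val`      : the multiplicative relation `v β₀ = v p ^ (k a) * v c ^ p` between values
                      in `θ ^ ℤ` gives `N = e'' * k * a + p * γ`;
* `assembly_newt`   : `N = e'' * k i * a i + p * γ i`, `m i = a i + p * δ i`,
                      (wild case: `γ i ≡ γ j [ZMOD p]`) ⟹ `∃ c, ∀ i, p ∣ m i - c * A i`;
* `assembly_newt_val` : the same directly from the values.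
-/
import Fermat.Agent.TR.PL.AssemblyArith

set_option autoImplicit false

namespace Fermat.Agent.TR.PL.AssemblyNewt

open Fermat.Agent.TR.PL.AssemblyArith

variable {ι : Type*} {p : ℕ}

/-- `p - 1` is prime to `p`. -/
theorem isCoprime_pred (p : ℕ) : IsCoprime ((p : ℤ) - 1) (p : ℤ) :=
  ⟨-1, 1, by ring⟩

/-- **From values to orders.**  In a linearly ordered group with zero, if `θ < 1` is non-zero
and the four values are the displayed powers of `θ`, then the multiplicative Newton relation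
`vβ = vp ^ (k * a) * vc ^ p` reads `N = e * k * a + p * γ`. -/
theorem rel_of_val {Γ₀ : Type*} [LinearOrderedCommGroupWithZero Γ₀] {θ vβ vp vc : Γ₀}
    (h0 : θ ≠ 0) (h1 : θ < 1) {N e γ k a : ℤ} {q : ℕ} (hβ : vβ = θ ^ N) (hp : vp = θ ^ e)
    (hc : vc = θ ^ γ) (h : vβ = vp ^ (k * a) * vc ^ q) : N = e * k * a + q * γ := by
  have hpos : 0 < θ := zero_lt_iff.2 h0
  rw [hβ, hp, hc, ← zpow_mul, ← zpow_natCast (θ ^ γ) q, ← zpow_mul, ← zpow_add₀ h0] at h
  have h2 := (zpow_right_inj₀ hpos h1.ne).1 h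
  rw [h2]
  ring

/-- **(PL) from the node-wise Newton relations**, cut v2 shape.  `e'' = p ^ t * (p - 1)` with
`t ≤ 1`; in the wild case (`t = 1`) the `γ i` are congruent to each other modulo `p`. -/
theorem assembly_newt (hp : p.Prime) (hp5 : 5 ≤ p) (k a A γ m δ : ι → ℤ) {e N : ℤ} {t : ℕ}
    (ht : t ≤ 1) (he : e = (p : ℤ) ^ t * ((p : ℤ) - 1)) (hAk : ∀ i, A i * k i = 12)
    (hrel : ∀ i, N = e * k i * a i + p * γ i) (hm : ∀ i, m i = a i + p * δ i)
    (hγ : t = 1 → ∀ i j, γ i ≡ γ j [ZMOD p]) : ∃ c : ℤ, ∀ i, (p : ℤ) ∣ m i - c * A i := by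
  obtain ⟨c, hc⟩ := assembly hp hp5 k a A γ (N := N) (e₁ := (p : ℤ) - 1) ht (isCoprime_pred p)
    hAk (fun i => by rw [hrel i, he]) hγ
  refine ⟨c, fun i => ?_⟩
  have h1 := (Int.modEq_iff_dvd.1 (hc i).symm)
  rw [hm i]
  have e1 : a i + p * δ i - c * A i = (a i - c * A i) + p * δ i := by ring
  rw [e1]
  exact dvd_add h1 (Dvd.intro _ rfl)

/-- The same with a general prime-to-`p` factor `e₁` (`e'' = p ^ t * e₁`). -/
theorem assembly_newt' (hp : p.Prime) (hp5 : 5 ≤ p) (k a A γ m δ : ι → ℤ) {e e₁ N : ℤ} {t : ℕ}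
    (ht : t ≤ 1) (he₁ : IsCoprime e₁ (p : ℤ)) (he : e = (p : ℤ) ^ t * e₁)
    (hAk : ∀ i, A i * k i = 12)
    (hrel : ∀ i, N = e * k i * a i + p * γ i) (hm : ∀ i, m i = a i + p * δ i)
    (hγ : t = 1 → ∀ i j, γ i ≡ γ j [ZMOD p]) : ∃ c : ℤ, ∀ i, (p : ℤ) ∣ m i - c * A i := by
  obtain ⟨c, hc⟩ := assembly hp hp5 k a A γ (N := N) (e₁ := e₁) ht he₁
    hAk (fun i => by rw [hrel i, he]) hγ
  refine ⟨c, fun i => ?_⟩
  have h1 := (Int.modEq_iff_dvd.1 (hc i).symm)
  rw [hm i]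
  have e1 : a i + p * δ i - c * A i = (a i - c * A i) + p * δ i := by ring
  rw [e1]
  exact dvd_add h1 (Dvd.intro _ rfl)

/-- **(PL) directly from the values** (`θ = v w`, `w` a uniformiser of `K''`):
`v β₀ = θ ^ N`, `v p = θ ^ e''`, `v (b_0 / b_∞)_i = θ ^ (γ i)` and the multiplicative Newton
relation `v β₀ = v p ^ (k i * a i) * v (b_0 / b_∞)_i ^ p` at every node. -/
theorem assembly_newt_val {Γ₀ : Type*} [LinearOrderedCommGroupWithZero Γ₀] {θ vβ vp : Γ₀}
    (h0 : θ ≠ 0) (h1 : θ < 1) (hp : p.Prime) (hp5 : 5 ≤ p) (k a A γ m δ : ι → ℤ) (vc : ι → Γ₀)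
    {e N : ℤ} {t : ℕ} (ht : t ≤ 1) (he : e = (p : ℤ) ^ t * ((p : ℤ) - 1))
    (hAk : ∀ i, A i * k i = 12) (hβ : vβ = θ ^ N) (hvp : vp = θ ^ e)
    (hvc : ∀ i, vc i = θ ^ γ i) (hrel : ∀ i, vβ = vp ^ (k i * a i) * vc i ^ p)
    (hm : ∀ i, m i = a i + p * δ i) (hγ : t = 1 → ∀ i j, γ i ≡ γ j [ZMOD p]) :
    ∃ c : ℤ, ∀ i, (p : ℤ) ∣ m i - c * A i :=
  assembly_newt hp hp5 k a A γ m δ ht he hAk
    (fun i => rel_of_val h0 h1 hβ hvp (hvc i) (hrel i)) hm hγ

/-- **Wild input from the constants** : if `C i ≡ 1 + γ i * η` and the `C i` are congruent to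
each other modulo `ϖ η` — in the abstract form `n • η ∈ ϖ η W → p ∣ n` for integers `n` —
then the `γ i` are congruent modulo `p`.  Pure bookkeeping : `hdvd` is the statement
"an integer multiple `n * η` lying in the ideal `I` forces `p ∣ n`". -/
theorem gamma_congr {R : Type*} [CommRing R] (I : Ideal R) {η : R}
    (hdvd : ∀ n : ℤ, (n : R) * η ∈ I → (p : ℤ) ∣ n) (γ : ι → ℤ) (C : ι → R)
    (hC : ∀ i, C i - (1 + (γ i : R) * η) ∈ I) (hCC : ∀ i j, C i - C j ∈ I) :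
    ∀ i j, γ i ≡ γ j [ZMOD p] := by
  intro i j
  rw [Int.modEq_iff_dvd]
  apply hdvd
  have h1 : ((γ j - γ i : ℤ) : R) * η =
      (C j - C i) - (C j - (1 + (γ j : R) * η)) + (C i - (1 + (γ i : R) * η)) := by
    push_cast
    ring
  rw [h1]
  exact I.add_mem (I.sub_mem (hCC j i) (hC j)) (hC i)

/-- An integer which is a non-unit of a valuation ring of residue characteristic `p` is
divisible by `p`. -/
theorem int_dvd_of_mem_nonunits {F : Type*} [Field F] (O : ValuationSubring F) (hp : p.Prime)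
    (hpO : (p : F) ∈ O.nonunits) {n : ℤ} (hn : (n : F) ∈ O.nonunits) : (p : ℤ) ∣ n := by
  by_contra hnd
  have hcop : IsCoprime n (p : ℤ) := by
    rw [Int.isCoprime_iff_gcd_eq_one]
    have hp' : Prime (p : ℤ) := Nat.prime_iff_prime_int.1 hp
    have := (Int.isCoprime_iff_gcd_eq_one.1 ((Prime.coprime_iff_not_dvd hp').2 hnd))
    rwa [Int.gcd_comm] at this
  obtain ⟨x, y, hxy⟩ := hcop
  have h1 : ((x : F) * (n : F) + (y : F) * (p : F)) = 1 := by exact_mod_cast congrArg (Int.cast : ℤ → F) hxy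
  have hx : (x : F) ∈ O := intCast_mem O x
  have hy : (y : F) ∈ O := intCast_mem O y
  have hlt : O.valuation ((x : F) * (n : F) + (y : F) * (p : F)) < 1 := by
    refine lt_of_le_of_lt (O.valuation.map_add _ _) (max_lt ?_ ?_)
    · rw [map_mul]
      exact mul_lt_one_of_nonneg_of_lt_one_right ((O.valuation_le_one_iff _).2 hx) zero_le
        ((ValuationSubring.mem_nonunits_iff O).1 hn)
    · rw [map_mul]
      exact mul_lt_one_of_nonneg_of_lt_one_right ((O.valuation_le_one_iff _).2 hy) zero_le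
        ((ValuationSubring.mem_nonunits_iff O).1 hpO)
  rw [h1, map_one] at hlt
  exact lt_irrefl _ hlt

/-- `hdvd` of `gamma_congr` for a valuation ring : if `η = ϖ ^ t * w` with `w` a unit of `O`
and `ϖ ≠ 0`, then `n * η ∈ ϖ ^ (t + 1) O` forces `p ∣ n` (`p`, `ϖ` non-units of `O`). -/
theorem int_dvd_of_mul_eta {F : Type*} [Field F] (O : ValuationSubring F) (hp : p.Prime)
    (hpO : (p : F) ∈ O.nonunits) {ϖ η w : F} {t : ℕ} (hϖ : ϖ ∈ O.nonunits) (hϖ0 : ϖ ≠ 0)
    (hw : O.valuation w = 1) (hη : η = ϖ ^ t * w) {n : ℤ}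
    (h : ∃ r ∈ O, (n : F) * η = ϖ ^ (t + 1) * r) : (p : ℤ) ∣ n := by
  obtain ⟨r, hr, e⟩ := h
  apply int_dvd_of_mem_nonunits O hp hpO
  rw [ValuationSubring.mem_nonunits_iff]
  have hw0 : w ≠ 0 := by
    rintro rfl
    rw [map_zero] at hw
    exact zero_ne_one hw
  have e2 : (n : F) = ϖ * r * w⁻¹ := by
    have h3 : (n : F) * (ϖ ^ t * w) = (ϖ * r * w⁻¹) * (ϖ ^ t * w) := by
      rw [← hη, e, hη]
      field_simp
      ring
    exact mul_right_cancel₀ (mul_ne_zero (pow_ne_zero _ hϖ0) hw0) h3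
  rw [e2, map_mul, map_mul, map_inv₀, hw, inv_one, mul_one]
  exact mul_lt_one_of_nonneg_of_lt_one_left zero_le ((ValuationSubring.mem_nonunits_iff O).1 hϖ)
    ((O.valuation_le_one_iff _).2 hr)

end Fermat.Agent.TR.PL.AssemblyNewt
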