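/-
TR (row 38 through S44), node side, brick **(RAT)** of the (PL) cut v2 (architect's ruling #2).

`K''`-rationality of Kummer data: a torsion class of `J₀(N)` fixed by a set `H ⊆ G_ℚ` of
automorphisms has an `H`-fixed divisor and an `H`-fixed Kummer function; two `H`-fixed divisors
of the same class differ by the divisor of an `H`-fixed function.

Everything is a thin adapter on the canonical descent of `CAR/Formal/DescentCore.lean`
(no finiteness of the index of `H` and no inertia hypothesis are needed).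

* `exists_fixed_kummer`        : (RAT), divisor + function form;
* `exists_fixed_isKummerPair`  : (RAT) in `IsKummerPair` vocabulary;
* `exists_fixed_psi`           : (RAT-Ψ);
* `exists_fixed_psi_smul`      : (RAT-Ψ) for `σ • D` against `D + D'` (the shape of (CONST));
* `exists_const_mul_pow`       : two Kummer functions of the same class differ by a constant and
  a `p`-th power (to pass from the `H`-fixed Kummer function to an arbitrary one).
-/
import Mathlib
import Fermat.Agent.CAR.Formal.DescentCore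
import Fermat.Agent.BAD.LatFixedSub
import Fermat.Agent.ESJ.Jac.KummerPair

set_option autoImplicit false
set_option linter.unusedSectionVars false

namespace Fermat.Agent.TR.PL.Rat53

open AlgebraicCurve ModularCurve Fermat.Agent.BAD.Dict Fermat.Agent.BAD.LatFixedInst
open Fermat.Agent.ESJ.Jac Fermat.Agent.CAR.Formal.DescentCore

local notation "Qb" => AlgebraicClosure ℚ
local notation "GQ" => (AlgebraicClosure ℚ ≃ₐ[ℚ] AlgebraicClosure ℚ)

variable {N : ℕ} [NeZero N]

/-- **(RAT)**: an `m`-torsion class of `J₀(N)` fixed by `H` is the class of an `H`-fixed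
degree-zero divisor `D` with an `H`-fixed Kummer function `f₀` (`div f₀ = m • D`). -/
theorem exists_fixed_kummer (H : Set GQ) (m : ℕ) (x : JZero N) (hx : m • x = 0)
    (hfix : ∀ σ ∈ H, σ • x = x) :
    ∃ D : Divisor.degZero (K := Qb) (F := laurentBaseChange Qb (modularFunctionFieldFull N)),
      Pic0.mk D = x ∧
      (∀ σ ∈ H, arithmeticGalois (L := Qb) (modularFunctionFieldFull N) σ •
        (D : Divisor Qb (laurentBaseChange Qb (modularFunctionFieldFull N))) = D) ∧
      ∃ f₀ ∈ fixedFunOf H N, f₀ ≠ 0 ∧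
        ∀ P : Place Qb (laurentBaseChange Qb (modularFunctionFieldFull N)),
          P.ord f₀ = (m : ℤ) * (D : Divisor Qb (laurentBaseChange Qb (modularFunctionFieldFull N))) P := by
  obtain ⟨D, f, h1, h2, h3, h4, -⟩ :=
    Fermat.Agent.CAR.Formal.DescentCore.exists_fixed_kummer (N := N) H m x hx hfix
  refine ⟨D, h1.symm, h3, f, fun σ hσ => h4 σ hσ, h2.1, fun P => ?_⟩
  rw [← h2.2 P]
  simp

/-- **(RAT)**, `IsKummerPair` form. -/
theorem exists_fixed_isKummerPair (H : Set GQ) (m : ℕ) (x : JZero N) (hx : m • x = 0)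
    (hfix : ∀ σ ∈ H, σ • x = x) :
    ∃ (D : Divisor.degZero (K := Qb) (F := laurentBaseChange Qb (modularFunctionFieldFull N)))
      (f₀ : laurentBaseChange Qb (modularFunctionFieldFull N)),
      Pic0.mk D = x ∧
      (∀ σ ∈ H, arithmeticGalois (L := Qb) (modularFunctionFieldFull N) σ •
        (D : Divisor Qb (laurentBaseChange Qb (modularFunctionFieldFull N))) = D) ∧
      f₀ ∈ fixedFunOf H N ∧ f₀ ≠ 0 ∧
      (∀ P : Place Qb (laurentBaseChange Qb (modularFunctionFieldFull N)),
          P.ord f₀ = (m : ℤ) * (D : Divisor Qb (laurentBaseChange Qb (modularFunctionFieldFull N))) P) ∧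
      IsKummerPair m x f₀ := by
  obtain ⟨D, h1, h2, f₀, h3, h4, h5⟩ := exists_fixed_kummer H m x hx hfix
  exact ⟨D, f₀, h1, h2, h3, h4, h5, h4, D, h1, fun v => (h5 v).symm⟩

/-- **(RAT-Ψ)**: two `H`-fixed degree-zero divisors of the same class differ by the divisor of
an `H`-fixed function. -/
theorem exists_fixed_psi (H : Set GQ)
    (D₁ D₂ : Divisor.degZero (K := Qb) (F := laurentBaseChange Qb (modularFunctionFieldFull N)))
    (h₁ : ∀ σ ∈ H, arithmeticGalois (L := Qb) (modularFunctionFieldFull N) σ •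
        (D₁ : Divisor Qb (laurentBaseChange Qb (modularFunctionFieldFull N))) = D₁)
    (h₂ : ∀ σ ∈ H, arithmeticGalois (L := Qb) (modularFunctionFieldFull N) σ •
        (D₂ : Divisor Qb (laurentBaseChange Qb (modularFunctionFieldFull N))) = D₂)
    (hmk : Pic0.mk D₁ = Pic0.mk D₂) :
    ∃ Ψ ∈ fixedFunOf H N, Ψ ≠ 0 ∧
      ∀ P : Place Qb (laurentBaseChange Qb (modularFunctionFieldFull N)),
        P.ord Ψ = (D₁ : Divisor Qb (laurentBaseChange Qb (modularFunctionFieldFull N))) P -
          (D₂ : Divisor Qb (laurentBaseChange Qb (modularFunctionFieldFull N))) P := by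
  have hpr : (D₁ : Divisor Qb (laurentBaseChange Qb (modularFunctionFieldFull N))) -
      (D₂ : Divisor Qb (laurentBaseChange Qb (modularFunctionFieldFull N))) ∈
      Divisor.principal (K := Qb) (F := laurentBaseChange Qb (modularFunctionFieldFull N)) :=
    (pic0_mk_eq_mk_iff D₂ D₁).mp hmk.symm
  obtain ⟨g, hg, -, hgfix⟩ := exists_fixed_generator_modular (N := N) H _ hpr
    (fun σ hσ => by rw [smul_sub, h₁ σ hσ, h₂ σ hσ])
  refine ⟨g, fun σ hσ => hgfix σ hσ, hg.1, fun P => ?_⟩
  rw [← hg.2 P, Finsupp.sub_apply]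

/-- A principal divisor fixed by `H` is the divisor of an `H`-fixed function. -/
theorem exists_fixed_of_principal (H : Set GQ)
    (E : Divisor Qb (laurentBaseChange Qb (modularFunctionFieldFull N)))
    (hE : E ∈ Divisor.principal (K := Qb) (F := laurentBaseChange Qb (modularFunctionFieldFull N)))
    (hfix : ∀ σ ∈ H, arithmeticGalois (L := Qb) (modularFunctionFieldFull N) σ • E = E) :
    ∃ Ψ ∈ fixedFunOf H N, Ψ ≠ 0 ∧
      ∀ P : Place Qb (laurentBaseChange Qb (modularFunctionFieldFull N)), P.ord Ψ = E P := by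
  obtain ⟨g, hg, -, hgfix⟩ := exists_fixed_generator_modular (N := N) H E hE hfix
  exact ⟨g, fun σ hσ => hgfix σ hσ, hg.1, fun P => (hg.2 P).symm⟩

/-- If `σ` normalises `H` (in the form `σ⁻¹ τ σ ∈ H`), then `σ` maps `H`-fixed divisors to
`H`-fixed divisors. -/
theorem smul_divisor_fixed {H : Set GQ} {σ : GQ} (hσ : ∀ τ ∈ H, σ⁻¹ * τ * σ ∈ H)
    {D : Divisor Qb (laurentBaseChange Qb (modularFunctionFieldFull N))}
    (hD : ∀ τ ∈ H, arithmeticGalois (L := Qb) (modularFunctionFieldFull N) τ • D = D) :
    ∀ τ ∈ H, arithmeticGalois (L := Qb) (modularFunctionFieldFull N) τ •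
      (arithmeticGalois (L := Qb) (modularFunctionFieldFull N) σ • D) =
      arithmeticGalois (L := Qb) (modularFunctionFieldFull N) σ • D := by
  intro τ hτ
  have h1 := hD _ (hσ τ hτ)
  have e : τ * σ = σ * (σ⁻¹ * τ * σ) := by group
  rw [← mul_smul, ← map_mul, e, map_mul, mul_smul, h1]

/-- If `σ` normalises `H` (in the form `σ⁻¹ τ σ ∈ H`), then `σ` maps `H`-fixed functions to
`H`-fixed functions. -/
theorem smul_mem_fixedFunOf {H : Set GQ} {σ : GQ} (hσ : ∀ τ ∈ H, σ⁻¹ * τ * σ ∈ H)
    {f : laurentBaseChange Qb (modularFunctionFieldFull N)} (hf : f ∈ fixedFunOf H N) :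
    arithmeticGalois (L := Qb) (modularFunctionFieldFull N) σ • f ∈ fixedFunOf H N := by
  intro τ hτ
  have h1 := hf _ (hσ τ hτ)
  have e : τ * σ = σ * (σ⁻¹ * τ * σ) := by group
  rw [← mul_smul, ← map_mul, e, map_mul, mul_smul, h1]

/-- **(RAT-Ψ), the shape of (CONST)**: for `σ` normalising `H`, an `H`-fixed degree-zero divisor
`D` and an `H`-fixed degree-zero divisor `D'` of class `σ • [D] - [D]`, there is an `H`-fixed
function `Ψ` with `div Ψ = σ • D - D - D'`. -/
theorem exists_fixed_psi_smul (H : Set GQ) (σ : GQ) (hσ : ∀ τ ∈ H, σ⁻¹ * τ * σ ∈ H)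
    (D D' : Divisor.degZero (K := Qb) (F := laurentBaseChange Qb (modularFunctionFieldFull N)))
    (hD : ∀ τ ∈ H, arithmeticGalois (L := Qb) (modularFunctionFieldFull N) τ •
        (D : Divisor Qb (laurentBaseChange Qb (modularFunctionFieldFull N))) = D)
    (hD' : ∀ τ ∈ H, arithmeticGalois (L := Qb) (modularFunctionFieldFull N) τ •
        (D' : Divisor Qb (laurentBaseChange Qb (modularFunctionFieldFull N))) = D')
    (hmk : Pic0.mk D' = σ • (Pic0.mk D : JZero N) - Pic0.mk D) :
    ∃ Ψ ∈ fixedFunOf H N, Ψ ≠ 0 ∧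
      ∀ P : Place Qb (laurentBaseChange Qb (modularFunctionFieldFull N)),
        P.ord Ψ = (arithmeticGalois (L := Qb) (modularFunctionFieldFull N) σ •
            (D : Divisor Qb (laurentBaseChange Qb (modularFunctionFieldFull N)))) P -
          (D : Divisor Qb (laurentBaseChange Qb (modularFunctionFieldFull N))) P -
          (D' : Divisor Qb (laurentBaseChange Qb (modularFunctionFieldFull N))) P := by
  have hσD : ∀ τ ∈ H, arithmeticGalois (L := Qb) (modularFunctionFieldFull N) τ •
      ((SemilinearAut.degZeroSMulHom (arithmeticGalois (L := Qb) (modularFunctionFieldFull N) σ) D :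
        Divisor.degZero (K := Qb) (F := laurentBaseChange Qb (modularFunctionFieldFull N))) :
        Divisor Qb (laurentBaseChange Qb (modularFunctionFieldFull N))) =
      (SemilinearAut.degZeroSMulHom (arithmeticGalois (L := Qb) (modularFunctionFieldFull N) σ) D :
        Divisor.degZero (K := Qb) (F := laurentBaseChange Qb (modularFunctionFieldFull N))) :=
    smul_divisor_fixed hσ hD
  have hmk' : Pic0.mk (SemilinearAut.degZeroSMulHom
      (arithmeticGalois (L := Qb) (modularFunctionFieldFull N) σ) D) = Pic0.mk (D + D') := by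
    rw [Pic0.mk_add, hmk]
    show arithmeticGalois (L := Qb) (modularFunctionFieldFull N) σ • Pic0.mk D = _
    abel
  have hDD' : ∀ τ ∈ H, arithmeticGalois (L := Qb) (modularFunctionFieldFull N) τ •
      ((D + D' : Divisor.degZero (K := Qb)
        (F := laurentBaseChange Qb (modularFunctionFieldFull N))) :
        Divisor Qb (laurentBaseChange Qb (modularFunctionFieldFull N))) = (D + D' :
        Divisor.degZero (K := Qb) (F := laurentBaseChange Qb (modularFunctionFieldFull N))) := by
    intro τ hτ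
    rw [AddSubgroup.coe_add, smul_add, hD τ hτ, hD' τ hτ]
  obtain ⟨Ψ, hΨ, hΨ0, hord⟩ := exists_fixed_psi H _ _ hσD hDD' hmk'
  refine ⟨Ψ, hΨ, hΨ0, fun P => ?_⟩
  rw [hord P, AddSubgroup.coe_add, Finsupp.add_apply]
  show (arithmeticGalois (L := Qb) (modularFunctionFieldFull N) σ •
      (D : Divisor Qb (laurentBaseChange Qb (modularFunctionFieldFull N)))) P - _ = _
  ring

/-- Two Kummer functions of the same class differ by a nonzero constant and an `n`-th power. -/
theorem exists_const_mul_pow {n : ℕ} {x : JZero N}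
    {f f' : laurentBaseChange Qb (modularFunctionFieldFull N)}
    (h : IsKummerPair n x f) (h' : IsKummerPair n x f') :
    ∃ (c : Qb) (g : laurentBaseChange Qb (modularFunctionFieldFull N)), c ≠ 0 ∧ g ≠ 0 ∧
      f' = algebraMap Qb (laurentBaseChange Qb (modularFunctionFieldFull N)) c * f * g ^ n := by
  obtain ⟨u, g, hu, hg, hu0, e⟩ := h.exists_eq_mul_pow h'
  obtain ⟨c, hc, rfl⟩ := exists_const_of_isDiv_zero (N := N) (u := u)
    ⟨hu, fun v => by rw [hu0 v, Finsupp.zero_apply]⟩
  exact ⟨c, g, hc, hg, e⟩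

end Fermat.Agent.TR.PL.Rat53
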