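/-
TR / (PL): THE ASSEMBLY of `PLInf` (architect: helper40), part 1 — from the NUMERICAL PACKAGE.

`NumericAt h p x` : the class `x` has ONE Kummer function `f₀`, a unit of `O_∞`, together with
integers attached to a family of places `e₁ i` (the nodes):

* the thickness `kk i` with `ord_{e₁ i} Δ̄ · kk i = 12`;
* the NEWTON relation `N = e · kk i · a i + p · γ i` (`e = p^t (p - 1)`, `t ≤ 1`, the
  ramification index of the field of definition; `N` the order of `f₀` at the second Gauss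
  valuation; `γ i` the vertical invariant of the local generator at the node `i`);
* `ord_{e₁ i} (redInf f₀) = a i + p · δ i`;
* in the wild case `t = 1` : the `γ i` are congruent to each other modulo `p` (the `σ`-gluing);
* the dictionary: every non-cuspidal place with `0 < ord Δ̄` is one of the `e₁ i`.

`plConcl_of_numericAt` : then `PLConcl h p f hf` holds for EVERY Kummer function `f` of `x` which
is a unit of `O_∞` (arithmetic: `AssemblyNewt.assembly_newt`; transfer between Kummer functions: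
two of them differ by a constant and a `p`-th power).

`PLNumeric` : the numerical package under the hypotheses of `TR.Top.TRKey`;
`plInf_of_numeric : PLNumeric → PLInf`.
-/
import Mathlib
import Fermat.Agent.TR.PL.Seam
import Fermat.Agent.TR.PL.Rat53
import Fermat.Agent.TR.PL.AssemblyNewt
import Fermat.Agent.S24.PlaceBasic

set_option autoImplicit false
set_option linter.unusedSectionVars false

noncomputable section

namespace Fermat.Agent.TR.PL.Asm

open AlgebraicCurve ModularCurve Fermat.Agent.BAD.TwoVal Fermat.Agent.BAD.BadU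
  Fermat.Agent.TR.Unit.FDelta Fermat.Agent.ESJ.Jac Fermat.Agent.TR.PL.Seam

local notation "Qb" => AlgebraicClosure ℚ
local notation "GQ" => (AlgebraicClosure ℚ ≃ₐ[ℚ] AlgebraicClosure ℚ)

variable {A : ValuationSubring Qb} {k : Type} [Field k] {π : A →+* k} {M q : ℕ} [NeZero M]
  [NeZero q]

/-- **Transfer between Kummer functions**: two Kummer functions of the same class which are units
of `O_∞` have reductions whose orders at every place are congruent modulo `n`. -/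
theorem ord_redInf_congr (h : BadSetup A π M q) {n : ℕ} {x : JZero (M * q)}
    {f f' : laurentBaseChange Qb (modularFunctionFieldFull (M * q))}
    (hk : IsKummerPair n x f) (hk' : IsKummerPair n x f') (hf : f ∈ OInf h) (hfi : f⁻¹ ∈ OInf h)
    (hf' : f' ∈ OInf h) (hfi' : f'⁻¹ ∈ OInf h)
    (Q : Place k (modularFunctionFieldFullC k M)) :
    (n : ℤ) ∣ Q.ord (redInf h ⟨f', hf'⟩) - Q.ord (redInf h ⟨f, hf⟩) := by
  obtain ⟨c, g, hc, hg, e⟩ := Fermat.Agent.TR.PL.Rat53.exists_const_mul_pow hk hk'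
  have hf0 : f ≠ 0 := hk.1
  have hf'0 : f' ≠ 0 := hk'.1
  -- normalise `g` to a unit of `O_∞`
  obtain ⟨b, hb, hm, hne⟩ := exists_scaling_OInf h g hg
  set g₁ : laurentBaseChange Qb (modularFunctionFieldFull (M * q)) :=
    algebraMap Qb _ b * g with hg₁
  have hg₁0 : g₁ ≠ 0 := mul_ne_zero (by simpa using hb) hg
  have hg₁i : g₁⁻¹ ∈ OInf h := inv_mem_OInf h g₁ hm hne
  -- the constant
  set c₁ : Qb := c * (b⁻¹) ^ n with hc₁
  have hc₁0 : c₁ ≠ 0 := mul_ne_zero hc (pow_ne_zero _ (inv_ne_zero hb))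
  have hbb : (algebraMap Qb (laurentBaseChange Qb (modularFunctionFieldFull (M * q))) b⁻¹) ^ n *
      (algebraMap Qb (laurentBaseChange Qb (modularFunctionFieldFull (M * q))) b) ^ n = 1 := by
    rw [← mul_pow, ← map_mul, inv_mul_cancel₀ hb, map_one, one_pow]
  have e' : f' = algebraMap Qb _ c₁ * f * g₁ ^ n := by
    rw [e, hc₁, hg₁, map_mul, map_pow, mul_pow]
    have h3 : algebraMap Qb (laurentBaseChange Qb (modularFunctionFieldFull (M * q))) c *
        (algebraMap Qb (laurentBaseChange Qb (modularFunctionFieldFull (M * q))) b⁻¹) ^ n * f *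
        ((algebraMap Qb (laurentBaseChange Qb (modularFunctionFieldFull (M * q))) b) ^ n * g ^ n) =
        algebraMap Qb (laurentBaseChange Qb (modularFunctionFieldFull (M * q))) c * f * g ^ n *
        ((algebraMap Qb (laurentBaseChange Qb (modularFunctionFieldFull (M * q))) b⁻¹) ^ n *
          (algebraMap Qb (laurentBaseChange Qb (modularFunctionFieldFull (M * q))) b) ^ n) := by
      ring
    rw [h3, hbb, mul_one]
  have hff : f * f⁻¹ = 1 := mul_inv_cancel₀ hf0
  have hgg : g₁ ^ n * (g₁⁻¹) ^ n = 1 := by rw [← mul_pow, mul_inv_cancel₀ hg₁0, one_pow]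
  have hC : algebraMap Qb (laurentBaseChange Qb (modularFunctionFieldFull (M * q))) c₁ =
      f' * f⁻¹ * (g₁⁻¹) ^ n := by
    have h4 : f' * f⁻¹ * (g₁⁻¹) ^ n =
        algebraMap Qb (laurentBaseChange Qb (modularFunctionFieldFull (M * q))) c₁ * (f * f⁻¹) *
          (g₁ ^ n * (g₁⁻¹) ^ n) := by
      rw [e']
      ring
    rw [h4, hff, hgg, mul_one, mul_one]
  have hCi : (algebraMap Qb (laurentBaseChange Qb (modularFunctionFieldFull (M * q))) c₁)⁻¹ =
      f'⁻¹ * f * g₁ ^ n := by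
    rw [e']
    field_simp
  have hCm : algebraMap Qb (laurentBaseChange Qb (modularFunctionFieldFull (M * q))) c₁ ∈ OInf h := by
    rw [hC]
    exact (OInf h).mul_mem _ _ ((OInf h).mul_mem _ _ hf' hfi) ((OInf h).pow_mem hg₁i n)
  have hCim : (algebraMap Qb (laurentBaseChange Qb (modularFunctionFieldFull (M * q))) c₁)⁻¹ ∈
      OInf h := by
    rw [hCi]
    exact (OInf h).mul_mem _ _ ((OInf h).mul_mem _ _ hfi' hf) ((OInf h).pow_mem hm n)
  have hc₁A : c₁ ∈ A := (algebraMap_mem_OInf_iff h c₁).1 hCm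
  -- reductions
  have hrC : redInf h ⟨_, hCm⟩ = algebraMap k ↥(modularFunctionFieldFullC k M) (π ⟨c₁, hc₁A⟩) :=
    redInf_algebraMap h ⟨c₁, hc₁A⟩ hCm
  have hrCne : redInf h ⟨_, hCm⟩ ≠ 0 :=
    redInf_ne_zero_of_inv_mem h _ (by simpa using hc₁0) hCm hCim
  have hrf : redInf h ⟨f, hf⟩ ≠ 0 := redInf_ne_zero_of_inv_mem h f hf0 hf hfi
  have hprod : redInf h ⟨f', hf'⟩ =
      redInf h ⟨_, hCm⟩ * redInf h ⟨f, hf⟩ * redInf h ⟨g₁, hm⟩ ^ n := by
    rw [← map_pow, ← map_mul, ← map_mul]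
    congr 1
    exact Subtype.ext e'
  have hpne : redInf h ⟨g₁, hm⟩ ^ n ≠ 0 := pow_ne_zero _ hne
  rw [hprod, Q.ord_mul (mul_ne_zero hrCne hrf) hpne, Q.ord_mul hrCne hrf, hrC,
    Fermat.Agent.S24.ord_algebraMap, Fermat.Agent.ESJ.Jac.ord_pow]
  exact ⟨Q.ord (redInf h ⟨g₁, hm⟩), by ring⟩

/-- **The numerical package of (PL)** at one class `x` (see the header). -/
def NumericAt (h : BadSetup A π M q) (p : ℕ) (x : JZero (M * q)) : Prop :=
  ∃ (f₀ : laurentBaseChange Qb (modularFunctionFieldFull (M * q))) (hf₀ : f₀ ∈ OInf h),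
    IsKummerPair p x f₀ ∧ f₀⁻¹ ∈ OInf h ∧
    ∃ (ι : Type) (e₁ : ι → Place k (modularFunctionFieldFullC k M)) (kk a γ δ : ι → ℤ)
      (e N : ℤ) (t : ℕ),
      t ≤ 1 ∧ e = (p : ℤ) ^ t * ((p : ℤ) - 1) ∧
      (∀ Q : Place k (modularFunctionFieldFullC k M), NonCusp Q → 0 < Q.ord (deltaBar h) →
        ∃ i, Q = e₁ i) ∧
      (∀ i, (e₁ i).ord (deltaBar h) * kk i = 12) ∧
      (∀ i, N = e * kk i * a i + p * γ i) ∧
      (∀ i, (e₁ i).ord (redInf h ⟨f₀, hf₀⟩) = a i + p * δ i) ∧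
      (t = 1 → ∀ i j, γ i ≡ γ j [ZMOD p])

/-- From the numerical package to the conclusion of (PL∞), for every Kummer function of `x` which
is a unit of `O_∞`. -/
theorem plConcl_of_numericAt (h : BadSetup A π M q) {p : ℕ} (hp : p.Prime) (hp5 : 5 ≤ p)
    {x : JZero (M * q)} (hnum : NumericAt h p x)
    (f : laurentBaseChange Qb (modularFunctionFieldFull (M * q))) (hk : IsKummerPair p x f)
    (hf : f ∈ OInf h) (hfi : f⁻¹ ∈ OInf h) : PLConcl h p f hf := by
  obtain ⟨f₀, hf₀, hk₀, hf₀i, ι, e₁, kk, a, γ, δ, e, N, t, ht, he, hdict, hAk, hrel, hm, hγ⟩ :=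
    hnum
  obtain ⟨c, hc⟩ := Fermat.Agent.TR.PL.AssemblyNewt.assembly_newt hp hp5 kk a
    (fun i => (e₁ i).ord (deltaBar h)) γ (fun i => (e₁ i).ord (redInf h ⟨f₀, hf₀⟩)) δ ht he hAk
    hrel hm hγ
  refine ⟨c, fun Q hQ hQΔ => ?_⟩
  obtain ⟨i, rfl⟩ := hdict Q hQ hQΔ
  have h1 := ord_redInf_congr h hk₀ hk hf₀ hf₀i hf hfi (e₁ i)
  have h2 := hc i
  have e3 : (e₁ i).ord (redInf h ⟨f, hf⟩) - c * (e₁ i).ord (deltaBar h) =
      ((e₁ i).ord (redInf h ⟨f, hf⟩) - (e₁ i).ord (redInf h ⟨f₀, hf₀⟩)) +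
        ((e₁ i).ord (redInf h ⟨f₀, hf₀⟩) - c * (e₁ i).ord (deltaBar h)) := by ring
  rw [e3]
  exact dvd_add h1 h2

/-- **The numerical package under the hypotheses of `TR.Top.TRKey`** (binders verbatim). -/
def PLNumeric : Prop :=
  ∀ (A : ValuationSubring Qb) (M p : ℕ) [NeZero M] [NeZero p]
    (h : BadSetup A (IsLocalRing.residue A) M p), A.LiesOverPrime p → 5 ≤ p →
    ∀ W : laurentBaseChange Qb (modularFunctionFieldFull (M * p)) ≃ₐ[Qb]
      laurentBaseChange Qb (modularFunctionFieldFull (M * p)), IsAL M p W →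
    ∀ V L : AddSubgroup (JZero (M * p)), L ≤ V → (∀ x ∈ V, p • x = 0) →
      Nat.card V = p ^ 2 → Nat.card L = p →
    (∀ σ ∈ A.inertiaSubgroupIn ℚ, ∀ v ∈ V, σ • v - v ∈ L) →
    (∀ σ ∈ A.inertiaSubgroupIn ℚ, ∀ a : ℕ, (∀ μ : Qb, μ ^ p = 1 → σ μ = μ ^ a) →
      ∀ v ∈ L, σ • v = a • v) →
    (∀ σ ∈ A.inertiaSubgroupIn ℚ, ∀ ρ : A.ValueGroup, ρ ^ (p - 1) < A.valuation ((p : ℕ) : Qb) →
      (∀ c ∈ A, (∀ τ ∈ A.inertiaSubgroupIn ℚ, (∀ x ∈ V, τ • x = x) → τ c = c) →
        A.valuation (σ c - c) ≤ ρ) →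
      ∀ x ∈ V, σ • x = x) →
    ∀ x ∈ V, NumericAt h p x

/-- **(PL∞) from the numerical package.** -/
theorem plInf_of_numeric (hnum : PLNumeric) : PLInf := by
  intro A M p _ _ h hA hp5 W hW V L hLV hpV hcardV hcardL hquot hcyc hdeep x hx f hk hf hfi
  exact plConcl_of_numericAt h h.hℓ hp5
    (hnum A M p h hA hp5 W hW V L hLV hpV hcardV hcardL hquot hcyc hdeep x hx) f hk hf hfi

end Fermat.Agent.TR.PL.Asm
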