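import Mathlib
import Fermat.Agent.BAD.LatFixedSub
import Fermat.Agent.TR.Unit.FDelta
import Fermat.Agent.TR.Unit.FDeltaGal

/-!
# TR / (PL-B): base change to a ramified extension `K''` of `K0 = ℚ̄^I`, for single functions

Setting of `BAD/LatFixedSub.lean`: `A` a valuation subring of `ℚ̄` over the prime `q`, `I` its
inertia group, `F = ℚ̄·F_{Mq}` with its two Gauss valuation rings `O_∞ = OInf h`,
`O_0 = OZero h W`; `H ≤ I` a subgroup with finitely many cosets in `I` (coset representatives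
`ρ`), `K'' = fixedSubfieldOf H`, the `K''`-rational functions are `fixedFunOf H (M * q)`.

* `exists_fixed_coeff` : a `K''`-rational function is a `K''`-combination of an `I`-fixed
  `O`-orthonormal family;
* **norm form** `exists_fixed_const_inf`, `exists_fixed_const_zero`, `exists_fixed_const_pair` :
  a nonzero `K''`-rational function is a `K''`-constant times a unit of `O_∞` (resp. `O_0`): the
  Gauss norms of `K''`-rational functions are norms of `K''`-constants;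
* **`σ`-form** `galois_sub_mem_inf`, `galois_sub_mem_zero`, `galois_sub_dvd_pair` : if `σ ∈ I`
  is congruent to the identity modulo `c` on `A ∩ K''`, it is congruent to the identity modulo
  `c` on the `K''`-rational elements of `O_∞` (resp. `O_0`, `O_∞ ∩ O_0`);
* `galois_eq_inf`, `galois_eq_zero` : for `g ≠ 0` `K''`-rational, `σ g = (σ a / a) g (1 + c y)`
  with `a ∈ K''ˣ` and `y ∈ O_∞` (resp. `O_0`).

No uniformiser of `K''` and no decomposition `F'' = ⊕ F0 ϖ^i` is needed.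
-/

set_option autoImplicit false
set_option linter.unusedSectionVars false
set_option linter.style.haveILetI false

namespace Fermat.Agent.TR.PL.BaseChangeSigma

open HahnSeries ModularCurve AlgebraicCurve Fermat.Agent.Lib.Red Fermat.Agent.BAD.TwoVal
open Fermat.Agent.Lib.Red.Deform Fermat.Agent.BAD.LatFixed Fermat.Agent.BAD.LatFixedInst
open Fermat.Agent.TR.Unit.FDelta Fermat.Agent.CAR.V3

local notation "Qb" => AlgebraicClosure ℚ
local notation "GQ" => (AlgebraicClosure ℚ ≃ₐ[ℚ] AlgebraicClosure ℚ)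

noncomputable section

variable {q : ℕ} {A : ValuationSubring Qb} {k : Type} [Field k] {π : A →+* k} {M : ℕ}
  [NeZero M] [NeZero q]
  {W : laurentBaseChange Qb (modularFunctionFieldFull (M * q)) ≃ₐ[Qb]
    laurentBaseChange Qb (modularFunctionFieldFull (M * q))}

/-! ### Coefficients in an inertia-fixed orthonormal family -/

/-- **A `K''`-rational function is a `K''`-combination of an `I`-fixed orthonormal family.** -/
theorem exists_fixed_coeff (hq : q.Prime) (hA : A.LiesOverPrime q)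
    (h : BadSetup A π M q) (hsurj : Function.Surjective π) (hW : IsAL M q W)
    (H : Subgroup GQ) (hH : ∀ σ ∈ H, σ ∈ A.inertiaSubgroupIn ℚ)
    {m : ℕ} (ρ : Fin m → GQ) (hρI : ∀ j, ρ j ∈ A.inertiaSubgroupIn ℚ)
    (hρ : ∀ σ ∈ A.inertiaSubgroupIn ℚ, ∃ j, ∃ τ ∈ H, σ = ρ j * τ)
    {g : laurentBaseChange Qb (modularFunctionFieldFull (M * q))}
    (hg : g ∈ fixedFunOf (H : Set GQ) (M * q)) :
    ∃ (n : ℕ) (b : Fin n → laurentBaseChange Qb (modularFunctionFieldFull (M * q)))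
      (a : Fin n → Qb),
      (∀ i, ∀ σ ∈ A.inertiaSubgroupIn ℚ,
        arithmeticGalois (L := Qb) (modularFunctionFieldFull (M * q)) σ • b i = b i) ∧
      LinearIndependent Qb b ∧ (∀ i, b i ∈ OPair h W) ∧
      (∀ c : Fin n → Qb, ∑ i, c i • b i ∈ OPair h W → ∀ i, c i ∈ A) ∧
      (∀ i, a i ∈ fixedSubfieldOf (H : Set GQ)) ∧ g = ∑ i, a i • b i := by
  classical
  let V : Submodule Qb (laurentBaseChange Qb (modularFunctionFieldFull (M * q))) :=
    Submodule.span Qb {g}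
  have hV : ∀ σ ∈ H, ∀ f ∈ V,
      arithmeticGalois (L := Qb) (modularFunctionFieldFull (M * q)) σ • f ∈ V := by
    intro σ hσ f hf
    obtain ⟨c, rfl⟩ := Submodule.mem_span_singleton.1 hf
    rw [Fermat.Agent.Padic.arithmeticGalois_smul_const_smul, hg σ hσ]
    exact Submodule.smul_mem _ _ (Submodule.mem_span_singleton_self g)
  obtain ⟨V', hfin, hVV', hV'⟩ := exists_stable_superspace (A := A) H ρ hρI hρ V hV
  obtain ⟨n, b, hbfix, hli, hspan, hbO, hortho⟩ :=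
    exists_fixed_ortho_basis hq hA h hsurj hW V' hV'
  have hgV' : g ∈ V' := hVV' (Submodule.mem_span_singleton_self g)
  rw [← hspan] at hgV'
  obtain ⟨c, hc⟩ := (Submodule.mem_span_range_iff_exists_fun Qb).1 hgV'
  refine ⟨n, b, c, hbfix, hli, hbO, hortho, fun i σ hσ => ?_, hc.symm⟩
  have h1 := hg σ hσ
  rw [← hc] at h1
  exact (sum_fixed_iff_coeff hli hbfix (hH σ hσ) c).1 h1 i

/-! ### The pair `O = O_∞ ∩ O_0` -/

/-- **`σ`-form on `O`.**  If `σ ∈ I` is congruent to the identity modulo `c` on `A ∩ K''`, then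
`σ g - g ∈ c·O` for every `K''`-rational `g ∈ O`. -/
theorem galois_sub_dvd_pair (hq : q.Prime) (hA : A.LiesOverPrime q)
    (h : BadSetup A π M q) (hsurj : Function.Surjective π) (hW : IsAL M q W)
    (H : Subgroup GQ) (hH : ∀ σ ∈ H, σ ∈ A.inertiaSubgroupIn ℚ)
    {m : ℕ} (ρ : Fin m → GQ) (hρI : ∀ j, ρ j ∈ A.inertiaSubgroupIn ℚ)
    (hρ : ∀ σ ∈ A.inertiaSubgroupIn ℚ, ∃ j, ∃ τ ∈ H, σ = ρ j * τ)
    {σ : GQ} (hσ : σ ∈ A.inertiaSubgroupIn ℚ) (c : Qb)
    (hσc : ∀ a ∈ fixedSubfieldOf (H : Set GQ), a ∈ A → ∃ b ∈ A, σ a - a = c * b)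
    {g : laurentBaseChange Qb (modularFunctionFieldFull (M * q))}
    (hg : g ∈ fixedFunOf (H : Set GQ) (M * q)) (hgO : g ∈ OPair h W) :
    Dvd (OPair h W) c
      (arithmeticGalois (L := Qb) (modularFunctionFieldFull (M * q)) σ • g - g) := by
  classical
  obtain ⟨n, b, a, hbfix, hli, hbO, hortho, haH, rfl⟩ :=
    exists_fixed_coeff hq hA h hsurj hW H hH ρ hρI hρ hg
  have haA : ∀ i, a i ∈ A := (sum_mem_OPair_iff h hbO hortho a).1 hgO
  choose d hdA hd using fun i => hσc (a i) (haH i) (haA i)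
  refine ⟨∑ i, d i • b i, (sum_mem_OPair_iff h hbO hortho d).2 hdA, ?_⟩
  rw [galois_sum hbfix hσ, ← Finset.sum_sub_distrib, ← Algebra.smul_def, Finset.smul_sum]
  refine Finset.sum_congr rfl (fun i _ => ?_)
  rw [← sub_smul, hd i, mul_smul]

/-- **Norm form on `O`.**  A nonzero `K''`-rational function is a `K''`-constant times an element
of `O` of exact norm one. -/
theorem exists_fixed_const_pair (hq : q.Prime) (hA : A.LiesOverPrime q)
    (h : BadSetup A π M q) (hsurj : Function.Surjective π) (hW : IsAL M q W)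
    (H : Subgroup GQ) (hH : ∀ σ ∈ H, σ ∈ A.inertiaSubgroupIn ℚ)
    {m : ℕ} (ρ : Fin m → GQ) (hρI : ∀ j, ρ j ∈ A.inertiaSubgroupIn ℚ)
    (hρ : ∀ σ ∈ A.inertiaSubgroupIn ℚ, ∃ j, ∃ τ ∈ H, σ = ρ j * τ)
    {g : laurentBaseChange Qb (modularFunctionFieldFull (M * q))}
    (hg : g ∈ fixedFunOf (H : Set GQ) (M * q)) (hg0 : g ≠ 0) :
    ∃ a : Qb, a ≠ 0 ∧ a ∈ fixedSubfieldOf (H : Set GQ) ∧ a⁻¹ • g ∈ OPair h W ∧
      ∀ d : Qb, d • (a⁻¹ • g) ∈ OPair h W → d ∈ A := by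
  classical
  obtain ⟨n, b, a, hbfix, hli, hbO, hortho, haH, rfl⟩ :=
    exists_fixed_coeff hq hA h hsurj hW H hH ρ hρI hρ hg
  have hne : (Finset.univ : Finset (Fin n)).Nonempty := by
    rw [Finset.univ_nonempty_iff]
    by_contra hemp
    rw [not_nonempty_iff] at hemp
    exact hg0 (Finset.sum_of_isEmpty _)
  obtain ⟨j, -, hj⟩ := Finset.exists_max_image Finset.univ (fun i => A.valuation (a i)) hne
  have haj : a j ≠ 0 := by
    intro h0
    apply hg0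
    refine Finset.sum_eq_zero (fun i _ => ?_)
    have h1 : A.valuation (a i) ≤ A.valuation (a j) := hj i (Finset.mem_univ i)
    rw [h0, map_zero, le_zero_iff, map_eq_zero] at h1
    rw [h1, zero_smul]
  have hvj : 0 < A.valuation (a j) := zero_lt_iff.2 ((Valuation.ne_zero_iff _).2 haj)
  have e : ∀ d : Qb, d • ((a j)⁻¹ • ∑ i, a i • b i) = ∑ i, (d * ((a j)⁻¹ * a i)) • b i := by
    intro d
    rw [Finset.smul_sum, Finset.smul_sum]
    refine Finset.sum_congr rfl (fun i _ => ?_)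
    rw [smul_smul, smul_smul, mul_assoc]
  refine ⟨a j, haj, haH j, ?_, fun d hd => ?_⟩
  · have e1 := e 1
    rw [one_smul] at e1
    rw [e1, sum_mem_OPair_iff h hbO hortho]
    intro i
    rw [one_mul, ← A.valuation_le_one_iff, map_mul, map_inv₀, inv_mul_le_iff₀ hvj, mul_one]
    exact hj i (Finset.mem_univ i)
  · rw [e d, sum_mem_OPair_iff h hbO hortho] at hd
    have h1 := hd j
    rwa [inv_mul_cancel₀ haj, mul_one] at h1

/-! ### A single valuation: abstract form with a separating unit -/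

section Sep

variable (hq : q.Prime) (hA : A.LiesOverPrime q)
  (h : BadSetup A π M q) (hsurj : Function.Surjective π) (hW : IsAL M q W)
  (H : Subgroup GQ) (hH : ∀ σ ∈ H, σ ∈ A.inertiaSubgroupIn ℚ)
  {m : ℕ} (ρ : Fin m → GQ) (hρI : ∀ j, ρ j ∈ A.inertiaSubgroupIn ℚ)
  (hρ : ∀ σ ∈ A.inertiaSubgroupIn ℚ, ∃ j, ∃ τ ∈ H, σ = ρ j * τ)
  (O₁ O₂ : ValuationSubring (laurentBaseChange Qb (modularFunctionFieldFull (M * q))))
  (hpair : ∀ x : laurentBaseChange Qb (modularFunctionFieldFull (M * q)),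
    x ∈ OPair h W ↔ x ∈ O₁ ∧ x ∈ O₂)
  (hconst : ∀ a : Qb,
    algebraMap Qb (laurentBaseChange Qb (modularFunctionFieldFull (M * q))) a ∈ O₁ ↔ a ∈ A)
  (hscal : ∀ x : laurentBaseChange Qb (modularFunctionFieldFull (M * q)), x ≠ 0 →
    ∃ a : Qb, a ≠ 0 ∧ a • x ∈ O₁ ∧ (a • x)⁻¹ ∈ O₁)
  (w : laurentBaseChange Qb (modularFunctionFieldFull (M * q))) (hw0 : w ≠ 0)
  (hwfix : ∀ σ : GQ,
    arithmeticGalois (L := Qb) (modularFunctionFieldFull (M * q)) σ • w = w)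
  (hw : w ∈ O₁) (hw' : w⁻¹ ∈ O₁)
  (harch : ∀ x : laurentBaseChange Qb (modularFunctionFieldFull (M * q)),
    ∃ n : ℕ, w ^ n * x ∈ O₂)

include hwfix in
theorem pow_mul_mem_fixedFunOf (n : ℕ)
    {g : laurentBaseChange Qb (modularFunctionFieldFull (M * q))}
    (hg : g ∈ fixedFunOf (H : Set GQ) (M * q)) :
    w ^ n * g ∈ fixedFunOf (H : Set GQ) (M * q) := by
  intro σ hσ
  rw [smul_mul', smul_pow', hwfix σ, hg σ hσ]

include hq hA hsurj hW hH hρI hρ hpair hw0 hwfix hw hw' harch in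
/-- **`σ`-form for one valuation** (abstract). -/
theorem galois_sub_mem_of_sep {σ : GQ} (hσ : σ ∈ A.inertiaSubgroupIn ℚ) (c : Qb)
    (hσc : ∀ a ∈ fixedSubfieldOf (H : Set GQ), a ∈ A → ∃ b ∈ A, σ a - a = c * b)
    {g : laurentBaseChange Qb (modularFunctionFieldFull (M * q))}
    (hg : g ∈ fixedFunOf (H : Set GQ) (M * q)) (hgO : g ∈ O₁) :
    ∃ y ∈ O₁, arithmeticGalois (L := Qb) (modularFunctionFieldFull (M * q)) σ • g - g =
      c • y := by
  obtain ⟨n, hn⟩ := harch g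
  have hg1 : w ^ n * g ∈ OPair h W := (hpair _).2 ⟨O₁.mul_mem _ _ (O₁.pow_mem hw n) hgO, hn⟩
  obtain ⟨o, ho, heq⟩ := galois_sub_dvd_pair hq hA h hsurj hW H hH ρ hρI hρ hσ c hσc
    (pow_mul_mem_fixedFunOf H w hwfix n hg) hg1
  have ho1 : o ∈ O₁ := ((hpair o).1 ho).1
  refine ⟨(w⁻¹) ^ n * o, O₁.mul_mem _ _ (O₁.pow_mem hw' n) ho1, ?_⟩
  have hwn : w ^ n ≠ 0 := pow_ne_zero n hw0
  have e1 : arithmeticGalois (L := Qb) (modularFunctionFieldFull (M * q)) σ • (w ^ n * g) =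
      w ^ n * arithmeticGalois (L := Qb) (modularFunctionFieldFull (M * q)) σ • g := by
    rw [smul_mul', smul_pow', hwfix σ]
  rw [e1, ← mul_sub] at heq
  have e2 : arithmeticGalois (L := Qb) (modularFunctionFieldFull (M * q)) σ • g - g =
      (w⁻¹) ^ n * (w ^ n *
        (arithmeticGalois (L := Qb) (modularFunctionFieldFull (M * q)) σ • g - g)) := by
    rw [← mul_assoc, inv_pow, inv_mul_cancel₀ hwn, one_mul]
  rw [e2, heq, Algebra.smul_def, mul_left_comm]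

include hq hA hsurj hW hH hρI hρ hpair hconst hscal hw0 hwfix hw hw' harch in
/-- **Norm form for one valuation** (abstract). -/
theorem exists_fixed_const_of_sep
    {g : laurentBaseChange Qb (modularFunctionFieldFull (M * q))}
    (hg : g ∈ fixedFunOf (H : Set GQ) (M * q)) (hg0 : g ≠ 0) :
    ∃ a : Qb, a ≠ 0 ∧ a ∈ fixedSubfieldOf (H : Set GQ) ∧ a⁻¹ • g ∈ O₁ ∧ (a⁻¹ • g)⁻¹ ∈ O₁ := by
  obtain ⟨a₁, ha₁, hu, hu'⟩ := hscal g hg0
  obtain ⟨n, hn⟩ := harch (a₁ • g)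
  have hwn : w ^ n ≠ 0 := pow_ne_zero n hw0
  have hwn1 : w ^ n ∈ O₁ := O₁.pow_mem hw n
  have hwn1' : (w ^ n)⁻¹ ∈ O₁ := by
    rw [← inv_pow]
    exact O₁.pow_mem hw' n
  -- `x = w^n (a₁ g)` lies in `O` and is a unit of `O₁`
  have hx : w ^ n * (a₁ • g) ∈ OPair h W := (hpair _).2 ⟨O₁.mul_mem _ _ hwn1 hu, hn⟩
  obtain ⟨a, ha, haH, haO, hexact⟩ := exists_fixed_const_pair hq hA h hsurj hW H hH ρ hρI hρ
    (pow_mul_mem_fixedFunOf H w hwfix n hg) (mul_ne_zero hwn hg0)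
  -- `a₁ a ∈ A`
  have h1 : a₁ * a ∈ A := by
    apply hexact
    have e : (a₁ * a) • (a⁻¹ • (w ^ n * g)) = w ^ n * (a₁ • g) := by
      rw [smul_smul, mul_assoc, mul_inv_cancel₀ ha, mul_one, mul_smul_comm]
    rw [e]
    exact hx
  -- `(a₁ a)⁻¹ ∈ A`
  have h2 : (a₁ * a)⁻¹ ∈ A := by
    rw [← hconst]
    have hα : algebraMap Qb (laurentBaseChange Qb (modularFunctionFieldFull (M * q))) a ≠ 0 :=
      (map_ne_zero _).2 ha
    have hα₁ : algebraMap Qb (laurentBaseChange Qb (modularFunctionFieldFull (M * q))) a₁ ≠ 0 :=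
      (map_ne_zero _).2 ha₁
    have e : algebraMap Qb (laurentBaseChange Qb (modularFunctionFieldFull (M * q)))
        (a₁ * a)⁻¹ = (a⁻¹ • (w ^ n * g)) * ((w ^ n)⁻¹ * (a₁ • g)⁻¹) := by
      simp only [Algebra.smul_def, map_mul, map_inv₀, mul_inv]
      field_simp
    rw [e]
    exact O₁.mul_mem _ _ ((hpair _).1 haO).1 (O₁.mul_mem _ _ hwn1' hu')
  have e3 : a⁻¹ • g = algebraMap Qb (laurentBaseChange Qb (modularFunctionFieldFull (M * q)))
      (a₁ * a)⁻¹ * (a₁ • g) := by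
    rw [Algebra.smul_def, Algebra.smul_def, ← mul_assoc, ← map_mul, mul_inv, mul_comm a₁⁻¹,
      mul_assoc, inv_mul_cancel₀ ha₁, mul_one]
  have e4 : (a⁻¹ • g)⁻¹ = algebraMap Qb (laurentBaseChange Qb (modularFunctionFieldFull (M * q)))
      (a₁ * a) * (a₁ • g)⁻¹ := by
    rw [e3, mul_inv, ← map_inv₀, inv_inv]
  refine ⟨a, ha, haH, ?_, ?_⟩
  · rw [e3]
    exact O₁.mul_mem _ _ ((hconst _).2 h2) hu
  · rw [e4]
    exact O₁.mul_mem _ _ ((hconst _).2 h1) hu'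

include hq hA hsurj hW hH hρI hρ hpair hconst hscal hw0 hwfix hw hw' harch in
/-- **`σ g / g` is a constant modulo `c`**, for one valuation (abstract). -/
theorem galois_eq_of_sep {σ : GQ} (hσ : σ ∈ A.inertiaSubgroupIn ℚ) (c : Qb)
    (hσc : ∀ a ∈ fixedSubfieldOf (H : Set GQ), a ∈ A → ∃ b ∈ A, σ a - a = c * b)
    {g : laurentBaseChange Qb (modularFunctionFieldFull (M * q))}
    (hg : g ∈ fixedFunOf (H : Set GQ) (M * q)) (hg0 : g ≠ 0) :
    ∃ a : Qb, a ≠ 0 ∧ a ∈ fixedSubfieldOf (H : Set GQ) ∧ a⁻¹ • g ∈ O₁ ∧ (a⁻¹ • g)⁻¹ ∈ O₁ ∧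
      ∃ y ∈ O₁, arithmeticGalois (L := Qb) (modularFunctionFieldFull (M * q)) σ • g =
        (σ a / a) • (g * (1 + c • y)) := by
  obtain ⟨a, ha, haH, hu, hu'⟩ := exists_fixed_const_of_sep hq hA h hsurj hW H hH ρ hρI hρ
    O₁ O₂ hpair hconst hscal w hw0 hwfix hw hw' harch hg hg0
  have hainv : a⁻¹ ∈ fixedSubfieldOf (H : Set GQ) := (fixedSubfieldOf _).inv_mem haH
  have hufix : a⁻¹ • g ∈ fixedFunOf (H : Set GQ) (M * q) := smul_mem_fixedFunOf hainv hg
  obtain ⟨y₀, hy₀, heq⟩ := galois_sub_mem_of_sep hq hA h hsurj hW H hH ρ hρI hρ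
    O₁ O₂ hpair w hw0 hwfix hw hw' harch hσ c hσc hufix hu
  refine ⟨a, ha, haH, hu, hu', (a⁻¹ • g)⁻¹ * y₀, O₁.mul_mem _ _ hu' hy₀, ?_⟩
  rw [Fermat.Agent.Padic.arithmeticGalois_smul_const_smul, map_inv₀] at heq
  have hσa : σ a ≠ 0 := fun h0 => ha ((map_eq_zero_iff σ σ.injective).1 h0)
  have e1 : arithmeticGalois (L := Qb) (modularFunctionFieldFull (M * q)) σ • g =
      σ a • (a⁻¹ • g + c • y₀) := by
    rw [← heq, add_sub_cancel, smul_smul, mul_inv_cancel₀ hσa, one_smul]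
  have hα : algebraMap Qb (laurentBaseChange Qb (modularFunctionFieldFull (M * q))) a ≠ 0 :=
    (map_ne_zero _).2 ha
  rw [e1]
  simp only [Algebra.smul_def, map_div₀, map_inv₀, mul_inv, inv_inv]
  field_simp

end Sep

/-! ### The two Gauss valuations -/

section Inst

variable (hq : q.Prime) (hA : A.LiesOverPrime q)
  (h : BadSetup A π M q) (hsurj : Function.Surjective π) (hW : IsAL M q W)
  (H : Subgroup GQ) (hH : ∀ σ ∈ H, σ ∈ A.inertiaSubgroupIn ℚ)
  {m : ℕ} (ρ : Fin m → GQ) (hρI : ∀ j, ρ j ∈ A.inertiaSubgroupIn ℚ)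
  (hρ : ∀ σ ∈ A.inertiaSubgroupIn ℚ, ∃ j, ∃ τ ∈ H, σ = ρ j * τ)

include hq hA in
/-- Archimedean property of `q` in `A`. -/
theorem exists_pow_mul_mem (c : Qb) : ∃ n : ℕ, (q : Qb) ^ n * c ∈ A := by
  by_cases hc : c = 0
  · exact ⟨0, by rw [hc, mul_zero]; exact A.zero_mem⟩
  obtain ⟨n, hn⟩ := Fermat.Agent.PT.Kummer.exists_pow_valuation_lt hq hA (inv_ne_zero hc)
  refine ⟨n, ?_⟩
  have hvc : 0 < A.valuation c := zero_lt_iff.2 ((Valuation.ne_zero_iff _).2 hc)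
  rw [← A.valuation_le_one_iff, map_mul]
  rw [map_inv₀, ← one_div, lt_div_iff₀ hvc] at hn
  exact hn.le

include hq in
theorem natCast_ne_zero' :
    ((q : ℕ) : laurentBaseChange Qb (modularFunctionFieldFull (M * q))) ≠ 0 :=
  Nat.cast_ne_zero.2 hq.ne_zero

include hq hA hW in
/-- `f_Δ^n x ∈ O_0` for `n` large. -/
theorem exists_pow_fDelta_mul_mem_OZero
    (x : laurentBaseChange Qb (modularFunctionFieldFull (M * q))) :
    ∃ n : ℕ, fDelta Qb M q hq ^ n * x ∈ OZero h W := by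
  by_cases hx : x = 0
  · exact ⟨0, by rw [hx, mul_zero]; exact (OZero h W).zero_mem⟩
  obtain ⟨a, ha, hm, -⟩ := exists_scaling_OZero (W := W) h x hx
  obtain ⟨n, hn⟩ := exists_pow_mul_mem hq hA a⁻¹
  have hQ : ((q : ℕ) : laurentBaseChange Qb (modularFunctionFieldFull (M * q))) =
      algebraMap Qb _ (q : Qb) := (map_natCast _ q).symm
  have hQ0 : algebraMap Qb (laurentBaseChange Qb (modularFunctionFieldFull (M * q))) (q : Qb) ≠ 0 :=
    hQ ▸ natCast_ne_zero' hq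
  have hα : algebraMap Qb (laurentBaseChange Qb (modularFunctionFieldFull (M * q))) a ≠ 0 :=
    (map_ne_zero _).2 ha
  have hmem : (q : Qb) ^ (11 * n) * ((q : Qb) ^ n * a⁻¹) ∈ A :=
    A.mul_mem _ _ (A.pow_mem (natCast_mem A q) _) hn
  have hc : (q : Qb) ^ (11 * n) * ((q : Qb) ^ n * a⁻¹) * a = (q : Qb) ^ (12 * n) := by
    rw [mul_assoc, mul_assoc, inv_mul_cancel₀ ha, mul_one, ← _root_.pow_add]
    congr 1
    ring
  have e : fDelta Qb M q hq ^ n * x =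
      (fDelta Qb M q hq /
        ((q : ℕ) : laurentBaseChange Qb (modularFunctionFieldFull (M * q))) ^ 12) ^ n *
      (algebraMap Qb _ ((q : Qb) ^ (11 * n) * ((q : Qb) ^ n * a⁻¹)) *
        (algebraMap Qb _ a * x)) := by
    rw [← mul_assoc (algebraMap Qb _ _), ← map_mul, hc, map_pow, ← hQ, div_pow, ← pow_mul,
      ← mul_assoc, div_mul_cancel₀ _ (pow_ne_zero _ (natCast_ne_zero' hq))]
  refine ⟨n, ?_⟩
  rw [e]
  exact (OZero h W).mul_mem _ _ ((OZero h W).pow_mem (f_div_mem_OZero h hW rfl) n)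
    ((OZero h W).mul_mem _ _ ((algebraMap_mem_OZero_iff h _).2 hmem) hm)

include hq hA in
/-- `(q¹² f_Δ⁻¹)^n x ∈ O_∞` for `n` large. -/
theorem exists_pow_gDelta_mul_mem_OInf
    (x : laurentBaseChange Qb (modularFunctionFieldFull (M * q))) :
    ∃ n : ℕ, (((q : ℕ) : laurentBaseChange Qb (modularFunctionFieldFull (M * q))) ^ 12 *
      (fDelta Qb M q hq)⁻¹) ^ n * x ∈ OInf h := by
  by_cases hx : x = 0
  · exact ⟨0, by rw [hx, mul_zero]; exact (OInf h).zero_mem⟩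
  obtain ⟨a, ha, hm, -⟩ := exists_scaling_OInf h x hx
  obtain ⟨n, hn⟩ := exists_pow_mul_mem hq hA a⁻¹
  have hQ : ((q : ℕ) : laurentBaseChange Qb (modularFunctionFieldFull (M * q))) =
      algebraMap Qb _ (q : Qb) := (map_natCast _ q).symm
  have hQ0 : algebraMap Qb (laurentBaseChange Qb (modularFunctionFieldFull (M * q))) (q : Qb) ≠ 0 :=
    hQ ▸ natCast_ne_zero' hq
  have hα : algebraMap Qb (laurentBaseChange Qb (modularFunctionFieldFull (M * q))) a ≠ 0 :=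
    (map_ne_zero _).2 ha
  have hf0 : fDelta Qb M q hq ≠ 0 := f_ne_zero rfl
  have hmem : (q : Qb) ^ (11 * n) * ((q : Qb) ^ n * a⁻¹) ∈ A :=
    A.mul_mem _ _ (A.pow_mem (natCast_mem A q) _) hn
  have hc : (q : Qb) ^ (11 * n) * ((q : Qb) ^ n * a⁻¹) * a = (q : Qb) ^ (12 * n) := by
    rw [mul_assoc, mul_assoc, inv_mul_cancel₀ ha, mul_one, ← _root_.pow_add]
    congr 1
    ring
  have e : (((q : ℕ) : laurentBaseChange Qb (modularFunctionFieldFull (M * q))) ^ 12 *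
      (fDelta Qb M q hq)⁻¹) ^ n * x =
      ((fDelta Qb M q hq)⁻¹) ^ n *
      (algebraMap Qb _ ((q : Qb) ^ (11 * n) * ((q : Qb) ^ n * a⁻¹)) *
        (algebraMap Qb _ a * x)) := by
    rw [← mul_assoc (algebraMap Qb _ _), ← map_mul, hc, map_pow, ← hQ, mul_pow, ← pow_mul,
      ← mul_assoc]
    exact congrArg (· * x) (mul_comm _ _)
  refine ⟨n, ?_⟩
  rw [e]
  exact (OInf h).mul_mem _ _ ((OInf h).pow_mem (inv_f_mem_OInf h rfl) n)
    ((OInf h).mul_mem _ _ ((algebraMap_mem_OInf_iff h _).2 hmem) hm)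

theorem scaling_OInf (x : laurentBaseChange Qb (modularFunctionFieldFull (M * q)))
    (hx : x ≠ 0) : ∃ a : Qb, a ≠ 0 ∧ a • x ∈ OInf h ∧ (a • x)⁻¹ ∈ OInf h := by
  obtain ⟨a, ha, hm, hne⟩ := exists_scaling_OInf h x hx
  refine ⟨a, ha, ?_, ?_⟩
  · rw [Algebra.smul_def]
    exact hm
  · rw [Algebra.smul_def]
    exact inv_mem_OInf h _ hm hne

theorem scaling_OZero (x : laurentBaseChange Qb (modularFunctionFieldFull (M * q)))
    (hx : x ≠ 0) : ∃ a : Qb, a ≠ 0 ∧ a • x ∈ OZero h W ∧ (a • x)⁻¹ ∈ OZero h W := by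
  obtain ⟨a, ha, hm, hne⟩ := exists_scaling_OZero (W := W) h x hx
  refine ⟨a, ha, ?_, ?_⟩
  · rw [Algebra.smul_def]
    exact hm
  · rw [Algebra.smul_def]
    exact inv_mem_OZero h _ hm hne

include hq hA hsurj hW hH hρI hρ in
/-- **(B-norm∞)** A nonzero `K''`-rational function is a `K''`-constant times a unit of
`O_∞`. -/
theorem exists_fixed_const_inf
    {g : laurentBaseChange Qb (modularFunctionFieldFull (M * q))}
    (hg : g ∈ fixedFunOf (H : Set GQ) (M * q)) (hg0 : g ≠ 0) :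
    ∃ a : Qb, a ≠ 0 ∧ a ∈ fixedSubfieldOf (H : Set GQ) ∧ a⁻¹ • g ∈ OInf h ∧
      (a⁻¹ • g)⁻¹ ∈ OInf h :=
  exists_fixed_const_of_sep hq hA h hsurj hW H hH ρ hρI hρ (OInf h) (OZero h W)
    (mem_OPair_iff h) (algebraMap_mem_OInf_iff h) (scaling_OInf h) (fDelta Qb M q hq)
    (f_ne_zero rfl) (fun σ => Fermat.Agent.TR.Unit.FDelta.smul_f rfl σ) (f_mem_OInf h rfl)
    (inv_f_mem_OInf h rfl) (exists_pow_fDelta_mul_mem_OZero hq hA h hW) hg hg0

include hq hA hsurj hW hH hρI hρ in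
/-- **(B-σ∞)** If `σ ∈ I` is congruent to the identity modulo `c` on `A ∩ K''`, then
`σ g - g ∈ c·O_∞` for every `K''`-rational `g ∈ O_∞`. -/
theorem galois_sub_mem_inf {σ : GQ} (hσ : σ ∈ A.inertiaSubgroupIn ℚ) (c : Qb)
    (hσc : ∀ a ∈ fixedSubfieldOf (H : Set GQ), a ∈ A → ∃ b ∈ A, σ a - a = c * b)
    {g : laurentBaseChange Qb (modularFunctionFieldFull (M * q))}
    (hg : g ∈ fixedFunOf (H : Set GQ) (M * q)) (hgO : g ∈ OInf h) :
    ∃ y ∈ OInf h, arithmeticGalois (L := Qb) (modularFunctionFieldFull (M * q)) σ • g - g =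
      c • y :=
  galois_sub_mem_of_sep hq hA h hsurj hW H hH ρ hρI hρ (OInf h) (OZero h W)
    (mem_OPair_iff h) (fDelta Qb M q hq)
    (f_ne_zero rfl) (fun σ => Fermat.Agent.TR.Unit.FDelta.smul_f rfl σ) (f_mem_OInf h rfl)
    (inv_f_mem_OInf h rfl) (exists_pow_fDelta_mul_mem_OZero hq hA h hW) hσ c hσc hg hgO

include hq hA hsurj hW hH hρI hρ in
/-- **`σ g / g` is a constant modulo `c` at `v_∞`.** -/
theorem galois_eq_inf {σ : GQ} (hσ : σ ∈ A.inertiaSubgroupIn ℚ) (c : Qb)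
    (hσc : ∀ a ∈ fixedSubfieldOf (H : Set GQ), a ∈ A → ∃ b ∈ A, σ a - a = c * b)
    {g : laurentBaseChange Qb (modularFunctionFieldFull (M * q))}
    (hg : g ∈ fixedFunOf (H : Set GQ) (M * q)) (hg0 : g ≠ 0) :
    ∃ a : Qb, a ≠ 0 ∧ a ∈ fixedSubfieldOf (H : Set GQ) ∧ a⁻¹ • g ∈ OInf h ∧
      (a⁻¹ • g)⁻¹ ∈ OInf h ∧
      ∃ y ∈ OInf h, arithmeticGalois (L := Qb) (modularFunctionFieldFull (M * q)) σ • g =
        (σ a / a) • (g * (1 + c • y)) :=
  galois_eq_of_sep hq hA h hsurj hW H hH ρ hρI hρ (OInf h) (OZero h W)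
    (mem_OPair_iff h) (algebraMap_mem_OInf_iff h) (scaling_OInf h) (fDelta Qb M q hq)
    (f_ne_zero rfl) (fun σ => Fermat.Agent.TR.Unit.FDelta.smul_f rfl σ) (f_mem_OInf h rfl)
    (inv_f_mem_OInf h rfl) (exists_pow_fDelta_mul_mem_OZero hq hA h hW) hσ c hσc hg hg0

include hW in
theorem inv_gDelta_mem_OZero :
    (((q : ℕ) : laurentBaseChange Qb (modularFunctionFieldFull (M * q))) ^ 12 *
      (fDelta Qb M q hq)⁻¹)⁻¹ ∈ OZero h W := by
  have e : (((q : ℕ) : laurentBaseChange Qb (modularFunctionFieldFull (M * q))) ^ 12 *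
      (fDelta Qb M q hq)⁻¹)⁻¹ = fDelta Qb M q hq /
        ((q : ℕ) : laurentBaseChange Qb (modularFunctionFieldFull (M * q))) ^ 12 := by
    rw [mul_inv, inv_inv, div_eq_mul_inv]
    exact mul_comm _ _
  rw [e]
  exact f_div_mem_OZero h hW rfl

include hq hA hsurj hW hH hρI hρ in
/-- **(B-norm0)** A nonzero `K''`-rational function is a `K''`-constant times a unit of
`O_0`. -/
theorem exists_fixed_const_zero
    {g : laurentBaseChange Qb (modularFunctionFieldFull (M * q))}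
    (hg : g ∈ fixedFunOf (H : Set GQ) (M * q)) (hg0 : g ≠ 0) :
    ∃ a : Qb, a ≠ 0 ∧ a ∈ fixedSubfieldOf (H : Set GQ) ∧ a⁻¹ • g ∈ OZero h W ∧
      (a⁻¹ • g)⁻¹ ∈ OZero h W := by
  have hw' : (((q : ℕ) : laurentBaseChange Qb (modularFunctionFieldFull (M * q))) ^ 12 *
      (fDelta Qb M q hq)⁻¹)⁻¹ ∈ OZero h W := inv_gDelta_mem_OZero hq h hW
  exact exists_fixed_const_of_sep hq hA h hsurj hW H hH ρ hρI hρ (OZero h W) (OInf h)
    (fun x => (mem_OPair_iff h x).trans and_comm) (algebraMap_mem_OZero_iff h)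
    (scaling_OZero h) _ (g_ne_zero hq rfl)
    (fun σ => Fermat.Agent.TR.Unit.FDelta.smul_g rfl σ) (g_mem_OZero h hW rfl) hw'
    (exists_pow_gDelta_mul_mem_OInf hq hA h) hg hg0

include hq hA hsurj hW hH hρI hρ in
/-- **(B-σ0)** If `σ ∈ I` is congruent to the identity modulo `c` on `A ∩ K''`, then
`σ g - g ∈ c·O_0` for every `K''`-rational `g ∈ O_0`. -/
theorem galois_sub_mem_zero {σ : GQ} (hσ : σ ∈ A.inertiaSubgroupIn ℚ) (c : Qb)
    (hσc : ∀ a ∈ fixedSubfieldOf (H : Set GQ), a ∈ A → ∃ b ∈ A, σ a - a = c * b)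
    {g : laurentBaseChange Qb (modularFunctionFieldFull (M * q))}
    (hg : g ∈ fixedFunOf (H : Set GQ) (M * q)) (hgO : g ∈ OZero h W) :
    ∃ y ∈ OZero h W, arithmeticGalois (L := Qb) (modularFunctionFieldFull (M * q)) σ • g - g =
      c • y := by
  have hw' : (((q : ℕ) : laurentBaseChange Qb (modularFunctionFieldFull (M * q))) ^ 12 *
      (fDelta Qb M q hq)⁻¹)⁻¹ ∈ OZero h W := inv_gDelta_mem_OZero hq h hW
  exact galois_sub_mem_of_sep hq hA h hsurj hW H hH ρ hρI hρ (OZero h W) (OInf h)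
    (fun x => (mem_OPair_iff h x).trans and_comm) _ (g_ne_zero hq rfl)
    (fun σ => Fermat.Agent.TR.Unit.FDelta.smul_g rfl σ) (g_mem_OZero h hW rfl) hw'
    (exists_pow_gDelta_mul_mem_OInf hq hA h) hσ c hσc hg hgO

include hq hA hsurj hW hH hρI hρ in
/-- **`σ g / g` is a constant modulo `c` at `v_0`.** -/
theorem galois_eq_zero {σ : GQ} (hσ : σ ∈ A.inertiaSubgroupIn ℚ) (c : Qb)
    (hσc : ∀ a ∈ fixedSubfieldOf (H : Set GQ), a ∈ A → ∃ b ∈ A, σ a - a = c * b)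
    {g : laurentBaseChange Qb (modularFunctionFieldFull (M * q))}
    (hg : g ∈ fixedFunOf (H : Set GQ) (M * q)) (hg0 : g ≠ 0) :
    ∃ a : Qb, a ≠ 0 ∧ a ∈ fixedSubfieldOf (H : Set GQ) ∧ a⁻¹ • g ∈ OZero h W ∧
      (a⁻¹ • g)⁻¹ ∈ OZero h W ∧
      ∃ y ∈ OZero h W, arithmeticGalois (L := Qb) (modularFunctionFieldFull (M * q)) σ • g =
        (σ a / a) • (g * (1 + c • y)) := by
  have hw' : (((q : ℕ) : laurentBaseChange Qb (modularFunctionFieldFull (M * q))) ^ 12 *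
      (fDelta Qb M q hq)⁻¹)⁻¹ ∈ OZero h W := inv_gDelta_mem_OZero hq h hW
  exact galois_eq_of_sep hq hA h hsurj hW H hH ρ hρI hρ (OZero h W) (OInf h)
    (fun x => (mem_OPair_iff h x).trans and_comm) (algebraMap_mem_OZero_iff h)
    (scaling_OZero h) _ (g_ne_zero hq rfl)
    (fun σ => Fermat.Agent.TR.Unit.FDelta.smul_g rfl σ) (g_mem_OZero h hW rfl) hw'
    (exists_pow_gDelta_mul_mem_OInf hq hA h) hσ c hσc hg hg0

end Inst

end

end Fermat.Agent.TR.PL.BaseChangeSigma
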