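/-
TR (row 38 through S44), node side, first line of the (PL) assembly: **the Kummer function may
be chosen `K''`-rational**.

* `ord_redInf_of_eq_mul_pow` : if `f = c · f₀ · g ^ n` with `f`, `f₀` units of `O_∞` then
  `ord_Q (redInf f) = ord_Q (redInf f₀) + n · m` at every place `Q` of the special fibre;
* `plConcl_of_isKummerPair`  : `Seam.PLConcl` does not depend on the Kummer function of the class
  (among the units of `O_∞`);
* `exists_fixed_unit_kummer` : a `p`-torsion class fixed by `H` (of finite index in inertia) has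
  an `H`-fixed divisor with an `H`-fixed Kummer function which is a unit of `O_∞`;
* `plConcl_of_fixed`         : hence `PLConcl` for every Kummer function of `x` follows from
  `PLConcl` for the `H`-fixed Kummer functions of `H`-fixed divisors of `x` which are units of
  `O_∞`.
-/
import Mathlib
import Fermat.Agent.TR.PL.Seam
import Fermat.Agent.TR.PL.Rat53
import Fermat.Agent.TR.PL.BaseChangeSigma

set_option autoImplicit false
set_option linter.unusedSectionVars false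

namespace Fermat.Agent.TR.PL.AsmKum

open AlgebraicCurve ModularCurve Fermat.Agent.BAD.TwoVal Fermat.Agent.BAD.BadU
  Fermat.Agent.BAD.LatFixedInst Fermat.Agent.ESJ.Jac Fermat.Agent.TR.PL.Seam

local notation "Qb" => AlgebraicClosure ℚ
local notation "GQ" => (AlgebraicClosure ℚ ≃ₐ[ℚ] AlgebraicClosure ℚ)

variable {A : ValuationSubring Qb} {k : Type} [Field k] {π : A →+* k} {M q : ℕ} [NeZero M]
  [NeZero q]

/-- If `f = c · f₀ · g ^ n` (`c` a nonzero constant) and `f`, `f₀` are units of `O_∞`, then the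
orders of `redInf f` and `redInf f₀` differ by a multiple of `n` at every place. -/
theorem ord_redInf_of_eq_mul_pow (h : BadSetup A π M q) {n : ℕ}
    {f f₀ g : laurentBaseChange Qb (modularFunctionFieldFull (M * q))} {c : Qb}
    (hg : g ≠ 0)
    (e : f = algebraMap Qb (laurentBaseChange Qb (modularFunctionFieldFull (M * q))) c * f₀ * g ^ n)
    (hf : f ∈ OInf h) (hfinv : f⁻¹ ∈ OInf h) (hf0 : f ≠ 0)
    (hf₀ : f₀ ∈ OInf h) (hf₀inv : f₀⁻¹ ∈ OInf h) (hf₀0 : f₀ ≠ 0)
    (Q : Place k (modularFunctionFieldFullC k M)) :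
    ∃ m : ℤ, Q.ord (redInf h ⟨f, hf⟩) = Q.ord (redInf h ⟨f₀, hf₀⟩) + n * m := by
  obtain ⟨a, ha, hG, hGne⟩ := exists_scaling_OInf h g hg
  set G : laurentBaseChange Qb (modularFunctionFieldFull (M * q)) :=
    algebraMap Qb (laurentBaseChange Qb (modularFunctionFieldFull (M * q))) a * g with hGdef
  have hGinv : G⁻¹ ∈ OInf h := inv_mem_OInf h G hG hGne
  have hG0 : G ≠ 0 := mul_ne_zero ((map_ne_zero _).2 ha) hg
  have hα : algebraMap Qb (laurentBaseChange Qb (modularFunctionFieldFull (M * q))) a ≠ 0 :=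
    (map_ne_zero _).2 ha
  -- the constant
  set c' : Qb := c * (a⁻¹) ^ n with hc'
  have e' : f = algebraMap Qb (laurentBaseChange Qb (modularFunctionFieldFull (M * q))) c' *
      f₀ * G ^ n := by
    rw [e, hc', hGdef, map_mul, map_pow, map_inv₀, mul_pow, inv_pow]
    have hαn : algebraMap Qb (laurentBaseChange Qb (modularFunctionFieldFull (M * q))) a ^ n ≠ 0 :=
      pow_ne_zero n hα
    field_simp
  have hGn0 : G ^ n ≠ 0 := pow_ne_zero n hG0
  have hc'0 : c' ≠ 0 := by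
    intro h0
    rw [h0, map_zero, zero_mul, zero_mul] at e'
    exact hf0 e'
  have hc'F : algebraMap Qb (laurentBaseChange Qb (modularFunctionFieldFull (M * q))) c' ≠ 0 :=
    (map_ne_zero _).2 hc'0
  have hc'mem : algebraMap Qb (laurentBaseChange Qb (modularFunctionFieldFull (M * q))) c' ∈
      OInf h := by
    have e1 : algebraMap Qb (laurentBaseChange Qb (modularFunctionFieldFull (M * q))) c' =
        f * (f₀⁻¹ * (G⁻¹) ^ n) := by
      rw [e', inv_pow]
      field_simp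
    rw [e1]
    exact (OInf h).mul_mem _ _ hf ((OInf h).mul_mem _ _ hf₀inv ((OInf h).pow_mem hGinv n))
  have hc'inv : algebraMap Qb (laurentBaseChange Qb (modularFunctionFieldFull (M * q))) c'⁻¹ ∈
      OInf h := by
    have e1 : algebraMap Qb (laurentBaseChange Qb (modularFunctionFieldFull (M * q))) c'⁻¹ =
        f⁻¹ * (f₀ * G ^ n) := by
      rw [e', map_inv₀]
      field_simp
    rw [e1]
    exact (OInf h).mul_mem _ _ hfinv ((OInf h).mul_mem _ _ hf₀ ((OInf h).pow_mem hG n))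
  have hc'A : c' ∈ A := (algebraMap_mem_OInf_iff h c').1 hc'mem
  have hc'invA : c'⁻¹ ∈ A := (algebraMap_mem_OInf_iff h c'⁻¹).1 hc'inv
  have hπc : π ⟨c', hc'A⟩ ≠ 0 := by
    intro h0
    have h1 : π (⟨c', hc'A⟩ * ⟨c'⁻¹, hc'invA⟩) = 1 := by
      have : (⟨c', hc'A⟩ * ⟨c'⁻¹, hc'invA⟩ : A) = 1 := Subtype.ext (mul_inv_cancel₀ hc'0)
      rw [this, map_one]
    rw [map_mul, h0, zero_mul] at h1
    exact zero_ne_one h1
  -- the reduction
  have hprod : (⟨f, hf⟩ : OInf h) = ⟨_, hc'mem⟩ * ⟨f₀, hf₀⟩ * ⟨G, hG⟩ ^ n := Subtype.ext e'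
  have hred : redInf h ⟨f, hf⟩ =
      algebraMap k (modularFunctionFieldFullC k M) (π ⟨c', hc'A⟩) * redInf h ⟨f₀, hf₀⟩ *
        redInf h ⟨G, hG⟩ ^ n := by
    rw [hprod, map_mul, map_mul, map_pow, redInf_algebraMap h ⟨c', hc'A⟩ hc'mem]
  have hr₀ : redInf h ⟨f₀, hf₀⟩ ≠ 0 := redInf_ne_zero_of_inv_mem h f₀ hf₀0 hf₀ hf₀inv
  have hcκ : algebraMap k (modularFunctionFieldFullC k M) (π ⟨c', hc'A⟩) ≠ 0 :=
    (map_ne_zero _).2 hπc
  refine ⟨Q.ord (redInf h ⟨G, hG⟩), ?_⟩
  rw [hred, Q.ord_mul (mul_ne_zero hcκ hr₀) (pow_ne_zero n hGne), Q.ord_mul hcκ hr₀,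
    Fermat.Agent.S24.ord_algebraMap, zero_add, Fermat.Agent.ESJ.Jac.ord_pow]

/-- **`PLConcl` does not depend on the Kummer function**: for two Kummer functions `f₀`, `f` of
the same class which are units of `O_∞`, `PLConcl` for `f₀` implies `PLConcl` for `f`. -/
theorem plConcl_of_isKummerPair (h : BadSetup A π M q) {p : ℕ} {x : JZero (M * q)}
    {f₀ f : laurentBaseChange Qb (modularFunctionFieldFull (M * q))}
    (hk₀ : IsKummerPair p x f₀) (hk : IsKummerPair p x f)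
    (hf₀ : f₀ ∈ OInf h) (hf₀inv : f₀⁻¹ ∈ OInf h) (hf : f ∈ OInf h) (hfinv : f⁻¹ ∈ OInf h)
    (hPL : PLConcl h p f₀ hf₀) : PLConcl h p f hf := by
  obtain ⟨c, g, -, hg, e⟩ := Rat53.exists_const_mul_pow hk₀ hk
  obtain ⟨c₀, hc₀⟩ := hPL
  refine ⟨c₀, fun Q hQ hQΔ => ?_⟩
  obtain ⟨m, hm⟩ := ord_redInf_of_eq_mul_pow h hg e hf hfinv hk.ne_zero hf₀ hf₀inv hk₀.ne_zero Q
  obtain ⟨d, hd⟩ := hc₀ Q hQ hQΔ
  exact ⟨d + m, by rw [hm]; linear_combination hd⟩

section Fixed

variable {W : laurentBaseChange Qb (modularFunctionFieldFull (M * q)) ≃ₐ[Qb]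
    laurentBaseChange Qb (modularFunctionFieldFull (M * q))}

/-- Multiplying an `H`-fixed function by an `H`-fixed constant gives an `H`-fixed function. -/
theorem smul_mem_fixedFunOf {H : Set GQ} {N : ℕ} {a : Qb} (ha : a ∈ fixedSubfieldOf H)
    {g : laurentBaseChange Qb (modularFunctionFieldFull N)} (hg : g ∈ fixedFunOf H N) :
    a • g ∈ fixedFunOf H N := by
  intro σ hσ
  rw [Algebra.smul_def, smul_mul', SemilinearAut.smul_algebraMap, hg σ hσ]
  congr 2
  exact ha σ hσ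

/-- **The `K''`-rational unit Kummer function**: a `p`-torsion class fixed by `H` has an
`H`-fixed degree-zero divisor `D` and an `H`-fixed Kummer function `f₁` (`div f₁ = p • D`) which
is a unit of `O_∞`. -/
theorem exists_fixed_unit_kummer (hq : q.Prime) (hA : A.LiesOverPrime q)
    (h : BadSetup A π M q) (hsurj : Function.Surjective π) (hW : IsAL M q W)
    (H : Subgroup GQ) (hH : ∀ σ ∈ H, σ ∈ A.inertiaSubgroupIn ℚ)
    {m : ℕ} (ρ : Fin m → GQ) (hρI : ∀ j, ρ j ∈ A.inertiaSubgroupIn ℚ)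
    (hρ : ∀ σ ∈ A.inertiaSubgroupIn ℚ, ∃ j, ∃ τ ∈ H, σ = ρ j * τ)
    (p : ℕ) (x : JZero (M * q)) (hx : p • x = 0) (hfix : ∀ σ ∈ H, σ • x = x) :
    ∃ (D : Divisor.degZero (K := Qb)
        (F := laurentBaseChange Qb (modularFunctionFieldFull (M * q))))
      (f₁ : laurentBaseChange Qb (modularFunctionFieldFull (M * q))),
      Pic0.mk D = x ∧
      (∀ σ ∈ H, arithmeticGalois (L := Qb) (modularFunctionFieldFull (M * q)) σ •
        (D : Divisor Qb (laurentBaseChange Qb (modularFunctionFieldFull (M * q)))) = D) ∧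
      f₁ ∈ fixedFunOf (H : Set GQ) (M * q) ∧ f₁ ≠ 0 ∧
      (∀ P : Place Qb (laurentBaseChange Qb (modularFunctionFieldFull (M * q))),
        P.ord f₁ = (p : ℤ) *
          (D : Divisor Qb (laurentBaseChange Qb (modularFunctionFieldFull (M * q)))) P) ∧
      IsKummerPair p x f₁ ∧ f₁ ∈ OInf h ∧ f₁⁻¹ ∈ OInf h := by
  obtain ⟨D, f₀, h1, h2, h3, h4, h5, -⟩ :=
    Rat53.exists_fixed_isKummerPair (N := M * q) (H : Set GQ) p x hx hfix
  obtain ⟨a, ha0, haH, ha1, ha2⟩ :=
    BaseChangeSigma.exists_fixed_const_inf hq hA h hsurj hW H hH ρ hρI hρ h3 h4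
  have hainv : a⁻¹ ∈ fixedSubfieldOf (H : Set GQ) := (fixedSubfieldOf (H : Set GQ)).inv_mem haH
  have hne : a⁻¹ • f₀ ≠ 0 := by
    rw [Algebra.smul_def]
    exact mul_ne_zero ((map_ne_zero _).2 (inv_ne_zero ha0)) h4
  have hord : ∀ P : Place Qb (laurentBaseChange Qb (modularFunctionFieldFull (M * q))),
      P.ord (a⁻¹ • f₀) = (p : ℤ) *
        (D : Divisor Qb (laurentBaseChange Qb (modularFunctionFieldFull (M * q)))) P := by
    intro P
    rw [Algebra.smul_def, P.ord_mul ((map_ne_zero _).2 (inv_ne_zero ha0)) h4,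
      Fermat.Agent.S24.ord_algebraMap, zero_add, h5 P]
  exact ⟨D, a⁻¹ • f₀, h1, h2, smul_mem_fixedFunOf hainv h3, hne, hord,
    ⟨hne, D, h1, fun v => (hord v).symm⟩, ha1, ha2⟩

/-- **Reduction of (PL∞) to `K''`-rational Kummer data.**  For a `p`-torsion class `x` fixed by
`H`, `PLConcl` for every Kummer function of `x` (unit of `O_∞`) follows from `PLConcl` for the
`H`-fixed Kummer functions of the `H`-fixed divisors of `x` which are units of `O_∞`. -/
theorem plConcl_of_fixed (hq : q.Prime) (hA : A.LiesOverPrime q)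
    (h : BadSetup A π M q) (hsurj : Function.Surjective π) (hW : IsAL M q W)
    (H : Subgroup GQ) (hH : ∀ σ ∈ H, σ ∈ A.inertiaSubgroupIn ℚ)
    {m : ℕ} (ρ : Fin m → GQ) (hρI : ∀ j, ρ j ∈ A.inertiaSubgroupIn ℚ)
    (hρ : ∀ σ ∈ A.inertiaSubgroupIn ℚ, ∃ j, ∃ τ ∈ H, σ = ρ j * τ)
    (p : ℕ) (x : JZero (M * q)) (hx : p • x = 0) (hfix : ∀ σ ∈ H, σ • x = x)
    (key : ∀ (D : Divisor.degZero (K := Qb)
        (F := laurentBaseChange Qb (modularFunctionFieldFull (M * q))))
      (f₁ : laurentBaseChange Qb (modularFunctionFieldFull (M * q))),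
      Pic0.mk D = x →
      (∀ σ ∈ H, arithmeticGalois (L := Qb) (modularFunctionFieldFull (M * q)) σ •
        (D : Divisor Qb (laurentBaseChange Qb (modularFunctionFieldFull (M * q)))) = D) →
      f₁ ∈ fixedFunOf (H : Set GQ) (M * q) → f₁ ≠ 0 →
      (∀ P : Place Qb (laurentBaseChange Qb (modularFunctionFieldFull (M * q))),
        P.ord f₁ = (p : ℤ) *
          (D : Divisor Qb (laurentBaseChange Qb (modularFunctionFieldFull (M * q)))) P) →
      ∀ hf₁ : f₁ ∈ OInf h, f₁⁻¹ ∈ OInf h → PLConcl h p f₁ hf₁)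
    (f : laurentBaseChange Qb (modularFunctionFieldFull (M * q))) (hk : IsKummerPair p x f)
    (hf : f ∈ OInf h) (hfinv : f⁻¹ ∈ OInf h) : PLConcl h p f hf := by
  obtain ⟨D, f₁, h1, h2, h3, h4, h5, h6, h7, h8⟩ :=
    exists_fixed_unit_kummer hq hA h hsurj hW H hH ρ hρI hρ p x hx hfix
  exact plConcl_of_isKummerPair h h6 hk h7 h8 hf hfinv (key D f₁ h1 h2 h3 h4 h5 h7 h8)

end Fixed

end Fermat.Agent.TR.PL.AsmKum
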