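/-
TR / (PL): the GROUP FRAME of the wild Picard–Lefschetz argument, from the hypotheses `(ST)` of
`TRKey`, on top of the local-field layer `Padic/S33/LocKum`.

`A` a valuation subring of `ℚ̄` over the odd prime `p`, `I` its inertia group, `ζ` a primitive
`p`-th root of unity, `I₁ = GF A ζ = {σ ∈ I | σ ζ = ζ}`.  `L ≤ V` subgroups of `J₀(N)(ℚ̄)`
killed by `p`, of orders `p` and `p²`, with

  (ST)  `σ v − v ∈ L` for `σ ∈ I`, `v ∈ V`;  `I` acts on `L` through the cyclotomic character.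

* `stabV A V` : `H = {σ ∈ I | σ fixes V pointwise}`; `conj_mem_stabV` (normal in `I`),
  `stabV_le_gf` (`H ≤ I₁`), `mem_stabV_iff_of_gen` (`H` is the stabiliser in `I₁` of any
  `x₀ ∈ V ∖ L`);
* `val_apply_sub_le` : for a monogenic context `(Ctx, Unif)` of a subgroup `H` of `I` with
  uniformiser `w`, every `σ ∈ I` moves an `H`-fixed integral element at most as much as `w`;
* `exists_frame` : `[I₁ : H] = p^s`, `s ≤ 1`, `[I : H] = (p − 1) p^s`, the monogenic context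
  `Ctx A (−p) H ((p − 1) p^s) τ` with uniformiser `w` (`Unif`), `v(σ w − w) ≤ v(w)²` on `I₁`;
  tame case `s = 0` : `H = I₁`; wild case `s = 1` : a generator `σ₀` of `I₁ / H`;
* `break_of_deep`, `wild_break` : the clause `(DEEP)` of `TRKey` gives the break bound
  `v(p) ≤ v(σ w − w)^(p − 1)` for `σ ∈ I ∖ H`, i.e. `v(w)^p ≤ v(σ w − w)` in the wild case
  (`t ≤ p − 1`).
-/
import Mathlib
import Fermat.Agent.Padic.S33.LocKum.Final
import Fermat.Agent.Padic.S33.LocKum.Extra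
import Fermat.Agent.ESJ.Jac.FiniteLevel

set_option autoImplicit false
set_option linter.style.haveILetI false
set_option linter.unusedSectionVars false

namespace Fermat.Agent.TR.PL.Frame

open ModularCurve AlgebraicCurve
open Fermat.Agent.S53 Fermat.Agent.TW.Flat Fermat.Agent.TW.Flat.Loc.MonoPf
  Fermat.Agent.Padic.S33.LocKum

local notation "Qb" => AlgebraicClosure ℚ

/-! ### Generalities -/

/-- If `σ ζ = ζ ^ j` for a primitive `p`-th root of unity `ζ`, then `σ μ = μ ^ j` for every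
`p`-th root of unity `μ`. -/
theorem apply_root_of_apply_zeta {p : ℕ} [Fact p.Prime] {ζ : Qb} (hζ : ζ ^ p = 1) (hζ1 : ζ ≠ 1)
    {σ : GQ} {j : ℕ} (hσ : σ ζ = ζ ^ j) (μ : Qb) (hμ : μ ^ p = 1) : σ μ = μ ^ j := by
  have hp : p.Prime := Fact.out
  have : NeZero p := ⟨hp.ne_zero⟩
  have hprim : IsPrimitiveRoot ζ p := isPrimitiveRoot_of hζ hζ1
  obtain ⟨i, -, rfl⟩ := hprim.eq_pow_of_pow_eq_one hμ
  rw [map_pow, hσ, ← pow_mul, ← pow_mul, mul_comm]

/-- In a group of prime order `p`, every element is `j • g`, `j < p`, for any `g ≠ 0`. -/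
theorem exists_nsmul_eq_of_card {G : Type*} [AddCommGroup G] {p : ℕ} [Fact p.Prime]
    (hcard : Nat.card G = p) {g : G} (hg : g ≠ 0) (g' : G) : ∃ j < p, g' = j • g := by
  have hp : p.Prime := Fact.out
  have hp0 : (0 : ℤ) < p := by exact_mod_cast hp.pos
  have hpg : p • g = 0 := by
    have := Nat.finite_of_card_ne_zero (α := G) (by rw [hcard]; exact hp.ne_zero)
    rw [← hcard]
    exact card_nsmul_eq_zero'
  obtain ⟨k, hk⟩ := AddSubgroup.mem_zmultiples_iff.1 (mem_zmultiples_of_prime_card hcard hg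
    (g' := g'))
  refine ⟨(k % (p : ℤ)).toNat, ?_, ?_⟩
  · have h1 := Int.emod_lt_of_pos k hp0
    omega
  · have h2 : ((k % (p : ℤ)).toNat : ℤ) = k % p := Int.toNat_of_nonneg (Int.emod_nonneg k hp0.ne')
    rw [← hk, ← natCast_zsmul, h2]
    conv_lhs => rw [← Int.emod_add_mul_ediv k p]
    rw [add_zsmul, mul_comm, mul_zsmul, natCast_zsmul, hpg, zsmul_zero, add_zero]

variable {p N : ℕ} [Fact p.Prime] [NeZero N] {A : ValuationSubring Qb}

/-! ### The pointwise stabiliser -/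

/-- The pointwise stabiliser of `V` in the inertia group of `A`. -/
def stabV (A : ValuationSubring Qb) (V : AddSubgroup (JZero N)) : Subgroup GQ where
  carrier := {σ | σ ∈ A.inertiaSubgroupIn ℚ ∧ ∀ x ∈ V, σ • x = x}
  mul_mem' := by
    rintro σ τ ⟨hσ, hσ'⟩ ⟨hτ, hτ'⟩
    exact ⟨mul_mem hσ hτ, fun x hx => by rw [mul_smul, hτ' x hx, hσ' x hx]⟩
  one_mem' := ⟨one_mem _, fun x _ => one_smul _ x⟩
  inv_mem' := by
    rintro σ ⟨hσ, hσ'⟩
    exact ⟨inv_mem hσ, fun x hx => by rw [inv_smul_eq_iff, hσ' x hx]⟩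

theorem mem_stabV {V : AddSubgroup (JZero N)} {σ : GQ} :
    σ ∈ stabV A V ↔ σ ∈ A.inertiaSubgroupIn ℚ ∧ ∀ x ∈ V, σ • x = x := Iff.rfl

theorem stabV_le_inertia (V : AddSubgroup (JZero N)) : stabV A V ≤ A.inertiaSubgroupIn ℚ :=
  fun _ h => h.1

section ST

variable {ζ : Qb} (hζ : ζ ^ p = 1) (hζ1 : ζ ≠ 1)
  {V L : AddSubgroup (JZero N)} (hLV : L ≤ V) (hpV : ∀ x ∈ V, p • x = 0)
  (hcardV : Nat.card V = p ^ 2) (hcardL : Nat.card L = p)
  (hquot : ∀ σ ∈ A.inertiaSubgroupIn ℚ, ∀ v ∈ V, σ • v - v ∈ L)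
  (hcyc : ∀ σ ∈ A.inertiaSubgroupIn ℚ, ∀ a : ℕ, (∀ μ : Qb, μ ^ p = 1 → σ μ = μ ^ a) →
    ∀ v ∈ L, σ • v = a • v)

include hLV hquot in
/-- `V` is stable under the inertia group. -/
theorem smul_mem_of_quot {σ : GQ} (hσ : σ ∈ A.inertiaSubgroupIn ℚ) {v : JZero N} (hv : v ∈ V) :
    σ • v ∈ V := by
  have h1 := V.add_mem (hLV (hquot σ hσ v hv)) hv
  rwa [sub_add_cancel] at h1

include hLV hquot in
/-- `H` is normal in the inertia group. -/
theorem conj_mem_stabV {σ h : GQ} (hσ : σ ∈ A.inertiaSubgroupIn ℚ) (hh : h ∈ stabV A V) :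
    σ⁻¹ * h * σ ∈ stabV A V := by
  refine ⟨mul_mem (mul_mem (inv_mem hσ) hh.1) hσ, fun x hx => ?_⟩
  rw [mul_smul, mul_smul, hh.2 _ (smul_mem_of_quot hLV hquot hσ hx), inv_smul_smul]

include hLV hquot in
/-- The inertia group preserves the fixed field of `H`. -/
theorem apply_fixed_stabV {σ : GQ} (hσ : σ ∈ A.inertiaSubgroupIn ℚ) {x : Qb}
    (hx : ∀ h ∈ stabV A V, h x = x) : ∀ h ∈ stabV A V, h (σ x) = σ x := by
  intro h hh
  have e2 : (σ⁻¹ * h * σ) x = x := hx _ (conj_mem_stabV hLV hquot hσ hh)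
  have e3 : (σ⁻¹ * h * σ) x = σ⁻¹ (h (σ x)) := rfl
  rw [e3] at e2
  have e4 : σ (σ⁻¹ (h (σ x))) = h (σ x) := by
    rw [← AlgEquiv.mul_apply, mul_inv_cancel, AlgEquiv.one_apply]
  rw [← e4, e2]

include hζ hζ1 hLV hpV hcardL hcyc in
/-- `H ≤ I₁`: an element of the inertia group fixing `L` pointwise fixes `ζ`. -/
theorem stabV_le_gf : stabV A V ≤ GF A ζ := by
  intro σ hσ
  have hp : p.Prime := Fact.out
  have : NeZero p := ⟨hp.ne_zero⟩
  refine ⟨hσ.1, ?_⟩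
  have hprim : IsPrimitiveRoot ζ p := isPrimitiveRoot_of hζ hζ1
  have h1 : (σ ζ) ^ p = 1 := by rw [← map_pow, hζ, map_one]
  obtain ⟨j, hjp, hj⟩ := hprim.eq_pow_of_pow_eq_one h1
  -- a nonzero element of `L`
  have hfinL : Finite L := Nat.finite_of_card_ne_zero (by rw [hcardL]; exact hp.ne_zero)
  have hnt : Nontrivial L := by
    rw [← Finite.one_lt_card_iff_nontrivial, hcardL]
    exact hp.one_lt
  obtain ⟨l, hl⟩ := exists_ne (0 : L)
  have hl0 : (l : JZero N) ≠ 0 := fun h0 => hl (Subtype.ext h0)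
  have h2 : σ • (l : JZero N) = j • (l : JZero N) :=
    hcyc σ hσ.1 j (apply_root_of_apply_zeta hζ hζ1 hj.symm) l l.2
  rw [hσ.2 _ (hLV l.2)] at h2
  have hord : addOrderOf (l : JZero N) = p := addOrderOf_eq_prime (hpV _ (hLV l.2)) hl0
  have h3 : (1 : ℕ) • (l : JZero N) = j • (l : JZero N) := by rw [one_smul]; exact h2
  have h4 : 1 ≡ j [MOD p] := by
    rw [← hord]
    exact nsmul_eq_nsmul_iff_modEq.1 h3
  have h5 : j = 1 := (Nat.ModEq.eq_of_lt_of_lt h4 hp.one_lt hjp).symm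
  rw [← hj, h5, pow_one]

include hLV hcardV hcardL in
/-- `V = ℤ x₀ + L` for every `x₀ ∈ V ∖ L`. -/
theorem exists_eq_zsmul_add {x₀ : JZero N} (hx₀ : x₀ ∈ V) (hx₀L : x₀ ∉ L) {v : JZero N}
    (hv : v ∈ V) : ∃ (k : ℤ) (l : JZero N), l ∈ L ∧ v = k • x₀ + l := by
  have hp : p.Prime := Fact.out
  have hfinV : Finite V := Nat.finite_of_card_ne_zero (by rw [hcardV]; exact pow_ne_zero 2 hp.ne_zero)
  set K : AddSubgroup (JZero N) := L ⊔ AddSubgroup.zmultiples x₀ with hK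
  have hKV : K ≤ V := sup_le hLV (AddSubgroup.zmultiples_le_of_mem hx₀)
  have hLK : L ≤ K := le_sup_left
  have hfinK : Finite K := Finite.of_injective (AddSubgroup.inclusion hKV)
    (AddSubgroup.inclusion_injective hKV)
  have hx₀K : x₀ ∈ K := (le_sup_right : AddSubgroup.zmultiples x₀ ≤ K)
    (AddSubgroup.mem_zmultiples x₀)
  have h1 : Nat.card K ∣ p ^ 2 := hcardV ▸ AddSubgroup.card_dvd_of_le hKV
  have h2 : p ∣ Nat.card K := hcardL ▸ AddSubgroup.card_dvd_of_le hLK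
  obtain ⟨m, hm, hcK⟩ := (Nat.dvd_prime_pow hp).1 h1
  have hm2 : m = 2 := by
    interval_cases m
    · rw [hcK, pow_zero] at h2
      exact absurd (Nat.le_of_dvd one_pos h2) (not_le.2 hp.one_lt)
    · exfalso
      have h3 : L = K := AddSubgroup.eq_of_le_of_card_ge hLK (by rw [hcK, hcardL, pow_one])
      exact hx₀L (h3 ▸ hx₀K)
    · rfl
  have hKeq : K = V := AddSubgroup.eq_of_le_of_card_ge hKV (by rw [hcK, hm2, hcardV])
  have hvK : v ∈ K := hKeq ▸ hv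
  obtain ⟨y, hy, z, hz, rfl⟩ := AddSubgroup.mem_sup.1 hvK
  obtain ⟨k, rfl⟩ := AddSubgroup.mem_zmultiples_iff.1 hz
  exact ⟨k, y, hy, add_comm _ _⟩

include hζ hζ1 hLV hpV hcardV hcardL hcyc in
/-- `H` is the stabiliser in `I₁` of any `x₀ ∈ V ∖ L`. -/
theorem mem_stabV_iff_of_gen {x₀ : JZero N} (hx₀ : x₀ ∈ V) (hx₀L : x₀ ∉ L) (σ : GQ) :
    σ ∈ stabV A V ↔ σ ∈ GF A ζ ∧ σ • x₀ = x₀ := by
  constructor
  · intro h
    exact ⟨stabV_le_gf hζ hζ1 hLV hpV hcardL hcyc h, h.2 x₀ hx₀⟩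
  · rintro ⟨hσ, hσx⟩
    refine ⟨hσ.1, fun v hv => ?_⟩
    obtain ⟨k, l, hl, rfl⟩ := exists_eq_zsmul_add hLV hcardV hcardL hx₀ hx₀L hv
    have h1 : σ • l = l := by
      have := hcyc σ hσ.1 1 (apply_root_of_apply_zeta hζ hζ1 (by rw [pow_one]; exact hσ.2)) l hl
      rwa [one_smul] at this
    have h2 : σ • (k • x₀) = k • x₀ := by
      have := map_zsmul (DistribSMul.toAddMonoidHom (JZero N) σ) k x₀
      simp only [DistribSMul.toAddMonoidHom_apply] at this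
      rw [this, hσx]
    rw [smul_add, h1, h2]

end ST

/-! ### Every inertia element moves an `H`-fixed integer at most as much as the uniformiser -/

/-- For a monogenic context `(Ctx, Unif)` of `H ≤ I` (base uniformiser `-p`) with uniformiser
`w`: `v(σ c − c) ≤ v(σ w − w)` for `σ ∈ I` and `c ∈ A` fixed by `H`. -/
theorem val_apply_sub_le {H : Subgroup GQ} {n : ℕ} {τ : Fin n → GQ} {w : Qb}
    (C : Ctx A (-(p : Qb)) H n τ) (U : Unif A (-(p : Qb)) H w n)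
    {σ : GQ} (hσ : σ ∈ A.inertiaSubgroupIn ℚ) {c : Qb} (hcA : c ∈ A)
    (hc : ∀ h ∈ H, h c = c) : A.valuation (σ c - c) ≤ A.valuation (σ w - w) := by
  obtain ⟨a, ha, hca⟩ := Ctx.span C U hcA hc
  have hwA : A.valuation w ≤ 1 := U.lt.le
  have hσw : A.valuation (σ w) ≤ 1 := by
    rw [Fermat.Agent.Lib.TameProp.val_apply hσ]
    exact hwA
  have e : σ c - c = ∑ i : Fin n, a i * (σ w ^ (i : ℕ) - w ^ (i : ℕ)) := by
    conv_lhs => rw [hca]
    rw [map_sum, ← Finset.sum_sub_distrib]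
    refine Finset.sum_congr rfl fun i _ => ?_
    rw [map_mul, map_pow, (ha i).2 σ ((mem_gf_neg_p p A σ).2 hσ), mul_sub]
  rw [e]
  refine Valuation.map_sum_le _ fun i _ => ?_
  have e2 : σ w ^ (i : ℕ) - w ^ (i : ℕ) =
      (∑ j ∈ Finset.range (i : ℕ), σ w ^ j * w ^ ((i : ℕ) - 1 - j)) * (σ w - w) :=
    ((Commute.all (σ w) w).geom_sum₂_mul (i : ℕ)).symm
  rw [e2, map_mul, map_mul]
  have h1 : A.valuation (a i) ≤ 1 := (A.valuation_le_one_iff _).2 (ha i).1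
  have h2 : A.valuation (∑ j ∈ Finset.range (i : ℕ), σ w ^ j * w ^ ((i : ℕ) - 1 - j)) ≤ 1 := by
    refine Valuation.map_sum_le _ fun j _ => ?_
    rw [map_mul, map_pow, map_pow]
    exact mul_le_one' (pow_le_one' hσw _) (pow_le_one' hwA _)
  calc A.valuation (a i) * (A.valuation (∑ j ∈ Finset.range (i : ℕ),
        σ w ^ j * w ^ ((i : ℕ) - 1 - j)) * A.valuation (σ w - w))
      ≤ 1 * (1 * A.valuation (σ w - w)) := mul_le_mul' h1 (mul_le_mul' h2 le_rfl)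
    _ = A.valuation (σ w - w) := by rw [one_mul, one_mul]

/-! ### The frame -/

/-- **The group frame of (PL).**  From `(ST)`: `H = stabV A V` has index `p^s` in `I₁`, `s ≤ 1`,
index `(p − 1) p^s` in `I`; the fixed field of `H` is monogenic over `ℚ̄^I` with uniformiser `w`
(`Ctx`, `Unif` of `TW/Flat/Local/Mono`, base uniformiser `-p`); the elements of `I₁` move `w` by
at most `v(w)²`; in the tame case `s = 0`, `H = I₁`; in the wild case `s = 1`, `I₁ / H` is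
generated by the class of some `σ₀`. -/
theorem exists_frame (hp2 : p ≠ 2) (hA : A.LiesOverPrime p) {ζ : Qb} (hζ : ζ ^ p = 1)
    (hζ1 : ζ ≠ 1) {V L : AddSubgroup (JZero N)} (hLV : L ≤ V) (hpV : ∀ x ∈ V, p • x = 0)
    (hcardV : Nat.card V = p ^ 2) (hcardL : Nat.card L = p)
    (hquot : ∀ σ ∈ A.inertiaSubgroupIn ℚ, ∀ v ∈ V, σ • v - v ∈ L)
    (hcyc : ∀ σ ∈ A.inertiaSubgroupIn ℚ, ∀ a : ℕ, (∀ μ : Qb, μ ^ p = 1 → σ μ = μ ^ a) →
      ∀ v ∈ L, σ • v = a • v) :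
    ∃ (s : ℕ) (τ : Fin ((p - 1) * p ^ s) → GQ) (w : Qb),
      s ≤ 1 ∧
      Ctx A (-(p : Qb)) (stabV A V) ((p - 1) * p ^ s) τ ∧
      Unif A (-(p : Qb)) (stabV A V) w ((p - 1) * p ^ s) ∧
      (stabV A V).relIndex (GF A ζ) = p ^ s ∧
      (stabV A V).relIndex (A.inertiaSubgroupIn ℚ) = (p - 1) * p ^ s ∧
      (∀ σ ∈ GF A ζ, A.valuation (σ w - w) ≤ A.valuation w ^ 2) ∧
      (s = 0 → GF A ζ ≤ stabV A V) ∧
      (s = 1 → ∃ σ₀ ∈ GF A ζ, σ₀ ∉ stabV A V ∧ σ₀ ^ p ∈ stabV A V ∧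
        ∀ σ ∈ GF A ζ, ∃ j < p, (σ₀ ^ j)⁻¹ * σ ∈ stabV A V) := by
  classical
  have hp : p.Prime := Fact.out
  haveI : NeZero p := ⟨hp.ne_zero⟩
  haveI hfinL : Finite L := Nat.finite_of_card_ne_zero (by rw [hcardL]; exact hp.ne_zero)
  haveI hfinV : Finite V :=
    Nat.finite_of_card_ne_zero (by rw [hcardV]; exact pow_ne_zero 2 hp.ne_zero)
  -- a point of `V` outside `L`
  have hex : ∃ x₀ ∈ V, x₀ ∉ L := by
    by_contra hcon
    push Not at hcon
    have hVL : V ≤ L := hcon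
    have h1 := AddSubgroup.card_le_of_le hVL
    rw [hcardV, hcardL] at h1
    nlinarith [hp.one_lt]
  obtain ⟨x₀, hx₀, hx₀L⟩ := hex
  letI : Module (ZMod p) L :=
    AddCommGroup.zmodModule (fun l => Subtype.ext (by
      rw [AddSubgroup.coe_nsmul]
      exact hpV _ (hLV l.2)))
  -- the cocycle `σ ↦ σ x₀ − x₀`
  set c : GQ → L := fun σ =>
    if h : σ ∈ A.inertiaSubgroupIn ℚ then ⟨σ • x₀ - x₀, hquot σ h x₀ hx₀⟩ else 0 with hc_def
  have hcI : ∀ σ (_ : σ ∈ A.inertiaSubgroupIn ℚ), ((c σ : L) : JZero N) = σ • x₀ - x₀ := by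
    intro σ h
    simp only [hc_def, dif_pos h]
  have hc : ∀ σ ∈ A.inertiaSubgroupIn ℚ, ∀ τ ∈ A.inertiaSubgroupIn ℚ, ∀ j : ℕ, σ ζ = ζ ^ j →
      c (σ * τ) = c σ + j • c τ := by
    intro σ hσ τ hτ j hj
    apply Subtype.ext
    rw [AddSubgroup.coe_add, AddSubgroup.coe_nsmul, hcI _ (mul_mem hσ hτ), hcI σ hσ, hcI τ hτ]
    have h1 := hcyc σ hσ j (apply_root_of_apply_zeta hζ hζ1 hj) _ (hquot τ hτ x₀ hx₀)
    rw [← h1, smul_sub, mul_smul]
    abel
  have hlev : ∃ L₀ : IntermediateField ℚ Qb, FiniteDimensional ℚ L₀ ∧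
      ∀ σ ∈ A.inertiaSubgroupIn ℚ, (∀ x ∈ L₀, σ x = x) → c σ = 0 := by
    obtain ⟨L₀, hfd, hL₀⟩ := Fermat.Agent.ESJ.Jac.FiniteLevel.exists_finiteLevel_jZero N x₀
    refine ⟨L₀, hfd, fun σ hσ hfix => Subtype.ext ?_⟩
    rw [hcI σ hσ, hL₀ σ hfix, sub_self]
    rfl
  obtain ⟨ω, S⟩ := exists_setup p hp2 A hA ζ hζ hζ1 c hc hlev
  -- `H` is the stabiliser of the cocycle
  have hstab : S.stab = stabV A V := by
    ext σ
    rw [S.mem_stab, mem_stabV_iff_of_gen hζ hζ1 hLV hpV hcardV hcardL hcyc hx₀ hx₀L]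
    constructor
    · rintro ⟨h1, h2⟩
      refine ⟨h1, ?_⟩
      have h3 := hcI σ h1.1
      rw [h2] at h3
      exact sub_eq_zero.1 h3.symm
    · rintro ⟨h1, h2⟩
      refine ⟨h1, Subtype.ext ?_⟩
      rw [hcI σ h1.1, h2, sub_self]
      rfl
  obtain ⟨s, τ, w, T⟩ := S.exists_top
  -- `s ≤ 1`
  have hs1 : s ≤ 1 := by
    have hker : S.stab.subgroupOf (GF A ζ) = S.cHom.ker := by
      ext σ
      rw [Subgroup.mem_subgroupOf, MonoidHom.mem_ker, S.mem_stab, S.cHom_apply]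
      constructor
      · rintro ⟨-, h⟩
        rw [h]
        rfl
      · intro h
        exact ⟨σ.2, h⟩
    have h1 : S.stab.relIndex (GF A ζ) = Nat.card S.cHom.range := by
      rw [Subgroup.relIndex, hker, Subgroup.index_ker]
    have h2 : Nat.card S.cHom.range ≤ Nat.card (Multiplicative L) :=
      Subgroup.card_le_card_group _
    have h3 : Nat.card (Multiplicative L) = p := by
      rw [← hcardL]
      exact Nat.card_congr Multiplicative.toAdd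
    rw [T.hs] at h1
    rw [← h1, h3] at h2
    by_contra hgt
    push Not at hgt
    have h4 : p ^ 2 ≤ p ^ s := Nat.pow_le_pow_right hp.pos hgt
    nlinarith [hp.one_lt]
  have hidx : S.stab.relIndex (A.inertiaSubgroupIn ℚ) = (p - 1) * p ^ s := by
    rw [← Subgroup.relIndex_mul_relIndex _ _ _ S.stab_le (gf_le_inertia A ζ), T.hs,
      S.relIndex_gf, mul_comm]
  refine ⟨s, τ, w, hs1, ?_, ?_, ?_, ?_, fun σ hσ => S.val_apply_sub_le_sq' T hσ, ?_, ?_⟩
  · rw [← hstab]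
    exact T.ctx
  · rw [← hstab]
    exact T.unif
  · rw [← hstab]
    exact T.hs
  · rw [← hstab]
    exact hidx
  · -- tame
    intro hs0
    rw [← hstab]
    have h1 : S.stab.relIndex (GF A ζ) = 1 := by rw [T.hs, hs0, pow_zero]
    exact Subgroup.relIndex_eq_one.1 h1
  · -- wild
    intro hs1'
    have h1 : S.stab.relIndex (GF A ζ) = p := by rw [T.hs, hs1', pow_one]
    have hnle : ¬ GF A ζ ≤ S.stab := fun hle => by
      rw [Subgroup.relIndex_eq_one.2 hle] at h1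
      exact hp.one_lt.ne h1
    obtain ⟨σ₀, hσ₀, hσ₀n⟩ := SetLike.not_le_iff_exists.1 hnle
    have hc0 : c σ₀ ≠ 0 := fun h0 => hσ₀n ⟨hσ₀, h0⟩
    rw [← hstab]
    refine ⟨σ₀, hσ₀, hσ₀n, S.pow_p_mem_stab hσ₀, fun σ hσ => ?_⟩
    obtain ⟨j, hj, hcj⟩ := exists_nsmul_eq_of_card (G := L) hcardL hc0 (c σ)
    refine ⟨j, hj, ?_⟩
    rw [S.mem_stab]
    refine ⟨mul_mem (inv_mem (pow_mem hσ₀ j)) hσ, ?_⟩
    rw [S.c_inv_mul_of_gf hσ (pow_mem hσ₀ j), S.c_pow_of_gf hσ₀]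
    exact sub_eq_zero.2 hcj

/-! ### `(DEEP)` gives the break bound -/

/-- **The break bound from `(DEEP)`.**  If every sufficiently deep element of the inertia group
fixes `V` (clause `(DEEP)` of `TRKey`), then an element `σ` of the inertia group which does not
fix `V` pointwise satisfies `v(p) ≤ v(σ w − w)^(p − 1)`. -/
theorem break_of_deep {V : AddSubgroup (JZero N)} {n : ℕ} {τ : Fin n → GQ} {w : Qb}
    (C : Ctx A (-(p : Qb)) (stabV A V) n τ) (U : Unif A (-(p : Qb)) (stabV A V) w n)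
    (hdeep : ∀ σ ∈ A.inertiaSubgroupIn ℚ, ∀ ρ : A.ValueGroup, ρ ^ (p - 1) < A.valuation (p : Qb) →
      (∀ c : Qb, c ∈ A → (∀ τ' ∈ A.inertiaSubgroupIn ℚ, (∀ x ∈ V, τ' • x = x) → τ' c = c) →
        A.valuation (σ c - c) ≤ ρ) → ∀ x ∈ V, σ • x = x)
    {σ : GQ} (hσ : σ ∈ A.inertiaSubgroupIn ℚ) (hσV : σ ∉ stabV A V) :
    A.valuation (p : Qb) ≤ A.valuation (σ w - w) ^ (p - 1) := by
  by_contra hlt
  push Not at hlt
  refine hσV ⟨hσ, hdeep σ hσ _ hlt (fun c hcA hc => ?_)⟩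
  exact val_apply_sub_le C U hσ hcA (fun h hh => hc h hh.1 hh.2)

/-- **The break bound in the wild case**: if `[I : H] = (p − 1) p`, then `v(w)^p ≤ v(σ w − w)`
for every `σ ∈ I ∖ H` (in additive terms: `σ w / w = 1 + η` with `v(η) ≤ (p − 1) v(w)`). -/
theorem wild_break {V : AddSubgroup (JZero N)} {τ : Fin ((p - 1) * p ^ 1) → GQ} {w : Qb}
    (C : Ctx A (-(p : Qb)) (stabV A V) ((p - 1) * p ^ 1) τ)
    (U : Unif A (-(p : Qb)) (stabV A V) w ((p - 1) * p ^ 1))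
    (hdeep : ∀ σ ∈ A.inertiaSubgroupIn ℚ, ∀ ρ : A.ValueGroup, ρ ^ (p - 1) < A.valuation (p : Qb) →
      (∀ c : Qb, c ∈ A → (∀ τ' ∈ A.inertiaSubgroupIn ℚ, (∀ x ∈ V, τ' • x = x) → τ' c = c) →
        A.valuation (σ c - c) ≤ ρ) → ∀ x ∈ V, σ • x = x)
    {σ : GQ} (hσ : σ ∈ A.inertiaSubgroupIn ℚ) (hσV : σ ∉ stabV A V) :
    A.valuation w ^ p ≤ A.valuation (σ w - w) := by
  have hp : p.Prime := Fact.out
  have h1 := break_of_deep C U hdeep hσ hσV
  have h2 : (A.valuation w ^ p) ^ (p - 1) = A.valuation (p : Qb) := by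
    have h3 := U.pow
    rw [Valuation.map_neg] at h3
    rw [← h3, ← pow_mul, pow_one, mul_comm]
  by_contra hlt
  push Not at hlt
  have h4 : A.valuation (σ w - w) ^ (p - 1) < (A.valuation w ^ p) ^ (p - 1) :=
    pow_lt_pow_left₀ hlt zero_le (Nat.sub_ne_zero_of_lt hp.one_lt)
  rw [h2] at h4
  exact absurd h1 (not_le.2 h4)

end Fermat.Agent.TR.PL.Frame
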