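/-
TR / (PL), row TR-PLA (helper26): LOCAL FIELDS — finite extensions `E` of the inertia field
`K0 = ℚ̄^I` inside `ℚ̄` (`A` a valuation subring of `ℚ̄` over `p`, `I` its inertia group).

`E / K0` is totally ramified:

* `exists_uniformizer`      : `E` has a uniformiser `ϖ` (the value group of `E` at `A` is `v(ϖ)^ℤ`);
* `IsUnif.exists_pow_eq`    : `v(ϖ)^e = v(p)` for some `e ≥ 1`;
* `IsUnif.exists_expansion` : every `c ∈ A ∩ E` is `∑_{i<e} a i * ϖ^i` with `a i ∈ A ∩ K0`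
                              (`A ∩ E = W0[ϖ]`);
* `IsUnif.expansion_unique`, `IsUnif.finrank_eq` : the expansion is unique, `[E : K0] = e`.

Everything is stated for elements of `ℚ̄` with the multiplicative valuation `A.valuation`.
-/
import Mathlib
import Fermat.Agent.CAR.K0.TraceRes
import Fermat.Agent.CAR.K0.Zeta
import Fermat.Agent.CAR.K0.Hens

set_option autoImplicit false

namespace Fermat.Agent.TR.PL.LocalField

open Fermat.Agent.CAR.K0 Polynomial

local notation "Qb" => AlgebraicClosure ℚ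
local notation "GQ" => (AlgebraicClosure ℚ ≃ₐ[ℚ] AlgebraicClosure ℚ)

/-! ### Conjugates over `K0` have the same valuation -/

/-- Elements of the inertia group preserve the valuation. -/
theorem valuation_apply_of_mem_inertia {A : ValuationSubring Qb} {σ : GQ}
    (hσ : σ ∈ A.inertiaSubgroupIn ℚ) (x : Qb) : A.valuation (σ x) = A.valuation x :=
  Fermat.Agent.PT.G.valuation_apply_eq_of_mem_decomp (inertiaSubgroupIn_le_decomp A hσ) x

/-- `K0`-automorphisms of `ℚ̄` preserve the valuation. -/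
theorem valuation_algEquiv_apply (A : ValuationSubring Qb) (σ : Qb ≃ₐ[↥(K0 A)] Qb) (x : Qb) :
    A.valuation (σ x) = A.valuation x :=
  valuation_apply_of_mem_inertia (restrictScalars_mem_inertia A σ) x

/-- The constant coefficient of the minimal polynomial over `K0` has the valuation of a power. -/
theorem valuation_coeff_zero_minpoly (A : ValuationSubring Qb) (c : Qb) :
    A.valuation (algebraMap ↥(K0 A) Qb ((minpoly ↥(K0 A) c).coeff 0))
      = A.valuation c ^ (minpoly ↥(K0 A) c).natDegree := by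
  have : Algebra.IsAlgebraic ↥(inertiaField A) Qb := isAlgebraic_K0 A
  have : Normal ↥(inertiaField A) Qb := normal_K0 A
  set f : Qb[X] := (minpoly ↥(K0 A) c).map (algebraMap ↥(K0 A) Qb) with hf
  have hsplit : f.Splits := IsAlgClosed.splits _
  have hmonic : f.Monic := (minpoly.monic (Algebra.IsIntegral.isIntegral c)).map _
  have h0 := hsplit.coeff_zero_eq_prod_roots_of_monic hmonic
  have hcard : f.roots.card = f.natDegree := hsplit.natDegree_eq_card_roots.symm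
  have hdeg : f.natDegree = (minpoly ↥(K0 A) c).natDegree := Polynomial.natDegree_map _
  have hroots : ∀ r ∈ f.roots, A.valuation r = A.valuation c := by
    intro r hr
    have hr' : Polynomial.aeval r (minpoly ↥(K0 A) c) = 0 := by
      have h1 := (Polynomial.mem_roots hmonic.ne_zero).mp hr
      rwa [Polynomial.IsRoot.def, Polynomial.eval_map, ← Polynomial.aeval_def] at h1
    obtain ⟨σ, hσ⟩ := minpoly.exists_algEquiv_of_root' (Algebra.IsAlgebraic.isAlgebraic c) hr'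
    rw [← hσ, valuation_algEquiv_apply]
  have hprod : A.valuation f.roots.prod = A.valuation c ^ f.natDegree := by
    have hrep : f.roots.map (A.valuation)
        = Multiset.replicate f.roots.card (A.valuation c) :=
      Multiset.eq_replicate.2 ⟨Multiset.card_map _ _, fun x hx => by
        obtain ⟨r, hr, rfl⟩ := Multiset.mem_map.mp hx
        exact hroots r hr⟩
    rw [map_multiset_prod, hrep, Multiset.prod_replicate, hcard]
  have hcoeff : f.coeff 0 = algebraMap ↥(K0 A) Qb ((minpoly ↥(K0 A) c).coeff 0) := by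
    rw [hf, Polynomial.coeff_map]
  rw [← hcoeff, h0, map_mul, map_pow, Valuation.map_neg, map_one, one_pow, one_mul, hprod, hdeg]

variable {p : ℕ}

/-- For `c` in a finite extension `E` of `K0`, a fixed power of `v(c)` lies in `v(p)^ℤ`. -/
theorem exists_pow_valuation_eq_zpow (hp : p.Prime) {A : ValuationSubring Qb}
    (hA : A.LiesOverPrime p) (E : IntermediateField ↥(K0 A) Qb) [FiniteDimensional ↥(K0 A) ↥E]
    {c : Qb} (hc : c ∈ E) (hc0 : c ≠ 0) :
    ∃ k : ℤ, A.valuation c ^ (Module.finrank ↥(K0 A) ↥E).factorial = A.valuation (p : Qb) ^ k := by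
  have : Algebra.IsAlgebraic ↥(inertiaField A) Qb := isAlgebraic_K0 A
  have hint : IsIntegral ↥(K0 A) c := Algebra.IsIntegral.isIntegral c
  set d := (minpoly ↥(K0 A) c).natDegree with hd
  have hd0 : 0 < d := minpoly.natDegree_pos hint
  have hdn : d ≤ Module.finrank ↥(K0 A) ↥E := by
    have h1 : minpoly ↥(K0 A) (algebraMap ↥E Qb ⟨c, hc⟩) = minpoly ↥(K0 A) (⟨c, hc⟩ : ↥E) :=
      minpoly.algebraMap_eq (algebraMap ↥E Qb).injective _
    have h2 : algebraMap ↥E Qb ⟨c, hc⟩ = c := rfl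
    rw [hd, ← h2, h1]
    exact minpoly.natDegree_le _
  have hcoeff0 : (minpoly ↥(K0 A) c).coeff 0 ≠ 0 := minpoly.coeff_zero_ne_zero hint hc0
  obtain ⟨k, hk⟩ := exists_zpow_valuation_eq hp hA ((minpoly ↥(K0 A) c).coeff 0) hcoeff0
  have hval := valuation_coeff_zero_minpoly A c
  have hk' : A.valuation c ^ d = A.valuation (p : Qb) ^ k := by
    rw [← hval, ← map_zpow₀]
    exact hk
  obtain ⟨q, hq⟩ := Nat.dvd_factorial hd0 hdn
  refine ⟨k * q, ?_⟩
  rw [hq, pow_mul, hk', zpow_mul, zpow_natCast]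

/-! ### Uniformisers -/

/-- `ϖ` is a uniformiser of the field `E` at `A`: `ϖ ∈ E`, `0 < v(ϖ) < 1`, and the value group of
`E` is `v(ϖ)^ℤ`. -/
def IsUnif (A : ValuationSubring Qb) (E : IntermediateField ↥(K0 A) Qb) (ϖ : Qb) : Prop :=
  ϖ ∈ E ∧ ϖ ≠ 0 ∧ A.valuation ϖ < 1 ∧
    ∀ c ∈ E, c ≠ 0 → ∃ j : ℤ, A.valuation c = A.valuation ϖ ^ j

theorem valuation_natCast_lt_one {A : ValuationSubring Qb} (hA : A.LiesOverPrime p) :
    A.valuation (p : Qb) < 1 := A.mem_nonunits_iff.mp hA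

/-- **A finite extension of `K0` inside `ℚ̄` has a uniformiser.** -/
theorem exists_uniformizer (hp : p.Prime) {A : ValuationSubring Qb} (hA : A.LiesOverPrime p)
    (E : IntermediateField ↥(K0 A) Qb) [FiniteDimensional ↥(K0 A) ↥E] : ∃ ϖ : Qb, IsUnif A E ϖ := by
  classical
  set m := (Module.finrank ↥(K0 A) ↥E).factorial with hm
  have hm0 : 0 < m := Nat.factorial_pos _
  have hp0 : (p : Qb) ≠ 0 := Nat.cast_ne_zero.mpr hp.ne_zero
  have hvp1 : A.valuation (p : Qb) < 1 := valuation_natCast_lt_one hA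
  have hvp0 : A.valuation (p : Qb) ≠ 0 := (Valuation.ne_zero_iff _).mpr hp0
  have hpE : (p : Qb) ∈ E := natCast_mem E p
  let P : ℕ → Prop := fun k => 0 < k ∧ ∃ c : Qb, c ∈ E ∧ c ≠ 0 ∧
    A.valuation c ^ m = A.valuation (p : Qb) ^ k
  have hP : ∃ k, P k := ⟨m, hm0, p, hpE, hp0, rfl⟩
  obtain ⟨hk₀, ϖ, hϖE, hϖ0, hϖ⟩ := Nat.find_spec hP
  set k₀ := Nat.find hP with hk₀def
  have hvϖ0 : A.valuation ϖ ≠ 0 := (Valuation.ne_zero_iff _).mpr hϖ0
  have hϖ1 : A.valuation ϖ < 1 := by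
    by_contra hge
    rw [not_lt] at hge
    have h1 : 1 ≤ A.valuation ϖ ^ m := one_le_pow₀ hge
    rw [hϖ] at h1
    exact absurd (pow_lt_one₀ zero_le hvp1 hk₀.ne') (not_lt.2 h1)
  refine ⟨ϖ, hϖE, hϖ0, hϖ1, fun c hcE hc0 => ?_⟩
  obtain ⟨k, hk⟩ := exists_pow_valuation_eq_zpow hp hA E hcE hc0
  have hk₀pos : (0 : ℤ) < (k₀ : ℤ) := by exact_mod_cast hk₀
  set j := k / (k₀ : ℤ) with hj
  set r := k % (k₀ : ℤ) with hr
  have hr0 : 0 ≤ r := Int.emod_nonneg _ hk₀pos.ne'
  have hrlt : r < k₀ := Int.emod_lt_of_pos _ hk₀pos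
  have hkjr : k - (k₀ : ℤ) * j = r := by
    have := Int.mul_ediv_add_emod k (k₀ : ℤ)
    rw [hj, hr]
    omega
  have hc'E : c / ϖ ^ j ∈ E := div_mem hcE (zpow_mem hϖE j)
  have hc'0 : c / ϖ ^ j ≠ 0 := div_ne_zero hc0 (zpow_ne_zero j hϖ0)
  have hc' : A.valuation (c / ϖ ^ j) ^ m = A.valuation (p : Qb) ^ r := by
    have h1 : (A.valuation ϖ ^ j) ^ m = A.valuation (p : Qb) ^ ((k₀ : ℤ) * j) := by
      rw [← zpow_natCast (A.valuation ϖ ^ j) m, ← zpow_mul, mul_comm j (m : ℤ), zpow_mul,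
        zpow_natCast, hϖ, ← zpow_natCast (A.valuation (p : Qb)) k₀, ← zpow_mul]
    rw [map_div₀, map_zpow₀, div_pow, hk, h1, ← zpow_sub₀ hvp0, hkjr]
  rcases hr0.eq_or_lt with hr' | hr'
  · refine ⟨j, ?_⟩
    rw [← hr', zpow_zero] at hc'
    have h1 : A.valuation (c / ϖ ^ j) = 1 := by
      rcases lt_trichotomy (A.valuation (c / ϖ ^ j)) 1 with h | h | h
      · exact absurd hc' (ne_of_lt (pow_lt_one₀ zero_le h hm0.ne'))
      · exact h
      · exact absurd hc' (ne_of_gt (one_lt_pow₀ h hm0.ne'))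
    rw [map_div₀, map_zpow₀, div_eq_one_iff_eq (zpow_ne_zero j hvϖ0)] at h1
    exact h1
  · exfalso
    have hPr : P r.toNat := by
      refine ⟨by omega, c / ϖ ^ j, hc'E, hc'0, ?_⟩
      rw [hc', ← zpow_natCast, Int.toNat_of_nonneg hr0]
    exact Nat.find_min hP (by omega) hPr

/-! ### Ramification index and expansions -/

/-- In the value group: `0 < x < 1` and `x ^ j < 1` force `1 ≤ j`. -/
theorem one_le_of_zpow_lt_one {A : ValuationSubring Qb} {x : A.ValueGroup} (hx0 : x ≠ 0)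
    (hx1 : x < 1) {j : ℤ} (h : x ^ j < 1) : 1 ≤ j := by
  by_contra hcon
  rw [not_le] at hcon
  have hj : j = -((-j).toNat : ℤ) := by rw [Int.toNat_of_nonneg (by omega)]; ring
  have h1 : 1 ≤ x ^ j := by
    rw [hj, zpow_neg, zpow_natCast]
    exact (one_le_inv₀ (pow_pos (zero_lt_iff.mpr hx0) _)).mpr (pow_le_one₀ zero_le hx1.le)
  exact absurd h (not_lt.2 h1)

namespace IsUnif

variable {A : ValuationSubring Qb} {E : IntermediateField ↥(K0 A) Qb} {ϖ : Qb}

theorem valuation_ne_zero (h : IsUnif A E ϖ) : A.valuation ϖ ≠ 0 :=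
  (Valuation.ne_zero_iff _).mpr h.2.1

theorem valuation_pos (h : IsUnif A E ϖ) : 0 < A.valuation ϖ :=
  zero_lt_iff.mpr h.valuation_ne_zero

theorem mem (h : IsUnif A E ϖ) : ϖ ∈ A := (A.valuation_le_one_iff ϖ).mp h.2.2.1.le

/-- Elements of the maximal ideal of `A ∩ E` are divisible by the uniformiser. -/
theorem valuation_le_of_lt_one (h : IsUnif A E ϖ) {c : Qb} (hc : c ∈ E)
    (hc1 : A.valuation c < 1) : A.valuation c ≤ A.valuation ϖ := by
  rcases eq_or_ne c 0 with rfl | hc0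
  · rw [map_zero]; exact zero_le
  obtain ⟨j, hj⟩ := h.2.2.2 c hc hc0
  rw [hj] at hc1 ⊢
  have hj1 : 1 ≤ j := one_le_of_zpow_lt_one h.valuation_ne_zero h.2.2.1 hc1
  have hj' : j = ((j - 1).toNat : ℤ) + 1 := by rw [Int.toNat_of_nonneg (by omega)]; ring
  rw [hj', zpow_add₀ h.valuation_ne_zero, zpow_one, zpow_natCast]
  exact mul_le_of_le_one_left zero_le (pow_le_one₀ zero_le h.2.2.1.le)

variable {p : ℕ}

/-- **The ramification index**: `v(ϖ)^e = v(p)` with `e ≥ 1`. -/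
theorem exists_pow_eq (hp : p.Prime) (hA : A.LiesOverPrime p) (h : IsUnif A E ϖ) :
    ∃ e : ℕ, 0 < e ∧ A.valuation ϖ ^ e = A.valuation (p : Qb) := by
  have hp0 : (p : Qb) ≠ 0 := Nat.cast_ne_zero.mpr hp.ne_zero
  obtain ⟨j, hj⟩ := h.2.2.2 (p : Qb) (natCast_mem E p) hp0
  have hj1 : 1 ≤ j := one_le_of_zpow_lt_one h.valuation_ne_zero h.2.2.1
    (hj ▸ valuation_natCast_lt_one hA)
  refine ⟨j.toNat, by omega, ?_⟩
  rw [hj, ← zpow_natCast, Int.toNat_of_nonneg (by omega)]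

/-- Partial `ϖ`-adic expansions with coefficients in `A ∩ K0`. -/
theorem exists_partial_expansion (hp : p.Prime) (hA : A.LiesOverPrime p) (h : IsUnif A E ϖ)
    (j : ℕ) {x : Qb} (hxE : x ∈ E) (hxA : x ∈ A) :
    ∃ (r : ℕ → Qb) (x' : Qb), (∀ i, r i ∈ K0 A ∧ r i ∈ A) ∧ x' ∈ E ∧ x' ∈ A ∧
      x = ∑ i ∈ Finset.range j, r i * ϖ ^ i + ϖ ^ j * x' := by
  classical
  induction j with
  | zero =>
    exact ⟨fun _ => 0, x, fun _ => ⟨zero_mem _, A.zero_mem⟩, hxE, hxA, by simp⟩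
  | succ j ih =>
    obtain ⟨r, x', hr, hx'E, hx'A, hx⟩ := ih
    obtain ⟨w, hwK, hwA, hw⟩ := exists_mem_inertiaField_valuation_sub_lt_one hp A hA hx'A
    have hwE : w ∈ E := E.algebraMap_mem ⟨w, hwK⟩
    have hdE : x' - w ∈ E := sub_mem hx'E hwE
    have hle := h.valuation_le_of_lt_one hdE hw
    have hyA : (x' - w) / ϖ ∈ A := by
      rw [← A.valuation_le_one_iff, map_div₀]
      exact (div_le_one₀ h.valuation_pos).mpr hle
    refine ⟨Function.update r j w, (x' - w) / ϖ, fun i => ?_, div_mem hdE h.1, hyA, ?_⟩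
    · by_cases hij : i = j
      · rw [hij, Function.update_self]; exact ⟨hwK, hwA⟩
      · rw [Function.update_of_ne hij]; exact hr i
    · rw [Finset.sum_range_succ, Function.update_self]
      have hsum : ∑ i ∈ Finset.range j, Function.update r j w i * ϖ ^ i
          = ∑ i ∈ Finset.range j, r i * ϖ ^ i :=
        Finset.sum_congr rfl fun i hi => by
          rw [Function.update_of_ne (ne_of_lt (Finset.mem_range.1 hi))]
      rw [hsum, hx, pow_succ]
      have hϖ0 := h.2.1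
      field_simp
      ring

/-- **`A ∩ E = W0[ϖ]`**: every element of `A ∩ E` is `∑_{i<e} a i * ϖ^i` with `a i ∈ A ∩ K0`. -/
theorem exists_expansion (hp : p.Prime) (hA : A.LiesOverPrime p) [FiniteDimensional ↥(K0 A) ↥E]
    (h : IsUnif A E ϖ) {e : ℕ} (he : A.valuation ϖ ^ e = A.valuation (p : Qb)) {c : Qb}
    (hcE : c ∈ E) (hcA : c ∈ A) :
    ∃ a : Fin e → Qb, (∀ i, a i ∈ K0 A ∧ a i ∈ A) ∧ c = ∑ i, a i * ϖ ^ (i : ℕ) := by
  classical
  haveI := isDiscreteValuationRing_W hp A hA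
  letI : Algebra ↥(W A) ↥E :=
    ((algebraMap ↥(inertiaField A) ↥E).comp (algebraMap ↥(W A) ↥(inertiaField A))).toAlgebra
  haveI : IsScalarTower ↥(W A) ↥(inertiaField A) ↥E :=
    IsScalarTower.of_algebraMap_eq (fun _ => rfl)
  let V : ValuationSubring ↥E := A.comap (algebraMap ↥E Qb)
  have hRV : ∀ r : W A, algebraMap ↥(W A) ↥E r ∈ V := fun r => r.2
  have hint : ∀ a ∈ V, IsIntegral ↥(W A) a := by
    intro a ha
    have ha' : (a : Qb) ∈ A := ha
    have hmin : minpoly ↥(inertiaField A) (a : Qb) = minpoly ↥(inertiaField A) a :=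
      minpoly.algebraMap_eq (algebraMap ↥E Qb).injective a
    have hlifts : minpoly ↥(inertiaField A) a
        ∈ Polynomial.lifts (algebraMap ↥(W A) ↥(inertiaField A)) := by
      rw [Polynomial.lifts_iff_coeff_lifts]
      intro n
      refine ⟨⟨(minpoly ↥(inertiaField A) a).coeff n, ?_⟩, rfl⟩
      rw [← hmin]
      exact TraceRes.coeff_minpoly_mem A ha' n
    haveI : Algebra.IsAlgebraic ↥(inertiaField A) ↥E := Algebra.IsAlgebraic.of_finite _ _
    obtain ⟨q, hq, -, hqm⟩ := Polynomial.lifts_and_degree_eq_and_monic hlifts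
      (minpoly.monic (Algebra.IsIntegral.isIntegral a))
    refine ⟨q, hqm, ?_⟩
    have h1 : Polynomial.eval₂ (algebraMap ↥(W A) ↥E) a q
        = Polynomial.eval₂ (algebraMap ↥(inertiaField A) ↥E) a
            (q.map (algebraMap ↥(W A) ↥(inertiaField A))) := by
      rw [Polynomial.eval₂_map]
      rfl
    rw [h1, hq, ← Polynomial.aeval_def, minpoly.aeval]
  have hfin : Module.Finite ↥(W A) ↥(integralClosure ↥(W A) ↥E) :=
    IsIntegralClosure.finite ↥(W A) ↥(inertiaField A) ↥E (integralClosure ↥(W A) ↥E)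
  set S : Submodule ↥(W A) ↥E := Subalgebra.toSubmodule (integralClosure ↥(W A) ↥E) with hS
  have hSfg : S.FG := Module.Finite.iff_fg.mp hfin
  have hSV : ∀ x : ↥E, x ∈ S ↔ (x : Qb) ∈ A := fun x =>
    ⟨fun hx => TraceRes.mem_of_isIntegral V hRV hx, fun hx => hint x hx⟩
  let ϖE : ↥E := ⟨ϖ, h.1⟩
  set N : Submodule ↥(W A) ↥E :=
    Submodule.span ↥(W A) (Set.range fun i : Fin e => ϖE ^ (i : ℕ)) with hN
  have hp0 : (p : Qb) ≠ 0 := Nat.cast_ne_zero.mpr hp.ne_zero
  have hpW : ((p : ℕ) : Qb) ∈ A := (A.valuation_le_one_iff _).mp (valuation_natCast_lt_one hA).le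
  let pW : ↥(W A) := ⟨⟨(p : Qb), natCast_mem _ p⟩, hpW⟩
  have hIJ : Ideal.span {pW} ≤ Ideal.jacobson (⊥ : Ideal ↥(W A)) := by
    rw [IsLocalRing.jacobson_eq_maximalIdeal ⊥ bot_ne_top, Ideal.span_le,
      Set.singleton_subset_iff, SetLike.mem_coe, IsLocalRing.mem_maximalIdeal, mem_nonunits_iff,
      Fermat.Agent.PT.Kummer.isUnit_comap_iff]
    exact ne_of_lt (valuation_natCast_lt_one hA)
  have key : S ≤ N ⊔ Ideal.span {pW} • S := by
    intro x hx
    have hxA : (x : Qb) ∈ A := (hSV x).mp hx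
    obtain ⟨r, x', hr, hx'E, hx'A, hxe⟩ := h.exists_partial_expansion hp hA e x.2 hxA
    -- the unit `u = ϖ^e / p`
    have hu1 : A.valuation (ϖ ^ e / (p : Qb)) = 1 := by
      rw [map_div₀, map_pow, he]
      exact div_self ((Valuation.ne_zero_iff _).mpr hp0)
    have huE : ϖ ^ e / (p : Qb) ∈ E := div_mem (pow_mem h.1 e) (natCast_mem E p)
    have hyA : ϖ ^ e / (p : Qb) * x' ∈ A := A.mul_mem _ _
      ((A.valuation_le_one_iff _).mp hu1.le) hx'A
    let y : ↥E := ⟨ϖ ^ e / (p : Qb) * x', mul_mem huE hx'E⟩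
    have hyS : y ∈ S := (hSV y).mpr hyA
    let n : ↥E := ∑ i : Fin e, (⟨⟨r i, (hr i).1⟩, (hr i).2⟩ : ↥(W A)) • ϖE ^ (i : ℕ)
    have hnN : n ∈ N := Submodule.sum_mem _ fun i _ =>
      Submodule.smul_mem _ _ (Submodule.subset_span ⟨i, rfl⟩)
    have hsS : pW • y ∈ Ideal.span {pW} • S :=
      Submodule.smul_mem_smul (Ideal.mem_span_singleton_self pW) hyS
    have hxeq : x = n + pW • y := by
      apply Subtype.ext
      have h1 : ((n : ↥E) : Qb) = ∑ i ∈ Finset.range e, r i * ϖ ^ i := by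
        rw [Finset.sum_range]
        show ((∑ i : Fin e, (⟨⟨r i, (hr i).1⟩, (hr i).2⟩ : ↥(W A)) • ϖE ^ (i : ℕ) : ↥E) : Qb) = _
        rw [AddSubmonoidClass.coe_finsetSum]
        rfl
      have h2 : ((pW • y : ↥E) : Qb) = ϖ ^ e * x' := by
        show (p : Qb) * (ϖ ^ e / (p : Qb) * x') = _
        field_simp
      show (x : Qb) = ((n : ↥E) : Qb) + ((pW • y : ↥E) : Qb)
      rw [h1, h2, hxe]
    rw [hxeq]
    exact Submodule.add_mem_sup hnN hsS
  have hSN : S ≤ N := Submodule.le_of_le_smul_of_le_jacobson_bot hSfg hIJ key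
  have hcS : (⟨c, hcE⟩ : ↥E) ∈ S := (hSV _).mpr hcA
  obtain ⟨a, ha⟩ := (Submodule.mem_span_range_iff_exists_fun ↥(W A)).mp (hSN hcS)
  refine ⟨fun i => ((a i : ↥(K0 A)) : Qb), fun i => ⟨(a i : ↥(K0 A)).2, (a i).2⟩, ?_⟩
  have h3 := congrArg (fun z : ↥E => (z : Qb)) ha
  simp only [AddSubmonoidClass.coe_finsetSum] at h3
  rw [← h3]
  rfl

end IsUnif

end Fermat.Agent.TR.PL.LocalField
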