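/-
TR / (PL): the fixed field `K'' = ℚ̄^H` of a subgroup `H` of the inertia group as an intermediate
field of `ℚ̄ / K0` (`K0 = ℚ̄^I`), and the bridge from the monogenic context `(Ctx, Unif)` of
`TR/PL/Frame.lean` (`TW/Flat/Local/Mono`) to the local-field API of `TR/PL/LocalField.lean`
(row TR-PLA): `K''` is finite over `K0` and the uniformiser `w` of the context is a uniformiser
of `K''` in the sense of `LocalField.IsUnif`.

* `fixK A H hH : IntermediateField ↥(K0 A) ℚ̄`, `mem_fixK`;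
* `isUnif_fixK`, `finiteDimensional_fixK`, `valuation_pow_eq_fixK`;
* `exists_frame_field` : the frame of `(PL)` in the `LocalField` vocabulary, for `H = stabV A V`.
-/
import Mathlib
import Fermat.Agent.TR.PL.Frame
import Fermat.Agent.TR.PL.LocalField
import Fermat.Agent.CAR.K0

set_option autoImplicit false
set_option linter.style.haveILetI false
set_option linter.unusedSectionVars false

namespace Fermat.Agent.TR.PL.Frame

open ModularCurve AlgebraicCurve
open Fermat.Agent.S53 Fermat.Agent.TW.Flat Fermat.Agent.TW.Flat.Loc.MonoPf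
  Fermat.Agent.Padic.S33.LocKum Fermat.Agent.CAR.K0 Fermat.Agent.TR.PL.LocalField

local notation "Qb" => AlgebraicClosure ℚ

/-- The fixed field `K'' = ℚ̄^H` of a subgroup `H` of the inertia group of `A`, as an
intermediate field of `ℚ̄ / K0`. -/
def fixK (A : ValuationSubring Qb) (H : Subgroup GQ) (hH : H ≤ A.inertiaSubgroupIn ℚ) :
    IntermediateField ↥(K0 A) Qb where
  carrier := {c | ∀ h ∈ H, h c = c}
  mul_mem' := fun {a b} ha hb h hh => by rw [map_mul, ha h hh, hb h hh]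
  one_mem' := fun h _ => map_one h
  add_mem' := fun {a b} ha hb h hh => by rw [map_add, ha h hh, hb h hh]
  zero_mem' := fun h _ => map_zero h
  algebraMap_mem' := fun r h hh => (mem_K0_iff A r).1 r.2 h (hH hh)
  inv_mem' := fun x hx h hh => by rw [map_inv₀, hx h hh]

theorem mem_fixK {A : ValuationSubring Qb} {H : Subgroup GQ} {hH : H ≤ A.inertiaSubgroupIn ℚ}
    {c : Qb} : c ∈ fixK A H hH ↔ ∀ h ∈ H, h c = c := Iff.rfl

variable {p : ℕ} [Fact p.Prime] {A : ValuationSubring Qb} {H : Subgroup GQ} {n : ℕ}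
  {τ : Fin n → GQ} {w : Qb}

/-- The uniformiser of the monogenic context is a uniformiser of `K''`. -/
theorem isUnif_fixK (hH : H ≤ A.inertiaSubgroupIn ℚ) (U : Unif A (-(p : Qb)) H w n) :
    IsUnif A (fixK A H hH) w :=
  ⟨U.fixH, (Valuation.ne_zero_iff _).1 U.ne, U.lt, fun c hc hc0 => U.val c hc0 hc⟩

/-- `v(w)^n = v(p)`. -/
theorem valuation_pow_eq_fixK (U : Unif A (-(p : Qb)) H w n) :
    A.valuation w ^ n = A.valuation (p : Qb) := by
  have h := U.pow
  rwa [Valuation.map_neg] at h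

/-- `K''` is finite over `K0`: it is spanned by `1, w, …, w^(n-1)`. -/
theorem finiteDimensional_fixK (hH : H ≤ A.inertiaSubgroupIn ℚ) (C : Ctx A (-(p : Qb)) H n τ)
    (U : Unif A (-(p : Qb)) H w n) : FiniteDimensional ↥(K0 A) ↥(fixK A H hH) := by
  classical
  have hp : p.Prime := Fact.out
  have hp0 : (p : Qb) ≠ 0 := Nat.cast_ne_zero.mpr hp.ne_zero
  set φ : (Fin n → ↥(K0 A)) →ₗ[↥(K0 A)] Qb :=
    Fintype.linearCombination ↥(K0 A) (fun i : Fin n => w ^ (i : ℕ)) with hφ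
  have hle : (fixK A H hH).toSubalgebra.toSubmodule ≤ LinearMap.range φ := by
    intro c hc
    have hcH : ∀ h ∈ H, h c = c := hc
    -- scale `c` into `A`
    have hN : ∃ N : ℕ, (p : Qb) ^ N * c ∈ A := by
      rcases eq_or_ne c 0 with rfl | hc0
      · exact ⟨0, by rw [mul_zero]; exact A.zero_mem⟩
      · obtain ⟨N, hN⟩ := C.arch c⁻¹ (inv_ne_zero hc0)
        refine ⟨N, (A.valuation_le_one_iff _).1 ?_⟩
        rw [Valuation.map_neg, map_inv₀] at hN
        have hvc : 0 < A.valuation c := zero_lt_iff.2 ((Valuation.ne_zero_iff _).2 hc0)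
        rw [map_mul, map_pow]
        calc A.valuation (p : Qb) ^ N * A.valuation c ≤ (A.valuation c)⁻¹ * A.valuation c :=
              mul_le_mul' hN le_rfl
          _ = 1 := inv_mul_cancel₀ hvc.ne'
    obtain ⟨N, hN⟩ := hN
    obtain ⟨a, ha, hca⟩ := Ctx.span C U hN
      (fun h hh => by rw [map_mul, map_pow, map_natCast, hcH h hh])
    have haK : ∀ i, a i / (p : Qb) ^ N ∈ K0 A := fun i =>
      (mem_K0_iff A _).2 fun σ hσ => by
        rw [map_div₀, map_pow, map_natCast, (ha i).2 σ ((mem_gf_neg_p p A σ).2 hσ)]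
    refine ⟨fun i => ⟨a i / (p : Qb) ^ N, haK i⟩, ?_⟩
    rw [hφ, Fintype.linearCombination_apply]
    have e1 : c = (∑ i, a i * w ^ (i : ℕ)) / (p : Qb) ^ N := by
      rw [← hca, mul_div_cancel_left₀ _ (pow_ne_zero N hp0)]
    rw [e1, Finset.sum_div]
    refine Finset.sum_congr rfl fun i _ => ?_
    rw [Algebra.smul_def]
    show a i / (p : Qb) ^ N * w ^ (i : ℕ) = a i * w ^ (i : ℕ) / (p : Qb) ^ N
    rw [div_mul_eq_mul_div]
  have hfin : FiniteDimensional ↥(K0 A) ↥(fixK A H hH).toSubalgebra.toSubmodule :=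
    Submodule.finiteDimensional_of_le hle
  exact hfin

/-- **The frame of (PL) in the vocabulary of `TR/PL/LocalField.lean`.**  From `(ST)`, for
`H = stabV A V` and `K'' = fixK A H`: `K'' / K0` is finite, totally ramified of degree
`e'' = (p − 1) p^s = [I : H]`, `s ≤ 1`, with uniformiser `w` (`IsUnif`); every `σ ∈ I` moves an
integer of `K''` at most as much as `w`; the elements of `I₁` move `w` by at most `v(w)²`;
tame case `s = 0` : `H = I₁`; wild case `s = 1` : a generator `σ₀` of `I₁ / H`; and the clause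
`(DEEP)` of `TRKey` gives the break bound `v(p) ≤ v(σ w − w)^(p − 1)` for `σ ∈ I ∖ H`. -/
theorem exists_frame_field {N : ℕ} [NeZero N] (hp2 : p ≠ 2) (hA : A.LiesOverPrime p) {ζ : Qb}
    (hζ : ζ ^ p = 1) (hζ1 : ζ ≠ 1) {V L : AddSubgroup (JZero N)} (hLV : L ≤ V)
    (hpV : ∀ x ∈ V, p • x = 0) (hcardV : Nat.card V = p ^ 2) (hcardL : Nat.card L = p)
    (hquot : ∀ σ ∈ A.inertiaSubgroupIn ℚ, ∀ v ∈ V, σ • v - v ∈ L)
    (hcyc : ∀ σ ∈ A.inertiaSubgroupIn ℚ, ∀ a : ℕ, (∀ μ : Qb, μ ^ p = 1 → σ μ = μ ^ a) →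
      ∀ v ∈ L, σ • v = a • v) :
    ∃ (s : ℕ) (w : Qb), s ≤ 1 ∧
      FiniteDimensional ↥(K0 A) ↥(fixK A (stabV A V) (stabV_le_inertia V)) ∧
      IsUnif A (fixK A (stabV A V) (stabV_le_inertia V)) w ∧
      A.valuation w ^ ((p - 1) * p ^ s) = A.valuation (p : Qb) ∧
      (stabV A V).relIndex (A.inertiaSubgroupIn ℚ) = (p - 1) * p ^ s ∧
      (∀ σ ∈ A.inertiaSubgroupIn ℚ, ∀ c : Qb, c ∈ A →
        c ∈ fixK A (stabV A V) (stabV_le_inertia V) →
        A.valuation (σ c - c) ≤ A.valuation (σ w - w)) ∧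
      (∀ σ ∈ GF A ζ, A.valuation (σ w - w) ≤ A.valuation w ^ 2) ∧
      (s = 0 → GF A ζ ≤ stabV A V) ∧
      (s = 1 → ∃ σ₀ ∈ GF A ζ, σ₀ ∉ stabV A V ∧ σ₀ ^ p ∈ stabV A V ∧
        ∀ σ ∈ GF A ζ, ∃ j < p, (σ₀ ^ j)⁻¹ * σ ∈ stabV A V) ∧
      ((∀ σ ∈ A.inertiaSubgroupIn ℚ, ∀ ρ : A.ValueGroup,
          ρ ^ (p - 1) < A.valuation (p : Qb) →
          (∀ c : Qb, c ∈ A → (∀ τ' ∈ A.inertiaSubgroupIn ℚ, (∀ x ∈ V, τ' • x = x) → τ' c = c) →
            A.valuation (σ c - c) ≤ ρ) → ∀ x ∈ V, σ • x = x) →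
        ∀ σ ∈ A.inertiaSubgroupIn ℚ, σ ∉ stabV A V →
          A.valuation (p : Qb) ≤ A.valuation (σ w - w) ^ (p - 1)) := by
  obtain ⟨s, τ, w, hs, C, U, -, hidx, hsq, htame, hwild⟩ :=
    exists_frame hp2 hA hζ hζ1 hLV hpV hcardV hcardL hquot hcyc
  exact ⟨s, w, hs, finiteDimensional_fixK _ C U, isUnif_fixK _ U, valuation_pow_eq_fixK U, hidx,
    fun σ hσ c hcA hc => val_apply_sub_le C U hσ hcA hc, hsq, htame, hwild,
    fun hdeep σ hσ hσV => break_of_deep C U hdeep hσ hσV⟩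

end Fermat.Agent.TR.PL.Frame
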