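/-
TR / (PL): the INSTANCE SEAM from the group frame (`TR/PL/Frame.lean`, `TR/PL/FrameField.lean`)
to the function level (`TR/PL/BaseChangeSigma.lean`), and the wild numerics consumed by
`TR/Node/SigmaGlue.lean`.

`A` a valuation subring of `ℚ̄` over `p`, `I` its inertia group, `H ≤ I` with a monogenic context
`Ctx A (−p) H n τ` and uniformiser `w` (`Unif A (−p) H w n`); `K'' = ℚ̄^H`.

* (F1) `coset_reps` : the `τ j` are coset representatives of `I / H` in the binder shape of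
  `BaseChangeSigma`;  `mem_fixK_iff_fixedSubfieldOf`;
* (F2) `exists_apply_sub_eq_mul` : `σ a − a ∈ (σ w − w) A` for `σ ∈ I`, `a ∈ A ∩ K''`;
* (F3) `apply_mem_fixedSubfieldOf_stabV`, `smul_mem_fixedFunOf_stabV` : `I` preserves `K''` and the
  `K''`-rational functions when `H = stabV A V` (normal in `I`);
* (F4) `exists_eta`, `exists_p_mul_pow`, `exists_wild_eta` : `σ w = w (1 + η)`, `η = w^t u` with
  `u` a unit of `K''`, `1 ≤ t ≤ p − 1` under `(DEEP)`, and `p w^t ∈ w^(p t + 1) (A ∩ K'')`;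
* (F5) `exists_unif_inf`, `exists_unif_zero` : `w` is a uniformiser of both Gauss valuations on
  the `K''`-rational functions;  `galois_sub_mem_inf_frame`, `galois_sub_mem_zero_frame` (+ the
  `_fixed` forms with an `H`-fixed quotient, + the `_pow` forms modulo `w^(t+1)`).
-/
import Mathlib
import Fermat.Agent.TR.PL.Frame
import Fermat.Agent.TR.PL.FrameField
import Fermat.Agent.TR.PL.BaseChangeSigma

set_option autoImplicit false
set_option linter.style.haveILetI false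
set_option linter.unusedSectionVars false

namespace Fermat.Agent.TR.PL.Frame

open ModularCurve AlgebraicCurve
open Fermat.Agent.S53 Fermat.Agent.TW.Flat Fermat.Agent.TW.Flat.Loc.MonoPf
  Fermat.Agent.Padic.S33.LocKum Fermat.Agent.BAD.TwoVal Fermat.Agent.BAD.LatFixedInst
  Fermat.Agent.TR.PL.BaseChangeSigma

local notation "Qb" => AlgebraicClosure ℚ

variable {p : ℕ} [Fact p.Prime] {A : ValuationSubring Qb} {H : Subgroup GQ} {n : ℕ}
  {τ : Fin n → GQ} {w : Qb}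

/-! ### (F1) coset representatives, the fixed field -/

/-- **(F1)** The `τ j` of a monogenic context are coset representatives of `I / H`, in the
binder shape of `TR/PL/BaseChangeSigma.lean`. -/
theorem coset_reps (C : Ctx A (-(p : Qb)) H n τ) :
    (∀ j, τ j ∈ A.inertiaSubgroupIn ℚ) ∧
      ∀ σ ∈ A.inertiaSubgroupIn ℚ, ∃ j, ∃ h ∈ H, σ = τ j * h := by
  refine ⟨fun j => (mem_gf_neg_p p A _).1 (C.hτ j), fun σ hσ => ?_⟩
  obtain ⟨j, hj, -⟩ := C.hcos σ ((mem_gf_neg_p p A σ).2 hσ)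
  exact ⟨j, _, hj, by group⟩

/-- `K'' = fixK A H hH` and `fixedSubfieldOf H` have the same elements. -/
theorem mem_fixK_iff_fixedSubfieldOf (hH : H ≤ A.inertiaSubgroupIn ℚ) {x : Qb} :
    x ∈ fixK A H hH ↔ x ∈ fixedSubfieldOf (H : Set GQ) := Iff.rfl

/-- The uniformiser is `K''`-rational. -/
theorem w_mem_fixedSubfieldOf (U : Unif A (-(p : Qb)) H w n) :
    w ∈ fixedSubfieldOf (H : Set GQ) := U.fixH

theorem w_ne_zero (U : Unif A (-(p : Qb)) H w n) : w ≠ 0 :=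
  (Valuation.ne_zero_iff _).1 U.ne

/-! ### (F2) the Lipschitz bound in divisibility form -/

/-- **(F2)** `σ a − a ∈ (σ w − w) A` for `σ ∈ I` and `a ∈ A ∩ K''` (the hypothesis `hσc` of
`BaseChangeSigma`, with `c = σ w − w`). -/
theorem exists_apply_sub_eq_mul (C : Ctx A (-(p : Qb)) H n τ) (U : Unif A (-(p : Qb)) H w n)
    {σ : GQ} (hσ : σ ∈ A.inertiaSubgroupIn ℚ) :
    ∀ a ∈ fixedSubfieldOf (H : Set GQ), a ∈ A → ∃ b ∈ A, σ a - a = (σ w - w) * b := by
  intro a ha haA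
  have h1 := val_apply_sub_le C U hσ haA ha
  by_cases h0 : σ w - w = 0
  · rw [h0, map_zero, le_zero_iff, map_eq_zero] at h1
    exact ⟨0, A.zero_mem, by rw [h1, mul_zero]⟩
  · refine ⟨(σ a - a) / (σ w - w), ?_, by field_simp⟩
    have hpos : 0 < A.valuation (σ w - w) := zero_lt_iff.2 ((Valuation.ne_zero_iff _).2 h0)
    rw [← A.valuation_le_one_iff, map_div₀]
    exact (div_le_one₀ hpos).2 h1

/-! ### (F3) the inertia group preserves `K''` and the `K''`-rational functions -/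

section Stab

variable {N : ℕ} [NeZero N] {V L : AddSubgroup (JZero N)} (hLV : L ≤ V)
  (hquot : ∀ σ ∈ A.inertiaSubgroupIn ℚ, ∀ v ∈ V, σ • v - v ∈ L)

include hLV hquot in
/-- **(F3)** `σ ∈ I` preserves `K''` (`H = stabV A V` is normal in `I`). -/
theorem apply_mem_fixedSubfieldOf_stabV {σ : GQ} (hσ : σ ∈ A.inertiaSubgroupIn ℚ) {x : Qb}
    (hx : x ∈ fixedSubfieldOf (stabV A V : Set GQ)) :
    σ x ∈ fixedSubfieldOf (stabV A V : Set GQ) :=
  apply_fixed_stabV hLV hquot hσ hx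

include hLV hquot in
/-- **(F3)** `σ ∈ I` preserves the `K''`-rational functions (of any level). -/
theorem smul_mem_fixedFunOf_stabV {σ : GQ} (hσ : σ ∈ A.inertiaSubgroupIn ℚ) {M : ℕ}
    {g : laurentBaseChange Qb (modularFunctionFieldFull M)}
    (hg : g ∈ fixedFunOf (stabV A V : Set GQ) M) :
    arithmeticGalois (L := Qb) (modularFunctionFieldFull M) σ • g ∈
      fixedFunOf (stabV A V : Set GQ) M := by
  intro h hh
  have e2 := hg _ (conj_mem_stabV hLV hquot hσ hh)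
  rw [map_mul, map_mul, mul_smul, mul_smul] at e2
  have e3 : arithmeticGalois (L := Qb) (modularFunctionFieldFull M) σ •
      (arithmeticGalois (L := Qb) (modularFunctionFieldFull M) σ⁻¹ •
        arithmeticGalois (L := Qb) (modularFunctionFieldFull M) h •
          arithmeticGalois (L := Qb) (modularFunctionFieldFull M) σ • g) =
      arithmeticGalois (L := Qb) (modularFunctionFieldFull M) σ • g := by rw [e2]
  rwa [← mul_smul, ← map_mul, mul_inv_cancel, map_one, one_smul] at e3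

end Stab

/-! ### (F4) the wild numerics -/

/-- **(F4)** For `σ ∈ I ∖ H` preserving `K''`, with `v(w)^(b+1) ≤ v(σ w − w) ≤ v(w)^2`:
`σ w = w (1 + η)`, `η = w^t u`, `u` a unit of `K''`, `1 ≤ t ≤ b`. -/
theorem exists_eta (C : Ctx A (-(p : Qb)) H n τ) (U : Unif A (-(p : Qb)) H w n)
    {σ : GQ} (hσ : σ ∈ A.inertiaSubgroupIn ℚ) (hσH : σ ∉ H)
    (hσK : ∀ h ∈ H, h (σ w) = σ w)
    (hsq : A.valuation (σ w - w) ≤ A.valuation w ^ 2) {b : ℕ}
    (hbr : A.valuation w ^ (b + 1) ≤ A.valuation (σ w - w)) :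
    ∃ (t : ℕ) (η u : Qb), 1 ≤ t ∧ t ≤ b ∧ σ w = w * (1 + η) ∧ η = w ^ t * u ∧
      A.valuation u = 1 ∧ u ∈ fixedSubfieldOf (H : Set GQ) ∧
      η ∈ fixedSubfieldOf (H : Set GQ) := by
  have hw0 : w ≠ 0 := w_ne_zero U
  have hvw0 : 0 < A.valuation w := zero_lt_iff.2 U.ne
  have hvw1 : A.valuation w < 1 := U.lt
  have hne : σ w - w ≠ 0 := fun h0 =>
    hσH (Ctx.stab C U ((mem_gf_neg_p p A σ).2 hσ) (sub_eq_zero.1 h0))
  set η : Qb := (σ w - w) / w with hη
  have hη0 : η ≠ 0 := div_ne_zero hne hw0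
  have hηH : ∀ h ∈ H, h η = η := fun h hh => by
    rw [hη, map_div₀, map_sub, hσK h hh, U.fixH h hh]
  obtain ⟨j, hj⟩ := U.val η hη0 hηH
  have hvη : A.valuation η * A.valuation w = A.valuation (σ w - w) := by
    rw [hη, map_div₀, div_mul_cancel₀ _ hvw0.ne']
  -- `1 ≤ j`
  have hj1 : 1 ≤ j := by
    by_contra hlt
    push Not at hlt
    have hj0 : j ≤ 0 := by omega
    have h1 : (1 : A.ValueGroup) ≤ A.valuation w ^ j := by
      obtain ⟨m, rfl⟩ : ∃ m : ℕ, j = -(m : ℤ) := ⟨(-j).toNat, by omega⟩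
      rw [zpow_neg, zpow_natCast]
      exact (one_le_inv₀ (pow_pos hvw0 m)).2 (pow_le_one' hvw1.le m)
    have h2 : A.valuation w ≤ A.valuation w ^ 2 := by
      calc A.valuation w = 1 * A.valuation w := (one_mul _).symm
        _ ≤ A.valuation η * A.valuation w := mul_le_mul' (hj ▸ h1) le_rfl
        _ = A.valuation (σ w - w) := hvη
        _ ≤ A.valuation w ^ 2 := hsq
    have h3 : A.valuation w ^ 2 < A.valuation w := by
      calc A.valuation w ^ 2 = A.valuation w * A.valuation w := sq _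
        _ < 1 * A.valuation w := mul_lt_mul_of_pos_right hvw1 hvw0
        _ = A.valuation w := one_mul _
    exact absurd h2 (not_le.2 h3)
  obtain ⟨t, rfl⟩ : ∃ t : ℕ, j = (t : ℤ) := ⟨j.toNat, by omega⟩
  rw [zpow_natCast] at hj
  have ht1 : 1 ≤ t := by omega
  -- `t ≤ b`
  have htb : t ≤ b := by
    by_contra hlt
    push Not at hlt
    have h1 : A.valuation w ^ (t + 1) ≤ A.valuation w ^ (b + 2) :=
      pow_le_pow_right_of_le_one' hvw1.le (by omega)
    have h2 : A.valuation w ^ (b + 2) < A.valuation w ^ (b + 1) := by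
      calc A.valuation w ^ (b + 2) = A.valuation w * A.valuation w ^ (b + 1) := pow_succ' _ _
        _ < 1 * A.valuation w ^ (b + 1) := mul_lt_mul_of_pos_right hvw1 (pow_pos hvw0 _)
        _ = A.valuation w ^ (b + 1) := one_mul _
    have h3 : A.valuation (σ w - w) = A.valuation w ^ (t + 1) := by
      rw [← hvη, hj, pow_succ]
    rw [h3] at hbr
    exact absurd (hbr.trans h1) (not_le.2 h2)
  refine ⟨t, η, η / w ^ t, ht1, htb, ?_, ?_, ?_, ?_, hηH⟩
  · rw [hη]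
    field_simp
    ring
  · rw [mul_div_cancel₀ _ (pow_ne_zero t hw0)]
  · rw [map_div₀, map_pow, hj, div_self (pow_ne_zero t hvw0.ne')]
  · intro h hh
    rw [map_div₀, map_pow, hηH h hh, U.fixH h hh]

/-- **(F4)** `p w^t ∈ w^(p t + 1) (A ∩ K'')` as soon as `p t + 1 ≤ n + t` (`n` the ramification
index: `v(w)^n = v(p)`). -/
theorem exists_p_mul_pow (U : Unif A (-(p : Qb)) H w n) {t : ℕ} (ht : p * t + 1 ≤ n + t) :
    ∃ r : Qb, r ∈ A ∧ r ∈ fixedSubfieldOf (H : Set GQ) ∧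
      (p : Qb) * w ^ t = w ^ (p * t + 1) * r := by
  have hw0 : w ≠ 0 := w_ne_zero U
  have hvw0 : 0 < A.valuation w := zero_lt_iff.2 U.ne
  have hpow : A.valuation w ^ n = A.valuation (p : Qb) := valuation_pow_eq_fixK U
  refine ⟨(p : Qb) * w ^ t / w ^ (p * t + 1), ?_, ?_, ?_⟩
  · rw [← A.valuation_le_one_iff, map_div₀, map_mul, map_pow, map_pow, ← hpow, ← pow_add]
    have hpos : 0 < A.valuation w ^ (p * t + 1) := pow_pos hvw0 _
    exact (div_le_one₀ hpos).2 (pow_le_pow_right_of_le_one' U.lt.le ht)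
  · intro h hh
    rw [map_div₀, map_mul, map_pow, map_pow, map_natCast, U.fixH h hh]
  · rw [mul_div_cancel₀ _ (pow_ne_zero _ hw0)]

section Wild

variable {N : ℕ} [NeZero N] {V L : AddSubgroup (JZero N)} (hLV : L ≤ V)
  (hquot : ∀ σ ∈ A.inertiaSubgroupIn ℚ, ∀ v ∈ V, σ • v - v ∈ L)

include hLV hquot in
/-- **(F4), wild case of the frame** (`[I : H] = (p − 1) p`, `H = stabV A V`, under `(DEEP)`):
for `σ ∈ I ∖ H` with `v(σ w − w) ≤ v(w)^2` (every `σ ∈ I₁ ∖ H`, in particular the generator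
`σ₀` of `exists_frame`): `σ w = w (1 + η)`, `η = w^t u` with `u` a unit of `K''`,
`1 ≤ t ≤ p − 1`, and `p w^t = w^(p t + 1) r` with `r ∈ A ∩ K''`. -/
theorem exists_wild_eta {τ : Fin ((p - 1) * p ^ 1) → GQ} {w : Qb}
    (C : Ctx A (-(p : Qb)) (stabV A V) ((p - 1) * p ^ 1) τ)
    (U : Unif A (-(p : Qb)) (stabV A V) w ((p - 1) * p ^ 1))
    (hdeep : ∀ σ ∈ A.inertiaSubgroupIn ℚ, ∀ ρ : A.ValueGroup, ρ ^ (p - 1) < A.valuation (p : Qb) →
      (∀ c : Qb, c ∈ A → (∀ τ' ∈ A.inertiaSubgroupIn ℚ, (∀ x ∈ V, τ' • x = x) → τ' c = c) →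
        A.valuation (σ c - c) ≤ ρ) → ∀ x ∈ V, σ • x = x)
    {σ : GQ} (hσ : σ ∈ A.inertiaSubgroupIn ℚ) (hσV : σ ∉ stabV A V)
    (hsq : A.valuation (σ w - w) ≤ A.valuation w ^ 2) :
    ∃ (t : ℕ) (η u r : Qb), 1 ≤ t ∧ t ≤ p - 1 ∧ σ w = w * (1 + η) ∧ η = w ^ t * u ∧
      A.valuation u = 1 ∧ u ∈ fixedSubfieldOf (stabV A V : Set GQ) ∧
      η ∈ fixedSubfieldOf (stabV A V : Set GQ) ∧ r ∈ A ∧
      r ∈ fixedSubfieldOf (stabV A V : Set GQ) ∧ (p : Qb) * w ^ t = w ^ (p * t + 1) * r := by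
  have hp : p.Prime := Fact.out
  have hbr : A.valuation w ^ (p - 1 + 1) ≤ A.valuation (σ w - w) := by
    rw [Nat.sub_add_cancel hp.one_lt.le]
    exact wild_break C U hdeep hσ hσV
  obtain ⟨t, η, u, ht1, htb, h1, h2, h3, h4, h5⟩ := exists_eta C U hσ hσV
    (apply_fixed_stabV hLV hquot hσ U.fixH) hsq hbr
  have hle : p * t + 1 ≤ (p - 1) * p ^ 1 + t := by
    obtain ⟨m, hm⟩ : ∃ m, p = m + 2 := ⟨p - 2, by have := hp.two_le; omega⟩
    have e1 : p - 1 = m + 1 := by omega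
    obtain ⟨d, hd⟩ : ∃ d, m + 1 = t + d := ⟨m + 1 - t, by omega⟩
    rw [e1, pow_one, hm]
    have e2 : m = t + d - 1 := by omega
    rcases Nat.eq_zero_or_pos d with rfl | hd0
    · have e3 : m + 1 = t := by omega
      rw [← e3]
      nlinarith
    · nlinarith
  obtain ⟨r, hr1, hr2, hr3⟩ := exists_p_mul_pow U hle
  exact ⟨t, η, u, r, ht1, htb, h1, h2, h3, h4, h5, hr1, hr2, hr3⟩

end Wild

/-! ### (F5) the function level -/

section Fun

variable {k : Type} [Field k] {π : A →+* k} {M : ℕ} [NeZero M] [NeZero p]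
  {W : laurentBaseChange Qb (modularFunctionFieldFull (M * p)) ≃ₐ[Qb]
    laurentBaseChange Qb (modularFunctionFieldFull (M * p))}

/-- **(F5), (B-norm∞) with the uniformiser**: a nonzero `K''`-rational function is `w^j` times
a `K''`-rational unit of `O_∞`. -/
theorem exists_unif_inf (hA : A.LiesOverPrime p) (h : BadSetup A π M p)
    (hsurj : Function.Surjective π) (hW : IsAL M p W) (hH : H ≤ A.inertiaSubgroupIn ℚ)
    (C : Ctx A (-(p : Qb)) H n τ) (U : Unif A (-(p : Qb)) H w n)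
    {g : laurentBaseChange Qb (modularFunctionFieldFull (M * p))}
    (hg : g ∈ fixedFunOf (H : Set GQ) (M * p)) (hg0 : g ≠ 0) :
    ∃ (j : ℤ) (u : laurentBaseChange Qb (modularFunctionFieldFull (M * p))),
      u ∈ fixedFunOf (H : Set GQ) (M * p) ∧ u ∈ OInf h ∧ u⁻¹ ∈ OInf h ∧ g = (w ^ j) • u := by
  have hp : p.Prime := Fact.out
  obtain ⟨hτI, hcos⟩ := coset_reps C
  obtain ⟨a, ha0, haH, hu, hu'⟩ :=
    exists_fixed_const_inf hp hA h hsurj hW H hH τ hτI hcos hg hg0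
  obtain ⟨j, hj⟩ := U.val a ha0 haH
  have hw0 : w ≠ 0 := w_ne_zero U
  have hwj : w ^ j ≠ 0 := zpow_ne_zero j hw0
  set a₁ : Qb := a / w ^ j with ha₁
  have hva₁ : A.valuation a₁ = 1 := by
    rw [ha₁, map_div₀, map_zpow₀, hj, div_self (zpow_ne_zero j U.ne)]
  have ha₁0 : a₁ ≠ 0 := div_ne_zero ha0 hwj
  have ha₁H : a₁ ∈ fixedSubfieldOf (H : Set GQ) :=
    (fixedSubfieldOf (H : Set GQ)).div_mem haH
      ((fixedSubfieldOf (H : Set GQ)).zpow_mem (w_mem_fixedSubfieldOf U) j)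
  have ha₁A : a₁ ∈ A := (A.valuation_le_one_iff _).1 hva₁.le
  have ha₁A' : a₁⁻¹ ∈ A := (A.valuation_le_one_iff _).1 (by rw [map_inv₀, hva₁, inv_one])
  refine ⟨j, a₁ • (a⁻¹ • g), ?_, ?_, ?_, ?_⟩
  · exact smul_mem_fixedFunOf ha₁H
      (smul_mem_fixedFunOf ((fixedSubfieldOf (H : Set GQ)).inv_mem haH) hg)
  · rw [Algebra.smul_def a₁]
    exact (OInf h).mul_mem _ _ ((algebraMap_mem_OInf_iff h _).2 ha₁A) hu
  · rw [Algebra.smul_def a₁, mul_inv, ← map_inv₀]
    exact (OInf h).mul_mem _ _ ((algebraMap_mem_OInf_iff h _).2 ha₁A') hu'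
  · rw [smul_smul, smul_smul, ha₁, mul_div_cancel₀ _ hwj, mul_inv_cancel₀ ha0, one_smul]

/-- **(F5), (B-norm0) with the uniformiser**: a nonzero `K''`-rational function is `w^j` times
a `K''`-rational unit of `O_0`. -/
theorem exists_unif_zero (hA : A.LiesOverPrime p) (h : BadSetup A π M p)
    (hsurj : Function.Surjective π) (hW : IsAL M p W) (hH : H ≤ A.inertiaSubgroupIn ℚ)
    (C : Ctx A (-(p : Qb)) H n τ) (U : Unif A (-(p : Qb)) H w n)
    {g : laurentBaseChange Qb (modularFunctionFieldFull (M * p))}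
    (hg : g ∈ fixedFunOf (H : Set GQ) (M * p)) (hg0 : g ≠ 0) :
    ∃ (j : ℤ) (u : laurentBaseChange Qb (modularFunctionFieldFull (M * p))),
      u ∈ fixedFunOf (H : Set GQ) (M * p) ∧ u ∈ OZero h W ∧ u⁻¹ ∈ OZero h W ∧
      g = (w ^ j) • u := by
  have hp : p.Prime := Fact.out
  obtain ⟨hτI, hcos⟩ := coset_reps C
  obtain ⟨a, ha0, haH, hu, hu'⟩ :=
    exists_fixed_const_zero hp hA h hsurj hW H hH τ hτI hcos hg hg0
  obtain ⟨j, hj⟩ := U.val a ha0 haH
  have hw0 : w ≠ 0 := w_ne_zero U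
  have hwj : w ^ j ≠ 0 := zpow_ne_zero j hw0
  set a₁ : Qb := a / w ^ j with ha₁
  have hva₁ : A.valuation a₁ = 1 := by
    rw [ha₁, map_div₀, map_zpow₀, hj, div_self (zpow_ne_zero j U.ne)]
  have ha₁0 : a₁ ≠ 0 := div_ne_zero ha0 hwj
  have ha₁H : a₁ ∈ fixedSubfieldOf (H : Set GQ) :=
    (fixedSubfieldOf (H : Set GQ)).div_mem haH
      ((fixedSubfieldOf (H : Set GQ)).zpow_mem (w_mem_fixedSubfieldOf U) j)
  have ha₁A : a₁ ∈ A := (A.valuation_le_one_iff _).1 hva₁.le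
  have ha₁A' : a₁⁻¹ ∈ A := (A.valuation_le_one_iff _).1 (by rw [map_inv₀, hva₁, inv_one])
  refine ⟨j, a₁ • (a⁻¹ • g), ?_, ?_, ?_, ?_⟩
  · exact smul_mem_fixedFunOf ha₁H
      (smul_mem_fixedFunOf ((fixedSubfieldOf (H : Set GQ)).inv_mem haH) hg)
  · rw [Algebra.smul_def a₁]
    exact (OZero h W).mul_mem _ _ ((algebraMap_mem_OZero_iff h _).2 ha₁A) hu
  · rw [Algebra.smul_def a₁, mul_inv, ← map_inv₀]
    exact (OZero h W).mul_mem _ _ ((algebraMap_mem_OZero_iff h _).2 ha₁A') hu'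
  · rw [smul_smul, smul_smul, ha₁, mul_div_cancel₀ _ hwj, mul_inv_cancel₀ ha0, one_smul]

/-- **(F5), (B-σ∞) for the frame**: `σ g − g ∈ (σ w − w) O_∞` for `σ ∈ I` and `g` a
`K''`-rational element of `O_∞`. -/
theorem galois_sub_mem_inf_frame (hA : A.LiesOverPrime p) (h : BadSetup A π M p)
    (hsurj : Function.Surjective π) (hW : IsAL M p W) (hH : H ≤ A.inertiaSubgroupIn ℚ)
    (C : Ctx A (-(p : Qb)) H n τ) (U : Unif A (-(p : Qb)) H w n)
    {σ : GQ} (hσ : σ ∈ A.inertiaSubgroupIn ℚ)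
    {g : laurentBaseChange Qb (modularFunctionFieldFull (M * p))}
    (hg : g ∈ fixedFunOf (H : Set GQ) (M * p)) (hgO : g ∈ OInf h) :
    ∃ y ∈ OInf h, arithmeticGalois (L := Qb) (modularFunctionFieldFull (M * p)) σ • g - g =
      (σ w - w) • y := by
  have hp : p.Prime := Fact.out
  obtain ⟨hτI, hcos⟩ := coset_reps C
  exact galois_sub_mem_inf hp hA h hsurj hW H hH τ hτI hcos hσ _
    (exists_apply_sub_eq_mul C U hσ) hg hgO

/-- **(F5), (B-σ0) for the frame**: `σ g − g ∈ (σ w − w) O_0` for `σ ∈ I` and `g` a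
`K''`-rational element of `O_0`. -/
theorem galois_sub_mem_zero_frame (hA : A.LiesOverPrime p) (h : BadSetup A π M p)
    (hsurj : Function.Surjective π) (hW : IsAL M p W) (hH : H ≤ A.inertiaSubgroupIn ℚ)
    (C : Ctx A (-(p : Qb)) H n τ) (U : Unif A (-(p : Qb)) H w n)
    {σ : GQ} (hσ : σ ∈ A.inertiaSubgroupIn ℚ)
    {g : laurentBaseChange Qb (modularFunctionFieldFull (M * p))}
    (hg : g ∈ fixedFunOf (H : Set GQ) (M * p)) (hgO : g ∈ OZero h W) :
    ∃ y ∈ OZero h W, arithmeticGalois (L := Qb) (modularFunctionFieldFull (M * p)) σ • g - g =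
      (σ w - w) • y := by
  have hp : p.Prime := Fact.out
  obtain ⟨hτI, hcos⟩ := coset_reps C
  exact galois_sub_mem_zero hp hA h hsurj hW H hH τ hτI hcos hσ _
    (exists_apply_sub_eq_mul C U hσ) hg hgO

/-! ### The wild forms: modulo `w^(t+1)`, with a `K''`-rational quotient -/

section FunWild

variable {N : ℕ} [NeZero N] {V L : AddSubgroup (JZero N)} (hLV : L ≤ V)
  (hquot : ∀ σ ∈ A.inertiaSubgroupIn ℚ, ∀ v ∈ V, σ • v - v ∈ L)

include hLV hquot in
/-- **(F5), `σ ≡ 1` modulo `w^(t+1)` on the `K''`-rational part of `O_∞`** (`H = stabV A V`,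
`σ ∈ I` with `σ w = w (1 + η)`, `η = w^t u`, `u ∈ A`): `σ g − g = w^(t+1) y` with `y ∈ O_∞`
again `K''`-rational.  This is the hypothesis `hσ` of `SigmaGlue.sigma_div`. -/
theorem galois_sub_mem_inf_wild (hA : A.LiesOverPrime p) (h : BadSetup A π M p)
    (hsurj : Function.Surjective π) (hW : IsAL M p W)
    (C : Ctx A (-(p : Qb)) (stabV A V) n τ) (U : Unif A (-(p : Qb)) (stabV A V) w n)
    {σ : GQ} (hσ : σ ∈ A.inertiaSubgroupIn ℚ) {t : ℕ} {η u : Qb}
    (hη : σ w = w * (1 + η)) (hηt : η = w ^ t * u) (hu : u ∈ A)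
    {g : laurentBaseChange Qb (modularFunctionFieldFull (M * p))}
    (hg : g ∈ fixedFunOf (stabV A V : Set GQ) (M * p)) (hgO : g ∈ OInf h) :
    ∃ y ∈ OInf h, y ∈ fixedFunOf (stabV A V : Set GQ) (M * p) ∧
      arithmeticGalois (L := Qb) (modularFunctionFieldFull (M * p)) σ • g - g =
        (w ^ (t + 1)) • y := by
  obtain ⟨y₀, hy₀, e⟩ := galois_sub_mem_inf_frame hA h hsurj hW (stabV_le_inertia V) C U hσ hg hgO
  have hw0 : w ≠ 0 := w_ne_zero U
  have hwt : w ^ (t + 1) ≠ 0 := pow_ne_zero _ hw0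
  have e1 : σ w - w = w ^ (t + 1) * u := by rw [hη, hηt]; ring
  have e2 : arithmeticGalois (L := Qb) (modularFunctionFieldFull (M * p)) σ • g - g =
      (w ^ (t + 1)) • (u • y₀) := by rw [e, e1, smul_smul]
  refine ⟨u • y₀, ?_, ?_, e2⟩
  · rw [Algebra.smul_def]
    exact (OInf h).mul_mem _ _ ((algebraMap_mem_OInf_iff h _).2 hu) hy₀
  · have h1 : u • y₀ = (w ^ (t + 1))⁻¹ •
        (arithmeticGalois (L := Qb) (modularFunctionFieldFull (M * p)) σ • g - g) := by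
      rw [e2, smul_smul, inv_mul_cancel₀ hwt, one_smul]
    rw [h1]
    exact smul_mem_fixedFunOf
      ((fixedSubfieldOf (stabV A V : Set GQ)).inv_mem
        ((fixedSubfieldOf (stabV A V : Set GQ)).pow_mem (w_mem_fixedSubfieldOf U) _))
      ((fixedFunOf (stabV A V : Set GQ) (M * p)).sub_mem
        (smul_mem_fixedFunOf_stabV hLV hquot hσ hg) hg)

include hLV hquot in
/-- **(F5), `σ ≡ 1` modulo `w^(t+1)` on the `K''`-rational part of `O_0`.** -/
theorem galois_sub_mem_zero_wild (hA : A.LiesOverPrime p) (h : BadSetup A π M p)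
    (hsurj : Function.Surjective π) (hW : IsAL M p W)
    (C : Ctx A (-(p : Qb)) (stabV A V) n τ) (U : Unif A (-(p : Qb)) (stabV A V) w n)
    {σ : GQ} (hσ : σ ∈ A.inertiaSubgroupIn ℚ) {t : ℕ} {η u : Qb}
    (hη : σ w = w * (1 + η)) (hηt : η = w ^ t * u) (hu : u ∈ A)
    {g : laurentBaseChange Qb (modularFunctionFieldFull (M * p))}
    (hg : g ∈ fixedFunOf (stabV A V : Set GQ) (M * p)) (hgO : g ∈ OZero h W) :
    ∃ y ∈ OZero h W, y ∈ fixedFunOf (stabV A V : Set GQ) (M * p) ∧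
      arithmeticGalois (L := Qb) (modularFunctionFieldFull (M * p)) σ • g - g =
        (w ^ (t + 1)) • y := by
  obtain ⟨y₀, hy₀, e⟩ := galois_sub_mem_zero_frame hA h hsurj hW (stabV_le_inertia V) C U hσ hg hgO
  have hw0 : w ≠ 0 := w_ne_zero U
  have hwt : w ^ (t + 1) ≠ 0 := pow_ne_zero _ hw0
  have e1 : σ w - w = w ^ (t + 1) * u := by rw [hη, hηt]; ring
  have e2 : arithmeticGalois (L := Qb) (modularFunctionFieldFull (M * p)) σ • g - g =
      (w ^ (t + 1)) • (u • y₀) := by rw [e, e1, smul_smul]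
  refine ⟨u • y₀, ?_, ?_, e2⟩
  · rw [Algebra.smul_def]
    exact (OZero h W).mul_mem _ _ ((algebraMap_mem_OZero_iff h _).2 hu) hy₀
  · have h1 : u • y₀ = (w ^ (t + 1))⁻¹ •
        (arithmeticGalois (L := Qb) (modularFunctionFieldFull (M * p)) σ • g - g) := by
      rw [e2, smul_smul, inv_mul_cancel₀ hwt, one_smul]
    rw [h1]
    exact smul_mem_fixedFunOf
      ((fixedSubfieldOf (stabV A V : Set GQ)).inv_mem
        ((fixedSubfieldOf (stabV A V : Set GQ)).pow_mem (w_mem_fixedSubfieldOf U) _))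
      ((fixedFunOf (stabV A V : Set GQ) (M * p)).sub_mem
        (smul_mem_fixedFunOf_stabV hLV hquot hσ hg) hg)

end FunWild

end Fun

end Fermat.Agent.TR.PL.Frame
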