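/-
TR / (PL), row TR-PLA (helper26), second file.  Setting of `LocalField.lean`: `A` a valuation
subring of `ℚ̄` over `p`, `I` its inertia group, `K0 = ℚ̄^I`, `E` a finite extension of `K0`
inside `ℚ̄` with uniformiser `ϖ` (`IsUnif A E ϖ`), `v(ϖ)^e = v(p)`.

(a, continued)
* `IsUnif.expansion_unique` : the expansion `c = ∑_{i<e} a i * ϖ^i` (`a i ∈ K0`) is unique;
* `IsUnif.finrank_eq`       : `[E : K0] = e`.

(b) the action of `σ ∈ I`, with `η = σϖ/ϖ - 1`: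
* `IsUnif.valuation_apply_sub_le`      : `v(σc - c) ≤ v(σϖ - ϖ)` for `c ∈ A ∩ E`;
* `IsUnif.valuation_apply_div_sub_le`  : `v(σc/c - (1 + n η)) ≤ v(η) * max (v η) (v ϖ)` when
                                         `v(c) = v(ϖ)^n`;
* `IsUnif.exists_apply_sub_eq`, `IsUnif.exists_apply_eq_mul` : the same as divisibility
  statements inside `A ∩ E` (for `σ` preserving `E`).

(c) wildness and the break:
* `valuation_apply_div_sub_one_lt_one` : if `σ^(p^k)` fixes `ϖ` then `v(η) < 1`;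
* `IsUnif.exists_break`, `IsUnif.exists_break_le` : `v(η) = v(ϖ)^t` with `1 ≤ t`, and `t ≤ p - 1`
  when `e = p (p - 1)` and `v(p) ≤ v(σϖ - ϖ)^(p-1)`.
-/
import Mathlib
import Fermat.Agent.TR.PL.LocalField

set_option autoImplicit false

namespace Fermat.Agent.TR.PL.LocalField

open Fermat.Agent.CAR.K0 Polynomial

local notation "Qb" => AlgebraicClosure ℚ
local notation "GQ" => (AlgebraicClosure ℚ ≃ₐ[ℚ] AlgebraicClosure ℚ)

/-! ### Two general valuation estimates -/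

/-- `v(x^n - y^n) ≤ v(x - y)` for integral `x`, `y`. -/
theorem valuation_pow_sub_pow_le {K : Type*} [Field K] (A : ValuationSubring K) {x y : K}
    (hx : A.valuation x ≤ 1) (hy : A.valuation y ≤ 1) (n : ℕ) :
    A.valuation (x ^ n - y ^ n) ≤ A.valuation (x - y) := by
  induction n with
  | zero => simp
  | succ n ih =>
    have h1 : x ^ (n + 1) - y ^ (n + 1) = x ^ n * (x - y) + (x ^ n - y ^ n) * y := by ring
    rw [h1]
    refine A.valuation.map_add_le ?_ ?_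
    · rw [map_mul, map_pow]
      exact mul_le_of_le_one_left zero_le (pow_le_one₀ zero_le hx)
    · rw [map_mul]
      exact (mul_le_of_le_one_right zero_le hy).trans ih

/-- Second order: `v(ε^n - 1 - n (ε - 1)) ≤ v(ε - 1)^2` for a unit `ε` and `n : ℤ`. -/
theorem valuation_zpow_sub_one_sub_le {K : Type*} [Field K] (A : ValuationSubring K) {ε : K}
    (hε : A.valuation ε = 1) (n : ℤ) :
    A.valuation (ε ^ n - 1 - (n : K) * (ε - 1)) ≤ A.valuation (ε - 1) ^ 2 := by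
  have hε0 : ε ≠ 0 := by
    rintro rfl
    rw [map_zero] at hε
    exact zero_ne_one hε
  have hint : ∀ m : ℤ, A.valuation (m : K) ≤ 1 := fun m =>
    (A.valuation_le_one_iff _).mpr (intCast_mem A m)
  have key : ∀ m : ℤ, ε ^ (m + 1) - 1 - ((m + 1 : ℤ) : K) * (ε - 1)
      = ε * (ε ^ m - 1 - (m : K) * (ε - 1)) + (m : K) * (ε - 1) ^ 2 := by
    intro m
    rw [zpow_add_one₀ hε0]
    push_cast
    ring
  set g := A.valuation (ε - 1) ^ 2 with hg
  have hm : ∀ m : ℤ, A.valuation ((m : K) * (ε - 1) ^ 2) ≤ g := fun m => by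
    rw [map_mul, map_pow]
    exact mul_le_of_le_one_left zero_le (hint m)
  have step : ∀ m : ℤ, A.valuation (ε ^ (m + 1) - 1 - ((m + 1 : ℤ) : K) * (ε - 1)) ≤ g ↔
      A.valuation (ε ^ m - 1 - (m : K) * (ε - 1)) ≤ g := by
    intro m
    constructor
    · intro h
      have h2 : ε ^ m - 1 - (m : K) * (ε - 1)
          = ε⁻¹ * ((ε ^ (m + 1) - 1 - ((m + 1 : ℤ) : K) * (ε - 1)) - (m : K) * (ε - 1) ^ 2) := by
        rw [key m, add_sub_cancel_right, inv_mul_cancel_left₀ hε0]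
      rw [h2, map_mul, map_inv₀, hε, inv_one, one_mul]
      exact A.valuation.map_sub_le h (hm m)
    · intro h
      rw [key m]
      refine A.valuation.map_add_le ?_ (hm m)
      rw [map_mul, hε, one_mul]
      exact h
  induction n using Int.induction_on with
  | zero => simp
  | succ i ih => exact (step i).mpr ih
  | pred i ih =>
    have h := step (-(i : ℤ) - 1)
    rw [sub_add_cancel] at h
    exact h.mp ih

namespace IsUnif

variable {A : ValuationSubring Qb} {E : IntermediateField ↥(K0 A) Qb} {ϖ : Qb} {p : ℕ}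

/-! ### Uniqueness of expansions, `[E : K0] = e` -/

theorem pos_of_pow_eq (hA : A.LiesOverPrime p) {e : ℕ}
    (he : A.valuation ϖ ^ e = A.valuation (p : Qb)) : 0 < e := by
  rcases Nat.eq_zero_or_pos e with rfl | h0
  · rw [pow_zero] at he
    exact absurd he.symm (ne_of_lt (valuation_natCast_lt_one hA))
  · exact h0

/-- Valuations of elements of `K0` are powers of `v(ϖ)^e`. -/
theorem valuation_K0_eq (hp : p.Prime) (hA : A.LiesOverPrime p) {e : ℕ}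
    (he : A.valuation ϖ ^ e = A.valuation (p : Qb)) {x : Qb} (hx : x ∈ K0 A) (hx0 : x ≠ 0) :
    ∃ n : ℤ, A.valuation x = A.valuation ϖ ^ ((e : ℤ) * n) := by
  obtain ⟨n, hn⟩ := exists_zpow_valuation_eq_of_mem_inertiaField hp A hA hx hx0
  exact ⟨n, by rw [hn, map_zpow₀, ← he, zpow_mul, zpow_natCast]⟩

/-- A nonzero expansion `∑_{i<e} a i * ϖ^i` with `K0`-coefficients has valuation in `v(ϖ)^ℤ`. -/
theorem exists_zpow_valuation_expansion (hp : p.Prime) (hA : A.LiesOverPrime p)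
    (h : IsUnif A E ϖ) {e : ℕ} (he : A.valuation ϖ ^ e = A.valuation (p : Qb))
    (a : Fin e → Qb) (ha : ∀ i, a i ∈ K0 A) (hne : ∃ i, a i ≠ 0) :
    ∃ n : ℤ, A.valuation (∑ i, a i * ϖ ^ (i : ℕ)) = A.valuation ϖ ^ n := by
  classical
  set c : ℕ → Qb := fun j => if hj : j < e then a ⟨j, hj⟩ else 0 with hc
  have hca : ∀ i : Fin e, c i = a i := fun i => dif_pos i.2
  have hsum : ∑ j ∈ Finset.range e, c j * ϖ ^ j = ∑ i, a i * ϖ ^ (i : ℕ) := by
    rw [Finset.sum_range]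
    exact Finset.sum_congr rfl fun i _ => by rw [hca]
  rw [← hsum]
  refine exists_zpow_valuation_sum A h.2.1 h.2.2.1 e c (fun j hj => ?_) ?_
  · by_cases hje : j < e
    · have hcj : c j = a ⟨j, hje⟩ := dif_pos hje
      rw [hcj] at hj ⊢
      exact valuation_K0_eq hp hA he (ha _) hj
    · exact absurd (dif_neg hje) hj
  · obtain ⟨i, hi⟩ := hne
    exact ⟨i, i.2, by rw [hca]; exact hi⟩

/-- A nonzero expansion `∑_{i<e} a i * ϖ^i` with `K0`-coefficients is nonzero. -/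
theorem expansion_ne_zero (hp : p.Prime) (hA : A.LiesOverPrime p)
    (h : IsUnif A E ϖ) {e : ℕ} (he : A.valuation ϖ ^ e = A.valuation (p : Qb))
    (a : Fin e → Qb) (ha : ∀ i, a i ∈ K0 A) (hne : ∃ i, a i ≠ 0) :
    ∑ i, a i * ϖ ^ (i : ℕ) ≠ 0 := by
  obtain ⟨n, hn⟩ := h.exists_zpow_valuation_expansion hp hA he a ha hne
  intro h0
  rw [h0, map_zero] at hn
  exact zpow_ne_zero n h.valuation_ne_zero hn.symm

/-- **Uniqueness of the `ϖ`-adic expansion** with coefficients in `K0`. -/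
theorem expansion_unique (hp : p.Prime) (hA : A.LiesOverPrime p)
    (h : IsUnif A E ϖ) {e : ℕ} (he : A.valuation ϖ ^ e = A.valuation (p : Qb))
    {a b : Fin e → Qb} (ha : ∀ i, a i ∈ K0 A) (hb : ∀ i, b i ∈ K0 A)
    (hab : ∑ i, a i * ϖ ^ (i : ℕ) = ∑ i, b i * ϖ ^ (i : ℕ)) : a = b := by
  by_contra hne
  have hne' : ∃ i, a i - b i ≠ 0 := by
    by_contra hcon
    exact hne (funext fun i => sub_eq_zero.mp (not_not.mp (not_exists.mp hcon i)))
  refine h.expansion_ne_zero hp hA he (fun i => a i - b i) (fun i => sub_mem (ha i) (hb i))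
    hne' ?_
  simp only [sub_mul, Finset.sum_sub_distrib, hab, sub_self]

/-- **`[E : K0] = e`**: `1, ϖ, …, ϖ^(e-1)` is a `K0`-basis of `E`. -/
theorem finrank_eq (hp : p.Prime) (hA : A.LiesOverPrime p) [FiniteDimensional ↥(K0 A) ↥E]
    (h : IsUnif A E ϖ) {e : ℕ} (he : A.valuation ϖ ^ e = A.valuation (p : Qb)) :
    Module.finrank ↥(K0 A) ↥E = e := by
  classical
  have he0 : 0 < e := pos_of_pow_eq hA he
  have hp0 : (p : Qb) ≠ 0 := Nat.cast_ne_zero.mpr hp.ne_zero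
  let ϖE : ↥E := ⟨ϖ, h.1⟩
  let b : Fin e → ↥E := fun i => ϖE ^ (i : ℕ)
  have hcoe : ∀ g : Fin e → ↥(K0 A),
      ((∑ i, g i • b i : ↥E) : Qb) = ∑ i, (g i : Qb) * ϖ ^ (i : ℕ) := by
    intro g
    rw [AddSubmonoidClass.coe_finsetSum]
    rfl
  have hli : LinearIndependent ↥(K0 A) b := by
    rw [Fintype.linearIndependent_iff]
    intro g hg i
    by_contra hi
    refine h.expansion_ne_zero hp hA he (fun i => (g i : Qb)) (fun i => (g i).2)
      ⟨i, fun h0 => hi (Subtype.ext h0)⟩ ?_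
    rw [← hcoe, hg]
    rfl
  have hsp : ⊤ ≤ Submodule.span ↥(K0 A) (Set.range b) := by
    intro x _
    obtain ⟨m, hm⟩ : ∃ m : ℕ, (p : Qb) ^ m * (x : Qb) ∈ A := by
      rcases eq_or_ne (x : Qb) 0 with hx0 | hx0
      · exact ⟨0, by rw [hx0, mul_zero]; exact A.zero_mem⟩
      · obtain ⟨j, hj⟩ := h.2.2.2 (x : Qb) x.2 hx0
        refine ⟨(-j).toNat, ?_⟩
        rw [← A.valuation_le_one_iff, map_mul, map_pow, ← he, hj, ← pow_mul,
          ← zpow_natCast, ← zpow_add₀ h.valuation_ne_zero]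
        have hnn : (0 : ℤ) ≤ ((e * (-j).toNat : ℕ) : ℤ) + j := by
          have h1 : (-j).toNat ≤ e * (-j).toNat := Nat.le_mul_of_pos_left _ he0
          have h2 : -j ≤ ((-j).toNat : ℤ) := Int.self_le_toNat _
          push_cast
          have h3 : ((-j).toNat : ℤ) ≤ (e : ℤ) * ((-j).toNat : ℤ) := by exact_mod_cast h1
          omega
        rw [← Int.toNat_of_nonneg hnn, zpow_natCast]
        exact pow_le_one₀ zero_le h.2.2.1.le
    obtain ⟨a, ha, hxa⟩ := h.exists_expansion hp hA he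
      (mul_mem (pow_mem (natCast_mem E p) m) x.2) hm
    rw [Submodule.mem_span_range_iff_exists_fun]
    refine ⟨fun i => ⟨a i / (p : Qb) ^ m,
      div_mem (ha i).1 (pow_mem (natCast_mem _ p) m)⟩, ?_⟩
    apply Subtype.ext
    rw [hcoe]
    show ∑ i : Fin e, a i / (p : Qb) ^ m * ϖ ^ (i : ℕ) = (x : Qb)
    simp only [div_mul_eq_mul_div]
    rw [← Finset.sum_div, ← hxa, mul_div_cancel_left₀ _ (pow_ne_zero m hp0)]
  rw [Module.finrank_eq_card_basis (Module.Basis.mk hli hsp), Fintype.card_fin]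

/-! ### (b) The action of an inertia element -/

variable {σ : GQ}

theorem apply_sub_eq_mul (h : IsUnif A E ϖ) (σ : GQ) :
    σ ϖ - ϖ = ϖ * (σ ϖ / ϖ - 1) := by
  have := h.2.1
  field_simp

theorem valuation_apply_div (h : IsUnif A E ϖ) (hσ : σ ∈ A.inertiaSubgroupIn ℚ) :
    A.valuation (σ ϖ / ϖ) = 1 := by
  rw [map_div₀, valuation_apply_of_mem_inertia hσ, div_self h.valuation_ne_zero]

/-- **(b1)** `v(σc - c) ≤ v(σϖ - ϖ)` for `c ∈ A ∩ E`, `σ ∈ I`. -/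
theorem valuation_apply_sub_le (hp : p.Prime) (hA : A.LiesOverPrime p)
    [FiniteDimensional ↥(K0 A) ↥E] (h : IsUnif A E ϖ) (hσ : σ ∈ A.inertiaSubgroupIn ℚ)
    {c : Qb} (hcE : c ∈ E) (hcA : c ∈ A) :
    A.valuation (σ c - c) ≤ A.valuation (σ ϖ - ϖ) := by
  obtain ⟨e, -, he⟩ := h.exists_pow_eq hp hA
  obtain ⟨a, ha, hca⟩ := h.exists_expansion hp hA he hcE hcA
  have hσϖ : A.valuation (σ ϖ) ≤ 1 := by
    rw [valuation_apply_of_mem_inertia hσ]
    exact h.2.2.1.le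
  have h1 : σ c - c = ∑ i : Fin e, a i * ((σ ϖ) ^ (i : ℕ) - ϖ ^ (i : ℕ)) := by
    rw [hca, map_sum, ← Finset.sum_sub_distrib]
    refine Finset.sum_congr rfl fun i _ => ?_
    rw [map_mul, map_pow, (mem_K0_iff A _).mp (ha i).1 σ hσ]
    ring
  rw [h1]
  refine A.valuation.map_sum_le fun i _ => ?_
  rw [map_mul]
  exact (mul_le_of_le_one_left zero_le ((A.valuation_le_one_iff _).mpr (ha i).2)).trans
    (valuation_pow_sub_pow_le A hσϖ h.2.2.1.le _)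

/-- **(b2)** `v(σc/c - (1 + n η)) ≤ v(η) * max (v η) (v ϖ)` for `c ∈ E` with `v(c) = v(ϖ)^n`,
`η = σϖ/ϖ - 1`, `σ ∈ I`. -/
theorem valuation_apply_div_sub_le (hp : p.Prime) (hA : A.LiesOverPrime p)
    [FiniteDimensional ↥(K0 A) ↥E] (h : IsUnif A E ϖ) (hσ : σ ∈ A.inertiaSubgroupIn ℚ)
    {c : Qb} (hcE : c ∈ E) {n : ℤ} (hn : A.valuation c = A.valuation ϖ ^ n) :
    A.valuation (σ c / c - (1 + (n : Qb) * (σ ϖ / ϖ - 1)))
      ≤ A.valuation (σ ϖ / ϖ - 1) * max (A.valuation (σ ϖ / ϖ - 1)) (A.valuation ϖ) := by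
  have hϖ0 := h.2.1
  have hvε : A.valuation (σ ϖ / ϖ) = 1 := h.valuation_apply_div hσ
  have hvu : A.valuation (c / ϖ ^ n) = 1 := by
    rw [map_div₀, map_zpow₀, hn, div_self (zpow_ne_zero n h.valuation_ne_zero)]
  have huE : c / ϖ ^ n ∈ E := div_mem hcE (zpow_mem h.1 n)
  have hu0 : c / ϖ ^ n ≠ 0 := by
    intro h0
    rw [h0, map_zero] at hvu
    exact zero_ne_one hvu
  have huA : c / ϖ ^ n ∈ A := (A.valuation_le_one_iff _).mp hvu.le
  have hδ : A.valuation (σ (c / ϖ ^ n) - c / ϖ ^ n) ≤ A.valuation (σ ϖ - ϖ) :=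
    h.valuation_apply_sub_le hp hA hσ huE huA
  generalize hu : c / ϖ ^ n = u at hvu huE hu0 huA hδ
  have hc : c = ϖ ^ n * u := by
    rw [← hu, mul_div_cancel₀ _ (zpow_ne_zero n hϖ0)]
  have hσc : σ c = (σ ϖ) ^ n * σ u := by rw [hc, map_mul, map_zpow₀]
  have h2 : σ c / c = (σ ϖ / ϖ) ^ n * (σ u / u) := by
    rw [div_zpow, ← mul_div_mul_comm, ← hσc, ← hc]
  have h3 : σ u / u = 1 + (σ u - u) / u := by
    rw [sub_div, div_self hu0]
    ring
  have hmain : σ c / c - (1 + (n : Qb) * (σ ϖ / ϖ - 1))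
      = ((σ ϖ / ϖ) ^ n - 1 - (n : Qb) * (σ ϖ / ϖ - 1)) + (σ ϖ / ϖ) ^ n * ((σ u - u) / u) := by
    rw [h2, h3]
    ring
  rw [hmain]
  refine A.valuation.map_add_le ?_ ?_
  · refine (valuation_zpow_sub_one_sub_le A hvε n).trans ?_
    rw [pow_two]
    exact mul_le_mul' le_rfl (le_max_left _ _)
  · rw [map_mul, map_zpow₀, hvε, one_zpow, one_mul, map_div₀, hvu, div_one]
    refine hδ.trans ?_
    rw [h.apply_sub_eq_mul σ, map_mul, mul_comm]
    exact mul_le_mul' le_rfl (le_max_right _ _)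

/-- **(b2')** `v(σc/c - (1 + n η)) ≤ v(ϖ) * v(η)` once `v(η) ≤ v(ϖ)`. -/
theorem valuation_apply_div_sub_le' (hp : p.Prime) (hA : A.LiesOverPrime p)
    [FiniteDimensional ↥(K0 A) ↥E] (h : IsUnif A E ϖ) (hσ : σ ∈ A.inertiaSubgroupIn ℚ)
    (hη : A.valuation (σ ϖ / ϖ - 1) ≤ A.valuation ϖ)
    {c : Qb} (hcE : c ∈ E) {n : ℤ} (hn : A.valuation c = A.valuation ϖ ^ n) :
    A.valuation (σ c / c - (1 + (n : Qb) * (σ ϖ / ϖ - 1)))
      ≤ A.valuation ϖ * A.valuation (σ ϖ / ϖ - 1) := by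
  have h1 := h.valuation_apply_div_sub_le hp hA hσ hcE hn
  exact h1.trans (by rw [max_eq_right hη, mul_comm])

/-- **(Sb)** elements of `E` of valuation `< 1` are divisible by `ϖ` in `A ∩ E`. -/
theorem exists_eq_mul_of_lt_one (h : IsUnif A E ϖ) {b : Qb} (hbE : b ∈ E)
    (hb : A.valuation b < 1) : ∃ w, w ∈ E ∧ w ∈ A ∧ b = ϖ * w := by
  refine ⟨b / ϖ, div_mem hbE h.1, ?_, ?_⟩
  · rw [← A.valuation_le_one_iff, map_div₀]
    exact (div_le_one₀ h.valuation_pos).mpr (h.valuation_le_of_lt_one hbE hb)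
  · rw [mul_div_cancel₀ _ h.2.1]

/-- **(Sa)** `σc - c ∈ (σϖ - ϖ)·(A ∩ E)` for `c ∈ A ∩ E` (`σ ∈ I` preserving `E`). -/
theorem exists_apply_sub_eq (hp : p.Prime) (hA : A.LiesOverPrime p)
    [FiniteDimensional ↥(K0 A) ↥E] (h : IsUnif A E ϖ) (hσ : σ ∈ A.inertiaSubgroupIn ℚ)
    (hσE : ∀ x ∈ E, σ x ∈ E) {c : Qb} (hcE : c ∈ E) (hcA : c ∈ A) :
    ∃ w, w ∈ E ∧ w ∈ A ∧ σ c - c = (σ ϖ - ϖ) * w := by
  have hle := h.valuation_apply_sub_le hp hA hσ hcE hcA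
  by_cases h0 : σ ϖ - ϖ = 0
  · refine ⟨0, zero_mem _, A.zero_mem, ?_⟩
    rw [h0, map_zero] at hle
    rw [mul_zero]
    exact (Valuation.zero_iff _).mp (le_antisymm hle zero_le)
  · refine ⟨(σ c - c) / (σ ϖ - ϖ),
      div_mem (sub_mem (hσE c hcE) hcE) (sub_mem (hσE ϖ h.1) h.1), ?_, ?_⟩
    · rw [← A.valuation_le_one_iff, map_div₀]
      exact (div_le_one₀ (zero_lt_iff.mpr ((Valuation.ne_zero_iff _).mpr h0))).mpr hle
    · rw [mul_div_cancel₀ _ h0]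

/-- **(Sc)** `σc = c (1 + n η + ϖ η w)` with `w ∈ A ∩ E`, for `c ∈ E`, `v(c) = v(ϖ)^n`
(`σ ∈ I` preserving `E`, `v(η) ≤ v(ϖ)`). -/
theorem exists_apply_eq_mul (hp : p.Prime) (hA : A.LiesOverPrime p)
    [FiniteDimensional ↥(K0 A) ↥E] (h : IsUnif A E ϖ) (hσ : σ ∈ A.inertiaSubgroupIn ℚ)
    (hσE : ∀ x ∈ E, σ x ∈ E) (hη : A.valuation (σ ϖ / ϖ - 1) ≤ A.valuation ϖ)
    {c : Qb} (hcE : c ∈ E) {n : ℤ} (hn : A.valuation c = A.valuation ϖ ^ n) :
    ∃ w, w ∈ E ∧ w ∈ A ∧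
      σ c = c * (1 + (n : Qb) * (σ ϖ / ϖ - 1) + ϖ * (σ ϖ / ϖ - 1) * w) := by
  have hle := h.valuation_apply_div_sub_le' hp hA hσ hη hcE hn
  have hc0 : c ≠ 0 := by
    rintro rfl
    rw [map_zero] at hn
    exact zpow_ne_zero n h.valuation_ne_zero hn.symm
  have hηE : σ ϖ / ϖ - 1 ∈ E := sub_mem (div_mem (hσE ϖ h.1) h.1) (one_mem _)
  generalize hηdef : σ ϖ / ϖ - 1 = η at hle hηE ⊢
  by_cases h0 : ϖ * η = 0
  · refine ⟨0, zero_mem _, A.zero_mem, ?_⟩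
    rw [← map_mul, h0, map_zero] at hle
    have h1 := (Valuation.zero_iff _).mp (le_antisymm hle zero_le)
    rw [mul_zero, add_zero, ← sub_eq_zero.mp h1, mul_div_cancel₀ _ hc0]
  · refine ⟨(σ c / c - (1 + (n : Qb) * η)) / (ϖ * η), ?_, ?_, ?_⟩
    · exact div_mem (sub_mem (div_mem (hσE c hcE) hcE)
        (add_mem (one_mem _) (mul_mem (intCast_mem _ n) hηE))) (mul_mem h.1 hηE)
    · rw [← A.valuation_le_one_iff, map_div₀, map_mul]
      rw [← map_mul] at hle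
      rw [← map_mul]
      exact (div_le_one₀ (zero_lt_iff.mpr ((Valuation.ne_zero_iff _).mpr h0))).mpr hle
    · rw [mul_div_cancel₀ _ h0, add_sub_cancel, mul_div_cancel₀ _ hc0]

end IsUnif

/-! ### (c) Wildness and the break -/

/-- `σ^j ϖ = ϖ * ∏_{i<j} σ^i (σϖ/ϖ)`. -/
theorem apply_pow_eq_mul_prod (σ : GQ) {ϖ : Qb} (hϖ0 : ϖ ≠ 0) (j : ℕ) :
    (σ ^ j) ϖ = ϖ * ∏ i ∈ Finset.range j, (σ ^ i) (σ ϖ / ϖ) := by
  induction j with
  | zero => simp
  | succ j ih =>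
    have h1 : ϖ * (σ ϖ / ϖ) = σ ϖ := mul_div_cancel₀ _ hϖ0
    calc (σ ^ (j + 1)) ϖ = (σ ^ j) (σ ϖ) := by rw [pow_succ, AlgEquiv.mul_apply]
      _ = (σ ^ j) ϖ * (σ ^ j) (σ ϖ / ϖ) := by rw [← map_mul, h1]
      _ = ϖ * ∏ i ∈ Finset.range (j + 1), (σ ^ i) (σ ϖ / ϖ) := by
        rw [ih, Finset.prod_range_succ, mul_assoc]

/-- Modulo the maximal ideal, `∏_{i<j} σ^i u ≡ u^j` for `σ ∈ I` and integral `u`. -/
theorem valuation_prod_apply_sub_pow_lt_one {A : ValuationSubring Qb} {σ : GQ}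
    (hσ : σ ∈ A.inertiaSubgroupIn ℚ) {u : Qb} (hu : A.valuation u ≤ 1) (j : ℕ) :
    A.valuation (∏ i ∈ Finset.range j, (σ ^ i) u - u ^ j) < 1 := by
  induction j with
  | zero => simp
  | succ j ih =>
    have hσj : σ ^ j ∈ A.inertiaSubgroupIn ℚ := Subgroup.pow_mem _ hσ j
    have h1 : A.valuation ((σ ^ j) u - u) < 1 :=
      Fermat.Agent.S05.inertia_spec A (σ ^ j) hσj u hu
    have h2 : A.valuation ((σ ^ j) u) ≤ 1 := by
      rw [valuation_apply_of_mem_inertia hσj]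
      exact hu
    have h3 : ∏ i ∈ Finset.range (j + 1), (σ ^ i) u - u ^ (j + 1)
        = (∏ i ∈ Finset.range j, (σ ^ i) u - u ^ j) * (σ ^ j) u + u ^ j * ((σ ^ j) u - u) := by
      rw [Finset.prod_range_succ]
      ring
    rw [h3]
    refine A.valuation.map_add_lt ?_ ?_
    · rw [map_mul]
      exact lt_of_le_of_lt (mul_le_of_le_one_right zero_le h2) ih
    · rw [map_mul, map_pow]
      exact lt_of_le_of_lt (mul_le_of_le_one_left zero_le (pow_le_one₀ zero_le hu)) h1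

/-- **Wildness**: if a `p`-power of `σ ∈ I` fixes `ϖ ≠ 0`, then `v(σϖ/ϖ - 1) < 1`. -/
theorem valuation_apply_div_sub_one_lt_one {p : ℕ} (hp : p.Prime) {A : ValuationSubring Qb}
    (hA : A.LiesOverPrime p) {σ : GQ} (hσ : σ ∈ A.inertiaSubgroupIn ℚ) {ϖ : Qb} (hϖ0 : ϖ ≠ 0)
    (k : ℕ) (hk : (σ ^ (p ^ k)) ϖ = ϖ) : A.valuation (σ ϖ / ϖ - 1) < 1 := by
  have hvu : A.valuation (σ ϖ / ϖ) = 1 := by
    rw [map_div₀, valuation_apply_of_mem_inertia hσ,
      div_self ((Valuation.ne_zero_iff _).mpr hϖ0)]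
  have hprod : ∏ i ∈ Finset.range (p ^ k), (σ ^ i) (σ ϖ / ϖ) = 1 := by
    have h1 := apply_pow_eq_mul_prod σ hϖ0 (p ^ k)
    rw [hk] at h1
    exact (mul_eq_left₀ hϖ0).mp h1.symm
  have h2 : A.valuation (1 - (σ ϖ / ϖ) ^ (p ^ k)) < 1 := by
    have h := valuation_prod_apply_sub_pow_lt_one hσ hvu.le (p ^ k)
    rwa [hprod] at h
  generalize σ ϖ / ϖ = u at hvu h2 ⊢
  have huA : u ∈ A := (A.valuation_le_one_iff _).mp hvu.le
  obtain ⟨r, hr⟩ := exists_add_pow_prime_pow_eq hp ((⟨u, huA⟩ : ↥A) - 1) 1 k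
  have hr' : u ^ (p ^ k) = (u - 1) ^ (p ^ k) + 1 + (p : Qb) * (u - 1) * A.subtype r := by
    have h5 := congrArg A.subtype hr
    simp only [map_add, map_mul, map_pow, map_sub, map_one, map_natCast, sub_add_cancel,
      one_pow, mul_one] at h5
    exact h5
  have h3 : (u - 1) ^ (p ^ k) = -(1 - u ^ (p ^ k)) - (p : Qb) * ((u - 1) * A.subtype r) := by
    rw [hr']
    ring
  have h4 : A.valuation ((u - 1) ^ (p ^ k)) < 1 := by
    rw [h3]
    refine A.valuation.map_sub_lt ?_ ?_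
    · rw [Valuation.map_neg]
      exact h2
    · rw [map_mul]
      exact lt_of_le_of_lt (mul_le_of_le_one_right zero_le ((A.valuation_le_one_iff _).mpr
        (mul_mem (sub_mem huA (one_mem A)) r.2))) (valuation_natCast_lt_one hA)
  by_contra hcon
  rw [not_lt] at hcon
  rw [map_pow] at h4
  exact absurd h4 (not_lt.2 (one_le_pow₀ hcon))

namespace IsUnif

variable {A : ValuationSubring Qb} {E : IntermediateField ↥(K0 A) Qb} {ϖ : Qb} {p : ℕ} {σ : GQ}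

/-- **The break**: for `σϖ ∈ E`, `σϖ ≠ ϖ`, `v(η) < 1` (`η = σϖ/ϖ - 1`): `v(η) = v(ϖ)^t` with
`t ≥ 1`, and `v(σϖ - ϖ) = v(ϖ)^(t+1)`. -/
theorem exists_break (h : IsUnif A E ϖ) (hσE : σ ϖ ∈ E) (hne : σ ϖ ≠ ϖ)
    (hη : A.valuation (σ ϖ / ϖ - 1) < 1) :
    ∃ t : ℕ, 1 ≤ t ∧ A.valuation (σ ϖ / ϖ - 1) = A.valuation ϖ ^ t ∧
      A.valuation (σ ϖ - ϖ) = A.valuation ϖ ^ (t + 1) := by
  have hηE : σ ϖ / ϖ - 1 ∈ E := sub_mem (div_mem hσE h.1) (one_mem _)
  have hη0 : σ ϖ / ϖ - 1 ≠ 0 := by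
    intro h0
    apply hne
    have h1 := sub_eq_zero.mp h0
    rwa [div_eq_one_iff_eq h.2.1] at h1
  obtain ⟨j, hj⟩ := h.2.2.2 _ hηE hη0
  have hj1 : 1 ≤ j := one_le_of_zpow_lt_one h.valuation_ne_zero h.2.2.1 (hj ▸ hη)
  have hjt : ((j.toNat : ℕ) : ℤ) = j := Int.toNat_of_nonneg (by omega)
  have hηt : A.valuation (σ ϖ / ϖ - 1) = A.valuation ϖ ^ j.toNat := by
    rw [hj, ← zpow_natCast, hjt]
  refine ⟨j.toNat, by omega, hηt, ?_⟩
  rw [h.apply_sub_eq_mul σ, map_mul, hηt, pow_succ']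

/-- **(c)** if `e = p (p - 1)` and `v(p) ≤ v(σϖ - ϖ)^(p-1)`, the break `t` satisfies
`1 ≤ t ≤ p - 1`. -/
theorem exists_break_le (hp : p.Prime) (h : IsUnif A E ϖ) (hσE : σ ϖ ∈ E) (hne : σ ϖ ≠ ϖ)
    (hη : A.valuation (σ ϖ / ϖ - 1) < 1)
    (he : A.valuation ϖ ^ (p * (p - 1)) = A.valuation (p : Qb))
    (hbr : A.valuation (p : Qb) ≤ A.valuation (σ ϖ - ϖ) ^ (p - 1)) :
    ∃ t : ℕ, 1 ≤ t ∧ t ≤ p - 1 ∧ A.valuation (σ ϖ / ϖ - 1) = A.valuation ϖ ^ t := by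
  obtain ⟨t, ht1, ht, ht'⟩ := h.exists_break hσE hne hη
  refine ⟨t, ht1, ?_, ht⟩
  rw [← he, ht', ← pow_mul] at hbr
  have h1 : (t + 1) * (p - 1) ≤ p * (p - 1) :=
    (pow_le_pow_iff_right_of_lt_one₀ h.valuation_pos h.2.2.1).mp hbr
  have hp2 := hp.two_le
  have h2 : t + 1 ≤ p := Nat.le_of_mul_le_mul_right h1 (by omega)
  omega

end IsUnif

end Fermat.Agent.TR.PL.LocalField
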