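/-
TR / (PL), brick (I8): THE WILD FRAME AT `TRKey`'s OBJECTS, IN ONE STATEMENT.

From the clauses `(ST)` (two clauses) and `(DEEP)` of `TR.Top.TRKey` (binders verbatim), for
`H = stabV A V` (pointwise stabiliser of `V` in the inertia group `I` of `A`), `K'' = ℚ̄^H`
(`fixK A H _`), `I₁ = GF A ζ`:

* `s ≤ 1`, `[I : H] = (p − 1) p^s`, coset representatives `ρ` of `I / H`, `H` normal in `I`;
* `K''` finite over `K0 = ℚ̄^I`, uniformiser `w` (`LocalField.IsUnif`), `v(w)^((p−1) p^s) = v(p)`;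
* `(Sa)` `v(σ c − c) ≤ v(σ w − w)` for `σ ∈ I`, `c ∈ A ∩ K''`;  `(Sb)` elements of `K''` of
  valuation `< 1` are divisible by `w` in `A ∩ K''`;
* tame case `s = 0` : `I₁ ≤ H`;
* wild case `s = 1` : a generator `σ₀` of `I₁ / H` with `σ₀ w = w (1 + η)`, `η = w^t u`, `u` a
  unit of `K''`, `1 ≤ t ≤ p − 1`, `p w^t = w^(p t + 1) r` with `r ∈ A ∩ K''`, and
  `(Sa)` `σ₀ c − c ∈ w^(t+1) (A ∩ K'')` for `c ∈ A ∩ K''`,
  `(Sc)` `σ₀ c = c (1 + n η + w^(t+1) b)`, `b ∈ A ∩ K''`, for `c ∈ K''` with `v(c) = v(w)^n`.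
-/
import Mathlib
import Fermat.Agent.TR.PL.FrameFun
import Fermat.Agent.TR.PL.LocalFieldSigma

set_option autoImplicit false
set_option linter.style.haveILetI false
set_option linter.unusedSectionVars false

namespace Fermat.Agent.TR.PL.Frame

open ModularCurve AlgebraicCurve
open Fermat.Agent.S53 Fermat.Agent.TW.Flat Fermat.Agent.TW.Flat.Loc.MonoPf
  Fermat.Agent.Padic.S33.LocKum Fermat.Agent.CAR.K0 Fermat.Agent.TR.PL.LocalField

local notation "Qb" => AlgebraicClosure ℚ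

variable {p : ℕ} [Fact p.Prime] {A : ValuationSubring Qb}

set_option maxHeartbeats 1000000 in
/-- **(I8) The wild frame of (PL) at `TRKey`'s objects.** -/
theorem exists_wild_frame {N : ℕ} [NeZero N] (hp2 : p ≠ 2) (hA : A.LiesOverPrime p) {ζ : Qb}
    (hζ : ζ ^ p = 1) (hζ1 : ζ ≠ 1) {V L : AddSubgroup (JZero N)} (hLV : L ≤ V)
    (hpV : ∀ x ∈ V, p • x = 0) (hcardV : Nat.card V = p ^ 2) (hcardL : Nat.card L = p)
    (hquot : ∀ σ ∈ A.inertiaSubgroupIn ℚ, ∀ v ∈ V, σ • v - v ∈ L)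
    (hcyc : ∀ σ ∈ A.inertiaSubgroupIn ℚ, ∀ a : ℕ, (∀ μ : Qb, μ ^ p = 1 → σ μ = μ ^ a) →
      ∀ v ∈ L, σ • v = a • v)
    (hdeep : ∀ σ ∈ A.inertiaSubgroupIn ℚ, ∀ ρ : A.ValueGroup,
      ρ ^ (p - 1) < A.valuation (p : Qb) →
      (∀ c : Qb, c ∈ A → (∀ τ' ∈ A.inertiaSubgroupIn ℚ, (∀ x ∈ V, τ' • x = x) → τ' c = c) →
        A.valuation (σ c - c) ≤ ρ) → ∀ x ∈ V, σ • x = x) :
    ∃ (s : ℕ) (w : Qb) (ρ : Fin ((p - 1) * p ^ s) → GQ), s ≤ 1 ∧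
      -- the group `H = stabV A V`
      (stabV A V).relIndex (A.inertiaSubgroupIn ℚ) = (p - 1) * p ^ s ∧
      (∀ j, ρ j ∈ A.inertiaSubgroupIn ℚ) ∧
      (∀ σ ∈ A.inertiaSubgroupIn ℚ, ∃ j, ∃ h ∈ stabV A V, σ = ρ j * h) ∧
      (∀ σ ∈ A.inertiaSubgroupIn ℚ, ∀ h ∈ stabV A V, σ⁻¹ * h * σ ∈ stabV A V) ∧
      (∀ σ ∈ A.inertiaSubgroupIn ℚ, ∀ c : Qb, c ∈ fixK A (stabV A V) (stabV_le_inertia V) →
        σ c ∈ fixK A (stabV A V) (stabV_le_inertia V)) ∧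
      -- the field `K''`
      FiniteDimensional ↥(K0 A) ↥(fixK A (stabV A V) (stabV_le_inertia V)) ∧
      IsUnif A (fixK A (stabV A V) (stabV_le_inertia V)) w ∧
      A.valuation w ^ ((p - 1) * p ^ s) = A.valuation (p : Qb) ∧
      -- (Sa), valuation form, and (Sb)
      (∀ σ ∈ A.inertiaSubgroupIn ℚ, ∀ c : Qb, c ∈ A →
        c ∈ fixK A (stabV A V) (stabV_le_inertia V) →
        A.valuation (σ c - c) ≤ A.valuation (σ w - w)) ∧
      (∀ b : Qb, b ∈ fixK A (stabV A V) (stabV_le_inertia V) → A.valuation b < 1 →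
        ∃ c : Qb, c ∈ fixK A (stabV A V) (stabV_le_inertia V) ∧ c ∈ A ∧ b = w * c) ∧
      -- the tame case
      (s = 0 → GF A ζ ≤ stabV A V) ∧
      -- the wild case
      (s = 1 → ∃ σ₀ ∈ GF A ζ, σ₀ ∈ A.inertiaSubgroupIn ℚ ∧ σ₀ ∉ stabV A V ∧
        σ₀ ^ p ∈ stabV A V ∧
        (∀ σ ∈ GF A ζ, ∃ j < p, (σ₀ ^ j)⁻¹ * σ ∈ stabV A V) ∧
        ∃ (t : ℕ) (η u r : Qb), 1 ≤ t ∧ t ≤ p - 1 ∧ σ₀ w = w * (1 + η) ∧ η = w ^ t * u ∧
          A.valuation u = 1 ∧ A.valuation η = A.valuation w ^ t ∧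
          u ∈ fixK A (stabV A V) (stabV_le_inertia V) ∧
          η ∈ fixK A (stabV A V) (stabV_le_inertia V) ∧
          r ∈ A ∧ r ∈ fixK A (stabV A V) (stabV_le_inertia V) ∧
          (p : Qb) * w ^ t = w ^ (p * t + 1) * r ∧
          -- (Sa), divisibility form
          (∀ c : Qb, c ∈ fixK A (stabV A V) (stabV_le_inertia V) → c ∈ A →
            ∃ b : Qb, b ∈ fixK A (stabV A V) (stabV_le_inertia V) ∧ b ∈ A ∧
              σ₀ c - c = w ^ (t + 1) * b) ∧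
          -- (Sc)
          (∀ (c : Qb) (n : ℤ), c ∈ fixK A (stabV A V) (stabV_le_inertia V) →
            A.valuation c = A.valuation w ^ n →
            ∃ b : Qb, b ∈ fixK A (stabV A V) (stabV_le_inertia V) ∧ b ∈ A ∧
              σ₀ c = c * (1 + (n : Qb) * η + w ^ (t + 1) * b))) := by
  have hp : p.Prime := Fact.out
  obtain ⟨s, τ, w, hs, C, U, -, hidx, hsq, htame, hwild⟩ :=
    exists_frame hp2 hA hζ hζ1 hLV hpV hcardV hcardL hquot hcyc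
  obtain ⟨hτI, hcos⟩ := coset_reps C
  have hfin : FiniteDimensional ↥(K0 A) ↥(fixK A (stabV A V) (stabV_le_inertia V)) :=
    finiteDimensional_fixK _ C U
  have hU : IsUnif A (fixK A (stabV A V) (stabV_le_inertia V)) w := isUnif_fixK _ U
  have hσE : ∀ σ ∈ A.inertiaSubgroupIn ℚ, ∀ c : Qb,
      c ∈ fixK A (stabV A V) (stabV_le_inertia V) →
      σ c ∈ fixK A (stabV A V) (stabV_le_inertia V) :=
    fun σ hσ c hc => apply_fixed_stabV hLV hquot hσ hc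
  refine ⟨s, w, τ, hs, hidx, hτI, hcos, fun σ hσ h hh => conj_mem_stabV hLV hquot hσ hh, hσE,
    hfin, hU, valuation_pow_eq_fixK U, fun σ hσ c hcA hc => val_apply_sub_le C U hσ hcA hc,
    fun b hb hb1 => hU.exists_eq_mul_of_lt_one hb hb1, htame, ?_⟩
  intro hs1
  subst hs1
  obtain ⟨σ₀, hσ₀, hσ₀V, hσ₀p, hgen⟩ := hwild rfl
  have hσ₀I : σ₀ ∈ A.inertiaSubgroupIn ℚ := hσ₀.1
  obtain ⟨t, η, u, r, ht1, htp, hη, hηt, hu, huK, hηK, hrA, hrK, hr⟩ :=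
    exists_wild_eta hLV hquot C U hdeep hσ₀I hσ₀V (hsq σ₀ hσ₀)
  have hw0 : w ≠ 0 := w_ne_zero U
  have hvη : A.valuation η = A.valuation w ^ t := by
    rw [hηt, map_mul, map_pow, hu, mul_one]
  have hηeq : σ₀ w / w - 1 = η := by
    rw [hη]
    field_simp
    ring
  have hsub : σ₀ w - w = w ^ (t + 1) * u := by
    rw [hη, hηt]
    ring
  have hvw1 : A.valuation w < 1 := U.lt
  have hvw0 : 0 < A.valuation w := zero_lt_iff.2 U.ne
  have hηle : A.valuation (σ₀ w / w - 1) ≤ A.valuation w := by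
    rw [hηeq, hvη]
    calc A.valuation w ^ t ≤ A.valuation w ^ 1 := pow_le_pow_right_of_le_one' hvw1.le ht1
      _ = A.valuation w := pow_one _
  refine ⟨σ₀, hσ₀, hσ₀I, hσ₀V, hσ₀p, hgen, t, η, u, r, ht1, htp, hη, hηt, hu, hvη, huK, hηK,
    hrA, hrK, hr, ?_, ?_⟩
  · intro c hcK hcA
    obtain ⟨b, hbK, hbA, hb⟩ := hU.exists_apply_sub_eq hp hA hσ₀I (hσE σ₀ hσ₀I) hcK hcA
    refine ⟨u * b, mul_mem huK hbK, A.mul_mem _ _ ((A.valuation_le_one_iff _).1 hu.le) hbA, ?_⟩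
    rw [hb, hsub, mul_assoc]
  · intro c n hcK hn
    obtain ⟨b, hbK, hbA, hb⟩ :=
      hU.exists_apply_eq_mul hp hA hσ₀I (hσE σ₀ hσ₀I) hηle hcK hn
    refine ⟨u * b, mul_mem huK hbK, A.mul_mem _ _ ((A.valuation_le_one_iff _).1 hu.le) hbA, ?_⟩
    rw [hb, hηeq, hηt]
    ring

end Fermat.Agent.TR.PL.Frame
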