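/-
TR / (PL), row 469 TR-PLF (helper67): **places through a node**, in the abstract lattice-level
setting of `TR/Node/NodeRingAbs.lean`.

`nodeRing red Fx E e₁ e₂ i` is the local ring of the model at the node `i` (functions of `Fx`
with a chart denominator that does not vanish at the node).  A place `P` of the generic fibre
*passes through the node* (`Through T P`, `T` the node ring) if every function of `T` is regular
at `P` — "`P` reduces to the node".

* `Through.value_mem` : the value at such a `P` of a function of the node ring is integral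
  (lies in `A`);
* `Through.value_lt_one` : if moreover the reduction of the function vanishes at the node, its
  value at `P` lies in the maximal ideal of `A`;
* `Through.value_isUnit` : the value of a unit of the node ring is a unit of `A`;
* `exists_den` : **(REG)** a function which is regular at every place through the node has a
  chart denominator not vanishing at the node (only the finiteness of its poles is used);
* `exists_smul_mem` : hence, for `Fx = ⊤`, a constant multiple of it lies in the node ring.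

Everything is formal from (loc) = `NodeRingAbs.inv_mem`.
-/
import Mathlib
import Fermat.Agent.TR.Node.NodeRingAbs

set_option autoImplicit false
set_option linter.unusedSectionVars false
set_option linter.dupNamespace false
set_option linter.unusedVariables false

noncomputable section

namespace Fermat.Agent.TR.PL.Through

open AlgebraicCurve WithZero Fermat.Agent.Lib.FF Fermat.Agent.BAD.NodalRiemann
  Fermat.Agent.Lib.Red.Deform Fermat.Agent.TR.Node.NodalLocal Fermat.Agent.TR.Node.NodeRingAbs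

variable {L F : Type*} [Field L] [Field F] [Algebra L F] {A : ValuationSubring L} {O : Subring F}
  {k F₁ F₂ : Type*} [Field k] [Field F₁] [Field F₂] [Algebra k F₁] [Algebra k F₂]
  {ι : Type*}

/-- The place `P` passes through the (local) subring `T`: every function of `T` is regular at
`P`. -/
def Through (T : Subring F) (P : Place L F) : Prop := ∀ g ∈ T, P.adicValuation g ≤ 1

theorem Through.mono {T T' : Subring F} (h : T ≤ T') {P : Place L F} (hP : Through T' P) :
    Through T P := fun g hg => hP g (h hg)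

/-- Values of `1 - c' g` at a place. -/
theorem cong_one_sub {K' F' : Type*} [Field K'] [Field F'] [Algebra K' F'] {Q : Place K' F'}
    {g : F'} {c : K'} (hc : Cong Q g c) (c' : K') :
    Cong Q (1 - algebraMap K' F' c' * g) (1 - c' * c) := by
  have h1 : Cong Q (1 : F') (1 : K') := by
    have h := cong_algebraMap Q (1 : K')
    rwa [map_one] at h
  have h2 := hc.smul (-c')
  have h3 := h1.add h2
  have e1 : (1 : F') + -c' • g = 1 - algebraMap K' F' c' * g := by
    rw [Algebra.smul_def, map_neg]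
    ring
  have e2 : (1 : K') + -c' * c = 1 - c' * c := by ring
  rwa [e1, e2] at h3

section Values

variable (hOA : ∀ x : L, algebraMap L F x ∈ O ↔ x ∈ A)
  (hval : ∀ y : F, y ≠ 0 → ∃ c : L, c ≠ 0 ∧ algebraMap L F c * y ∈ O ∧
    ¬ Small A O (algebraMap L F c * y))
  (red : O →+* F₁ × F₂) (π : A →+* k)
  (hπker : ∀ a : A, π a = 0 ↔ A.valuation (a : L) < 1)
  (hconst : ∀ a : A, red ⟨algebraMap L F (a : L), (hOA _).2 a.2⟩ =
    algebraMap k (F₁ × F₂) (π a))
  (hker : ∀ y : O, red y = 0 ↔ Small A O (y : F))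
  (Fx : Subring F) (E : Divisor L F) (e₁ : ι → Place k F₁) (e₂ : ι → Place k F₂) (i : ι)
  (hE : 0 ≤ E) {D₁ : Divisor k F₁} {D₂ : Divisor k F₂}
  (hS : ∃ N₀ : ℕ, ∀ N, N₀ ≤ N → ∀ t : F₁ × F₂,
    (∃ y : O, (y : F) ∈ riemannRochSpace (N • E) ∧ red y = t) ↔
      t ∈ gluedSpace e₁ e₂ (fun _ => (1 : k)) (N • D₁) (N • D₂))
  (hinv : ∀ g ∈ Fx, g⁻¹ ∈ Fx) (hAFx : ∀ c : L, c ∈ A → algebraMap L F c ∈ Fx)

include hOA hval hπker hconst hker hE hS hinv hAFx in
/-- The core: if `g` lies in the node ring, has the value `c` at a place `P` through the node,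
`c' ∈ A` with `c' * c = 1`, then the reduction of `1 - c' g` vanishes at the node. -/
theorem cong_zero_of_mul_eq_one {P : Place L F} (hP : Through (nodeRing red Fx E e₁ e₂ i) P)
    {g : F} (hg : g ∈ nodeRing red Fx E e₁ e₂ i) {c c' : L} (hc : Cong P g c) (hc' : c' ∈ A)
    (hcc : c' * c = 1)
    (hN : 1 - algebraMap L F c' * g ∈ nodeRing red Fx E e₁ e₂ i) :
    Cong (e₁ i) (red ⟨1 - algebraMap L F c' * g,
      mem_O hOA hval red π hπker hconst hker Fx E e₁ e₂ i hN⟩).1 0 := by
  by_contra hN0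
  have hNinv := inv_mem hOA hval red π hπker hconst hker Fx E e₁ e₂ i hE hS hinv hN hN0
  have h1 := hP _ hNinv
  have h2 : Cong P (1 - algebraMap L F c' * g) 0 := by
    have h := cong_one_sub hc c'
    rwa [hcc, sub_self] at h
  have h3 : P.adicValuation (1 - algebraMap L F c' * g) < 1 := cong_zero_iff'.1 h2
  by_cases h0 : 1 - algebraMap L F c' * g = 0
  · apply hN0
    have e : (⟨1 - algebraMap L F c' * g,
        mem_O hOA hval red π hπker hconst hker Fx E e₁ e₂ i hN⟩ : O) = 0 := Subtype.ext h0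
    rw [e, map_zero]
    exact cong_zero _
  · have h4 : P.adicValuation (1 - algebraMap L F c' * g) *
        P.adicValuation (1 - algebraMap L F c' * g)⁻¹ = 1 := by
      rw [← map_mul, mul_inv_cancel₀ h0, map_one]
    have h5 : P.adicValuation (1 - algebraMap L F c' * g) *
        P.adicValuation (1 - algebraMap L F c' * g)⁻¹ < 1 := by
      calc P.adicValuation (1 - algebraMap L F c' * g) *
            P.adicValuation (1 - algebraMap L F c' * g)⁻¹
          ≤ P.adicValuation (1 - algebraMap L F c' * g) * 1 := mul_le_mul_right h1 _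
        _ < 1 := by rwa [mul_one]
    rw [h4] at h5
    exact lt_irrefl _ h5

include hOA hconst in
/-- The reduction of `1 - c' g`. -/
theorem red_one_sub {c' : L} (hc' : c' ∈ A) {g : F} (hgO : g ∈ O)
    (hNO : 1 - algebraMap L F c' * g ∈ O) :
    red ⟨1 - algebraMap L F c' * g, hNO⟩ =
      1 - algebraMap k (F₁ × F₂) (π ⟨c', hc'⟩) * red ⟨g, hgO⟩ := by
  have e : (⟨1 - algebraMap L F c' * g, hNO⟩ : O) =
      1 - ⟨algebraMap L F c', (hOA c').2 hc'⟩ * ⟨g, hgO⟩ := Subtype.ext rfl
  rw [e, map_sub, map_one, map_mul, hconst ⟨c', hc'⟩]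

include hOA hval hπker hconst hker hE hS hinv hAFx in
/-- **Integrality of the values**: the value at a place through the node of a function of the
node ring lies in `A`. -/
theorem Through.value_mem {P : Place L F} (hP : Through (nodeRing red Fx E e₁ e₂ i) P)
    {g : F} (hg : g ∈ nodeRing red Fx E e₁ e₂ i) {c : L} (hc : Cong P g c) : c ∈ A := by
  by_contra hcA
  have hc0 : c ≠ 0 := by
    rintro rfl
    exact hcA A.zero_mem
  have hv : 1 < A.valuation c := by
    by_contra hle
    exact hcA ((A.valuation_le_one_iff c).1 (not_lt.1 hle))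
  have hv' : A.valuation c⁻¹ < 1 := by
    rw [map_inv₀]
    exact inv_lt_one_of_one_lt₀ hv
  have hc'A : c⁻¹ ∈ A := (A.valuation_le_one_iff _).1 hv'.le
  have hN : 1 - algebraMap L F c⁻¹ * g ∈ nodeRing red Fx E e₁ e₂ i :=
    Subring.sub_mem _ (Subring.one_mem _) (Subring.mul_mem _
      (algebraMap_mem hOA red Fx hE e₁ e₂ i hc'A (hAFx _ hc'A)) hg)
  have h0 := cong_zero_of_mul_eq_one hOA hval red π hπker hconst hker Fx E e₁ e₂ i hE hS hinv
    hAFx hP hg hc hc'A (inv_mul_cancel₀ hc0) hN
  have hgO := mem_O hOA hval red π hπker hconst hker Fx E e₁ e₂ i hg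
  rw [red_one_sub hOA red π hconst hc'A hgO, (hπker ⟨c⁻¹, hc'A⟩).2 hv', map_zero, zero_mul,
    sub_zero] at h0
  have h1 : Cong (e₁ i) ((1 : F₁ × F₂)).1 (1 : k) := cong_one'' _
  exact one_ne_zero (h1.unique h0)

include hOA hval hπker hconst hker hE hS hinv hAFx in
/-- **Locality of the values**: if the reduction of a function of the node ring vanishes at the
node, its value at a place through the node lies in the maximal ideal of `A`. -/
theorem Through.value_lt_one {P : Place L F} (hP : Through (nodeRing red Fx E e₁ e₂ i) P)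
    {g : F} (hg : g ∈ nodeRing red Fx E e₁ e₂ i)
    (hg0 : Cong (e₁ i)
      (red ⟨g, mem_O hOA hval red π hπker hconst hker Fx E e₁ e₂ i hg⟩).1 0)
    {c : L} (hc : Cong P g c) : A.valuation c < 1 := by
  have hcA := Through.value_mem hOA hval red π hπker hconst hker Fx E e₁ e₂ i hE hS hinv hAFx
    hP hg hc
  by_contra hlt
  have hv1 : A.valuation c = 1 :=
    le_antisymm ((A.valuation_le_one_iff c).2 hcA) (not_lt.1 hlt)
  have hc0 : c ≠ 0 := by
    rintro rfl
    rw [map_zero] at hv1
    exact zero_ne_one hv1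
  have hc'A : c⁻¹ ∈ A := by
    rw [← A.valuation_le_one_iff, map_inv₀, hv1, inv_one]
  have hN : 1 - algebraMap L F c⁻¹ * g ∈ nodeRing red Fx E e₁ e₂ i :=
    Subring.sub_mem _ (Subring.one_mem _) (Subring.mul_mem _
      (algebraMap_mem hOA red Fx hE e₁ e₂ i hc'A (hAFx _ hc'A)) hg)
  have h0 := cong_zero_of_mul_eq_one hOA hval red π hπker hconst hker Fx E e₁ e₂ i hE hS hinv
    hAFx hP hg hc hc'A (inv_mul_cancel₀ hc0) hN
  have hgO := mem_O hOA hval red π hπker hconst hker Fx E e₁ e₂ i hg
  rw [red_one_sub hOA red π hconst hc'A hgO] at h0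
  have h1 := cong_one_sub hg0 (π ⟨c⁻¹, hc'A⟩)
  rw [mul_zero, sub_zero] at h1
  have e : ((1 : F₁ × F₂) - algebraMap k (F₁ × F₂) (π ⟨c⁻¹, hc'A⟩) * red ⟨g, hgO⟩).1 =
      1 - algebraMap k F₁ (π ⟨c⁻¹, hc'A⟩) * (red ⟨g, hgO⟩).1 := rfl
  rw [e] at h0
  exact one_ne_zero (h1.unique h0)

include hOA hval hπker hconst hker hE hS hinv hAFx in
/-- The value at a place through the node of a unit of the node ring is a unit of `A`. -/
theorem Through.value_isUnit {P : Place L F} (hP : Through (nodeRing red Fx E e₁ e₂ i) P)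
    {g : F} (hg0 : g ≠ 0) (hg : g ∈ nodeRing red Fx E e₁ e₂ i)
    (hg' : g⁻¹ ∈ nodeRing red Fx E e₁ e₂ i)
    {c : L} (hc : Cong P g c) : A.valuation c = 1 := by
  have hcA := Through.value_mem hOA hval red π hπker hconst hker Fx E e₁ e₂ i hE hS hinv hAFx
    hP hg hc
  have hg2 : P.adicValuation g⁻¹ ≤ 1 := hP _ hg'
  have hc0 : c ≠ 0 := by
    rintro rfl
    have h1 : P.adicValuation g < 1 := cong_zero_iff'.1 hc
    have h2 : P.adicValuation g * P.adicValuation g⁻¹ = 1 := by
      rw [← map_mul, mul_inv_cancel₀ hg0, map_one]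
    have h3 : P.adicValuation g * P.adicValuation g⁻¹ < 1 := by
      calc P.adicValuation g * P.adicValuation g⁻¹ ≤ P.adicValuation g * 1 :=
            mul_le_mul_right hg2 _
        _ < 1 := by rwa [mul_one]
    rw [h2] at h3
    exact lt_irrefl _ h3
  have hc' : Cong P g⁻¹ c⁻¹ := cong_inv hc hc0
  have hc'A := Through.value_mem hOA hval red π hπker hconst hker Fx E e₁ e₂ i hE hS hinv hAFx
    hP hg' hc'
  refine le_antisymm ((A.valuation_le_one_iff c).2 hcA) ?_
  have h := (A.valuation_le_one_iff c⁻¹).2 hc'A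
  rw [map_inv₀] at h
  by_contra hlt
  push Not at hlt
  have hpos : 0 < A.valuation c := by
    rw [pos_iff_ne_zero]
    exact (Valuation.ne_zero_iff _).2 hc0
  have h5 : 1 < (A.valuation c)⁻¹ := (one_lt_inv₀ hpos).2 hlt
  exact absurd h (not_le.2 h5)

end Values

/-! ### (REG): functions regular at the places through the node -/

section Reg

variable (red : O →+* F₁ × F₂) (Fx : Subring F) (E : Divisor L F) (e₁ : ι → Place k F₁)
  (e₂ : ι → Place k F₂) (i : ι)

/-- A chart denominator at the node `i`: an integral chart function of `Fx` whose reduction has a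
non-zero value at the node. -/
def IsDen (N : ℕ) (t : O) : Prop :=
  (t : F) ∈ riemannRochSpace (N • E) ∧ (t : F) ∈ Fx ∧
    ∃ c : k, c ≠ 0 ∧ Cong (e₁ i) (red t).1 c ∧ Cong (e₂ i) (red t).2 c

variable {red Fx E e₁ e₂ i}

theorem isDen_one (hE : 0 ≤ E) (N : ℕ) : IsDen red Fx E e₁ e₂ i N 1 := by
  refine ⟨one_mem_L_nsmul hE N, Fx.one_mem, 1, one_ne_zero, ?_, ?_⟩
  · rw [map_one]
    exact cong_one'' _
  · rw [map_one]
    exact cong_one'' _

theorem IsDen.mul {N N' : ℕ} {t t' : O} (h : IsDen red Fx E e₁ e₂ i N t)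
    (h' : IsDen red Fx E e₁ e₂ i N' t') : IsDen red Fx E e₁ e₂ i (N + N') (t * t') := by
  obtain ⟨hL, hF, c, hc0, hc1, hc2⟩ := h
  obtain ⟨hL', hF', c', hc0', hc1', hc2'⟩ := h'
  refine ⟨mul_mem_L_nsmul' hL hL', Fx.mul_mem hF hF', c * c', mul_ne_zero hc0 hc0', ?_, ?_⟩
  · rw [map_mul]
    exact hc1.mul hc1'
  · rw [map_mul]
    exact hc2.mul hc2'

theorem IsDen.mono (hE : 0 ≤ E) {N N' : ℕ} (hN : N ≤ N') {t : O}
    (h : IsDen red Fx E e₁ e₂ i N t) : IsDen red Fx E e₁ e₂ i N' t :=
  ⟨mem_L_nsmul_of_le hE hN h.1, h.2.1, h.2.2⟩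

theorem IsDen.pow (hE : 0 ≤ E) {N : ℕ} {t : O} (h : IsDen red Fx E e₁ e₂ i N t) (m : ℕ) :
    IsDen red Fx E e₁ e₂ i (m * N) (t ^ m) := by
  induction m with
  | zero =>
    rw [pow_zero]
    exact isDen_one hE _
  | succ m ih =>
    rw [pow_succ, Nat.succ_mul]
    exact ih.mul h

theorem IsDen.ne_zero {N : ℕ} {t : O} (h : IsDen red Fx E e₁ e₂ i N t) : (t : F) ≠ 0 := by
  obtain ⟨-, -, c, hc0, hc1, -⟩ := h
  intro h0
  have e : t = 0 := Subtype.ext h0
  have h1 : (red t).1 ≠ 0 := ne_zero_of_cong hc1 hc0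
  rw [e, map_zero] at h1
  exact h1 rfl

/-- A chart denominator is regular at the places off the chart divisor. -/
theorem IsDen.val_le_one {N : ℕ} {t : O} (h : IsDen red Fx E e₁ e₂ i N t) {P : Place L F}
    (hP : E P = 0) : P.adicValuation (t : F) ≤ 1 := by
  have h1 := h.1 P
  rwa [Finsupp.smul_apply, hP, smul_zero, exp_zero] at h1

/-- A place off the chart divisor which does not pass through the node is a zero of some chart
denominator. -/
theorem exists_isDen_val_lt_one {P : Place L F} (hPE : E P = 0)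
    (hP : ¬ Through (nodeRing red Fx E e₁ e₂ i) P) :
    ∃ (N : ℕ) (t : O), IsDen red Fx E e₁ e₂ i N t ∧ P.adicValuation (t : F) < 1 := by
  unfold Through at hP
  push Not at hP
  obtain ⟨r, hr, hrP⟩ := hP
  obtain ⟨-, N, t, htL, htF, hc, y, hy, hyL⟩ := hr
  refine ⟨N, t, ⟨htL, htF, hc⟩, ?_⟩
  have h1 : P.adicValuation (y : F) ≤ 1 := by
    have h := hyL P
    rwa [Finsupp.smul_apply, hPE, smul_zero, exp_zero] at h
  rw [hy, map_mul] at h1
  by_contra hlt
  push Not at hlt
  have h2 : (1 : ℤᵐ⁰) < P.adicValuation (t : F) * P.adicValuation r := by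
    calc (1 : ℤᵐ⁰) < P.adicValuation r := hrP
      _ = 1 * P.adicValuation r := (one_mul _).symm
      _ ≤ P.adicValuation (t : F) * P.adicValuation r := mul_le_mul_left hlt _
  exact absurd h1 (not_le.2 h2)

/-- Killing finitely many poles off the chart divisor by a chart denominator. -/
theorem exists_isDen_finset (hE : 0 ≤ E) (g : F) (s : Finset (Place L F))
    (hs : ∀ P ∈ s, E P = 0 ∧ ¬ Through (nodeRing red Fx E e₁ e₂ i) P) :
    ∃ (N : ℕ) (t : O), IsDen red Fx E e₁ e₂ i N t ∧
      ∀ P ∈ s, P.adicValuation ((t : F) * g) ≤ 1 := by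
  classical
  induction s using Finset.induction_on with
  | empty => exact ⟨0, 1, isDen_one hE 0, fun P hP => absurd hP (Finset.notMem_empty P)⟩
  | insert P₀ s hP₀ ih =>
    obtain ⟨N, t, ht, hts⟩ := ih fun P hP => hs P (Finset.mem_insert_of_mem hP)
    obtain ⟨hP₀E, hP₀T⟩ := hs P₀ (Finset.mem_insert_self P₀ s)
    obtain ⟨N₀, t₀, ht₀, ht₀P⟩ := exists_isDen_val_lt_one hP₀E hP₀T
    obtain ⟨m, hm⟩ := exists_nat_val_le P₀ ((t : F) * g)
    refine ⟨N + m * N₀, t * t₀ ^ m, ht.mul (ht₀.pow hE m), ?_⟩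
    have e : (((t * t₀ ^ m : O) : F)) * g = ((t : F) * g) * (t₀ : F) ^ m := by
      show (t : F) * (t₀ : F) ^ m * g = (t : F) * g * (t₀ : F) ^ m
      ring
    intro P hP
    rw [e, map_mul, map_pow]
    rcases Finset.mem_insert.1 hP with rfl | hPs
    · have h1 : P.adicValuation (t₀ : F) ≤ exp (-1 : ℤ) := val_le_exp_neg_one_of_lt_one P ht₀P
      calc P.adicValuation ((t : F) * g) * P.adicValuation (t₀ : F) ^ m
          ≤ exp ((m : ℕ) : ℤ) * exp (-1 : ℤ) ^ m := mul_le_mul' hm (pow_le_pow_left' h1 m)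
        _ = 1 := by
          rw [← exp_nsmul, ← exp_add, ← exp_zero]
          congr 1
          simp
    · have h1 : P.adicValuation (t₀ : F) ≤ 1 :=
        ht₀.val_le_one (hs P (Finset.mem_insert_of_mem hPs)).1
      calc P.adicValuation ((t : F) * g) * P.adicValuation (t₀ : F) ^ m
          ≤ 1 * 1 ^ m := mul_le_mul' (hts P hPs) (pow_le_pow_left' h1 m)
        _ = 1 := by rw [one_pow, one_mul]

/-- **(REG)**: a function which is regular at every place through the node becomes a chart
function after multiplication by a chart denominator not vanishing at the node. -/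
theorem exists_den (hE : 0 ≤ E) {g : F}
    (hfin : {P : Place L F | ¬ P.adicValuation g ≤ 1}.Finite)
    (hg : ∀ P : Place L F, Through (nodeRing red Fx E e₁ e₂ i) P → P.adicValuation g ≤ 1) :
    ∃ (N : ℕ) (t : O), IsDen red Fx E e₁ e₂ i N t ∧
      (t : F) * g ∈ riemannRochSpace (N • E) := by
  classical
  obtain ⟨N, t, ht, hts⟩ := exists_isDen_finset (red := red) (Fx := Fx) (e₁ := e₁) (e₂ := e₂)
    (i := i) hE g (hfin.toFinset.filter fun P => E P = 0) (by
      intro P hP
      rw [Finset.mem_filter, Set.Finite.mem_toFinset, Set.mem_ofPred_eq] at hP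
      exact ⟨hP.2, fun hT => hP.1 (hg P hT)⟩)
  -- bound the poles on the support of `E`
  have hbd : ∀ P : Place L F, ∃ m : ℕ, P.adicValuation ((t : F) * g) ≤ exp ((m : ℕ) : ℤ) :=
    fun P => exists_nat_val_le P _
  choose m hm using hbd
  refine ⟨N + ∑ P ∈ E.support, m P, t, ht.mono hE (Nat.le_add_right _ _), ?_⟩
  intro P
  by_cases hPE : E P = 0
  · rw [Finsupp.smul_apply, hPE, smul_zero, exp_zero]
    by_cases hgP : P.adicValuation g ≤ 1
    · rw [map_mul]
      calc P.adicValuation (t : F) * P.adicValuation g ≤ 1 * 1 :=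
            mul_le_mul' (ht.val_le_one hPE) hgP
        _ = 1 := one_mul _
    · exact hts P (by
        rw [Finset.mem_filter, Set.Finite.mem_toFinset, Set.mem_ofPred_eq]
        exact ⟨hgP, hPE⟩)
  · have hPs : P ∈ E.support := Finsupp.mem_support_iff.2 hPE
    have hE1 : (1 : ℤ) ≤ E P := by
      have h0 : (0 : ℤ) ≤ E P := Finsupp.le_def.mp hE P
      omega
    refine (hm P).trans (exp_le_exp.2 ?_)
    rw [Finsupp.smul_apply, nsmul_eq_mul]
    have h1 : m P ≤ N + ∑ Q ∈ E.support, m Q :=
      (Finset.single_le_sum (fun Q _ => Nat.zero_le (m Q)) hPs).trans (Nat.le_add_left _ _)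
    have h2 : ((m P : ℕ) : ℤ) ≤ ((N + ∑ Q ∈ E.support, m Q : ℕ) : ℤ) := by exact_mod_cast h1
    calc ((m P : ℕ) : ℤ) ≤ ((N + ∑ Q ∈ E.support, m Q : ℕ) : ℤ) * 1 := by rw [mul_one]; exact h2
      _ ≤ ((N + ∑ Q ∈ E.support, m Q : ℕ) : ℤ) * E P :=
        mul_le_mul_of_nonneg_left hE1 (by positivity)

/-- **(REG), Qb-level form** (`Fx = ⊤`): a nonzero function which is regular at every place
through the node has a constant multiple in the node ring. -/
theorem exists_smul_mem
    (hval : ∀ y : F, y ≠ 0 → ∃ c : L, c ≠ 0 ∧ algebraMap L F c * y ∈ O ∧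
      ¬ Small A O (algebraMap L F c * y))
    (hE : 0 ≤ E) {g : F} (hg0 : g ≠ 0)
    (hfin : {P : Place L F | ¬ P.adicValuation g ≤ 1}.Finite)
    (hg : ∀ P : Place L F, Through (nodeRing red ⊤ E e₁ e₂ i) P → P.adicValuation g ≤ 1) :
    ∃ c : L, c ≠ 0 ∧ algebraMap L F c * g ∈ nodeRing red ⊤ E e₁ e₂ i := by
  obtain ⟨N, t, ht, htg⟩ := exists_den (red := red) (Fx := ⊤) (e₁ := e₁) (e₂ := e₂) (i := i)
    hE hfin hg
  obtain ⟨c, hc0, hcO, -⟩ := hval ((t : F) * g) (mul_ne_zero ht.ne_zero hg0)
  refine ⟨c, hc0, Subring.mem_top _, N, t, ht.1, Subring.mem_top _, ht.2.2,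
    ⟨algebraMap L F c * ((t : F) * g), hcO⟩, ?_, ?_⟩
  · show algebraMap L F c * ((t : F) * g) = (t : F) * (algebraMap L F c * g)
    ring
  · show algebraMap L F c * ((t : F) * g) ∈ riemannRochSpace (N • E)
    rw [← Algebra.smul_def]
    exact Submodule.smul_mem _ _ htg

end Reg

end Fermat.Agent.TR.PL.Through
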