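/-
TR / (PL): THE MIDDLE of the assembly of `PLInf` (owner: helper20) — `Asm.PLNumeric` from the
bricks of the node side, each as a named `Prop` in consumer shape.

For the `TRKey` objects `(A, M, p, h, W, V, L)` and a family of "nodes" `(ι, e₁, T)` — `e₁ i` the
place of `κ` at the node `i` of the `∞`-component, `T i` the (ℚ̄-level) node ring — the bricks are

* `DictAt h e₁`       : every non-cuspidal place `Q` with `0 < ord_Q Δ̄` is a node `e₁ i`;
* `GenAt M p H T`     : (GEN) an `H`-fixed divisor `D` has at every node an `H`-fixed local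
                        generator `g` (`ord_P g = D P` at the places `P` through `T i`);
* `NewtAt h W H e₁ T` : (NEWT) the Newton relation at a node, for a unit `f₀` of `O_∞` with
                        `f₀ = w^N · (unit of O_0)`, `ord_P f₀ = p · ord_P g` through the node and
                        `g = w^(n∞) · (unit of O_∞) = w^(n0) · (unit of O_0)`;
* `WildAt h W V T`    : (CONST) in the wild case `s = 1` of the frame the integers
                        `γ i = n0 i − n∞ i` are congruent to each other modulo `p`.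

`MidBricks` : the four bricks for ONE family `(ι, e₁, T)`, under the binders of `TR.Top.TRKey`.

`plNumeric_of_bricks : MidBricks → Asm.PLNumeric` — the middle: frame (`Frame.exists_wild_frame`),
`K''`-rational unit Kummer function (`AsmKum.exists_fixed_unit_kummer`), (B-norm)
(`SigmaSeam.exists_zpow_unif_inf/zero`), then the bricks.
-/
import Mathlib
import Fermat.Agent.TR.PL.Asm
import Fermat.Agent.TR.PL.AsmKum
import Fermat.Agent.TR.PL.FrameWild
import Fermat.Agent.TR.PL.SigmaSeam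
import Fermat.Agent.TR.PL.Through

set_option autoImplicit false
set_option linter.unusedSectionVars false
set_option linter.unusedVariables false
set_option linter.style.haveILetI false

noncomputable section

namespace Fermat.Agent.TR.PL.AsmMid

open AlgebraicCurve ModularCurve Fermat.Agent.BAD.TwoVal Fermat.Agent.BAD.BadU
  Fermat.Agent.BAD.LatFixedInst Fermat.Agent.ESJ.Jac Fermat.Agent.TR.PL.Seam
  Fermat.Agent.TR.PL.Frame Fermat.Agent.TR.PL.Through Fermat.Agent.TR.PL.Asm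
  Fermat.Agent.TR.PL.LocalField Fermat.Agent.CAR.K0 Fermat.Agent.TR.Unit.FDelta
  Fermat.Agent.TW.Flat.Loc.MonoPf

local notation "Qb" => AlgebraicClosure ℚ
local notation "GQ" => (AlgebraicClosure ℚ ≃ₐ[ℚ] AlgebraicClosure ℚ)

/-! ### The frame clauses -/

/-- The clauses of `Frame.exists_wild_frame` (verbatim, after `s ≤ 1`): the frame of (PL) at the
`TRKey` objects, for `H = stabV A V`, `K'' = fixK A H`, uniformiser `w`, coset representatives
`ρ` of `I / H`. -/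
def FrameClauses {p : ℕ} (A : ValuationSubring Qb) {N : ℕ} [NeZero N]
    (V : AddSubgroup (JZero N)) (ζ : Qb) (s : ℕ) (w : Qb) (ρ : Fin ((p - 1) * p ^ s) → GQ) :
    Prop :=
  (stabV A V).relIndex (A.inertiaSubgroupIn ℚ) = (p - 1) * p ^ s ∧
  (∀ j, ρ j ∈ A.inertiaSubgroupIn ℚ) ∧
  (∀ σ ∈ A.inertiaSubgroupIn ℚ, ∃ j, ∃ h ∈ stabV A V, σ = ρ j * h) ∧
  (∀ σ ∈ A.inertiaSubgroupIn ℚ, ∀ h ∈ stabV A V, σ⁻¹ * h * σ ∈ stabV A V) ∧
  (∀ σ ∈ A.inertiaSubgroupIn ℚ, ∀ c : Qb, c ∈ fixK A (stabV A V) (stabV_le_inertia V) →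
    σ c ∈ fixK A (stabV A V) (stabV_le_inertia V)) ∧
  FiniteDimensional ↥(K0 A) ↥(fixK A (stabV A V) (stabV_le_inertia V)) ∧
  IsUnif A (fixK A (stabV A V) (stabV_le_inertia V)) w ∧
  A.valuation w ^ ((p - 1) * p ^ s) = A.valuation (p : Qb) ∧
  (∀ σ ∈ A.inertiaSubgroupIn ℚ, ∀ c : Qb, c ∈ A →
    c ∈ fixK A (stabV A V) (stabV_le_inertia V) →
    A.valuation (σ c - c) ≤ A.valuation (σ w - w)) ∧
  (∀ b : Qb, b ∈ fixK A (stabV A V) (stabV_le_inertia V) → A.valuation b < 1 →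
    ∃ c : Qb, c ∈ fixK A (stabV A V) (stabV_le_inertia V) ∧ c ∈ A ∧ b = w * c) ∧
  (s = 0 → GF A ζ ≤ stabV A V) ∧
  (s = 1 → ∃ σ₀ ∈ GF A ζ, σ₀ ∈ A.inertiaSubgroupIn ℚ ∧ σ₀ ∉ stabV A V ∧
    σ₀ ^ p ∈ stabV A V ∧
    (∀ σ ∈ GF A ζ, ∃ j < p, (σ₀ ^ j)⁻¹ * σ ∈ stabV A V) ∧
    ∃ (t : ℕ) (η u r : Qb), 1 ≤ t ∧ t ≤ p - 1 ∧ σ₀ w = w * (1 + η) ∧ η = w ^ t * u ∧
      A.valuation u = 1 ∧ A.valuation η = A.valuation w ^ t ∧
      u ∈ fixK A (stabV A V) (stabV_le_inertia V) ∧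
      η ∈ fixK A (stabV A V) (stabV_le_inertia V) ∧
      r ∈ A ∧ r ∈ fixK A (stabV A V) (stabV_le_inertia V) ∧
      (p : Qb) * w ^ t = w ^ (p * t + 1) * r ∧
      (∀ c : Qb, c ∈ fixK A (stabV A V) (stabV_le_inertia V) → c ∈ A →
        ∃ b : Qb, b ∈ fixK A (stabV A V) (stabV_le_inertia V) ∧ b ∈ A ∧
          σ₀ c - c = w ^ (t + 1) * b) ∧
      (∀ (c : Qb) (n : ℤ), c ∈ fixK A (stabV A V) (stabV_le_inertia V) →
        A.valuation c = A.valuation w ^ n →
        ∃ b : Qb, b ∈ fixK A (stabV A V) (stabV_le_inertia V) ∧ b ∈ A ∧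
          σ₀ c = c * (1 + (n : Qb) * η + w ^ (t + 1) * b)))

/-! ### The bricks, consumer shape -/

section Defs

variable {A : ValuationSubring Qb} {M p : ℕ} [NeZero M] [NeZero p]

/-- **The dictionary**: every non-cuspidal place of `κ` at which `Δ̄` vanishes is a node. -/
def DictAt (h : BadSetup A (IsLocalRing.residue A) M p) {ι : Type}
    (e₁ : ι → Place (IsLocalRing.ResidueField A)
      (modularFunctionFieldFullC (IsLocalRing.ResidueField A) M)) : Prop :=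
  ∀ Q : Place (IsLocalRing.ResidueField A)
      (modularFunctionFieldFullC (IsLocalRing.ResidueField A) M),
    NonCusp Q → 0 < Q.ord (deltaBar h) → ∃ i, Q = e₁ i

/-- **(GEN)**: local generators at the nodes of the divisors fixed by `H`. -/
def GenAt (M p : ℕ) [NeZero M] [NeZero p] (H : Set GQ) {ι : Type}
    (T : ι → Subring (laurentBaseChange Qb (modularFunctionFieldFull (M * p)))) : Prop :=
  ∀ D : Divisor Qb (laurentBaseChange Qb (modularFunctionFieldFull (M * p))),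
    (∀ σ ∈ H, arithmeticGalois (L := Qb) (modularFunctionFieldFull (M * p)) σ • D = D) →
    ∀ i : ι, ∃ g : laurentBaseChange Qb (modularFunctionFieldFull (M * p)),
      g ≠ 0 ∧ g ∈ fixedFunOf H (M * p) ∧
      ∀ P : Place Qb (laurentBaseChange Qb (modularFunctionFieldFull (M * p))),
        Through (T i) P → P.ord g = D P

/-- **(NEWT)**: the Newton relation at the node `i`.  `w` with `v(w)^e = v(p)`; `f₀` a unit of
`O_∞`, `f₀ = w^N · (unit of O_0)`; `g ≠ 0` with `ord_P f₀ = p · ord_P g` at the places through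
the node, `g = w^(n∞) · (unit of O_∞) = w^(n0) · (unit of O_0)`.  Then, with the thickness `kk`
(`ord_{e₁ i} Δ̄ · kk = 12`): `N = e · kk · a + p · (n0 − n∞)` and
`ord_{e₁ i} (redInf f₀) = a + p · δ`. -/
def NewtAt (h : BadSetup A (IsLocalRing.residue A) M p)
    (W : laurentBaseChange Qb (modularFunctionFieldFull (M * p)) ≃ₐ[Qb]
      laurentBaseChange Qb (modularFunctionFieldFull (M * p))) (H : Set GQ) {ι : Type}
    (e₁ : ι → Place (IsLocalRing.ResidueField A)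
      (modularFunctionFieldFullC (IsLocalRing.ResidueField A) M))
    (T : ι → Subring (laurentBaseChange Qb (modularFunctionFieldFull (M * p)))) : Prop :=
  ∀ (i : ι) (w : Qb) (e : ℕ), A.valuation w ^ e = A.valuation ((p : ℕ) : Qb) →
    A.valuation w < 1 → w ≠ 0 →
  ∀ (f₀ : laurentBaseChange Qb (modularFunctionFieldFull (M * p))) (hf₀ : f₀ ∈ OInf h),
    f₀⁻¹ ∈ OInf h → f₀ ≠ 0 → f₀ ∈ fixedFunOf H (M * p) →
  ∀ N : ℤ, (w ^ N)⁻¹ • f₀ ∈ OZero h W → ((w ^ N)⁻¹ • f₀)⁻¹ ∈ OZero h W →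
  ∀ g : laurentBaseChange Qb (modularFunctionFieldFull (M * p)), g ≠ 0 →
    g ∈ fixedFunOf H (M * p) →
    (∀ P : Place Qb (laurentBaseChange Qb (modularFunctionFieldFull (M * p))),
      Through (T i) P → P.ord f₀ = (p : ℤ) * P.ord g) →
  ∀ ni n0 : ℤ, (w ^ ni)⁻¹ • g ∈ OInf h → ((w ^ ni)⁻¹ • g)⁻¹ ∈ OInf h →
    (w ^ n0)⁻¹ • g ∈ OZero h W → ((w ^ n0)⁻¹ • g)⁻¹ ∈ OZero h W →
  ∃ kk a δ : ℤ, (e₁ i).ord (deltaBar h) * kk = 12 ∧
    N = (e : ℤ) * kk * a + (p : ℤ) * (n0 - ni) ∧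
    (e₁ i).ord (redInf h ⟨f₀, hf₀⟩) = a + (p : ℤ) * δ

/-- **(CONST), wild case**: for the frame with `s = 1` (uniformiser `w`), the `K''`-rational unit
Kummer function `f₀` of a class `x ∈ V` with its `H`-fixed divisor `D`, and local generators
`g i` of `D` at the nodes with `g i = w^(ni i) · (unit of O_∞) = w^(n0 i) · (unit of O_0)`: the
integers `n0 i − ni i` are congruent to each other modulo `p`. -/
def WildAt (h : BadSetup A (IsLocalRing.residue A) M p)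
    (W : laurentBaseChange Qb (modularFunctionFieldFull (M * p)) ≃ₐ[Qb]
      laurentBaseChange Qb (modularFunctionFieldFull (M * p)))
    (V : AddSubgroup (JZero (M * p))) {ι : Type}
    (T : ι → Subring (laurentBaseChange Qb (modularFunctionFieldFull (M * p)))) : Prop :=
  ∀ (ζ : Qb), ζ ^ p = 1 → ζ ≠ 1 →
  ∀ (w : Qb) (ρ : Fin ((p - 1) * p ^ 1) → GQ), FrameClauses A V ζ 1 w ρ →
  ∀ x : JZero (M * p), x ∈ V →
  ∀ D : Divisor.degZero (K := Qb) (F := laurentBaseChange Qb (modularFunctionFieldFull (M * p))),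
    Pic0.mk D = x →
    (∀ σ ∈ stabV A V, arithmeticGalois (L := Qb) (modularFunctionFieldFull (M * p)) σ •
      (D : Divisor Qb (laurentBaseChange Qb (modularFunctionFieldFull (M * p)))) = D) →
  ∀ f₀ : laurentBaseChange Qb (modularFunctionFieldFull (M * p)),
    f₀ ∈ fixedFunOf (stabV A V : Set GQ) (M * p) → f₀ ≠ 0 →
    (∀ P : Place Qb (laurentBaseChange Qb (modularFunctionFieldFull (M * p))),
      P.ord f₀ = (p : ℤ) *
        (D : Divisor Qb (laurentBaseChange Qb (modularFunctionFieldFull (M * p)))) P) →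
    f₀ ∈ OInf h → f₀⁻¹ ∈ OInf h →
  ∀ N : ℤ, (w ^ N)⁻¹ • f₀ ∈ OZero h W → ((w ^ N)⁻¹ • f₀)⁻¹ ∈ OZero h W →
  ∀ (g : ι → laurentBaseChange Qb (modularFunctionFieldFull (M * p))) (ni n0 : ι → ℤ),
    (∀ i, g i ≠ 0) → (∀ i, g i ∈ fixedFunOf (stabV A V : Set GQ) (M * p)) →
    (∀ i, ∀ P : Place Qb (laurentBaseChange Qb (modularFunctionFieldFull (M * p))),
      Through (T i) P → P.ord (g i) =
        (D : Divisor Qb (laurentBaseChange Qb (modularFunctionFieldFull (M * p)))) P) →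
    (∀ i, (w ^ ni i)⁻¹ • g i ∈ OInf h) → (∀ i, ((w ^ ni i)⁻¹ • g i)⁻¹ ∈ OInf h) →
    (∀ i, (w ^ n0 i)⁻¹ • g i ∈ OZero h W) → (∀ i, ((w ^ n0 i)⁻¹ • g i)⁻¹ ∈ OZero h W) →
  ∀ i j, (p : ℤ) ∣ (n0 i - ni i) - (n0 j - ni j)

end Defs

/-- **The bricks of the middle**: under the binders of `TR.Top.TRKey` on `(V, L)` there is ONE
family of nodes `(ι, e₁, T)` with the dictionary, (GEN), (NEWT) and — in the wild case —
(CONST). -/
def MidBricks : Prop :=
  ∀ (A : ValuationSubring Qb) (M p : ℕ) [NeZero M] [NeZero p]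
    (h : BadSetup A (IsLocalRing.residue A) M p), A.LiesOverPrime p → 5 ≤ p →
    ∀ W : laurentBaseChange Qb (modularFunctionFieldFull (M * p)) ≃ₐ[Qb]
      laurentBaseChange Qb (modularFunctionFieldFull (M * p)), IsAL M p W →
    ∀ V L : AddSubgroup (JZero (M * p)), L ≤ V → (∀ x ∈ V, p • x = 0) →
      Nat.card V = p ^ 2 → Nat.card L = p →
    (∀ σ ∈ A.inertiaSubgroupIn ℚ, ∀ v ∈ V, σ • v - v ∈ L) →
    (∀ σ ∈ A.inertiaSubgroupIn ℚ, ∀ a : ℕ, (∀ μ : Qb, μ ^ p = 1 → σ μ = μ ^ a) →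
      ∀ v ∈ L, σ • v = a • v) →
    (∀ σ ∈ A.inertiaSubgroupIn ℚ, ∀ ρ : A.ValueGroup, ρ ^ (p - 1) < A.valuation ((p : ℕ) : Qb) →
      (∀ c ∈ A, (∀ τ ∈ A.inertiaSubgroupIn ℚ, (∀ x ∈ V, τ • x = x) → τ c = c) →
        A.valuation (σ c - c) ≤ ρ) →
      ∀ x ∈ V, σ • x = x) →
    ∃ (ι : Type) (e₁ : ι → Place (IsLocalRing.ResidueField A)
        (modularFunctionFieldFullC (IsLocalRing.ResidueField A) M))
      (T : ι → Subring (laurentBaseChange Qb (modularFunctionFieldFull (M * p)))),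
      DictAt h e₁ ∧ GenAt M p (stabV A V : Set GQ) T ∧ NewtAt h W (stabV A V : Set GQ) e₁ T ∧
        WildAt h W V T

/-! ### The middle -/

/-- A primitive `p`-th root of unity in `ℚ̄`. -/
theorem exists_zeta {p : ℕ} (hp : p.Prime) : ∃ ζ : Qb, ζ ^ p = 1 ∧ ζ ≠ 1 := by
  haveI : NeZero p := ⟨hp.ne_zero⟩
  obtain ⟨ζ, hζ⟩ := HasEnoughRootsOfUnity.exists_primitiveRoot Qb p
  exact ⟨ζ, hζ.pow_eq_one, hζ.ne_one hp.one_lt⟩

set_option maxHeartbeats 1000000 in
/-- **The middle of (PL∞)**: the numerical package at a class `x ∈ V` from the four bricks for a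
family of nodes `(ι, e₁, T)`. -/
theorem numericAt_of_bricks {A : ValuationSubring Qb} {M p : ℕ} [NeZero M] [NeZero p]
    (h : BadSetup A (IsLocalRing.residue A) M p) (hA : A.LiesOverPrime p) (hp5 : 5 ≤ p)
    {W : laurentBaseChange Qb (modularFunctionFieldFull (M * p)) ≃ₐ[Qb]
      laurentBaseChange Qb (modularFunctionFieldFull (M * p))} (hW : IsAL M p W)
    {V L : AddSubgroup (JZero (M * p))} (hLV : L ≤ V) (hpV : ∀ x ∈ V, p • x = 0)
    (hcardV : Nat.card V = p ^ 2) (hcardL : Nat.card L = p)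
    (hquot : ∀ σ ∈ A.inertiaSubgroupIn ℚ, ∀ v ∈ V, σ • v - v ∈ L)
    (hcyc : ∀ σ ∈ A.inertiaSubgroupIn ℚ, ∀ a : ℕ, (∀ μ : Qb, μ ^ p = 1 → σ μ = μ ^ a) →
      ∀ v ∈ L, σ • v = a • v)
    (hdeep : ∀ σ ∈ A.inertiaSubgroupIn ℚ, ∀ ρ : A.ValueGroup,
      ρ ^ (p - 1) < A.valuation ((p : ℕ) : Qb) →
      (∀ c ∈ A, (∀ τ ∈ A.inertiaSubgroupIn ℚ, (∀ x ∈ V, τ • x = x) → τ c = c) →
        A.valuation (σ c - c) ≤ ρ) →
      ∀ x ∈ V, σ • x = x)
    {ι : Type} (e₁ : ι → Place (IsLocalRing.ResidueField A)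
      (modularFunctionFieldFullC (IsLocalRing.ResidueField A) M))
    (T : ι → Subring (laurentBaseChange Qb (modularFunctionFieldFull (M * p))))
    (hdict : DictAt h e₁) (hGEN : GenAt M p (stabV A V : Set GQ) T)
    (hNEWT : NewtAt h W (stabV A V : Set GQ) e₁ T) (hWILD : WildAt h W V T)
    {x : JZero (M * p)} (hx : x ∈ V) : NumericAt h p x := by
  classical
  have hpp : p.Prime := h.hℓ
  haveI : Fact p.Prime := ⟨hpp⟩
  have hp2 : p ≠ 2 := by omega
  obtain ⟨ζ, hζ, hζ1⟩ := exists_zeta hpp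
  obtain ⟨s, w, ρ, hs, hidx, hρI, hρ, hconj, hσK, hfin, hU, hval, hSa, hSb, htame, hwild⟩ :=
    exists_wild_frame hp2 hA hζ hζ1 hLV hpV hcardV hcardL hquot hcyc hdeep
  have hH : stabV A V ≤ A.inertiaSubgroupIn ℚ := stabV_le_inertia V
  have hidx0 : (stabV A V).relIndex (A.inertiaSubgroupIn ℚ) ≠ 0 := by
    rw [hidx]
    exact Nat.mul_ne_zero (by have := hpp.two_le; omega) (pow_ne_zero _ hpp.ne_zero)
  have hsurj : Function.Surjective (IsLocalRing.residue A) := IsLocalRing.residue_surjective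
  -- (RAT) + (B-norm∞): the `K''`-rational unit Kummer function
  obtain ⟨D, f₀, hDx, hDfix, hf₀H, hf₀0, hf₀D, hkum, hf₀, hf₀i⟩ :=
    Fermat.Agent.TR.PL.AsmKum.exists_fixed_unit_kummer hpp hA h hsurj hW (stabV A V)
      (fun σ hσ => hH hσ) ρ hρI hρ p x (hpV x hx) (fun σ hσ => hσ.2 x hx)
  -- (B-norm0) for `f₀`
  obtain ⟨N, hN1, hN2⟩ :=
    Fermat.Agent.TR.PL.SigmaSeam.exists_zpow_unif_zero hA h hsurj hW hH hidx0 hU hf₀H hf₀0
  -- (GEN): the local generators, and (B-norm) for them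
  choose g hg0 hgH hgD using hGEN
    (D : Divisor Qb (laurentBaseChange Qb (modularFunctionFieldFull (M * p)))) hDfix
  choose ni hni1 hni2 using fun i =>
    Fermat.Agent.TR.PL.SigmaSeam.exists_zpow_unif_inf hA h hsurj hW hH hidx0 hU (hgH i) (hg0 i)
  choose n0 hn01 hn02 using fun i =>
    Fermat.Agent.TR.PL.SigmaSeam.exists_zpow_unif_zero (W := W) hA h hsurj hW hH hidx0 hU
      (hgH i) (hg0 i)
  -- (NEWT) at every node
  have hw0 : w ≠ 0 := hU.2.1
  have hw1 : A.valuation w < 1 := hU.2.2.1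
  choose kk a δ hkk hrel hm using fun i =>
    hNEWT i w ((p - 1) * p ^ s) hval hw1 hw0 f₀ hf₀ hf₀i hf₀0 hf₀H N hN1 hN2 (g i) (hg0 i) (hgH i)
      (fun P hP => by rw [hf₀D P, hgD i P hP]) (ni i) (n0 i) (hni1 i) (hni2 i) (hn01 i)
      (hn02 i)
  refine ⟨f₀, hf₀, hkum, hf₀i, ι, e₁, kk, a, fun i => n0 i - ni i, δ,
    (((p - 1) * p ^ s : ℕ) : ℤ), N, s, hs, ?_, hdict, hkk, hrel, hm, ?_⟩
  · rw [Nat.cast_mul, Nat.cast_pow, Nat.cast_sub hpp.one_le, Nat.cast_one]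
    ring
  · intro hs1
    subst hs1
    intro i j
    rw [Int.modEq_iff_dvd]
    exact hWILD ζ hζ hζ1 w ρ
      ⟨hidx, hρI, hρ, hconj, hσK, hfin, hU, hval, hSa, hSb, htame, hwild⟩ x hx D hDx hDfix f₀
      hf₀H hf₀0 hf₀D hf₀ hf₀i N hN1 hN2 g ni n0 hg0 hgH hgD hni1 hni2 hn01 hn02 j i

/-- **The middle**: `Asm.PLNumeric` from the bricks. -/
theorem plNumeric_of_bricks (hB : MidBricks) : PLNumeric := by
  intro A M p _ _ h hA hp5 W hW V L hLV hpV hcardV hcardL hquot hcyc hdeep x hx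
  obtain ⟨ι, e₁, T, hdict, hGEN, hNEWT, hWILD⟩ :=
    hB A M p h hA hp5 W hW V L hLV hpV hcardV hcardL hquot hcyc hdeep
  exact numericAt_of_bricks h hA hp5 hW hLV hpV hcardV hcardL hquot hcyc hdeep e₁ T hdict hGEN
    hNEWT hWILD hx

/-- **(PL∞) from the bricks of the middle.** -/
theorem plInf_of_bricks (hB : MidBricks) : PLInf :=
  plInf_of_numeric (plNumeric_of_bricks hB)

end Fermat.Agent.TR.PL.AsmMid
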