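import Mathlib
import Fermat.Agent.BAD.NodalRiemann
import Fermat.Agent.Padic.LatticeRat

/-!
# TR (PL), brick (GEN): the local generator of a divisor near a node — product and fixedness

Abstract setting: `F / L` a function field, a set `H` of semilinear automorphisms of `F / L`
(Prelude's `SemilinearAut L F`, acting on `F`, on the places and on the divisors), a predicate
`T` on the places ("the place passes through the node", or "lies in the residue disc"), stable
under `H`, and a coordinate `ξ`, fixed by `H`, which is **unramified** and **injective** on the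
places of `T`:

* (unr) `T P → Cong P ξ c → P.ord (ξ - c) = 1`;
* (inj) `T P → T P' → Cong P ξ c → Cong P' ξ c → P' = P`.

Then every `H`-stable divisor `D` has an `H`-fixed local generator on `T`:

* `exists_gen` : `∃ g ≠ 0, (∀ σ ∈ H, σ • g = g) ∧ ∀ P, T P → P.ord g = D P`,

namely `g = ∏_{P ∈ supp D, T P} (ξ - ξ(P)) ^ (D P)`.

Auxiliary statements: `cong_smul'` (semilinear automorphisms transport values),
`ord_eq_zero_of_cong_ne` (a function with a nonzero value has order `0`), `ord_finset_prod`.
-/

set_option autoImplicit false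

noncomputable section

namespace Fermat.Agent.TR.PL.GenProd

open AlgebraicCurve WithZero Fermat.Agent.Lib.FF Fermat.Agent.BAD.NodalRiemann

variable {L F : Type*} [Field L] [Field F] [Algebra L F]

/-- Semilinear automorphisms transport values. -/
theorem cong_smul' (σ : SemilinearAut L F) {P : Place L F} {f : F} {c : L} (h : Cong P f c) :
    Cong (σ • P) (σ • f) (SemilinearAut.baseAut σ c) := by
  unfold Cong at h ⊢
  have h1 : σ • f - algebraMap L F (SemilinearAut.baseAut σ c)
      = σ • (f - algebraMap L F c) := by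
    rw [smul_sub, SemilinearAut.smul_algebraMap]
  rw [h1, Fermat.Agent.Padic.adicValuation_semilinear_smul]
  exact h

/-- The order of a finite product of nonzero functions. -/
theorem ord_finset_prod (P : Place L F) {ι : Type*} (s : Finset ι) (f : ι → F)
    (hf : ∀ j ∈ s, f j ≠ 0) : P.ord (∏ j ∈ s, f j) = ∑ j ∈ s, P.ord (f j) := by
  classical
  induction s using Finset.induction_on with
  | empty => simp [Place.ord_one]
  | insert a s ha ih =>
    rw [Finset.prod_insert ha, Finset.sum_insert ha,
      Place.ord_mul P (hf a (Finset.mem_insert_self a s))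
        (Finset.prod_ne_zero_iff.2 fun j hj => hf j (Finset.mem_insert_of_mem hj)),
      ih fun j hj => hf j (Finset.mem_insert_of_mem hj)]

/-- A function regular at `P` with value `c`, shifted by a constant `d ≠ c`, has order `0`
at `P`. -/
theorem ord_eq_zero_of_cong_ne {P : Place L F} {f : F} {c d : L} (h : Cong P f c)
    (hcd : c ≠ d) : P.ord (f - algebraMap L F d) = 0 := by
  have h1 : P.adicValuation (algebraMap L F (c - d)) = 1 :=
    adicValuation_algebraMap_eq_one P (sub_ne_zero.2 hcd)
  have e : f - algebraMap L F d = algebraMap L F (c - d) + (f - algebraMap L F c) := by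
    rw [map_sub]
    ring
  have h2 : P.adicValuation (f - algebraMap L F d) = 1 := by
    rw [e, ← h1]
    refine Valuation.map_add_eq_of_lt_left _ ?_
    rw [h1]
    exact h
  have h0 : f - algebraMap L F d ≠ 0 := by
    intro h0
    rw [h0, map_zero] at h2
    exact zero_ne_one h2
  rw [P.adicValuation_eq_exp_neg_ord h0, ← exp_zero, exp_inj] at h2
  linarith

section Gen

variable (H : Set (SemilinearAut L F)) (T : Place L F → Prop)
  (hT : ∀ σ ∈ H, ∀ P, T P → T (σ • P))
  {ξ : F} (hξ : ∀ σ ∈ H, σ • ξ = ξ)
  (hval : ∀ P, T P → ∃ c : L, Cong P ξ c)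
  (hunr : ∀ P c, T P → Cong P ξ c → P.ord (ξ - algebraMap L F c) = 1)
  (hinj : ∀ P P' c, T P → T P' → Cong P ξ c → Cong P' ξ c → P' = P)

include hT hξ hval hunr hinj in
/-- **(GEN): the local generator.**  If the `H`-fixed coordinate `ξ` is unramified and
injective on the `H`-stable set `T` of places, every `H`-stable divisor `D` is cut out on `T`
by an `H`-fixed function: `g = ∏_{P ∈ supp D, T P} (ξ - ξ(P)) ^ (D P)`. -/
theorem exists_gen (D : Divisor L F) (hD : ∀ σ ∈ H, σ • D = D) :
    ∃ g : F, g ≠ 0 ∧ (∀ σ ∈ H, σ • g = g) ∧ ∀ P, T P → P.ord g = D P := by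
  classical
  -- the values of the coordinate
  choose! c hc using hval
  set S : Finset (Place L F) := D.support.filter T with hS
  have hST : ∀ P ∈ S, T P := fun P hP => (Finset.mem_filter.1 hP).2
  have hfac0 : ∀ P ∈ S, ξ - algebraMap L F (c P) ≠ 0 := by
    intro P hP h0
    have h1 := hunr P (c P) (hST P hP) (hc P (hST P hP))
    rw [h0, Place.ord_zero] at h1
    exact zero_ne_one h1
  have hpow0 : ∀ P ∈ S, (ξ - algebraMap L F (c P)) ^ (D P) ≠ 0 :=
    fun P hP => zpow_ne_zero _ (hfac0 P hP)
  refine ⟨∏ P ∈ S, (ξ - algebraMap L F (c P)) ^ (D P), ?_, ?_, ?_⟩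
  · exact Finset.prod_ne_zero_iff.2 hpow0
  · -- fixedness
    intro σ hσ
    have hDσ : ∀ P, D (σ • P) = D P := by
      intro P
      have h := SemilinearAut.divisor_smul_apply_smul σ D P
      rwa [hD σ hσ] at h
    have hcσ : ∀ P, T P → c (σ • P) = SemilinearAut.baseAut σ (c P) := by
      intro P hP
      have h1 := cong_smul' σ (hc P hP)
      rw [hξ σ hσ] at h1
      exact (hc (σ • P) (hT σ hσ P hP)).unique h1
    have hmaps : ∀ P ∈ S, σ • P ∈ S := by
      intro P hP
      rw [hS, Finset.mem_filter, Finsupp.mem_support_iff] at hP ⊢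
      exact ⟨by rw [hDσ]; exact hP.1, hT σ hσ P hP.2⟩
    have hinjσ : Set.InjOn (fun P : Place L F => σ • P) (S : Set (Place L F)) :=
      fun P _ Q _ h => MulAction.injective σ h
    have himg : S.image (fun P : Place L F => σ • P) = S := by
      refine Finset.eq_of_subset_of_card_le ?_ ?_
      · intro Q hQ
        obtain ⟨P, hP, rfl⟩ := Finset.mem_image.1 hQ
        exact hmaps P hP
      · rw [Finset.card_image_of_injOn hinjσ]
    have h1 : σ • (∏ P ∈ S, (ξ - algebraMap L F (c P)) ^ (D P))
        = ∏ P ∈ S, (ξ - algebraMap L F (c (σ • P))) ^ (D (σ • P)) := by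
      rw [SemilinearAut.smul_def, map_prod]
      refine Finset.prod_congr rfl fun P hP => ?_
      rw [map_zpow₀, map_sub, hDσ P, hcσ P (hST P hP), ← SemilinearAut.smul_def, hξ σ hσ,
        SemilinearAut.commutes]
    rw [h1]
    conv_rhs => rw [← himg]
    rw [Finset.prod_image hinjσ]
  · -- the orders
    intro P hP
    rw [ord_finset_prod P S _ hpow0]
    have hterm : ∀ Q ∈ S, P.ord ((ξ - algebraMap L F (c Q)) ^ (D Q))
        = if Q = P then D P else 0 := by
      intro Q hQ
      rw [Place.ord_zpow]
      split_ifs with hQP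
      · subst hQP
        rw [hunr Q (c Q) hP (hc Q hP), mul_one]
      · have hne : c P ≠ c Q := by
          intro hcc
          apply hQP
          have h2 := hc Q (hST Q hQ)
          rw [← hcc] at h2
          exact hinj P Q (c P) hP (hST Q hQ) (hc P hP) h2
        rw [ord_eq_zero_of_cong_ne (hc P hP) hne, mul_zero]
    rw [Finset.sum_congr rfl hterm, Finset.sum_ite_eq' S P]
    split_ifs with hPS
    · rfl
    · rw [hS, Finset.mem_filter, Finsupp.mem_support_iff] at hPS
      by_contra hne
      exact hPS ⟨fun h0 => hne h0.symm, hP⟩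

end Gen

/-- Semilinear automorphisms whose inverses preserve the subring `R` preserve the set of places
at which all the functions of `R` are regular. -/
theorem regular_smul (σ : SemilinearAut L F) {R : Subring F} (hR : ∀ g ∈ R, σ⁻¹ • g ∈ R)
    {P : Place L F} (hP : ∀ g ∈ R, P.adicValuation g ≤ 1) :
    ∀ g ∈ R, (σ • P).adicValuation g ≤ 1 := by
  intro g hg
  have h := Fermat.Agent.Padic.adicValuation_semilinear_smul σ P (σ⁻¹ • g)
  rw [smul_inv_smul] at h
  rw [h]
  exact hP _ (hR g hg)

/-- **(GEN) for the places through a subring.**  `R` a subring of `F` (the local ring of the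
model at a node), stable under the inverses of the elements of `H`; the places *through* `R`
are those at which all the functions of `R` are regular (`TR/PL/Through.lean`).  If the
`H`-fixed coordinate `ξ ∈ R` is unramified and injective on the places through `R`, every
`H`-stable divisor is cut out on the places through `R` by an `H`-fixed function. -/
theorem exists_gen_through (H : Set (SemilinearAut L F)) (R : Subring F)
    (hR : ∀ σ ∈ H, ∀ g ∈ R, σ⁻¹ • g ∈ R)
    (hres : ∀ Q : Place L F, (∀ g ∈ R, Q.adicValuation g ≤ 1) → RR.ResK Q)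
    {ξ : F} (hξR : ξ ∈ R) (hξ : ∀ σ ∈ H, σ • ξ = ξ)
    (hunr : ∀ (P : Place L F) (c : L), (∀ g ∈ R, P.adicValuation g ≤ 1) → Cong P ξ c →
      P.ord (ξ - algebraMap L F c) = 1)
    (hinj : ∀ (P P' : Place L F) (c : L), (∀ g ∈ R, P.adicValuation g ≤ 1) →
      (∀ g ∈ R, P'.adicValuation g ≤ 1) → Cong P ξ c → Cong P' ξ c → P' = P)
    (D : Divisor L F) (hD : ∀ σ ∈ H, σ • D = D) :
    ∃ g : F, g ≠ 0 ∧ (∀ σ ∈ H, σ • g = g) ∧
      ∀ P, (∀ g ∈ R, P.adicValuation g ≤ 1) → P.ord g = D P :=
  exists_gen H (fun P => ∀ g ∈ R, P.adicValuation g ≤ 1)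
    (fun σ hσ _ hP => regular_smul σ (hR σ hσ) hP) hξ
    (fun P hP => exists_cong (hres P hP) (hP ξ hξR)) hunr hinj D hD

end Fermat.Agent.TR.PL.GenProd
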