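/-
TR / (PL), instance brick (I4) (helper49): **equivariance of "places through a node"**.

Abstract part (setting of `TR/Node/NodeRingAbs.lean` + a semilinear automorphism `g` of `F`):

* `smul_mem_nodeRing` : if `g` preserves `O`, commutes with `red`, fixes the chart divisor `E`
  and preserves `Fx`, then it preserves the node ring `nodeRing red Fx E e₁ e₂ i`;
* `Through.smul` / `through_smul_iff` : hence `Through T P ↔ Through T (g • P)`;
* `cong_smul` / `cong_smul_fixed` : values: `f ≡ c` at `P` gives `g • f ≡ g c` at `g • P`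
  (so the value of a `g`-fixed function at `g • P` is `g` of its value at `P`);
* `ord_smul_fixed` : orders of `g`-fixed functions at `g • P`.

Instance part (BAD's objects: `O = OPair h W`, `red = redPair h W`, `g = arithmeticGalois _ σ`
with `σ` in the inertia group of `A`):

* `inertia_mem_OInf_iff`, `inertia_redInf`, `inertia_mem_OZero_iff`, `inertia_redZero`,
  `inertia_mem_OPair_iff`, `inertia_redPair` : inertia preserves the two Gauss rings and acts
  trivially on the reductions;
* `inertia_mem_nodeRing(_iff)` : inertia preserves the node ring at every node (`Fx` any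
  inertia-stable subring, e.g. `⊤`; `E` any inertia-fixed chart divisor);
* `through_inertia(_iff)` : `Through T_i P ↔ Through T_i (σ • P)`;
* `cong_galois`, `cong_galois_fixed`, `ord_galois_fixed` : the values/orders, for every `σ`.
-/
import Mathlib
import Fermat.Agent.TR.PL.Through
import Fermat.Agent.BAD.TwoVal.GaloisPair
import Fermat.Agent.BAD.TwoVal.Semilocal

set_option autoImplicit false
set_option linter.unusedSectionVars false
set_option linter.dupNamespace false
set_option linter.unusedVariables false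

noncomputable section

namespace Fermat.Agent.TR.PL.ThroughGal

open AlgebraicCurve ModularCurve WithZero Fermat.Agent.Lib.FF Fermat.Agent.BAD.NodalRiemann
  Fermat.Agent.Lib.Red.Deform Fermat.Agent.TR.Node.NodalLocal Fermat.Agent.TR.Node.NodeRingAbs
  Fermat.Agent.TR.PL.Through

/-! ### Abstract part -/

section Abstract

variable {L F : Type*} [Field L] [Field F] [Algebra L F] {O : Subring F}
  {k F₁ F₂ : Type*} [Field k] [Field F₁] [Field F₂] [Algebra k F₁] [Algebra k F₂]
  {ι : Type*}

/-- A semilinear automorphism transports valuations at places. -/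
theorem adicValuation_smul_smul (g : SemilinearAut L F) (P : Place L F) (f : F) :
    (g • P).adicValuation (g • f) = P.adicValuation f := by
  rcases eq_or_ne f 0 with rfl | hf
  · simp
  · have hgf : g • f ≠ 0 := (smul_ne_zero_iff_ne _).mpr hf
    rw [Place.adicValuation_eq_exp_neg_ord _ hgf, Place.adicValuation_eq_exp_neg_ord _ hf,
      SemilinearAut.ord_smul]

theorem adicValuation_smul_place (g : SemilinearAut L F) (P : Place L F) (f : F) :
    (g • P).adicValuation f = P.adicValuation (g⁻¹ • f) := by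
  have h := adicValuation_smul_smul g P (g⁻¹ • f)
  rwa [smul_inv_smul] at h

/-- A semilinear automorphism fixing the divisor `D` preserves `L(D)`. -/
theorem smul_mem_rr_of_fixed (g : SemilinearAut L F) {D : Divisor L F} (hD : g • D = D) {f : F}
    (hf : f ∈ riemannRochSpace D) : g • f ∈ riemannRochSpace D := by
  intro v
  have h1 : v.adicValuation (g • f) = (g⁻¹ • v).adicValuation f := by
    have h := adicValuation_smul_smul g (g⁻¹ • v) f
    rwa [smul_inv_smul] at h
  have h2 : D v = D (g⁻¹ • v) := by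
    conv_lhs => rw [← hD]
    exact SemilinearAut.divisor_smul_apply g D v
  rw [h1, h2]
  exact hf _

theorem smul_nsmul_divisor (g : SemilinearAut L F) {E : Divisor L F} (hE : g • E = E) (N : ℕ) :
    g • (N • E) = N • E := by
  rw [smul_comm, hE]

/-- **The node ring is stable** under a semilinear automorphism which preserves `O`, commutes with
the reduction, fixes the chart divisor and preserves `Fx`. -/
theorem smul_mem_nodeRing (g : SemilinearAut L F) (red : O →+* F₁ × F₂) (Fx : Subring F)
    (E : Divisor L F) (e₁ : ι → Place k F₁) (e₂ : ι → Place k F₂) (i : ι)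
    (hgO : ∀ y : F, y ∈ O → g • y ∈ O)
    (hgred : ∀ (y : F) (hy : y ∈ O) (hy' : g • y ∈ O), red ⟨g • y, hy'⟩ = red ⟨y, hy⟩)
    (hgE : g • E = E) (hgFx : ∀ y ∈ Fx, g • y ∈ Fx)
    {f : F} (hf : f ∈ nodeRing red Fx E e₁ e₂ i) : g • f ∈ nodeRing red Fx E e₁ e₂ i := by
  obtain ⟨hfF, N, t, htL, htF, ⟨c, hc0, hc1, hc2⟩, y, hy, hyL⟩ := hf
  have hNE : g • (N • E) = N • E := smul_nsmul_divisor g hgE N
  refine ⟨hgFx f hfF, N, ⟨g • (t : F), hgO _ t.2⟩, smul_mem_rr_of_fixed g hNE htL,
    hgFx _ htF, ⟨c, hc0, ?_, ?_⟩, ⟨g • (y : F), hgO _ y.2⟩, ?_, smul_mem_rr_of_fixed g hNE hyL⟩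
  · rw [hgred (t : F) t.2 (hgO _ t.2)]
    exact hc1
  · rw [hgred (t : F) t.2 (hgO _ t.2)]
    exact hc2
  · show g • (y : F) = g • (t : F) * g • f
    rw [hy, smul_mul']

/-- Places through a subring stable under `g⁻¹` are permuted by `g`. -/
theorem Through.smul (g : SemilinearAut L F) {T : Subring F} (hT : ∀ f ∈ T, g⁻¹ • f ∈ T)
    {P : Place L F} (hP : Through T P) : Through T (g • P) := by
  intro f hf
  rw [adicValuation_smul_place]
  exact hP _ (hT f hf)

theorem through_smul_iff (g : SemilinearAut L F) {T : Subring F} (hT : ∀ f ∈ T, g • f ∈ T)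
    (hT' : ∀ f ∈ T, g⁻¹ • f ∈ T) {P : Place L F} : Through T (g • P) ↔ Through T P := by
  refine ⟨fun h => ?_, Through.smul g hT'⟩
  have h' := Through.smul g⁻¹ (T := T) (by simpa using hT) h
  rwa [inv_smul_smul] at h'

/-- **Values are equivariant**: `f ≡ c` at `P` gives `g • f ≡ g c` at `g • P`. -/
theorem cong_smul (g : SemilinearAut L F) {P : Place L F} {f : F} {c : L} (h : Cong P f c) :
    Cong (g • P) (g • f) (SemilinearAut.baseAut g c) := by
  show (g • P).adicValuation (g • f - algebraMap L F (SemilinearAut.baseAut g c)) < 1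
  have e : g • f - algebraMap L F (SemilinearAut.baseAut g c) = g • (f - algebraMap L F c) := by
    rw [smul_sub, SemilinearAut.smul_algebraMap]
  rw [e, adicValuation_smul_smul]
  exact h

/-- The value of a `g`-fixed function at `g • P` is `g` of its value at `P`. -/
theorem cong_smul_fixed (g : SemilinearAut L F) {P : Place L F} {f : F} {c : L}
    (hf : g • f = f) (h : Cong P f c) : Cong (g • P) f (SemilinearAut.baseAut g c) := by
  have h' := cong_smul g h
  rwa [hf] at h'

theorem cong_smul_iff (g : SemilinearAut L F) {P : Place L F} {f : F} {c : L} :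
    Cong (g • P) (g • f) (SemilinearAut.baseAut g c) ↔ Cong P f c := by
  refine ⟨fun h => ?_, cong_smul g⟩
  have h' := cong_smul g⁻¹ h
  rw [inv_smul_smul, inv_smul_smul] at h'
  have e : SemilinearAut.baseAut g⁻¹ (SemilinearAut.baseAut g c) = c := by
    rw [SemilinearAut.baseAut_inv]
    exact RingEquiv.symm_apply_apply _ _
  rwa [e] at h'

/-- Orders of a `g`-fixed function along the orbit of a place. -/
theorem ord_smul_fixed (g : SemilinearAut L F) (P : Place L F) {f : F} (hf : g • f = f) :
    (g • P).ord f = P.ord f := by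
  have h := SemilinearAut.ord_smul g P f
  rwa [hf] at h

end Abstract

/-! ### Instance part: inertia at the bad level -/

section Inst

open Fermat.Agent.BAD.TwoVal

local notation "Qb" => AlgebraicClosure ℚ

variable {A : ValuationSubring Qb} {k : Type} [Field k] {π : A →+* k} {M q : ℕ} [NeZero M]
  [NeZero q]
  {W : laurentBaseChange Qb (modularFunctionFieldFull (M * q)) ≃ₐ[Qb]
    laurentBaseChange Qb (modularFunctionFieldFull (M * q))}

/-- Inertia preserves `O_∞` (both directions). -/
theorem inertia_mem_OInf_iff (h : BadSetup A π M q) {σ : Qb ≃ₐ[ℚ] Qb}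
    (hσ : σ ∈ A.inertiaSubgroupIn ℚ)
    (f : laurentBaseChange Qb (modularFunctionFieldFull (M * q))) :
    arithmeticGalois (modularFunctionFieldFull (M * q)) σ • f ∈ OInf h ↔ f ∈ OInf h := by
  refine ⟨fun hf => ?_, fun hf => galois_mem_OInf h (inertial_of_mem_inertia h.hπ hσ) hf⟩
  have h' := galois_mem_OInf h (inertial_of_mem_inertia h.hπ
    ((A.inertiaSubgroupIn ℚ).inv_mem hσ)) hf
  rwa [map_inv, inv_smul_smul] at h'

/-- Inertia acts trivially on the reduction at `∞`. -/
theorem inertia_redInf (h : BadSetup A π M q) {σ : Qb ≃ₐ[ℚ] Qb}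
    (hσ : σ ∈ A.inertiaSubgroupIn ℚ)
    (f : laurentBaseChange Qb (modularFunctionFieldFull (M * q))) (hf : f ∈ OInf h)
    (hf' : arithmeticGalois (modularFunctionFieldFull (M * q)) σ • f ∈ OInf h) :
    redInf h ⟨arithmeticGalois (modularFunctionFieldFull (M * q)) σ • f, hf'⟩ =
      redInf h ⟨f, hf⟩ :=
  redInf_galois h (inertial_of_mem_inertia h.hπ hσ) f hf hf'

/-- Inertia preserves `O_0` (both directions). -/
theorem inertia_mem_OZero_iff (h : BadSetup A π M q) (hW : IsAL M q W) {σ : Qb ≃ₐ[ℚ] Qb}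
    (hσ : σ ∈ A.inertiaSubgroupIn ℚ)
    (f : laurentBaseChange Qb (modularFunctionFieldFull (M * q))) :
    arithmeticGalois (modularFunctionFieldFull (M * q)) σ • f ∈ OZero h W ↔ f ∈ OZero h W := by
  refine ⟨fun hf => ?_, fun hf => galois_mem_OZero h hW (inertial_of_mem_inertia h.hπ hσ) hf⟩
  have h' := galois_mem_OZero h hW (inertial_of_mem_inertia h.hπ
    ((A.inertiaSubgroupIn ℚ).inv_mem hσ)) hf
  rwa [map_inv, inv_smul_smul] at h'

/-- Inertia acts trivially on the reduction at `0`. -/
theorem inertia_redZero (h : BadSetup A π M q) (hW : IsAL M q W) {σ : Qb ≃ₐ[ℚ] Qb}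
    (hσ : σ ∈ A.inertiaSubgroupIn ℚ)
    (f : laurentBaseChange Qb (modularFunctionFieldFull (M * q))) (hf : f ∈ OZero h W)
    (hf' : arithmeticGalois (modularFunctionFieldFull (M * q)) σ • f ∈ OZero h W) :
    redZero h W ⟨arithmeticGalois (modularFunctionFieldFull (M * q)) σ • f, hf'⟩ =
      redZero h W ⟨f, hf⟩ :=
  redZero_galois h hW (inertial_of_mem_inertia h.hπ hσ) f hf hf'

/-- Inertia preserves `O = O_∞ ∩ O_0` (both directions). -/
theorem inertia_mem_OPair_iff (h : BadSetup A π M q) (hW : IsAL M q W) {σ : Qb ≃ₐ[ℚ] Qb}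
    (hσ : σ ∈ A.inertiaSubgroupIn ℚ)
    (f : laurentBaseChange Qb (modularFunctionFieldFull (M * q))) :
    arithmeticGalois (modularFunctionFieldFull (M * q)) σ • f ∈ OPair h W ↔ f ∈ OPair h W := by
  rw [mem_OPair_iff, mem_OPair_iff, inertia_mem_OInf_iff h hσ, inertia_mem_OZero_iff h hW hσ]

/-- Inertia acts trivially on the reduction of the pair. -/
theorem inertia_redPair (h : BadSetup A π M q) (hW : IsAL M q W) {σ : Qb ≃ₐ[ℚ] Qb}
    (hσ : σ ∈ A.inertiaSubgroupIn ℚ)
    (f : laurentBaseChange Qb (modularFunctionFieldFull (M * q))) (hf : f ∈ OPair h W)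
    (hf' : arithmeticGalois (modularFunctionFieldFull (M * q)) σ • f ∈ OPair h W) :
    redPair h W ⟨arithmeticGalois (modularFunctionFieldFull (M * q)) σ • f, hf'⟩ =
      redPair h W ⟨f, hf⟩ := by
  rw [redPair_mk, redPair_mk]
  exact Prod.ext (inertia_redInf h hσ f _ _) (inertia_redZero h hW hσ f _ _)

/-- **Inertia preserves the node ring** at every node, for every inertia-fixed chart divisor `E`
and every subring `Fx` stable under `σ`. -/
theorem inertia_mem_nodeRing (h : BadSetup A π M q) (hW : IsAL M q W) {σ : Qb ≃ₐ[ℚ] Qb}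
    (hσ : σ ∈ A.inertiaSubgroupIn ℚ)
    (Fx : Subring (laurentBaseChange Qb (modularFunctionFieldFull (M * q))))
    (hFx : ∀ y ∈ Fx, arithmeticGalois (modularFunctionFieldFull (M * q)) σ • y ∈ Fx)
    {E : Divisor Qb (laurentBaseChange Qb (modularFunctionFieldFull (M * q)))}
    (hE : arithmeticGalois (modularFunctionFieldFull (M * q)) σ • E = E)
    {ι : Type*} (e₁ e₂ : ι → Place k (modularFunctionFieldFullC k M)) (i : ι)
    {f : laurentBaseChange Qb (modularFunctionFieldFull (M * q))}
    (hf : f ∈ nodeRing (redPair h W) Fx E e₁ e₂ i) :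
    arithmeticGalois (modularFunctionFieldFull (M * q)) σ • f ∈
      nodeRing (redPair h W) Fx E e₁ e₂ i :=
  smul_mem_nodeRing (arithmeticGalois (modularFunctionFieldFull (M * q)) σ) (redPair h W) Fx E
    e₁ e₂ i (fun y hy => (inertia_mem_OPair_iff h hW hσ y).2 hy)
    (fun y hy hy' => inertia_redPair h hW hσ y hy hy') hE hFx hf

/-- Inertia preserves the node ring over `Qb` (`Fx = ⊤`), in both directions. -/
theorem inertia_mem_nodeRing_top_iff (h : BadSetup A π M q) (hW : IsAL M q W)
    {E : Divisor Qb (laurentBaseChange Qb (modularFunctionFieldFull (M * q)))}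
    (hE : ∀ τ ∈ A.inertiaSubgroupIn ℚ,
      arithmeticGalois (modularFunctionFieldFull (M * q)) τ • E = E)
    {ι : Type*} (e₁ e₂ : ι → Place k (modularFunctionFieldFullC k M)) (i : ι)
    {σ : Qb ≃ₐ[ℚ] Qb} (hσ : σ ∈ A.inertiaSubgroupIn ℚ)
    (f : laurentBaseChange Qb (modularFunctionFieldFull (M * q))) :
    arithmeticGalois (modularFunctionFieldFull (M * q)) σ • f ∈
      nodeRing (redPair h W) ⊤ E e₁ e₂ i ↔ f ∈ nodeRing (redPair h W) ⊤ E e₁ e₂ i := by
  refine ⟨fun hf => ?_, fun hf => inertia_mem_nodeRing h hW hσ ⊤ (fun _ _ => Subring.mem_top _)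
    (hE σ hσ) e₁ e₂ i hf⟩
  have hσ' := (A.inertiaSubgroupIn ℚ).inv_mem hσ
  have h' := inertia_mem_nodeRing h hW hσ' ⊤ (fun _ _ => Subring.mem_top _) (hE _ hσ') e₁ e₂ i hf
  rwa [map_inv, inv_smul_smul] at h'

/-- **(I4)** Inertia permutes the places through a node. -/
theorem through_inertia (h : BadSetup A π M q) (hW : IsAL M q W)
    {E : Divisor Qb (laurentBaseChange Qb (modularFunctionFieldFull (M * q)))}
    (hE : ∀ τ ∈ A.inertiaSubgroupIn ℚ,
      arithmeticGalois (modularFunctionFieldFull (M * q)) τ • E = E)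
    {ι : Type*} (e₁ e₂ : ι → Place k (modularFunctionFieldFullC k M)) (i : ι)
    {σ : Qb ≃ₐ[ℚ] Qb} (hσ : σ ∈ A.inertiaSubgroupIn ℚ)
    {P : Place Qb (laurentBaseChange Qb (modularFunctionFieldFull (M * q)))}
    (hP : Through (nodeRing (redPair h W) ⊤ E e₁ e₂ i) P) :
    Through (nodeRing (redPair h W) ⊤ E e₁ e₂ i)
      (arithmeticGalois (modularFunctionFieldFull (M * q)) σ • P) := by
  refine Through.smul _ (fun f hf => ?_) hP
  have hσ' := (A.inertiaSubgroupIn ℚ).inv_mem hσ
  have h' := (inertia_mem_nodeRing_top_iff h hW hE e₁ e₂ i hσ' f).2 hf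
  rwa [map_inv] at h'

theorem through_inertia_iff (h : BadSetup A π M q) (hW : IsAL M q W)
    {E : Divisor Qb (laurentBaseChange Qb (modularFunctionFieldFull (M * q)))}
    (hE : ∀ τ ∈ A.inertiaSubgroupIn ℚ,
      arithmeticGalois (modularFunctionFieldFull (M * q)) τ • E = E)
    {ι : Type*} (e₁ e₂ : ι → Place k (modularFunctionFieldFullC k M)) (i : ι)
    {σ : Qb ≃ₐ[ℚ] Qb} (hσ : σ ∈ A.inertiaSubgroupIn ℚ)
    (P : Place Qb (laurentBaseChange Qb (modularFunctionFieldFull (M * q)))) :
    Through (nodeRing (redPair h W) ⊤ E e₁ e₂ i)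
      (arithmeticGalois (modularFunctionFieldFull (M * q)) σ • P) ↔
      Through (nodeRing (redPair h W) ⊤ E e₁ e₂ i) P := by
  refine ⟨fun hP => ?_, through_inertia h hW hE e₁ e₂ i hσ⟩
  have hσ' := (A.inertiaSubgroupIn ℚ).inv_mem hσ
  have h' := through_inertia h hW hE e₁ e₂ i hσ' hP
  rwa [map_inv, inv_smul_smul] at h'

/-- **(I4), values**: `f ≡ c` at `P` gives `σ • f ≡ σ c` at `σ • P` (every `σ`). -/
theorem cong_galois {N : ℕ} (σ : Qb ≃ₐ[ℚ] Qb)
    {P : Place Qb (laurentBaseChange Qb (modularFunctionFieldFull N))}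
    {f : laurentBaseChange Qb (modularFunctionFieldFull N)} {c : Qb} (hc : Cong P f c) :
    Cong (arithmeticGalois (modularFunctionFieldFull N) σ • P)
      (arithmeticGalois (modularFunctionFieldFull N) σ • f) (σ c) :=
  cong_smul (arithmeticGalois (modularFunctionFieldFull N) σ) hc

/-- The value of a `σ`-fixed function at `σ • P` is `σ` of its value at `P`. -/
theorem cong_galois_fixed {N : ℕ} (σ : Qb ≃ₐ[ℚ] Qb)
    {P : Place Qb (laurentBaseChange Qb (modularFunctionFieldFull N))}
    {f : laurentBaseChange Qb (modularFunctionFieldFull N)} {c : Qb}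
    (hf : arithmeticGalois (modularFunctionFieldFull N) σ • f = f) (hc : Cong P f c) :
    Cong (arithmeticGalois (modularFunctionFieldFull N) σ • P) f (σ c) :=
  cong_smul_fixed (arithmeticGalois (modularFunctionFieldFull N) σ) hf hc

/-- Orders of a `σ`-fixed function along the orbit of a place. -/
theorem ord_galois_fixed {N : ℕ} (σ : Qb ≃ₐ[ℚ] Qb)
    (P : Place Qb (laurentBaseChange Qb (modularFunctionFieldFull N)))
    {f : laurentBaseChange Qb (modularFunctionFieldFull N)}
    (hf : arithmeticGalois (modularFunctionFieldFull N) σ • f = f) :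
    (arithmeticGalois (modularFunctionFieldFull N) σ • P).ord f = P.ord f :=
  ord_smul_fixed (arithmeticGalois (modularFunctionFieldFull N) σ) P hf

end Inst

end Fermat.Agent.TR.PL.ThroughGal
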