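import Mathlib
import Fermat.Agent.TR.Node.AnnulusHartInst
import Fermat.Agent.TR.PL.GenProd
import Fermat.Agent.TR.PL.ThroughGal

/-!
# TR / (PL), brick (GEN) at the nodes of the special fibre of `X₀(Mq)`: the instance seam

Setting of `TR/Node/NodeRing.lean` (a nodal datum as in `KerRed.NodalFibreFor`, a node `i`, a
node package `x * y = q ^ k * u` as produced by `NodeRing.exists_nodePkg`).
`T_i := NodeRingAbs.nodeRing (redPair h W) ⊤ E1 e₁ e₂ i` is the node ring over `ℚ̄`, and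
`Through T_i P` (`TR/PL/Through.lean`) says that the place `P` of the generic fibre passes
through the node.

* `redNode_of_through`, `through_of_redNode` : `Through T_i P ↔ RedNode A T_i P`;
* `eq_of_cong_through`, `ord_sub_eq_one_through` : the node coordinate `x` is injective and
  unramified on the places through the node (`TR/Node/AnnulusHartInst.lean`);
* **`exists_gen_node`** : for every set `H` of inertia elements and every `H`-stable divisor
  `D` there is an `H`-fixed function `g ≠ 0` with `ord_P g = D P` at every place `P` through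
  the node (`g = ∏ (x - x(P)) ^ (D P)`, `TR/PL/GenProd.lean`).
-/

set_option autoImplicit false

noncomputable section

namespace Fermat.Agent.TR.PL.GenNode

open AlgebraicCurve ModularCurve WithZero Fermat.Agent.Lib.FF Fermat.Agent.Lib.Red.Deform
  Fermat.Agent.BAD.NodalRiemann Fermat.Agent.BAD.TwoVal Fermat.Agent.BAD.LatFixedInst
  Fermat.Agent.BAD.LatFixedRing Fermat.Agent.TR.Node.NodeRing Fermat.Agent.TR.Node.NodePkgFull
  Fermat.Agent.TR.PL.Through Fermat.Agent.TR.Node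

local notation "Qb" => AlgebraicClosure ℚ

variable {A : ValuationSubring Qb} {k : Type} [Field k] {π : A →+* k} {M q : ℕ} [NeZero M]
  [NeZero q]

section Datum

variable [IsAlgClosed k] (hA : A.LiesOverPrime q) (hπ : Function.Surjective π)
  (h : BadSetup A π M q)
  (W : laurentBaseChange Qb (modularFunctionFieldFull (M * q)) ≃ₐ[Qb]
    laurentBaseChange Qb (modularFunctionFieldFull (M * q))) (hW : IsAL M q W)
  (E1 E2 : Divisor Qb (laurentBaseChange Qb (modularFunctionFieldFull (M * q))))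
  {ι : Type}
  (e₁ e₂ : ι → Place k (modularFunctionFieldFullC k M))
  (P₁ Z₁ P₂ Z₂ : Divisor k (modularFunctionFieldFullC k M))
  (hE1 : ∀ v, 0 ≤ E1 v)
  (hdegE1 : 0 < Divisor.degree E1)
  (hgalE : ∀ σ ∈ A.inertiaSubgroupIn ℚ,
    arithmeticGalois (modularFunctionFieldFull (M * q)) σ • E1 = E1 ∧
    arithmeticGalois (modularFunctionFieldFull (M * q)) σ • E2 = E2)
  (hS2 : ∃ N₀ : ℕ, ∀ n₁ n₂ : ℕ, N₀ ≤ n₁ + n₂ →
    ∀ t : ↥(modularFunctionFieldFullC k M) × ↥(modularFunctionFieldFullC k M),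
      (∃ y : OPair h W,
          (y : laurentBaseChange Qb (modularFunctionFieldFull (M * q))) ∈
            riemannRochSpace (n₁ • E1 + n₂ • E2) ∧ redPair h W y = t) ↔
        t ∈ gluedSpace e₁ e₂ (fun _ => (1 : k))
          (n₁ • P₁ + n₂ • Z₁) (n₁ • P₂ + n₂ • Z₂))
  (i : ι)

include hE1 hS2 in
omit [IsAlgClosed k] in
/-- A place through the node takes integral values on the node ring. -/
theorem redNode_of_through
    {P : Place Qb (laurentBaseChange Qb (modularFunctionFieldFull (M * q)))}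
    (hP : Through (NodeRingAbs.nodeRing (redPair h W) ⊤ E1 e₁ e₂ i) P) :
    AnnulusHart.RedNode A (NodeRingAbs.nodeRing (redPair h W) ⊤ E1 e₁ e₂ i) P := by
  intro g hg
  obtain ⟨c, hc⟩ := Fermat.Agent.BAD.NodalRiemann.exists_cong ((isFF1_xL Qb (M * q)).resK P)
    (hP g hg)
  exact ⟨c, Through.value_mem (fun x => OPair_hOA h x) (OPair_hval h) (redPair h W) π
    h.pi_eq_zero_iff (hconst h W) (redPair_eq_zero_iff h) ⊤ E1 e₁ e₂ i (E1_nonneg E1 hE1)
    (charts_E1 h W E1 E2 e₁ e₂ P₁ Z₁ P₂ Z₂ hS2) (fun _ _ => Subring.mem_top _)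
    (fun _ _ => Subring.mem_top _) hP hg hc, hc⟩

omit [IsAlgClosed k] in
/-- A place taking values on the node ring passes through the node. -/
theorem through_of_redNode
    {P : Place Qb (laurentBaseChange Qb (modularFunctionFieldFull (M * q)))}
    (hP : AnnulusHart.RedNode A (NodeRingAbs.nodeRing (redPair h W) ⊤ E1 e₁ e₂ i) P) :
    Through (NodeRingAbs.nodeRing (redPair h W) ⊤ E1 e₁ e₂ i) P := fun _ hg =>
  AnnulusHart.RedNode.val_le_one hP hg

section Pkg

variable (k' : ℕ) (x y u : nodeRing h W E1 e₁ e₂ i) (hu : IsUnit u)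
  (hxy : x * y = ((q : ℕ) : nodeRing h W E1 e₁ e₂ i) ^ k' * u)
  (hx1 : (e₁ i).ord (redInf h ⟨x, mem_OInf h W E1 e₁ e₂ i x.2⟩) = 1)
  (hy1 : redInf h ⟨y, mem_OInf h W E1 e₁ e₂ i y.2⟩ = 0)
  (hy2 : (e₂ i).ord (redZero h W ⟨y, mem_OZero h W E1 e₁ e₂ i y.2⟩) = 1)
  (hgen : ∀ g : nodeRing h W E1 e₁ e₂ i,
    Cong (e₁ i) (redInf h ⟨g, mem_OInf h W E1 e₁ e₂ i g.2⟩) 0 →
    ∃ α β γ : nodeRing h W E1 e₁ e₂ i, g = α * x + β * y +
      γ * ((q : ℕ) : nodeRing h W E1 e₁ e₂ i))

include hA hπ hW hE1 hdegE1 hgalE hS2 hu hxy hx1 hy1 hgen in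
omit [IsAlgClosed k] in
/-- **(inj)** The node coordinate is injective on the places through the node. -/
theorem eq_of_cong_through
    {P P' : Place Qb (laurentBaseChange Qb (modularFunctionFieldFull (M * q)))}
    (hP : Through (NodeRingAbs.nodeRing (redPair h W) ⊤ E1 e₁ e₂ i) P)
    (hP' : Through (NodeRingAbs.nodeRing (redPair h W) ⊤ E1 e₁ e₂ i) P') {c : Qb}
    (hc : Cong P (x : laurentBaseChange Qb (modularFunctionFieldFull (M * q))) c)
    (hc' : Cong P' (x : laurentBaseChange Qb (modularFunctionFieldFull (M * q))) c) :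
    P' = P :=
  AnnulusHartInst.eq_of_cong_node hA hπ h W hW E1 E2 e₁ e₂ P₁ Z₁ P₂ Z₂ hE1 hdegE1 hgalE hS2 i
    k' x y u hu hxy hx1 hy1 hgen
    (redNode_of_through h W E1 E2 e₁ e₂ P₁ Z₁ P₂ Z₂ hE1 hS2 i hP)
    (redNode_of_through h W E1 E2 e₁ e₂ P₁ Z₁ P₂ Z₂ hE1 hS2 i hP') hc hc'

include hA hπ hW hE1 hdegE1 hgalE hS2 hu hxy hx1 hy1 hy2 hgen in
omit [IsAlgClosed k] in
/-- **(unr)** At a place `P` through the node, `x - x(P)` is a local parameter. -/
theorem ord_sub_eq_one_through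
    {P : Place Qb (laurentBaseChange Qb (modularFunctionFieldFull (M * q)))}
    (hP : Through (NodeRingAbs.nodeRing (redPair h W) ⊤ E1 e₁ e₂ i) P) {c : Qb}
    (hc : Cong P (x : laurentBaseChange Qb (modularFunctionFieldFull (M * q))) c) :
    P.ord ((x : laurentBaseChange Qb (modularFunctionFieldFull (M * q))) -
      algebraMap Qb (laurentBaseChange Qb (modularFunctionFieldFull (M * q))) c) = 1 :=
  AnnulusHartInst.ord_sub_eq_one_node hA hπ h W hW E1 E2 e₁ e₂ P₁ Z₁ P₂ Z₂ hE1 hdegE1 hgalE hS2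
    i k' x y u hu hxy hx1 hy1 hy2 hgen
    (redNode_of_through h W E1 E2 e₁ e₂ P₁ Z₁ P₂ Z₂ hE1 hS2 i hP) hc

include hA hπ hW hE1 hdegE1 hgalE hS2 hu hxy hx1 hy1 hy2 hgen in
omit [IsAlgClosed k] in
/-- **(GEN) at the node `i`: the local generator.**  For every set `H` of inertia elements and
every `H`-stable divisor `D` of the generic fibre there is an `H`-fixed function `g ≠ 0` with
`ord_P g = D P` at every place `P` through the node `i`. -/
theorem exists_gen_node (H : Set (Qb ≃ₐ[ℚ] Qb)) (hH : ∀ σ ∈ H, σ ∈ A.inertiaSubgroupIn ℚ)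
    (D : Divisor Qb (laurentBaseChange Qb (modularFunctionFieldFull (M * q))))
    (hD : ∀ σ ∈ H, arithmeticGalois (modularFunctionFieldFull (M * q)) σ • D = D) :
    ∃ g : laurentBaseChange Qb (modularFunctionFieldFull (M * q)), g ≠ 0 ∧
      (∀ σ ∈ H, arithmeticGalois (modularFunctionFieldFull (M * q)) σ • g = g) ∧
      ∀ P : Place Qb (laurentBaseChange Qb (modularFunctionFieldFull (M * q))),
        Through (NodeRingAbs.nodeRing (redPair h W) ⊤ E1 e₁ e₂ i) P → P.ord g = D P := by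
  obtain ⟨g, hg0, hgfix, hgord⟩ := GenProd.exists_gen_through
    (H := {τ | ∃ σ ∈ H, arithmeticGalois (modularFunctionFieldFull (M * q)) σ = τ})
    (NodeRingAbs.nodeRing (redPair h W) ⊤ E1 e₁ e₂ i)
    (by
      rintro _ ⟨σ, hσ, rfl⟩ f hf
      have hσ' := (A.inertiaSubgroupIn ℚ).inv_mem (hH σ hσ)
      have h' := (ThroughGal.inertia_mem_nodeRing_top_iff h hW (fun τ hτ => (hgalE τ hτ).1)
        e₁ e₂ i hσ' f).2 hf
      rwa [map_inv] at h')
    (fun Q _ => (isFF1_xL Qb (M * q)).resK Q)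
    (ξ := (x : laurentBaseChange Qb (modularFunctionFieldFull (M * q))))
    (nodeRing_le_top h W E1 e₁ e₂ i x.2)
    (by
      rintro _ ⟨σ, hσ, rfl⟩
      exact mem_fixed h W E1 e₁ e₂ i x.2 σ (hH σ hσ))
    (fun P c hP hc =>
      ord_sub_eq_one_through hA hπ h W hW E1 E2 e₁ e₂ P₁ Z₁ P₂ Z₂ hE1 hdegE1 hgalE hS2 i k' x y u
        hu hxy hx1 hy1 hy2 hgen hP hc)
    (fun P P' c hP hP' hc hc' =>
      eq_of_cong_through hA hπ h W hW E1 E2 e₁ e₂ P₁ Z₁ P₂ Z₂ hE1 hdegE1 hgalE hS2 i k' x y u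
        hu hxy hx1 hy1 hgen hP hP' hc hc')
    D
    (by
      rintro _ ⟨σ, hσ, rfl⟩
      exact hD σ hσ)
  exact ⟨g, hg0, fun σ hσ => hgfix _ ⟨σ, hσ, rfl⟩, hgord⟩

end Pkg

end Datum

end Fermat.Agent.TR.PL.GenNode
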