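import Mathlib
import Fermat.Agent.TR.PL.BaseChangeSigma
import Fermat.Agent.TR.PL.FrameField

/-!
# TR / (PL): the seam between the group frame (`TR/PL/Frame`, `FrameField`) and the
`σ`-form / norm form of base change (`TR/PL/BaseChangeSigma`)

* `exists_eq_mul_of_valuation_le` : `v(x) ≤ v(d)` gives `x = d * b`, `b ∈ A`;
* `exists_cosetReps` : a subgroup of finite relative index has finitely many coset
  representatives (the `(ρ, hρI, hρ)` of `BaseChangeSigma`);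
* `mem_fixedSubfieldOf_iff_mem_fixK` : the two fixed fields agree;
* for a subgroup `H ≤ I` of finite relative index with a uniformiser `w` of `K'' = ℚ̄^H` and the
  Lipschitz bound `v(σ c − c) ≤ v(σ w − w)` on `A ∩ K''` :
  `galois_sub_mem_inf_of_lip`, `galois_sub_mem_zero_of_lip` (`σ g − g ∈ (σ w − w)·O`),
  `exists_zpow_unif_inf`, `exists_zpow_unif_zero` (`g = w^n · unit`);
* `exists_frame_sigma` : all of it at the `TRKey` objects (`H = stabV A V`), one citation.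
-/

set_option autoImplicit false
set_option linter.unusedSectionVars false
set_option linter.style.haveILetI false

namespace Fermat.Agent.TR.PL.SigmaSeam

open HahnSeries ModularCurve AlgebraicCurve Fermat.Agent.Lib.Red Fermat.Agent.BAD.TwoVal
open Fermat.Agent.BAD.LatFixed Fermat.Agent.BAD.LatFixedInst
open Fermat.Agent.TR.PL.Frame Fermat.Agent.TR.PL.LocalField Fermat.Agent.TR.PL.BaseChangeSigma
open Fermat.Agent.CAR.K0

local notation "Qb" => AlgebraicClosure ℚ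
local notation "GQ" => (AlgebraicClosure ℚ ≃ₐ[ℚ] AlgebraicClosure ℚ)

/-! ### Generic adapters -/

/-- Valuation form ⟹ divisibility form. -/
theorem exists_eq_mul_of_valuation_le {A : ValuationSubring Qb} {x d : Qb}
    (h : A.valuation x ≤ A.valuation d) : ∃ b ∈ A, x = d * b := by
  rcases eq_or_ne d 0 with rfl | hd
  · refine ⟨0, A.zero_mem, ?_⟩
    rw [map_zero, le_zero_iff, map_eq_zero] at h
    rw [h, mul_zero]
  · refine ⟨x / d, ?_, by field_simp⟩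
    have hvd : A.valuation d ≠ 0 := (Valuation.ne_zero_iff _).2 hd
    rw [← A.valuation_le_one_iff, map_div₀]
    exact (div_le_one₀ (zero_lt_iff.2 hvd)).2 h

/-- **Coset representatives.** A subgroup `H` of finite relative index in `I` has finitely many
coset representatives in `I`. -/
theorem exists_cosetReps {G : Type*} [Group G] (H I : Subgroup G) (hfin : H.relIndex I ≠ 0) :
    ∃ (m : ℕ) (ρ : Fin m → G), (∀ j, ρ j ∈ I) ∧ ∀ σ ∈ I, ∃ j, ∃ τ ∈ H, σ = ρ j * τ := by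
  classical
  have hfi : (H.subgroupOf I).FiniteIndex := ⟨hfin⟩
  have hfinq : Finite (↥I ⧸ H.subgroupOf I) := Subgroup.finite_quotient_of_finiteIndex
  let e := Finite.equivFin (↥I ⧸ H.subgroupOf I)
  refine ⟨Nat.card (↥I ⧸ H.subgroupOf I), fun j => ((Quotient.out (e.symm j) : ↥I) : G),
    fun j => (Quotient.out (e.symm j)).2, fun σ hσ => ?_⟩
  refine ⟨e (QuotientGroup.mk ⟨σ, hσ⟩), ?_⟩
  show ∃ τ ∈ H, σ = ((Quotient.out (e.symm (e (QuotientGroup.mk ⟨σ, hσ⟩))) : ↥I) : G) * τ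
  rw [Equiv.symm_apply_apply]
  have h1 : (QuotientGroup.mk (Quotient.out (QuotientGroup.mk (s := H.subgroupOf I) ⟨σ, hσ⟩)) :
      ↥I ⧸ H.subgroupOf I) = QuotientGroup.mk ⟨σ, hσ⟩ := QuotientGroup.out_eq' _
  rw [QuotientGroup.eq] at h1
  refine ⟨_, Subgroup.mem_subgroupOf.1 h1, ?_⟩
  simp

/-- The fixed field of `H` in the two vocabularies. -/
theorem mem_fixedSubfieldOf_iff_mem_fixK {A : ValuationSubring Qb} {H : Subgroup GQ}
    {hH : H ≤ A.inertiaSubgroupIn ℚ} {a : Qb} :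
    a ∈ fixedSubfieldOf (H : Set GQ) ↔ a ∈ fixK A H hH := Iff.rfl

/-- The Lipschitz bound of the frame, in the divisibility form consumed by
`BaseChangeSigma` (`hσc` with `c = σ w − w`). -/
theorem hσc_of_lip {A : ValuationSubring Qb} {H : Subgroup GQ}
    (hH : H ≤ A.inertiaSubgroupIn ℚ) {σ : GQ} {w : Qb}
    (hlip : ∀ c : Qb, c ∈ A → c ∈ fixK A H hH →
      A.valuation (σ c - c) ≤ A.valuation (σ w - w)) :
    ∀ a ∈ fixedSubfieldOf (H : Set GQ), a ∈ A → ∃ b ∈ A, σ a - a = (σ w - w) * b :=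
  fun a ha haA => exists_eq_mul_of_valuation_le (hlip a haA ha)

/-- A nonzero element of `K''` is `w ^ n` times a unit of `A`. -/
theorem exists_zpow_mul_unit {A : ValuationSubring Qb} {E : IntermediateField ↥(K0 A) Qb}
    {w : Qb} (hU : IsUnif A E w) {a : Qb} (ha : a ∈ E) (ha0 : a ≠ 0) :
    ∃ (n : ℤ) (u : Qb), u ∈ A ∧ u⁻¹ ∈ A ∧ u ≠ 0 ∧ a = w ^ n * u := by
  obtain ⟨n, hn⟩ := hU.2.2.2 a ha ha0
  have hw0 : w ≠ 0 := hU.2.1
  have hwn : w ^ n ≠ 0 := zpow_ne_zero n hw0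
  have hv : A.valuation (a / w ^ n) = 1 := by
    rw [map_div₀, map_zpow₀, hn]
    exact div_self (zpow_ne_zero n ((Valuation.ne_zero_iff _).2 hw0))
  refine ⟨n, a / w ^ n, ?_, ?_, div_ne_zero ha0 hwn, by field_simp⟩
  · rw [← A.valuation_le_one_iff, hv]
  · rw [← A.valuation_le_one_iff, map_inv₀, hv, inv_one]

/-- From "constant times unit" to "power of the uniformiser times unit". -/
theorem zpow_unif_of_const {F : Type*} [Field F] [Algebra Qb F] (O : ValuationSubring F)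
    {A : ValuationSubring Qb} (hOA : ∀ a : Qb, algebraMap Qb F a ∈ O ↔ a ∈ A)
    {E : IntermediateField ↥(K0 A) Qb} {w : Qb} (hU : IsUnif A E w) {g : F} {a : Qb}
    (ha0 : a ≠ 0) (haE : a ∈ E) (h1 : a⁻¹ • g ∈ O) (h2 : (a⁻¹ • g)⁻¹ ∈ O) :
    ∃ n : ℤ, (w ^ n)⁻¹ • g ∈ O ∧ ((w ^ n)⁻¹ • g)⁻¹ ∈ O := by
  obtain ⟨n, u, hu, hu', hu0, e⟩ := exists_zpow_mul_unit hU haE ha0
  have hwn : w ^ n ≠ 0 := zpow_ne_zero n hU.2.1
  have e1 : (w ^ n)⁻¹ = u * a⁻¹ := by
    rw [e]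
    field_simp
  have e2 : (w ^ n)⁻¹ • g = u • (a⁻¹ • g) := by rw [e1, mul_smul]
  refine ⟨n, ?_, ?_⟩
  · rw [e2, Algebra.smul_def]
    exact O.mul_mem _ _ ((hOA u).2 hu) h1
  · rw [e2, smul_inv₀, Algebra.smul_def]
    exact O.mul_mem _ _ ((hOA _).2 hu') h2

/-! ### At a subgroup of finite relative index of the inertia group -/

section Inst

variable {p : ℕ} [Fact p.Prime] [NeZero p] {A : ValuationSubring Qb} {k : Type} [Field k]
  {π : A →+* k} {M : ℕ} [NeZero M]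
  {W : laurentBaseChange Qb (modularFunctionFieldFull (M * p)) ≃ₐ[Qb]
    laurentBaseChange Qb (modularFunctionFieldFull (M * p))}
  (hA : A.LiesOverPrime p) (h : BadSetup A π M p) (hsurj : Function.Surjective π)
  (hW : IsAL M p W) {H : Subgroup GQ} (hH : H ≤ A.inertiaSubgroupIn ℚ)
  (hidx : H.relIndex (A.inertiaSubgroupIn ℚ) ≠ 0)

include hA hsurj hW hidx in
/-- **(σ∞)** `σ g − g ∈ (σ w − w)·O_∞` for `g ∈ O_∞` rational over `K'' = ℚ̄^H`. -/
theorem galois_sub_mem_inf_of_lip {σ : GQ} (hσ : σ ∈ A.inertiaSubgroupIn ℚ) {w : Qb}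
    (hlip : ∀ c : Qb, c ∈ A → c ∈ fixK A H hH →
      A.valuation (σ c - c) ≤ A.valuation (σ w - w))
    {g : laurentBaseChange Qb (modularFunctionFieldFull (M * p))}
    (hg : g ∈ fixedFunOf (H : Set GQ) (M * p)) (hgO : g ∈ OInf h) :
    ∃ y ∈ OInf h, arithmeticGalois (L := Qb) (modularFunctionFieldFull (M * p)) σ • g - g =
      (σ w - w) • y := by
  obtain ⟨m, ρ, hρI, hρ⟩ := exists_cosetReps H _ hidx
  exact galois_sub_mem_inf Fact.out hA h hsurj hW H (fun τ hτ => hH hτ) ρ hρI hρ hσ _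
    (hσc_of_lip hH hlip) hg hgO

include hA hsurj hW hidx in
/-- **(σ0)** `σ g − g ∈ (σ w − w)·O_0` for `g ∈ O_0` rational over `K'' = ℚ̄^H`. -/
theorem galois_sub_mem_zero_of_lip {σ : GQ} (hσ : σ ∈ A.inertiaSubgroupIn ℚ) {w : Qb}
    (hlip : ∀ c : Qb, c ∈ A → c ∈ fixK A H hH →
      A.valuation (σ c - c) ≤ A.valuation (σ w - w))
    {g : laurentBaseChange Qb (modularFunctionFieldFull (M * p))}
    (hg : g ∈ fixedFunOf (H : Set GQ) (M * p)) (hgO : g ∈ OZero h W) :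
    ∃ y ∈ OZero h W, arithmeticGalois (L := Qb) (modularFunctionFieldFull (M * p)) σ • g - g =
      (σ w - w) • y := by
  obtain ⟨m, ρ, hρI, hρ⟩ := exists_cosetReps H _ hidx
  exact galois_sub_mem_zero Fact.out hA h hsurj hW H (fun τ hτ => hH hτ) ρ hρI hρ hσ _
    (hσc_of_lip hH hlip) hg hgO

include hA hsurj hW hidx in
/-- **(norm∞)** A nonzero `K''`-rational function is `w ^ n` times a unit of `O_∞`. -/
theorem exists_zpow_unif_inf {w : Qb} (hU : IsUnif A (fixK A H hH) w)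
    {g : laurentBaseChange Qb (modularFunctionFieldFull (M * p))}
    (hg : g ∈ fixedFunOf (H : Set GQ) (M * p)) (hg0 : g ≠ 0) :
    ∃ n : ℤ, (w ^ n)⁻¹ • g ∈ OInf h ∧ ((w ^ n)⁻¹ • g)⁻¹ ∈ OInf h := by
  obtain ⟨m, ρ, hρI, hρ⟩ := exists_cosetReps H _ hidx
  obtain ⟨a, ha0, haE, h1, h2⟩ := exists_fixed_const_inf Fact.out hA h hsurj hW H
    (fun τ hτ => hH hτ) ρ hρI hρ hg hg0
  exact zpow_unif_of_const (OInf h) (algebraMap_mem_OInf_iff h) hU ha0 haE h1 h2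

include hA hsurj hW hidx in
/-- **(norm0)** A nonzero `K''`-rational function is `w ^ n` times a unit of `O_0`. -/
theorem exists_zpow_unif_zero {w : Qb} (hU : IsUnif A (fixK A H hH) w)
    {g : laurentBaseChange Qb (modularFunctionFieldFull (M * p))}
    (hg : g ∈ fixedFunOf (H : Set GQ) (M * p)) (hg0 : g ≠ 0) :
    ∃ n : ℤ, (w ^ n)⁻¹ • g ∈ OZero h W ∧ ((w ^ n)⁻¹ • g)⁻¹ ∈ OZero h W := by
  obtain ⟨m, ρ, hρI, hρ⟩ := exists_cosetReps H _ hidx
  obtain ⟨a, ha0, haE, h1, h2⟩ := exists_fixed_const_zero Fact.out hA h hsurj hW H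
    (fun τ hτ => hH hτ) ρ hρI hρ hg hg0
  exact zpow_unif_of_const (OZero h W) (algebraMap_mem_OZero_iff h) hU ha0 haE h1 h2

/-- If `σ` normalises `H`, it preserves the `K''`-rational functions. -/
theorem smul_mem_fixedFunOf_of_conj {N : ℕ} {H : Subgroup GQ} {σ : GQ}
    (hconj : ∀ τ ∈ H, σ⁻¹ * τ * σ ∈ H)
    {g : laurentBaseChange Qb (modularFunctionFieldFull N)}
    (hg : g ∈ fixedFunOf (H : Set GQ) N) :
    arithmeticGalois (L := Qb) (modularFunctionFieldFull N) σ • g ∈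
      fixedFunOf (H : Set GQ) N := by
  intro τ hτ
  have e : τ * σ = σ * (σ⁻¹ * τ * σ) := by group
  rw [← mul_smul, ← map_mul, e, map_mul, mul_smul, hg _ (hconj τ hτ)]

end Inst

/-! ### At the `TRKey` objects -/

section Frame

variable {p : ℕ} [Fact p.Prime] [NeZero p] {A : ValuationSubring Qb} {k : Type} [Field k]
  {π : A →+* k} {M : ℕ} [NeZero M]
  {W : laurentBaseChange Qb (modularFunctionFieldFull (M * p)) ≃ₐ[Qb]
    laurentBaseChange Qb (modularFunctionFieldFull (M * p))}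

/-- **The frame of (PL) with the `σ`-form and the norm form of base change**, at the `TRKey`
objects: `H = stabV A V`, `K'' = fixK A H`, uniformiser `w`, `e'' = (p − 1) p^s = [I : H]`,
`s ≤ 1`; for every `σ ∈ I` and every `K''`-rational function `g`: `σ g` is `K''`-rational,
`σ g − g ∈ (σ w − w)·O` for `g ∈ O` (`O = O_∞, O_0`), and `g = w^n · unit` of `O` if `g ≠ 0`. -/
theorem exists_frame_sigma {N : ℕ} [NeZero N] (hp2 : p ≠ 2) (hA : A.LiesOverPrime p) {ζ : Qb}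
    (hζ : ζ ^ p = 1) (hζ1 : ζ ≠ 1) {V L : AddSubgroup (JZero N)} (hLV : L ≤ V)
    (hpV : ∀ x ∈ V, p • x = 0) (hcardV : Nat.card V = p ^ 2) (hcardL : Nat.card L = p)
    (hquot : ∀ σ ∈ A.inertiaSubgroupIn ℚ, ∀ v ∈ V, σ • v - v ∈ L)
    (hcyc : ∀ σ ∈ A.inertiaSubgroupIn ℚ, ∀ a : ℕ, (∀ μ : Qb, μ ^ p = 1 → σ μ = μ ^ a) →
      ∀ v ∈ L, σ • v = a • v)
    (h : BadSetup A π M p) (hsurj : Function.Surjective π) (hW : IsAL M p W) :
    ∃ (s : ℕ) (w : Qb), s ≤ 1 ∧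
      FiniteDimensional ↥(K0 A) ↥(fixK A (stabV A V) (stabV_le_inertia V)) ∧
      IsUnif A (fixK A (stabV A V) (stabV_le_inertia V)) w ∧
      A.valuation w ^ ((p - 1) * p ^ s) = A.valuation (p : Qb) ∧
      (stabV A V).relIndex (A.inertiaSubgroupIn ℚ) = (p - 1) * p ^ s ∧
      (∀ σ ∈ A.inertiaSubgroupIn ℚ, ∀ c : Qb, c ∈ A →
        c ∈ fixK A (stabV A V) (stabV_le_inertia V) →
        A.valuation (σ c - c) ≤ A.valuation (σ w - w)) ∧
      (∀ σ ∈ Fermat.Agent.TW.Flat.Loc.MonoPf.GF A ζ, A.valuation (σ w - w) ≤ A.valuation w ^ 2) ∧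
      (s = 0 → Fermat.Agent.TW.Flat.Loc.MonoPf.GF A ζ ≤ stabV A V) ∧
      (s = 1 → ∃ σ₀ ∈ Fermat.Agent.TW.Flat.Loc.MonoPf.GF A ζ, σ₀ ∉ stabV A V ∧ σ₀ ^ p ∈ stabV A V ∧
        ∀ σ ∈ Fermat.Agent.TW.Flat.Loc.MonoPf.GF A ζ, ∃ j < p, (σ₀ ^ j)⁻¹ * σ ∈ stabV A V) ∧
      ((∀ σ ∈ A.inertiaSubgroupIn ℚ, ∀ ρ : A.ValueGroup,
          ρ ^ (p - 1) < A.valuation (p : Qb) →
          (∀ c : Qb, c ∈ A → (∀ τ' ∈ A.inertiaSubgroupIn ℚ, (∀ x ∈ V, τ' • x = x) → τ' c = c) →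
            A.valuation (σ c - c) ≤ ρ) → ∀ x ∈ V, σ • x = x) →
        ∀ σ ∈ A.inertiaSubgroupIn ℚ, σ ∉ stabV A V →
          A.valuation (p : Qb) ≤ A.valuation (σ w - w) ^ (p - 1)) ∧
      (∀ σ ∈ A.inertiaSubgroupIn ℚ,
        ∀ g ∈ fixedFunOf ((stabV A V : Subgroup GQ) : Set GQ) (M * p),
          arithmeticGalois (L := Qb) (modularFunctionFieldFull (M * p)) σ • g ∈
            fixedFunOf ((stabV A V : Subgroup GQ) : Set GQ) (M * p) ∧
          (g ∈ OInf h → ∃ y ∈ OInf h,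
            arithmeticGalois (L := Qb) (modularFunctionFieldFull (M * p)) σ • g - g =
              (σ w - w) • y) ∧
          (g ∈ OZero h W → ∃ y ∈ OZero h W,
            arithmeticGalois (L := Qb) (modularFunctionFieldFull (M * p)) σ • g - g =
              (σ w - w) • y)) ∧
      (∀ g ∈ fixedFunOf ((stabV A V : Subgroup GQ) : Set GQ) (M * p), g ≠ 0 →
          (∃ n : ℤ, (w ^ n)⁻¹ • g ∈ OInf h ∧ ((w ^ n)⁻¹ • g)⁻¹ ∈ OInf h) ∧
          (∃ n : ℤ, (w ^ n)⁻¹ • g ∈ OZero h W ∧ ((w ^ n)⁻¹ • g)⁻¹ ∈ OZero h W)) := by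
  have hp : p.Prime := Fact.out
  obtain ⟨s, w, hs, hfd, hU, hpow, hidx, hlip, hsq, htame, hwild, hdeep⟩ :=
    exists_frame_field hp2 hA hζ hζ1 hLV hpV hcardV hcardL hquot hcyc
  have hidx0 : (stabV A V).relIndex (A.inertiaSubgroupIn ℚ) ≠ 0 := by
    rw [hidx]
    exact Nat.mul_ne_zero (Nat.sub_ne_zero_of_lt hp.one_lt) (pow_ne_zero s hp.ne_zero)
  refine ⟨s, w, hs, hfd, hU, hpow, hidx, hlip, hsq, htame, hwild, hdeep, ?_, ?_⟩
  · intro σ hσ g hg
    refine ⟨smul_mem_fixedFunOf_of_conj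
      (fun τ hτ => conj_mem_stabV hLV hquot hσ hτ) hg, fun hgO => ?_, fun hgO => ?_⟩
    · exact galois_sub_mem_inf_of_lip hA h hsurj hW (stabV_le_inertia V) hidx0 hσ
        (hlip σ hσ) hg hgO
    · exact galois_sub_mem_zero_of_lip hA h hsurj hW (stabV_le_inertia V) hidx0 hσ
        (hlip σ hσ) hg hgO
  · intro g hg hg0
    exact ⟨exists_zpow_unif_inf hA h hsurj hW (stabV_le_inertia V) hidx0 hU hg hg0,
      exists_zpow_unif_zero hA h hsurj hW (stabV_le_inertia V) hidx0 hU hg hg0⟩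

end Frame

end Fermat.Agent.TR.PL.SigmaSeam
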