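import Mathlib
import Fermat.Agent.TR.PL.SigmaSeam

/-!
# TR / (PL): the frame hypotheses of `ConstU.dvd_gamma_sub` / `GlueConst.const_indep_of`
at the objects of BAD

`F = ℚ̄·F_{Mp}`, `O₁ = OInf h`, `O₂ = OZero h W`, `red₁ = redInf h`, `red₂ = redZero h W`;
`H ≤ I` a subgroup of finite relative index of the inertia group, `K'' = ℚ̄^H` with uniformiser
`w` (`LocalField.IsUnif A (fixK A H hH) w`), `ϖ = algebraMap ℚ̄ F w`.

* `fixRing H N` (`Fx`) : the `H`-fixed functions of level `N`, as a subring;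
* `constRing A H N` (`W`) : the constants `a ∈ A ∩ K''`, as a subring;
* `unif_ne_zero` (`hϖ0`), `unif_mem_constRing` (`hϖW`), `unif_mem_nonunits_OInf/OZero`
  (`hϖ₁`, `hϖ₂`), `constRing_le_OInf/OZero` (`hW₁`, `hW₂`), `constRing_dvr` (`hWdvr`),
  `constRing_le_fixRing` (`hWFx`), `unif_inv_mem_fixRing` (`hϖinv`), `disc_OInf/OZero`
  (`hdisc₁`, `hdisc₂`), `lift_OInf/OZero` (`hlift₁`, `hlift₂`);
* the wild numerics at function level: `natCast_mul_pow_OInf/OZero` (`hqϖ₁`, `hqϖ₂`),
  `eta_OInf` (`hη`), `dvd_of_intCast_div_mem` (the `hp` of `GlueConst.dvd_sub_of_const`).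
-/

set_option autoImplicit false
set_option linter.unusedSectionVars false
set_option linter.style.haveILetI false

namespace Fermat.Agent.TR.PL.ConstFrame

open HahnSeries ModularCurve AlgebraicCurve Fermat.Agent.Lib.Red Fermat.Agent.BAD.TwoVal
open Fermat.Agent.BAD.LatFixed Fermat.Agent.BAD.LatFixedInst
open Fermat.Agent.TR.PL.Frame Fermat.Agent.TR.PL.LocalField Fermat.Agent.TR.PL.BaseChangeSigma
open Fermat.Agent.TR.PL.SigmaSeam Fermat.Agent.CAR.K0

local notation "Qb" => AlgebraicClosure ℚ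
local notation "GQ" => (AlgebraicClosure ℚ ≃ₐ[ℚ] AlgebraicClosure ℚ)

noncomputable section

/-! ### The two subrings -/

/-- `Fx` : the functions of level `N` fixed by the subgroup `H`, as a subring. -/
def fixRing (H : Subgroup GQ) (N : ℕ) :
    Subring (laurentBaseChange Qb (modularFunctionFieldFull N)) where
  carrier := {f | f ∈ fixedFunOf (H : Set GQ) N}
  mul_mem' := fun {f g} hf hg σ hσ => by
    rw [smul_mul', hf σ hσ, hg σ hσ]
  one_mem' := fun σ _ => smul_one _
  add_mem' := fun hf hg => (fixedFunOf (H : Set GQ) N).add_mem hf hg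
  zero_mem' := (fixedFunOf (H : Set GQ) N).zero_mem
  neg_mem' := fun hf => (fixedFunOf (H : Set GQ) N).neg_mem hf

theorem mem_fixRing {H : Subgroup GQ} {N : ℕ}
    {f : laurentBaseChange Qb (modularFunctionFieldFull N)} :
    f ∈ fixRing H N ↔ f ∈ fixedFunOf (H : Set GQ) N := Iff.rfl

theorem mem_fixRing_iff {H : Subgroup GQ} {N : ℕ}
    {f : laurentBaseChange Qb (modularFunctionFieldFull N)} :
    f ∈ fixRing H N ↔ ∀ σ ∈ H,
      arithmeticGalois (L := Qb) (modularFunctionFieldFull N) σ • f = f := Iff.rfl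

theorem inv_mem_fixRing {H : Subgroup GQ} {N : ℕ}
    {f : laurentBaseChange Qb (modularFunctionFieldFull N)} (hf : f ∈ fixRing H N) :
    f⁻¹ ∈ fixRing H N := fun σ hσ => by
  rw [smul_inv'', hf σ hσ]

theorem div_mem_fixRing {H : Subgroup GQ} {N : ℕ}
    {f g : laurentBaseChange Qb (modularFunctionFieldFull N)} (hf : f ∈ fixRing H N)
    (hg : g ∈ fixRing H N) : f / g ∈ fixRing H N := by
  rw [div_eq_mul_inv]
  exact (fixRing H N).mul_mem hf (inv_mem_fixRing hg)

theorem algebraMap_mem_fixRing {H : Subgroup GQ} {N : ℕ} {a : Qb}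
    (ha : a ∈ fixedSubfieldOf (H : Set GQ)) :
    algebraMap Qb (laurentBaseChange Qb (modularFunctionFieldFull N)) a ∈ fixRing H N := by
  have h1 : (1 : laurentBaseChange Qb (modularFunctionFieldFull N)) ∈
      fixedFunOf (H : Set GQ) N := (fixRing H N).one_mem
  have h2 := smul_mem_fixedFunOf ha h1
  rwa [Algebra.smul_def, mul_one] at h2

/-- `W` : the constants of `A ∩ K''`, `K'' = ℚ̄^H`, as a subring of the function field. -/
def constRing (A : ValuationSubring Qb) (H : Subgroup GQ) (N : ℕ) :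
    Subring (laurentBaseChange Qb (modularFunctionFieldFull N)) where
  carrier := {f | ∃ a : Qb, a ∈ A ∧ a ∈ fixedSubfieldOf (H : Set GQ) ∧
    f = algebraMap Qb (laurentBaseChange Qb (modularFunctionFieldFull N)) a}
  mul_mem' := by
    rintro _ _ ⟨a, ha, ha', rfl⟩ ⟨b, hb, hb', rfl⟩
    exact ⟨a * b, A.mul_mem _ _ ha hb, mul_mem ha' hb', (map_mul _ _ _).symm⟩
  one_mem' := ⟨1, A.one_mem, one_mem _, (map_one _).symm⟩
  add_mem' := by
    rintro _ _ ⟨a, ha, ha', rfl⟩ ⟨b, hb, hb', rfl⟩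
    exact ⟨a + b, A.add_mem _ _ ha hb, add_mem ha' hb', (map_add _ _ _).symm⟩
  zero_mem' := ⟨0, A.zero_mem, zero_mem _, (map_zero _).symm⟩
  neg_mem' := by
    rintro _ ⟨a, ha, ha', rfl⟩
    exact ⟨-a, A.neg_mem _ ha, neg_mem ha', (map_neg _ _).symm⟩

theorem mem_constRing {A : ValuationSubring Qb} {H : Subgroup GQ} {N : ℕ}
    {f : laurentBaseChange Qb (modularFunctionFieldFull N)} :
    f ∈ constRing A H N ↔ ∃ a : Qb, a ∈ A ∧ a ∈ fixedSubfieldOf (H : Set GQ) ∧
      f = algebraMap Qb (laurentBaseChange Qb (modularFunctionFieldFull N)) a := Iff.rfl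

theorem algebraMap_mem_constRing {A : ValuationSubring Qb} {H : Subgroup GQ} {N : ℕ} {a : Qb}
    (ha : a ∈ A) (ha' : a ∈ fixedSubfieldOf (H : Set GQ)) :
    algebraMap Qb (laurentBaseChange Qb (modularFunctionFieldFull N)) a ∈ constRing A H N :=
  ⟨a, ha, ha', rfl⟩

theorem algebraMap_mem_constRing_iff {A : ValuationSubring Qb} {H : Subgroup GQ} {N : ℕ}
    {a : Qb} :
    algebraMap Qb (laurentBaseChange Qb (modularFunctionFieldFull N)) a ∈ constRing A H N ↔
      a ∈ A ∧ a ∈ fixedSubfieldOf (H : Set GQ) := by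
  constructor
  · rintro ⟨b, hb, hb', e⟩
    have : a = b := (algebraMap Qb (laurentBaseChange Qb (modularFunctionFieldFull N))).injective e
    rw [this]
    exact ⟨hb, hb'⟩
  · rintro ⟨h1, h2⟩
    exact algebraMap_mem_constRing h1 h2

/-- (`hWFx`) -/
theorem constRing_le_fixRing {A : ValuationSubring Qb} {H : Subgroup GQ} {N : ℕ} :
    ∀ a ∈ constRing A H N, a ∈ fixRing H N := by
  rintro _ ⟨a, -, ha', rfl⟩
  exact algebraMap_mem_fixRing ha'

/-! ### Generalities on valuations of constants -/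

/-- For `0 < x < 1` in a linearly ordered group with zero, `x ^ n ≤ 1` forces `0 ≤ n`. -/
theorem zpow_nonneg_of_le_one {Γ : Type*} [LinearOrderedCommGroupWithZero Γ] {x : Γ}
    (hx0 : x ≠ 0) (hx1 : x < 1) {n : ℤ} (h : x ^ n ≤ 1) : 0 ≤ n := by
  by_contra hn
  rw [not_le] at hn
  obtain ⟨m, rfl⟩ : ∃ m : ℕ, n = -((m : ℤ) + 1) := ⟨(-n - 1).toNat, by omega⟩
  have h1 : x ^ (m + 1) < 1 := pow_lt_one₀ zero_le hx1 (Nat.succ_ne_zero m)
  have h2 : x ^ (m + 1) ≠ 0 := pow_ne_zero _ hx0
  have h3 : x ^ (-((m : ℤ) + 1)) = (x ^ (m + 1))⁻¹ := by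
    rw [zpow_neg]
    norm_cast
  rw [h3] at h
  have h4 : (1 : Γ) < (x ^ (m + 1))⁻¹ := (one_lt_inv₀ (zero_lt_iff.2 h2)).2 h1
  exact absurd h (not_le.2 h4)

/-- An integer whose quotient by a non-unit of `A` lies in `A` is divisible by the residue
characteristic. -/
theorem dvd_of_valuation_intCast_lt_one {p : ℕ} (hp : p.Prime) {A : ValuationSubring Qb}
    (hA : A.LiesOverPrime p) {z : ℤ} (hz : A.valuation (z : Qb) < 1) : (p : ℤ) ∣ z := by
  by_contra hnd
  have hcop : IsCoprime z (p : ℤ) :=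
    ((Nat.prime_iff_prime_int.1 hp).coprime_iff_not_dvd.2 hnd).symm
  obtain ⟨x, y, hxy⟩ := hcop
  have hpv : A.valuation ((p : ℕ) : Qb) < 1 := A.mem_nonunits_iff.mp hA
  have hx : A.valuation ((x : ℤ) : Qb) ≤ 1 :=
    (A.valuation_le_one_iff _).2 (intCast_mem A x)
  have hy : A.valuation ((y : ℤ) : Qb) ≤ 1 :=
    (A.valuation_le_one_iff _).2 (intCast_mem A y)
  have e : ((x : ℤ) : Qb) * (z : Qb) + (y : Qb) * ((p : ℕ) : Qb) = 1 := by
    have := congrArg (Int.cast : ℤ → Qb) hxy
    push_cast at this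
    exact this
  have h1 : A.valuation (((x : ℤ) : Qb) * (z : Qb)) < 1 := by
    rw [map_mul]
    exact lt_of_le_of_lt (mul_le_of_le_one_left' hx) hz
  have h2 : A.valuation ((y : Qb) * ((p : ℕ) : Qb)) < 1 := by
    rw [map_mul]
    exact lt_of_le_of_lt (mul_le_of_le_one_left' hy) hpv
  have h3 : A.valuation (1 : Qb) < 1 := by
    rw [← e]
    exact lt_of_le_of_lt (Valuation.map_add _ _ _) (max_lt h1 h2)
  rw [map_one] at h3
  exact lt_irrefl _ h3

/-! ### Constants and the Gauss valuation rings -/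

section Const

variable {p : ℕ} [NeZero p] {A : ValuationSubring Qb} {k : Type} [Field k]
  {π : A →+* k} {M : ℕ} [NeZero M]
  {W : laurentBaseChange Qb (modularFunctionFieldFull (M * p)) ≃ₐ[Qb]
    laurentBaseChange Qb (modularFunctionFieldFull (M * p))}

theorem algebraMap_mem_nonunits_OInf_iff (h : BadSetup A π M p) (a : Qb) :
    algebraMap Qb (laurentBaseChange Qb (modularFunctionFieldFull (M * p))) a ∈
      (OInf h).nonunits ↔ a ∈ A.nonunits := by
  rw [ValuationSubring.mem_nonunits_iff_or, ValuationSubring.mem_nonunits_iff_or, ← map_inv₀,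
    algebraMap_mem_OInf_iff, map_eq_zero]

theorem algebraMap_mem_nonunits_OZero_iff (h : BadSetup A π M p) (a : Qb) :
    algebraMap Qb (laurentBaseChange Qb (modularFunctionFieldFull (M * p))) a ∈
      (OZero h W).nonunits ↔ a ∈ A.nonunits := by
  rw [ValuationSubring.mem_nonunits_iff_or, ValuationSubring.mem_nonunits_iff_or, ← map_inv₀,
    algebraMap_mem_OZero_iff, map_eq_zero]

/-- (`hW₁`) -/
theorem constRing_le_OInf (h : BadSetup A π M p) {H : Subgroup GQ} :
    ∀ a ∈ constRing A H (M * p), a ∈ OInf h := by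
  rintro _ ⟨a, ha, -, rfl⟩
  exact (algebraMap_mem_OInf_iff h a).2 ha

/-- (`hW₂`) -/
theorem constRing_le_OZero (h : BadSetup A π M p) {H : Subgroup GQ} :
    ∀ a ∈ constRing A H (M * p), a ∈ OZero h W := by
  rintro _ ⟨a, ha, -, rfl⟩
  exact (algebraMap_mem_OZero_iff h a).2 ha

end Const

/-! ### The frame block -/

section Frame

variable {p : ℕ} [Fact p.Prime] [NeZero p] {A : ValuationSubring Qb} {k : Type} [Field k]
  {π : A →+* k} {M : ℕ} [NeZero M]
  {W : laurentBaseChange Qb (modularFunctionFieldFull (M * p)) ≃ₐ[Qb]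
    laurentBaseChange Qb (modularFunctionFieldFull (M * p))}
  (hA : A.LiesOverPrime p) (h : BadSetup A π M p) (hsurj : Function.Surjective π)
  (hW : IsAL M p W) {H : Subgroup GQ} (hH : H ≤ A.inertiaSubgroupIn ℚ)
  (hidx : H.relIndex (A.inertiaSubgroupIn ℚ) ≠ 0)
  {w : Qb} (hU : IsUnif A (fixK A H hH) w)

include hU in
/-- (`hϖ0`) -/
theorem unif_ne_zero (N : ℕ) :
    algebraMap Qb (laurentBaseChange Qb (modularFunctionFieldFull N)) w ≠ 0 :=
  (map_ne_zero _).2 hU.2.1

include hU in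
/-- (`hϖW`) -/
theorem unif_mem_constRing (N : ℕ) :
    algebraMap Qb (laurentBaseChange Qb (modularFunctionFieldFull N)) w ∈ constRing A H N :=
  algebraMap_mem_constRing hU.mem hU.1

include hU in
/-- (`hϖinv`) -/
theorem unif_inv_mem_fixRing (N : ℕ) :
    (algebraMap Qb (laurentBaseChange Qb (modularFunctionFieldFull N)) w)⁻¹ ∈ fixRing H N :=
  inv_mem_fixRing (algebraMap_mem_fixRing hU.1)

include hU in
/-- (`hϖ₁`) -/
theorem unif_mem_nonunits_OInf :
    algebraMap Qb (laurentBaseChange Qb (modularFunctionFieldFull (M * p))) w ∈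
      (OInf h).nonunits :=
  (algebraMap_mem_nonunits_OInf_iff h w).2 (A.mem_nonunits_iff.mpr hU.2.2.1)

include hU in
/-- (`hϖ₂`) -/
theorem unif_mem_nonunits_OZero :
    algebraMap Qb (laurentBaseChange Qb (modularFunctionFieldFull (M * p))) w ∈
      (OZero h W).nonunits :=
  (algebraMap_mem_nonunits_OZero_iff h w).2 (A.mem_nonunits_iff.mpr hU.2.2.1)

include hU in
/-- (`hWdvr`) Every nonzero constant of `W` is a power of the uniformiser times a unit of
`W`. -/
theorem constRing_dvr (N : ℕ) :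
    ∀ a ∈ constRing A H N, a ≠ 0 →
      ∃ (j : ℕ) (u : laurentBaseChange Qb (modularFunctionFieldFull N)),
        u ∈ constRing A H N ∧ u⁻¹ ∈ constRing A H N ∧
        a = algebraMap Qb (laurentBaseChange Qb (modularFunctionFieldFull N)) w ^ j * u := by
  rintro _ ⟨a, haA, haK, rfl⟩ ha0
  have ha0' : a ≠ 0 := fun h0 => ha0 (by rw [h0, map_zero])
  obtain ⟨n, u, hu, hu', hu0, e⟩ := exists_zpow_mul_unit hU haK ha0'
  have hw0 : w ≠ 0 := hU.2.1
  have hvw0 : A.valuation w ≠ 0 := (Valuation.ne_zero_iff _).2 hw0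
  have hvu : A.valuation u = 1 := by
    refine le_antisymm ((A.valuation_le_one_iff u).2 hu) ?_
    have h1 : A.valuation u⁻¹ ≤ 1 := (A.valuation_le_one_iff _).2 hu'
    rw [map_inv₀] at h1
    exact (inv_le_one₀ (zero_lt_iff.2 ((Valuation.ne_zero_iff _).2 hu0))).1 h1
  have hn : 0 ≤ n := by
    refine zpow_nonneg_of_le_one hvw0 hU.2.2.1 ?_
    have h1 : A.valuation a ≤ 1 := (A.valuation_le_one_iff a).2 haA
    rwa [e, map_mul, map_zpow₀, hvu, mul_one] at h1
  obtain ⟨j, rfl⟩ := Int.eq_ofNat_of_zero_le hn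
  rw [zpow_natCast] at e
  have huK : u ∈ fixedSubfieldOf (H : Set GQ) := by
    have e2 : u = a / w ^ j := by
      rw [e]
      field_simp
    rw [e2]
    exact div_mem haK (pow_mem hU.1 j)
  refine ⟨j, algebraMap Qb _ u, algebraMap_mem_constRing hu huK, ?_, ?_⟩
  · rw [← map_inv₀]
    exact algebraMap_mem_constRing hu' (inv_mem huK)
  · rw [e, map_mul, map_pow]

include hA hsurj hW hidx hU in
/-- (`hdisc₁`) An `H`-fixed non-unit of `O_∞` is divisible by the uniformiser. -/
theorem disc_OInf :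
    ∀ g ∈ fixRing H (M * p), g ∈ (OInf h).nonunits →
      g / algebraMap Qb (laurentBaseChange Qb (modularFunctionFieldFull (M * p))) w ∈
        OInf h := by
  intro g hg hgn
  rcases eq_or_ne g 0 with rfl | hg0
  · rw [zero_div]
    exact (OInf h).zero_mem
  obtain ⟨n, h1, h2⟩ := exists_zpow_unif_inf hA h hsurj hW hH hidx hU hg hg0
  have hw0 : w ≠ 0 := hU.2.1
  have hvw0 : A.valuation w ≠ 0 := (Valuation.ne_zero_iff _).2 hw0
  -- `1 ≤ n`, else `g⁻¹ ∈ O_∞`
  have hn : 1 ≤ n := by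
    by_contra hn
    rw [not_le] at hn
    have hginv : g⁻¹ ∈ OInf h := by
      have e : g⁻¹ = algebraMap Qb _ (w ^ (-n)) * ((w ^ n)⁻¹ • g)⁻¹ := by
        rw [Algebra.smul_def, mul_inv, map_inv₀, inv_inv, zpow_neg, map_inv₀, ← mul_assoc,
          inv_mul_cancel₀ ((map_ne_zero _).2 (zpow_ne_zero n hw0)), one_mul]
      rw [e]
      refine (OInf h).mul_mem _ _ ((algebraMap_mem_OInf_iff h _).2 ?_) h2
      obtain ⟨m, hm⟩ := Int.eq_ofNat_of_zero_le (show 0 ≤ -n by omega)
      rw [hm, zpow_natCast]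
      exact pow_mem hU.mem m
    rw [ValuationSubring.mem_nonunits_iff_or] at hgn
    rcases hgn with h0 | h0
    · exact hg0 h0
    · exact h0 hginv
  obtain ⟨m, hm⟩ := Int.eq_ofNat_of_zero_le (show 0 ≤ n - 1 by omega)
  have e : g / algebraMap Qb (laurentBaseChange Qb (modularFunctionFieldFull (M * p))) w =
      algebraMap Qb _ (w ^ m) * ((w ^ n)⁻¹ • g) := by
    have hn' : n = (m : ℤ) + 1 := by omega
    rw [Algebra.smul_def, hn', zpow_add_one₀ hw0, zpow_natCast, map_inv₀, map_mul, map_pow]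
    have hw0' : algebraMap Qb (laurentBaseChange Qb (modularFunctionFieldFull (M * p))) w ≠ 0 :=
      (map_ne_zero _).2 hw0
    field_simp
  rw [e]
  exact (OInf h).mul_mem _ _ ((algebraMap_mem_OInf_iff h _).2 (pow_mem hU.mem m)) h1

include hA hsurj hW hidx hU in
/-- (`hdisc₂`) An `H`-fixed non-unit of `O_0` is divisible by the uniformiser. -/
theorem disc_OZero :
    ∀ g ∈ fixRing H (M * p), g ∈ (OZero h W).nonunits →
      g / algebraMap Qb (laurentBaseChange Qb (modularFunctionFieldFull (M * p))) w ∈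
        OZero h W := by
  intro g hg hgn
  rcases eq_or_ne g 0 with rfl | hg0
  · rw [zero_div]
    exact (OZero h W).zero_mem
  obtain ⟨n, h1, h2⟩ := exists_zpow_unif_zero hA h hsurj hW hH hidx hU hg hg0
  have hw0 : w ≠ 0 := hU.2.1
  have hvw0 : A.valuation w ≠ 0 := (Valuation.ne_zero_iff _).2 hw0
  have hn : 1 ≤ n := by
    by_contra hn
    rw [not_le] at hn
    have hginv : g⁻¹ ∈ OZero h W := by
      have e : g⁻¹ = algebraMap Qb _ (w ^ (-n)) * ((w ^ n)⁻¹ • g)⁻¹ := by
        rw [Algebra.smul_def, mul_inv, map_inv₀, inv_inv, zpow_neg, map_inv₀, ← mul_assoc,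
          inv_mul_cancel₀ ((map_ne_zero _).2 (zpow_ne_zero n hw0)), one_mul]
      rw [e]
      refine (OZero h W).mul_mem _ _ ((algebraMap_mem_OZero_iff h _).2 ?_) h2
      obtain ⟨m, hm⟩ := Int.eq_ofNat_of_zero_le (show 0 ≤ -n by omega)
      rw [hm, zpow_natCast]
      exact pow_mem hU.mem m
    rw [ValuationSubring.mem_nonunits_iff_or] at hgn
    rcases hgn with h0 | h0
    · exact hg0 h0
    · exact h0 hginv
  obtain ⟨m, hm⟩ := Int.eq_ofNat_of_zero_le (show 0 ≤ n - 1 by omega)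
  have e : g / algebraMap Qb (laurentBaseChange Qb (modularFunctionFieldFull (M * p))) w =
      algebraMap Qb _ (w ^ m) * ((w ^ n)⁻¹ • g) := by
    have hn' : n = (m : ℤ) + 1 := by omega
    rw [Algebra.smul_def, hn', zpow_add_one₀ hw0, zpow_natCast, map_inv₀, map_mul, map_pow]
    have hw0' : algebraMap Qb (laurentBaseChange Qb (modularFunctionFieldFull (M * p))) w ≠ 0 :=
      (map_ne_zero _).2 hw0
    field_simp
  rw [e]
  exact (OZero h W).mul_mem _ _ ((algebraMap_mem_OZero_iff h _).2 (pow_mem hU.mem m)) h1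

include hA h hsurj hH in
/-- Residue constants lift to inertia-fixed integers. -/
theorem exists_fixed_const_lift (c : k) :
    ∃ a : Qb, ∃ ha : a ∈ A, a ∈ fixedSubfieldOf (H : Set GQ) ∧ π ⟨a, ha⟩ = c := by
  have hp : p.Prime := Fact.out
  obtain ⟨a, rfl⟩ := hsurj c
  obtain ⟨b, hbK, hbA, hlt⟩ :=
    exists_mem_inertiaField_valuation_sub_lt_one hp A hA a.2
  refine ⟨b, hbA, fun σ hσ => (mem_inertiaField_iff A b).1 hbK σ (hH hσ), ?_⟩
  have hnu : ¬ IsUnit (a - ⟨b, hbA⟩ : A) := by
    intro hu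
    have h1 : A.valuation ((a - ⟨b, hbA⟩ : A) : Qb) = 1 := (A.valuation_eq_one_iff _).1 hu
    rw [show ((a - ⟨b, hbA⟩ : A) : Qb) = (a : Qb) - b from rfl] at h1
    exact absurd h1 hlt.ne
  have h0 := h.hπ _ hnu
  rw [map_sub, sub_eq_zero] at h0
  exact h0.symm

include hA hsurj hH in
/-- (`hlift₁`) -/
theorem lift_OInf (c : k) :
    ∃ a, ∃ ha : a ∈ constRing A H (M * p),
      redInf h ⟨a, constRing_le_OInf h a ha⟩ =
        algebraMap k ↥(modularFunctionFieldFullC k M) c := by
  obtain ⟨a, ha, haK, rfl⟩ := exists_fixed_const_lift hA h hsurj hH c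
  refine ⟨algebraMap Qb _ a, algebraMap_mem_constRing ha haK, ?_⟩
  exact redInf_algebraMap h ⟨a, ha⟩ _

include hA hsurj hH in
/-- (`hlift₂`) -/
theorem lift_OZero (c : k) :
    ∃ a, ∃ ha : a ∈ constRing A H (M * p),
      redZero h W ⟨a, constRing_le_OZero h a ha⟩ =
        algebraMap k ↥(modularFunctionFieldFullC k M) c := by
  obtain ⟨a, ha, haK, rfl⟩ := exists_fixed_const_lift hA h hsurj hH c
  refine ⟨algebraMap Qb _ a, algebraMap_mem_constRing ha haK, ?_⟩
  exact redZero_algebraMap h ⟨a, ha⟩ _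

end Frame

/-! ### The wild numerics at function level, and the unit `σ f / f` -/

section Wild

variable {p : ℕ} [NeZero p] {A : ValuationSubring Qb} {k : Type} [Field k]
  {π : A →+* k} {M : ℕ} [NeZero M]
  {W : laurentBaseChange Qb (modularFunctionFieldFull (M * p)) ≃ₐ[Qb]
    laurentBaseChange Qb (modularFunctionFieldFull (M * p))}

/-- (`hred₁`) -/
theorem redInf_eq_zero_iff_mem_nonunits (h : BadSetup A π M p) (y : OInf h) :
    redInf h y = 0 ↔
      (y : laurentBaseChange Qb (modularFunctionFieldFull (M * p))) ∈ (OInf h).nonunits := by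
  rw [redInf_eq_zero_iff, ValuationSubring.coe_mem_nonunits_iff, IsLocalRing.mem_maximalIdeal,
    mem_nonunits_iff]

/-- (`hred₂`) -/
theorem redZero_eq_zero_iff_mem_nonunits (h : BadSetup A π M p) (y : OZero h W) :
    redZero h W y = 0 ↔
      (y : laurentBaseChange Qb (modularFunctionFieldFull (M * p))) ∈ (OZero h W).nonunits := by
  rw [redZero_eq_zero_iff, ValuationSubring.coe_mem_nonunits_iff, IsLocalRing.mem_maximalIdeal,
    mem_nonunits_iff]

/-- (`hqO`) -/
theorem natCast_mem_nonunits_OInf (hA : A.LiesOverPrime p) (h : BadSetup A π M p) :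
    ((p : ℕ) : laurentBaseChange Qb (modularFunctionFieldFull (M * p))) ∈ (OInf h).nonunits := by
  rw [← map_natCast (algebraMap Qb (laurentBaseChange Qb (modularFunctionFieldFull (M * p))))]
  exact (algebraMap_mem_nonunits_OInf_iff h _).2 hA

theorem natCast_mem_nonunits_OZero (hA : A.LiesOverPrime p) (h : BadSetup A π M p) :
    ((p : ℕ) : laurentBaseChange Qb (modularFunctionFieldFull (M * p))) ∈
      (OZero h W).nonunits := by
  rw [← map_natCast (algebraMap Qb (laurentBaseChange Qb (modularFunctionFieldFull (M * p))))]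
  exact (algebraMap_mem_nonunits_OZero_iff h _).2 hA

/-- (`hqϖ₁`) -/
theorem natCast_mul_pow_OInf (h : BadSetup A π M p) {w r : Qb} {t : ℕ} (hr : r ∈ A)
    (e : (p : Qb) * w ^ t = w ^ (p * t + 1) * r) :
    ∃ r' ∈ OInf h,
      ((p : ℕ) : laurentBaseChange Qb (modularFunctionFieldFull (M * p))) *
          algebraMap Qb (laurentBaseChange Qb (modularFunctionFieldFull (M * p))) w ^ t =
        algebraMap Qb (laurentBaseChange Qb (modularFunctionFieldFull (M * p))) w ^
          (p * t + 1) * r' := by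
  refine ⟨algebraMap Qb _ r, (algebraMap_mem_OInf_iff h r).2 hr, ?_⟩
  rw [← map_natCast (algebraMap Qb (laurentBaseChange Qb (modularFunctionFieldFull (M * p)))),
    ← map_pow, ← map_pow, ← map_mul, ← map_mul, e]

/-- (`hqϖ₂`) -/
theorem natCast_mul_pow_OZero (h : BadSetup A π M p) {w r : Qb} {t : ℕ} (hr : r ∈ A)
    (e : (p : Qb) * w ^ t = w ^ (p * t + 1) * r) :
    ∃ r' ∈ OZero h W,
      ((p : ℕ) : laurentBaseChange Qb (modularFunctionFieldFull (M * p))) *
          algebraMap Qb (laurentBaseChange Qb (modularFunctionFieldFull (M * p))) w ^ t =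
        algebraMap Qb (laurentBaseChange Qb (modularFunctionFieldFull (M * p))) w ^
          (p * t + 1) * r' := by
  refine ⟨algebraMap Qb _ r, (algebraMap_mem_OZero_iff h r).2 hr, ?_⟩
  rw [← map_natCast (algebraMap Qb (laurentBaseChange Qb (modularFunctionFieldFull (M * p)))),
    ← map_pow, ← map_pow, ← map_mul, ← map_mul, e]

/-- (`hη`) `η = ϖ ^ t * (unit of O_∞)`. -/
theorem eta_OInf (h : BadSetup A π M p) {w η u : Qb} {t : ℕ} (hη : η = w ^ t * u)
    (hu : A.valuation u = 1) :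
    ∃ w', w' ∈ OInf h ∧ w' ∉ (OInf h).nonunits ∧
      algebraMap Qb (laurentBaseChange Qb (modularFunctionFieldFull (M * p))) η =
        algebraMap Qb (laurentBaseChange Qb (modularFunctionFieldFull (M * p))) w ^ t * w' := by
  refine ⟨algebraMap Qb _ u, (algebraMap_mem_OInf_iff h u).2 ((A.valuation_le_one_iff u).1 hu.le),
    ?_, by rw [hη, map_mul, map_pow]⟩
  rw [algebraMap_mem_nonunits_OInf_iff, A.mem_nonunits_iff, hu]
  exact lt_irrefl _

/-- (the `hp` of `GlueConst.dvd_sub_of_const`) An integer divisible by the uniformiser in `W`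
is divisible by `p`. -/
theorem dvd_of_intCast_div_mem (hp : p.Prime) (hA : A.LiesOverPrime p) {H : Subgroup GQ}
    {N : ℕ} {w : Qb} (hw0 : w ≠ 0) (hw1 : A.valuation w < 1) :
    ∀ z : ℤ, ((z : ℤ) : laurentBaseChange Qb (modularFunctionFieldFull N)) /
        algebraMap Qb (laurentBaseChange Qb (modularFunctionFieldFull N)) w ∈ constRing A H N →
      (p : ℤ) ∣ z := by
  intro z hz
  have e : ((z : ℤ) : laurentBaseChange Qb (modularFunctionFieldFull N)) /
      algebraMap Qb (laurentBaseChange Qb (modularFunctionFieldFull N)) w =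
        algebraMap Qb (laurentBaseChange Qb (modularFunctionFieldFull N)) ((z : Qb) / w) := by
    rw [map_div₀, map_intCast]
  rw [e, algebraMap_mem_constRing_iff] at hz
  have h1 : A.valuation ((z : Qb) / w) ≤ 1 := (A.valuation_le_one_iff _).2 hz.1
  rw [map_div₀, div_le_one₀ (zero_lt_iff.2 ((Valuation.ne_zero_iff _).2 hw0))] at h1
  exact dvd_of_valuation_intCast_lt_one hp hA (lt_of_le_of_lt h1 hw1)

theorem galois_smul_ne_zero {N : ℕ} (σ : GQ)
    {f : laurentBaseChange Qb (modularFunctionFieldFull N)} (hf : f ≠ 0) :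
    arithmeticGalois (L := Qb) (modularFunctionFieldFull N) σ • f ≠ 0 := by
  intro h0
  apply hf
  have e : arithmeticGalois (L := Qb) (modularFunctionFieldFull N) σ⁻¹ •
      (arithmeticGalois (L := Qb) (modularFunctionFieldFull N) σ • f) = f := by
    rw [← mul_smul, ← map_mul, inv_mul_cancel, map_one, one_smul]
  rw [← e, h0, smul_zero]

theorem div_eq_aux {F : Type*} [Field F] [Algebra Qb F] {a b : Qb} (ha : a ≠ 0) (hb : b ≠ 0)
    (g : F) {f : F} (hf : f ≠ 0) :
    g / f = algebraMap Qb F (a / b) * ((b • g) * (a • f)⁻¹) := by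
  rw [Algebra.smul_def, Algebra.smul_def, mul_inv, map_div₀]
  have ha' : algebraMap Qb F a ≠ 0 := (map_ne_zero _).2 ha
  have hb' : algebraMap Qb F b ≠ 0 := (map_ne_zero _).2 hb
  field_simp

/-- `σ f / f ∈ O_∞` for `σ` in the inertia group (the Gauss valuation is inertia-invariant). -/
theorem galois_div_mem_OInf (h : BadSetup A π M p) {σ : GQ} (hσ : σ ∈ A.inertiaSubgroupIn ℚ)
    {f : laurentBaseChange Qb (modularFunctionFieldFull (M * p))} (hf : f ≠ 0) :
    arithmeticGalois (L := Qb) (modularFunctionFieldFull (M * p)) σ • f / f ∈ OInf h := by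
  haveI := Fermat.Agent.Lib.GalQbar.isAlgebraic_rat
  obtain ⟨a, ha, h1, h2⟩ := scaling_OInf h f hf
  have hin : Inertial A π (σ : Qb →+* Qb) := inertial_of_mem_inertia h.hπ hσ
  have h3 := galois_mem_OInf h hin h1
  rw [Fermat.Agent.Padic.arithmeticGalois_smul_const_smul] at h3
  have hσa : σ a ≠ 0 := (map_ne_zero σ).2 ha
  have hc : a / σ a ∈ A := by
    have h4 := decomp_div_mem (K := ℚ) (A := A) σ⁻¹
      (fun x => mem_iff_of_mem_inertia (inv_mem hσ) x) (σ a) hσa
    have e1 : σ⁻¹ (σ a) = a := by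
      rw [← AlgEquiv.mul_apply, inv_mul_cancel, AlgEquiv.one_apply]
    rwa [e1] at h4
  rw [div_eq_aux ha hσa
    (arithmeticGalois (L := Qb) (modularFunctionFieldFull (M * p)) σ • f) hf]
  exact (OInf h).mul_mem _ _ ((algebraMap_mem_OInf_iff h _).2 hc) ((OInf h).mul_mem _ _ h3 h2)

/-- `σ f / f ∈ O_0` for `σ` in the inertia group. -/
theorem galois_div_mem_OZero (h : BadSetup A π M p) (hW : IsAL M p W) {σ : GQ}
    (hσ : σ ∈ A.inertiaSubgroupIn ℚ)
    {f : laurentBaseChange Qb (modularFunctionFieldFull (M * p))} (hf : f ≠ 0) :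
    arithmeticGalois (L := Qb) (modularFunctionFieldFull (M * p)) σ • f / f ∈ OZero h W := by
  haveI := Fermat.Agent.Lib.GalQbar.isAlgebraic_rat
  obtain ⟨a, ha, h1, h2⟩ := scaling_OZero (W := W) h f hf
  have hin : Inertial A π (σ : Qb →+* Qb) := inertial_of_mem_inertia h.hπ hσ
  have h3 := galois_mem_OZero h hW hin h1
  rw [Fermat.Agent.Padic.arithmeticGalois_smul_const_smul] at h3
  have hσa : σ a ≠ 0 := (map_ne_zero σ).2 ha
  have hc : a / σ a ∈ A := by
    have h4 := decomp_div_mem (K := ℚ) (A := A) σ⁻¹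
      (fun x => mem_iff_of_mem_inertia (inv_mem hσ) x) (σ a) hσa
    have e1 : σ⁻¹ (σ a) = a := by
      rw [← AlgEquiv.mul_apply, inv_mul_cancel, AlgEquiv.one_apply]
    rwa [e1] at h4
  rw [div_eq_aux ha hσa
    (arithmeticGalois (L := Qb) (modularFunctionFieldFull (M * p)) σ • f) hf]
  exact (OZero h W).mul_mem _ _ ((algebraMap_mem_OZero_iff h _).2 hc)
    ((OZero h W).mul_mem _ _ h3 h2)

/-- **The unit `u = σ f / f`** (`huFx`, `hu₁`, `huu`, `hu₂` of `ConstU.dvd_gamma_sub`): for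
`σ` in the inertia group normalising `H` and `f ≠ 0` an `H`-fixed function, `u` is `H`-fixed,
a unit of `O_∞` and an element of `O_0` (indeed a unit there too). -/
theorem unit_galois_div (h : BadSetup A π M p) (hW : IsAL M p W) {H : Subgroup GQ} {σ : GQ}
    (hσ : σ ∈ A.inertiaSubgroupIn ℚ) (hconj : ∀ τ ∈ H, σ⁻¹ * τ * σ ∈ H)
    {f : laurentBaseChange Qb (modularFunctionFieldFull (M * p))} (hfH : f ∈ fixRing H (M * p))
    (hf : f ≠ 0) :
    arithmeticGalois (L := Qb) (modularFunctionFieldFull (M * p)) σ • f / f ∈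
        fixRing H (M * p) ∧
      arithmeticGalois (L := Qb) (modularFunctionFieldFull (M * p)) σ • f / f ∈ OInf h ∧
      arithmeticGalois (L := Qb) (modularFunctionFieldFull (M * p)) σ • f / f ∉
        (OInf h).nonunits ∧
      arithmeticGalois (L := Qb) (modularFunctionFieldFull (M * p)) σ • f / f ∈ OZero h W ∧
      arithmeticGalois (L := Qb) (modularFunctionFieldFull (M * p)) σ • f / f ∉
        (OZero h W).nonunits := by
  have hf' : arithmeticGalois (L := Qb) (modularFunctionFieldFull (M * p)) σ • f ≠ 0 :=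
    galois_smul_ne_zero σ hf
  have hinv : ∀ g : laurentBaseChange Qb (modularFunctionFieldFull (M * p)),
      arithmeticGalois (L := Qb) (modularFunctionFieldFull (M * p)) σ⁻¹ •
        (arithmeticGalois (L := Qb) (modularFunctionFieldFull (M * p)) σ • g) = g := by
    intro g
    rw [← mul_smul, ← map_mul, inv_mul_cancel, map_one, one_smul]
  -- the inverse `f / σ f = σ⁻¹ (σ f) / σ f`
  have e : (arithmeticGalois (L := Qb) (modularFunctionFieldFull (M * p)) σ • f / f)⁻¹ =
      arithmeticGalois (L := Qb) (modularFunctionFieldFull (M * p)) σ⁻¹ •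
        (arithmeticGalois (L := Qb) (modularFunctionFieldFull (M * p)) σ • f) /
        (arithmeticGalois (L := Qb) (modularFunctionFieldFull (M * p)) σ • f) := by
    rw [hinv, inv_div]
  have h1 := galois_div_mem_OInf h hσ hf
  have h2 := galois_div_mem_OZero h hW hσ hf
  have h1' := galois_div_mem_OInf h (inv_mem hσ) hf'
  have h2' := galois_div_mem_OZero h hW (inv_mem hσ) hf'
  rw [← e] at h1' h2'
  refine ⟨div_mem_fixRing (smul_mem_fixedFunOf_of_conj hconj hfH) hfH, h1, ?_, h2, ?_⟩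
  · intro hn
    rcases (ValuationSubring.mem_nonunits_iff_or _).1 hn with h0 | h0
    · exact div_ne_zero hf' hf h0
    · exact h0 h1'
  · intro hn
    rcases (ValuationSubring.mem_nonunits_iff_or _).1 hn with h0 | h0
    · exact div_ne_zero hf' hf h0
    · exact h0 h2'

end Wild

end

end Fermat.Agent.TR.PL.ConstFrame
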