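/-
TR / (PL), instance chain (I4) + (REG) (helper9; second seat, ruling #3 of the TR architect):
**`σ • F / F` lies in the node ring** for `σ` in the inertia group and `F` without zero or pole
at the places through the node — the literal `hY` of the wild assembly.

(The equivariance statements themselves are also in `TR/PL/ThroughGal.lean` (helper49) and
`TR/PL/GalNodeAbs.lean` (helper5); this file is self-contained, in its own namespace.)

Abstract part (setting of `TR/Node/NodeRingAbs.lean` / `TR/PL/Through.lean`), for a semilinear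
automorphism `g` of `F/L` which preserves `O`, the reduction, the chart divisor `E` and `Fx`:

* `smul_mem_nodeRing` : the node ring `nodeRing red Fx E e₁ e₂ i` is `g`-stable;
* `Through.smul` : `Through T P → Through T (g • P)` for a `g⁻¹`-stable `T`;
* `ord_smul_eq_zero` : "no zero and no pole through the node" is preserved by `g`;
* `ord_smul_div_eq_zero`, `adicValuation_smul_div_le_one` : `g • f / f` is a unit at every place
  through the node;
* `smul_div_mem_of_scaling` : `g • f / f` is integral for a `g`-stable valuation ring.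

At the modular objects (`BadSetup A π M q`, `O = OPair h W`, `T_i = nodeRing (redPair h W) ⊤ E1 …`,
`σ` in the inertia group of `A`):

* `smul_mem_nodeRing_top`, `through_smul`, `through_smul_iff`, `ord_smul_eq_zero_of_through`;
* `smul_div_mem_OInf`, `smul_div_mem_OZero`, `smul_div_mem_OPair` : `σ • f / f` is integral for
  both Gauss valuations (for every `f ≠ 0`);
* `smul_div_mem_nodeRing` : **(REG) for `σ • F / F`**: if `F ≠ 0` has neither zero nor pole at
  the places through the node `i`, then `σ • F / F ∈ T_i`;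
* `cong_smul_of_fixed` : values of inertia-fixed functions, `c_{σ • P} = σ c_P`.
-/
import Mathlib
import Fermat.Agent.TR.PL.Through
import Fermat.Agent.BAD.HenselPlaceInst
import Fermat.Agent.Lib.FF.AdeleResidue

set_option autoImplicit false
set_option linter.unusedSectionVars false
set_option linter.unusedVariables false

noncomputable section

namespace Fermat.Agent.TR.PL.ThroughReg

open AlgebraicCurve ModularCurve WithZero Fermat.Agent.Lib.FF Fermat.Agent.Lib.Red.Deform
  Fermat.Agent.BAD.NodalRiemann Fermat.Agent.BAD.TwoVal Fermat.Agent.TR.Node.NodeRingAbs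
  Fermat.Agent.TR.PL.Through

/-! ### Abstract part -/

section Abs

variable {L F : Type*} [Field L] [Field F] [Algebra L F] {O : Subring F}
  {k F₁ F₂ : Type*} [Field k] [Field F₁] [Field F₂] [Algebra k F₁] [Algebra k F₂]
  {ι : Type*}

/-- The value of a function at the translate of a place. -/
theorem adicValuation_smul_place (g : SemilinearAut L F) (P : Place L F) (f : F) :
    (g • P).adicValuation f = P.adicValuation (g⁻¹ • f) := by
  have h := Fermat.Agent.Padic.adicValuation_semilinear_smul g P (g⁻¹ • f)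
  rwa [smul_inv_smul] at h

/-- The order of a function at the translate of a place. -/
theorem ord_smul_place (g : SemilinearAut L F) (P : Place L F) (f : F) :
    (g • P).ord f = P.ord (g⁻¹ • f) := by
  have h := SemilinearAut.ord_smul g P (g⁻¹ • f)
  rwa [smul_inv_smul] at h

/-- **The node ring is stable** under a semilinear automorphism which preserves `O`, the
reduction, the chart divisor and `Fx`. -/
theorem smul_mem_nodeRing (red : O →+* F₁ × F₂) (Fx : Subring F) (E : Divisor L F)
    (e₁ : ι → Place k F₁) (e₂ : ι → Place k F₂) (i : ι) (g : SemilinearAut L F)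
    (hgO : ∀ y ∈ O, g • y ∈ O)
    (hgred : ∀ (y : O) (hy : g • (y : F) ∈ O), red ⟨g • (y : F), hy⟩ = red y)
    (hgE : g • E = E) (hgFx : ∀ y ∈ Fx, g • y ∈ Fx) {y : F}
    (hy : y ∈ nodeRing red Fx E e₁ e₂ i) : g • y ∈ nodeRing red Fx E e₁ e₂ i := by
  obtain ⟨hyF, N, t, htL, htF, ⟨c, hc0, hc1, hc2⟩, z, hz, hzL⟩ := hy
  refine ⟨hgFx y hyF, N, ⟨g • (t : F), hgO _ t.2⟩,
    Fermat.Agent.BAD.HenselPlace.smul_mem_L_nsmul g hgE N htL, hgFx _ htF, ⟨c, hc0, ?_, ?_⟩,
    ⟨g • (z : F), hgO _ z.2⟩, ?_, Fermat.Agent.BAD.HenselPlace.smul_mem_L_nsmul g hgE N hzL⟩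
  · rw [hgred t (hgO _ t.2)]
    exact hc1
  · rw [hgred t (hgO _ t.2)]
    exact hc2
  · show g • (z : F) = g • (t : F) * g • y
    rw [hz, smul_mul']

/-- **Equivariance of `Through`.** -/
theorem Through.smul {T : Subring F} {P : Place L F} (g : SemilinearAut L F)
    (hT : ∀ y ∈ T, g⁻¹ • y ∈ T) (hP : Through T P) : Through T (g • P) := by
  intro y hy
  rw [adicValuation_smul_place]
  exact hP _ (hT y hy)

/-- "No zero and no pole at the places through `T`" is preserved by a semilinear automorphism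
preserving `T`. -/
theorem ord_smul_eq_zero {T : Subring F} (g : SemilinearAut L F) (hT : ∀ y ∈ T, g • y ∈ T)
    {f : F} (hf : ∀ P : Place L F, Through T P → P.ord f = 0) (P : Place L F)
    (hP : Through T P) : P.ord (g • f) = 0 := by
  have h1 : Through T (g⁻¹ • P) := Through.smul g⁻¹ (fun y hy => by
    rw [inv_inv]
    exact hT y hy) hP
  have h2 := SemilinearAut.ord_smul g (g⁻¹ • P) f
  rw [smul_inv_smul] at h2
  rw [h2]
  exact hf _ h1

/-- If `f ≠ 0` has neither zero nor pole at the places through `T`, then `g • f / f` is regular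
(indeed a unit) at every place through `T`. -/
theorem ord_smul_div_eq_zero {T : Subring F} (g : SemilinearAut L F)
    (hT : ∀ y ∈ T, g • y ∈ T) {f : F} (hf0 : f ≠ 0)
    (hf : ∀ P : Place L F, Through T P → P.ord f = 0) (P : Place L F) (hP : Through T P) :
    P.ord (g • f / f) = 0 := by
  have hgf0 : g • f ≠ 0 := (smul_ne_zero_iff_ne _).mpr hf0
  rw [div_eq_mul_inv, P.ord_mul hgf0 (inv_ne_zero hf0), P.ord_inv, hf P hP,
    ord_smul_eq_zero g hT hf P hP]
  simp

theorem adicValuation_smul_div_le_one {T : Subring F} (g : SemilinearAut L F)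
    (hT : ∀ y ∈ T, g • y ∈ T) {f : F} (hf0 : f ≠ 0)
    (hf : ∀ P : Place L F, Through T P → P.ord f = 0) (P : Place L F) (hP : Through T P) :
    P.adicValuation (g • f / f) ≤ 1 := by
  have hgf0 : g • f ≠ 0 := (smul_ne_zero_iff_ne _).mpr hf0
  rw [Place.adicValuation_eq_exp_neg_ord _ (div_ne_zero hgf0 hf0),
    ord_smul_div_eq_zero g hT hf0 hf P hP]
  simp

/-- A quotient `x / y` is integral as soon as suitable rescalings of `x` and `y⁻¹` are. -/
theorem div_mem_of_scaling {F' : Type*} [Field F'] (O' : ValuationSubring F') {x y a b : F'}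
    (ha : a ≠ 0) (hb : b ≠ 0) (hy : y ≠ 0) (hab : a / b ∈ O') (hbx : b * x ∈ O')
    (hay : (a * y)⁻¹ ∈ O') : x / y ∈ O' := by
  have e : x / y = (a / b) * ((b * x) * (a * y)⁻¹) := by
    field_simp
  rw [e]
  exact O'.mul_mem _ _ hab (O'.mul_mem _ _ hbx hay)

/-- **`g • f / f` is integral** for a valuation ring `O'` of `F` which is stable under `g`, as
soon as `f` is a constant times a unit of `O'` and `c / g c` is integral for the constants. -/
theorem smul_div_mem_of_scaling (O' : ValuationSubring F) (g : SemilinearAut L F)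
    (hO : ∀ y ∈ O', g • y ∈ O')
    (hconst : ∀ c : L, c ≠ 0 → algebraMap L F (c / SemilinearAut.baseAut g c) ∈ O')
    {f : F} (hf0 : f ≠ 0) {a : L} (ha0 : a ≠ 0) (hm : algebraMap L F a * f ∈ O')
    (hinv : (algebraMap L F a * f)⁻¹ ∈ O') : g • f / f ∈ O' := by
  have hb0 : SemilinearAut.baseAut g a ≠ 0 := (map_ne_zero _).2 ha0
  have hmem := hO _ hm
  rw [smul_mul', SemilinearAut.smul_algebraMap] at hmem
  have hc := hconst a ha0
  rw [map_div₀] at hc
  exact div_mem_of_scaling O' ((map_ne_zero _).2 ha0) ((map_ne_zero _).2 hb0) hf0 hc hmem hinv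

end Abs

/-! ### At the modular objects -/

section Inst

local notation "Qb" => AlgebraicClosure ℚ

variable {A : ValuationSubring Qb} {k : Type} [Field k] {π : A →+* k} {M q : ℕ} [NeZero M]
  [NeZero q]
  (h : BadSetup A π M q)
  {W : laurentBaseChange Qb (modularFunctionFieldFull (M * q)) ≃ₐ[Qb]
    laurentBaseChange Qb (modularFunctionFieldFull (M * q))} (hW : IsAL M q W)
  (E1 : Divisor Qb (laurentBaseChange Qb (modularFunctionFieldFull (M * q))))
  {ι : Type} (e₁ e₂ : ι → Place k (modularFunctionFieldFullC k M))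
  (hE1 : ∀ v, 0 ≤ E1 v)
  (hgalE1 : ∀ σ ∈ A.inertiaSubgroupIn ℚ,
    arithmeticGalois (modularFunctionFieldFull (M * q)) σ • E1 = E1)
  (i : ι) {σ : Qb ≃ₐ[ℚ] Qb}

include hW hgalE1 in
/-- **(I4)** The `ℚ̄`-level node ring `T_i` is stable under the inertia group. -/
theorem smul_mem_nodeRing_top (hσ : σ ∈ A.inertiaSubgroupIn ℚ)
    {y : laurentBaseChange Qb (modularFunctionFieldFull (M * q))}
    (hy : y ∈ nodeRing (redPair h W) ⊤ E1 e₁ e₂ i) :
    arithmeticGalois (modularFunctionFieldFull (M * q)) σ • y ∈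
      nodeRing (redPair h W) ⊤ E1 e₁ e₂ i := by
  have hI := Fermat.Agent.BAD.HenselPlaceInst.inert_of_mem_inertia h hW hσ
  exact smul_mem_nodeRing (redPair h W) ⊤ E1 e₁ e₂ i _ hI.memO hI.red (hgalE1 σ hσ)
    (fun _ _ => Subring.mem_top _) hy

include hW hgalE1 in
/-- **(I4)** `Through T_i P → Through T_i (σ • P)` for `σ` in the inertia group. -/
theorem through_smul (hσ : σ ∈ A.inertiaSubgroupIn ℚ)
    {P : Place Qb (laurentBaseChange Qb (modularFunctionFieldFull (M * q)))}
    (hP : Through (nodeRing (redPair h W) ⊤ E1 e₁ e₂ i) P) :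
    Through (nodeRing (redPair h W) ⊤ E1 e₁ e₂ i)
      (arithmeticGalois (modularFunctionFieldFull (M * q)) σ • P) := by
  refine Through.smul _ (fun y hy => ?_) hP
  have hσ' : σ⁻¹ ∈ A.inertiaSubgroupIn ℚ := Subgroup.inv_mem _ hσ
  have e : (arithmeticGalois (modularFunctionFieldFull (M * q)) σ)⁻¹
      = arithmeticGalois (modularFunctionFieldFull (M * q)) σ⁻¹ := (map_inv _ σ).symm
  rw [e]
  exact smul_mem_nodeRing_top h hW E1 e₁ e₂ hgalE1 i hσ' hy

include hW hgalE1 in
theorem through_smul_iff (hσ : σ ∈ A.inertiaSubgroupIn ℚ)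
    {P : Place Qb (laurentBaseChange Qb (modularFunctionFieldFull (M * q)))} :
    Through (nodeRing (redPair h W) ⊤ E1 e₁ e₂ i)
      (arithmeticGalois (modularFunctionFieldFull (M * q)) σ • P) ↔
    Through (nodeRing (redPair h W) ⊤ E1 e₁ e₂ i) P := by
  refine ⟨fun hP => ?_, through_smul h hW E1 e₁ e₂ hgalE1 i hσ⟩
  have hσ' : σ⁻¹ ∈ A.inertiaSubgroupIn ℚ := Subgroup.inv_mem _ hσ
  have h1 := through_smul h hW E1 e₁ e₂ hgalE1 i hσ' hP
  rwa [← mul_smul, ← map_mul, inv_mul_cancel, map_one, one_smul] at h1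

include hW hgalE1 in
/-- **(I4)** "No zero and no pole through the node `i`" is preserved by the inertia group. -/
theorem ord_smul_eq_zero_of_through (hσ : σ ∈ A.inertiaSubgroupIn ℚ)
    {f : laurentBaseChange Qb (modularFunctionFieldFull (M * q))}
    (hf : ∀ P : Place Qb (laurentBaseChange Qb (modularFunctionFieldFull (M * q))),
      Through (nodeRing (redPair h W) ⊤ E1 e₁ e₂ i) P → P.ord f = 0)
    (P : Place Qb (laurentBaseChange Qb (modularFunctionFieldFull (M * q))))
    (hP : Through (nodeRing (redPair h W) ⊤ E1 e₁ e₂ i) P) :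
    P.ord (arithmeticGalois (modularFunctionFieldFull (M * q)) σ • f) = 0 :=
  ord_smul_eq_zero _ (fun y hy => smul_mem_nodeRing_top h hW E1 e₁ e₂ hgalE1 i hσ hy) hf P hP

include hW in
/-- `c / σ c ∈ A` for `σ` in the inertia group (in the form used below). -/
theorem const_div_mem_OInf (hσ : σ ∈ A.inertiaSubgroupIn ℚ) (c : Qb) (hc0 : c ≠ 0) :
    algebraMap Qb (laurentBaseChange Qb (modularFunctionFieldFull (M * q)))
      (c / SemilinearAut.baseAut (arithmeticGalois (modularFunctionFieldFull (M * q)) σ) c) ∈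
      OInf h := by
  have halg : Algebra.IsAlgebraic ℚ Qb := AlgebraicClosure.isAlgebraic ℚ
  have hσ' : σ⁻¹ ∈ A.inertiaSubgroupIn ℚ := Subgroup.inv_mem _ hσ
  obtain ⟨-, -, -, -, h5⟩ := fixes_of_mem_inertia h hW hσ'
  have hσc0 : σ c ≠ 0 := (map_ne_zero σ).2 hc0
  have hc := h5 (σ c) hσc0
  have e1 : SemilinearAut.baseAut (arithmeticGalois (modularFunctionFieldFull (M * q)) σ⁻¹)
      (σ c) = c := σ.symm_apply_apply c
  rw [e1] at hc
  exact hc

include hW in
/-- For `σ` in the inertia group and `f ≠ 0`, `σ • f / f` is integral for the Gauss valuation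
at `∞`. -/
theorem smul_div_mem_OInf (hσ : σ ∈ A.inertiaSubgroupIn ℚ)
    {f : laurentBaseChange Qb (modularFunctionFieldFull (M * q))} (hf0 : f ≠ 0) :
    arithmeticGalois (modularFunctionFieldFull (M * q)) σ • f / f ∈ OInf h := by
  have halg : Algebra.IsAlgebraic ℚ Qb := AlgebraicClosure.isAlgebraic ℚ
  obtain ⟨h1, -, -, -, -⟩ := fixes_of_mem_inertia h hW hσ
  obtain ⟨a, ha0, hm, hne⟩ := exists_scaling_OInf h f hf0
  exact smul_div_mem_of_scaling (OInf h) _ h1 (const_div_mem_OInf h hW hσ) hf0 ha0 hm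
    (inv_mem_OInf h _ hm hne)

include hW in
/-- For `σ` in the inertia group and `f ≠ 0`, `σ • f / f` is integral for the Gauss valuation
at `0`. -/
theorem smul_div_mem_OZero (hσ : σ ∈ A.inertiaSubgroupIn ℚ)
    {f : laurentBaseChange Qb (modularFunctionFieldFull (M * q))} (hf0 : f ≠ 0) :
    arithmeticGalois (modularFunctionFieldFull (M * q)) σ • f / f ∈ OZero h W := by
  have halg : Algebra.IsAlgebraic ℚ Qb := AlgebraicClosure.isAlgebraic ℚ
  obtain ⟨-, h2, -, -, -⟩ := fixes_of_mem_inertia h hW hσ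
  obtain ⟨a, ha0, hm, hne⟩ := exists_scaling_OZero (W := W) h f hf0
  refine smul_div_mem_of_scaling (OZero h W) _ h2 (fun c hc0 => ?_) hf0 ha0 hm
    (inv_mem_OZero h _ hm hne)
  have hc := const_div_mem_OInf h hW hσ c hc0
  rw [algebraMap_mem_OInf_iff] at hc
  exact (algebraMap_mem_OZero_iff (W := W) h _).2 hc

include hW in
theorem smul_div_mem_OPair (hσ : σ ∈ A.inertiaSubgroupIn ℚ)
    {f : laurentBaseChange Qb (modularFunctionFieldFull (M * q))} (hf0 : f ≠ 0) :
    arithmeticGalois (modularFunctionFieldFull (M * q)) σ • f / f ∈ OPair h W :=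
  (mem_OPair_iff h _).2 ⟨smul_div_mem_OInf h hW hσ hf0, smul_div_mem_OZero h hW hσ hf0⟩

include hW hE1 hgalE1 in
/-- **(I4) + (REG) + (sat): the literal `hY` of the wild assembly.**  If `F ≠ 0` has neither
zero nor pole at the places through the node `i`, then `σ • F / F` lies in the `ℚ̄`-level node
ring `T_i`, for every `σ` in the inertia group. -/
theorem smul_div_mem_nodeRing (hσ : σ ∈ A.inertiaSubgroupIn ℚ)
    {f : laurentBaseChange Qb (modularFunctionFieldFull (M * q))} (hf0 : f ≠ 0)
    (hf : ∀ P : Place Qb (laurentBaseChange Qb (modularFunctionFieldFull (M * q))),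
      Through (nodeRing (redPair h W) ⊤ E1 e₁ e₂ i) P → P.ord f = 0) :
    arithmeticGalois (modularFunctionFieldFull (M * q)) σ • f / f ∈
      nodeRing (redPair h W) ⊤ E1 e₁ e₂ i := by
  have := (isFF1_xL Qb (M * q)).hasPrincipalDivisors
  have hE : (0 : Divisor Qb (laurentBaseChange Qb (modularFunctionFieldFull (M * q)))) ≤ E1 :=
    Finsupp.le_def.mpr fun v => by rw [Finsupp.zero_apply]; exact hE1 v
  have hgf0 : arithmeticGalois (modularFunctionFieldFull (M * q)) σ • f ≠ 0 :=
    (smul_ne_zero_iff_ne _).mpr hf0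
  have hu0 : arithmeticGalois (modularFunctionFieldFull (M * q)) σ • f / f ≠ 0 :=
    div_ne_zero hgf0 hf0
  obtain ⟨c, hc0, hc⟩ := exists_smul_mem (A := A) (red := redPair h W) (E := E1) (e₁ := e₁)
    (e₂ := e₂) (i := i) (OPair_hval h) hE hu0 (Fermat.Agent.Lib.FF.Res.Adele.finite_poles _)
    (fun P hP => adicValuation_smul_div_le_one _
      (fun y hy => smul_mem_nodeRing_top h hW E1 e₁ e₂ hgalE1 i hσ hy) hf0 hf P hP)
  exact mem_of_mul_mem (redPair h W) ⊤ E1 e₁ e₂ i (fun _ _ => Subring.mem_top _) hc0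
    (Subring.mem_top _) (smul_div_mem_OPair h hW hσ hf0) hc

/-- **(I4)** Values of inertia-fixed functions: `c_{σ • P} = σ c_P`. -/
theorem cong_smul_of_fixed
    {P : Place Qb (laurentBaseChange Qb (modularFunctionFieldFull (M * q)))}
    {f : laurentBaseChange Qb (modularFunctionFieldFull (M * q))} {c : Qb}
    (hfix : arithmeticGalois (modularFunctionFieldFull (M * q)) σ • f = f)
    (hc : Cong P f c) :
    Cong (arithmeticGalois (modularFunctionFieldFull (M * q)) σ • P) f (σ c) := by
  have h1 := Fermat.Agent.BAD.HenselPlace.cong_smul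
    (arithmeticGalois (modularFunctionFieldFull (M * q)) σ) hc
  rw [hfix, baseAut_arithmeticGalois] at h1
  exact h1

end Inst

end Fermat.Agent.TR.PL.ThroughReg
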