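/-
TR (PL), abstract core of (CONST) at the nodes: constancy of a function modulo `ϖ ^ (t + 1)` on
the two components of a nodal fibre, and the gluing of the two constants at every node.

Setting (no modular object): `F` a field, `O₁ O₂ : ValuationSubring F` (the two Gauss
valuations), reductions `red_j : O_j →+* κ_j` with kernel the nonunits, a subring `W` of
"discrete constants" with uniformiser `ϖ` (`hWdvr`), a subring `Fx` of functions for which the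
two valuations are discrete with uniformiser `ϖ` (`hdisc_j`), node rings `R s` (`s : ι`) which
are saturated (`hsat`) and glue the two branches (`hglue`).

* `glue_const` : if `Y ∈ R`, `Y ≡ a` modulo `ϖ ^ m` on the first side and `Y ≡ a'` modulo `ϖ ^ m`
  on the second side (`a a' ∈ W`), then `a ≡ a'` modulo `ϖ ^ m` in `W`.
* `exists_const` : for `Ψ ∈ Fx ∩ O₁ ∩ O₂` which at every node `s` is `H s` times an element of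
  the node ring, with `H s ≡ 1` on the first side and `H s ≡ C s` on the second side modulo
  `ϖ ^ (t + 1)`, and whose successive quotients `(Ψ - a) / ϖ ^ m` (`m ≤ t`) have reductions
  regular away from the nodes (`hSm_j`): `Ψ ≡ a` on the first side, `Ψ ≡ a'` on the second side
  modulo `ϖ ^ (t + 1)`, and `a ≡ a' / C s` modulo `ϖ ^ (t + 1)` for EVERY node `s`.
  (Intertwined induction on `m`: regularity of the reductions at a node at level `m` needs the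
  gluing of the two approximations at level `m`.)
* `const_indep` : if moreover `Ψ` is a unit on the first side, `C s ≡ C s'` modulo
  `ϖ ^ (t + 1)` for any two nodes.
* `dvd_sub_of_const` : for `C s = 1 + n s * η`, `η = ϖ ^ t * u` (`u` a unit of `W`): the integers
  `n s` are congruent modulo the residue characteristic.
-/
import Mathlib

set_option autoImplicit false

namespace Fermat.Agent.TR.PL.GlueConst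

variable {F : Type*} [Field F]

/-! ### Valuation subrings: small lemmas -/

theorem nu_mem {A : ValuationSubring F} {x : F} (h : x ∈ A.nonunits) : x ∈ A :=
  ValuationSubring.nonunits_subset h

theorem nu_mul_left {A : ValuationSubring F} {x y : F} (hx : x ∈ A) (hy : y ∈ A.nonunits) :
    x * y ∈ A.nonunits := by
  rw [A.mem_nonunits_iff] at hy ⊢
  rw [map_mul]
  exact (mul_le_of_le_one_left' ((A.valuation_le_one_iff x).2 hx)).trans_lt hy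

theorem nu_mul_right {A : ValuationSubring F} {x y : F} (hx : x ∈ A.nonunits) (hy : y ∈ A) :
    x * y ∈ A.nonunits := by
  rw [mul_comm]
  exact nu_mul_left hy hx

theorem nu_add {A : ValuationSubring F} {x y : F} (hx : x ∈ A.nonunits) (hy : y ∈ A.nonunits) :
    x + y ∈ A.nonunits := by
  rw [A.mem_nonunits_iff] at hx hy ⊢
  exact lt_of_le_of_lt (Valuation.map_add _ _ _) (max_lt hx hy)

theorem nu_neg {A : ValuationSubring F} {x : F} (hx : x ∈ A.nonunits) : -x ∈ A.nonunits := by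
  rw [A.mem_nonunits_iff] at hx ⊢
  rwa [Valuation.map_neg]

theorem nu_sub {A : ValuationSubring F} {x y : F} (hx : x ∈ A.nonunits) (hy : y ∈ A.nonunits) :
    x - y ∈ A.nonunits := by
  rw [sub_eq_add_neg]
  exact nu_add hx (nu_neg hy)

theorem nu_pow {A : ValuationSubring F} {x : F} (hx : x ∈ A.nonunits) {n : ℕ} (hn : n ≠ 0) :
    x ^ n ∈ A.nonunits := by
  obtain ⟨m, rfl⟩ := Nat.exists_eq_succ_of_ne_zero hn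
  rw [pow_succ]
  exact nu_mul_left (A.pow_mem (nu_mem hx) m) hx

theorem one_not_nu (A : ValuationSubring F) : (1 : F) ∉ A.nonunits := by
  rw [A.mem_nonunits_iff, map_one]
  exact lt_irrefl _

/-- `1 + x` is a unit of `A` for `x` in the maximal ideal. -/
theorem inv_one_add_mem {A : ValuationSubring F} {x : F} (hx : x ∈ A.nonunits) :
    (1 + x)⁻¹ ∈ A := by
  rw [← A.valuation_le_one_iff, map_inv₀]
  have h1 : A.valuation (1 + x) = 1 := by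
    have h := Valuation.map_add_eq_of_lt_left (v := A.valuation) (x := (1 : F)) (y := x)
      (by rw [map_one]; exact (A.mem_nonunits_iff).1 hx)
    rw [h, map_one]
  rw [h1, inv_one]

/-! ### Gluing of constants at a node -/

section glue

variable {O₁ O₂ : ValuationSubring F} {R W : Subring F} {ϖ : F}

/-- **Gluing of constants**: if `Y` lies in the node ring, `Y ≡ a` modulo `ϖ ^ m` on the first
side and `Y ≡ a'` modulo `ϖ ^ m` on the second side, then `a ≡ a'` modulo `ϖ ^ m`. -/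
theorem glue_const (hϖ0 : ϖ ≠ 0) (hϖW : ϖ ∈ W) (hϖ₁ : ϖ ∈ O₁.nonunits) (hϖ₂ : ϖ ∈ O₂.nonunits)
    (hW₁ : ∀ a ∈ W, a ∈ O₁) (hW₂ : ∀ a ∈ W, a ∈ O₂) (hWR : ∀ a ∈ W, a ∈ R)
    (hWdvr : ∀ a ∈ W, a ≠ 0 → ∃ (j : ℕ) (u : F), u ∈ W ∧ u⁻¹ ∈ W ∧ a = ϖ ^ j * u)
    (hsat : ∀ g : F, g ∈ O₁ → g ∈ O₂ → ∀ m : ℕ, ϖ ^ m * g ∈ R → g ∈ R)
    (hglue : ∀ g ∈ R, g ∈ O₁.nonunits → g - 1 ∈ O₂.nonunits → False)
    {Y a a' : F} (hY : Y ∈ R) (ha : a ∈ W) (ha' : a' ∈ W) (m : ℕ)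
    (h₁ : (Y - a) / ϖ ^ m ∈ O₁) (h₂ : (Y - a') / ϖ ^ m ∈ O₂) :
    (a - a') / ϖ ^ m ∈ W := by
  by_cases hc : a' - a = 0
  · have e : a - a' = 0 := by rw [← neg_sub, hc, neg_zero]
    rw [e, zero_div]
    exact W.zero_mem
  obtain ⟨j, u, hu, hui, hcu⟩ := hWdvr (a' - a) (W.sub_mem ha' ha) hc
  have hu0 : u ≠ 0 := by
    rintro rfl
    rw [mul_zero] at hcu
    exact hc hcu
  have hpm : ϖ ^ m ≠ 0 := pow_ne_zero m hϖ0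
  have hpj : ϖ ^ j ≠ 0 := pow_ne_zero j hϖ0
  by_cases hjm : m ≤ j
  · have e : (a - a') / ϖ ^ m = -(ϖ ^ (j - m) * u) := by
      have e1 : a - a' = -(ϖ ^ j * u) := by rw [← hcu, neg_sub]
      rw [e1, ← Nat.sub_add_cancel hjm, pow_add, Nat.add_sub_cancel]
      field_simp
    rw [e]
    exact W.neg_mem (W.mul_mem (W.pow_mem hϖW _) hu)
  · exfalso
    have hjm' : j < m := not_le.1 hjm
    have hk : m - j ≠ 0 := by omega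
    -- `g := (Y - a) / (a' - a)` is small on the first side and `≡ 1` on the second
    have eg : (Y - a) / (a' - a) = (Y - a) / ϖ ^ m * (ϖ ^ (m - j) * u⁻¹) := by
      rw [hcu]
      have e2 : ϖ ^ m = ϖ ^ (m - j) * ϖ ^ j := by
        rw [← pow_add, Nat.sub_add_cancel hjm'.le]
      rw [e2]
      field_simp
    have eg' : (Y - a) / (a' - a) - 1 = (Y - a') / ϖ ^ m * (ϖ ^ (m - j) * u⁻¹) := by
      have e3 : (Y - a) / (a' - a) - 1 = (Y - a') / (a' - a) := by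
        field_simp
        ring
      rw [e3, hcu]
      have e2 : ϖ ^ m = ϖ ^ (m - j) * ϖ ^ j := by
        rw [← pow_add, Nat.sub_add_cancel hjm'.le]
      rw [e2]
      field_simp
    have hg₁ : (Y - a) / (a' - a) ∈ O₁.nonunits := by
      rw [eg]
      exact nu_mul_left h₁ (nu_mul_right (nu_pow hϖ₁ hk) (hW₁ _ hui))
    have hg₂ : (Y - a) / (a' - a) - 1 ∈ O₂.nonunits := by
      rw [eg']
      exact nu_mul_left h₂ (nu_mul_right (nu_pow hϖ₂ hk) (hW₂ _ hui))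
    have hgO₂ : (Y - a) / (a' - a) ∈ O₂ := by
      have e : (Y - a) / (a' - a) = ((Y - a) / (a' - a) - 1) + 1 := by ring
      rw [e]
      exact add_mem (nu_mem hg₂) (one_mem O₂)
    -- `u * g ∈ R` by saturation, hence `g ∈ R`
    have hug : u * ((Y - a) / (a' - a)) ∈ R := by
      refine hsat _ (mul_mem (hW₁ _ hu) (nu_mem hg₁)) (mul_mem (hW₂ _ hu) hgO₂) j ?_
      have e : ϖ ^ j * (u * ((Y - a) / (a' - a))) = Y - a := by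
        rw [← mul_assoc, ← hcu]
        field_simp
      rw [e]
      exact R.sub_mem hY (hWR _ ha)
    have hgR : (Y - a) / (a' - a) ∈ R := by
      have e : (Y - a) / (a' - a) = u⁻¹ * (u * ((Y - a) / (a' - a))) := by
        rw [← mul_assoc, inv_mul_cancel₀ hu0, one_mul]
      rw [e]
      exact R.mul_mem (hWR _ hui) hug
    exact hglue _ hgR hg₁ hg₂

end glue

/-! ### Algebraic identities -/

theorem id_one (Ψ a H P Q : F) (hP : P ≠ 0) (hQ : Q ≠ 0) (hH : H ≠ 0) :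
    (Ψ / H - a) / P - (Ψ - a) / P = -(Ψ * H⁻¹ * ((H - 1) / (Q * P)) * Q) := by
  field_simp
  ring

theorem id_two (Ψ a' H C P Q : F) (hP : P ≠ 0) (hQ : Q ≠ 0) (hH : H ≠ 0) (hC : C ≠ 0) :
    (Ψ / H - a' * C⁻¹) / P - (Ψ - a') / P =
      (Ψ - a') / P * (H⁻¹ - 1) + a' * (-((H - C) / (Q * P) * H⁻¹ * C⁻¹)) * Q := by
  field_simp
  ring

theorem id_three (H C P Q : F) (hP : P ≠ 0) (hQ : Q ≠ 0) (hH : H ≠ 0) (hC : C ≠ 0) :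
    H⁻¹ - 1 = -(Q * P * ((H - C) / (Q * P)) * H⁻¹ * C⁻¹) - (C - 1) * C⁻¹ := by
  field_simp
  ring

/-! ### The two sides -/

section main

variable {O₁ O₂ : ValuationSubring F} {W Fx : Subring F} {ϖ : F}

/-- Two elements of `O` with small difference have the same reduction. -/
theorem red_eq_of_sub_nu {O : ValuationSubring F} {κ : Type*} [Field κ] (red : O →+* κ)
    (hred : ∀ y : O, red y = 0 ↔ (y : F) ∈ O.nonunits) {x y : F} (hx : x ∈ O) (hy : y ∈ O)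
    (h : x - y ∈ O.nonunits) : red ⟨x, hx⟩ = red ⟨y, hy⟩ := by
  have h0 : red (⟨x, hx⟩ - ⟨y, hy⟩) = 0 := (hred _).2 h
  rwa [map_sub, sub_eq_zero] at h0

/-- One step of the approximation on one side: if the reduction of `(Ψ - a) / ϖ ^ m` is a
constant, `Ψ` is congruent to a constant modulo `ϖ ^ (m + 1)`. -/
theorem step {O : ValuationSubring F} {κ k : Type*} [Field κ] [Field k] [Algebra k κ]
    (red : O →+* κ) (hred : ∀ y : O, red y = 0 ↔ (y : F) ∈ O.nonunits)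
    (hϖ0 : ϖ ≠ 0) (hϖW : ϖ ∈ W) (hW : ∀ a ∈ W, a ∈ O) (hWFx : ∀ a ∈ W, a ∈ Fx)
    (hϖinv : ϖ⁻¹ ∈ Fx) (hdisc : ∀ g ∈ Fx, g ∈ O.nonunits → g / ϖ ∈ O)
    (hlift : ∀ c : k, ∃ a, ∃ ha : a ∈ W, red ⟨a, hW a ha⟩ = algebraMap k κ c)
    {Ψ : F} (hΨFx : Ψ ∈ Fx) {a : F} (ha : a ∈ W) (m : ℕ) (hz : (Ψ - a) / ϖ ^ m ∈ O)
    (hc : ∃ c : k, red ⟨_, hz⟩ = algebraMap k κ c) :
    ∃ b ∈ W, (Ψ - b) / ϖ ^ (m + 1) ∈ O := by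
  obtain ⟨c, hc⟩ := hc
  obtain ⟨b, hb, hbc⟩ := hlift c
  have hsmall : (Ψ - a) / ϖ ^ m - b ∈ O.nonunits := by
    have h0 : red (⟨_, hz⟩ - ⟨b, hW b hb⟩) = 0 := by rw [map_sub, hc, hbc, sub_self]
    exact (hred _).1 h0
  have hFx : (Ψ - a) / ϖ ^ m - b ∈ Fx := by
    rw [div_eq_mul_inv, ← inv_pow]
    exact Fx.sub_mem (Fx.mul_mem (Fx.sub_mem hΨFx (hWFx a ha)) (Fx.pow_mem hϖinv m)) (hWFx b hb)
  refine ⟨a + ϖ ^ m * b, W.add_mem ha (W.mul_mem (W.pow_mem hϖW m) hb), ?_⟩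
  have e : (Ψ - (a + ϖ ^ m * b)) / ϖ ^ (m + 1) = ((Ψ - a) / ϖ ^ m - b) / ϖ := by
    rw [pow_succ]
    field_simp
    ring
  rw [e]
  exact hdisc _ hFx hsmall

/-- **Node facts at level `m`**: the two approximations glue, the two quotients lie in the node
ring, and (for `m ≤ t`) they are congruent to the quotients of `Ψ` itself. -/
theorem node_facts {R : Subring F} (hϖ0 : ϖ ≠ 0) (hϖW : ϖ ∈ W) (hϖ₁ : ϖ ∈ O₁.nonunits)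
    (hϖ₂ : ϖ ∈ O₂.nonunits) (hW₁ : ∀ a ∈ W, a ∈ O₁) (hW₂ : ∀ a ∈ W, a ∈ O₂)
    (hWdvr : ∀ a ∈ W, a ≠ 0 → ∃ (j : ℕ) (u : F), u ∈ W ∧ u⁻¹ ∈ W ∧ a = ϖ ^ j * u)
    (hWR : ∀ a ∈ W, a ∈ R)
    (hsat : ∀ g : F, g ∈ O₁ → g ∈ O₂ → ∀ m : ℕ, ϖ ^ m * g ∈ R → g ∈ R)
    (hglue : ∀ g ∈ R, g ∈ O₁.nonunits → g - 1 ∈ O₂.nonunits → False)
    {Ψ H C : F} (hΨ₁ : Ψ ∈ O₁) (t : ℕ) (hY : Ψ / H ∈ R)
    (hH₁ : (H - 1) / ϖ ^ (t + 1) ∈ O₁) (hC : C ∈ W) (hCinv : C⁻¹ ∈ W)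
    (hC1 : C - 1 ∈ O₂.nonunits) (hH₂ : (H - C) / ϖ ^ (t + 1) ∈ O₂)
    {a a' : F} (ha : a ∈ W) (ha' : a' ∈ W) {m : ℕ} (hm : m ≤ t + 1)
    (hz : (Ψ - a) / ϖ ^ m ∈ O₁) (hz' : (Ψ - a') / ϖ ^ m ∈ O₂) :
    (a - a' * C⁻¹) / ϖ ^ m ∈ W ∧ (Ψ / H - a) / ϖ ^ m ∈ R ∧ (Ψ / H - a' * C⁻¹) / ϖ ^ m ∈ R ∧
      (m ≤ t → (Ψ / H - a) / ϖ ^ m - (Ψ - a) / ϖ ^ m ∈ O₁.nonunits ∧
        (Ψ / H - a' * C⁻¹) / ϖ ^ m - (Ψ - a') / ϖ ^ m ∈ O₂.nonunits) := by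
  have hP : ϖ ^ m ≠ 0 := pow_ne_zero m hϖ0
  have hQ : ϖ ^ (t + 1 - m) ≠ 0 := pow_ne_zero _ hϖ0
  have hQP : ϖ ^ (t + 1) = ϖ ^ (t + 1 - m) * ϖ ^ m := by
    rw [← pow_add, Nat.sub_add_cancel hm]
  have hT₁ : ϖ ^ (t + 1) ∈ O₁.nonunits := nu_pow hϖ₁ (Nat.succ_ne_zero t)
  have hT₂ : ϖ ^ (t + 1) ∈ O₂.nonunits := nu_pow hϖ₂ (Nat.succ_ne_zero t)
  have hT0 : ϖ ^ (t + 1) ≠ 0 := pow_ne_zero _ hϖ0
  -- `H` is a unit on the first side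
  have hx₁ : H - 1 ∈ O₁.nonunits := by
    have e : H - 1 = ϖ ^ (t + 1) * ((H - 1) / ϖ ^ (t + 1)) := by field_simp
    rw [e]
    exact nu_mul_right hT₁ hH₁
  have hH0 : H ≠ 0 := by
    rintro rfl
    rw [zero_sub] at hx₁
    have := nu_neg hx₁
    rw [neg_neg] at this
    exact one_not_nu O₁ this
  have hHi₁ : H⁻¹ ∈ O₁ := by
    have e : H = 1 + (H - 1) := by ring
    rw [e]
    exact inv_one_add_mem hx₁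
  -- `C` and `H` are units on the second side
  have hC0 : C ≠ 0 := by
    rintro rfl
    rw [zero_sub] at hC1
    have := nu_neg hC1
    rw [neg_neg] at this
    exact one_not_nu O₂ this
  have hHi₂ : H⁻¹ ∈ O₂ := by
    have hx₂ : ϖ ^ (t + 1) * ((H - C) / ϖ ^ (t + 1)) * C⁻¹ ∈ O₂.nonunits :=
      nu_mul_right (nu_mul_right hT₂ hH₂) (hW₂ _ hCinv)
    have e : H⁻¹ = C⁻¹ * (1 + ϖ ^ (t + 1) * ((H - C) / ϖ ^ (t + 1)) * C⁻¹)⁻¹ := by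
      rw [← mul_inv]
      congr 1
      field_simp
      ring
    rw [e]
    exact mul_mem (hW₂ _ hCinv) (inv_one_add_mem hx₂)
  -- the two differences
  have hD₁ : (Ψ / H - a) / ϖ ^ m - (Ψ - a) / ϖ ^ m =
      -(Ψ * H⁻¹ * ((H - 1) / ϖ ^ (t + 1)) * ϖ ^ (t + 1 - m)) := by
    rw [hQP]
    exact id_one Ψ a H _ _ hP hQ hH0
  have hD₂ : (Ψ / H - a' * C⁻¹) / ϖ ^ m - (Ψ - a') / ϖ ^ m =
      (Ψ - a') / ϖ ^ m * (H⁻¹ - 1) +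
        a' * (-((H - C) / ϖ ^ (t + 1) * H⁻¹ * C⁻¹)) * ϖ ^ (t + 1 - m) := by
    rw [hQP]
    exact id_two Ψ a' H C _ _ hP hQ hH0 hC0
  have hHi1 : H⁻¹ - 1 ∈ O₂.nonunits := by
    have e : H⁻¹ - 1 = -(ϖ ^ (t + 1) * ((H - C) / ϖ ^ (t + 1)) * H⁻¹ * C⁻¹) - (C - 1) * C⁻¹ := by
      rw [hQP]
      exact id_three H C _ _ hP hQ hH0 hC0
    rw [e]
    exact nu_sub (nu_neg (nu_mul_right (nu_mul_right (nu_mul_right hT₂ hH₂) hHi₂)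
      (hW₂ _ hCinv))) (nu_mul_right hC1 (hW₂ _ hCinv))
  have hD₁O : (Ψ / H - a) / ϖ ^ m - (Ψ - a) / ϖ ^ m ∈ O₁ := by
    rw [hD₁]
    exact neg_mem (mul_mem (mul_mem (mul_mem hΨ₁ hHi₁) hH₁) (pow_mem (nu_mem hϖ₁) _))
  have hD₂O : (Ψ / H - a' * C⁻¹) / ϖ ^ m - (Ψ - a') / ϖ ^ m ∈ O₂ := by
    rw [hD₂]
    exact add_mem (mul_mem hz' (nu_mem hHi1))
      (mul_mem (mul_mem (hW₂ _ ha') (neg_mem (mul_mem (mul_mem hH₂ hHi₂) (hW₂ _ hCinv))))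
        (pow_mem (nu_mem hϖ₂) _))
  have hg₁ : (Ψ / H - a) / ϖ ^ m ∈ O₁ := by
    have e : (Ψ / H - a) / ϖ ^ m = ((Ψ / H - a) / ϖ ^ m - (Ψ - a) / ϖ ^ m) + (Ψ - a) / ϖ ^ m := by
      ring
    rw [e]
    exact add_mem hD₁O hz
  have hg₂' : (Ψ / H - a' * C⁻¹) / ϖ ^ m ∈ O₂ := by
    have e : (Ψ / H - a' * C⁻¹) / ϖ ^ m =
        ((Ψ / H - a' * C⁻¹) / ϖ ^ m - (Ψ - a') / ϖ ^ m) + (Ψ - a') / ϖ ^ m := by
      ring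
    rw [e]
    exact add_mem hD₂O hz'
  have haC : a' * C⁻¹ ∈ W := W.mul_mem ha' hCinv
  have hw : (a - a' * C⁻¹) / ϖ ^ m ∈ W :=
    glue_const hϖ0 hϖW hϖ₁ hϖ₂ hW₁ hW₂ hWR hWdvr hsat hglue hY ha haC m hg₁ hg₂'
  have hg₂ : (Ψ / H - a) / ϖ ^ m ∈ O₂ := by
    have e : (Ψ / H - a) / ϖ ^ m = (Ψ / H - a' * C⁻¹) / ϖ ^ m - (a - a' * C⁻¹) / ϖ ^ m := by
      field_simp
      ring
    rw [e]
    exact sub_mem hg₂' (hW₂ _ hw)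
  have hg₁' : (Ψ / H - a' * C⁻¹) / ϖ ^ m ∈ O₁ := by
    have e : (Ψ / H - a' * C⁻¹) / ϖ ^ m = (Ψ / H - a) / ϖ ^ m + (a - a' * C⁻¹) / ϖ ^ m := by
      field_simp
      ring
    rw [e]
    exact add_mem hg₁ (hW₁ _ hw)
  refine ⟨hw, ?_, ?_, fun hmt => ⟨?_, ?_⟩⟩
  · refine hsat _ hg₁ hg₂ m ?_
    have e : ϖ ^ m * ((Ψ / H - a) / ϖ ^ m) = Ψ / H - a := by field_simp
    rw [e]
    exact R.sub_mem hY (hWR _ ha)
  · refine hsat _ hg₁' hg₂' m ?_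
    have e : ϖ ^ m * ((Ψ / H - a' * C⁻¹) / ϖ ^ m) = Ψ / H - a' * C⁻¹ := by field_simp
    rw [e]
    exact R.sub_mem hY (hWR _ haC)
  · have hk : t + 1 - m ≠ 0 := by omega
    rw [hD₁]
    exact nu_neg (nu_mul_left (mul_mem (mul_mem hΨ₁ hHi₁) hH₁) (nu_pow hϖ₁ hk))
  · have hk : t + 1 - m ≠ 0 := by omega
    rw [hD₂]
    exact nu_add (nu_mul_left hz' hHi1)
      (nu_mul_left (mul_mem (hW₂ _ ha') (neg_mem (mul_mem (mul_mem hH₂ hHi₂) (hW₂ _ hCinv))))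
        (nu_pow hϖ₂ hk))

end main

/-! ### The main theorem -/

section final

variable {O₁ O₂ : ValuationSubring F} {W Fx : Subring F} {ϖ : F}
  {κ₁ κ₂ k : Type*} [Field κ₁] [Field κ₂] [Field k] [Algebra k κ₁] [Algebra k κ₂] {ι : Type*}

/-- **(CONST) with the nodes**: `Ψ` is congruent to a constant `a` on the first side and to a
constant `a'` on the second side modulo `ϖ ^ (t + 1)`, and the two constants glue at every node: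
`a ≡ a' / C s`. -/
theorem exists_const (red₁ : O₁ →+* κ₁) (red₂ : O₂ →+* κ₂)
    (hred₁ : ∀ y : O₁, red₁ y = 0 ↔ (y : F) ∈ O₁.nonunits)
    (hred₂ : ∀ y : O₂, red₂ y = 0 ↔ (y : F) ∈ O₂.nonunits)
    (hϖ0 : ϖ ≠ 0) (hϖW : ϖ ∈ W) (hϖ₁ : ϖ ∈ O₁.nonunits) (hϖ₂ : ϖ ∈ O₂.nonunits)
    (hW₁ : ∀ a ∈ W, a ∈ O₁) (hW₂ : ∀ a ∈ W, a ∈ O₂)
    (hWdvr : ∀ a ∈ W, a ≠ 0 → ∃ (j : ℕ) (u : F), u ∈ W ∧ u⁻¹ ∈ W ∧ a = ϖ ^ j * u)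
    (hWFx : ∀ a ∈ W, a ∈ Fx) (hϖinv : ϖ⁻¹ ∈ Fx)
    (hdisc₁ : ∀ g ∈ Fx, g ∈ O₁.nonunits → g / ϖ ∈ O₁)
    (hdisc₂ : ∀ g ∈ Fx, g ∈ O₂.nonunits → g / ϖ ∈ O₂)
    (hlift₁ : ∀ c : k, ∃ a, ∃ ha : a ∈ W, red₁ ⟨a, hW₁ a ha⟩ = algebraMap k κ₁ c)
    (hlift₂ : ∀ c : k, ∃ a, ∃ ha : a ∈ W, red₂ ⟨a, hW₂ a ha⟩ = algebraMap k κ₂ c)
    (Sm₁ : κ₁ → Prop) (Sm₂ : κ₂ → Prop) (Nd₁ : ι → κ₁ → Prop) (Nd₂ : ι → κ₂ → Prop)
    (hLV₁ : ∀ b : κ₁, Sm₁ b → (∀ s, Nd₁ s b) → ∃ c : k, b = algebraMap k κ₁ c)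
    (hLV₂ : ∀ b : κ₂, Sm₂ b → (∀ s, Nd₂ s b) → ∃ c : k, b = algebraMap k κ₂ c)
    (R : ι → Subring F) (hR₁ : ∀ s, ∀ g ∈ R s, g ∈ O₁) (hR₂ : ∀ s, ∀ g ∈ R s, g ∈ O₂)
    (hWR : ∀ s, ∀ a ∈ W, a ∈ R s)
    (hsat : ∀ s (g : F), g ∈ O₁ → g ∈ O₂ → ∀ m : ℕ, ϖ ^ m * g ∈ R s → g ∈ R s)
    (hglue : ∀ s, ∀ g ∈ R s, g ∈ O₁.nonunits → g - 1 ∈ O₂.nonunits → False)
    (hNd₁ : ∀ s g (hg : g ∈ R s), Nd₁ s (red₁ ⟨g, hR₁ s g hg⟩))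
    (hNd₂ : ∀ s g (hg : g ∈ R s), Nd₂ s (red₂ ⟨g, hR₂ s g hg⟩))
    {Ψ : F} (hΨFx : Ψ ∈ Fx) (hΨ₁ : Ψ ∈ O₁) (hΨ₂ : Ψ ∈ O₂) (t : ℕ)
    (hSm₁ : ∀ m ≤ t, ∀ a ∈ W, ∀ h : (Ψ - a) / ϖ ^ m ∈ O₁, Sm₁ (red₁ ⟨(Ψ - a) / ϖ ^ m, h⟩))
    (hSm₂ : ∀ m ≤ t, ∀ a ∈ W, ∀ h : (Ψ - a) / ϖ ^ m ∈ O₂, Sm₂ (red₂ ⟨(Ψ - a) / ϖ ^ m, h⟩))
    (H C : ι → F) (hY : ∀ s, Ψ / H s ∈ R s)
    (hH₁ : ∀ s, (H s - 1) / ϖ ^ (t + 1) ∈ O₁)
    (hC : ∀ s, C s ∈ W ∧ (C s)⁻¹ ∈ W ∧ C s - 1 ∈ O₂.nonunits)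
    (hH₂ : ∀ s, (H s - C s) / ϖ ^ (t + 1) ∈ O₂) :
    ∃ a ∈ W, ∃ a' ∈ W, (Ψ - a) / ϖ ^ (t + 1) ∈ O₁ ∧ (Ψ - a') / ϖ ^ (t + 1) ∈ O₂ ∧
      ∀ s, (a - a' * (C s)⁻¹) / ϖ ^ (t + 1) ∈ W := by
  have hnode : ∀ s {a a' : F} (_ : a ∈ W) (_ : a' ∈ W) {m : ℕ} (_ : m ≤ t + 1)
      (_ : (Ψ - a) / ϖ ^ m ∈ O₁) (_ : (Ψ - a') / ϖ ^ m ∈ O₂),
      (a - a' * (C s)⁻¹) / ϖ ^ m ∈ W ∧ (Ψ / H s - a) / ϖ ^ m ∈ R s ∧
        (Ψ / H s - a' * (C s)⁻¹) / ϖ ^ m ∈ R s ∧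
        (m ≤ t → (Ψ / H s - a) / ϖ ^ m - (Ψ - a) / ϖ ^ m ∈ O₁.nonunits ∧
          (Ψ / H s - a' * (C s)⁻¹) / ϖ ^ m - (Ψ - a') / ϖ ^ m ∈ O₂.nonunits) :=
    fun s _ _ ha ha' _ hm hz hz' =>
      node_facts hϖ0 hϖW hϖ₁ hϖ₂ hW₁ hW₂ hWdvr (hWR s) (hsat s) (hglue s) hΨ₁ t (hY s) (hH₁ s)
        (hC s).1 (hC s).2.1 (hC s).2.2 (hH₂ s) ha ha' hm hz hz'
  have key : ∀ m, m ≤ t + 1 →
      ∃ a ∈ W, ∃ a' ∈ W, (Ψ - a) / ϖ ^ m ∈ O₁ ∧ (Ψ - a') / ϖ ^ m ∈ O₂ := by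
    intro m
    induction m with
    | zero =>
      intro _
      refine ⟨0, W.zero_mem, 0, W.zero_mem, ?_, ?_⟩
      · rw [sub_zero, pow_zero, div_one]
        exact hΨ₁
      · rw [sub_zero, pow_zero, div_one]
        exact hΨ₂
    | succ m ih =>
      intro hm
      have hmt : m ≤ t := by omega
      obtain ⟨a, ha, a', ha', hz, hz'⟩ := ih (by omega)
      have h1 : ∃ c : k, red₁ ⟨_, hz⟩ = algebraMap k κ₁ c := by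
        refine hLV₁ _ (hSm₁ m hmt a ha hz) fun s => ?_
        obtain ⟨-, hg, -, hsm⟩ := hnode s ha ha' (by omega : m ≤ t + 1) hz hz'
        have h := hNd₁ s _ hg
        rwa [red_eq_of_sub_nu red₁ hred₁ (hR₁ s _ hg) hz (hsm hmt).1] at h
      have h2 : ∃ c : k, red₂ ⟨_, hz'⟩ = algebraMap k κ₂ c := by
        refine hLV₂ _ (hSm₂ m hmt a' ha' hz') fun s => ?_
        obtain ⟨-, -, hg, hsm⟩ := hnode s ha ha' (by omega : m ≤ t + 1) hz hz'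
        have h := hNd₂ s _ hg
        rwa [red_eq_of_sub_nu red₂ hred₂ (hR₂ s _ hg) hz' (hsm hmt).2] at h
      obtain ⟨b, hb, hbz⟩ := step red₁ hred₁ hϖ0 hϖW hW₁ hWFx hϖinv hdisc₁ hlift₁ hΨFx ha m hz h1
      obtain ⟨b', hb', hbz'⟩ :=
        step red₂ hred₂ hϖ0 hϖW hW₂ hWFx hϖinv hdisc₂ hlift₂ hΨFx ha' m hz' h2
      exact ⟨b, hb, b', hb', hbz, hbz'⟩
  obtain ⟨a, ha, a', ha', hz, hz'⟩ := key (t + 1) le_rfl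
  exact ⟨a, ha, a', ha', hz, hz', fun s => (hnode s ha ha' le_rfl hz hz').1⟩

/-- If moreover `Ψ` is a unit on the first side, the constants `C s` of any two nodes are
congruent modulo `ϖ ^ (t + 1)`. -/
theorem const_indep (hϖ0 : ϖ ≠ 0) (hϖ₁ : ϖ ∈ O₁.nonunits)
    (hW₁ : ∀ a ∈ W, a ∈ O₁)
    (hWdvr : ∀ a ∈ W, a ≠ 0 → ∃ (j : ℕ) (u : F), u ∈ W ∧ u⁻¹ ∈ W ∧ a = ϖ ^ j * u)
    {Ψ : F} (hΨu : Ψ ∉ O₁.nonunits) (t : ℕ) (C : ι → F)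
    (hC : ∀ s, C s ∈ W ∧ (C s)⁻¹ ∈ W)
    {a a' : F} (ha' : a' ∈ W) (hz : (Ψ - a) / ϖ ^ (t + 1) ∈ O₁)
    (hg : ∀ s, (a - a' * (C s)⁻¹) / ϖ ^ (t + 1) ∈ W) (s s' : ι) :
    (C s - C s') / ϖ ^ (t + 1) ∈ W := by
  have hT0 : ϖ ^ (t + 1) ≠ 0 := pow_ne_zero _ hϖ0
  have hT₁ : ϖ ^ (t + 1) ∈ O₁.nonunits := nu_pow hϖ₁ (Nat.succ_ne_zero t)
  -- `a` is not small
  have ha1 : a ∉ O₁.nonunits := by
    intro h
    apply hΨu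
    have e : Ψ = ϖ ^ (t + 1) * ((Ψ - a) / ϖ ^ (t + 1)) + a := by field_simp; ring
    rw [e]
    exact nu_add (nu_mul_right hT₁ hz) h
  -- `a'` is not small
  have ha'1 : a' ∉ O₁.nonunits := by
    intro h
    apply ha1
    have e : a = ϖ ^ (t + 1) * ((a - a' * (C s)⁻¹) / ϖ ^ (t + 1)) + a' * (C s)⁻¹ := by
      field_simp
      ring
    rw [e]
    exact nu_add (nu_mul_right hT₁ (hW₁ _ (hg s))) (nu_mul_right h (hW₁ _ (hC s).2))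
  have ha'0 : a' ≠ 0 := by
    rintro rfl
    exact ha'1 (by
      rw [O₁.mem_nonunits_iff, map_zero]
      exact zero_lt_one)
  obtain ⟨j, u, hu, hui, hau⟩ := hWdvr a' ha' ha'0
  have hj : j = 0 := by
    by_contra hj
    apply ha'1
    rw [hau]
    exact nu_mul_right (nu_pow hϖ₁ hj) (hW₁ _ hu)
  have ha'i : a'⁻¹ ∈ W := by
    rw [hau, hj, pow_zero, one_mul]
    exact hui
  have hCs0 : C s ≠ 0 := by
    intro h0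
    apply ha1
    have e : a = ϖ ^ (t + 1) * ((a - a' * (C s)⁻¹) / ϖ ^ (t + 1)) := by
      rw [h0, inv_zero, mul_zero, sub_zero]
      field_simp
    rw [e]
    exact nu_mul_right hT₁ (hW₁ _ (hg s))
  have hCs'0 : C s' ≠ 0 := by
    intro h0
    apply ha1
    have e : a = ϖ ^ (t + 1) * ((a - a' * (C s')⁻¹) / ϖ ^ (t + 1)) := by
      rw [h0, inv_zero, mul_zero, sub_zero]
      field_simp
    rw [e]
    exact nu_mul_right hT₁ (hW₁ _ (hg s'))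
  have e : (C s - C s') / ϖ ^ (t + 1) =
      ((a - a' * (C s)⁻¹) / ϖ ^ (t + 1) - (a - a' * (C s')⁻¹) / ϖ ^ (t + 1)) *
        (C s * C s' * a'⁻¹) := by
    field_simp
    ring
  rw [e]
  exact W.mul_mem (W.sub_mem (hg s) (hg s'))
    (W.mul_mem (W.mul_mem (hC s).1 (hC s').1) ha'i)

/-- **(CONST) with the nodes, final form**: under the hypotheses of `exists_const`, if `Ψ` is
a unit on the first side, the constants `C s` of any two nodes are congruent modulo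
`ϖ ^ (t + 1)`. -/
theorem const_indep_of (red₁ : O₁ →+* κ₁) (red₂ : O₂ →+* κ₂)
    (hred₁ : ∀ y : O₁, red₁ y = 0 ↔ (y : F) ∈ O₁.nonunits)
    (hred₂ : ∀ y : O₂, red₂ y = 0 ↔ (y : F) ∈ O₂.nonunits)
    (hϖ0 : ϖ ≠ 0) (hϖW : ϖ ∈ W) (hϖ₁ : ϖ ∈ O₁.nonunits) (hϖ₂ : ϖ ∈ O₂.nonunits)
    (hW₁ : ∀ a ∈ W, a ∈ O₁) (hW₂ : ∀ a ∈ W, a ∈ O₂)
    (hWdvr : ∀ a ∈ W, a ≠ 0 → ∃ (j : ℕ) (u : F), u ∈ W ∧ u⁻¹ ∈ W ∧ a = ϖ ^ j * u)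
    (hWFx : ∀ a ∈ W, a ∈ Fx) (hϖinv : ϖ⁻¹ ∈ Fx)
    (hdisc₁ : ∀ g ∈ Fx, g ∈ O₁.nonunits → g / ϖ ∈ O₁)
    (hdisc₂ : ∀ g ∈ Fx, g ∈ O₂.nonunits → g / ϖ ∈ O₂)
    (hlift₁ : ∀ c : k, ∃ a, ∃ ha : a ∈ W, red₁ ⟨a, hW₁ a ha⟩ = algebraMap k κ₁ c)
    (hlift₂ : ∀ c : k, ∃ a, ∃ ha : a ∈ W, red₂ ⟨a, hW₂ a ha⟩ = algebraMap k κ₂ c)
    (Sm₁ : κ₁ → Prop) (Sm₂ : κ₂ → Prop) (Nd₁ : ι → κ₁ → Prop) (Nd₂ : ι → κ₂ → Prop)
    (hLV₁ : ∀ b : κ₁, Sm₁ b → (∀ s, Nd₁ s b) → ∃ c : k, b = algebraMap k κ₁ c)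
    (hLV₂ : ∀ b : κ₂, Sm₂ b → (∀ s, Nd₂ s b) → ∃ c : k, b = algebraMap k κ₂ c)
    (R : ι → Subring F) (hR₁ : ∀ s, ∀ g ∈ R s, g ∈ O₁) (hR₂ : ∀ s, ∀ g ∈ R s, g ∈ O₂)
    (hWR : ∀ s, ∀ a ∈ W, a ∈ R s)
    (hsat : ∀ s (g : F), g ∈ O₁ → g ∈ O₂ → ∀ m : ℕ, ϖ ^ m * g ∈ R s → g ∈ R s)
    (hglue : ∀ s, ∀ g ∈ R s, g ∈ O₁.nonunits → g - 1 ∈ O₂.nonunits → False)
    (hNd₁ : ∀ s g (hg : g ∈ R s), Nd₁ s (red₁ ⟨g, hR₁ s g hg⟩))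
    (hNd₂ : ∀ s g (hg : g ∈ R s), Nd₂ s (red₂ ⟨g, hR₂ s g hg⟩))
    {Ψ : F} (hΨFx : Ψ ∈ Fx) (hΨ₁ : Ψ ∈ O₁) (hΨu : Ψ ∉ O₁.nonunits) (hΨ₂ : Ψ ∈ O₂) (t : ℕ)
    (hSm₁ : ∀ m ≤ t, ∀ a ∈ W, ∀ h : (Ψ - a) / ϖ ^ m ∈ O₁, Sm₁ (red₁ ⟨(Ψ - a) / ϖ ^ m, h⟩))
    (hSm₂ : ∀ m ≤ t, ∀ a ∈ W, ∀ h : (Ψ - a) / ϖ ^ m ∈ O₂, Sm₂ (red₂ ⟨(Ψ - a) / ϖ ^ m, h⟩))
    (H C : ι → F) (hY : ∀ s, Ψ / H s ∈ R s)
    (hH₁ : ∀ s, (H s - 1) / ϖ ^ (t + 1) ∈ O₁)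
    (hC : ∀ s, C s ∈ W ∧ (C s)⁻¹ ∈ W ∧ C s - 1 ∈ O₂.nonunits)
    (hH₂ : ∀ s, (H s - C s) / ϖ ^ (t + 1) ∈ O₂) (s s' : ι) :
    (C s - C s') / ϖ ^ (t + 1) ∈ W := by
  obtain ⟨a, -, a', ha', hz, -, hg⟩ := exists_const red₁ red₂ hred₁ hred₂ hϖ0 hϖW hϖ₁ hϖ₂ hW₁ hW₂
    hWdvr hWFx hϖinv hdisc₁ hdisc₂ hlift₁ hlift₂ Sm₁ Sm₂ Nd₁ Nd₂ hLV₁ hLV₂ R hR₁ hR₂ hWR hsat
    hglue hNd₁ hNd₂ hΨFx hΨ₁ hΨ₂ t hSm₁ hSm₂ H C hY hH₁ hC hH₂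
  exact const_indep hϖ0 hϖ₁ hW₁ hWdvr hΨu t C (fun s => ⟨(hC s).1, (hC s).2.1⟩) ha' hz hg s s'

/-- For `C s = 1 + n s * η` with `η = ϖ ^ t * u`, `u` a unit of `W`: the integers `n s` are
congruent modulo every integer `p` which detects divisibility by `ϖ` in `W`. -/
theorem dvd_sub_of_const (hϖ0 : ϖ ≠ 0) (t : ℕ) (C : ι → F) (n : ι → ℤ) {η u : F} (hu0 : u ≠ 0)
    (hui : u⁻¹ ∈ W) (hη : η = ϖ ^ t * u) (hCn : ∀ s, C s = 1 + (n s : F) * η) (p : ℤ)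
    (hp : ∀ z : ℤ, (z : F) / ϖ ∈ W → p ∣ z) (s s' : ι)
    (h : (C s - C s') / ϖ ^ (t + 1) ∈ W) : p ∣ n s - n s' := by
  apply hp
  have e : (((n s - n s' : ℤ) : F)) / ϖ = (C s - C s') / ϖ ^ (t + 1) * u⁻¹ := by
    rw [hCn s, hCn s', hη, pow_succ]
    push_cast
    field_simp
    ring
  rw [e]
  exact W.mul_mem h hui

end final

end Fermat.Agent.TR.PL.GlueConst
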