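import Mathlib
import Fermat.Agent.TR.PL.GlueConst
import Fermat.Agent.TR.Node.SigmaGluePow

/-!
# TR (PL), the `u`-route: (CONST) for `u = σ f / f` itself, at depth `q * t + 1`

Setting of `TR/PL/GlueConst.lean` (two valuation subrings `O₁ O₂` of a field `F`, reductions,
constants `W`, discrete functions `Fx`, node rings `R s`).  Let `η = ϖ ^ t * w` (`w` a unit) and
let `q` be the residue characteristic, with `q * ϖ ^ t ∈ ϖ ^ (q * t + 1) O_j`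
(`e + t ≥ q t + 1`: true for `e = q (q - 1)`, `t ≤ q - 1`).

Per node `s` the data are those of the design with a `q`-th root `Ψ` of `u`: `H s` (`= σ g / g`
for the local generator `g` of the divisor, normalised as a unit of `O₁`), `C s ∈ W`
(`= σ b / b` for the constant `b` with `g / b` a unit of `O₂`), `γ s : ℤ` (the `ϖ`-order of `b`),
with the congruences at depth `t + 1`

  `H s ≡ 1  mod ϖ ^ (t + 1) O₁`,  `H s ≡ C s  mod ϖ ^ (t + 1) O₂`,  `C s ≡ 1 + γ s * η`.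

The function is `u` itself (no root is extracted): `u / H s ^ q ∈ R s`
(`= σ F / F` for `F = f / g ^ q`, which has neither zero nor pole through the node), and the
smooth regularity of the successive quotients of `u` is needed up to level `q * t`.

* `dvd_gamma_sub` : **`q ∣ γ s - γ s'`** for any two nodes.

(`pow_div_mem` is the valuation-ring form of `SigmaGluePow.pow_congr`.)
-/

set_option autoImplicit false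

namespace Fermat.Agent.TR.PL.ConstU

open Fermat.Agent.TR.Node.SigmaGlue Fermat.Agent.TR.Node.SigmaGluePow Fermat.Agent.TR.PL.GlueConst

section Basic

variable {F : Type*} [Field F] {O : ValuationSubring F} {ϖ : F}

/-- `(a - b) / ϖ ^ m ∈ O` is the congruence `Cg O ϖ m a b`. -/
theorem cg_of_div_mem (hϖ0 : ϖ ≠ 0) {m : ℕ} {a b : F} (h : (a - b) / ϖ ^ m ∈ O) :
    Cg O ϖ m a b := by
  refine ⟨_, h, ?_⟩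
  field_simp

/-- The congruence `Cg O ϖ m a b` is `(a - b) / ϖ ^ m ∈ O`. -/
theorem div_mem_of_cg (hϖ0 : ϖ ≠ 0) {m : ℕ} {a b : F} (h : Cg O ϖ m a b) :
    (a - b) / ϖ ^ m ∈ O := by
  obtain ⟨r, hr, e⟩ := h
  rw [e, mul_div_cancel_left₀ _ (pow_ne_zero _ hϖ0)]
  exact hr

/-- **`q`-th powers gain depth** (valuation-ring form): `(a - b) / ϖ ^ (t + 1) ∈ O` implies
`(a ^ q - b ^ q) / ϖ ^ (q * t + 1) ∈ O`, provided `q ϖ ^ t ∈ ϖ ^ (q t + 1) O`. -/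
theorem pow_div_mem {q t : ℕ} (hq : q.Prime) (hϖ0 : ϖ ≠ 0) (hϖ : ϖ ∈ O)
    (hqϖ : ∃ r ∈ O, (q : F) * ϖ ^ t = ϖ ^ (q * t + 1) * r) {a b : F} (hb : b ∈ O)
    (h : (a - b) / ϖ ^ (t + 1) ∈ O) : (a ^ q - b ^ q) / ϖ ^ (q * t + 1) ∈ O :=
  div_mem_of_cg hϖ0 (pow_congr hq hϖ hqϖ hb (cg_of_div_mem hϖ0 h))

end Basic

section Main

variable {F : Type*} [Field F] {O₁ O₂ : ValuationSubring F} {W Fx : Subring F} {ϖ : F}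
  {κ₁ κ₂ k : Type*} [Field κ₁] [Field κ₂] [Field k] [Algebra k κ₁] [Algebra k κ₂] {ι : Type*}

/-- **(CONST) on the `u`-route: the node constants `γ s` are congruent modulo `q`.**
Hypotheses = those of `GlueConst.const_indep_of` for `Ψ := u` at depth `q * t + 1`, with
`H s ^ q` in place of `H s`; the per-node data `H s`, `C s`, `γ s` satisfy their congruences at
depth `t + 1` only. -/
theorem dvd_gamma_sub (red₁ : O₁ →+* κ₁) (red₂ : O₂ →+* κ₂)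
    (hred₁ : ∀ y : O₁, red₁ y = 0 ↔ (y : F) ∈ O₁.nonunits)
    (hred₂ : ∀ y : O₂, red₂ y = 0 ↔ (y : F) ∈ O₂.nonunits)
    (hϖ0 : ϖ ≠ 0) (hϖW : ϖ ∈ W) (hϖ₁ : ϖ ∈ O₁.nonunits) (hϖ₂ : ϖ ∈ O₂.nonunits)
    (hW₁ : ∀ a ∈ W, a ∈ O₁) (hW₂ : ∀ a ∈ W, a ∈ O₂)
    (hWdvr : ∀ a ∈ W, a ≠ 0 → ∃ (j : ℕ) (u : F), u ∈ W ∧ u⁻¹ ∈ W ∧ a = ϖ ^ j * u)
    (hWFx : ∀ a ∈ W, a ∈ Fx) (hϖinv : ϖ⁻¹ ∈ Fx)
    (hdisc₁ : ∀ g ∈ Fx, g ∈ O₁.nonunits → g / ϖ ∈ O₁)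
    (hdisc₂ : ∀ g ∈ Fx, g ∈ O₂.nonunits → g / ϖ ∈ O₂)
    (hlift₁ : ∀ c : k, ∃ a, ∃ ha : a ∈ W, red₁ ⟨a, hW₁ a ha⟩ = algebraMap k κ₁ c)
    (hlift₂ : ∀ c : k, ∃ a, ∃ ha : a ∈ W, red₂ ⟨a, hW₂ a ha⟩ = algebraMap k κ₂ c)
    (Sm₁ : κ₁ → Prop) (Sm₂ : κ₂ → Prop) (Nd₁ : ι → κ₁ → Prop) (Nd₂ : ι → κ₂ → Prop)
    (hLV₁ : ∀ b : κ₁, Sm₁ b → (∀ s, Nd₁ s b) → ∃ c : k, b = algebraMap k κ₁ c)
    (hLV₂ : ∀ b : κ₂, Sm₂ b → (∀ s, Nd₂ s b) → ∃ c : k, b = algebraMap k κ₂ c)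
    (R : ι → Subring F) (hR₁ : ∀ s, ∀ g ∈ R s, g ∈ O₁) (hR₂ : ∀ s, ∀ g ∈ R s, g ∈ O₂)
    (hWR : ∀ s, ∀ a ∈ W, a ∈ R s)
    (hsat : ∀ s (g : F), g ∈ O₁ → g ∈ O₂ → ∀ m : ℕ, ϖ ^ m * g ∈ R s → g ∈ R s)
    (hglue : ∀ s, ∀ g ∈ R s, g ∈ O₁.nonunits → g - 1 ∈ O₂.nonunits → False)
    (hNd₁ : ∀ s g (hg : g ∈ R s), Nd₁ s (red₁ ⟨g, hR₁ s g hg⟩))
    (hNd₂ : ∀ s g (hg : g ∈ R s), Nd₂ s (red₂ ⟨g, hR₂ s g hg⟩))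
    {q t : ℕ} (hq : q.Prime) (hqO : (q : F) ∈ O₁.nonunits)
    (hqϖ₁ : ∃ r ∈ O₁, (q : F) * ϖ ^ t = ϖ ^ (q * t + 1) * r)
    (hqϖ₂ : ∃ r ∈ O₂, (q : F) * ϖ ^ t = ϖ ^ (q * t + 1) * r)
    {η : F} (hη : ∃ w, w ∈ O₁ ∧ w ∉ O₁.nonunits ∧ η = ϖ ^ t * w)
    {u : F} (huFx : u ∈ Fx) (hu₁ : u ∈ O₁) (huu : u ∉ O₁.nonunits) (hu₂ : u ∈ O₂)
    (hSm₁ : ∀ m ≤ q * t, ∀ a ∈ W, ∀ h : (u - a) / ϖ ^ m ∈ O₁,
      Sm₁ (red₁ ⟨(u - a) / ϖ ^ m, h⟩))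
    (hSm₂ : ∀ m ≤ q * t, ∀ a ∈ W, ∀ h : (u - a) / ϖ ^ m ∈ O₂,
      Sm₂ (red₂ ⟨(u - a) / ϖ ^ m, h⟩))
    (H C : ι → F) (γ : ι → ℤ) (hY : ∀ s, u / H s ^ q ∈ R s)
    (hH₁ : ∀ s, (H s - 1) / ϖ ^ (t + 1) ∈ O₁)
    (hC : ∀ s, C s ∈ W ∧ (C s)⁻¹ ∈ W ∧ C s - 1 ∈ O₂.nonunits)
    (hH₂ : ∀ s, (H s - C s) / ϖ ^ (t + 1) ∈ O₂)
    (hCγ : ∀ s, (C s - (1 + (γ s : F) * η)) / ϖ ^ (t + 1) ∈ O₁) (s s' : ι) :
    (q : ℤ) ∣ γ s - γ s' := by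
  have hϖ₁' : ϖ ∈ O₁ := nu_mem hϖ₁
  have hϖ₂' : ϖ ∈ O₂ := nu_mem hϖ₂
  -- the data at depth `q * t + 1`
  have hH₁' : ∀ s, (H s ^ q - 1) / ϖ ^ (q * t + 1) ∈ O₁ := by
    intro s
    have h := pow_div_mem hq hϖ0 hϖ₁' hqϖ₁ O₁.one_mem (hH₁ s)
    rwa [one_pow] at h
  have hC' : ∀ s, C s ^ q ∈ W ∧ (C s ^ q)⁻¹ ∈ W ∧ C s ^ q - 1 ∈ O₂.nonunits := by
    intro s
    obtain ⟨h1, h2, h3⟩ := hC s
    refine ⟨pow_mem h1 q, by rw [← inv_pow]; exact pow_mem h2 q, ?_⟩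
    -- `C ^ q - 1 = (C - 1) * (geometric sum)`
    have hCO : C s ∈ O₂ := hW₂ _ h1
    have e : C s ^ q - 1 = (C s - 1) * ∑ i ∈ Finset.range q, C s ^ i := by
      rw [mul_comm]
      exact (geom_sum_mul (C s) q).symm
    rw [e]
    exact nu_mul_right h3 (sum_mem fun i _ => pow_mem hCO i)
  have hH₂' : ∀ s, (H s ^ q - C s ^ q) / ϖ ^ (q * t + 1) ∈ O₂ := fun s =>
    pow_div_mem hq hϖ0 hϖ₂' hqϖ₂ (hW₂ _ (hC s).1) (hH₂ s)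
  -- (CONST) with the nodes, for `u`
  have key : (C s ^ q - C s' ^ q) / ϖ ^ (q * t + 1) ∈ W :=
    const_indep_of red₁ red₂ hred₁ hred₂ hϖ0 hϖW hϖ₁ hϖ₂ hW₁ hW₂ hWdvr hWFx hϖinv hdisc₁ hdisc₂
      hlift₁ hlift₂ Sm₁ Sm₂ Nd₁ Nd₂ hLV₁ hLV₂ R hR₁ hR₂ hWR hsat hglue hNd₁ hNd₂ huFx hu₁ huu hu₂
      (q * t) hSm₁ hSm₂ (fun s => H s ^ q) (fun s => C s ^ q) hY hH₁' hC' hH₂' s s'
  -- `C s ^ q ≡ 1 + γ s * η ^ q`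
  obtain ⟨w, hw, hwn, hηw⟩ := hη
  have hηt : ∃ r ∈ O₁, η = ϖ ^ t * r := ⟨w, hw, hηw⟩
  have hηO : η ∈ O₁ := by rw [hηw]; exact O₁.mul_mem _ _ (pow_mem hϖ₁' _) hw
  have hCq : ∀ s, Cg O₁ ϖ (q * t + 1) (C s ^ q) (1 + (γ s : F) * η ^ q) := by
    intro s
    have h1 : (1 + (γ s : F) * η) ∈ O₁ :=
      O₁.add_mem _ _ O₁.one_mem (O₁.mul_mem _ _ (intCast_mem O₁ _) hηO)
    exact (pow_congr hq hϖ₁' hqϖ₁ h1 (cg_of_div_mem hϖ0 (hCγ s))).trans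
      (one_add_int_mul_pow hq hϖ₁' hηt hqϖ₁ (γ s))
  have h2 : Cg O₁ ϖ (q * t + 1) (1 + (γ s : F) * η ^ q) (1 + (γ s' : F) * η ^ q) :=
    ((hCq s).symm.trans (cg_of_div_mem hϖ0 (hW₁ _ key))).trans (hCq s')
  obtain ⟨r, hr, e⟩ := h2
  -- `(γ s - γ s') * w ^ q = ϖ * r`
  have e2 : ((γ s - γ s' : ℤ) : F) * w ^ q = ϖ * r := by
    have hpow : ϖ ^ (q * t) ≠ 0 := pow_ne_zero _ hϖ0
    apply mul_left_cancel₀ hpow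
    have e3 : ϖ ^ (q * t) * (((γ s - γ s' : ℤ) : F) * w ^ q) =
        1 + (γ s : F) * (ϖ ^ t * w) ^ q - (1 + (γ s' : F) * (ϖ ^ t * w) ^ q) := by
      rw [mul_pow, ← pow_mul, mul_comm t q]
      push_cast
      ring
    rw [e3, ← hηw, e, pow_succ]
    ring
  by_contra hnd
  have h3 : ((γ s - γ s' : ℤ) : F) ∉ O₁.nonunits := int_not_nonunit hq hqO hnd
  have h4 : ((γ s - γ s' : ℤ) : F) * w ^ q ∉ O₁.nonunits :=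
    mul_not_nonunit h3 (pow_not_nonunit hwn q)
  exact h4 (by rw [e2]; exact nu_mul_right hϖ₁ hr)

end Main

end Fermat.Agent.TR.PL.ConstU
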