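/-
TR (PL): `GlueConst.const_indep_of` in the lattice-level nodal setting of
`TR/Node/NodeRingAbs.lean` — the node hypotheses (saturation, gluing, regularity at the nodes,
Liouville) are discharged from the node rings `nodeRing red ⊤ E e₁ e₂ i` over the big field.

Setting: the abstract setting of `NodeRingAbs` (`L ⊆ F`, `A`, `O`, `red : O →+* F₁ × F₂`, chart
divisor `E`, nodes `e₁ i`, `e₂ i`), two valuation subrings `O₁`, `O₂` of `F` with
`O = O₁ ⊓ O₂` and `red = (red₁, red₂)`, a subfield `K` of `L` (the ramified field `K''`) with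
uniformiser `w` and full residue field, and a subring `Fx` of `F` (the `K''`-rational functions)
on which both valuations are discrete with uniformiser `w`.

* `const_indep_node` : for `Ψ ∈ Fx`, a unit of `O₁`, lying in `O₂`, which at every node `i` is
  `H i` times an element of the node ring with `H i ≡ 1` on the first side and `H i ≡ c i` on the
  second side modulo `w ^ (t + 1)`, and whose successive quotients `(Ψ - a) / w ^ m` (`m ≤ t`)
  have reductions regular away from the nodes: `c i ≡ c j` modulo `w ^ (t + 1)` for any two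
  nodes.
-/
import Mathlib
import Fermat.Agent.TR.Node.NodeRingAbs
import Fermat.Agent.TR.PL.GlueConst

set_option autoImplicit false

noncomputable section

namespace Fermat.Agent.TR.PL.GlueNode

open AlgebraicCurve WithZero Fermat.Agent.Lib.FF Fermat.Agent.BAD.NodalRiemann
  Fermat.Agent.Lib.Red.Deform Fermat.Agent.TR.Node.NodalLocal Fermat.Agent.TR.Node.NodeRingAbs
  Fermat.Agent.TR.PL.GlueConst

variable {L F : Type*} [Field L] [Field F] [Algebra L F] {A : ValuationSubring L} {O : Subring F}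
  {k F₁ F₂ : Type*} [Field k] [Field F₁] [Field F₂] [Algebra k F₁] [Algebra k F₂]
  {ι : Type*}

/-- A function on a component which is regular at every place is a constant. -/
theorem const_of_regular {x₁ : F₁} (h₁ : IsFF1 k F₁ x₁) (y : F₁)
    (hy : ∀ Q : Place k F₁, Q.adicValuation y ≤ 1) : ∃ c : k, y = algebraMap k F₁ c := by
  by_cases hy0 : y = 0
  · exact ⟨0, by rw [hy0, map_zero]⟩
  · refine h₁.const_of_ord_nonneg y (fun Q => ?_)
    rcases (Q.adicValuation_le_one_iff).1 (hy Q) with h | h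
    · exact absurd h hy0
    · exact h

/-- The subring of `F` of the integral constants of the subfield `K` of `L`. -/
def constRing (A : ValuationSubring L) (K : Subfield L) : Subring F :=
  (A.toSubring ⊓ K.toSubring).map (algebraMap L F)

theorem mem_constRing {K : Subfield L} {x : F} :
    x ∈ (constRing A K : Subring F) ↔ ∃ a : L, a ∈ A ∧ a ∈ K ∧ algebraMap L F a = x := by
  unfold constRing
  rw [Subring.mem_map]
  constructor
  · rintro ⟨a, ha, rfl⟩
    rw [Subring.mem_inf] at ha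
    exact ⟨a, ha.1, ha.2, rfl⟩
  · rintro ⟨a, haA, haK, rfl⟩
    exact ⟨a, Subring.mem_inf.2 ⟨haA, haK⟩, rfl⟩

theorem algebraMap_mem_constRing {K : Subfield L} {a : L} (haA : a ∈ A) (haK : a ∈ K) :
    algebraMap L F a ∈ (constRing A K : Subring F) :=
  mem_constRing.2 ⟨a, haA, haK, rfl⟩

section main

variable (hOA : ∀ x : L, algebraMap L F x ∈ O ↔ x ∈ A)
  (hval : ∀ y : F, y ≠ 0 → ∃ c : L, c ≠ 0 ∧ algebraMap L F c * y ∈ O ∧
    ¬ Small A O (algebraMap L F c * y))
  (red : O →+* F₁ × F₂) (π : A →+* k)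
  (hπker : ∀ a : A, π a = 0 ↔ A.valuation (a : L) < 1)
  (hconst : ∀ a : A, red ⟨algebraMap L F (a : L), (hOA _).2 a.2⟩ =
    algebraMap k (F₁ × F₂) (π a))
  (hker : ∀ y : O, red y = 0 ↔ Small A O (y : F))
  (E : Divisor L F) (e₁ : ι → Place k F₁) (e₂ : ι → Place k F₂)
  (hE : 0 ≤ E) {D₁ : Divisor k F₁} {D₂ : Divisor k F₂}
  (hS : ∃ N₀ : ℕ, ∀ N, N₀ ≤ N → ∀ t : F₁ × F₂,
    (∃ y : O, (y : F) ∈ riemannRochSpace (N • E) ∧ red y = t) ↔
      t ∈ gluedSpace e₁ e₂ (fun _ => (1 : k)) (N • D₁) (N • D₂))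
  (O₁ O₂ : ValuationSubring F) (hO₁ : ∀ x ∈ O, x ∈ O₁) (hO₂ : ∀ x ∈ O, x ∈ O₂)
  (hO : ∀ x, x ∈ O₁ → x ∈ O₂ → x ∈ O)
  (red₁ : O₁ →+* F₁) (red₂ : O₂ →+* F₂)
  (hred₁ : ∀ y : O₁, red₁ y = 0 ↔ (y : F) ∈ O₁.nonunits)
  (hred₂ : ∀ y : O₂, red₂ y = 0 ↔ (y : F) ∈ O₂.nonunits)
  (hfst : ∀ y : O, (red y).1 = red₁ ⟨y, hO₁ y y.2⟩)
  (hsnd : ∀ y : O, (red y).2 = red₂ ⟨y, hO₂ y y.2⟩)

include hconst hfst in
/-- The first reduction of an integral constant. -/
theorem red₁_algebraMap {a : L} (ha : a ∈ A) (h : algebraMap L F a ∈ O₁) :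
    red₁ ⟨algebraMap L F a, h⟩ = algebraMap k F₁ (π ⟨a, ha⟩) := by
  have h1 := hfst ⟨algebraMap L F a, (hOA a).2 ha⟩
  have h2 := hconst ⟨a, ha⟩
  rw [h2] at h1
  exact h1.symm

include hconst hsnd in
/-- The second reduction of an integral constant. -/
theorem red₂_algebraMap {a : L} (ha : a ∈ A) (h : algebraMap L F a ∈ O₂) :
    red₂ ⟨algebraMap L F a, h⟩ = algebraMap k F₂ (π ⟨a, ha⟩) := by
  have h1 := hsnd ⟨algebraMap L F a, (hOA a).2 ha⟩
  have h2 := hconst ⟨a, ha⟩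
  rw [h2] at h1
  exact h1.symm

include hπker hconst hfst hred₁ in
theorem algebraMap_mem_nonunits₁ {a : L} (ha : A.valuation a < 1) :
    algebraMap L F a ∈ O₁.nonunits := by
  have haA : a ∈ A := (A.valuation_le_one_iff a).1 ha.le
  have h : algebraMap L F a ∈ O₁ := hO₁ _ ((hOA a).2 haA)
  have h1 := red₁_algebraMap hOA red π hconst O₁ hO₁ red₁ hfst haA h
  rw [(hπker ⟨a, haA⟩).2 ha, map_zero] at h1
  exact (hred₁ _).1 h1

include hπker hconst hsnd hred₂ in
theorem algebraMap_mem_nonunits₂ {a : L} (ha : A.valuation a < 1) :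
    algebraMap L F a ∈ O₂.nonunits := by
  have haA : a ∈ A := (A.valuation_le_one_iff a).1 ha.le
  have h : algebraMap L F a ∈ O₂ := hO₂ _ ((hOA a).2 haA)
  have h1 := red₂_algebraMap hOA red π hconst O₂ hO₂ red₂ hsnd haA h
  rw [(hπker ⟨a, haA⟩).2 ha, map_zero] at h1
  exact (hred₂ _).1 h1

include hOA hval hπker hconst hker hE hS hfst hsnd hred₁ hred₂ in
/-- **(glue')**: an element of the node ring cannot be small on the first side and congruent to
`1` on the second side. -/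
theorem glue_false (i : ι) {g : F} (hg : g ∈ nodeRing red ⊤ E e₁ e₂ i)
    (h1 : g ∈ O₁.nonunits) (h2 : g - 1 ∈ O₂.nonunits) : False := by
  have hgO := mem_O hOA hval red π hπker hconst hker ⊤ E e₁ e₂ i hg
  obtain ⟨c, hc1, hc2⟩ := exists_cong hOA hval red π hπker hconst hker ⊤ E e₁ e₂ i hE hS hg
  have e1 : (red ⟨g, hgO⟩).1 = 0 := by
    rw [hfst ⟨g, hgO⟩]
    exact (hred₁ _).2 h1
  have e2 : (red ⟨g, hgO⟩).2 = 1 := by
    rw [hsnd ⟨g, hgO⟩]
    have h0 : red₂ (⟨g, hO₂ g hgO⟩ - 1) = 0 := (hred₂ _).2 h2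
    rw [map_sub, map_one, sub_eq_zero] at h0
    exact h0
  rw [e1] at hc1
  rw [e2] at hc2
  have hc0 : (0 : k) = c := (cong_zero (e₁ i)).unique hc1
  have hc1' : (1 : k) = c := by
    have h := cong_algebraMap (e₂ i) (1 : k)
    rw [map_one] at h
    exact h.unique hc2
  exact zero_ne_one (hc0.trans hc1'.symm)

include hOA hval hπker hconst hker hE hS hfst hsnd hred₁ hred₂ hO in
/-- **Independence of the node constants, lattice-level nodal setting.** -/
theorem const_indep_node {x₁ : F₁} {x₂ : F₂} (h₁ : IsFF1 k F₁ x₁) (h₂ : IsFF1 k F₂ x₂)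
    (K : Subfield L) {w : L} (hwK : w ∈ K) (hw0 : w ≠ 0) (hw1 : A.valuation w < 1)
    (hunif : ∀ a ∈ K, a ≠ 0 → ∃ j : ℤ, A.valuation a = A.valuation w ^ j)
    (hπK : ∀ c : k, ∃ a, a ∈ K ∧ ∃ ha : a ∈ A, π ⟨a, ha⟩ = c)
    (Fx : Subring F) (hKFx : ∀ a ∈ K, algebraMap L F a ∈ Fx)
    (hdisc₁ : ∀ g ∈ Fx, g ∈ O₁.nonunits → g / algebraMap L F w ∈ O₁)
    (hdisc₂ : ∀ g ∈ Fx, g ∈ O₂.nonunits → g / algebraMap L F w ∈ O₂)
    {Ψ : F} (hΨFx : Ψ ∈ Fx) (hΨ₁ : Ψ ∈ O₁) (hΨu : Ψ ∉ O₁.nonunits) (hΨ₂ : Ψ ∈ O₂) (t : ℕ)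
    (hSm₁ : ∀ m ≤ t, ∀ a ∈ K, a ∈ A →
      ∀ hu : (Ψ - algebraMap L F a) / algebraMap L F w ^ m ∈ O₁,
      ∀ Q : Place k F₁, (∀ i, e₁ i ≠ Q) → Q.adicValuation (red₁ ⟨_, hu⟩) ≤ 1)
    (hSm₂ : ∀ m ≤ t, ∀ a ∈ K, a ∈ A →
      ∀ hu : (Ψ - algebraMap L F a) / algebraMap L F w ^ m ∈ O₂,
      ∀ Q : Place k F₂, (∀ i, e₂ i ≠ Q) → Q.adicValuation (red₂ ⟨_, hu⟩) ≤ 1)
    (H : ι → F) (c : ι → L) (hY : ∀ i, Ψ / H i ∈ nodeRing red ⊤ E e₁ e₂ i)
    (hH₁ : ∀ i, (H i - 1) / algebraMap L F w ^ (t + 1) ∈ O₁)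
    (hc : ∀ i, c i ∈ K ∧ A.valuation (c i - 1) < 1)
    (hH₂ : ∀ i, (H i - algebraMap L F (c i)) / algebraMap L F w ^ (t + 1) ∈ O₂) (i j : ι) :
    ∃ b : L, b ∈ A ∧ b ∈ K ∧ c i - c j = w ^ (t + 1) * b := by
  have hwA : w ∈ A := (A.valuation_le_one_iff w).1 hw1.le
  have hw0' : algebraMap L F w ≠ 0 := by simpa using hw0
  have hvw0 : A.valuation w ≠ 0 := (Valuation.ne_zero_iff _).2 hw0
  have hT_O : ∀ s, ∀ g ∈ nodeRing red ⊤ E e₁ e₂ s, g ∈ O := fun s g hg =>
    mem_O hOA hval red π hπker hconst hker ⊤ E e₁ e₂ s hg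
  have hW₁ : ∀ a ∈ (constRing A K : Subring F), a ∈ O₁ := by
    intro a ha
    obtain ⟨a, haA, -, rfl⟩ := mem_constRing.1 ha
    exact hO₁ _ ((hOA a).2 haA)
  have hW₂ : ∀ a ∈ (constRing A K : Subring F), a ∈ O₂ := by
    intro a ha
    obtain ⟨a, haA, -, rfl⟩ := mem_constRing.1 ha
    exact hO₂ _ ((hOA a).2 haA)
  -- the valuation of `c s` is one
  have hcv : ∀ s, A.valuation (c s) = 1 := by
    intro s
    have e : c s = 1 + (c s - 1) := by ring
    rw [e]
    have h := Valuation.map_add_eq_of_lt_left (v := A.valuation) (x := (1 : L)) (y := c s - 1)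
      (by rw [map_one]; exact (hc s).2)
    rw [h, map_one]
  have hc0 : ∀ s, c s ≠ 0 := fun s h0 => by
    have h := hcv s
    rw [h0, map_zero] at h
    exact zero_ne_one h
  have hcA : ∀ s, c s ∈ A := fun s => (A.valuation_le_one_iff _).1 (hcv s).le
  have hciA : ∀ s, (c s)⁻¹ ∈ A := fun s => by
    rw [← A.valuation_le_one_iff, map_inv₀, hcv s, inv_one]
  have key := const_indep_of (W := constRing A K) (Fx := Fx) (ϖ := algebraMap L F w)
    (k := k) red₁ red₂ hred₁ hred₂ hw0' (algebraMap_mem_constRing hwA hwK)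
    (algebraMap_mem_nonunits₁ hOA red π hπker hconst O₁ hO₁ red₁ hred₁ hfst hw1)
    (algebraMap_mem_nonunits₂ hOA red π hπker hconst O₂ hO₂ red₂ hred₂ hsnd hw1)
    hW₁ hW₂
    (by
      -- `hWdvr`
      intro a ha ha0
      obtain ⟨a, haA, haK, rfl⟩ := mem_constRing.1 ha
      have ha0' : a ≠ 0 := fun h0 => ha0 (by rw [h0, map_zero])
      have hva : A.valuation a ≤ 1 := (A.valuation_le_one_iff a).2 haA
      have hnat : ∃ n : ℕ, A.valuation a = A.valuation w ^ n := by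
        obtain ⟨z, hz⟩ := hunif a haK ha0'
        obtain ⟨n, rfl | rfl⟩ := Int.eq_nat_or_neg z
        · exact ⟨n, by rw [hz, zpow_natCast]⟩
        · by_cases hn : n = 0
          · subst hn
            exact ⟨0, by rw [hz]; simp⟩
          · exfalso
            rw [zpow_neg, zpow_natCast] at hz
            have h1 : A.valuation w ^ n < 1 := pow_lt_one₀ zero_le hw1 hn
            have h2 : 1 < (A.valuation w ^ n)⁻¹ := by
              rw [one_lt_inv₀ (zero_lt_iff.2 (pow_ne_zero n hvw0))]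
              exact h1
            rw [← hz] at h2
            exact absurd hva (not_le.2 h2)
      obtain ⟨n, hz⟩ := hnat
      have hu1 : A.valuation (a / w ^ n) = 1 := by
        rw [map_div₀, map_pow, hz, div_self (pow_ne_zero n hvw0)]
      refine ⟨n, algebraMap L F (a / w ^ n), ?_, ?_, ?_⟩
      · exact algebraMap_mem_constRing ((A.valuation_le_one_iff _).1 hu1.le)
          (K.div_mem haK (K.pow_mem hwK n))
      · rw [← map_inv₀]
        refine algebraMap_mem_constRing ?_ (K.inv_mem (K.div_mem haK (K.pow_mem hwK n)))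
        rw [← A.valuation_le_one_iff, map_inv₀, hu1, inv_one]
      · rw [← map_pow, ← map_mul]
        congr 1
        field_simp)
    (by
      -- `hWFx`
      intro a ha
      obtain ⟨a, -, haK, rfl⟩ := mem_constRing.1 ha
      exact hKFx a haK)
    (by
      -- `hϖinv`
      rw [← map_inv₀]
      exact hKFx _ (K.inv_mem hwK))
    hdisc₁ hdisc₂
    (by
      -- `hlift₁`
      intro c'
      obtain ⟨a, haK, haA, hπa⟩ := hπK c'
      refine ⟨algebraMap L F a, algebraMap_mem_constRing haA haK, ?_⟩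
      rw [red₁_algebraMap hOA red π hconst O₁ hO₁ red₁ hfst haA, hπa])
    (by
      -- `hlift₂`
      intro c'
      obtain ⟨a, haK, haA, hπa⟩ := hπK c'
      refine ⟨algebraMap L F a, algebraMap_mem_constRing haA haK, ?_⟩
      rw [red₂_algebraMap hOA red π hconst O₂ hO₂ red₂ hsnd haA, hπa])
    (fun b => ∀ Q : Place k F₁, (∀ i, e₁ i ≠ Q) → Q.adicValuation b ≤ 1)
    (fun b => ∀ Q : Place k F₂, (∀ i, e₂ i ≠ Q) → Q.adicValuation b ≤ 1)
    (fun s b => ∃ c' : k, Cong (e₁ s) b c')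
    (fun s b => ∃ c' : k, Cong (e₂ s) b c')
    (by
      -- `hLV₁`
      intro b hsm hnd
      refine const_of_regular h₁ b (fun Q => ?_)
      by_cases hQ : ∃ s, e₁ s = Q
      · obtain ⟨s, rfl⟩ := hQ
        obtain ⟨c', hc'⟩ := hnd s
        exact hc'.le_one
      · exact hsm Q (fun s hs => hQ ⟨s, hs⟩))
    (by
      -- `hLV₂`
      intro b hsm hnd
      refine const_of_regular h₂ b (fun Q => ?_)
      by_cases hQ : ∃ s, e₂ s = Q
      · obtain ⟨s, rfl⟩ := hQ
        obtain ⟨c', hc'⟩ := hnd s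
        exact hc'.le_one
      · exact hsm Q (fun s hs => hQ ⟨s, hs⟩))
    (fun s => nodeRing red ⊤ E e₁ e₂ s)
    (fun s g hg => hO₁ g (hT_O s g hg)) (fun s g hg => hO₂ g (hT_O s g hg))
    (by
      -- `hWR`
      intro s a ha
      obtain ⟨a, haA, -, rfl⟩ := mem_constRing.1 ha
      exact algebraMap_mem hOA red ⊤ hE e₁ e₂ s haA (Subring.mem_top _))
    (by
      -- `hsat`
      intro s g hg₁ hg₂ m hm
      have hgO : g ∈ O := hO g hg₁ hg₂
      rw [← map_pow] at hm
      exact mem_of_mul_mem red ⊤ E e₁ e₂ s (fun g _ => Subring.mem_top _)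
        (pow_ne_zero m hw0) (Subring.mem_top _) hgO hm)
    (fun s g hg h1 h2 =>
      glue_false hOA hval red π hπker hconst hker E e₁ e₂ hE hS O₁ O₂ hO₁ hO₂ red₁ red₂ hred₁
        hred₂ hfst hsnd s hg h1 h2)
    (by
      -- `hNd₁`
      intro s g hg
      obtain ⟨c', hc1, -⟩ :=
        exists_cong hOA hval red π hπker hconst hker ⊤ E e₁ e₂ s hE hS hg
      refine ⟨c', ?_⟩
      rw [hfst ⟨g, hT_O s g hg⟩] at hc1
      exact hc1)
    (by
      -- `hNd₂`
      intro s g hg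
      obtain ⟨c', -, hc2⟩ :=
        exists_cong hOA hval red π hπker hconst hker ⊤ E e₁ e₂ s hE hS hg
      refine ⟨c', ?_⟩
      rw [hsnd ⟨g, hT_O s g hg⟩] at hc2
      exact hc2)
    hΨFx hΨ₁ hΨu hΨ₂ t
    (by
      -- `hSm₁`
      intro m hm a ha hu
      obtain ⟨a, haA, haK, rfl⟩ := mem_constRing.1 ha
      exact hSm₁ m hm a haK haA hu)
    (by
      -- `hSm₂`
      intro m hm a ha hu
      obtain ⟨a, haA, haK, rfl⟩ := mem_constRing.1 ha
      exact hSm₂ m hm a haK haA hu)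
    H (fun s => algebraMap L F (c s)) hY hH₁
    (by
      -- `hC`
      intro s
      refine ⟨algebraMap_mem_constRing (hcA s) (hc s).1, ?_, ?_⟩
      · rw [← map_inv₀]
        exact algebraMap_mem_constRing (hciA s) (K.inv_mem (hc s).1)
      · have e : algebraMap L F (c s) - 1 = algebraMap L F (c s - 1) := by
          rw [map_sub, map_one]
        rw [e]
        exact algebraMap_mem_nonunits₂ hOA red π hπker hconst O₂ hO₂ red₂ hred₂ hsnd (hc s).2)
    hH₂ i j
  obtain ⟨b, hbA, hbK, hb⟩ := mem_constRing.1 key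
  refine ⟨b, hbA, hbK, ?_⟩
  have e : algebraMap L F b = algebraMap L F ((c i - c j) / w ^ (t + 1)) := by
    rw [hb, map_div₀, map_sub, map_pow]
  have e' := (algebraMap L F).injective e
  rw [e']
  field_simp

end main

/-- Arithmetic end: if `c i = 1 + γ i * η` with `v(η) = v(w) ^ t` and `c i ≡ c j` modulo
`w ^ (t + 1)`, the integer `γ i - γ j` has valuation `< 1` (i.e. is divisible by the residue
characteristic). -/
theorem valuation_intCast_sub_lt_one {w η : L} (hw0 : w ≠ 0) (hw1 : A.valuation w < 1) (t : ℕ)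
    (hη : A.valuation η = A.valuation w ^ t) {ci cj : L} (γi γj : ℤ)
    (hci : ci = 1 + (γi : L) * η) (hcj : cj = 1 + (γj : L) * η) {b : L} (hb : b ∈ A)
    (h : ci - cj = w ^ (t + 1) * b) : A.valuation (((γi - γj : ℤ) : L)) < 1 := by
  have hvw0 : A.valuation w ≠ 0 := (Valuation.ne_zero_iff _).2 hw0
  have e : (((γi - γj : ℤ) : L)) * η = w ^ (t + 1) * b := by
    rw [← h, hci, hcj]
    push_cast
    ring
  have hv := congrArg A.valuation e
  rw [map_mul, map_mul, map_pow, hη, pow_succ, mul_assoc] at hv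
  have hpos : 0 < A.valuation w ^ t := zero_lt_iff.2 (pow_ne_zero t hvw0)
  have hv' : A.valuation (((γi - γj : ℤ) : L)) = A.valuation w * A.valuation b := by
    rw [mul_comm (A.valuation (((γi - γj : ℤ) : L))), mul_right_inj' (pow_ne_zero t hvw0)] at hv
    exact hv
  rw [hv']
  exact (mul_le_of_le_one_right' ((A.valuation_le_one_iff b).2 hb)).trans_lt hw1

end Fermat.Agent.TR.PL.GlueNode
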