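import Mathlib
import Fermat.Agent.TR.PL.SigmaSeam
import Fermat.Agent.TR.PL.GlueNode
import Fermat.Agent.TR.PL.ConstU

/-!
# TR / (PL): the wild core at the modular objects (`u`-route)

Setting of `BAD`: `A` a valuation subring of `ℚ̄` over `p`, `F = ℚ̄·F_{Mp}` with its two Gauss
valuation rings `O_∞ = OInf h`, `O_0 = OZero h W`, `O = OPair h W`, `redPair h W : O → κ × κ`;
a chart divisor `E` with nodes `e₁ i`, `e₂ i` (binders of `NodeRingAbs`), node rings
`T_i = nodeRing (redPair h W) ⊤ E e₁ e₂ i`; `H ≤ I` with fixed field `K''`, uniformiser `w`;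
`σ` with `σ w = w (1 + η)`, `η = w ^ t u₀` (`u₀` a unit, `t ≥ 1`), `p w ^ t ∈ w ^ (p t + 1) A`.

For an `H`-fixed function `f₀` (the Kummer function, `div f₀ = p D`) put `u = σ f₀ / f₀`.  At
each node `i` let `g i` be an `H`-fixed function (the local generator of `D`) with
`σ (f₀ / g i ^ p) / (f₀ / g i ^ p) ∈ T_i`, and let `n∞ i`, `n0 i` be its `w`-adic Gauss orders:
`g i / w ^ (n∞ i)` a unit of `O_∞`, `g i / w ^ (n0 i)` a unit of `O_0`.

* `sigma_div_sub` : `σ g / g ≡ (1 + η) ^ n  mod w ^ (t + 1) O` for `g` `H`-fixed with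
  `g / w ^ n` a unit of `O` (`O = O_∞` or `O_0`);
* `gamma_congr_wild` : **`p ∣ (n0 i - n∞ i) - (n0 j - n∞ j)`** for any two nodes, if the
  successive quotients `(u - a) / w ^ m` (`m ≤ p t`) have reductions regular away from the nodes.

This is `GlueNode.const_indep_node` at `(Ψ, t, H i, c i) = (u, p t, (σ g_i / g_i / (1 + η) ^ n∞)^p,
((1 + η) ^ (n0 - n∞)) ^ p)`.
-/

set_option autoImplicit false
set_option linter.unusedSectionVars false
set_option linter.style.haveILetI false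

namespace Fermat.Agent.TR.PL.WildGamma

open HahnSeries ModularCurve AlgebraicCurve Fermat.Agent.Lib.Red Fermat.Agent.BAD.TwoVal
open Fermat.Agent.BAD.LatFixed Fermat.Agent.BAD.LatFixedInst
open Fermat.Agent.Lib.FF Fermat.Agent.BAD.NodalRiemann Fermat.Agent.Lib.Red.Deform
open Fermat.Agent.TR.Node.NodeRingAbs Fermat.Agent.TR.Node.SigmaGlue Fermat.Agent.TR.Node.Thickness
open Fermat.Agent.TR.Node.SigmaGluePow Fermat.Agent.TR.PL.ConstU

local notation "Qb" => AlgebraicClosure ℚ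
local notation "GQ" => (AlgebraicClosure ℚ ≃ₐ[ℚ] AlgebraicClosure ℚ)

/-! ### Generic arithmetic end -/

section Arith

variable {F : Type*} [Field F] {O : ValuationSubring F} {ϖ η : F}

/-- `1 + a η ≡ 1 + b η mod ϖ ^ (T + 1)` with `η` of exact order `T` forces `q ∣ a - b` for the
residue characteristic `q`. -/
theorem dvd_sub_of_cg {T : ℕ} (hϖ : ϖ ∈ O.nonunits) (hϖ0 : ϖ ≠ 0)
    (hηw : ∃ w, w ∈ O ∧ w ∉ O.nonunits ∧ η = ϖ ^ T * w) {q : ℕ} (hq : q.Prime)
    (hqO : (q : F) ∈ O.nonunits) {a b : ℤ}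
    (h : Cg O ϖ (T + 1) (1 + (a : F) * η) (1 + (b : F) * η)) : (q : ℤ) ∣ a - b := by
  obtain ⟨w, hw, hwn, rfl⟩ := hηw
  obtain ⟨r, hr, e⟩ := h
  have e2 : ((a - b : ℤ) : F) * w = ϖ * r := by
    have hpow : ϖ ^ T ≠ 0 := pow_ne_zero _ hϖ0
    apply mul_left_cancel₀ hpow
    have e3 : ϖ ^ T * (((a - b : ℤ) : F) * w) =
        1 + (a : F) * (ϖ ^ T * w) - (1 + (b : F) * (ϖ ^ T * w)) := by
      push_cast
      ring
    rw [e3, e, pow_succ]
    ring
  by_contra hnd
  have h3 : ((a - b : ℤ) : F) ∉ O.nonunits := int_not_nonunit hq hqO hnd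
  have h4 : ((a - b : ℤ) : F) * w ∉ O.nonunits := mul_not_nonunit h3 hwn
  apply h4
  rw [e2]
  exact Fermat.Agent.TR.PL.GlueConst.nu_mul_right hϖ hr

end Arith

/-! ### The ring of `H`-fixed functions -/

section Fix

variable {N : ℕ} {H : Subgroup GQ}

/-- The subring of the functions of level `N` fixed by `H`. -/
def fixFunRing (H : Subgroup GQ) (N : ℕ) :
    Subring (laurentBaseChange Qb (modularFunctionFieldFull N)) where
  carrier := {f | f ∈ fixedFunOf (H : Set GQ) N}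
  mul_mem' := fun hf hg σ hσ => by rw [smul_mul', hf σ hσ, hg σ hσ]
  one_mem' := fun σ _ => smul_one _
  add_mem' := fun hf hg => (fixedFunOf (H : Set GQ) N).add_mem hf hg
  zero_mem' := (fixedFunOf (H : Set GQ) N).zero_mem
  neg_mem' := fun hf => (fixedFunOf (H : Set GQ) N).neg_mem hf

theorem mem_fixFunRing {f : laurentBaseChange Qb (modularFunctionFieldFull N)} :
    f ∈ fixFunRing H N ↔ f ∈ fixedFunOf (H : Set GQ) N := Iff.rfl

theorem algebraMap_mem_fixFunRing {a : Qb} (ha : a ∈ fixedSubfieldOf (H : Set GQ)) :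
    algebraMap Qb (laurentBaseChange Qb (modularFunctionFieldFull N)) a ∈ fixFunRing H N := by
  intro σ hσ
  rw [Algebra.algebraMap_eq_smul_one, Fermat.Agent.Padic.arithmeticGalois_smul_const_smul,
    smul_one, ha σ hσ]

theorem inv_mem_fixFunRing {f : laurentBaseChange Qb (modularFunctionFieldFull N)}
    (hf : f ∈ fixFunRing H N) : f⁻¹ ∈ fixFunRing H N := fun σ hσ => by
  rw [smul_inv'', hf σ hσ]

end Fix

/-! ### Small facts on a valuation subring of `ℚ̄` -/

section Val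

variable {A : ValuationSubring Qb}

/-- `v (x ^ m - 1) < 1` for every integer `m` if `v (x - 1) < 1`. -/
theorem valuation_zpow_sub_one_lt {x : Qb} (hx : A.valuation (x - 1) < 1) (m : ℤ) :
    A.valuation (x ^ m - 1) < 1 := by
  have hx1 : A.valuation x = 1 := by
    have e : x = 1 + (x - 1) := by ring
    rw [e]
    have h := Valuation.map_add_eq_of_lt_left (v := A.valuation) (x := (1 : Qb)) (y := x - 1)
      (by rw [map_one]; exact hx)
    rw [h, map_one]
  have hx0 : x ≠ 0 := by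
    rintro rfl
    rw [map_zero] at hx1
    exact zero_ne_one hx1
  have hnat : ∀ n : ℕ, A.valuation (x ^ n - 1) < 1 := by
    intro n
    induction n with
    | zero => rw [pow_zero, sub_self, map_zero]; exact zero_lt_one
    | succ n ih =>
      have e : x ^ (n + 1) - 1 = x ^ n * (x - 1) + (x ^ n - 1) := by ring
      rw [e]
      refine lt_of_le_of_lt (Valuation.map_add _ _ _) (max_lt ?_ ih)
      rw [map_mul, map_pow, hx1, one_pow, one_mul]
      exact hx
  obtain ⟨n, rfl | rfl⟩ := Int.eq_nat_or_neg m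
  · rw [zpow_natCast]
    exact hnat n
  · have e : x ^ (-(n : ℤ)) - 1 = -((x ^ n)⁻¹ * (x ^ n - 1)) := by
      rw [zpow_neg, zpow_natCast]
      field_simp
      ring
    rw [e, Valuation.map_neg, map_mul, map_inv₀, map_pow, hx1, one_pow, inv_one, one_mul]
    exact hnat n

/-- `v (x ^ m) = 1` if `v (x - 1) < 1`. -/
theorem valuation_zpow_eq_one {x : Qb} (hx : A.valuation (x - 1) < 1) (m : ℤ) :
    A.valuation (x ^ m) = 1 := by
  have e : x ^ m = 1 + (x ^ m - 1) := by ring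
  rw [e]
  have h := Valuation.map_add_eq_of_lt_left (v := A.valuation) (x := (1 : Qb)) (y := x ^ m - 1)
    (by rw [map_one]; exact valuation_zpow_sub_one_lt hx m)
  rw [h, map_one]

end Val

/-! ### Constants in a valuation subring of the function field -/

section Const

variable {F : Type*} [Field F] [Algebra Qb F] {A : ValuationSubring Qb} {O : ValuationSubring F}

/-- A constant of valuation `< 1` is a non-unit. -/
theorem algebraMap_mem_nonunits (hOA : ∀ a : Qb, algebraMap Qb F a ∈ O ↔ a ∈ A) {a : Qb}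
    (ha : A.valuation a < 1) : algebraMap Qb F a ∈ O.nonunits := by
  rw [ValuationSubring.mem_nonunits_iff_or]
  by_cases ha0 : a = 0
  · exact Or.inl (by rw [ha0, map_zero])
  · refine Or.inr ?_
    rw [← map_inv₀, hOA, ← A.valuation_le_one_iff, map_inv₀, not_le]
    exact (one_lt_inv₀ (zero_lt_iff.2 ((Valuation.ne_zero_iff _).2 ha0))).2 ha

/-- A constant of valuation `1` is a unit. -/
theorem algebraMap_unit (hOA : ∀ a : Qb, algebraMap Qb F a ∈ O ↔ a ∈ A) {a : Qb}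
    (ha : A.valuation a = 1) :
    algebraMap Qb F a ∈ O ∧ (algebraMap Qb F a)⁻¹ ∈ O ∧ algebraMap Qb F a ∉ O.nonunits := by
  have h1 : algebraMap Qb F a ∈ O := (hOA a).2 ((A.valuation_le_one_iff a).1 ha.le)
  have h2 : (algebraMap Qb F a)⁻¹ ∈ O := by
    rw [← map_inv₀, hOA, ← A.valuation_le_one_iff, map_inv₀, ha, inv_one]
  refine ⟨h1, h2, ?_⟩
  rw [ValuationSubring.mem_nonunits_iff_or]
  push Not
  refine ⟨?_, h2⟩
  intro h0
  have : a = 0 := by
    have := (algebraMap Qb F).injective (h0.trans (map_zero _).symm)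
    exact this
  rw [this, map_zero] at ha
  exact zero_ne_one ha

end Const

/-! ### The `σ`-quotient of a `K''`-rational function -/

section Inst

variable {p : ℕ} [Fact p.Prime] [NeZero p] {A : ValuationSubring Qb} {k : Type} [Field k]
  {π : A →+* k} {M : ℕ} [NeZero M]
  {W : laurentBaseChange Qb (modularFunctionFieldFull (M * p)) ≃ₐ[Qb]
    laurentBaseChange Qb (modularFunctionFieldFull (M * p))}
  {H : Subgroup GQ}

/-- The field identity behind `sigma_div_sub`. -/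
theorem sigma_div_identity {F : Type*} [Field F] (a b ϖ υ G y : F) (t : ℕ) (ha : a ≠ 0)
    (hϖ : ϖ ≠ 0) (hG : G ≠ 0) :
    ((a * b * (G + ϖ ^ (t + 1) * υ * y)) / (a * G) - b) / ϖ ^ (t + 1) = b * υ * (y * G⁻¹) := by
  field_simp
  ring

/-- The field identity behind the node hypothesis `hY`. -/
theorem twist_identity {F : Type*} [Field F] (Sf f Sg g a : F) (q : ℕ) (hf : f ≠ 0)
    (hg : g ≠ 0) (hSg : Sg ≠ 0) (ha : a ≠ 0) :
    Sf / f / (a⁻¹ * (Sg / g)) ^ q = a ^ q * (Sf * (Sg ^ q)⁻¹ / (f / g ^ q)) := by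
  have h1 : a ^ q ≠ 0 := pow_ne_zero _ ha
  have h2 : g ^ q ≠ 0 := pow_ne_zero _ hg
  have h3 : Sg ^ q ≠ 0 := pow_ne_zero _ hSg
  rw [mul_pow, inv_pow, div_pow]
  field_simp

/-- **`σ g / g ≡ (1 + η) ^ n  mod w ^ (t + 1) O`** for a `K''`-rational function `g` with
`g / w ^ n` a unit of `O` (`O` one of the two Gauss valuation rings, on which `σ` is congruent to
the identity modulo `σ w - w` on `K''`-rational functions). -/
theorem sigma_div_sub
    (O : ValuationSubring (laurentBaseChange Qb (modularFunctionFieldFull (M * p))))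
    (hOA : ∀ a : Qb,
      algebraMap Qb (laurentBaseChange Qb (modularFunctionFieldFull (M * p))) a ∈ O ↔ a ∈ A)
    {σ : GQ} {w η u₀ : Qb} {t : ℕ}
    (hwK : w ∈ fixedSubfieldOf (H : Set GQ)) (hw0 : w ≠ 0) (hw1 : A.valuation w < 1)
    (hση : σ w = w * (1 + η)) (hη : η = w ^ t * u₀) (hu₀ : A.valuation u₀ = 1) (ht : 1 ≤ t)
    (hσO : ∀ g ∈ fixedFunOf (H : Set GQ) (M * p), g ∈ O → ∃ y ∈ O,
      arithmeticGalois (L := Qb) (modularFunctionFieldFull (M * p)) σ • g - g = (σ w - w) • y)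
    {g : laurentBaseChange Qb (modularFunctionFieldFull (M * p))}
    (hg : g ∈ fixedFunOf (H : Set GQ) (M * p)) (hg0 : g ≠ 0) {n : ℤ}
    (h1 : (w ^ n)⁻¹ • g ∈ O) (h2 : ((w ^ n)⁻¹ • g)⁻¹ ∈ O) :
    (arithmeticGalois (L := Qb) (modularFunctionFieldFull (M * p)) σ • g / g -
        algebraMap Qb (laurentBaseChange Qb (modularFunctionFieldFull (M * p))) ((1 + η) ^ n)) /
      algebraMap Qb (laurentBaseChange Qb (modularFunctionFieldFull (M * p))) w ^ (t + 1) ∈ O := by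
  obtain ⟨G, hG⟩ : ∃ G, G = (w ^ n)⁻¹ • g := ⟨_, rfl⟩
  rw [← hG] at h1 h2
  have hwn : w ^ n ≠ 0 := zpow_ne_zero n hw0
  have hGfix : G ∈ fixedFunOf (H : Set GQ) (M * p) := by
    rw [hG]
    exact smul_mem_fixedFunOf (inv_mem (zpow_mem hwK n)) hg
  obtain ⟨y, hy, e⟩ := hσO G hGfix h1
  -- valuations
  have hvη : A.valuation η < 1 := by
    rw [hη, map_mul, map_pow, hu₀, mul_one]
    exact pow_lt_one₀ zero_le hw1 (by omega)
  have hv1 : A.valuation ((1 + η) - 1) < 1 := by rwa [add_sub_cancel_left]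
  have hvn : A.valuation ((1 + η) ^ n) = 1 := valuation_zpow_eq_one hv1 n
  have h1η : (1 + η) ≠ 0 := by
    intro h0
    have := valuation_zpow_eq_one (A := A) hv1 1
    rw [zpow_one, h0, map_zero] at this
    exact zero_ne_one this
  have hw1n : (w * (1 + η)) ^ n ≠ 0 := zpow_ne_zero n (mul_ne_zero hw0 h1η)
  -- `S • g = (w ^ n * (1 + η) ^ n) • (S • G)`
  have e1 : arithmeticGalois (L := Qb) (modularFunctionFieldFull (M * p)) σ • G =
      ((w * (1 + η)) ^ n)⁻¹ •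
        (arithmeticGalois (L := Qb) (modularFunctionFieldFull (M * p)) σ • g) := by
    rw [hG, Fermat.Agent.Padic.arithmeticGalois_smul_const_smul, map_inv₀, map_zpow₀, hση]
  have e2 : arithmeticGalois (L := Qb) (modularFunctionFieldFull (M * p)) σ • g =
      ((w * (1 + η)) ^ n) •
        (arithmeticGalois (L := Qb) (modularFunctionFieldFull (M * p)) σ • G) := by
    rw [e1, smul_smul, mul_inv_cancel₀ hw1n, one_smul]
  have e3 : g = (w ^ n) • G := by
    rw [hG, smul_smul, mul_inv_cancel₀ hwn, one_smul]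
  have e4 : arithmeticGalois (L := Qb) (modularFunctionFieldFull (M * p)) σ • G =
      G + (σ w - w) • y := by rw [← e]; ring
  have e5 : σ w - w = w ^ (t + 1) * u₀ := by rw [hση, hη, pow_succ]; ring
  have hG0 : G ≠ 0 := by
    intro h0
    apply hg0
    rw [e3, h0, smul_zero]
  have hϖ0 : algebraMap Qb (laurentBaseChange Qb (modularFunctionFieldFull (M * p))) w ≠ 0 :=
    (map_ne_zero _).2 hw0
  have hcn : algebraMap Qb (laurentBaseChange Qb (modularFunctionFieldFull (M * p))) (w ^ n) ≠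
      0 := (map_ne_zero _).2 hwn
  have E1 : arithmeticGalois (L := Qb) (modularFunctionFieldFull (M * p)) σ • g =
      algebraMap Qb _ (w ^ n) * algebraMap Qb _ ((1 + η) ^ n) *
        (G + algebraMap Qb _ w ^ (t + 1) * algebraMap Qb _ u₀ * y) := by
    rw [e2, e4, e5, Algebra.smul_def, Algebra.smul_def, mul_zpow, map_mul, map_mul, map_pow]
  have E2 : g = algebraMap Qb _ (w ^ n) * G := e3.trans (Algebra.smul_def _ _)
  have hmem : algebraMap Qb (laurentBaseChange Qb (modularFunctionFieldFull (M * p)))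
      ((1 + η) ^ n) * algebraMap Qb _ u₀ * (y * G⁻¹) ∈ O := by
    refine O.mul_mem _ _ (O.mul_mem _ _ ((hOA _).2 ?_) ((hOA _).2 ?_)) (O.mul_mem _ _ hy h2)
    · rw [← A.valuation_le_one_iff, hvn]
    · rw [← A.valuation_le_one_iff, hu₀]
  rw [E1]
  have E3 : (algebraMap Qb (laurentBaseChange Qb (modularFunctionFieldFull (M * p))) (w ^ n) *
      algebraMap Qb _ ((1 + η) ^ n) *
        (G + algebraMap Qb _ w ^ (t + 1) * algebraMap Qb _ u₀ * y) / g -
      algebraMap Qb _ ((1 + η) ^ n)) / algebraMap Qb _ w ^ (t + 1) =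
      algebraMap Qb _ ((1 + η) ^ n) * algebraMap Qb _ u₀ * (y * G⁻¹) := by
    rw [← sigma_div_identity (algebraMap Qb _ (w ^ n)) (algebraMap Qb _ ((1 + η) ^ n))
      (algebraMap Qb _ w) (algebraMap Qb _ u₀) G y t hcn hϖ0 hG0, ← E2]
  rw [E3]
  exact hmem

/-- A `K''`-rational non-unit of `O` is divisible by `w` in `O`. -/
theorem div_unif_mem
    (O : ValuationSubring (laurentBaseChange Qb (modularFunctionFieldFull (M * p))))
    (hOA : ∀ a : Qb,
      algebraMap Qb (laurentBaseChange Qb (modularFunctionFieldFull (M * p))) a ∈ O ↔ a ∈ A)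
    {w : Qb} (hw0 : w ≠ 0) (hw1 : A.valuation w < 1)
    {g : laurentBaseChange Qb (modularFunctionFieldFull (M * p))} (hgn : g ∈ O.nonunits)
    {n : ℤ} (h1 : (w ^ n)⁻¹ • g ∈ O) (h2 : ((w ^ n)⁻¹ • g)⁻¹ ∈ O) :
    g / algebraMap Qb (laurentBaseChange Qb (modularFunctionFieldFull (M * p))) w ∈ O := by
  by_cases hg0 : g = 0
  · rw [hg0, zero_div]
    exact O.zero_mem
  have hwn : w ^ n ≠ 0 := zpow_ne_zero n hw0
  have hvw0 : A.valuation w ≠ 0 := (Valuation.ne_zero_iff _).2 hw0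
  have hnat : ∀ m : ℕ, w ^ m ∈ A := fun m => by
    rw [← A.valuation_le_one_iff, map_pow]
    exact pow_le_one₀ zero_le hw1.le
  have e3 : g = algebraMap Qb _ (w ^ n) * ((w ^ n)⁻¹ • g) := by
    rw [Algebra.smul_def, ← mul_assoc, ← map_mul, mul_inv_cancel₀ hwn, map_one, one_mul]
  by_cases hn : 1 ≤ n
  · obtain ⟨m, hm⟩ := Int.eq_ofNat_of_zero_le (by omega : 0 ≤ n - 1)
    have e4 : g / algebraMap Qb (laurentBaseChange Qb (modularFunctionFieldFull (M * p))) w =
        algebraMap Qb _ (w ^ m) * ((w ^ n)⁻¹ • g) := by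
      have hn' : n = (m : ℤ) + 1 := by omega
      have hϖ0 : algebraMap Qb (laurentBaseChange Qb (modularFunctionFieldFull (M * p))) w ≠
          0 := (map_ne_zero _).2 hw0
      nth_rewrite 1 [e3]
      rw [hn', zpow_add₀ hw0, zpow_natCast, zpow_one, map_mul]
      field_simp
    rw [e4]
    exact O.mul_mem _ _ ((hOA _).2 (hnat m)) h1
  · exfalso
    obtain ⟨m, hm⟩ := Int.eq_ofNat_of_zero_le (by omega : 0 ≤ -n)
    rw [ValuationSubring.mem_nonunits_iff_or] at hgn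
    rcases hgn with h0 | h0
    · exact hg0 h0
    · apply h0
      have e5 : g⁻¹ = algebraMap Qb _ (w ^ m) * ((w ^ n)⁻¹ • g)⁻¹ := by
        nth_rewrite 1 [e3]
        rw [mul_inv, ← map_inv₀, ← zpow_neg, hm, zpow_natCast]
      rw [e5]
      exact O.mul_mem _ _ ((hOA _).2 (hnat m)) h2

/-- **The wild core of (PL), `u`-route, at the modular objects.**  `p ∣ γ_i - γ_j` for the
node constants `γ_i = n0 i - nI i` (the `w`-adic Gauss orders of the local generators `g i` on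
the two components). -/
theorem gamma_congr_wild
    (hA : A.LiesOverPrime p) (h : BadSetup A π M p) (hsurj : Function.Surjective π)
    (hH : H ≤ A.inertiaSubgroupIn ℚ)
    {ι : Type} (E : Divisor Qb (laurentBaseChange Qb (modularFunctionFieldFull (M * p))))
    (e₁ e₂ : ι → Place k (modularFunctionFieldFullC k M)) (hE : 0 ≤ E)
    {D₁ D₂ : Divisor k (modularFunctionFieldFullC k M)}
    (hS : ∃ N₀ : ℕ, ∀ N, N₀ ≤ N →
      ∀ t : ↥(modularFunctionFieldFullC k M) × ↥(modularFunctionFieldFullC k M),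
      (∃ y : OPair h W, (y : laurentBaseChange Qb (modularFunctionFieldFull (M * p))) ∈
          riemannRochSpace (N • E) ∧ redPair h W y = t) ↔
        t ∈ gluedSpace e₁ e₂ (fun _ => (1 : k)) (N • D₁) (N • D₂))
    {x₁ x₂ : ↥(modularFunctionFieldFullC k M)}
    (h₁ : IsFF1 k (modularFunctionFieldFullC k M) x₁)
    (h₂ : IsFF1 k (modularFunctionFieldFullC k M) x₂)
    {w : Qb} (hwK : w ∈ fixedSubfieldOf (H : Set GQ)) (hw0 : w ≠ 0) (hw1 : A.valuation w < 1)
    (hunif : ∀ a ∈ fixedSubfieldOf (H : Set GQ), a ≠ 0 →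
      ∃ j : ℤ, A.valuation a = A.valuation w ^ j)
    {σ : GQ}
    (hBσ : ∀ g ∈ fixedFunOf (H : Set GQ) (M * p),
      arithmeticGalois (L := Qb) (modularFunctionFieldFull (M * p)) σ • g ∈
          fixedFunOf (H : Set GQ) (M * p) ∧
        (g ∈ OInf h → ∃ y ∈ OInf h,
          arithmeticGalois (L := Qb) (modularFunctionFieldFull (M * p)) σ • g - g =
            (σ w - w) • y) ∧
        (g ∈ OZero h W → ∃ y ∈ OZero h W,
          arithmeticGalois (L := Qb) (modularFunctionFieldFull (M * p)) σ • g - g =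
            (σ w - w) • y))
    (hBn : ∀ g ∈ fixedFunOf (H : Set GQ) (M * p), g ≠ 0 →
      (∃ n : ℤ, (w ^ n)⁻¹ • g ∈ OInf h ∧ ((w ^ n)⁻¹ • g)⁻¹ ∈ OInf h) ∧
      (∃ n : ℤ, (w ^ n)⁻¹ • g ∈ OZero h W ∧ ((w ^ n)⁻¹ • g)⁻¹ ∈ OZero h W))
    {t : ℕ} {η u₀ r : Qb} (ht : 1 ≤ t) (hση : σ w = w * (1 + η)) (hη : η = w ^ t * u₀)
    (hu₀ : A.valuation u₀ = 1) (hηK : η ∈ fixedSubfieldOf (H : Set GQ)) (hr : r ∈ A)
    (hpw : (p : Qb) * w ^ t = w ^ (p * t + 1) * r)
    {f₀ : laurentBaseChange Qb (modularFunctionFieldFull (M * p))}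
    (hf₀ : f₀ ∈ fixedFunOf (H : Set GQ) (M * p)) (hf₀0 : f₀ ≠ 0)
    (hSm₁ : ∀ m ≤ p * t, ∀ a ∈ fixedSubfieldOf (H : Set GQ), a ∈ A →
      ∀ hu : (arithmeticGalois (L := Qb) (modularFunctionFieldFull (M * p)) σ • f₀ / f₀ -
          algebraMap Qb (laurentBaseChange Qb (modularFunctionFieldFull (M * p))) a) /
          algebraMap Qb (laurentBaseChange Qb (modularFunctionFieldFull (M * p))) w ^ m ∈ OInf h,
      ∀ Q : Place k (modularFunctionFieldFullC k M), (∀ i, e₁ i ≠ Q) →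
        Q.adicValuation (redInf h ⟨_, hu⟩) ≤ 1)
    (hSm₂ : ∀ m ≤ p * t, ∀ a ∈ fixedSubfieldOf (H : Set GQ), a ∈ A →
      ∀ hu : (arithmeticGalois (L := Qb) (modularFunctionFieldFull (M * p)) σ • f₀ / f₀ -
          algebraMap Qb (laurentBaseChange Qb (modularFunctionFieldFull (M * p))) a) /
          algebraMap Qb (laurentBaseChange Qb (modularFunctionFieldFull (M * p))) w ^ m ∈
            OZero h W,
      ∀ Q : Place k (modularFunctionFieldFullC k M), (∀ i, e₂ i ≠ Q) →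
        Q.adicValuation (redZero h W ⟨_, hu⟩) ≤ 1)
    (g : ι → laurentBaseChange Qb (modularFunctionFieldFull (M * p)))
    (hg : ∀ i, g i ∈ fixedFunOf (H : Set GQ) (M * p)) (hg0 : ∀ i, g i ≠ 0)
    (hY : ∀ i, arithmeticGalois (L := Qb) (modularFunctionFieldFull (M * p)) σ •
        (f₀ / g i ^ p) / (f₀ / g i ^ p) ∈ nodeRing (redPair h W) ⊤ E e₁ e₂ i)
    (nI n0 : ι → ℤ)
    (hnI : ∀ i, (w ^ nI i)⁻¹ • g i ∈ OInf h ∧ ((w ^ nI i)⁻¹ • g i)⁻¹ ∈ OInf h)
    (hn0 : ∀ i, (w ^ n0 i)⁻¹ • g i ∈ OZero h W ∧ ((w ^ n0 i)⁻¹ • g i)⁻¹ ∈ OZero h W)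
    (i j : ι) : (p : ℤ) ∣ (n0 i - nI i) - (n0 j - nI j) := by
  classical
  have hp : p.Prime := Fact.out
  -- notation
  obtain ⟨S, hS'⟩ : ∃ S, S = arithmeticGalois (L := Qb) (modularFunctionFieldFull (M * p)) σ :=
    ⟨_, rfl⟩
  rw [← hS'] at hBσ hSm₁ hSm₂ hY
  -- valuations of the constants
  have hwA : w ∈ A := (A.valuation_le_one_iff w).1 hw1.le
  have hwnu : w ∈ A.nonunits := by rw [A.mem_nonunits_iff]; exact hw1
  have hu₀A : u₀ ∈ A := (A.valuation_le_one_iff u₀).1 hu₀.le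
  have hu₀n : u₀ ∉ A.nonunits := by rw [A.mem_nonunits_iff, hu₀]; exact lt_irrefl _
  have hvη : A.valuation η < 1 := by
    rw [hη, map_mul, map_pow, hu₀, mul_one]
    exact pow_lt_one₀ zero_le hw1 (by omega)
  have hηA : η ∈ A := (A.valuation_le_one_iff η).1 hvη.le
  have hv1 : A.valuation ((1 + η) - 1) < 1 := by rwa [add_sub_cancel_left]
  have h1ηK : (1 + η) ∈ fixedSubfieldOf (H : Set GQ) :=
    add_mem (one_mem _) hηK
  -- the two valuation rings
  have hOAi : ∀ a : Qb, algebraMap Qb (laurentBaseChange Qb (modularFunctionFieldFull (M * p)))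
      a ∈ OInf h ↔ a ∈ A := algebraMap_mem_OInf_iff h
  have hOAz : ∀ a : Qb, algebraMap Qb (laurentBaseChange Qb (modularFunctionFieldFull (M * p)))
      a ∈ OZero h W ↔ a ∈ A := algebraMap_mem_OZero_iff h
  have hϖ0 : algebraMap Qb (laurentBaseChange Qb (modularFunctionFieldFull (M * p))) w ≠ 0 :=
    (map_ne_zero _).2 hw0
  have hϖi := algebraMap_mem_nonunits (O := OInf h) hOAi hw1
  have hϖz := algebraMap_mem_nonunits (O := OZero h W) hOAz hw1
  have hqi : ∃ r' ∈ OInf h, ((p : ℕ) : laurentBaseChange Qb (modularFunctionFieldFull (M * p))) *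
      algebraMap Qb _ w ^ t = algebraMap Qb _ w ^ (p * t + 1) * r' := by
    refine ⟨algebraMap Qb _ r, (hOAi r).2 hr, ?_⟩
    rw [← map_pow, ← map_pow, ← map_mul, ← hpw, map_mul, map_natCast]
  have hqz : ∃ r' ∈ OZero h W,
      ((p : ℕ) : laurentBaseChange Qb (modularFunctionFieldFull (M * p))) *
      algebraMap Qb _ w ^ t = algebraMap Qb _ w ^ (p * t + 1) * r' := by
    refine ⟨algebraMap Qb _ r, (hOAz r).2 hr, ?_⟩
    rw [← map_pow, ← map_pow, ← map_mul, ← hpw, map_mul, map_natCast]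
  -- the `σ`-quotients
  have hquoI : ∀ {g' : laurentBaseChange Qb (modularFunctionFieldFull (M * p))},
      g' ∈ fixedFunOf (H : Set GQ) (M * p) → g' ≠ 0 → ∀ {n : ℤ}, (w ^ n)⁻¹ • g' ∈ OInf h →
      ((w ^ n)⁻¹ • g')⁻¹ ∈ OInf h →
      (S • g' / g' - algebraMap Qb _ ((1 + η) ^ n)) / algebraMap Qb _ w ^ (t + 1) ∈ OInf h := by
    intro g' hg' hg'0 n h1 h2
    rw [hS']
    exact sigma_div_sub (OInf h) hOAi hwK hw0 hw1 hση hη hu₀ ht
      (fun g₁ hg₁ hg₁O => by
        have := (hBσ g₁ hg₁).2.1 hg₁O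
        rwa [hS'] at this) hg' hg'0 h1 h2
  have hquoZ : ∀ {g' : laurentBaseChange Qb (modularFunctionFieldFull (M * p))},
      g' ∈ fixedFunOf (H : Set GQ) (M * p) → g' ≠ 0 → ∀ {n : ℤ}, (w ^ n)⁻¹ • g' ∈ OZero h W →
      ((w ^ n)⁻¹ • g')⁻¹ ∈ OZero h W →
      (S • g' / g' - algebraMap Qb _ ((1 + η) ^ n)) / algebraMap Qb _ w ^ (t + 1) ∈
        OZero h W := by
    intro g' hg' hg'0 n h1 h2
    rw [hS']
    exact sigma_div_sub (OZero h W) hOAz hwK hw0 hw1 hση hη hu₀ ht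
      (fun g₁ hg₁ hg₁O => by
        have := (hBσ g₁ hg₁).2.2 hg₁O
        rwa [hS'] at this) hg' hg'0 h1 h2
  -- units `(1 + η) ^ n`
  have hcu : ∀ (n : ℤ) (O : ValuationSubring (laurentBaseChange Qb
      (modularFunctionFieldFull (M * p)))), (∀ a : Qb, algebraMap Qb _ a ∈ O ↔ a ∈ A) →
      algebraMap Qb _ ((1 + η) ^ n) ∈ O ∧ (algebraMap Qb _ ((1 + η) ^ n))⁻¹ ∈ O ∧
        algebraMap Qb _ ((1 + η) ^ n) ∉ O.nonunits :=
    fun n O hO => algebraMap_unit hO (valuation_zpow_eq_one hv1 n)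
  -- `u = σ f₀ / f₀`
  obtain ⟨⟨nf, hnf1, hnf2⟩, ⟨nf', hnf1', hnf2'⟩⟩ := hBn f₀ hf₀ hf₀0
  have hcg1 := cg_of_div_mem hϖ0 (hquoI hf₀ hf₀0 hnf1 hnf2)
  have hcg2 := cg_of_div_mem hϖ0 (hquoZ hf₀ hf₀0 hnf1' hnf2')
  have hΨ₁ : S • f₀ / f₀ ∈ OInf h :=
    hcg1.mem (mem_of_nonunit hϖi) (hcu nf _ hOAi).1
  have hΨu : S • f₀ / f₀ ∉ (OInf h).nonunits :=
    hcg1.not_nonunit hϖi (by omega) (hcu nf _ hOAi).2.2
  have hΨ₂ : S • f₀ / f₀ ∈ OZero h W :=
    hcg2.mem (mem_of_nonunit hϖz) (hcu nf' _ hOAz).1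
  have hΨFx : S • f₀ / f₀ ∈ fixFunRing H (M * p) := by
    rw [div_eq_mul_inv]
    exact (fixFunRing H (M * p)).mul_mem (hBσ f₀ hf₀).1 (inv_mem_fixFunRing hf₀)
  -- residue constants
  have hπK : ∀ c : k, ∃ a, a ∈ fixedSubfieldOf (H : Set GQ) ∧ ∃ ha : a ∈ A, π ⟨a, ha⟩ = c := by
    intro c
    obtain ⟨a₀, rfl⟩ := hsurj c
    obtain ⟨w', hw', hw'A, hlt⟩ :=
      Fermat.Agent.CAR.K0.exists_mem_inertiaField_valuation_sub_lt_one hp A hA a₀.2
    refine ⟨w', fun τ hτ => (Fermat.Agent.CAR.K0.mem_inertiaField_iff A w').1 hw' τ (hH hτ),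
      hw'A, ?_⟩
    have h0 : π (a₀ - ⟨w', hw'A⟩) = 0 := (h.pi_eq_zero_iff _).2 hlt
    rw [map_sub, sub_eq_zero] at h0
    exact h0.symm
  -- discreteness
  have hdisc₁ : ∀ g' ∈ fixFunRing H (M * p), g' ∈ (OInf h).nonunits →
      g' / algebraMap Qb _ w ∈ OInf h := by
    intro g' hg' hg'n
    by_cases hg'0 : g' = 0
    · rw [hg'0, zero_div]; exact (OInf h).zero_mem
    · obtain ⟨⟨n, hn1, hn2⟩, -⟩ := hBn g' hg' hg'0
      exact div_unif_mem (OInf h) hOAi hw0 hw1 hg'n hn1 hn2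
  have hdisc₂ : ∀ g' ∈ fixFunRing H (M * p), g' ∈ (OZero h W).nonunits →
      g' / algebraMap Qb _ w ∈ OZero h W := by
    intro g' hg' hg'n
    by_cases hg'0 : g' = 0
    · rw [hg'0, zero_div]; exact (OZero h W).zero_mem
    · obtain ⟨-, ⟨n, hn1, hn2⟩⟩ := hBn g' hg' hg'0
      exact div_unif_mem (OZero h W) hOAz hw0 hw1 hg'n hn1 hn2
  -- the node data
  set Hf : ι → laurentBaseChange Qb (modularFunctionFieldFull (M * p)) := fun s =>
    ((algebraMap Qb _ ((1 + η) ^ nI s))⁻¹ * (S • g s / g s)) ^ p with hHf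
  set cf : ι → Qb := fun s => ((1 + η) ^ (n0 s - nI s)) ^ p with hcf
  have hH₁ : ∀ s, (Hf s - 1) / algebraMap Qb _ w ^ (p * t + 1) ∈ OInf h := by
    intro s
    have h0 := hquoI (hg s) (hg0 s) (hnI s).1 (hnI s).2
    obtain ⟨ha, hai, han⟩ := hcu (nI s) _ hOAi
    have ha0 : algebraMap Qb (laurentBaseChange Qb (modularFunctionFieldFull (M * p)))
        ((1 + η) ^ nI s) ≠ 0 := fun h0' => han (h0' ▸ zero_nonunit)
    have h1 : ((algebraMap Qb _ ((1 + η) ^ nI s))⁻¹ * (S • g s / g s) - 1) /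
        algebraMap Qb _ w ^ (t + 1) ∈ OInf h := by
      have e : ((algebraMap Qb (laurentBaseChange Qb (modularFunctionFieldFull (M * p)))
          ((1 + η) ^ nI s))⁻¹ * (S • g s / g s) - 1) / algebraMap Qb _ w ^ (t + 1) =
          (algebraMap Qb _ ((1 + η) ^ nI s))⁻¹ *
            ((S • g s / g s - algebraMap Qb _ ((1 + η) ^ nI s)) /
              algebraMap Qb _ w ^ (t + 1)) := by
        field_simp
      rw [e]
      exact (OInf h).mul_mem _ _ hai h0
    have h2 := pow_div_mem hp hϖ0 (mem_of_nonunit hϖi) hqi (OInf h).one_mem h1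
    rwa [one_pow] at h2
  have hH₂ : ∀ s, (Hf s - algebraMap Qb _ (cf s)) / algebraMap Qb _ w ^ (p * t + 1) ∈
      OZero h W := by
    intro s
    have h0 := hquoZ (hg s) (hg0 s) (hn0 s).1 (hn0 s).2
    obtain ⟨ha, hai, han⟩ := hcu (nI s) _ hOAz
    have ha0 : algebraMap Qb (laurentBaseChange Qb (modularFunctionFieldFull (M * p)))
        ((1 + η) ^ nI s) ≠ 0 := fun h0' => han (h0' ▸ zero_nonunit)
    have h1η : (1 + η) ≠ 0 := by
      intro h0'
      have := valuation_zpow_eq_one (A := A) hv1 1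
      rw [zpow_one, h0', map_zero] at this
      exact zero_ne_one this
    have esplit : algebraMap Qb (laurentBaseChange Qb (modularFunctionFieldFull (M * p)))
        ((1 + η) ^ n0 s) = algebraMap Qb _ ((1 + η) ^ nI s) *
          algebraMap Qb _ ((1 + η) ^ (n0 s - nI s)) := by
      rw [← map_mul, ← zpow_add₀ h1η]
      congr 2
      ring
    have h1 : ((algebraMap Qb _ ((1 + η) ^ nI s))⁻¹ * (S • g s / g s) -
        algebraMap Qb _ ((1 + η) ^ (n0 s - nI s))) / algebraMap Qb _ w ^ (t + 1) ∈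
          OZero h W := by
      have e : ((algebraMap Qb (laurentBaseChange Qb (modularFunctionFieldFull (M * p)))
          ((1 + η) ^ nI s))⁻¹ * (S • g s / g s) -
          algebraMap Qb _ ((1 + η) ^ (n0 s - nI s))) / algebraMap Qb _ w ^ (t + 1) =
          (algebraMap Qb _ ((1 + η) ^ nI s))⁻¹ *
            ((S • g s / g s - algebraMap Qb _ ((1 + η) ^ n0 s)) /
              algebraMap Qb _ w ^ (t + 1)) := by
        rw [esplit]
        field_simp
      rw [e]
      exact (OZero h W).mul_mem _ _ hai h0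
    have h2 := pow_div_mem hp hϖ0 (mem_of_nonunit hϖz) hqz (hcu (n0 s - nI s) _ hOAz).1 h1
    rw [← map_pow] at h2
    exact h2
  have hc : ∀ s, cf s ∈ fixedSubfieldOf (H : Set GQ) ∧ A.valuation (cf s - 1) < 1 := by
    intro s
    refine ⟨pow_mem (zpow_mem h1ηK _) p, ?_⟩
    have e : cf s = (1 + η) ^ ((n0 s - nI s) * (p : ℤ)) := by
      rw [hcf, zpow_mul, zpow_natCast]
    rw [e]
    exact valuation_zpow_sub_one_lt hv1 _
  have hYf : ∀ s, S • f₀ / f₀ / Hf s ∈ nodeRing (redPair h W) ⊤ E e₁ e₂ s := by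
    intro s
    obtain ⟨ha, hai, han⟩ := hcu (nI s) _ hOAi
    have ha0 : algebraMap Qb (laurentBaseChange Qb (modularFunctionFieldFull (M * p)))
        ((1 + η) ^ nI s) ≠ 0 := fun h0' => han (h0' ▸ zero_nonunit)
    have hSg0 : S • g s ≠ 0 := by
      intro h0'
      apply hg0 s
      have := congrArg (fun z => S⁻¹ • z) h0'
      simpa using this
    have eS : S • (f₀ / g s ^ p) = S • f₀ * ((S • g s) ^ p)⁻¹ := by
      rw [div_eq_mul_inv, smul_mul', smul_inv'', smul_pow']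
    have e : S • f₀ / f₀ / Hf s = algebraMap Qb _ (((1 + η) ^ nI s) ^ p) *
        (S • (f₀ / g s ^ p) / (f₀ / g s ^ p)) := by
      rw [eS, map_pow]
      exact twist_identity _ _ _ _ _ p hf₀0 (hg0 s) hSg0 ha0
    rw [e]
    refine Subring.mul_mem _ ?_ (hY s)
    refine algebraMap_mem (fun x => OPair_hOA h x) (redPair h W) ⊤ hE e₁ e₂ s ?_
      (Subring.mem_top _)
    rw [← A.valuation_le_one_iff, map_pow, valuation_zpow_eq_one hv1, one_pow]
  -- (CONST) with the nodes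
  obtain ⟨b, hbA, -, hb⟩ := Fermat.Agent.TR.PL.GlueNode.const_indep_node
    (fun x => OPair_hOA h x) (OPair_hval h) (redPair h W) π h.pi_eq_zero_iff
    (fun a => (redPair_algebraMap h a _).trans rfl) (redPair_eq_zero_iff h) E e₁ e₂ hE hS
    (OInf h) (OZero h W) (fun x hx => ((mem_OPair_iff h x).1 hx).1)
    (fun x hx => ((mem_OPair_iff h x).1 hx).2) (fun x hx1 hx2 => (mem_OPair_iff h x).2 ⟨hx1, hx2⟩)
    (redInf h) (redZero h W)
    (fun y => by
      rw [redInf_eq_zero_iff, ValuationSubring.coe_mem_nonunits_iff,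
        IsLocalRing.mem_maximalIdeal, mem_nonunits_iff])
    (fun y => by
      rw [redZero_eq_zero_iff, ValuationSubring.coe_mem_nonunits_iff,
        IsLocalRing.mem_maximalIdeal, mem_nonunits_iff])
    (fun y => rfl) (fun y => rfl) h₁ h₂ (fixedSubfieldOf (H : Set GQ)) hwK hw0 hw1 hunif hπK
    (fixFunRing H (M * p)) (fun a ha => algebraMap_mem_fixFunRing ha) hdisc₁ hdisc₂
    hΨFx hΨ₁ hΨu hΨ₂ (p * t) hSm₁ hSm₂ Hf cf hYf hH₁ hc hH₂ i j
  -- arithmetic end in `A`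
  have hηt : ∃ r' ∈ A, η = w ^ t * r' := ⟨u₀, hu₀A, hη⟩
  have hqA : ∃ r' ∈ A, ((p : ℕ) : Qb) * w ^ t = w ^ (p * t + 1) * r' := ⟨r, hr, hpw⟩
  have hci : ∀ s, Cg A w (p * t + 1) (cf s) (1 + ((n0 s - nI s : ℤ) : Qb) * η ^ p) := by
    intro s
    have h1 := one_add_zpow (O := A) hwnu hηt ht (n0 s - nI s)
    have h2 : (1 + ((n0 s - nI s : ℤ) : Qb) * η) ∈ A :=
      A.add_mem _ _ A.one_mem (A.mul_mem _ _ (intCast_mem A _) hηA)
    exact (pow_congr hp hwA hqA h2 h1).trans (one_add_int_mul_pow hp hwA hηt hqA _)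
  have hfin : Cg A w (p * t + 1) (1 + ((n0 i - nI i : ℤ) : Qb) * η ^ p)
      (1 + ((n0 j - nI j : ℤ) : Qb) * η ^ p) :=
    ((hci i).symm.trans ⟨b, hbA, hb⟩).trans (hci j)
  exact dvd_sub_of_cg (T := p * t) hwnu hw0
    ⟨u₀ ^ p, pow_mem hu₀A p, pow_not_nonunit hu₀n p, by rw [hη, mul_pow, ← pow_mul, mul_comm t p]⟩
    hp hA hfin

end Inst

end Fermat.Agent.TR.PL.WildGamma
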