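/-
TR / (PL): the brick **`AsmMid.WildAt`** ((CONST), wild case, in the consumer literal of the
middle `AsmMid.plNumeric_of_bricks`) for an ARBITRARY `NodalDatum` with `deg Z₁, deg Z₂ > 0`
and ALL nodes, at the node rings `T i = NodeRingAbs.nodeRing (redPair h W) ⊤ E1 e₁ e₂ i`.

Pure wiring of landed theorems:
* `WildGamma.gamma_congr_wild` (helper62) — the wild core;
* `SmoothULip.hSm_inf_of_lip` / `hSm_zero_of_lip` — (I5), the smooth regularity `hSm₁`, `hSm₂`;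
* `ThroughReg.smul_div_mem_nodeRing` (helper9) — (REG), the input `hY`;
* `SigmaSeam.galois_sub_mem_*_of_lip`, `exists_zpow_unif_*`, `smul_mem_fixedFunOf_of_conj`
  (helper7) — (B-σ), (B-norm);
* `NodeRing.charts_E1`, `E1_nonneg` — the charts of the datum;
* the clause `s = 1` of `AsmMid.FrameClauses` (= `FrameWild.exists_wild_frame`).
-/
import Mathlib
import Fermat.Agent.TR.PL.AsmMid
import Fermat.Agent.TR.PL.WildGamma
import Fermat.Agent.TR.PL.SmoothULip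
import Fermat.Agent.TR.PL.ThroughReg
import Fermat.Agent.TR.PL.ConstFrame
import Fermat.Agent.TR.Node.NodeRing

set_option autoImplicit false
set_option linter.style.haveILetI false
set_option linter.unusedSectionVars false
set_option linter.unusedVariables false

noncomputable section

namespace Fermat.Agent.TR.PL.WildAt88

open AlgebraicCurve ModularCurve WithZero Fermat.Agent.Lib.FF Fermat.Agent.BAD.TwoVal
  Fermat.Agent.BAD.NodalPlus Fermat.Agent.BAD.LatFixed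
  Fermat.Agent.BAD.LatFixedInst Fermat.Agent.TR.PL.Frame Fermat.Agent.TR.PL.SigmaSeam
  Fermat.Agent.TR.PL.LocalField Fermat.Agent.TR.Node.NodeRingAbs
  Fermat.Agent.BAD.NodalRiemann Fermat.Agent.TR.PL.Through Fermat.Agent.ESJ.Jac

local notation "Qb" => AlgebraicClosure ℚ
local notation "GQ" => (AlgebraicClosure ℚ ≃ₐ[ℚ] AlgebraicClosure ℚ)

set_option maxHeartbeats 1000000 in
/-- **`AsmMid.WildAt` for an arbitrary nodal datum.**  For every `NodalDatum` of the BAD objects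
with `deg Z₁, deg Z₂ > 0`, the brick (CONST, wild case) of the middle holds at the node rings
`T i = nodeRing (redPair h W) ⊤ E1 e₁ e₂ i`. -/
theorem wildAt_of_datum {A : ValuationSubring Qb} {M p : ℕ} [NeZero M] [NeZero p]
    (hA : A.LiesOverPrime p) (h : BadSetup A (IsLocalRing.residue A) M p)
    {W : laurentBaseChange Qb (modularFunctionFieldFull (M * p)) ≃ₐ[Qb]
      laurentBaseChange Qb (modularFunctionFieldFull (M * p))} (hW : IsAL M p W)
    (V : AddSubgroup (JZero (M * p)))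
    {E1 E2 : Divisor Qb (laurentBaseChange Qb (modularFunctionFieldFull (M * p)))}
    {ι : Type} [Fintype ι]
    {e₁ e₂ : ι → Place (IsLocalRing.ResidueField A)
      (modularFunctionFieldFullC (IsLocalRing.ResidueField A) M)}
    {P₁ Z₁ P₂ Z₂ : Divisor (IsLocalRing.ResidueField A)
      (modularFunctionFieldFullC (IsLocalRing.ResidueField A) M)}
    (hD : NodalDatum h W E1 E2 e₁ e₂ P₁ Z₁ P₂ Z₂)
    (hdegZ₁ : 0 < Divisor.degree Z₁) (hdegZ₂ : 0 < Divisor.degree Z₂) :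
    Fermat.Agent.TR.PL.AsmMid.WildAt h W V
      (fun i => nodeRing (redPair h W) ⊤ E1 e₁ e₂ i) := by
  classical
  have hpp : p.Prime := h.hℓ
  haveI : Fact p.Prime := ⟨hpp⟩
  haveI : IsAlgClosed (IsLocalRing.ResidueField A) := CharP.isAlgClosed_residueField A
  have hsurj : Function.Surjective (IsLocalRing.residue A) := IsLocalRing.residue_surjective
  have hH : stabV A V ≤ A.inertiaSubgroupIn ℚ := stabV_le_inertia V
  intro ζ hζ hζ1 w ρ hF x hx D hDx hDH f₀ hf₀H hf₀0 hdiv hfO hfOinv N hN hNinv g ni n0 hg0 hgH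
    hgD hni hni' hn0 hn0' i j
  obtain ⟨hidx, hρI, hρ, hconj, hfixK, hfin, hU, hval, hlip, hdvd, hs0, hs1⟩ := hF
  obtain ⟨σ₀, hσ₀GF, hσ₀I, hσ₀not, hσ₀p, hcos, t, η, u, r, ht1, htp, hσw, hη, hu, hvη, huK,
    hηK, hrA, hrK, hpw, hSa, hSc⟩ := hs1 rfl
  have hidx0 : (stabV A V).relIndex (A.inertiaSubgroupIn ℚ) ≠ 0 := by
    rw [hidx]
    exact Nat.mul_ne_zero (by have := hpp.two_le; omega) (pow_ne_zero _ hpp.ne_zero)
  have hD' : NodalDatum h W E1 E2 e₁ e₂ P₁ Z₁ P₂ Z₂ := hD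
  obtain ⟨-, -, -, -, -, -, -, -, -, -, hE1, -, -, -, -, hgalE, hS2⟩ := hD
  have huA : u ∈ A := (A.valuation_le_one_iff _).1 hu.le
  have hu₁ : arithmeticGalois (L := Qb) (modularFunctionFieldFull (M * p)) σ₀ • f₀ / f₀ ∈
      OInf h := ConstFrame.galois_div_mem_OInf h hσ₀I hf₀0
  have hu₂ : arithmeticGalois (L := Qb) (modularFunctionFieldFull (M * p)) σ₀ • f₀ / f₀ ∈
      OZero h W := ConstFrame.galois_div_mem_OZero h hW hσ₀I hf₀0
  refine Fermat.Agent.TR.PL.WildGamma.gamma_congr_wild hA h hsurj hH E1 e₁ e₂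
    (Fermat.Agent.TR.Node.NodeRing.E1_nonneg E1 hE1)
    (Fermat.Agent.TR.Node.NodeRing.charts_E1 h W E1 E2 e₁ e₂ P₁ Z₁ P₂ Z₂ hS2)
    (Fermat.Agent.Lib.FF.isFF1_xk _ M) (Fermat.Agent.Lib.FF.isFF1_xk _ M)
    hU.1 hU.2.1 hU.2.2.1 (fun a ha ha0 => hU.2.2.2 a ha ha0)
    (σ := σ₀) ?hBσ ?hBn ht1 hσw hη hu hηK hrA hpw hf₀H hf₀0 ?hSm₁ ?hSm₂ g hgH hg0 ?hY ni n0
    (fun i => ⟨hni i, hni' i⟩) (fun i => ⟨hn0 i, hn0' i⟩) i j
  case hBσ =>
    intro g' hg'
    exact ⟨smul_mem_fixedFunOf_of_conj (hconj σ₀ hσ₀I) hg',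
      fun hgO => galois_sub_mem_inf_of_lip hA h hsurj hW hH hidx0 hσ₀I (hlip σ₀ hσ₀I) hg' hgO,
      fun hgO => galois_sub_mem_zero_of_lip hA h hsurj hW hH hidx0 hσ₀I (hlip σ₀ hσ₀I) hg' hgO⟩
  case hBn =>
    intro g' hg' hg'0
    exact ⟨exists_zpow_unif_inf hA h hsurj hW hH hidx0 hU hg' hg'0,
      exists_zpow_unif_zero hA h hsurj hW hH hidx0 hU hg' hg'0⟩
  case hSm₁ =>
    exact SmoothULip.hSm_inf_of_lip hA hsurj hW hH hidx0 hD' hdegZ₁ hdegZ₂ hσ₀I (hlip σ₀ hσ₀I)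
      hU.2.1 hU.2.2.1 hσw hη huA ⟨r, hrA, hpw⟩ _ hDH f₀ hf₀0 hdiv hu₁
  case hSm₂ =>
    exact SmoothULip.hSm_zero_of_lip hA hsurj hW hH hidx0 hD' hdegZ₁ hdegZ₂ hσ₀I (hlip σ₀ hσ₀I)
      hU.2.1 hU.2.2.1 hσw hη huA ⟨r, hrA, hpw⟩ _ hDH f₀ hf₀0 hdiv hu₂
  case hY =>
    intro i'
    have hF0 : f₀ / g i' ^ p ≠ 0 := div_ne_zero hf₀0 (pow_ne_zero p (hg0 i'))
    refine Fermat.Agent.TR.PL.ThroughReg.smul_div_mem_nodeRing h hW E1 e₁ e₂ hE1
      (fun σ hσ => (hgalE σ hσ).1) i' hσ₀I hF0 (fun P hP => ?_)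
    have h1 : P.ord (g i' ^ p) = (p : ℤ) * P.ord (g i') := by
      have h2 := P.ord_zpow (g i') (p : ℤ)
      rwa [zpow_natCast] at h2
    rw [div_eq_mul_inv, P.ord_mul hf₀0 (inv_ne_zero (pow_ne_zero p (hg0 i'))), P.ord_inv, h1,
      hdiv P, hgD i' P hP]
    ring

end Fermat.Agent.TR.PL.WildAt88
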