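/-
TR / (PL): seam test — the closed term `AsmMid.MidBricks` from the four landed adapters at ONE
datum (`Dict61.exists_datum_dict_res`): (D) the dictionary clause, (G) `GenNode.exists_gen_node`
at the node package of `NodePkgFull.exists_nodePkg_deltaBar`, (N) `NewtonAt.newtAt_node`,
(W) `WildAt88.wildAt_of_datum`.
-/
import Mathlib
import Fermat.Agent.TR.PL.AsmMid
import Fermat.Agent.TR.PL.WildAt88
import Fermat.Agent.TR.PL.GenNode
import Fermat.Agent.TR.PL.NewtonAt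
import Fermat.Agent.TR.Node.Dict61Res

set_option autoImplicit false
set_option linter.style.haveILetI false
set_option linter.unusedSectionVars false
set_option linter.unusedVariables false

noncomputable section

namespace Fermat.Agent.TR.PL.MidInst88

open AlgebraicCurve ModularCurve Fermat.Agent.BAD.TwoVal Fermat.Agent.BAD.NodalPlus
  Fermat.Agent.TR.PL.Frame Fermat.Agent.TR.PL.Through Fermat.Agent.TR.Node.NodeRingAbs
  Fermat.Agent.Lib.FF

local notation "Qb" => AlgebraicClosure ℚ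
local notation "GQ" => (AlgebraicClosure ℚ ≃ₐ[ℚ] AlgebraicClosure ℚ)

set_option synthInstance.maxHeartbeats 400000 in
set_option maxHeartbeats 1600000 in
/-- **The bricks of the middle are theorems.** -/
theorem midBricks : Fermat.Agent.TR.PL.AsmMid.MidBricks := by
  intro A M p _ _ h hA hp5 W hW V L hLV hpV hcardV hcardL hquot hcyc hdeep
  haveI : IsAlgClosed (IsLocalRing.ResidueField A) := CharP.isAlgClosed_residueField A
  have hsurj : Function.Surjective (IsLocalRing.residue A) := IsLocalRing.residue_surjective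
  obtain ⟨E1, E2, ι, hι, hne, e₁, e₂, P₁, Z₁, P₂, Z₂, hD, hdegZ₁, hdegZ₂, hint, hdict, hnodes⟩ :=
    Fermat.Agent.TR.Node.Dict61.exists_datum_dict_res A M p h hA hp5 W hW
  haveI : Fintype ι := hι
  have hD' : NodalDatum h W E1 E2 e₁ e₂ P₁ Z₁ P₂ Z₂ := hD
  obtain ⟨hinj₁, hinj₂, hP₁, hZ₁, hP₂, hZ₂, -, -, hdegP₁, hdegP₂, hE1, hE2, -, hdegE1, -, hgalE,
    hS2⟩ := hD
  refine ⟨ι, e₁, fun i => nodeRing (redPair h W) ⊤ E1 e₁ e₂ i, hdict, ?gen, ?newt,
    Fermat.Agent.TR.PL.WildAt88.wildAt_of_datum hA h hW V hD' hdegZ₁ hdegZ₂⟩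
  case gen =>
    intro D hDH i
    obtain ⟨k', x, y, u, v, -, -, -, hu, -, hxy, -, hx1, -, hy1, hy2, hgen, -⟩ :=
      Fermat.Agent.TR.Node.NodePkgFull.exists_nodePkg_deltaBar hA hsurj h W hW E1 E2 e₁ e₂ P₁ Z₁
        P₂ Z₂ hinj₁ hinj₂ hP₁ hP₂ hdegP₁ hdegP₂ hE1 hE2 hgalE hS2 i hint
    obtain ⟨g, hg0, hgfix, hgord⟩ := Fermat.Agent.TR.PL.GenNode.exists_gen_node hA hsurj h W hW
      E1 E2 e₁ e₂ P₁ Z₁ P₂ Z₂ hE1 hdegE1 hgalE hS2 i k' x y u hu hxy hx1 hy1 hy2 hgen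
      (stabV A V : Set GQ) (fun σ hσ => stabV_le_inertia V hσ) D hDH
    exact ⟨g, hg0, hgfix, hgord⟩
  case newt =>
    intro i w e hwe hw1 hw0 f₀ hf₀ hf₀i hf₀0 hf₀H N hN hN' g hg0 hgH hfg ni n0 h1 h1' h2 h2'
    exact Fermat.Agent.TR.PL.NewtonAt.newtAt_node hA hsurj h W hW E1 E2 e₁ e₂ P₁ Z₁ P₂ Z₂ hinj₁
      hinj₂ hP₁ hP₂ hdegP₁ hdegP₂ hE1 hE2 hgalE hS2 i hint p w e hwe hw1 hw0 f₀ hf₀ hf₀i hf₀0 N
      hN hN' g hg0 hfg ni n0 h1 h1' h2 h2'

/-- **`Asm.PLNumeric` is a theorem.** -/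
theorem plNumeric : Fermat.Agent.TR.PL.Asm.PLNumeric :=
  Fermat.Agent.TR.PL.AsmMid.plNumeric_of_bricks midBricks

/-- **(PL∞) is a theorem.** -/
theorem plInf : Fermat.Agent.TR.PL.Seam.PLInf :=
  Fermat.Agent.TR.PL.AsmMid.plInf_of_bricks midBricks

end Fermat.Agent.TR.PL.MidInst88
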