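import Mathlib
import Fermat.Agent.TR.Node.AnnulusInst
import Fermat.Agent.TR.PL.GenProd
import Fermat.Agent.TR.PL.Through
import Fermat.Agent.TR.PL.ThroughGal
import Fermat.Agent.BAD.LatFixedSub

/-!
# TR / (PL): (GEN) at a node of the special fibre, at the modular objects (annulus route)

Setting of `TR/Node/NodeRing.lean` / `TR/Node/AnnulusInst.lean`: `T_i` the node ring over `ℚ̄` at
the node `i` (`NodeRingAbs.nodeRing (redPair h W) ⊤ E1 e₁ e₂ i`), node coordinates
`x * y = q ^ k * u` in the inertia-fixed node ring (as produced by `NodeRing.exists_nodePkg`).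

* `redNode_of_through`, `through_of_redNode` : the places through the node in the sense of
  `TR.PL.Through.Through` are the places reducing to the node (`HorUnit.RedNode`);
* `eq_of_cong_through`, `ord_sub_eq_one_through` : (inj) and (unr) of `AnnulusInst` for `Through`;
* `exists_gen_node` : **(GEN)** — for a set `H` of inertia elements and an `H`-fixed divisor `D`
  of the generic fibre there is an `H`-fixed function `g ≠ 0` with `ord_P g = D P` at every
  place `P` through the node: `g = ∏ (x - x(P)) ^ (D P)` over the places of `supp D` through the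
  node (`GenProd.exists_gen_through`).
-/

set_option autoImplicit false

noncomputable section

namespace Fermat.Agent.TR.PL.GenNodeAnn

open AlgebraicCurve ModularCurve WithZero Fermat.Agent.Lib.FF Fermat.Agent.Lib.Red.Deform
  Fermat.Agent.BAD.NodalRiemann Fermat.Agent.BAD.TwoVal Fermat.Agent.BAD.LatFixedInst
  Fermat.Agent.BAD.LatFixedRing Fermat.Agent.TR.Node.NodeRing
  Fermat.Agent.TR.Node.HorUnit Fermat.Agent.TR.Node.AnnulusInst Fermat.Agent.TR.PL.Through

local notation "Qb" => AlgebraicClosure ℚ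

local notation "GQ" => (AlgebraicClosure ℚ ≃ₐ[ℚ] AlgebraicClosure ℚ)

variable {A : ValuationSubring Qb} {k : Type} [Field k] {π : A →+* k} {M q : ℕ} [NeZero M]
  [NeZero q]

section Datum

variable (hA : A.LiesOverPrime q) (hπ : Function.Surjective π)
  (h : BadSetup A π M q)
  (W : laurentBaseChange Qb (modularFunctionFieldFull (M * q)) ≃ₐ[Qb]
    laurentBaseChange Qb (modularFunctionFieldFull (M * q))) (hW : IsAL M q W)
  (E1 E2 : Divisor Qb (laurentBaseChange Qb (modularFunctionFieldFull (M * q))))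
  {ι : Type}
  (e₁ e₂ : ι → Place k (modularFunctionFieldFullC k M))
  (P₁ Z₁ P₂ Z₂ : Divisor k (modularFunctionFieldFullC k M))
  (hgalE : ∀ σ ∈ A.inertiaSubgroupIn ℚ,
    arithmeticGalois (modularFunctionFieldFull (M * q)) σ • E1 = E1 ∧
    arithmeticGalois (modularFunctionFieldFull (M * q)) σ • E2 = E2)
  (hS2 : ∃ N₀ : ℕ, ∀ n₁ n₂ : ℕ, N₀ ≤ n₁ + n₂ →
    ∀ t : ↥(modularFunctionFieldFullC k M) × ↥(modularFunctionFieldFullC k M),
      (∃ y : OPair h W,
          (y : laurentBaseChange Qb (modularFunctionFieldFull (M * q))) ∈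
            riemannRochSpace (n₁ • E1 + n₂ • E2) ∧ redPair h W y = t) ↔
        t ∈ gluedSpace e₁ e₂ (fun _ => (1 : k))
          (n₁ • P₁ + n₂ • Z₁) (n₁ • P₂ + n₂ • Z₂))
  (i : ι)

include hS2 in
/-- A place through the node (all functions of the node ring regular) reduces to the node (all
functions of the node ring have integral values). -/
theorem redNode_of_through (hE1 : ∀ v, 0 ≤ E1 v)
    {P : Place Qb (laurentBaseChange Qb (modularFunctionFieldFull (M * q)))}
    (hP : Through (Fermat.Agent.TR.Node.NodeRingAbs.nodeRing (redPair h W) ⊤ E1 e₁ e₂ i) P) :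
    RedNode A (Fermat.Agent.TR.Node.NodeRingAbs.nodeRing (redPair h W) ⊤ E1 e₁ e₂ i) P := by
  intro g hg
  obtain ⟨c, hc⟩ := exists_cong ((isFF1_xL Qb (M * q)).resK P) (hP g hg)
  exact ⟨c, Through.value_mem (fun x => OPair_hOA h x) (OPair_hval h) (redPair h W) π
    h.pi_eq_zero_iff (hconst h W) (redPair_eq_zero_iff h) ⊤ E1 e₁ e₂ i (E1_nonneg E1 hE1)
    (charts_E1 h W E1 E2 e₁ e₂ P₁ Z₁ P₂ Z₂ hS2) (fun _ _ => Subring.mem_top _)
    (fun _ _ => Subring.mem_top _) hP hg hc, hc⟩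

/-- A place reducing to the node passes through the node. -/
theorem through_of_redNode
    {P : Place Qb (laurentBaseChange Qb (modularFunctionFieldFull (M * q)))}
    (hP : RedNode A (Fermat.Agent.TR.Node.NodeRingAbs.nodeRing (redPair h W) ⊤ E1 e₁ e₂ i) P) :
    Through (Fermat.Agent.TR.Node.NodeRingAbs.nodeRing (redPair h W) ⊤ E1 e₁ e₂ i) P := by
  intro g hg
  obtain ⟨c, -, hc⟩ := hP g hg
  exact hc.le_one

section Main

variable {k' : ℕ} {x y u : nodeRing h W E1 e₁ e₂ i} (hu : IsUnit u)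
  (hxy : x * y = ((q : ℕ) : nodeRing h W E1 e₁ e₂ i) ^ k' * u)
  (hx1 : (e₁ i).ord (redInf h ⟨x, mem_OInf h W E1 e₁ e₂ i x.2⟩) = 1)
  (hy0 : redInf h ⟨y, mem_OInf h W E1 e₁ e₂ i y.2⟩ = 0)
  (hy1 : (e₂ i).ord (redZero h W ⟨y, mem_OZero h W E1 e₁ e₂ i y.2⟩) = 1)
  (hgen : ∀ g : nodeRing h W E1 e₁ e₂ i,
    Cong (e₁ i) (redInf h ⟨g, mem_OInf h W E1 e₁ e₂ i g.2⟩) 0 →
    ∃ α β γ : nodeRing h W E1 e₁ e₂ i, g = α * x + β * y +
      γ * ((q : ℕ) : nodeRing h W E1 e₁ e₂ i))

include hA hπ hW hgalE hS2 hu hxy hx1 hy0 hgen in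
/-- **(inj)** for the places through the node. -/
theorem eq_of_cong_through (hE1 : ∀ v, 0 ≤ E1 v) (hdegE1 : 0 < Divisor.degree E1)
    {P P' : Place Qb (laurentBaseChange Qb (modularFunctionFieldFull (M * q)))} {c : Qb}
    (hP : Through (Fermat.Agent.TR.Node.NodeRingAbs.nodeRing (redPair h W) ⊤ E1 e₁ e₂ i) P)
    (hP' : Through (Fermat.Agent.TR.Node.NodeRingAbs.nodeRing (redPair h W) ⊤ E1 e₁ e₂ i) P')
    (hc : Cong P (x : laurentBaseChange Qb (modularFunctionFieldFull (M * q))) c)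
    (hc' : Cong P' (x : laurentBaseChange Qb (modularFunctionFieldFull (M * q))) c) :
    P' = P :=
  node_inj hA hπ h W hW E1 E2 e₁ e₂ P₁ Z₁ P₂ Z₂ hgalE hS2 i hu hxy hx1 hy0 hgen hE1 hdegE1
    (redNode_of_through h W E1 E2 e₁ e₂ P₁ Z₁ P₂ Z₂ hS2 i hE1 hP)
    (redNode_of_through h W E1 E2 e₁ e₂ P₁ Z₁ P₂ Z₂ hS2 i hE1 hP') hc hc'

include hA hπ hW hgalE hS2 hu hxy hx1 hy0 hy1 hgen in
/-- **(unr)** for the places through the node. -/
theorem ord_sub_eq_one_through (hE1 : ∀ v, 0 ≤ E1 v) (hdegE1 : 0 < Divisor.degree E1)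
    {P : Place Qb (laurentBaseChange Qb (modularFunctionFieldFull (M * q)))} {c : Qb}
    (hP : Through (Fermat.Agent.TR.Node.NodeRingAbs.nodeRing (redPair h W) ⊤ E1 e₁ e₂ i) P)
    (hc : Cong P (x : laurentBaseChange Qb (modularFunctionFieldFull (M * q))) c) :
    P.ord ((x : laurentBaseChange Qb (modularFunctionFieldFull (M * q))) -
      algebraMap Qb (laurentBaseChange Qb (modularFunctionFieldFull (M * q))) c) = 1 :=
  node_unr' hA hπ h W hW E1 E2 e₁ e₂ P₁ Z₁ P₂ Z₂ hgalE hS2 i hu hxy hx1 hy0 hgen hE1 hdegE1 hy1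
    (redNode_of_through h W E1 E2 e₁ e₂ P₁ Z₁ P₂ Z₂ hS2 i hE1 hP) hc

include hA hπ hW hgalE hS2 hu hxy hx1 hy0 hy1 hgen in
/-- **(GEN) at the node `i`**: for a set `H` of inertia elements and an `H`-fixed divisor `D`
there is an `H`-fixed function `g ≠ 0` with `ord_P g = D P` at every place `P` through the
node. -/
theorem exists_gen_node (hE1 : ∀ v, 0 ≤ E1 v) (hdegE1 : 0 < Divisor.degree E1)
    (H : Set GQ) (hH : ∀ σ ∈ H, σ ∈ A.inertiaSubgroupIn ℚ)
    (D : Divisor Qb (laurentBaseChange Qb (modularFunctionFieldFull (M * q))))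
    (hD : ∀ σ ∈ H, arithmeticGalois (L := Qb) (modularFunctionFieldFull (M * q)) σ • D = D) :
    ∃ g : laurentBaseChange Qb (modularFunctionFieldFull (M * q)),
      g ≠ 0 ∧ g ∈ Fermat.Agent.BAD.LatFixedInst.fixedFunOf H (M * q) ∧
      ∀ P : Place Qb (laurentBaseChange Qb (modularFunctionFieldFull (M * q))),
        Through (Fermat.Agent.TR.Node.NodeRingAbs.nodeRing (redPair h W) ⊤ E1 e₁ e₂ i) P → P.ord g = D P := by
  obtain ⟨g, hg0, hgH, hgD⟩ := Fermat.Agent.TR.PL.GenProd.exists_gen_through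
    (L := Qb) (F := laurentBaseChange Qb (modularFunctionFieldFull (M * q)))
    ((fun σ : GQ => arithmeticGalois (L := Qb) (modularFunctionFieldFull (M * q)) σ) '' H)
    (Fermat.Agent.TR.Node.NodeRingAbs.nodeRing (redPair h W) ⊤ E1 e₁ e₂ i)
    (by
      rintro _ ⟨σ, hσ, rfl⟩ g hg
      have hσI : σ⁻¹ ∈ A.inertiaSubgroupIn ℚ := Subgroup.inv_mem _ (hH σ hσ)
      have e : (arithmeticGalois (L := Qb) (modularFunctionFieldFull (M * q)) σ)⁻¹ =
          arithmeticGalois (L := Qb) (modularFunctionFieldFull (M * q)) σ⁻¹ := (map_inv _ σ).symm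
      rw [e]
      exact (Fermat.Agent.TR.PL.ThroughGal.inertia_mem_nodeRing_top_iff h hW
        (fun τ hτ => (hgalE τ hτ).1) e₁ e₂ i hσI g).2 hg)
    (fun Q _ => (isFF1_xL Qb (M * q)).resK Q)
    (ξ := (x : laurentBaseChange Qb (modularFunctionFieldFull (M * q))))
    (le_top_nodeRing h W E1 e₁ e₂ i x.2)
    (by
      rintro _ ⟨σ, hσ, rfl⟩
      exact mem_fixed h W E1 e₁ e₂ i x.2 σ (hH σ hσ))
    (fun P c hP hc => ord_sub_eq_one_through hA hπ h W hW E1 E2 e₁ e₂ P₁ Z₁ P₂ Z₂ hgalE hS2 i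
      hu hxy hx1 hy0 hy1 hgen hE1 hdegE1 hP hc)
    (fun P P' c hP hP' hc hc' => eq_of_cong_through hA hπ h W hW E1 E2 e₁ e₂ P₁ Z₁ P₂ Z₂ hgalE
      hS2 i hu hxy hx1 hy0 hgen hE1 hdegE1 hP hP' hc hc')
    D
    (by
      rintro _ ⟨σ, hσ, rfl⟩
      exact hD σ hσ)
  exact ⟨g, hg0, fun σ hσ => hgH _ ⟨σ, hσ, rfl⟩, fun P hP => hgD P hP⟩

end Main

end Datum

end Fermat.Agent.TR.PL.GenNodeAnn
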