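/-
TR / (PL), brick (GEN) = (I3): **the brick `AsmMid.GenAt` for an arbitrary nodal datum**
(helper1, deputy of the (GEN) sub-tree; adapter (G) of helper48's ruling T1).

Setting of `TR/Node/NodeRing.lean` (`h : BadSetup A π M q`, a nodal datum
`(E1, E2, ι, e₁, e₂, P₁, Z₁, P₂, Z₂)`), `T i := NodeRingAbs.nodeRing (redPair h W) ⊤ E1 e₁ e₂ i`
the node ring over `ℚ̄` at the node `i`, `Through (T i) P` = "the place `P` of the generic fibre
passes through the node `i`" (`TR/PL/Through.lean`).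

* `exists_gen_datum` : for an arbitrary `NodalPlus.NodalDatum` with `ChartHyp E1`, every node `i`,
  every set `H` of inertia elements and every `H`-stable divisor `D` of the generic fibre:
  `∃ g ≠ 0, g ∈ fixedFunOf H (M * q) ∧ ∀ P, Through (T i) P → P.ord g = D P`
  (= `GenNodeAnn.exists_gen_node` (helper75) at the node package
  `NodePkgFull.exists_nodePkg_deltaBar` (helper85); generic `(k, π)`).
* `genAt_of_datum` : residue-field form (`π = IsLocalRing.residue A`) — LITERALLY the body of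
  `AsmMid.GenAt M p H (fun i => NodeRingAbs.nodeRing (redPair h W) ⊤ E1 e₁ e₂ i)`, so that the
  conjunct (GEN) of `AsmMid.MidBricks` is `genAt_of_datum hA h hW hD hint _ (fun σ hσ => …)`.
-/
import Mathlib
import Fermat.Agent.BAD.NodalPlus
import Fermat.Agent.TR.PL.GenNodeAnn
import Fermat.Agent.TR.Node.NodePkgFull

set_option autoImplicit false
set_option linter.unusedSectionVars false
set_option linter.unusedVariables false
set_option linter.style.haveILetI false

noncomputable section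

namespace Fermat.Agent.TR.PL.GenAt

open AlgebraicCurve ModularCurve Fermat.Agent.BAD.TwoVal Fermat.Agent.BAD.LatFixedInst
  Fermat.Agent.BAD.NodalPlus Fermat.Agent.TR.PL.Through

local notation "Qb" => AlgebraicClosure ℚ
local notation "GQ" => (AlgebraicClosure ℚ ≃ₐ[ℚ] AlgebraicClosure ℚ)

/-- **(GEN) for an arbitrary nodal datum, at every node** (generic `(k, π)`). -/
theorem exists_gen_datum {A : ValuationSubring Qb} {k : Type} [Field k] {π : A →+* k}
    {M q : ℕ} [NeZero M] [NeZero q] [IsAlgClosed k]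
    (hA : A.LiesOverPrime q) (hπ : Function.Surjective π) (h : BadSetup A π M q)
    {W : laurentBaseChange Qb (modularFunctionFieldFull (M * q)) ≃ₐ[Qb]
      laurentBaseChange Qb (modularFunctionFieldFull (M * q))} (hW : IsAL M q W)
    {E1 E2 : Divisor Qb (laurentBaseChange Qb (modularFunctionFieldFull (M * q)))}
    {ι : Type} [Fintype ι] {e₁ e₂ : ι → Place k (modularFunctionFieldFullC k M)}
    {P₁ Z₁ P₂ Z₂ : Divisor k (modularFunctionFieldFullC k M)}
    (hD : NodalDatum h W E1 E2 e₁ e₂ P₁ Z₁ P₂ Z₂)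
    (hint : Fermat.Agent.TR.Node.NodePkgFull.ChartHyp E1)
    (H : Set GQ) (hH : ∀ σ ∈ H, σ ∈ A.inertiaSubgroupIn ℚ)
    (D : Divisor Qb (laurentBaseChange Qb (modularFunctionFieldFull (M * q))))
    (hDH : ∀ σ ∈ H, arithmeticGalois (L := Qb) (modularFunctionFieldFull (M * q)) σ • D = D)
    (i : ι) :
    ∃ g : laurentBaseChange Qb (modularFunctionFieldFull (M * q)),
      g ≠ 0 ∧ g ∈ fixedFunOf H (M * q) ∧
      ∀ P : Place Qb (laurentBaseChange Qb (modularFunctionFieldFull (M * q))),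
        Through (Fermat.Agent.TR.Node.NodeRingAbs.nodeRing (redPair h W) ⊤ E1 e₁ e₂ i) P →
          P.ord g = D P := by
  obtain ⟨hinj₁, hinj₂, hP₁, -, hP₂, -, -, -, hdegP₁, hdegP₂, hE1, hE2, -, hdegE1, -, hgalE,
    hS2⟩ := hD
  obtain ⟨k', x, y, u, v, -, -, -, hu, -, hxy, -, hx1, -, hy0, hy1, hgen, -⟩ :=
    Fermat.Agent.TR.Node.NodePkgFull.exists_nodePkg_deltaBar hA hπ h W hW E1 E2 e₁ e₂ P₁ Z₁ P₂ Z₂
      hinj₁ hinj₂ hP₁ hP₂ hdegP₁ hdegP₂ hE1 hE2 hgalE hS2 i hint
  exact Fermat.Agent.TR.PL.GenNodeAnn.exists_gen_node hA hπ h W hW E1 E2 e₁ e₂ P₁ Z₁ P₂ Z₂ hgalE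
    hS2 i hu hxy hx1 hy0 hy1 hgen hE1 hdegE1 H hH D hDH

set_option synthInstance.maxHeartbeats 400000 in
set_option maxHeartbeats 1600000 in
/-- **(GEN), residue-field form = the brick `AsmMid.GenAt` (unfolded)** for an arbitrary nodal
datum of the BAD objects with `ChartHyp E1`, at the node rings
`T i = NodeRingAbs.nodeRing (redPair h W) ⊤ E1 e₁ e₂ i`, for any set `H` of inertia elements. -/
theorem genAt_of_datum {A : ValuationSubring Qb} {M p : ℕ} [NeZero M] [NeZero p]
    (hA : A.LiesOverPrime p) (h : BadSetup A (IsLocalRing.residue A) M p)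
    {W : laurentBaseChange Qb (modularFunctionFieldFull (M * p)) ≃ₐ[Qb]
      laurentBaseChange Qb (modularFunctionFieldFull (M * p))} (hW : IsAL M p W)
    {E1 E2 : Divisor Qb (laurentBaseChange Qb (modularFunctionFieldFull (M * p)))}
    {ι : Type} [Fintype ι]
    {e₁ e₂ : ι → Place (IsLocalRing.ResidueField A)
      (modularFunctionFieldFullC (IsLocalRing.ResidueField A) M)}
    {P₁ Z₁ P₂ Z₂ : Divisor (IsLocalRing.ResidueField A)
      (modularFunctionFieldFullC (IsLocalRing.ResidueField A) M)}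
    (hD : NodalDatum h W E1 E2 e₁ e₂ P₁ Z₁ P₂ Z₂)
    (hint : Fermat.Agent.TR.Node.NodePkgFull.ChartHyp E1)
    (H : Set GQ) (hH : ∀ σ ∈ H, σ ∈ A.inertiaSubgroupIn ℚ) :
    ∀ D : Divisor Qb (laurentBaseChange Qb (modularFunctionFieldFull (M * p))),
      (∀ σ ∈ H, arithmeticGalois (L := Qb) (modularFunctionFieldFull (M * p)) σ • D = D) →
      ∀ i : ι, ∃ g : laurentBaseChange Qb (modularFunctionFieldFull (M * p)),
        g ≠ 0 ∧ g ∈ fixedFunOf H (M * p) ∧
        ∀ P : Place Qb (laurentBaseChange Qb (modularFunctionFieldFull (M * p))),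
          Through (Fermat.Agent.TR.Node.NodeRingAbs.nodeRing (redPair h W) ⊤ E1 e₁ e₂ i) P →
            P.ord g = D P := by
  haveI : IsAlgClosed (IsLocalRing.ResidueField A) :=
    Fermat.Agent.Lib.FF.CharP.isAlgClosed_residueField A
  intro D hDH i
  exact exists_gen_datum hA IsLocalRing.residue_surjective h hW hD hint H hH D hDH i

end Fermat.Agent.TR.PL.GenAt
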