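/-
TR / (PL): the brick (GEN) of the middle under its name — `AsmMid.GenAt` for an arbitrary nodal
datum (helper1).  One line on top of `TR/PL/GenAt.genAt_of_datum`.
-/
import Mathlib
import Fermat.Agent.TR.PL.AsmMid
import Fermat.Agent.TR.PL.GenAt

set_option autoImplicit false

noncomputable section

namespace Fermat.Agent.TR.PL.GenAtMid

open AlgebraicCurve ModularCurve Fermat.Agent.BAD.TwoVal Fermat.Agent.BAD.NodalPlus
  Fermat.Agent.TR.PL.Frame

local notation "Qb" => AlgebraicClosure ℚ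
local notation "GQ" => (AlgebraicClosure ℚ ≃ₐ[ℚ] AlgebraicClosure ℚ)

set_option synthInstance.maxHeartbeats 400000 in
set_option maxHeartbeats 1600000 in
/-- **`AsmMid.GenAt` for an arbitrary nodal datum** (with `ChartHyp E1`) and any set `H` of
inertia elements. -/
theorem genAt_closed {A : ValuationSubring Qb} {M p : ℕ} [NeZero M] [NeZero p]
    (hA : A.LiesOverPrime p) (h : BadSetup A (IsLocalRing.residue A) M p)
    {W : laurentBaseChange Qb (modularFunctionFieldFull (M * p)) ≃ₐ[Qb]
      laurentBaseChange Qb (modularFunctionFieldFull (M * p))} (hW : IsAL M p W)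
    {E1 E2 : Divisor Qb (laurentBaseChange Qb (modularFunctionFieldFull (M * p)))}
    {ι : Type} [Fintype ι]
    {e₁ e₂ : ι → Place (IsLocalRing.ResidueField A)
      (modularFunctionFieldFullC (IsLocalRing.ResidueField A) M)}
    {P₁ Z₁ P₂ Z₂ : Divisor (IsLocalRing.ResidueField A)
      (modularFunctionFieldFullC (IsLocalRing.ResidueField A) M)}
    (hD : NodalDatum h W E1 E2 e₁ e₂ P₁ Z₁ P₂ Z₂)
    (hint : Fermat.Agent.TR.Node.NodePkgFull.ChartHyp E1)
    (H : Set GQ) (hH : ∀ σ ∈ H, σ ∈ A.inertiaSubgroupIn ℚ) :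
    Fermat.Agent.TR.PL.AsmMid.GenAt M p H
      (fun i => Fermat.Agent.TR.Node.NodeRingAbs.nodeRing (redPair h W) ⊤ E1 e₁ e₂ i) :=
  Fermat.Agent.TR.PL.GenAt.genAt_of_datum hA h hW hD hint H hH

set_option synthInstance.maxHeartbeats 400000 in
set_option maxHeartbeats 1600000 in
/-- The same at `H = stabV A V` (the group of the frame), the form of `AsmMid.MidBricks`. -/
theorem genAt_stabV {A : ValuationSubring Qb} {M p : ℕ} [NeZero M] [NeZero p]
    (hA : A.LiesOverPrime p) (h : BadSetup A (IsLocalRing.residue A) M p)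
    {W : laurentBaseChange Qb (modularFunctionFieldFull (M * p)) ≃ₐ[Qb]
      laurentBaseChange Qb (modularFunctionFieldFull (M * p))} (hW : IsAL M p W)
    (V : AddSubgroup (ModularCurve.JZero (M * p)))
    {E1 E2 : Divisor Qb (laurentBaseChange Qb (modularFunctionFieldFull (M * p)))}
    {ι : Type} [Fintype ι]
    {e₁ e₂ : ι → Place (IsLocalRing.ResidueField A)
      (modularFunctionFieldFullC (IsLocalRing.ResidueField A) M)}
    {P₁ Z₁ P₂ Z₂ : Divisor (IsLocalRing.ResidueField A)
      (modularFunctionFieldFullC (IsLocalRing.ResidueField A) M)}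
    (hD : NodalDatum h W E1 E2 e₁ e₂ P₁ Z₁ P₂ Z₂)
    (hint : Fermat.Agent.TR.Node.NodePkgFull.ChartHyp E1) :
    Fermat.Agent.TR.PL.AsmMid.GenAt M p (stabV A V : Set GQ)
      (fun i => Fermat.Agent.TR.Node.NodeRingAbs.nodeRing (redPair h W) ⊤ E1 e₁ e₂ i) :=
  genAt_closed hA h hW hD hint _ (fun σ hσ => stabV_le_inertia V hσ)

end Fermat.Agent.TR.PL.GenAtMid
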