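/-
TR / (PL), (I2) (helper67): **(NEWT) at a node, in the consumer shape of the middle**
(`AsmMid.NewtAt`, with the premise `f₀ ≠ 0`).

Binders = the nodal datum of `TR/Node/NodePkgFull.lean` (the conjuncts of `KerRed.NodalFibreFor`)
and `hint : ChartHyp E1`.  At every node `i`, with `T i` the node ring at the level of `ℚ̄`
(`NodeRingAbs.nodeRing (redPair h W) ⊤ E1 e₁ e₂ i`): for `w` with `v(w)^e = v(q)`, a unit `f₀` of
`O_∞` with `f₀ = w^N · (unit of O_0)`, `g ≠ 0` with `ord_P f₀ = p · ord_P g` at the places through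
the node and `g = w^(n∞) · (unit of O_∞) = w^(n0) · (unit of O_0)`:

  `∃ kk a δ : ℤ, ord_{e₁ i} Δ̄ * kk = 12 ∧ N = e * kk * a + p * (n0 - n∞) ∧
     ord_{e₁ i} (redInf f₀) = a + p * δ`.

(`kk` = the thickness of the node, from `NodePkgFull.exists_nodePkg_deltaBar`; the Newton relation
is `NewtonInst.newt_inst_zpow` at the node coordinates of the same package.)
-/
import Mathlib
import Fermat.Agent.TR.Node.NodePkgFull
import Fermat.Agent.TR.PL.NewtonInst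

set_option autoImplicit false
set_option linter.unusedSectionVars false
set_option linter.unusedVariables false

noncomputable section

namespace Fermat.Agent.TR.PL.NewtonAt

open AlgebraicCurve ModularCurve WithZero Fermat.Agent.Lib.FF Fermat.Agent.Lib.Red.Deform
  Fermat.Agent.BAD.NodalRiemann Fermat.Agent.BAD.TwoVal
  Fermat.Agent.TR.Node.NodeRing Fermat.Agent.TR.Node.NodePkgFull Fermat.Agent.TR.PL.Seam
  Fermat.Agent.TR.PL.Through Fermat.Agent.TR.PL.NewtonInst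

local notation "Qb" => AlgebraicClosure ℚ

variable {A : ValuationSubring Qb} {k : Type} [Field k] {π : A →+* k} {M q : ℕ} [NeZero M]
  [NeZero q]

section Datum

variable [IsAlgClosed k] (hA : A.LiesOverPrime q) (hπ : Function.Surjective π)
  (h : BadSetup A π M q)
  (W : laurentBaseChange Qb (modularFunctionFieldFull (M * q)) ≃ₐ[Qb]
    laurentBaseChange Qb (modularFunctionFieldFull (M * q))) (hW : IsAL M q W)
  (E1 E2 : Divisor Qb (laurentBaseChange Qb (modularFunctionFieldFull (M * q))))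
  {ι : Type} [Fintype ι]
  (e₁ e₂ : ι → Place k (modularFunctionFieldFullC k M))
  (P₁ Z₁ P₂ Z₂ : Divisor k (modularFunctionFieldFullC k M))
  (hinj₁ : Function.Injective e₁) (hinj₂ : Function.Injective e₂)
  (hP₁ : ∀ i, P₁ (e₁ i) = 0) (hP₂ : ∀ i, P₂ (e₂ i) = 0)
  (hdegP₁ : 0 < Divisor.degree P₁) (hdegP₂ : 0 < Divisor.degree P₂)
  (hE1 : ∀ v, 0 ≤ E1 v) (hE2 : ∀ v, 0 ≤ E2 v)
  (hgalE : ∀ σ ∈ A.inertiaSubgroupIn ℚ,
    arithmeticGalois (modularFunctionFieldFull (M * q)) σ • E1 = E1 ∧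
    arithmeticGalois (modularFunctionFieldFull (M * q)) σ • E2 = E2)
  (hS2 : ∃ N₀ : ℕ, ∀ n₁ n₂ : ℕ, N₀ ≤ n₁ + n₂ →
    ∀ t : ↥(modularFunctionFieldFullC k M) × ↥(modularFunctionFieldFullC k M),
      (∃ y : OPair h W,
          (y : laurentBaseChange Qb (modularFunctionFieldFull (M * q))) ∈
            riemannRochSpace (n₁ • E1 + n₂ • E2) ∧ redPair h W y = t) ↔
        t ∈ gluedSpace e₁ e₂ (fun _ => (1 : k))
          (n₁ • P₁ + n₂ • Z₁) (n₁ • P₂ + n₂ • Z₂))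
  (i : ι)

include hA hπ hW hinj₁ hinj₂ hP₁ hP₂ hdegP₁ hdegP₂ hE1 hE2 hgalE hS2 in
/-- **(NEWT) at the node `i`** — the body of `AsmMid.NewtAt` (with `f₀ ≠ 0`) at
`T i := NodeRingAbs.nodeRing (redPair h W) ⊤ E1 e₁ e₂ i`, Kummer exponent `p`. -/
theorem newtAt_node (hint : ChartHyp E1) (p : ℕ) (w : Qb) (e : ℕ)
    (hwe : A.valuation w ^ e = A.valuation ((q : ℕ) : Qb)) (hw1 : A.valuation w < 1)
    (hw0 : w ≠ 0)
    (f₀ : laurentBaseChange Qb (modularFunctionFieldFull (M * q))) (hf₀ : f₀ ∈ OInf h)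
    (hf₀' : f₀⁻¹ ∈ OInf h) (hf0 : f₀ ≠ 0)
    (N : ℤ) (hN : (w ^ N)⁻¹ • f₀ ∈ OZero h W) (hN' : ((w ^ N)⁻¹ • f₀)⁻¹ ∈ OZero h W)
    (g : laurentBaseChange Qb (modularFunctionFieldFull (M * q))) (hg0 : g ≠ 0)
    (hfg : ∀ P : Place Qb (laurentBaseChange Qb (modularFunctionFieldFull (M * q))),
      Through (Fermat.Agent.TR.Node.NodeRingAbs.nodeRing (redPair h W) ⊤ E1 e₁ e₂ i) P →
        P.ord f₀ = (p : ℤ) * P.ord g)
    (ni n0 : ℤ) (h1 : (w ^ ni)⁻¹ • g ∈ OInf h) (h1' : ((w ^ ni)⁻¹ • g)⁻¹ ∈ OInf h)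
    (h2 : (w ^ n0)⁻¹ • g ∈ OZero h W) (h2' : ((w ^ n0)⁻¹ • g)⁻¹ ∈ OZero h W) :
    ∃ kk a δ : ℤ, (e₁ i).ord (deltaBar h) * kk = 12 ∧
      N = (e : ℤ) * kk * a + (p : ℤ) * (n0 - ni) ∧
      (e₁ i).ord (redInf h ⟨f₀, hf₀⟩) = a + (p : ℤ) * δ := by
  obtain ⟨k', x, y, u, v, -, h12, -, hu, -, hxy, -, hx1, -, -, hy2, -⟩ :=
    exists_nodePkg_deltaBar hA hπ h W hW E1 E2 e₁ e₂ P₁ Z₁ P₂ Z₂ hinj₁ hinj₂ hP₁ hP₂ hdegP₁
      hdegP₂ hE1 hE2 hgalE hS2 i hint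
  obtain ⟨a, δ, hNa, hm⟩ := newt_inst_zpow h W E1 E2 e₁ e₂ P₁ Z₁ P₂ Z₂ hE1 hS2 i hu hxy hx1 hy2
    hf₀ hf₀' hf0 hg0 hfg hw0 hw1 hwe h1 h1' h2 h2' hN hN'
  exact ⟨(k' : ℤ), a, δ, h12, hNa, hm⟩

end Datum

end Fermat.Agent.TR.PL.NewtonAt
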