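import Mathlib
import Fermat.Agent.TR.PL.AsmMid
import Fermat.Agent.TR.Node.Dict61
import Fermat.Agent.TR.PL.GenAtMid
import Fermat.Agent.TR.PL.NewtonAt
import Fermat.Agent.TR.PL.WildAt88

/-!
# TR / (PL): the middle, closed — `MidBricks`, `PLNumeric`, `PLInf` as theorems

ONE nodal datum with its dictionary (`Dict61.exists_datum_dict61`, the explicit `J`-datum at
residue characteristic `≥ 5`) and the four adapters at that datum:

* (D) the dictionary clause of `Dict61.exists_datum_dict61`;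
* (G) `GenAtMid.genAt_stabV` (local generators at the nodes);
* (N) `NewtonAt.newtAt_node` (the Newton relation at a node);
* (W) `WildAt88.wildAt_of_datum` (the wild congruence).

Hence `midBricks : AsmMid.MidBricks`, `plNumeric : Asm.PLNumeric` and `plInf : Seam.PLInf`.
-/

set_option autoImplicit false

noncomputable section

namespace Fermat.Agent.TR.PL.AsmMidInst85

open AlgebraicCurve ModularCurve Fermat.Agent.BAD.TwoVal Fermat.Agent.BAD.NodalPlus
  Fermat.Agent.TR.PL.Frame Fermat.Agent.TR.PL.Seam Fermat.Agent.TR.PL.AsmMid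

local notation "Qb" => AlgebraicClosure ℚ
local notation "GQ" => (AlgebraicClosure ℚ ≃ₐ[ℚ] AlgebraicClosure ℚ)

set_option synthInstance.maxHeartbeats 400000 in
set_option maxHeartbeats 1600000 in
/-- **The bricks of the middle, closed**: ONE datum (`Dict61.exists_datum_dict61`) and the four
adapters at that datum. -/
theorem midBricks : MidBricks := by
  intro A M p _ _ h hA hp5 W hW V L hLV hpV hcardV hcardL hquot hcyc hdeep
  have : IsAlgClosed (IsLocalRing.ResidueField A) :=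
    Fermat.Agent.Lib.FF.CharP.isAlgClosed_residueField A
  obtain ⟨E1, E2, ι, hι, hne, e₁, e₂, P₁, Z₁, P₂, Z₂, hD, hdegZ₁, hdegZ₂, hint, -, -, -, hdict,
    -, -⟩ := Fermat.Agent.TR.Node.Dict61.exists_datum_dict61 hA IsLocalRing.residue_surjective h
      hp5 hW
  refine ⟨ι, e₁, fun i => Fermat.Agent.TR.Node.NodeRingAbs.nodeRing (redPair h W) ⊤ E1 e₁ e₂ i,
    ?_, ?_, ?_, ?_⟩
  · intro Q hQ hpos
    exact hdict Q (ne_of_gt hpos) hQ
  · exact Fermat.Agent.TR.PL.GenAtMid.genAt_stabV hA h hW V hD hint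
  · obtain ⟨hinj₁, hinj₂, hP₁, -, hP₂, -, -, -, hdegP₁, hdegP₂, hE1, hE2, -, -, -, hgalE, hS2⟩ :=
      hD
    intro i w e hwe hw1 hw0 f₀ hf₀ hf₀i hf₀0 hf₀H N hN hNi g hg0 hgH hfg ni n0 h1 h1' h2 h2'
    exact Fermat.Agent.TR.PL.NewtonAt.newtAt_node hA IsLocalRing.residue_surjective h W hW E1 E2
      e₁ e₂ P₁ Z₁ P₂ Z₂ hinj₁ hinj₂ hP₁ hP₂ hdegP₁ hdegP₂ hE1 hE2 hgalE hS2 i hint p w e hwe hw1
      hw0 f₀ hf₀ hf₀i hf₀0 N hN hNi g hg0 hfg ni n0 h1 h1' h2 h2'
  · exact Fermat.Agent.TR.PL.WildAt88.wildAt_of_datum hA h hW V hD hdegZ₁ hdegZ₂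

/-- **The numerical package of the node side** (`Asm.PLNumeric`), closed. -/
theorem plNumeric : Fermat.Agent.TR.PL.Asm.PLNumeric :=
  plNumeric_of_bricks midBricks

/-- **(PL∞)** (`Seam.PLInf`), closed: the seam node side → Hecke side is a theorem. -/
theorem plInf : PLInf :=
  Fermat.Agent.TR.PL.Asm.plInf_of_numeric plNumeric

end Fermat.Agent.TR.PL.AsmMidInst85
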