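/-
TR (PL), the `u`-route in the lattice-level nodal setting of `TR/Node/NodeRingAbs.lean`:
`ConstU.dvd_gamma_sub` with the node hypotheses discharged by `GlueNode.const_indep_node`.

Setting: that of `TR/PL/GlueNode.lean` (`L ⊆ F`, `A`, `O = O₁ ⊓ O₂`, `red = (red₁, red₂)`, chart
divisor `E`, nodes `e₁ i`, `e₂ i`, a subfield `K` of `L` with uniformiser `w` and full residue
field, a subring `Fx` of `F` on which both valuations are discrete with uniformiser `w`).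
Let `q` be the residue characteristic, with `q * w ^ t ∈ w ^ (q * t + 1) A`, and
`η = w ^ t * (unit)`.

* `dvd_gamma_sub_node` : for `u ∈ Fx`, a unit of `O₁`, lying in `O₂`, which at every node `i` is
  `H i ^ q` times an element of the node ring, with `H i ≡ 1` on the first side,
  `H i ≡ c i` on the second side and `c i ≡ 1 + γ i * η`, all modulo `w ^ (t + 1)`, and whose
  successive quotients `(u - a) / w ^ m` (`m ≤ q * t`) have reductions regular away from the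
  nodes: `q ∣ γ i - γ j` for any two nodes.
-/
import Mathlib
import Fermat.Agent.TR.PL.GlueNode
import Fermat.Agent.TR.PL.ConstU

set_option autoImplicit false

noncomputable section

namespace Fermat.Agent.TR.PL.GlueNodeU

open AlgebraicCurve WithZero Fermat.Agent.Lib.FF Fermat.Agent.BAD.NodalRiemann
  Fermat.Agent.Lib.Red.Deform Fermat.Agent.TR.Node.NodalLocal Fermat.Agent.TR.Node.NodeRingAbs
  Fermat.Agent.TR.PL.GlueConst Fermat.Agent.TR.PL.GlueNode Fermat.Agent.TR.Node.SigmaGlue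
  Fermat.Agent.TR.Node.SigmaGluePow

variable {L F : Type*} [Field L] [Field F] [Algebra L F] {A : ValuationSubring L} {O : Subring F}
  {k F₁ F₂ : Type*} [Field k] [Field F₁] [Field F₂] [Algebra k F₁] [Algebra k F₂]
  {ι : Type*}

/-- Arithmetic end of the `u`-route, in the constant field: if `c i ≡ 1 + γ i η` modulo
`w ^ (t + 1)` and `c i ^ q ≡ c j ^ q` modulo `w ^ (q t + 1)`, then `q ∣ γ i - γ j`. -/
theorem dvd_of_pow_congr {w η : L} (hw0 : w ≠ 0) (hw1 : A.valuation w < 1) {q t : ℕ}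
    (hq : q.Prime) (hqA : A.valuation (q : L) < 1)
    (hqw : ∃ r ∈ A, (q : L) * w ^ t = w ^ (q * t + 1) * r)
    (hη : ∃ u : L, A.valuation u = 1 ∧ η = w ^ t * u) {ci cj : L} (γi γj : ℤ)
    (hci : ∃ b ∈ A, ci - (1 + (γi : L) * η) = w ^ (t + 1) * b)
    (hcj : ∃ b ∈ A, cj - (1 + (γj : L) * η) = w ^ (t + 1) * b)
    (h : ∃ b ∈ A, ci ^ q - cj ^ q = w ^ (q * t + 1) * b) : (q : ℤ) ∣ γi - γj := by
  have hwA : w ∈ A := (A.valuation_le_one_iff w).1 hw1.le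
  have hwn : w ∈ A.nonunits := (A.mem_nonunits_iff).2 hw1
  have hqn : (q : L) ∈ A.nonunits := (A.mem_nonunits_iff).2 hqA
  obtain ⟨u, hu1, hηu⟩ := hη
  have huA : u ∈ A := (A.valuation_le_one_iff u).1 hu1.le
  have hun : u ∉ A.nonunits := by
    rw [A.mem_nonunits_iff, hu1]
    exact lt_irrefl _
  have hηt : ∃ r ∈ A, η = w ^ t * r := ⟨u, huA, hηu⟩
  have hηA : η ∈ A := by rw [hηu]; exact mul_mem (pow_mem hwA _) huA
  have hCq : ∀ (c : L) (γ : ℤ), (∃ b ∈ A, c - (1 + (γ : L) * η) = w ^ (t + 1) * b) →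
      Cg A w (q * t + 1) (c ^ q) (1 + (γ : L) * η ^ q) := by
    intro c γ hc
    have h1 : (1 + (γ : L) * η) ∈ A := add_mem A.one_mem (mul_mem (intCast_mem A _) hηA)
    have hc' : Cg A w (t + 1) c (1 + (γ : L) * η) := hc
    exact (pow_congr hq hwA hqw h1 hc').trans (one_add_int_mul_pow hq hwA hηt hqw γ)
  have hkey : Cg A w (q * t + 1) (ci ^ q) (cj ^ q) := h
  have h2 : Cg A w (q * t + 1) (1 + (γi : L) * η ^ q) (1 + (γj : L) * η ^ q) :=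
    ((hCq ci γi hci).symm.trans hkey).trans (hCq cj γj hcj)
  obtain ⟨r, hr, e⟩ := h2
  have e2 : ((γi - γj : ℤ) : L) * u ^ q = w * r := by
    have hpow : w ^ (q * t) ≠ 0 := pow_ne_zero _ hw0
    apply mul_left_cancel₀ hpow
    have e3 : w ^ (q * t) * (((γi - γj : ℤ) : L) * u ^ q) =
        1 + (γi : L) * (w ^ t * u) ^ q - (1 + (γj : L) * (w ^ t * u) ^ q) := by
      rw [mul_pow, ← pow_mul, mul_comm t q]
      push_cast
      ring
    rw [e3, ← hηu, e, pow_succ]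
    ring
  by_contra hnd
  have h3 : ((γi - γj : ℤ) : L) ∉ A.nonunits := int_not_nonunit hq hqn hnd
  have h4 : ((γi - γj : ℤ) : L) * u ^ q ∉ A.nonunits :=
    mul_not_nonunit h3 (pow_not_nonunit hun q)
  exact h4 (by rw [e2]; exact nu_mul_right hwn hr)

section main

variable (hOA : ∀ x : L, algebraMap L F x ∈ O ↔ x ∈ A)
  (hval : ∀ y : F, y ≠ 0 → ∃ c : L, c ≠ 0 ∧ algebraMap L F c * y ∈ O ∧
    ¬ Small A O (algebraMap L F c * y))
  (red : O →+* F₁ × F₂) (π : A →+* k)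
  (hπker : ∀ a : A, π a = 0 ↔ A.valuation (a : L) < 1)
  (hconst : ∀ a : A, red ⟨algebraMap L F (a : L), (hOA _).2 a.2⟩ =
    algebraMap k (F₁ × F₂) (π a))
  (hker : ∀ y : O, red y = 0 ↔ Small A O (y : F))
  (E : Divisor L F) (e₁ : ι → Place k F₁) (e₂ : ι → Place k F₂)
  (hE : 0 ≤ E) {D₁ : Divisor k F₁} {D₂ : Divisor k F₂}
  (hS : ∃ N₀ : ℕ, ∀ N, N₀ ≤ N → ∀ t : F₁ × F₂,
    (∃ y : O, (y : F) ∈ riemannRochSpace (N • E) ∧ red y = t) ↔
      t ∈ gluedSpace e₁ e₂ (fun _ => (1 : k)) (N • D₁) (N • D₂))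
  (O₁ O₂ : ValuationSubring F) (hO₁ : ∀ x ∈ O, x ∈ O₁) (hO₂ : ∀ x ∈ O, x ∈ O₂)
  (hO : ∀ x, x ∈ O₁ → x ∈ O₂ → x ∈ O)
  (red₁ : O₁ →+* F₁) (red₂ : O₂ →+* F₂)
  (hred₁ : ∀ y : O₁, red₁ y = 0 ↔ (y : F) ∈ O₁.nonunits)
  (hred₂ : ∀ y : O₂, red₂ y = 0 ↔ (y : F) ∈ O₂.nonunits)
  (hfst : ∀ y : O, (red y).1 = red₁ ⟨y, hO₁ y y.2⟩)
  (hsnd : ∀ y : O, (red y).2 = red₂ ⟨y, hO₂ y y.2⟩)

include hOA hval hπker hconst hker hE hS hfst hsnd hred₁ hred₂ hO in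
/-- **(CONST) on the `u`-route, lattice-level nodal setting: `q ∣ γ i - γ j`.** -/
theorem dvd_gamma_sub_node {x₁ : F₁} {x₂ : F₂} (h₁ : IsFF1 k F₁ x₁) (h₂ : IsFF1 k F₂ x₂)
    (K : Subfield L) {w : L} (hwK : w ∈ K) (hw0 : w ≠ 0) (hw1 : A.valuation w < 1)
    (hunif : ∀ a ∈ K, a ≠ 0 → ∃ j : ℤ, A.valuation a = A.valuation w ^ j)
    (hπK : ∀ c : k, ∃ a, a ∈ K ∧ ∃ ha : a ∈ A, π ⟨a, ha⟩ = c)
    (Fx : Subring F) (hKFx : ∀ a ∈ K, algebraMap L F a ∈ Fx)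
    (hdisc₁ : ∀ g ∈ Fx, g ∈ O₁.nonunits → g / algebraMap L F w ∈ O₁)
    (hdisc₂ : ∀ g ∈ Fx, g ∈ O₂.nonunits → g / algebraMap L F w ∈ O₂)
    {q t : ℕ} (hq : q.Prime) (hqA : A.valuation (q : L) < 1)
    (hqw : ∃ r ∈ A, (q : L) * w ^ t = w ^ (q * t + 1) * r)
    {η : L} (hη : ∃ u : L, A.valuation u = 1 ∧ η = w ^ t * u)
    {u : F} (huFx : u ∈ Fx) (hu₁ : u ∈ O₁) (huu : u ∉ O₁.nonunits) (hu₂ : u ∈ O₂)
    (hSm₁ : ∀ m ≤ q * t, ∀ a ∈ K, a ∈ A →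
      ∀ hu : (u - algebraMap L F a) / algebraMap L F w ^ m ∈ O₁,
      ∀ Q : Place k F₁, (∀ i, e₁ i ≠ Q) → Q.adicValuation (red₁ ⟨_, hu⟩) ≤ 1)
    (hSm₂ : ∀ m ≤ q * t, ∀ a ∈ K, a ∈ A →
      ∀ hu : (u - algebraMap L F a) / algebraMap L F w ^ m ∈ O₂,
      ∀ Q : Place k F₂, (∀ i, e₂ i ≠ Q) → Q.adicValuation (red₂ ⟨_, hu⟩) ≤ 1)
    (H : ι → F) (c : ι → L) (γ : ι → ℤ)
    (hY : ∀ i, u / H i ^ q ∈ nodeRing red ⊤ E e₁ e₂ i)
    (hH₁ : ∀ i, (H i - 1) / algebraMap L F w ^ (t + 1) ∈ O₁)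
    (hc : ∀ i, c i ∈ K ∧ A.valuation (c i - 1) < 1)
    (hH₂ : ∀ i, (H i - algebraMap L F (c i)) / algebraMap L F w ^ (t + 1) ∈ O₂)
    (hcγ : ∀ i, ∃ b ∈ A, c i - (1 + (γ i : L) * η) = w ^ (t + 1) * b) (i j : ι) :
    (q : ℤ) ∣ γ i - γ j := by
  have hwA : w ∈ A := (A.valuation_le_one_iff w).1 hw1.le
  have hw0' : algebraMap L F w ≠ 0 := by simpa using hw0
  have hϖ₁ : algebraMap L F w ∈ O₁ := hO₁ _ ((hOA w).2 hwA)
  have hϖ₂ : algebraMap L F w ∈ O₂ := hO₂ _ ((hOA w).2 hwA)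
  obtain ⟨r, hrA, hr⟩ := hqw
  have hrF : (q : F) * algebraMap L F w ^ t = algebraMap L F w ^ (q * t + 1) * algebraMap L F r := by
    have h := congrArg (algebraMap L F) hr
    rw [map_mul, map_mul, map_pow, map_pow, map_natCast] at h
    exact h
  have hqϖ₁ : ∃ r ∈ O₁, (q : F) * algebraMap L F w ^ t = algebraMap L F w ^ (q * t + 1) * r :=
    ⟨_, hO₁ _ ((hOA r).2 hrA), hrF⟩
  have hqϖ₂ : ∃ r ∈ O₂, (q : F) * algebraMap L F w ^ t = algebraMap L F w ^ (q * t + 1) * r :=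
    ⟨_, hO₂ _ ((hOA r).2 hrA), hrF⟩
  -- the valuation of `c s` is one
  have hcv : ∀ s, A.valuation (c s) = 1 := by
    intro s
    have e : c s = 1 + (c s - 1) := by ring
    rw [e]
    have h := Valuation.map_add_eq_of_lt_left (v := A.valuation) (x := (1 : L)) (y := c s - 1)
      (by rw [map_one]; exact (hc s).2)
    rw [h, map_one]
  have hcA : ∀ s, c s ∈ A := fun s => (A.valuation_le_one_iff _).1 (hcv s).le
  -- the data at depth `q * t + 1`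
  have hH₁' : ∀ s, (H s ^ q - 1) / algebraMap L F w ^ (q * t + 1) ∈ O₁ := by
    intro s
    have h := ConstU.pow_div_mem hq hw0' hϖ₁ hqϖ₁ O₁.one_mem (hH₁ s)
    rwa [one_pow] at h
  have hc' : ∀ s, c s ^ q ∈ K ∧ A.valuation (c s ^ q - 1) < 1 := by
    intro s
    refine ⟨K.pow_mem (hc s).1 q, ?_⟩
    have e : c s ^ q - 1 = (c s - 1) * ∑ i ∈ Finset.range q, c s ^ i := by
      rw [mul_comm]
      exact (geom_sum_mul (c s) q).symm
    have hsum : (∑ i ∈ Finset.range q, c s ^ i) ∈ A := sum_mem fun i _ => pow_mem (hcA s) i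
    rw [e, map_mul]
    exact (mul_le_of_le_one_right' ((A.valuation_le_one_iff _).2 hsum)).trans_lt (hc s).2
  have hH₂' : ∀ s, (H s ^ q - algebraMap L F (c s ^ q)) / algebraMap L F w ^ (q * t + 1) ∈ O₂ := by
    intro s
    have h := ConstU.pow_div_mem hq hw0' hϖ₂ hqϖ₂ (hO₂ _ ((hOA (c s)).2 (hcA s))) (hH₂ s)
    rwa [← map_pow] at h
  obtain ⟨b, hbA, -, hb⟩ := const_indep_node hOA hval red π hπker hconst hker E e₁ e₂ hE hS
    O₁ O₂ hO₁ hO₂ hO red₁ red₂ hred₁ hred₂ hfst hsnd h₁ h₂ K hwK hw0 hw1 hunif hπK Fx hKFx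
    hdisc₁ hdisc₂ huFx hu₁ huu hu₂ (q * t) hSm₁ hSm₂ (fun s => H s ^ q) (fun s => c s ^ q) hY
    hH₁' hc' hH₂' i j
  exact dvd_of_pow_congr hw0 hw1 hq hqA ⟨r, hrA, hr⟩ hη (γ i) (γ j) (hcγ i) (hcγ j)
    ⟨b, hbA, hb⟩

end main

end Fermat.Agent.TR.PL.GlueNodeU
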