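/-
TR (row 38 through S44), node side, brick **(I6)** of the instance chain for `PLInf`
(architect's ruling #3): the constant-field / Liouville / discreteness hypotheses of (CONST)
(`GlueConst.exists_const`, `GlueNode.const_indep_node`, `GlueNodeU.dvd_gamma_sub_node`) at the
BAD objects.

Setting: `A` a valuation subring of `ℚ̄` over `p`, `h : BadSetup A π M p`, `W` Atkin–Lehner,
`F = ℚ̄·F_{Mp}`, `O₁ = OInf h`, `O₂ = OZero h W`, `O = OPair h W`, `red = redPair h W`,
`H ≤ I` of finite relative index, `K'' = fixedSubfieldOf H`, `w` a uniformiser of `K''`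
(`LocalField.IsUnif A (fixK A H hH) w`), `Fx = fixedFunRing H (M * p)` (the `K''`-rational
functions).

* `fixedFunRing`, `mem_fixedFunRing`, `algebraMap_mem_fixedFunRing` (`hKFx`);
* `redInf_eq_zero_iff_nonunits`, `redZero_eq_zero_iff_nonunits` (`hred₁`, `hred₂`);
* `exists_fixed_residue_lift` (`hπK`): every residue class has a lift in `A ∩ K0 ⊆ A ∩ K''`;
* `div_unif_mem_OInf`, `div_unif_mem_OZero` (`hdisc₁`, `hdisc₂`): a `K''`-rational non-unit of
  `O_∞` (resp. `O_0`) is divisible by `w`;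
* `exists_zpow_valuation_eq` (`hunif`);
* **`dvd_gamma_sub_bad`** : `GlueNodeU.dvd_gamma_sub_node` at the BAD objects — the ONLY remaining
  hypotheses are the chart data of the nodal fibre (`hE`, `hS`), the wild numerics (`hqw`, `hη`),
  the smooth regularity (`hSm₁`, `hSm₂`) and the node data (`hY`, `hH₁`, `hc`, `hH₂`, `hcγ`).
-/
import Mathlib
import Fermat.Agent.TR.PL.GlueNodeU
import Fermat.Agent.TR.PL.SigmaSeam
import Fermat.Agent.CAR.K0.Basic
import Fermat.Agent.Lib.FF.ModLRed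

set_option autoImplicit false
set_option linter.unusedSectionVars false

noncomputable section

namespace Fermat.Agent.TR.PL.ConstInst

open AlgebraicCurve ModularCurve WithZero Fermat.Agent.Lib.FF Fermat.Agent.BAD.NodalRiemann
  Fermat.Agent.Lib.Red Fermat.Agent.Lib.Red.Deform Fermat.Agent.BAD.TwoVal
  Fermat.Agent.BAD.LatFixed Fermat.Agent.BAD.LatFixedInst Fermat.Agent.TR.Node.NodeRingAbs
  Fermat.Agent.TR.PL.LocalField Fermat.Agent.TR.PL.Frame Fermat.Agent.TR.PL.SigmaSeam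

local notation "Qb" => AlgebraicClosure ℚ
local notation "GQ" => (AlgebraicClosure ℚ ≃ₐ[ℚ] AlgebraicClosure ℚ)

/-! ### The ring of `K''`-rational functions -/

/-- The ring of functions of level `N` fixed by a set `H` of automorphisms. -/
def fixedFunRing (H : Set GQ) (N : ℕ) :
    Subring (laurentBaseChange Qb (modularFunctionFieldFull N)) where
  carrier := {f | f ∈ fixedFunOf H N}
  mul_mem' := fun {f g} hf hg σ hσ => by
    rw [smul_mul', hf σ hσ, hg σ hσ]
  one_mem' := fun σ _ => smul_one _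
  add_mem' := fun hf hg => (fixedFunOf H N).add_mem hf hg
  zero_mem' := (fixedFunOf H N).zero_mem
  neg_mem' := fun hf => (fixedFunOf H N).neg_mem hf

theorem mem_fixedFunRing {H : Set GQ} {N : ℕ}
    {f : laurentBaseChange Qb (modularFunctionFieldFull N)} :
    f ∈ fixedFunRing H N ↔ f ∈ fixedFunOf H N := Iff.rfl

/-- (`hKFx`) The constants of `K''` are `K''`-rational functions. -/
theorem algebraMap_mem_fixedFunRing {H : Set GQ} {N : ℕ} {a : Qb}
    (ha : a ∈ fixedSubfieldOf H) :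
    algebraMap Qb (laurentBaseChange Qb (modularFunctionFieldFull N)) a ∈ fixedFunRing H N := by
  intro σ hσ
  rw [SemilinearAut.smul_algebraMap]
  congr 1
  exact ha σ hσ

/-! ### The two reductions -/

section Red

variable {A : ValuationSubring Qb} {k : Type} [Field k] {π : A →+* k} {M q : ℕ} [NeZero M]
  [NeZero q]
  {W : laurentBaseChange Qb (modularFunctionFieldFull (M * q)) ≃ₐ[Qb]
    laurentBaseChange Qb (modularFunctionFieldFull (M * q))}

/-- (`hred₁`) The kernel of `red_∞` is the set of non-units of `O_∞`. -/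
theorem redInf_eq_zero_iff_nonunits (h : BadSetup A π M q) (y : OInf h) :
    redInf h y = 0 ↔
      (y : laurentBaseChange Qb (modularFunctionFieldFull (M * q))) ∈ (OInf h).nonunits := by
  rw [redInf_eq_zero_iff, ValuationSubring.coe_mem_nonunits_iff, IsLocalRing.mem_maximalIdeal,
    mem_nonunits_iff]

/-- (`hred₂`) The kernel of `red_0` is the set of non-units of `O_0`. -/
theorem redZero_eq_zero_iff_nonunits (h : BadSetup A π M q) (y : OZero h W) :
    redZero h W y = 0 ↔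
      (y : laurentBaseChange Qb (modularFunctionFieldFull (M * q))) ∈ (OZero h W).nonunits := by
  rw [redZero_eq_zero_iff, ValuationSubring.coe_mem_nonunits_iff, IsLocalRing.mem_maximalIdeal,
    mem_nonunits_iff]

end Red

/-! ### Residue lifts, discreteness -/

section Inst

variable {p : ℕ} [Fact p.Prime] [NeZero p] {A : ValuationSubring Qb} {k : Type} [Field k]
  {π : A →+* k} {M : ℕ} [NeZero M]
  {W : laurentBaseChange Qb (modularFunctionFieldFull (M * p)) ≃ₐ[Qb]
    laurentBaseChange Qb (modularFunctionFieldFull (M * p))}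
  (hA : A.LiesOverPrime p) (h : BadSetup A π M p) (hsurj : Function.Surjective π)
  (hW : IsAL M p W) {H : Subgroup GQ} (hH : H ≤ A.inertiaSubgroupIn ℚ)
  (hidx : H.relIndex (A.inertiaSubgroupIn ℚ) ≠ 0)

include hA h hsurj hH in
/-- (`hπK`) **`K''` has the full residue field**: every residue class has a lift in `A` fixed by
inertia, in particular by `H`. -/
theorem exists_fixed_residue_lift (c : k) :
    ∃ a, a ∈ fixedSubfieldOf (H : Set GQ) ∧ ∃ ha : a ∈ A, π ⟨a, ha⟩ = c := by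
  obtain ⟨a, rfl⟩ := hsurj c
  obtain ⟨b, hbK, hbA, hlt⟩ :=
    Fermat.Agent.CAR.K0.exists_mem_inertiaField_valuation_sub_lt_one (Fact.out : p.Prime) A hA a.2
  refine ⟨b, fun σ hσ => ?_, hbA, ?_⟩
  · exact (Fermat.Agent.CAR.K0.mem_inertiaField_iff A b).1 hbK σ (hH hσ)
  · have h0 : π (a - ⟨b, hbA⟩) = 0 := (h.pi_eq_zero_iff _).2 hlt
    rw [map_sub, sub_eq_zero] at h0
    exact h0.symm

/-- (`hunif`) The value group of `K''` is generated by the valuation of the uniformiser. -/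
theorem exists_zpow_valuation_eq {w : Qb} (hU : IsUnif A (fixK A H hH) w) :
    ∀ a ∈ fixedSubfieldOf (H : Set GQ), a ≠ 0 → ∃ j : ℤ, A.valuation a = A.valuation w ^ j :=
  fun a ha ha0 => hU.2.2.2 a ha ha0

/-- A unit of a valuation subring is not a non-unit. -/
theorem not_mem_nonunits_of_inv_mem {F : Type*} [Field F] (O : ValuationSubring F) {u : F}
    (hu0 : u ≠ 0) (hu : u⁻¹ ∈ O) : u ∉ O.nonunits := by
  intro hn
  rw [O.mem_nonunits_iff] at hn
  have h1 : O.valuation u⁻¹ ≤ 1 := (O.valuation_le_one_iff _).2 hu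
  rw [map_inv₀] at h1
  have h2 : O.valuation u ≠ 0 := (Valuation.ne_zero_iff _).2 hu0
  have h3 : 1 ≤ O.valuation u := by
    rw [inv_le_one₀ (zero_lt_iff.2 h2)] at h1
    exact h1
  exact absurd hn (not_lt.2 h3)

/-- Abstract form of (`hdisc`): if `g = w ^ n • G` with `G` a unit of the valuation subring `O`
(with `O ∩ ℚ̄ = A`) and `g` is a non-unit of `O`, then `g / w ∈ O`. -/
theorem div_unif_mem_of_zpow {F : Type*} [Field F] [Algebra Qb F] (O : ValuationSubring F)
    (hOA : ∀ a : Qb, algebraMap Qb F a ∈ O ↔ a ∈ A) {w : Qb} (hw0 : w ≠ 0)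
    (hw1 : A.valuation w < 1) {g : F} {n : ℤ} (h1 : (w ^ n)⁻¹ • g ∈ O)
    (h2 : ((w ^ n)⁻¹ • g)⁻¹ ∈ O) (hg0 : g ≠ 0) (hg : g ∈ O.nonunits) :
    g / algebraMap Qb F w ∈ O := by
  have hwA : w ∈ A := (A.valuation_le_one_iff w).1 hw1.le
  have hwn : w ^ n ≠ 0 := zpow_ne_zero n hw0
  have hαn : algebraMap Qb F (w ^ n) ≠ 0 := (map_ne_zero _).2 hwn
  have hα : algebraMap Qb F w ≠ 0 := (map_ne_zero _).2 hw0
  have hn : 1 ≤ n := by
    by_contra hlt
    have hle : n ≤ 0 := by omega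
    -- then `g⁻¹ ∈ O`
    obtain ⟨m, rfl⟩ : ∃ m : ℕ, n = -(m : ℤ) := ⟨(-n).toNat, by omega⟩
    have e : g⁻¹ = algebraMap Qb F (w ^ m) * ((w ^ (-(m : ℤ)))⁻¹ • g)⁻¹ := by
      rw [Algebra.smul_def, mul_inv, map_inv₀, inv_inv, zpow_neg, zpow_natCast, map_inv₀,
        ← mul_assoc, mul_inv_cancel₀ ((map_ne_zero _).2 (pow_ne_zero m hw0)), one_mul]
    have hginv : g⁻¹ ∈ O := by
      rw [e]
      exact O.mul_mem _ _ ((hOA _).2 (A.pow_mem hwA m)) h2
    exact not_mem_nonunits_of_inv_mem O hg0 hginv hg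
  obtain ⟨m, rfl⟩ : ∃ m : ℕ, n = (m : ℤ) + 1 := ⟨(n - 1).toNat, by omega⟩
  have e : g / algebraMap Qb F w = algebraMap Qb F (w ^ m) * ((w ^ ((m : ℤ) + 1))⁻¹ • g) := by
    rw [Algebra.smul_def, map_inv₀, zpow_add_one₀ hw0, zpow_natCast, map_mul, map_pow]
    field_simp
  rw [e]
  exact O.mul_mem _ _ ((hOA _).2 (A.pow_mem hwA m)) h1

include hA hsurj hW hidx in
/-- (`hdisc₁`) A `K''`-rational non-unit of `O_∞` is divisible by the uniformiser `w`. -/
theorem div_unif_mem_OInf {w : Qb} (hU : IsUnif A (fixK A H hH) w) :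
    ∀ g ∈ fixedFunRing (H : Set GQ) (M * p), g ∈ (OInf h).nonunits →
      g / algebraMap Qb (laurentBaseChange Qb (modularFunctionFieldFull (M * p))) w ∈ OInf h := by
  intro g hg hgn
  by_cases hg0 : g = 0
  · rw [hg0, zero_div]
    exact (OInf h).zero_mem
  obtain ⟨n, h1, h2⟩ := exists_zpow_unif_inf hA h hsurj hW hH hidx hU hg hg0
  exact div_unif_mem_of_zpow (OInf h) (algebraMap_mem_OInf_iff h) hU.2.1 hU.2.2.1 h1 h2 hg0 hgn

include hA hsurj hW hidx in
/-- (`hdisc₂`) A `K''`-rational non-unit of `O_0` is divisible by the uniformiser `w`. -/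
theorem div_unif_mem_OZero {w : Qb} (hU : IsUnif A (fixK A H hH) w) :
    ∀ g ∈ fixedFunRing (H : Set GQ) (M * p), g ∈ (OZero h W).nonunits →
      g / algebraMap Qb (laurentBaseChange Qb (modularFunctionFieldFull (M * p))) w ∈
        OZero h W := by
  intro g hg hgn
  by_cases hg0 : g = 0
  · rw [hg0, zero_div]
    exact (OZero h W).zero_mem
  obtain ⟨n, h1, h2⟩ := exists_zpow_unif_zero hA h hsurj hW hH hidx hU hg hg0
  exact div_unif_mem_of_zpow (OZero h W) (algebraMap_mem_OZero_iff h) hU.2.1 hU.2.2.1 h1 h2 hg0 hgn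

/-! ### (CONST) on the `u`-route at the BAD objects -/

include hA hsurj hW hidx in
/-- **(CONST), `u`-route, at the BAD objects: `p ∣ γ i - γ j`.**

`GlueNodeU.dvd_gamma_sub_node` with the constant field `K'' = ℚ̄^H`, its uniformiser `w`, the
ring `Fx` of `K''`-rational functions, the two Gauss valuation rings, their reductions,
Liouville's theorem on the two components, the residue lifts and the discreteness all
discharged.  What remains: the chart data of the nodal fibre (`hE`, `hS`: NodeRingAbs' literal),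
the wild numerics (`hqw`, `hη`), the smooth regularity (`hSm₁`, `hSm₂`) and the node data. -/
theorem dvd_gamma_sub_bad [IsAlgClosed k] {ι : Type*}
    (E : Divisor Qb (laurentBaseChange Qb (modularFunctionFieldFull (M * p))))
    (e₁ e₂ : ι → Place k (modularFunctionFieldFullC k M)) (hE : 0 ≤ E)
    {D₁ D₂ : Divisor k (modularFunctionFieldFullC k M)}
    (hS : ∃ N₀ : ℕ, ∀ N, N₀ ≤ N →
      ∀ t : modularFunctionFieldFullC k M × modularFunctionFieldFullC k M,
      (∃ y : OPair h W,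
          (y : laurentBaseChange Qb (modularFunctionFieldFull (M * p))) ∈
            riemannRochSpace (N • E) ∧ redPair h W y = t) ↔
        t ∈ gluedSpace e₁ e₂ (fun _ => (1 : k)) (N • D₁) (N • D₂))
    {w : Qb} (hU : IsUnif A (fixK A H hH) w)
    {t : ℕ} (hqw : ∃ r ∈ A, (p : Qb) * w ^ t = w ^ (p * t + 1) * r)
    {η : Qb} (hη : ∃ u : Qb, A.valuation u = 1 ∧ η = w ^ t * u)
    {u : laurentBaseChange Qb (modularFunctionFieldFull (M * p))}
    (huFx : u ∈ fixedFunOf (H : Set GQ) (M * p)) (hu0 : u ≠ 0) (hu₁ : u ∈ OInf h)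
    (huinv : u⁻¹ ∈ OInf h) (hu₂ : u ∈ OZero h W)
    (hSm₁ : ∀ m ≤ p * t, ∀ a ∈ fixedSubfieldOf (H : Set GQ), a ∈ A →
      ∀ hu : (u - algebraMap Qb _ a) / algebraMap Qb _ w ^ m ∈ OInf h,
      ∀ Q : Place k (modularFunctionFieldFullC k M), (∀ i, e₁ i ≠ Q) →
        Q.adicValuation (redInf h ⟨_, hu⟩) ≤ 1)
    (hSm₂ : ∀ m ≤ p * t, ∀ a ∈ fixedSubfieldOf (H : Set GQ), a ∈ A →
      ∀ hu : (u - algebraMap Qb _ a) / algebraMap Qb _ w ^ m ∈ OZero h W,
      ∀ Q : Place k (modularFunctionFieldFullC k M), (∀ i, e₂ i ≠ Q) →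
        Q.adicValuation (redZero h W ⟨_, hu⟩) ≤ 1)
    (Hs : ι → laurentBaseChange Qb (modularFunctionFieldFull (M * p))) (c : ι → Qb)
    (γ : ι → ℤ)
    (hY : ∀ i, u / Hs i ^ p ∈ nodeRing (redPair h W) ⊤ E e₁ e₂ i)
    (hH₁ : ∀ i, (Hs i - 1) / algebraMap Qb _ w ^ (t + 1) ∈ OInf h)
    (hc : ∀ i, c i ∈ fixedSubfieldOf (H : Set GQ) ∧ A.valuation (c i - 1) < 1)
    (hH₂ : ∀ i, (Hs i - algebraMap Qb _ (c i)) / algebraMap Qb _ w ^ (t + 1) ∈ OZero h W)
    (hcγ : ∀ i, ∃ b ∈ A, c i - (1 + (γ i : Qb) * η) = w ^ (t + 1) * b) (i j : ι) :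
    (p : ℤ) ∣ γ i - γ j := by
  have hconst : ∀ a : A, redPair h W ⟨algebraMap Qb _ (a : Qb), (OPair_hOA h _).2 a.2⟩ =
      algebraMap k (modularFunctionFieldFullC k M × modularFunctionFieldFullC k M) (π a) :=
    fun a => redPair_algebraMap h a _
  exact GlueNodeU.dvd_gamma_sub_node (OPair_hOA h) (OPair_hval h) (redPair h W) π
    (h.pi_eq_zero_iff) hconst (redPair_eq_zero_iff h) E e₁ e₂ hE hS (OInf h) (OZero h W)
    (fun x hx => ((mem_OPair_iff h x).1 hx).1) (fun x hx => ((mem_OPair_iff h x).1 hx).2)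
    (fun x h1 h2 => (mem_OPair_iff h x).2 ⟨h1, h2⟩) (redInf h) (redZero h W)
    (redInf_eq_zero_iff_nonunits h) (redZero_eq_zero_iff_nonunits h)
    (fun y => rfl) (fun y => rfl)
    (Fermat.Agent.Lib.FF.isFF1_xk k M) (Fermat.Agent.Lib.FF.isFF1_xk k M)
    (fixedSubfieldOf (H : Set GQ)) hU.1 hU.2.1 hU.2.2.1 (exists_zpow_valuation_eq hH hU)
    (exists_fixed_residue_lift hA h hsurj hH) (fixedFunRing (H : Set GQ) (M * p))
    (fun a ha => algebraMap_mem_fixedFunRing ha)
    (div_unif_mem_OInf hA h hsurj hW hH hidx hU) (div_unif_mem_OZero hA h hsurj hW hH hidx hU)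
    (Fact.out : p.Prime) (A.mem_nonunits_iff.mp hA) hqw hη huFx hu₁
    (not_mem_nonunits_of_inv_mem (OInf h) hu0 huinv) hu₂ hSm₁ hSm₂ Hs c γ hY hH₁ hc hH₂ hcγ i j

end Inst

end Fermat.Agent.TR.PL.ConstInst
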