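import Mathlib
import Fermat.Agent.TR.PL.ConstFrame
import Fermat.Agent.TR.Node.SigmaGlue

/-!
# TR / (PL), wild case: the per-node congruences of the `u`-route at the objects of BAD

Setting of `TR/PL/SigmaSeam.lean` / `ConstFrame.lean`: `H ≤ I` of finite relative index,
`K'' = ℚ̄^H`, `w ∈ K''`, `σ ∈ I` with the Lipschitz bound `v(σ c − c) ≤ v(σ w − w)` on `A ∩ K''`.

* `galois_div_sub_zpow_inf`, `galois_div_sub_zpow_zero` : for a `K''`-rational function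
  `g = w ^ n · (unit of O)` (`O = O_∞`, `O_0`):
  `σ g / g ≡ (σ w / w) ^ n` modulo `(σ w − w)·O`;
* `node_cong` : with `σ w = w (1 + η)`, `η = w ^ t u₀`, `t ≥ 1`, for a local generator `g` with
  `g = w ^ n₁ · (unit of O_∞) = w ^ n₂ · (unit of O_0)`, the function
  `Hn := σ G / G`, `G := (w ^ n₁)⁻¹ • g`, satisfies `hH₁`, `hH₂`, `hc`, `hcγ` of
  `GlueNodeU.dvd_gamma_sub_node` with `c := (1 + η) ^ (n₂ − n₁)`, `γ := n₂ − n₁`;
* `galois_div_div_pow` : `(σ f / f) / Hn ^ q = (σ F / F) · const`, `F := f / g ^ q`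
  (the bridge to `hY`).
-/

set_option autoImplicit false
set_option linter.unusedSectionVars false
set_option linter.style.haveILetI false

namespace Fermat.Agent.TR.PL.NodeCong

open HahnSeries ModularCurve AlgebraicCurve Fermat.Agent.Lib.Red Fermat.Agent.BAD.TwoVal
open Fermat.Agent.BAD.LatFixed Fermat.Agent.BAD.LatFixedInst
open Fermat.Agent.TR.PL.Frame Fermat.Agent.TR.PL.LocalField Fermat.Agent.TR.PL.BaseChangeSigma
open Fermat.Agent.TR.PL.SigmaSeam Fermat.Agent.TR.PL.ConstFrame Fermat.Agent.CAR.K0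

local notation "Qb" => AlgebraicClosure ℚ
local notation "GQ" => (AlgebraicClosure ℚ ≃ₐ[ℚ] AlgebraicClosure ℚ)

noncomputable section

/-! ### Generalities -/

theorem zpow_mem_of_mem {A : ValuationSubring Qb} {u : Qb} (hu : u ∈ A) (hu' : u⁻¹ ∈ A)
    (n : ℤ) : u ^ n ∈ A := by
  obtain ⟨m, rfl | rfl⟩ := Int.eq_nat_or_neg n
  · rw [zpow_natCast]
    exact pow_mem hu m
  · rw [zpow_neg, zpow_natCast, ← inv_pow]
    exact pow_mem hu' m

/-- `σ w / w` and its inverse lie in `A` for `σ` in the inertia group. -/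
theorem apply_div_mem {A : ValuationSubring Qb} {σ : GQ} (hσ : σ ∈ A.inertiaSubgroupIn ℚ)
    {w : Qb} (hw0 : w ≠ 0) : σ w / w ∈ A ∧ w / σ w ∈ A := by
  haveI := Fermat.Agent.Lib.GalQbar.isAlgebraic_rat
  refine ⟨decomp_div_mem (K := ℚ) (A := A) σ (fun x => mem_iff_of_mem_inertia hσ x) w hw0, ?_⟩
  have hσw0 : σ w ≠ 0 := (map_ne_zero σ).2 hw0
  have h4 := decomp_div_mem (K := ℚ) (A := A) σ⁻¹
    (fun x => mem_iff_of_mem_inertia (inv_mem hσ) x) (σ w) hσw0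
  have e1 : σ⁻¹ (σ w) = w := by
    rw [← AlgEquiv.mul_apply, inv_mul_cancel, AlgEquiv.one_apply]
  rwa [e1] at h4

/-- **`σ (w ^ n G) / (w ^ n G) ≡ (σ w / w) ^ n` modulo `(σ w − w)·O`** if `σ G ≡ G` modulo
`(σ w − w)·O` and `G` is a unit of `O`. -/
theorem galois_div_sub_zpow {N : ℕ} {A : ValuationSubring Qb}
    (O : ValuationSubring (laurentBaseChange Qb (modularFunctionFieldFull N)))
    (hOA : ∀ a : Qb,
      algebraMap Qb (laurentBaseChange Qb (modularFunctionFieldFull N)) a ∈ O ↔ a ∈ A)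
    {σ : GQ} {w : Qb} (hw0 : w ≠ 0) (hu : σ w / w ∈ A) (hu' : w / σ w ∈ A)
    {G : laurentBaseChange Qb (modularFunctionFieldFull N)} (hG0 : G ≠ 0) (hG' : G⁻¹ ∈ O)
    (n : ℤ) {y : laurentBaseChange Qb (modularFunctionFieldFull N)} (hy : y ∈ O)
    (hσG : arithmeticGalois (L := Qb) (modularFunctionFieldFull N) σ • G - G = (σ w - w) • y) :
    ∃ z ∈ O, arithmeticGalois (L := Qb) (modularFunctionFieldFull N) σ • (w ^ n • G) /
        (w ^ n • G) - algebraMap Qb _ ((σ w / w) ^ n) = algebraMap Qb _ (σ w - w) * z := by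
  have hc : (σ w / w) ^ n ∈ A := zpow_mem_of_mem hu (by rw [inv_div]; exact hu') n
  refine ⟨algebraMap Qb _ ((σ w / w) ^ n) * (y * G⁻¹),
    O.mul_mem _ _ ((hOA _).2 hc) (O.mul_mem _ _ hy hG'), ?_⟩
  have e0 : arithmeticGalois (L := Qb) (modularFunctionFieldFull N) σ • G =
      G + (σ w - w) • y := by
    rw [← hσG]
    exact (add_sub_cancel _ _).symm
  have e2 : (σ w) ^ n = (σ w / w) ^ n * w ^ n := by
    rw [div_zpow, div_mul_cancel₀ _ (zpow_ne_zero n hw0)]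
  have e1 : arithmeticGalois (L := Qb) (modularFunctionFieldFull N) σ • (w ^ n • G) =
      algebraMap Qb _ ((σ w / w) ^ n) * (algebraMap Qb _ (w ^ n) *
        (G + algebraMap Qb _ (σ w - w) * y)) := by
    rw [Fermat.Agent.Padic.arithmeticGalois_smul_const_smul, e0, map_zpow₀, e2]
    simp only [Algebra.smul_def, map_mul]
    ring
  have e3 : w ^ n • G = algebraMap Qb (laurentBaseChange Qb (modularFunctionFieldFull N))
      (w ^ n) * G := Algebra.smul_def _ _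
  have hB : algebraMap Qb (laurentBaseChange Qb (modularFunctionFieldFull N)) (w ^ n) ≠ 0 :=
    (map_ne_zero _).2 (zpow_ne_zero n hw0)
  rw [e1, e3]
  field_simp
  ring

/-- `w ^ n • ((w ^ n)⁻¹ • g) = g`. -/
theorem zpow_smul_inv_smul {N : ℕ} {w : Qb} (hw0 : w ≠ 0) (n : ℤ)
    (g : laurentBaseChange Qb (modularFunctionFieldFull N)) :
    w ^ n • ((w ^ n)⁻¹ • g) = g := by
  rw [smul_smul, mul_inv_cancel₀ (zpow_ne_zero n hw0), one_smul]

theorem const_smul_ne_zero {N : ℕ} {a : Qb} (ha : a ≠ 0)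
    {g : laurentBaseChange Qb (modularFunctionFieldFull N)} (hg : g ≠ 0) : a • g ≠ 0 := by
  rw [Algebra.smul_def]
  exact mul_ne_zero ((map_ne_zero _).2 ha) hg

theorem div_div_pow_aux {F : Type*} [Field F] [Algebra Qb F] {s r c : Qb} (hs : s ≠ 0)
    (hr : r ≠ 0) (hc : c = s / r) (q : ℕ) {X Y f g : F} (hX : X ≠ 0) (hY : Y ≠ 0) (hf : f ≠ 0)
    (hg : g ≠ 0) :
    (X / f) / ((s⁻¹ • Y) / (r⁻¹ • g)) ^ q =
      algebraMap Qb F (c ^ q) * ((X / Y ^ q) / (f / g ^ q)) := by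
  rw [hc, Algebra.smul_def, Algebra.smul_def, map_pow, map_div₀, map_inv₀, map_inv₀]
  have hs0 : algebraMap Qb F s ≠ 0 := (map_ne_zero _).2 hs
  have hr0 : algebraMap Qb F r ≠ 0 := (map_ne_zero _).2 hr
  field_simp
  rw [← mul_pow, ← mul_pow]
  congr 1
  field_simp

theorem div_div_pow_aux' {F : Type*} [Field F] [Algebra Qb F] {s r c : Qb} (hs : s ≠ 0)
    (hr : r ≠ 0) (hc : c = s / r) (q : ℕ) {X Y Z T f g : F} (hX : X ≠ 0) (hY : Y ≠ 0)
    (hf : f ≠ 0) (hg : g ≠ 0) (hZ : Z = s⁻¹ • Y) (hT : T = X / Y ^ q) :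
    (X / f) / (Z / (r⁻¹ • g)) ^ q = algebraMap Qb F (c ^ q) * (T / (f / g ^ q)) := by
  subst hZ hT
  exact div_div_pow_aux hs hr hc q hX hY hf hg

/-- **The bridge to `hY`**: with `Hn := σ G / G`, `G := (w ^ n)⁻¹ • g`, and `F := f / g ^ q`:
`(σ f / f) / Hn ^ q = ((σ w / w) ^ n) ^ q · (σ F / F)`. -/
theorem galois_div_div_pow {N : ℕ} (σ : GQ) {w : Qb} (hw0 : w ≠ 0) (n : ℤ) (q : ℕ)
    {f g : laurentBaseChange Qb (modularFunctionFieldFull N)} (hf : f ≠ 0) (hg : g ≠ 0) :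
    (arithmeticGalois (L := Qb) (modularFunctionFieldFull N) σ • f / f) /
        (arithmeticGalois (L := Qb) (modularFunctionFieldFull N) σ • ((w ^ n)⁻¹ • g) /
          ((w ^ n)⁻¹ • g)) ^ q =
      algebraMap Qb _ (((σ w / w) ^ n) ^ q) *
        (arithmeticGalois (L := Qb) (modularFunctionFieldFull N) σ • (f / g ^ q) /
          (f / g ^ q)) := by
  have hσw0 : σ w ≠ 0 := (map_ne_zero σ).2 hw0
  have hX : arithmeticGalois (L := Qb) (modularFunctionFieldFull N) σ • f ≠ 0 :=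
    galois_smul_ne_zero σ hf
  have hY : arithmeticGalois (L := Qb) (modularFunctionFieldFull N) σ • g ≠ 0 :=
    galois_smul_ne_zero σ hg
  have e4 : σ ((w ^ n)⁻¹) = ((σ w) ^ n)⁻¹ := by rw [map_inv₀, map_zpow₀]
  have h1 : arithmeticGalois (L := Qb) (modularFunctionFieldFull N) σ • ((w ^ n)⁻¹ • g) =
      ((σ w) ^ n)⁻¹ • (arithmeticGalois (L := Qb) (modularFunctionFieldFull N) σ • g) :=
    (Fermat.Agent.Padic.arithmeticGalois_smul_const_smul (N := N) σ ((w ^ n)⁻¹) g).trans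
      (congrArg (fun c : Qb =>
        c • (arithmeticGalois (L := Qb) (modularFunctionFieldFull N) σ • g)) e4)
  have e3 : arithmeticGalois (L := Qb) (modularFunctionFieldFull N) σ • (f / g ^ q) =
      arithmeticGalois (L := Qb) (modularFunctionFieldFull N) σ • f /
        (arithmeticGalois (L := Qb) (modularFunctionFieldFull N) σ • g) ^ q := by
    rw [div_eq_mul_inv, smul_mul', smul_inv'', smul_pow', div_eq_mul_inv]
  exact div_div_pow_aux' (F := laurentBaseChange Qb (modularFunctionFieldFull N))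
    (s := (σ w) ^ n) (r := w ^ n) (c := (σ w / w) ^ n)
    (X := arithmeticGalois (L := Qb) (modularFunctionFieldFull N) σ • f)
    (Y := arithmeticGalois (L := Qb) (modularFunctionFieldFull N) σ • g)
    (Z := arithmeticGalois (L := Qb) (modularFunctionFieldFull N) σ • ((w ^ n)⁻¹ • g))
    (T := arithmeticGalois (L := Qb) (modularFunctionFieldFull N) σ • (f / g ^ q))
    (f := f) (g := g)
    (zpow_ne_zero n hσw0) (zpow_ne_zero n hw0) (div_zpow _ _ _) q hX hY hf hg h1 e3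

/-! ### At the objects of BAD -/

section Inst

variable {p : ℕ} [Fact p.Prime] [NeZero p] {A : ValuationSubring Qb} {k : Type} [Field k]
  {π : A →+* k} {M : ℕ} [NeZero M]
  {W : laurentBaseChange Qb (modularFunctionFieldFull (M * p)) ≃ₐ[Qb]
    laurentBaseChange Qb (modularFunctionFieldFull (M * p))}
  (hA : A.LiesOverPrime p) (h : BadSetup A π M p) (hsurj : Function.Surjective π)
  (hW : IsAL M p W) {H : Subgroup GQ} (hH : H ≤ A.inertiaSubgroupIn ℚ)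
  (hidx : H.relIndex (A.inertiaSubgroupIn ℚ) ≠ 0)

include hA hsurj hW hidx in
/-- **(σ-cong∞)** For `g = w ^ n · (unit of O_∞)` rational over `K''`:
`σ g / g − (σ w / w) ^ n ∈ (σ w − w)·O_∞`. -/
theorem galois_div_sub_zpow_inf {σ : GQ} (hσ : σ ∈ A.inertiaSubgroupIn ℚ) {w : Qb}
    (hwK : w ∈ fixedSubfieldOf (H : Set GQ)) (hw0 : w ≠ 0)
    (hlip : ∀ c : Qb, c ∈ A → c ∈ fixK A H hH →
      A.valuation (σ c - c) ≤ A.valuation (σ w - w))
    {g : laurentBaseChange Qb (modularFunctionFieldFull (M * p))}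
    (hg : g ∈ fixedFunOf (H : Set GQ) (M * p)) (hg0 : g ≠ 0) {n : ℤ}
    (h1 : (w ^ n)⁻¹ • g ∈ OInf h) (h2 : ((w ^ n)⁻¹ • g)⁻¹ ∈ OInf h) :
    ∃ z ∈ OInf h, arithmeticGalois (L := Qb) (modularFunctionFieldFull (M * p)) σ • g / g -
        algebraMap Qb _ ((σ w / w) ^ n) = algebraMap Qb _ (σ w - w) * z := by
  have hGH : (w ^ n)⁻¹ • g ∈ fixedFunOf (H : Set GQ) (M * p) :=
    smul_mem_fixedFunOf (inv_mem (zpow_mem hwK n)) hg
  obtain ⟨y, hy, hσG⟩ := galois_sub_mem_inf_of_lip hA h hsurj hW hH hidx hσ hlip hGH h1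
  have hG0 : (w ^ n)⁻¹ • g ≠ 0 := const_smul_ne_zero (inv_ne_zero (zpow_ne_zero n hw0)) hg0
  obtain ⟨hu, hu'⟩ := apply_div_mem hσ hw0
  have key := galois_div_sub_zpow (OInf h) (algebraMap_mem_OInf_iff h) hw0 hu hu' hG0 h2 n hy hσG
  rwa [zpow_smul_inv_smul hw0] at key

include hA hsurj hW hidx in
/-- **(σ-cong0)** For `g = w ^ n · (unit of O_0)` rational over `K''`:
`σ g / g − (σ w / w) ^ n ∈ (σ w − w)·O_0`. -/
theorem galois_div_sub_zpow_zero {σ : GQ} (hσ : σ ∈ A.inertiaSubgroupIn ℚ) {w : Qb}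
    (hwK : w ∈ fixedSubfieldOf (H : Set GQ)) (hw0 : w ≠ 0)
    (hlip : ∀ c : Qb, c ∈ A → c ∈ fixK A H hH →
      A.valuation (σ c - c) ≤ A.valuation (σ w - w))
    {g : laurentBaseChange Qb (modularFunctionFieldFull (M * p))}
    (hg : g ∈ fixedFunOf (H : Set GQ) (M * p)) (hg0 : g ≠ 0) {n : ℤ}
    (h1 : (w ^ n)⁻¹ • g ∈ OZero h W) (h2 : ((w ^ n)⁻¹ • g)⁻¹ ∈ OZero h W) :
    ∃ z ∈ OZero h W, arithmeticGalois (L := Qb) (modularFunctionFieldFull (M * p)) σ • g / g -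
        algebraMap Qb _ ((σ w / w) ^ n) = algebraMap Qb _ (σ w - w) * z := by
  have hGH : (w ^ n)⁻¹ • g ∈ fixedFunOf (H : Set GQ) (M * p) :=
    smul_mem_fixedFunOf (inv_mem (zpow_mem hwK n)) hg
  obtain ⟨y, hy, hσG⟩ := galois_sub_mem_zero_of_lip hA h hsurj hW hH hidx hσ hlip hGH h1
  have hG0 : (w ^ n)⁻¹ • g ≠ 0 := const_smul_ne_zero (inv_ne_zero (zpow_ne_zero n hw0)) hg0
  obtain ⟨hu, hu'⟩ := apply_div_mem hσ hw0
  have key := galois_div_sub_zpow (OZero h W) (algebraMap_mem_OZero_iff h) hw0 hu hu' hG0 h2 n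
    hy hσG
  rwa [zpow_smul_inv_smul hw0] at key

/-- Dividing a congruence modulo `w ^ (t + 1) u₀` by `ϖ ^ (t + 1)`. -/
theorem div_pow_mem_of_eq {N : ℕ} {A : ValuationSubring Qb}
    (O : ValuationSubring (laurentBaseChange Qb (modularFunctionFieldFull N)))
    (hOA : ∀ a : Qb,
      algebraMap Qb (laurentBaseChange Qb (modularFunctionFieldFull N)) a ∈ O ↔ a ∈ A)
    {w u₀ d : Qb} (hw0 : w ≠ 0) (hu₀ : u₀ ∈ A) {t : ℕ} (hd : d = w ^ (t + 1) * u₀)
    {X z : laurentBaseChange Qb (modularFunctionFieldFull N)} (hz : z ∈ O)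
    (e : X = algebraMap Qb _ d * z) :
    X / algebraMap Qb (laurentBaseChange Qb (modularFunctionFieldFull N)) w ^ (t + 1) ∈ O := by
  have hw' : algebraMap Qb (laurentBaseChange Qb (modularFunctionFieldFull N)) w ≠ 0 :=
    (map_ne_zero _).2 hw0
  have e2 : X / algebraMap Qb (laurentBaseChange Qb (modularFunctionFieldFull N)) w ^ (t + 1) =
      algebraMap Qb _ u₀ * z := by
    rw [e, hd, map_mul, map_pow]
    field_simp
  rw [e2]
  exact O.mul_mem _ _ ((hOA _).2 hu₀) hz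

include hA hsurj hW hidx in
/-- **The per-node congruences of the `u`-route** (`hH₁`, `hH₂`, `hcγ`, `hc` of
`GlueNodeU.dvd_gamma_sub_node`).  `σ w = w (1 + η)`, `η = w ^ t u₀`, `t ≥ 1`; `g` a
`K''`-rational function with `g = w ^ n₁ · (unit of O_∞) = w ^ n₂ · (unit of O_0)`;
`Hn := σ G / G`, `G := (w ^ n₁)⁻¹ • g`; `c := (1 + η) ^ (n₂ − n₁)`. -/
theorem node_cong {σ : GQ} (hσ : σ ∈ A.inertiaSubgroupIn ℚ) {w η u₀ : Qb} {t : ℕ}
    (hwK : w ∈ fixedSubfieldOf (H : Set GQ)) (hw0 : w ≠ 0) (hw1 : A.valuation w < 1)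
    (hlip : ∀ c : Qb, c ∈ A → c ∈ fixK A H hH →
      A.valuation (σ c - c) ≤ A.valuation (σ w - w))
    (hσw : σ w = w * (1 + η)) (hη : η = w ^ t * u₀) (hu₀ : u₀ ∈ A) (ht : 1 ≤ t)
    {g : laurentBaseChange Qb (modularFunctionFieldFull (M * p))}
    (hg : g ∈ fixedFunOf (H : Set GQ) (M * p)) (hg0 : g ≠ 0) {n₁ n₂ : ℤ}
    (hi : (w ^ n₁)⁻¹ • g ∈ OInf h) (hi' : ((w ^ n₁)⁻¹ • g)⁻¹ ∈ OInf h)
    (h0 : (w ^ n₂)⁻¹ • g ∈ OZero h W) (h0' : ((w ^ n₂)⁻¹ • g)⁻¹ ∈ OZero h W) :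
    (arithmeticGalois (L := Qb) (modularFunctionFieldFull (M * p)) σ • ((w ^ n₁)⁻¹ • g) /
        ((w ^ n₁)⁻¹ • g) - 1) /
      algebraMap Qb (laurentBaseChange Qb (modularFunctionFieldFull (M * p))) w ^ (t + 1) ∈
        OInf h ∧
    (arithmeticGalois (L := Qb) (modularFunctionFieldFull (M * p)) σ • ((w ^ n₁)⁻¹ • g) /
        ((w ^ n₁)⁻¹ • g) - algebraMap Qb _ ((1 + η) ^ (n₂ - n₁))) /
      algebraMap Qb (laurentBaseChange Qb (modularFunctionFieldFull (M * p))) w ^ (t + 1) ∈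
        OZero h W ∧
    (∃ b ∈ A, (1 + η) ^ (n₂ - n₁) - (1 + ((n₂ - n₁ : ℤ) : Qb) * η) = w ^ (t + 1) * b) ∧
    A.valuation ((1 + η) ^ (n₂ - n₁) - 1) < 1 := by
  have hd : σ w - w = w ^ (t + 1) * u₀ := by
    rw [hσw, hη]
    ring
  have hσw' : σ w / w = 1 + η := by
    rw [hσw, mul_div_cancel_left₀ _ hw0]
  set G : laurentBaseChange Qb (modularFunctionFieldFull (M * p)) := (w ^ n₁)⁻¹ • g with hG
  have hGH : G ∈ fixedFunOf (H : Set GQ) (M * p) :=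
    smul_mem_fixedFunOf (inv_mem (zpow_mem hwK n₁)) hg
  have hG0 : G ≠ 0 := const_smul_ne_zero (inv_ne_zero (zpow_ne_zero n₁ hw0)) hg0
  -- the `∞`-side: exponent `0`
  have hAi : (w ^ (0 : ℤ))⁻¹ • G ∈ OInf h := by
    rw [zpow_zero, inv_one, one_smul]
    exact hi
  have hAi' : ((w ^ (0 : ℤ))⁻¹ • G)⁻¹ ∈ OInf h := by
    rw [zpow_zero, inv_one, one_smul]
    exact hi'
  obtain ⟨z₁, hz₁, e₁⟩ := galois_div_sub_zpow_inf hA h hsurj hW hH hidx hσ hwK hw0 hlip hGH hG0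
    hAi hAi'
  rw [zpow_zero, map_one] at e₁
  -- the `0`-side: exponent `n₂ - n₁`
  have eG : (w ^ (n₂ - n₁))⁻¹ • G = (w ^ n₂)⁻¹ • g := by
    rw [hG, smul_smul, ← mul_inv, ← zpow_add₀ hw0, sub_add_cancel]
  have hA0 : (w ^ (n₂ - n₁))⁻¹ • G ∈ OZero h W := by
    rw [eG]
    exact h0
  have hA0' : ((w ^ (n₂ - n₁))⁻¹ • G)⁻¹ ∈ OZero h W := by
    rw [eG]
    exact h0'
  obtain ⟨z₂, hz₂, e₂⟩ := galois_div_sub_zpow_zero hA h hsurj hW hH hidx hσ hwK hw0 hlip hGH hG0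
    hA0 hA0'
  rw [hσw'] at e₂
  -- the constant
  have hwn : w ∈ A.nonunits := A.mem_nonunits_iff.mpr hw1
  have hcg := Fermat.Agent.TR.Node.SigmaGlue.one_add_zpow (O := A) (ϖ := w) (η := η) (t := t) hwn
    ⟨u₀, hu₀, hη⟩ ht (n₂ - n₁)
  obtain ⟨b, hb, eb⟩ := hcg
  refine ⟨div_pow_mem_of_eq (OInf h) (algebraMap_mem_OInf_iff h) hw0 hu₀ hd hz₁ e₁,
    div_pow_mem_of_eq (OZero h W) (algebraMap_mem_OZero_iff h) hw0 hu₀ hd hz₂ e₂,
    ⟨b, hb, eb⟩, ?_⟩
  -- `c - 1 = γ η + w^(t+1) b` is a non-unit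
  have hwA : w ∈ A := (A.valuation_le_one_iff w).1 hw1.le
  have hηlt : A.valuation η < 1 := by
    rw [hη, map_mul, map_pow]
    have h1 : A.valuation w ^ t < 1 := pow_lt_one₀ zero_le hw1 (by omega)
    exact lt_of_le_of_lt (mul_le_of_le_one_right' ((A.valuation_le_one_iff _).2 hu₀)) h1
  have e3 : (1 + η) ^ (n₂ - n₁) - 1 = ((n₂ - n₁ : ℤ) : Qb) * η + w ^ (t + 1) * b := by
    rw [← eb]
    ring
  rw [e3]
  refine lt_of_le_of_lt (Valuation.map_add _ _ _) (max_lt ?_ ?_)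
  · rw [map_mul]
    exact lt_of_le_of_lt
      (mul_le_of_le_one_left' ((A.valuation_le_one_iff _).2 (intCast_mem A _))) hηlt
  · rw [map_mul, map_pow]
    have h1 : A.valuation w ^ (t + 1) < 1 := pow_lt_one₀ zero_le hw1 (by omega)
    exact lt_of_le_of_lt (mul_le_of_le_one_right' ((A.valuation_le_one_iff _).2 hb)) h1

end Inst

end

end Fermat.Agent.TR.PL.NodeCong
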