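/-
TR / (PL), brick (I5) — the smooth side of the `u`-route at BAD's objects.

`u := σ f₀ / f₀` for a function `f₀` with `div f₀ = q · D`, `D` stable under `H ≤ I`, and
`σ ∈ I` congruent to the identity modulo `ϖ ^ (t + 1)` on `A ∩ K''` (`K'' = ℚ̄^H`).  Then for
every depth `n ≤ q t`, every constant `a` with `(u - a) / ϖ ^ n ∈ O_∞` and EVERY non-node place
`Qt` of the first component of the nodal fibre (cusps included), the reduction of
`(u - a) / ϖ ^ n` is regular at `Qt`: the hypothesis `hSm₁` of `ConstU.dvd_gamma_sub` /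
`GlueConst.exists_const` (with `Sm₁ b := ∀ Qt, (∀ i, e₁ i ≠ Qt) → Qt.adicValuation b ≤ 1`).
Mirror statement for `O_0` and the second component (`hSm₂`).

Proof: on the disc of `Qt` take the `H`-fixed local generator `g` of `D` (`BAD/SmoothOrdMove`);
`σ g / g ≡ 1 mod ϖ ^ (t + 1)` by (B-σ), hence `(σ g / g) ^ q ≡ 1 mod ϖ ^ (q t + 1)`; and
`u · (g / σ g) ^ q = σ F / F` for `F = f₀ / g ^ q`, which has neither zero nor pole in the disc
(the disc is stable under inertia).  Conclude by `Smooth.loc_of_disc_mul`.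

* `hSm_core` : the one-sided core, for any `SmoothLift.Setup` on `OPair h W` with inertia-fixed
  lifts and any valuation ring `Oi ⊇ OPair` with its residue map and (B-σ) as a hypothesis;
* `hSm_inf_of_setup`, `hSm_zero_of_setup` : the two components, for a setup;
* `hSm_inf`, `hSm_zero` : for a `NodalPlus.NodalDatum` with `0 < deg Z_j`, every non-node place.
-/
import Mathlib
import Fermat.Agent.BAD.SmoothOrdMove
import Fermat.Agent.TR.PL.Smooth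
import Fermat.Agent.TR.PL.ConstU
import Fermat.Agent.TR.PL.BaseChangeSigma

set_option autoImplicit false
set_option linter.style.haveILetI false
set_option linter.unusedSectionVars false

noncomputable section

namespace Fermat.Agent.TR.PL.SmoothU

open AlgebraicCurve ModularCurve WithZero Fermat.Agent.Lib.FF Fermat.Agent.Lib.Red.Deform
  Fermat.Agent.Lib.Red.CoordLat Fermat.Agent.BAD.NodalDiv Fermat.Agent.BAD.NodalRiemann
  Fermat.Agent.BAD.TwoVal Fermat.Agent.BAD.NodalAsm Fermat.Agent.BAD.BadU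
  Fermat.Agent.BAD.SmoothLift Fermat.Agent.BAD.SmoothOrd Fermat.Agent.BAD.SmoothLiftInst
  Fermat.Agent.BAD.SmoothOrdInst Fermat.Agent.BAD.NodalPlus Fermat.Agent.BAD.SmoothOrdZero
  Fermat.Agent.BAD.SmoothOrdMove Fermat.Agent.BAD.LatFixed Fermat.Agent.BAD.LatFixedInst

local notation "Qb" => AlgebraicClosure ℚ
local notation "GQ" => (AlgebraicClosure ℚ ≃ₐ[ℚ] AlgebraicClosure ℚ)

variable {A : ValuationSubring Qb} {k : Type} [Field k] {π : A →+* k} {M q : ℕ} [NeZero M]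
  [NeZero q]

variable [IsAlgClosed k] {h : BadSetup A π M q}
  {W : laurentBaseChange Qb (modularFunctionFieldFull (M * q)) ≃ₐ[Qb]
    laurentBaseChange Qb (modularFunctionFieldFull (M * q))}
  {E1 E2 : Divisor Qb (laurentBaseChange Qb (modularFunctionFieldFull (M * q)))}
  {ι : Type} [Fintype ι]
  {e₁ e₂ : ι → Place k (modularFunctionFieldFullC k M)}
  {P₁ Z₁ P₂ Z₂ : Divisor k (modularFunctionFieldFullC k M)} {N₀ : ℕ}
  {red : OPair h W →+* ↥(modularFunctionFieldFullC k M) × ↥(modularFunctionFieldFullC k M)}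

/-- Pure algebra: the data `G`, `z` of `Smooth.loc_of_disc_mul` from a `1`-unit `Hq = x / g`
(`x = σ g`), in a valuation ring. -/
theorem exists_G_of_cong {F : Type*} [Field F] (O : ValuationSubring F) {ϖ : F} (hϖ0 : ϖ ≠ 0)
    (hϖ : ϖ ∈ O) {q t : ℕ} (hq : q.Prime)
    (hqϖ : ∃ r ∈ O, (q : F) * ϖ ^ t = ϖ ^ (q * t + 1) * r)
    {g x y : F} (hg0 : g ≠ 0) (hx0 : x ≠ 0) (hgi : g⁻¹ ∈ O) (hg : g ∈ O) (hxi : x⁻¹ ∈ O)
    (hy : y ∈ O) (hxy : x - g = ϖ ^ (t + 1) * y) :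
    ∃ z ∈ O, (g * x⁻¹) ^ q - 1 = ϖ ^ (q * t + 1) * z := by
  have hcong : (x / g - 1) / ϖ ^ (t + 1) ∈ O := by
    have e : (x / g - 1) / ϖ ^ (t + 1) = y * g⁻¹ := by
      have hx : x = g + ϖ ^ (t + 1) * y := by rw [← hxy]; ring
      rw [hx]
      field_simp
      ring
    rw [e]
    exact O.mul_mem _ _ hy hgi
  have hpow := Fermat.Agent.TR.PL.ConstU.pow_div_mem hq hϖ0 hϖ hqϖ O.one_mem hcong
  rw [one_pow] at hpow
  refine ⟨-(((x / g) ^ q - 1) / ϖ ^ (q * t + 1)) * (g * x⁻¹) ^ q,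
    O.mul_mem _ _ (O.neg_mem _ hpow) (pow_mem (O.mul_mem _ _ hg hxi) q), ?_⟩
  have hT0 : ϖ ^ (q * t + 1) ≠ 0 := pow_ne_zero _ hϖ0
  have e1 : (x / g) ^ q * (g * x⁻¹) ^ q = 1 := by
    rw [← mul_pow]
    have : x / g * (g * x⁻¹) = 1 := by field_simp
    rw [this, one_pow]
  calc (g * x⁻¹) ^ q - 1 = -((x / g) ^ q - 1) * (g * x⁻¹) ^ q := by
        rw [neg_mul, sub_mul, e1]
        ring
    _ = ϖ ^ (q * t + 1) * (-(((x / g) ^ q - 1) / ϖ ^ (q * t + 1)) * (g * x⁻¹) ^ q) := by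
        field_simp

set_option maxHeartbeats 1000000 in
/-- **(I5), one-sided core.** -/
theorem hSm_core (hI : Inertial h W red)
    (S : Setup A (OPair h W) red π e₁ e₂ P₁ Z₁ P₂ Z₂ E1 E2 N₀)
    (Oi : ValuationSubring (laurentBaseChange Qb (modularFunctionFieldFull (M * q))))
    (hOi : OPair h W ≤ Oi.toSubring) (redi : Oi →+* ↥(modularFunctionFieldFullC k M))
    (hredi : ∀ y : OPair h W, redi ⟨(y : laurentBaseChange Qb (modularFunctionFieldFull (M * q))),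
      hOi y.2⟩ = (red y).1)
    (hpow : ∀ β : OPair h W, (red β).2 = 0 →
      ∀ g : laurentBaseChange Qb (modularFunctionFieldFull (M * q)), g ∈ Oi.toSubring →
        ∃ N : ℕ, (β : laurentBaseChange Qb (modularFunctionFieldFull (M * q))) ^ N * g ∈
          OPair h W)
    (hinvi : ∀ (f : laurentBaseChange Qb (modularFunctionFieldFull (M * q)))
      (hf : f ∈ Oi.toSubring), redi ⟨f, hf⟩ ≠ 0 → f⁻¹ ∈ Oi.toSubring)
    (hgalE : ∀ σ ∈ A.inertiaSubgroupIn ℚ,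
      arithmeticGalois (modularFunctionFieldFull (M * q)) σ • E1 = E1 ∧
      arithmeticGalois (modularFunctionFieldFull (M * q)) σ • E2 = E2)
    (Qt : Place k (modularFunctionFieldFullC k M))
    (hQt : ∀ i, e₁ i ≠ Qt) (hQP : P₁ Qt = 0) (hQZ : Z₁ Qt = 0)
    (H : Subgroup GQ) (hH : ∀ σ ∈ H, σ ∈ A.inertiaSubgroupIn ℚ)
    {σ : GQ} (hσ : σ ∈ A.inertiaSubgroupIn ℚ)
    (ϖ : Qb) (hϖ0 : ϖ ≠ 0) (hϖ1 : A.valuation ϖ < 1) (t : ℕ) (hq : q.Prime)
    (hBσ : ∀ g : laurentBaseChange Qb (modularFunctionFieldFull (M * q)),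
      g ∈ fixedFunOf (H : Set GQ) (M * q) → g ∈ Oi →
      ∃ y ∈ Oi, arithmeticGalois (L := Qb) (modularFunctionFieldFull (M * q)) σ • g - g =
        (ϖ ^ (t + 1)) • y)
    (hqϖ : ∃ r ∈ A, (q : Qb) * ϖ ^ t = ϖ ^ (q * t + 1) * r)
    (D : Divisor Qb (laurentBaseChange Qb (modularFunctionFieldFull (M * q))))
    (hDH : ∀ τ ∈ H, arithmeticGalois (modularFunctionFieldFull (M * q)) τ • D = D)
    (f₀ : laurentBaseChange Qb (modularFunctionFieldFull (M * q))) (hf₀ : f₀ ≠ 0)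
    (hdiv : ∀ P : Place Qb (laurentBaseChange Qb (modularFunctionFieldFull (M * q))),
      P.ord f₀ = q * D P)
    (hu : arithmeticGalois (L := Qb) (modularFunctionFieldFull (M * q)) σ • f₀ / f₀ ∈ Oi)
    (n : ℕ) (hn : n ≤ q * t) (a : Qb)
    (hmem : (arithmeticGalois (L := Qb) (modularFunctionFieldFull (M * q)) σ • f₀ / f₀ -
      algebraMap Qb _ a) / algebraMap Qb _ ϖ ^ n ∈ Oi) :
    Qt.adicValuation (redi ⟨_, hmem⟩) ≤ 1 := by
  classical
  haveI : Infinite k := IsAlgClosed.instInfinite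
  -- the local generator
  obtain ⟨g, hg0, hgfix, hgO, hgi, hgord⟩ := exists_fixed_generator_aux hI S Oi.toSubring hOi
    redi hredi hpow hinvi hgalE Qt hQt hQP hQZ (H : Set GQ) hH D hDH
  have hgi_fix : g⁻¹ ∈ fixedFunOf (H : Set GQ) (M * q) := by
    intro τ hτ
    rw [smul_inv'', hgfix τ hτ]
  obtain ⟨y, hy, hsub⟩ := hBσ g hgfix hgO
  obtain ⟨y', hy', hsub'⟩ := hBσ g⁻¹ hgi_fix hgi
  -- constants
  have hϖA : ϖ ∈ A := (A.valuation_le_one_iff _).1 hϖ1.le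
  have hconst : ∀ c : Qb, c ∈ A →
      algebraMap Qb (laurentBaseChange Qb (modularFunctionFieldFull (M * q))) c ∈ Oi :=
    fun c hc => hOi ((S.hOA c).2 hc)
  have hϖOi := hconst ϖ hϖA
  have hϖF0 : algebraMap Qb (laurentBaseChange Qb (modularFunctionFieldFull (M * q))) ϖ ≠ 0 :=
    (map_ne_zero _).2 hϖ0
  have hredϖ : redi ⟨algebraMap Qb _ ϖ, hϖOi⟩ = 0 := by
    have h1 := hredi ⟨algebraMap Qb _ ϖ, (S.hOA ϖ).2 hϖA⟩
    rw [h1, S.hconst ⟨ϖ, hϖA⟩, (S.hπker ⟨ϖ, hϖA⟩).2 hϖ1, map_zero]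
    rfl
  have hqϖF : ∃ r ∈ Oi, ((q : ℕ) : laurentBaseChange Qb (modularFunctionFieldFull (M * q))) *
      algebraMap Qb _ ϖ ^ t = algebraMap Qb _ ϖ ^ (q * t + 1) * r := by
    obtain ⟨r, hr, hre⟩ := hqϖ
    refine ⟨algebraMap Qb _ r, hconst r hr, ?_⟩
    have := congrArg (algebraMap Qb (laurentBaseChange Qb (modularFunctionFieldFull (M * q)))) hre
    rwa [map_mul, map_mul, map_pow, map_pow, map_natCast] at this
  -- `σ g`
  have hx0 : arithmeticGalois (L := Qb) (modularFunctionFieldFull (M * q)) σ • g ≠ 0 :=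
    (smul_ne_zero_iff_ne _).2 hg0
  have hxy : arithmeticGalois (L := Qb) (modularFunctionFieldFull (M * q)) σ • g - g =
      algebraMap Qb _ ϖ ^ (t + 1) * y := by
    rw [hsub, Algebra.smul_def, map_pow]
  have hxi : (arithmeticGalois (L := Qb) (modularFunctionFieldFull (M * q)) σ • g)⁻¹ ∈ Oi := by
    have e : (arithmeticGalois (L := Qb) (modularFunctionFieldFull (M * q)) σ • g)⁻¹ =
        g⁻¹ + (ϖ ^ (t + 1)) • y' := by
      rw [← hsub', smul_inv'']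
      ring
    rw [e, Algebra.smul_def]
    exact Oi.add_mem _ _ hgi (Oi.mul_mem _ _ (hconst _ (pow_mem hϖA _)) hy')
  obtain ⟨z, hz, hG⟩ := exists_G_of_cong Oi hϖF0 hϖOi hq hqϖF hg0 hx0 hgi hgO hxi hy hxy
  -- `F = f₀ / g ^ q` has neither zero nor pole in the disc
  have hFval : ∀ P : Place Qb (laurentBaseChange Qb (modularFunctionFieldFull (M * q))),
      RedTo red E1 E2 N₀ Qt P → P.adicValuation (f₀ / g ^ q) = 1 := by
    intro P hP
    have hF0 : f₀ / g ^ q ≠ 0 := div_ne_zero hf₀ (pow_ne_zero _ hg0)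
    have hord : P.ord (f₀ / g ^ q) = 0 := by
      rw [div_eq_mul_inv, P.ord_mul hf₀ (inv_ne_zero (pow_ne_zero _ hg0)), Place.ord_inv,
        ← zpow_natCast, Place.ord_zpow, hdiv P, hgord P hP]
      ring
    rw [P.adicValuation_eq_exp_neg_ord hF0, hord, neg_zero, exp_zero]
  have hσ' : σ⁻¹ ∈ A.inertiaSubgroupIn ℚ := Subgroup.inv_mem _ hσ
  have hinv : (arithmeticGalois (L := Qb) (modularFunctionFieldFull (M * q)) σ)⁻¹ =
      arithmeticGalois (L := Qb) (modularFunctionFieldFull (M * q)) σ⁻¹ := (map_inv _ σ).symm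
  have hΨG : ∀ P : Place Qb (laurentBaseChange Qb (modularFunctionFieldFull (M * q))),
      RedTo red E1 E2 N₀ Qt P →
      P.adicValuation (arithmeticGalois (L := Qb) (modularFunctionFieldFull (M * q)) σ • f₀ / f₀ *
        (g * (arithmeticGalois (L := Qb) (modularFunctionFieldFull (M * q)) σ • g)⁻¹) ^ q) ≤ 1 := by
    intro P hP
    have e : arithmeticGalois (L := Qb) (modularFunctionFieldFull (M * q)) σ • f₀ / f₀ *
        (g * (arithmeticGalois (L := Qb) (modularFunctionFieldFull (M * q)) σ • g)⁻¹) ^ q =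
        arithmeticGalois (L := Qb) (modularFunctionFieldFull (M * q)) σ • (f₀ / g ^ q) /
          (f₀ / g ^ q) := by
      rw [smul_div₀', smul_pow']
      field_simp
      rw [mul_assoc, ← mul_pow, div_mul_cancel₀ _ hx0]
    have hP' : RedTo red E1 E2 N₀ Qt
        (arithmeticGalois (L := Qb) (modularFunctionFieldFull (M * q)) σ⁻¹ • P) :=
      hP.smul _ (hI.mem σ⁻¹ hσ') (hI.red_eq σ⁻¹ hσ') (hgalE σ⁻¹ hσ').1 (hgalE σ⁻¹ hσ').2
    rw [e, map_div₀, Fermat.Agent.Padic.adicValuation_semilinear_smul', hinv, hFval _ hP',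
      hFval P hP, div_one]
  -- conclusion
  have huΨ : arithmeticGalois (L := Qb) (modularFunctionFieldFull (M * q)) σ • f₀ / f₀ -
      algebraMap Qb _ a = algebraMap Qb _ ϖ ^ n *
        ((arithmeticGalois (L := Qb) (modularFunctionFieldFull (M * q)) σ • f₀ / f₀ -
          algebraMap Qb _ a) / algebraMap Qb _ ϖ ^ n) := by
    rw [mul_div_cancel₀ _ (pow_ne_zero _ hϖF0)]
  exact Fermat.Agent.TR.PL.Smooth.loc_of_disc_mul S (isFF1_xL Qb (M * q)) (isFF1_xk k M)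
    (isFF1_xk k M) hQt hQP hQZ Oi.toSubring redi (fun y hy => hOi hy) hredi
    (fun u hu β hβ => by
      obtain ⟨N, hN⟩ := hpow β hβ u hu
      exact ⟨N, by rw [mul_comm u]; exact hN⟩)
    ϖ hϖ0 hϖOi hredϖ (q * t) _ _ z hu hz hG hΨG n hn a _ hmem huΨ

section Inst

variable (hq : q.Prime) (hA : A.LiesOverPrime q) (hsurj : Function.Surjective π)
  (hW : IsAL M q W)
  (H : Subgroup GQ) (hH : ∀ σ ∈ H, σ ∈ A.inertiaSubgroupIn ℚ)
  {m : ℕ} (ρ : Fin m → GQ) (hρI : ∀ j, ρ j ∈ A.inertiaSubgroupIn ℚ)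
  (hρ : ∀ σ ∈ A.inertiaSubgroupIn ℚ, ∃ j, ∃ τ ∈ H, σ = ρ j * τ)

include hq hA hsurj hW hH hρI hρ

/-- **(I5), first component, for a setup**: `hSm₁` at a non-node place `Qt` off the chart
divisors of the setup. -/
theorem hSm_inf_of_setup
    (S : Setup A (OPair h W) (redPair h W) π e₁ e₂ P₁ Z₁ P₂ Z₂ E1 E2 N₀)
    (hgalE : ∀ σ ∈ A.inertiaSubgroupIn ℚ,
      arithmeticGalois (modularFunctionFieldFull (M * q)) σ • E1 = E1 ∧
      arithmeticGalois (modularFunctionFieldFull (M * q)) σ • E2 = E2)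
    (Qt : Place k (modularFunctionFieldFullC k M))
    (hQt : ∀ i, e₁ i ≠ Qt) (hQP : P₁ Qt = 0) (hQZ : Z₁ Qt = 0)
    {σ : GQ} (hσ : σ ∈ A.inertiaSubgroupIn ℚ)
    (ϖ : Qb) (hϖ0 : ϖ ≠ 0) (hϖ1 : A.valuation ϖ < 1) (t : ℕ)
    (hσc : ∀ a ∈ fixedSubfieldOf (H : Set GQ), a ∈ A → ∃ b ∈ A, σ a - a = ϖ ^ (t + 1) * b)
    (hqϖ : ∃ r ∈ A, (q : Qb) * ϖ ^ t = ϖ ^ (q * t + 1) * r)
    (D : Divisor Qb (laurentBaseChange Qb (modularFunctionFieldFull (M * q))))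
    (hDH : ∀ τ ∈ H, arithmeticGalois (modularFunctionFieldFull (M * q)) τ • D = D)
    (f₀ : laurentBaseChange Qb (modularFunctionFieldFull (M * q))) (hf₀ : f₀ ≠ 0)
    (hdiv : ∀ P : Place Qb (laurentBaseChange Qb (modularFunctionFieldFull (M * q))),
      P.ord f₀ = q * D P)
    (hu : arithmeticGalois (L := Qb) (modularFunctionFieldFull (M * q)) σ • f₀ / f₀ ∈ OInf h)
    (n : ℕ) (hn : n ≤ q * t) (a : Qb)
    (hmem : (arithmeticGalois (L := Qb) (modularFunctionFieldFull (M * q)) σ • f₀ / f₀ -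
      algebraMap Qb _ a) / algebraMap Qb _ ϖ ^ n ∈ OInf h) :
    Qt.adicValuation (redInf h ⟨_, hmem⟩) ≤ 1 :=
  hSm_core (inertial_redPair hsurj h W hW hA) S (OInf h)
    (fun y hy => ((mem_OPair_iff h y).1 hy).1) (redInf h) (fun _ => rfl)
    (exists_pow_mul_mem_OPair_inf h W) (fun f hf hne => inv_mem_OInf h f hf hne)
    hgalE Qt hQt hQP hQZ H hH hσ ϖ hϖ0 hϖ1 t hq
    (fun _ hg hgO => Fermat.Agent.TR.PL.BaseChangeSigma.galois_sub_mem_inf hq hA h hsurj hW H hH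
      ρ hρI hρ hσ (ϖ ^ (t + 1)) hσc hg hgO)
    hqϖ D hDH f₀ hf₀ hdiv hu n hn a hmem

/-- **(I5), second component, for a setup**: `hSm₂`. -/
theorem hSm_zero_of_setup
    (S : Setup A (OPair h W) (redPair h W) π e₁ e₂ P₁ Z₁ P₂ Z₂ E1 E2 N₀)
    (hgalE : ∀ σ ∈ A.inertiaSubgroupIn ℚ,
      arithmeticGalois (modularFunctionFieldFull (M * q)) σ • E1 = E1 ∧
      arithmeticGalois (modularFunctionFieldFull (M * q)) σ • E2 = E2)
    (Qt : Place k (modularFunctionFieldFullC k M))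
    (hQt : ∀ i, e₂ i ≠ Qt) (hQP : P₂ Qt = 0) (hQZ : Z₂ Qt = 0)
    {σ : GQ} (hσ : σ ∈ A.inertiaSubgroupIn ℚ)
    (ϖ : Qb) (hϖ0 : ϖ ≠ 0) (hϖ1 : A.valuation ϖ < 1) (t : ℕ)
    (hσc : ∀ a ∈ fixedSubfieldOf (H : Set GQ), a ∈ A → ∃ b ∈ A, σ a - a = ϖ ^ (t + 1) * b)
    (hqϖ : ∃ r ∈ A, (q : Qb) * ϖ ^ t = ϖ ^ (q * t + 1) * r)
    (D : Divisor Qb (laurentBaseChange Qb (modularFunctionFieldFull (M * q))))
    (hDH : ∀ τ ∈ H, arithmeticGalois (modularFunctionFieldFull (M * q)) τ • D = D)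
    (f₀ : laurentBaseChange Qb (modularFunctionFieldFull (M * q))) (hf₀ : f₀ ≠ 0)
    (hdiv : ∀ P : Place Qb (laurentBaseChange Qb (modularFunctionFieldFull (M * q))),
      P.ord f₀ = q * D P)
    (hu : arithmeticGalois (L := Qb) (modularFunctionFieldFull (M * q)) σ • f₀ / f₀ ∈
      OZero h W)
    (n : ℕ) (hn : n ≤ q * t) (a : Qb)
    (hmem : (arithmeticGalois (L := Qb) (modularFunctionFieldFull (M * q)) σ • f₀ / f₀ -
      algebraMap Qb _ a) / algebraMap Qb _ ϖ ^ n ∈ OZero h W) :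
    Qt.adicValuation (redZero h W ⟨_, hmem⟩) ≤ 1 :=
  hSm_core (inertial_redPair hsurj h W hW hA).swap S.swap (OZero h W)
    (fun y hy => ((mem_OPair_iff h y).1 hy).2) (redZero h W) (fun _ => rfl)
    (exists_pow_mul_mem_OPair_zero h W) (fun f hf hne => inv_mem_OZero h f hf hne)
    hgalE Qt hQt hQP hQZ H hH hσ ϖ hϖ0 hϖ1 t hq
    (fun _ hg hgO => Fermat.Agent.TR.PL.BaseChangeSigma.galois_sub_mem_zero hq hA h hsurj hW H
      hH ρ hρI hρ hσ (ϖ ^ (t + 1)) hσc hg hgO)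
    hqϖ D hDH f₀ hf₀ hdiv hu n hn a hmem

/-- **(I5), first component: `hSm₁` of `ConstU.dvd_gamma_sub` at EVERY non-node place** (cusps
included) for a nodal datum with `0 < deg Z₁`, `0 < deg Z₂`. -/
theorem hSm_inf (hD : NodalDatum h W E1 E2 e₁ e₂ P₁ Z₁ P₂ Z₂)
    (hdegZ₁ : 0 < Divisor.degree Z₁) (hdegZ₂ : 0 < Divisor.degree Z₂)
    {σ : GQ} (hσ : σ ∈ A.inertiaSubgroupIn ℚ)
    (ϖ : Qb) (hϖ0 : ϖ ≠ 0) (hϖ1 : A.valuation ϖ < 1) (t : ℕ)
    (hσc : ∀ a ∈ fixedSubfieldOf (H : Set GQ), a ∈ A → ∃ b ∈ A, σ a - a = ϖ ^ (t + 1) * b)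
    (hqϖ : ∃ r ∈ A, (q : Qb) * ϖ ^ t = ϖ ^ (q * t + 1) * r)
    (D : Divisor Qb (laurentBaseChange Qb (modularFunctionFieldFull (M * q))))
    (hDH : ∀ τ ∈ H, arithmeticGalois (modularFunctionFieldFull (M * q)) τ • D = D)
    (f₀ : laurentBaseChange Qb (modularFunctionFieldFull (M * q))) (hf₀ : f₀ ≠ 0)
    (hdiv : ∀ P : Place Qb (laurentBaseChange Qb (modularFunctionFieldFull (M * q))),
      P.ord f₀ = q * D P)
    (hu : arithmeticGalois (L := Qb) (modularFunctionFieldFull (M * q)) σ • f₀ / f₀ ∈ OInf h)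
    (n : ℕ) (hn : n ≤ q * t) (a : Qb)
    (hmem : (arithmeticGalois (L := Qb) (modularFunctionFieldFull (M * q)) σ • f₀ / f₀ -
      algebraMap Qb _ a) / algebraMap Qb _ ϖ ^ n ∈ OInf h)
    (Qt : Place k (modularFunctionFieldFullC k M)) (hQt : ∀ i, e₁ i ≠ Qt) :
    Qt.adicValuation (redInf h ⟨_, hmem⟩) ≤ 1 := by
  obtain ⟨N₀, -, SP, SZ⟩ := hD.exists_setups hsurj hW hdegZ₁ hdegZ₂
  obtain ⟨-, -, -, -, -, -, h7, -, -, -, -, -, -, -, -, hgal, -⟩ := hD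
  rcases h7 Qt with hP | hZ
  · exact hSm_inf_of_setup hq hA hsurj hW H hH ρ hρI hρ SP
      (fun τ hτ => ⟨(hgal τ hτ).1, (hgal τ hτ).1⟩) Qt hQt hP hP hσ ϖ hϖ0 hϖ1 t hσc hqϖ D hDH
      f₀ hf₀ hdiv hu n hn a hmem
  · exact hSm_inf_of_setup hq hA hsurj hW H hH ρ hρI hρ SZ
      (fun τ hτ => ⟨(hgal τ hτ).2, (hgal τ hτ).2⟩) Qt hQt hZ hZ hσ ϖ hϖ0 hϖ1 t hσc hqϖ D hDH
      f₀ hf₀ hdiv hu n hn a hmem

/-- **(I5), second component: `hSm₂` at EVERY non-node place.** -/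
theorem hSm_zero (hD : NodalDatum h W E1 E2 e₁ e₂ P₁ Z₁ P₂ Z₂)
    (hdegZ₁ : 0 < Divisor.degree Z₁) (hdegZ₂ : 0 < Divisor.degree Z₂)
    {σ : GQ} (hσ : σ ∈ A.inertiaSubgroupIn ℚ)
    (ϖ : Qb) (hϖ0 : ϖ ≠ 0) (hϖ1 : A.valuation ϖ < 1) (t : ℕ)
    (hσc : ∀ a ∈ fixedSubfieldOf (H : Set GQ), a ∈ A → ∃ b ∈ A, σ a - a = ϖ ^ (t + 1) * b)
    (hqϖ : ∃ r ∈ A, (q : Qb) * ϖ ^ t = ϖ ^ (q * t + 1) * r)
    (D : Divisor Qb (laurentBaseChange Qb (modularFunctionFieldFull (M * q))))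
    (hDH : ∀ τ ∈ H, arithmeticGalois (modularFunctionFieldFull (M * q)) τ • D = D)
    (f₀ : laurentBaseChange Qb (modularFunctionFieldFull (M * q))) (hf₀ : f₀ ≠ 0)
    (hdiv : ∀ P : Place Qb (laurentBaseChange Qb (modularFunctionFieldFull (M * q))),
      P.ord f₀ = q * D P)
    (hu : arithmeticGalois (L := Qb) (modularFunctionFieldFull (M * q)) σ • f₀ / f₀ ∈
      OZero h W)
    (n : ℕ) (hn : n ≤ q * t) (a : Qb)
    (hmem : (arithmeticGalois (L := Qb) (modularFunctionFieldFull (M * q)) σ • f₀ / f₀ -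
      algebraMap Qb _ a) / algebraMap Qb _ ϖ ^ n ∈ OZero h W)
    (Qt : Place k (modularFunctionFieldFullC k M)) (hQt : ∀ i, e₂ i ≠ Qt) :
    Qt.adicValuation (redZero h W ⟨_, hmem⟩) ≤ 1 := by
  obtain ⟨N₀, -, SP, SZ⟩ := hD.exists_setups hsurj hW hdegZ₁ hdegZ₂
  obtain ⟨-, -, -, -, -, -, -, h8, -, -, -, -, -, -, -, hgal, -⟩ := hD
  rcases h8 Qt with hP | hZ
  · exact hSm_zero_of_setup hq hA hsurj hW H hH ρ hρI hρ SP
      (fun τ hτ => ⟨(hgal τ hτ).1, (hgal τ hτ).1⟩) Qt hQt hP hP hσ ϖ hϖ0 hϖ1 t hσc hqϖ D hDH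
      f₀ hf₀ hdiv hu n hn a hmem
  · exact hSm_zero_of_setup hq hA hsurj hW H hH ρ hρI hρ SZ
      (fun τ hτ => ⟨(hgal τ hτ).2, (hgal τ hτ).2⟩) Qt hQt hZ hZ hσ ϖ hϖ0 hϖ1 t hσc hqϖ D hDH
      f₀ hf₀ hdiv hu n hn a hmem

end Inst

end Fermat.Agent.TR.PL.SmoothU
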