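/-
TR / (PL), brick (I5) in the frame vocabulary of `TR/PL/SigmaSeam.lean` (`H ≤ I` of finite
relative index, the Lipschitz bound `hlip` of the frame, `σ w = w (1 + η)`, `η = w ^ t u₀`):
the hypotheses `hSm₁`, `hSm₂` of `GlueNode.const_indep_node` / `ConstU.dvd_gamma_sub` for
`u = σ f₀ / f₀`, literally in the shape consumed by the wild assembly.

* `hσc_of_frame` : `σ a - a ∈ w ^ (t + 1) A` on `A ∩ K''`;
* `hSm_inf_of_lip`, `hSm_zero_of_lip` : wrappers of `SmoothU.hSm_inf`, `SmoothU.hSm_zero`.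
-/
import Mathlib
import Fermat.Agent.TR.PL.SmoothU
import Fermat.Agent.TR.PL.SigmaSeam

set_option autoImplicit false
set_option linter.style.haveILetI false
set_option linter.unusedSectionVars false

noncomputable section

namespace Fermat.Agent.TR.PL.SmoothULip

open AlgebraicCurve ModularCurve WithZero Fermat.Agent.Lib.FF Fermat.Agent.BAD.TwoVal
  Fermat.Agent.BAD.SmoothLift Fermat.Agent.BAD.NodalPlus Fermat.Agent.BAD.LatFixed
  Fermat.Agent.BAD.LatFixedInst Fermat.Agent.TR.PL.Frame Fermat.Agent.TR.PL.SigmaSeam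
  Fermat.Agent.TR.PL.SmoothU

local notation "Qb" => AlgebraicClosure ℚ
local notation "GQ" => (AlgebraicClosure ℚ ≃ₐ[ℚ] AlgebraicClosure ℚ)

/-- The frame numerics give the congruence `σ ≡ id mod w ^ (t + 1)` on `A ∩ K''`. -/
theorem hσc_of_frame {A : ValuationSubring Qb} {H : Subgroup GQ}
    (hH : H ≤ A.inertiaSubgroupIn ℚ) {σ : GQ} {w η u₀ : Qb} {t : ℕ}
    (hlip : ∀ c : Qb, c ∈ A → c ∈ fixK A H hH →
      A.valuation (σ c - c) ≤ A.valuation (σ w - w))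
    (hσw : σ w = w * (1 + η)) (hη : η = w ^ t * u₀) (hu₀ : u₀ ∈ A) :
    ∀ a ∈ fixedSubfieldOf (H : Set GQ), a ∈ A → ∃ b ∈ A, σ a - a = w ^ (t + 1) * b := by
  intro a ha haA
  obtain ⟨b, hb, e⟩ := hσc_of_lip hH hlip a ha haA
  refine ⟨u₀ * b, A.mul_mem _ _ hu₀ hb, ?_⟩
  rw [e, hσw, hη]
  ring

section Inst

variable {p : ℕ} [Fact p.Prime] [NeZero p] {A : ValuationSubring Qb} {k : Type} [Field k]
  {π : A →+* k} {M : ℕ} [NeZero M]
  {W : laurentBaseChange Qb (modularFunctionFieldFull (M * p)) ≃ₐ[Qb]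
    laurentBaseChange Qb (modularFunctionFieldFull (M * p))}
  [IsAlgClosed k] {h : BadSetup A π M p}
  {E1 E2 : Divisor Qb (laurentBaseChange Qb (modularFunctionFieldFull (M * p)))}
  {ι : Type} [Fintype ι]
  {e₁ e₂ : ι → Place k (modularFunctionFieldFullC k M)}
  {P₁ Z₁ P₂ Z₂ : Divisor k (modularFunctionFieldFullC k M)}
  (hA : A.LiesOverPrime p) (hsurj : Function.Surjective π)
  (hW : IsAL M p W) {H : Subgroup GQ} (hH : H ≤ A.inertiaSubgroupIn ℚ)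
  (hidx : H.relIndex (A.inertiaSubgroupIn ℚ) ≠ 0)

include hA hsurj hW hidx

/-- **(I5), first component, frame form** = `hSm₁` of the wild assembly. -/
theorem hSm_inf_of_lip (hD : NodalDatum h W E1 E2 e₁ e₂ P₁ Z₁ P₂ Z₂)
    (hdegZ₁ : 0 < Divisor.degree Z₁) (hdegZ₂ : 0 < Divisor.degree Z₂)
    {σ : GQ} (hσ : σ ∈ A.inertiaSubgroupIn ℚ) {w η u₀ : Qb} {t : ℕ}
    (hlip : ∀ c : Qb, c ∈ A → c ∈ fixK A H hH →
      A.valuation (σ c - c) ≤ A.valuation (σ w - w))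
    (hw0 : w ≠ 0) (hw1 : A.valuation w < 1)
    (hσw : σ w = w * (1 + η)) (hη : η = w ^ t * u₀) (hu₀ : u₀ ∈ A)
    (hpw : ∃ r ∈ A, (p : Qb) * w ^ t = w ^ (p * t + 1) * r)
    (D : Divisor Qb (laurentBaseChange Qb (modularFunctionFieldFull (M * p))))
    (hDH : ∀ τ ∈ H, arithmeticGalois (modularFunctionFieldFull (M * p)) τ • D = D)
    (f₀ : laurentBaseChange Qb (modularFunctionFieldFull (M * p))) (hf₀ : f₀ ≠ 0)
    (hdiv : ∀ P : Place Qb (laurentBaseChange Qb (modularFunctionFieldFull (M * p))),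
      P.ord f₀ = p * D P)
    (hu : arithmeticGalois (L := Qb) (modularFunctionFieldFull (M * p)) σ • f₀ / f₀ ∈ OInf h) :
    ∀ m ≤ p * t, ∀ a ∈ fixedSubfieldOf (H : Set GQ), a ∈ A →
      ∀ hu' : (arithmeticGalois (L := Qb) (modularFunctionFieldFull (M * p)) σ • f₀ / f₀ -
        algebraMap Qb _ a) / algebraMap Qb _ w ^ m ∈ OInf h,
      ∀ Q : Place k (modularFunctionFieldFullC k M), (∀ i, e₁ i ≠ Q) →
        Q.adicValuation (redInf h ⟨_, hu'⟩) ≤ 1 := by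
  obtain ⟨m₀, ρ, hρI, hρ⟩ := exists_cosetReps H _ hidx
  intro m hm a _ _ hu' Q hQ
  exact hSm_inf Fact.out hA hsurj hW H (fun τ hτ => hH hτ) ρ hρI hρ hD hdegZ₁ hdegZ₂ hσ w hw0
    hw1 t (hσc_of_frame hH hlip hσw hη hu₀) hpw D hDH f₀ hf₀ hdiv hu m hm a hu' Q hQ

/-- **(I5), second component, frame form** = `hSm₂` of the wild assembly. -/
theorem hSm_zero_of_lip (hD : NodalDatum h W E1 E2 e₁ e₂ P₁ Z₁ P₂ Z₂)
    (hdegZ₁ : 0 < Divisor.degree Z₁) (hdegZ₂ : 0 < Divisor.degree Z₂)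
    {σ : GQ} (hσ : σ ∈ A.inertiaSubgroupIn ℚ) {w η u₀ : Qb} {t : ℕ}
    (hlip : ∀ c : Qb, c ∈ A → c ∈ fixK A H hH →
      A.valuation (σ c - c) ≤ A.valuation (σ w - w))
    (hw0 : w ≠ 0) (hw1 : A.valuation w < 1)
    (hσw : σ w = w * (1 + η)) (hη : η = w ^ t * u₀) (hu₀ : u₀ ∈ A)
    (hpw : ∃ r ∈ A, (p : Qb) * w ^ t = w ^ (p * t + 1) * r)
    (D : Divisor Qb (laurentBaseChange Qb (modularFunctionFieldFull (M * p))))
    (hDH : ∀ τ ∈ H, arithmeticGalois (modularFunctionFieldFull (M * p)) τ • D = D)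
    (f₀ : laurentBaseChange Qb (modularFunctionFieldFull (M * p))) (hf₀ : f₀ ≠ 0)
    (hdiv : ∀ P : Place Qb (laurentBaseChange Qb (modularFunctionFieldFull (M * p))),
      P.ord f₀ = p * D P)
    (hu : arithmeticGalois (L := Qb) (modularFunctionFieldFull (M * p)) σ • f₀ / f₀ ∈
      OZero h W) :
    ∀ m ≤ p * t, ∀ a ∈ fixedSubfieldOf (H : Set GQ), a ∈ A →
      ∀ hu' : (arithmeticGalois (L := Qb) (modularFunctionFieldFull (M * p)) σ • f₀ / f₀ -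
        algebraMap Qb _ a) / algebraMap Qb _ w ^ m ∈ OZero h W,
      ∀ Q : Place k (modularFunctionFieldFullC k M), (∀ i, e₂ i ≠ Q) →
        Q.adicValuation (redZero h W ⟨_, hu'⟩) ≤ 1 := by
  obtain ⟨m₀, ρ, hρI, hρ⟩ := exists_cosetReps H _ hidx
  intro m hm a _ _ hu' Q hQ
  exact hSm_zero Fact.out hA hsurj hW H (fun τ hτ => hH hτ) ρ hρI hρ hD hdegZ₁ hdegZ₂ hσ w hw0
    hw1 t (hσc_of_frame hH hlip hσw hη hu₀) hpw D hDH f₀ hf₀ hdiv hu m hm a hu' Q hQ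

end Inst

end Fermat.Agent.TR.PL.SmoothULip
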