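/-
TR (row 38 through S44), node side: **the WILD brick of the middle, closed** (helper53; wild
deputy: helper79).

`AsmMid.WildAt h W V T` (helper20's consumer literal, `TR/PL/AsmMid.lean`) for the `ℚ̄`-level node
rings `T i = NodeRingAbs.nodeRing (redPair h W) ⊤ E1 e₁ e₂ i` of an ARBITRARY nodal datum
`NodalDatum h W E1 E2 e₁ e₂ P₁ Z₁ P₂ Z₂` with `0 < deg Z₁`, `0 < deg Z₂`.

* `gamma_congr` : the wild congruence `p ∣ (n0 i − n∞ i) − (n0 j − n∞ j)` in the frame vocabulary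
  of `SigmaSeam` (any `H ≤ I` of finite relative index, uniformiser `w` of `K'' = ℚ̄^H`, `σ ∈ I`
  normalising `H` with the Lipschitz bound, `σ w = w (1 + η)`, `η = w ^ t u₀`, `1 ≤ t`,
  `p w ^ t ∈ w ^ (p t + 1) A`).  ONE citation of `ConstInst.dvd_gamma_sub_bad` at
  `u := σ f₀ / f₀`, `Hs i := σ G_i / G_i` (`G_i := (w ^ n∞ i)⁻¹ • g i`),
  `c i := (1 + η) ^ (n0 i − n∞ i)`, `γ i := n0 i − n∞ i`, with
  - `hSm₁ hSm₂` = `SmoothULip.hSm_inf_of_lip / hSm_zero_of_lip` (helper88),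
  - `hH₁ hH₂ hcγ hc` = `NodeCong.node_cong` (helper7),
  - `hY` = `NodeCong.galois_div_div_pow` + `ThroughReg.smul_div_mem_nodeRing` (helper9),
  - the unit `u` = `ConstFrame.unit_galois_div` (helper7).
* `wildAt` : `AsmMid.WildAt h W V T` from the clauses of `Frame.exists_wild_frame` at `s = 1`.
-/
import Mathlib
import Fermat.Agent.TR.PL.AsmMid
import Fermat.Agent.TR.PL.ConstInst
import Fermat.Agent.TR.PL.NodeCong
import Fermat.Agent.TR.PL.ThroughReg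
import Fermat.Agent.TR.PL.SmoothULip
import Fermat.Agent.Lib.FF.CharP.ModLInst

set_option autoImplicit false
set_option linter.unusedSectionVars false
set_option linter.unusedVariables false
set_option linter.style.haveILetI false

noncomputable section

namespace Fermat.Agent.TR.PL.AsmWild53

open AlgebraicCurve ModularCurve Fermat.Agent.BAD.TwoVal Fermat.Agent.BAD.NodalPlus
  Fermat.Agent.BAD.NodalRiemann Fermat.Agent.BAD.LatFixedInst Fermat.Agent.TR.Node.NodeRingAbs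
  Fermat.Agent.TR.PL.Frame Fermat.Agent.TR.PL.LocalField Fermat.Agent.TR.PL.Through

local notation "Qb" => AlgebraicClosure ℚ
local notation "GQ" => (AlgebraicClosure ℚ ≃ₐ[ℚ] AlgebraicClosure ℚ)

section Core

variable {p : ℕ} [Fact p.Prime] [NeZero p] {A : ValuationSubring Qb} {k : Type} [Field k]
  {π : A →+* k} {M : ℕ} [NeZero M]
  {W : laurentBaseChange Qb (modularFunctionFieldFull (M * p)) ≃ₐ[Qb]
    laurentBaseChange Qb (modularFunctionFieldFull (M * p))}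
  [IsAlgClosed k] {h : BadSetup A π M p}
  {E1 E2 : Divisor Qb (laurentBaseChange Qb (modularFunctionFieldFull (M * p)))}
  {ι : Type} [Fintype ι]
  {e₁ e₂ : ι → Place k (modularFunctionFieldFullC k M)}
  {P₁ Z₁ P₂ Z₂ : Divisor k (modularFunctionFieldFullC k M)}

/-- Order of `f / g ^ n`. -/
theorem ord_div_pow {K F : Type*} [Field K] [Field F] [Algebra K F] (P : Place K F) {f g : F}
    (hf : f ≠ 0) (hg : g ≠ 0) (n : ℕ) : P.ord (f / g ^ n) = P.ord f - n * P.ord g := by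
  rw [div_eq_mul_inv, P.ord_mul hf (inv_ne_zero (pow_ne_zero n hg)), P.ord_inv,
    Fermat.Agent.ESJ.Jac.ord_pow]
  ring

/-- **The wild congruence** (CONST) at the modular objects, frame vocabulary. -/
theorem gamma_congr (hA : A.LiesOverPrime p) (hsurj : Function.Surjective π) (hW : IsAL M p W)
    {H : Subgroup GQ} (hH : H ≤ A.inertiaSubgroupIn ℚ)
    (hidx : H.relIndex (A.inertiaSubgroupIn ℚ) ≠ 0)
    (hD : NodalDatum h W E1 E2 e₁ e₂ P₁ Z₁ P₂ Z₂)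
    (hdegZ₁ : 0 < Divisor.degree Z₁) (hdegZ₂ : 0 < Divisor.degree Z₂)
    {w : Qb} (hU : IsUnif A (fixK A H hH) w)
    {σ : GQ} (hσ : σ ∈ A.inertiaSubgroupIn ℚ) (hconj : ∀ τ ∈ H, σ⁻¹ * τ * σ ∈ H)
    (hlip : ∀ c : Qb, c ∈ A → c ∈ fixK A H hH →
      A.valuation (σ c - c) ≤ A.valuation (σ w - w))
    {t : ℕ} {η u₀ r : Qb} (ht : 1 ≤ t) (hσw : σ w = w * (1 + η)) (hη : η = w ^ t * u₀)
    (hu₀ : A.valuation u₀ = 1) (hηK : η ∈ fixK A H hH) (hr : r ∈ A)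
    (hpw : (p : Qb) * w ^ t = w ^ (p * t + 1) * r)
    (D : Divisor Qb (laurentBaseChange Qb (modularFunctionFieldFull (M * p))))
    (hDH : ∀ τ ∈ H, arithmeticGalois (L := Qb) (modularFunctionFieldFull (M * p)) τ • D = D)
    {f₀ : laurentBaseChange Qb (modularFunctionFieldFull (M * p))}
    (hf₀H : f₀ ∈ fixedFunOf (H : Set GQ) (M * p)) (hf₀ : f₀ ≠ 0)
    (hdiv : ∀ P : Place Qb (laurentBaseChange Qb (modularFunctionFieldFull (M * p))),
      P.ord f₀ = (p : ℤ) * D P)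
    (g : ι → laurentBaseChange Qb (modularFunctionFieldFull (M * p))) (ni n0 : ι → ℤ)
    (hg0 : ∀ i, g i ≠ 0) (hgH : ∀ i, g i ∈ fixedFunOf (H : Set GQ) (M * p))
    (hgD : ∀ i, ∀ P : Place Qb (laurentBaseChange Qb (modularFunctionFieldFull (M * p))),
      Through (nodeRing (redPair h W) ⊤ E1 e₁ e₂ i) P → P.ord (g i) = D P)
    (hi : ∀ i, (w ^ ni i)⁻¹ • g i ∈ OInf h) (hi' : ∀ i, ((w ^ ni i)⁻¹ • g i)⁻¹ ∈ OInf h)
    (h0 : ∀ i, (w ^ n0 i)⁻¹ • g i ∈ OZero h W)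
    (h0' : ∀ i, ((w ^ n0 i)⁻¹ • g i)⁻¹ ∈ OZero h W) (i j : ι) :
    (p : ℤ) ∣ (n0 i - ni i) - (n0 j - ni j) := by
  have hD' := hD
  obtain ⟨-, -, -, -, -, -, -, -, -, -, hE1, -, -, -, -, hgalE, hS2⟩ := hD'
  have hw0 : w ≠ 0 := hU.2.1
  have hw1 : A.valuation w < 1 := hU.2.2.1
  have hwK : w ∈ fixedSubfieldOf (H : Set GQ) := hU.1
  have hu₀A : u₀ ∈ A := (A.valuation_le_one_iff _).1 hu₀.le
  have hE : (0 : Divisor Qb (laurentBaseChange Qb (modularFunctionFieldFull (M * p)))) ≤ E1 :=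
    Finsupp.le_def.mpr fun v => by rw [Finsupp.zero_apply]; exact hE1 v
  have hS : ∃ N₀ : ℕ, ∀ N, N₀ ≤ N →
      ∀ t : ↥(modularFunctionFieldFullC k M) × ↥(modularFunctionFieldFullC k M),
        (∃ y : OPair h W, (y : laurentBaseChange Qb (modularFunctionFieldFull (M * p))) ∈
            riemannRochSpace (N • E1) ∧ redPair h W y = t) ↔
          t ∈ gluedSpace e₁ e₂ (fun _ => (1 : k)) (N • P₁) (N • P₂) := by
    obtain ⟨N₀, hN₀⟩ := hS2
    refine ⟨N₀, fun N hN t => ?_⟩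
    have h1 := hN₀ N 0 (by omega) t
    simpa only [zero_smul, add_zero] using h1
  have hgalE1 : ∀ τ ∈ A.inertiaSubgroupIn ℚ,
      arithmeticGalois (modularFunctionFieldFull (M * p)) τ • E1 = E1 :=
    fun τ hτ => (hgalE τ hτ).1
  -- the unit `u = σ f₀ / f₀`
  obtain ⟨huFx, hu₁, hunon₁, hu₂, -⟩ :=
    Fermat.Agent.TR.PL.ConstFrame.unit_galois_div h hW hσ hconj
      (Fermat.Agent.TR.PL.ConstFrame.mem_fixRing.2 hf₀H) hf₀
  have hu0 : arithmeticGalois (L := Qb) (modularFunctionFieldFull (M * p)) σ • f₀ / f₀ ≠ 0 :=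
    div_ne_zero (Fermat.Agent.TR.PL.ConstFrame.galois_smul_ne_zero σ hf₀) hf₀
  have huinv : (arithmeticGalois (L := Qb) (modularFunctionFieldFull (M * p)) σ • f₀ / f₀)⁻¹ ∈
      OInf h := by
    by_contra hni
    exact hunon₁ ((ValuationSubring.mem_nonunits_iff_or _).2 (Or.inr hni))
  -- the per-node congruences
  have hnode := fun i => Fermat.Agent.TR.PL.NodeCong.node_cong hA h hsurj hW hH hidx hσ hwK hw0
    hw1 hlip hσw hη hu₀A ht (hgH i) (hg0 i) (hi i) (hi' i) (h0 i) (h0' i)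
  have h1η : (1 : Qb) + η ∈ fixedSubfieldOf (H : Set GQ) :=
    add_mem (one_mem _) hηK
  -- the constants `((σ w / w) ^ n) ^ p` are integral
  have hcst : ∀ n : ℤ, ((σ w / w) ^ n) ^ p ∈ A := by
    intro n
    obtain ⟨ha, ha'⟩ := Fermat.Agent.TR.PL.NodeCong.apply_div_mem hσ hw0
    exact pow_mem (Fermat.Agent.TR.PL.NodeCong.zpow_mem_of_mem ha (by rw [inv_div]; exact ha') n) p
  refine Fermat.Agent.TR.PL.ConstInst.dvd_gamma_sub_bad hA h hsurj hW hH hidx E1 e₁ e₂ hE hS hU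
    ⟨r, hr, hpw⟩ ⟨u₀, hu₀, hη⟩ (Fermat.Agent.TR.PL.ConstFrame.mem_fixRing.1 huFx) hu0 hu₁ huinv
    hu₂
    (Fermat.Agent.TR.PL.SmoothULip.hSm_inf_of_lip hA hsurj hW hH hidx hD hdegZ₁ hdegZ₂ hσ hlip
      hw0 hw1 hσw hη hu₀A ⟨r, hr, hpw⟩ D hDH f₀ hf₀ hdiv hu₁)
    (Fermat.Agent.TR.PL.SmoothULip.hSm_zero_of_lip hA hsurj hW hH hidx hD hdegZ₁ hdegZ₂ hσ hlip
      hw0 hw1 hσw hη hu₀A ⟨r, hr, hpw⟩ D hDH f₀ hf₀ hdiv hu₂)
    (fun i => arithmeticGalois (L := Qb) (modularFunctionFieldFull (M * p)) σ •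
      ((w ^ ni i)⁻¹ • g i) / ((w ^ ni i)⁻¹ • g i))
    (fun i => (1 + η) ^ (n0 i - ni i)) (fun i => n0 i - ni i)
    (fun i => ?_) (fun i => (hnode i).1)
    (fun i => ⟨zpow_mem h1η _, (hnode i).2.2.2⟩) (fun i => (hnode i).2.1)
    (fun i => (hnode i).2.2.1) i j
  -- `hY` : `u / Hs i ^ p = const * (σ F_i / F_i)`, `F_i = f₀ / g i ^ p`
  have hF0 : f₀ / g i ^ p ≠ 0 := div_ne_zero hf₀ (pow_ne_zero p (hg0 i))
  have hFord : ∀ P : Place Qb (laurentBaseChange Qb (modularFunctionFieldFull (M * p))),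
      Through (nodeRing (redPair h W) ⊤ E1 e₁ e₂ i) P → P.ord (f₀ / g i ^ p) = 0 := by
    intro P hP
    rw [ord_div_pow P hf₀ (hg0 i) p, hdiv P, hgD i P hP]
    ring
  have hreg := Fermat.Agent.TR.PL.ThroughReg.smul_div_mem_nodeRing h hW E1 e₁ e₂ hE1 hgalE1 i hσ
    hF0 hFord
  have e := Fermat.Agent.TR.PL.NodeCong.galois_div_div_pow (N := M * p) σ hw0 (ni i) p hf₀ (hg0 i)
  show arithmeticGalois (L := Qb) (modularFunctionFieldFull (M * p)) σ • f₀ / f₀ /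
      (arithmeticGalois (L := Qb) (modularFunctionFieldFull (M * p)) σ •
        ((w ^ ni i)⁻¹ • g i) / ((w ^ ni i)⁻¹ • g i)) ^ p ∈ nodeRing (redPair h W) ⊤ E1 e₁ e₂ i
  rw [e]
  exact Subring.mul_mem _
    (algebraMap_mem (fun x => OPair_hOA h x) (redPair h W) ⊤ hE e₁ e₂ i (hcst (ni i))
      (Subring.mem_top _)) hreg

end Core

section Wild

variable {A : ValuationSubring Qb} {M p : ℕ} [NeZero M] [NeZero p]

set_option synthInstance.maxHeartbeats 400000 in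
set_option maxHeartbeats 1000000 in
/-- **The wild brick of the middle**: `AsmMid.WildAt` for the `ℚ̄`-level node rings of an
arbitrary nodal datum (with `0 < deg Z₁`, `0 < deg Z₂`). -/
theorem wildAt (h : BadSetup A (IsLocalRing.residue A) M p) (hA : A.LiesOverPrime p)
    {W : laurentBaseChange Qb (modularFunctionFieldFull (M * p)) ≃ₐ[Qb]
      laurentBaseChange Qb (modularFunctionFieldFull (M * p))} (hW : IsAL M p W)
    (V : AddSubgroup (JZero (M * p)))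
    {E1 E2 : Divisor Qb (laurentBaseChange Qb (modularFunctionFieldFull (M * p)))}
    {ι : Type} [Fintype ι]
    {e₁ e₂ : ι → Place (IsLocalRing.ResidueField A)
      (modularFunctionFieldFullC (IsLocalRing.ResidueField A) M)}
    {P₁ Z₁ P₂ Z₂ : Divisor (IsLocalRing.ResidueField A)
      (modularFunctionFieldFullC (IsLocalRing.ResidueField A) M)}
    (hD : NodalDatum h W E1 E2 e₁ e₂ P₁ Z₁ P₂ Z₂)
    (hdegZ₁ : 0 < Divisor.degree Z₁) (hdegZ₂ : 0 < Divisor.degree Z₂) :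
    Fermat.Agent.TR.PL.AsmMid.WildAt h W V
      (fun i => nodeRing (redPair h W) ⊤ E1 e₁ e₂ i) := by
  have hpp : p.Prime := h.hℓ
  haveI : Fact p.Prime := ⟨hpp⟩
  haveI : IsAlgClosed (IsLocalRing.ResidueField A) :=
    Fermat.Agent.Lib.FF.CharP.isAlgClosed_residueField A
  intro ζ hζ hζ1 w ρ hFr x hx D hDx hDH f₀ hf₀H hf₀ hdiv hf₀O hf₀O' N hN hN' g ni n0 hg0 hgH hgD
    hi hi' h0 h0' i j
  obtain ⟨hrel, hρI, hρ, hnorm, hσK, hfd, hU, hvw, hlip, hSb, htame, hwild⟩ := hFr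
  obtain ⟨σ₀, hσ₀G, hσ₀I, hσ₀n, hσ₀p, hcos, t, η, u, r, ht1, htp, hσw, hη, hu, hvη, huK, hηK, hrA,
    hrK, hpw, hSa, hSc⟩ := hwild rfl
  have hidx : (stabV A V).relIndex (A.inertiaSubgroupIn ℚ) ≠ 0 := by
    rw [hrel]
    have h2 := hpp.two_le
    exact Nat.mul_ne_zero (by omega) (pow_ne_zero _ hpp.ne_zero)
  exact gamma_congr hA IsLocalRing.residue_surjective hW (stabV_le_inertia V) hidx hD hdegZ₁
    hdegZ₂ hU hσ₀I (hnorm σ₀ hσ₀I) (hlip σ₀ hσ₀I) ht1 hσw hη hu hηK hrA hpw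
    (D : Divisor Qb (laurentBaseChange Qb (modularFunctionFieldFull (M * p)))) hDH hf₀H hf₀ hdiv
    g ni n0 hg0 hgH hgD hi hi' h0 h0' i j

end Wild

end Fermat.Agent.TR.PL.AsmWild53
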