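/-
TR / (PL), brick PL-B (helper97), ABSTRACT HALF (Mathlib only): totally ramified base change of a
valuation ring, coefficientwise.

`O` is a valuation ring of a field `F` (a Gauss valuation ring of the function field), `ϖ ∈ F` a
constant (a uniformiser of the ramified extension `K''` of `K0`), `e` the ramification index,
and `x i` (`i < e`) are "`K0`-rational" elements: their valuations lie in `v(ϖ) ^ (e ℤ)`
(the value group of the unramified layer, `v(ϖ) ^ e = v(p)`).  Then the valuations of the terms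
`x i · ϖ ^ i` lie in pairwise distinct cosets, hence

* `map_sum_mul_pow_le_one_iff`, `sum_mul_pow_mem_iff` : `∑ i, x i ϖ ^ i ∈ O ↔ ∀ i, x i ∈ O`
  (`O'' = O⁰[ϖ]`, coefficientwise);
* `valuation_eq_zpow_of_scaling` : the hypothesis on `x i` from a scaling `x / p ^ n ∈ Oˣ` and
  `ϖ ^ e / p ∈ Oˣ`;
* `exists_smul_sub_eq` : **(EXP)** for a ring endomorphism `σ` fixing the coefficients with
  `σ ϖ = ϖ (1 + η)`: `σ g - g ∈ ϖ η O` for `g = ∑ i, x i ϖ ^ i`, `x i ∈ O`.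
-/
import Mathlib

set_option autoImplicit false

namespace Fermat.Agent.TR.PL.BaseChangeAbs

section Val

variable {R : Type*} [CommRing R] {Γ₀ : Type*} [LinearOrderedCommGroupWithZero Γ₀]
  (v : Valuation R Γ₀)

/-- **Distinct cosets.**  If the valuations of the `x i` (`i < e`) are `0` or of the form
`v ϖ ^ (e n)`, then `∑ i, x i ϖ ^ i` is integral iff all `x i` are. -/
theorem map_sum_mul_pow_le_one_iff {ϖ : R} {e : ℕ} (h0 : v ϖ ≠ 0) (h1 : v ϖ < 1)
    (x : Fin e → R) (hx : ∀ i, v (x i) = 0 ∨ ∃ n : ℤ, v (x i) = v ϖ ^ ((e : ℤ) * n)) :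
    v (∑ i, x i * ϖ ^ (i : ℕ)) ≤ 1 ↔ ∀ i, v (x i) ≤ 1 := by
  classical
  have hpos : 0 < v ϖ := zero_lt_iff.2 h0
  constructor
  · intro hsum
    by_contra hcon
    obtain ⟨j, hj⟩ := not_forall.1 hcon
    have hj' : 1 < v (x j) := not_le.1 hj
    have hchoice : ∀ i, ∃ n : ℤ, v (x i) ≠ 0 → v (x i) = v ϖ ^ ((e : ℤ) * n) := by
      intro i
      rcases hx i with h | ⟨n, hn⟩
      · exact ⟨0, fun h' => absurd h h'⟩
      · exact ⟨n, fun _ => hn⟩
    choose n hn using hchoice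
    set w : Fin e → ℤ := fun i => (e : ℤ) * n i + (i : ℕ) with hw
    set T : Finset (Fin e) := Finset.univ.filter fun i => v (x i) ≠ 0 with hT
    have hterm : ∀ i ∈ T, v (x i * ϖ ^ (i : ℕ)) = v ϖ ^ (w i) := by
      intro i hi
      have hi' : v (x i) ≠ 0 := (Finset.mem_filter.1 hi).2
      rw [map_mul, map_pow, hn i hi', hw]
      show v ϖ ^ ((e : ℤ) * n i) * v ϖ ^ (i : ℕ) = v ϖ ^ ((e : ℤ) * n i + (i : ℕ))
      rw [zpow_add₀ h0, zpow_natCast]
    have hjT : j ∈ T := Finset.mem_filter.2 ⟨Finset.mem_univ _, fun h => by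
      rw [h] at hj'
      exact not_lt_of_ge zero_le_one hj'⟩
    obtain ⟨i₀, hi₀T, hi₀⟩ := Finset.exists_min_image T w ⟨j, hjT⟩
    -- `w j < 0`
    have he : (0 : ℤ) < e := by
      have : 0 < e := Fin.pos j
      exact_mod_cast this
    have hwj : w j < 0 := by
      have h2 := hn j (Finset.mem_filter.1 hjT).2
      rw [h2] at hj'
      have h3 : (e : ℤ) * n j < 0 := (one_lt_zpow_iff_right_of_lt_one₀ hpos h1).1 hj'
      have h4 : n j ≤ -1 := by
        by_contra h5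
        have h6 : 0 ≤ n j := by omega
        have := mul_nonneg he.le h6
        omega
      have h5 : (e : ℤ) * n j ≤ (e : ℤ) * (-1) := mul_le_mul_of_nonneg_left h4 he.le
      have h6 : ((j : ℕ) : ℤ) < e := by exact_mod_cast j.2
      show (e : ℤ) * n j + ((j : ℕ) : ℤ) < 0
      omega
    -- the term `i₀` dominates strictly
    have hdom : ∀ i ∈ Finset.univ \ {i₀}, v (x i * ϖ ^ (i : ℕ)) < v (x i₀ * ϖ ^ (i₀ : ℕ)) := by
      intro i hi
      have hne : i ≠ i₀ := by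
        intro h
        rw [Finset.mem_sdiff, Finset.mem_singleton] at hi
        exact hi.2 h
      rw [hterm i₀ hi₀T]
      by_cases hiT : i ∈ T
      · rw [hterm i hiT]
        refine (zpow_lt_zpow_iff_right_of_lt_one₀ hpos h1).2 (lt_of_le_of_ne (hi₀ i hiT) ?_)
        intro heq
        apply hne
        have h2 : (((i : ℕ) : ℤ)) % e = ((i₀ : ℕ) : ℤ) % e := by
          have h3 : w i₀ % (e : ℤ) = ((i₀ : ℕ) : ℤ) % e := by
            show ((e : ℤ) * n i₀ + ((i₀ : ℕ) : ℤ)) % e = _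
            rw [add_comm, Int.add_mul_emod_self_left]
          have h4 : w i % (e : ℤ) = ((i : ℕ) : ℤ) % e := by
            show ((e : ℤ) * n i + ((i : ℕ) : ℤ)) % e = _
            rw [add_comm, Int.add_mul_emod_self_left]
          rw [← h3, ← h4, heq]
        have h5 : ((i : ℕ) : ℤ) < e := by exact_mod_cast i.2
        have h6 : ((i₀ : ℕ) : ℤ) < e := by exact_mod_cast i₀.2
        rw [Int.emod_eq_of_lt (by positivity) h5, Int.emod_eq_of_lt (by positivity) h6] at h2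
        exact Fin.ext (by exact_mod_cast h2)
      · have h2 : v (x i) = 0 := by
          by_contra h3
          exact hiT (Finset.mem_filter.2 ⟨Finset.mem_univ _, h3⟩)
        rw [map_mul, h2, zero_mul]
        exact zpow_pos hpos _
    have hval := Valuation.map_sum_eq_of_lt v (Finset.mem_univ i₀) hdom
    rw [hval, hterm i₀ hi₀T] at hsum
    have h7 : 0 ≤ w i₀ := (zpow_le_one_iff_right_of_lt_one₀ hpos h1).1 hsum
    have h8 := hi₀ j hjT
    omega
  · intro h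
    refine Valuation.map_sum_le v fun i _ => ?_
    rw [map_mul, map_pow]
    exact mul_le_one' (h i) (pow_le_one' h1.le _)

end Val

section Subring

variable {F : Type*} [Field F] (O : ValuationSubring F)

/-- The value of a "rational" element: if `x / p ^ n` and `ϖ ^ e / p` are units of `O`, then
`v x = v ϖ ^ (e n)`. -/
theorem valuation_eq_zpow_of_scaling {p ϖ x : F} {e : ℕ} {n : ℤ} (hp : p ≠ 0) (h0 : ϖ ≠ 0)
    (hϖ : ϖ ^ e / p ∈ O) (hϖ' : p / ϖ ^ e ∈ O) (hx : x / p ^ n ∈ O) (hx' : p ^ n / x ∈ O)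
    (hx0 : x ≠ 0) : O.valuation x = O.valuation ϖ ^ ((e : ℤ) * n) := by
  have hϖ0 : ϖ ^ e ≠ 0 := pow_ne_zero _ h0
  have hpv : O.valuation p ≠ 0 := (Valuation.ne_zero_iff _).2 hp
  have hxv : O.valuation x ≠ 0 := (Valuation.ne_zero_iff _).2 hx0
  have e1 : O.valuation (ϖ ^ e) = O.valuation p := by
    have h1 := (O.valuation_le_one_iff _).2 hϖ
    have h2 := (O.valuation_le_one_iff _).2 hϖ'
    rw [map_div₀] at h1 h2
    have hϖv : O.valuation (ϖ ^ e) ≠ 0 := (Valuation.ne_zero_iff _).2 hϖ0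
    exact le_antisymm ((div_le_one₀ (zero_lt_iff.2 hpv)).1 h1)
      ((div_le_one₀ (zero_lt_iff.2 hϖv)).1 h2)
  have e2 : O.valuation x = O.valuation (p ^ n) := by
    have h1 := (O.valuation_le_one_iff _).2 hx
    have h2 := (O.valuation_le_one_iff _).2 hx'
    rw [map_div₀] at h1 h2
    have hpn : O.valuation (p ^ n) ≠ 0 := (Valuation.ne_zero_iff _).2 (zpow_ne_zero _ hp)
    exact le_antisymm ((div_le_one₀ (zero_lt_iff.2 hpn)).1 h1)
      ((div_le_one₀ (zero_lt_iff.2 hxv)).1 h2)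
  rw [e2, map_zpow₀, ← e1, map_pow, zpow_mul, zpow_natCast]

/-- **`O'' = O⁰[ϖ]`, coefficientwise.**  For `x i` (`i < e`) which are `0` or of valuation in
`v ϖ ^ (e ℤ)`: `∑ i, x i ϖ ^ i ∈ O ↔ ∀ i, x i ∈ O`. -/
theorem sum_mul_pow_mem_iff {ϖ : F} {e : ℕ} (h0 : ϖ ≠ 0) (h1 : O.valuation ϖ < 1)
    (x : Fin e → F)
    (hx : ∀ i, x i = 0 ∨ ∃ n : ℤ, O.valuation (x i) = O.valuation ϖ ^ ((e : ℤ) * n)) :
    ∑ i, x i * ϖ ^ (i : ℕ) ∈ O ↔ ∀ i, x i ∈ O := by
  rw [← O.valuation_le_one_iff]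
  rw [map_sum_mul_pow_le_one_iff O.valuation ((Valuation.ne_zero_iff _).2 h0) h1 x
    (fun i => (hx i).imp (fun h => by rw [h, map_zero]) id)]
  exact forall_congr' fun i => O.valuation_le_one_iff _

/-- **`O'' = O⁰[ϖ]`, scaling form**: the `x i` are `0` or `p ^ n · unit`, and `ϖ ^ e = p · unit`. -/
theorem sum_mul_pow_mem_iff_of_scaling {p ϖ : F} {e : ℕ} (hp : p ≠ 0)
    (hϖ : ϖ ^ e / p ∈ O) (hϖ' : p / ϖ ^ e ∈ O) (h0 : ϖ ≠ 0) (h1 : O.valuation ϖ < 1)
    (x : Fin e → F)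
    (hx : ∀ i, x i = 0 ∨ ∃ n : ℤ, x i / p ^ n ∈ O ∧ p ^ n / x i ∈ O) :
    ∑ i, x i * ϖ ^ (i : ℕ) ∈ O ↔ ∀ i, x i ∈ O := by
  refine sum_mul_pow_mem_iff O h0 h1 x fun i => ?_
  by_cases hi : x i = 0
  · exact Or.inl hi
  · rcases hx i with h | ⟨n, hn, hn'⟩
    · exact Or.inl h
    · exact Or.inr ⟨n, valuation_eq_zpow_of_scaling O hp h0 hϖ hϖ' hn hn' hi⟩

/-- **(EXP).**  Let `σ` be a ring endomorphism fixing the coefficients `x i ∈ O`, with
`σ ϖ = ϖ (1 + η)`, `ϖ, η ∈ O`.  Then `σ g - g ∈ ϖ η O` for `g = ∑ i, x i ϖ ^ i`. -/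
theorem exists_smul_sub_eq {S : Type*} [CommRing S] (O' : Subring S) (σ : S →+* S) {ϖ η : S}
    {e : ℕ} (hϖ : ϖ ∈ O') (hη : η ∈ O') (hσ : σ ϖ = ϖ * (1 + η)) (x : Fin e → S)
    (hx : ∀ i, x i ∈ O') (hxσ : ∀ i, σ (x i) = x i) :
    ∃ y ∈ O', σ (∑ i, x i * ϖ ^ (i : ℕ)) - ∑ i, x i * ϖ ^ (i : ℕ) = ϖ * η * y := by
  classical
  have hone : (1 + η) ∈ O' := O'.add_mem O'.one_mem hη
  refine ⟨∑ i : Fin e, x i * (if (i : ℕ) = 0 then 0
      else ϖ ^ ((i : ℕ) - 1) * ∑ k ∈ Finset.range (i : ℕ), (1 + η) ^ k), ?_, ?_⟩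
  · refine O'.sum_mem fun i _ => O'.mul_mem (hx i) ?_
    split_ifs
    · exact O'.zero_mem
    · exact O'.mul_mem (O'.pow_mem hϖ _) (O'.sum_mem fun k _ => O'.pow_mem hone _)
  · rw [map_sum, ← Finset.sum_sub_distrib, Finset.mul_sum]
    refine Finset.sum_congr rfl fun i _ => ?_
    rw [map_mul, map_pow, hxσ i, hσ]
    by_cases hi : (i : ℕ) = 0
    · rw [if_pos hi, hi]
      ring
    · rw [if_neg hi]
      obtain ⟨d, hd⟩ := Nat.exists_eq_succ_of_ne_zero hi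
      have hgeom : (1 + η) ^ (i : ℕ) - 1 = η * ∑ k ∈ Finset.range (i : ℕ), (1 + η) ^ k := by
        have := mul_geom_sum (1 + η) (i : ℕ)
        rw [← this]
        ring
      have hpow : ϖ ^ (i : ℕ) = ϖ * ϖ ^ ((i : ℕ) - 1) := by
        rw [hd, Nat.succ_sub_one, pow_succ]
        ring
      have e1 : x i * (ϖ * (1 + η)) ^ (i : ℕ) - x i * ϖ ^ (i : ℕ)
          = x i * ϖ ^ (i : ℕ) * ((1 + η) ^ (i : ℕ) - 1) := by
        rw [mul_pow]
        ring
      rw [e1, hgeom, hpow]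
      ring

end Subring

end Fermat.Agent.TR.PL.BaseChangeAbs
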