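import Mathlib
import Fermat.Agent.BAD.LatFixedSub
import Fermat.Agent.TR.PL.BaseChangeAbs

/-!
# TR (PL-B): base change of the Gauss valuations, `O'' = O⁰[ϖ]` coefficientwise, and (EXP)

Setting of `BAD/LatFixedInst.lean`: `A` a valuation subring of `ℚ̄` over the prime `q`, `I` its
inertia group, `K0 = ℚ̄^I`, `F = ℚ̄·F_{Mq}` with its two Gauss valuation rings `O_∞ = OInf h`,
`O_0 = OZero h W` and `O = OPair h W`; `F0 = fixedFun A (M * q)` the `I`-fixed functions.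

Let `H ⊆ I` and `K'' = ℚ̄^H`, with `ϖ ∈ K''` such that `v(ϖ)^e = v(q)` and `K'' = ⊕_{i<e} K0·ϖ^i`
(`UnifDatum A q H ϖ e`; the field-theoretic input is (PL-A)).

* `exists_zpow_scaling_OInf`, `exists_zpow_scaling_OZero` : an `I`-fixed function is `q ^ n` times
  a unit of `O_∞` (resp. `O_0`): the Gauss valuations are unramified on `F0`;
* `UnifDatum.sum_mem_iff`, `UnifDatum.sum_eq_zero` : the constants `K'' = K0[ϖ]`;
* `exists_expansion_of_mem` : every `H`-fixed function `g` of an `I`-stable finite-dimensional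
  space `V` is `∑_{i<e} ϖ^i • c i` with `c i ∈ F0 ∩ V`; `expansion_unique` : uniquely;
* `sum_mem_OInf_iff`, `sum_mem_OZero_iff`, `sum_mem_OPair_iff` : **`O'' = O⁰[ϖ]`**: the expansion
  is integral iff all its coefficients are;
* `redInf_sum`, `redZero_sum` : the reduction of an expansion is the reduction of its constant
  coefficient;
* `galois_sum_sub_mem`, `exists_galois_sub_OInf`, `..._OZero`, `..._OPair` : **(EXP)**: for
  `σ ∈ I`, `σ • g − g ∈ (σϖ − ϖ)·O`.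
-/

set_option autoImplicit false
set_option linter.unusedSectionVars false

namespace Fermat.Agent.TR.PL.BaseChange

open HahnSeries ModularCurve AlgebraicCurve Fermat.Agent.Lib.Red Fermat.Agent.BAD.TwoVal
open Fermat.Agent.ESJ.Dict.Bc Fermat.Agent.BAD.LatFixedInst Fermat.Agent.TR.PL.BaseChangeAbs

local notation "Qb" => AlgebraicClosure ℚ
local notation "GQ" => (AlgebraicClosure ℚ ≃ₐ[ℚ] AlgebraicClosure ℚ)
local notation "K₀" => Fermat.Agent.CAR.K0.inertiaField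
local notation "W₀" => Fermat.Agent.CAR.K0.W0
local notation "inclW₀" => Fermat.Agent.CAR.K0.inclW0

/-! ### Abstract: distinct cosets, sharp form -/

section Abs

variable {R : Type*} [CommRing R] {Γ₀ : Type*} [LinearOrderedCommGroupWithZero Γ₀]
  (v : Valuation R Γ₀)

/-- **Distinct cosets, sharp form.**  If the valuations of the `x i` (`i < e`) are `0` or of the
form `v ϖ ^ (e n)`, every term `x j ϖ ^ j` is bounded by the sum `∑ i, x i ϖ ^ i`. -/
theorem map_term_le_map_sum {ϖ : R} {e : ℕ} (h0 : v ϖ ≠ 0) (h1 : v ϖ < 1)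
    (x : Fin e → R) (hx : ∀ i, v (x i) = 0 ∨ ∃ n : ℤ, v (x i) = v ϖ ^ ((e : ℤ) * n))
    (j : Fin e) : v (x j * ϖ ^ (j : ℕ)) ≤ v (∑ i, x i * ϖ ^ (i : ℕ)) := by
  classical
  have hpos : 0 < v ϖ := zero_lt_iff.2 h0
  by_cases hj0 : v (x j) = 0
  · rw [map_mul, hj0, zero_mul]
    exact zero_le
  have hchoice : ∀ i, ∃ n : ℤ, v (x i) ≠ 0 → v (x i) = v ϖ ^ ((e : ℤ) * n) := by
    intro i
    rcases hx i with h | ⟨n, hn⟩
    · exact ⟨0, fun h' => absurd h h'⟩
    · exact ⟨n, fun _ => hn⟩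
  choose n hn using hchoice
  set w : Fin e → ℤ := fun i => (e : ℤ) * n i + (i : ℕ) with hw
  set T : Finset (Fin e) := Finset.univ.filter fun i => v (x i) ≠ 0 with hT
  have hterm : ∀ i ∈ T, v (x i * ϖ ^ (i : ℕ)) = v ϖ ^ (w i) := by
    intro i hi
    have hi' : v (x i) ≠ 0 := (Finset.mem_filter.1 hi).2
    rw [map_mul, map_pow, hn i hi', hw]
    show v ϖ ^ ((e : ℤ) * n i) * v ϖ ^ (i : ℕ) = v ϖ ^ ((e : ℤ) * n i + (i : ℕ))
    rw [zpow_add₀ h0, zpow_natCast]
  have hjT : j ∈ T := Finset.mem_filter.2 ⟨Finset.mem_univ _, hj0⟩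
  obtain ⟨i₀, hi₀T, hi₀⟩ := Finset.exists_min_image T w ⟨j, hjT⟩
  have hdom : ∀ i ∈ Finset.univ \ {i₀}, v (x i * ϖ ^ (i : ℕ)) < v (x i₀ * ϖ ^ (i₀ : ℕ)) := by
    intro i hi
    have hne : i ≠ i₀ := by
      intro h
      rw [Finset.mem_sdiff, Finset.mem_singleton] at hi
      exact hi.2 h
    rw [hterm i₀ hi₀T]
    by_cases hiT : i ∈ T
    · rw [hterm i hiT]
      refine (zpow_lt_zpow_iff_right_of_lt_one₀ hpos h1).2 (lt_of_le_of_ne (hi₀ i hiT) ?_)
      intro heq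
      apply hne
      have h2 : (((i : ℕ) : ℤ)) % e = ((i₀ : ℕ) : ℤ) % e := by
        have h3 : w i₀ % (e : ℤ) = ((i₀ : ℕ) : ℤ) % e := by
          show ((e : ℤ) * n i₀ + ((i₀ : ℕ) : ℤ)) % e = _
          rw [add_comm, Int.add_mul_emod_self_left]
        have h4 : w i % (e : ℤ) = ((i : ℕ) : ℤ) % e := by
          show ((e : ℤ) * n i + ((i : ℕ) : ℤ)) % e = _
          rw [add_comm, Int.add_mul_emod_self_left]
        rw [← h3, ← h4, heq]
      have h5 : ((i : ℕ) : ℤ) < e := by exact_mod_cast i.2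
      have h6 : ((i₀ : ℕ) : ℤ) < e := by exact_mod_cast i₀.2
      rw [Int.emod_eq_of_lt (by positivity) h5, Int.emod_eq_of_lt (by positivity) h6] at h2
      exact Fin.ext (by exact_mod_cast h2)
    · have h2 : v (x i) = 0 := by
        by_contra h3
        exact hiT (Finset.mem_filter.2 ⟨Finset.mem_univ _, h3⟩)
      rw [map_mul, h2, zero_mul]
      exact zpow_pos hpos _
  have hval := Valuation.map_sum_eq_of_lt v (Finset.mem_univ i₀) hdom
  rw [hval, hterm i₀ hi₀T, hterm j hjT]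
  exact (zpow_le_zpow_iff_right_of_lt_one₀ hpos h1).2 (hi₀ j hjT)

/-- The sum `∑ i, x i ϖ ^ i` is bounded by `γ` iff all its terms are. -/
theorem map_sum_mul_pow_le_iff {ϖ : R} {e : ℕ} (h0 : v ϖ ≠ 0) (h1 : v ϖ < 1)
    (x : Fin e → R) (hx : ∀ i, v (x i) = 0 ∨ ∃ n : ℤ, v (x i) = v ϖ ^ ((e : ℤ) * n))
    (γ : Γ₀) : v (∑ i, x i * ϖ ^ (i : ℕ)) ≤ γ ↔ ∀ i, v (x i * ϖ ^ (i : ℕ)) ≤ γ :=
  ⟨fun h i => (map_term_le_map_sum v h0 h1 x hx i).trans h,
    fun h => Valuation.map_sum_le v (fun i _ => h i)⟩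

/-- **Truncation.**  If `∑ i, x i ϖ ^ i` is divisible by `ϖ ^ (t + 1)` (`t < e`), then the
coefficients `x i`, `i ≤ t`, are divisible by `ϖ ^ e`. -/
theorem map_coeff_le_of_map_sum_le {ϖ : R} {e : ℕ} (h0 : v ϖ ≠ 0) (h1 : v ϖ < 1)
    (x : Fin e → R) (hx : ∀ i, v (x i) = 0 ∨ ∃ n : ℤ, v (x i) = v ϖ ^ ((e : ℤ) * n))
    {t : ℕ} (hsum : v (∑ i, x i * ϖ ^ (i : ℕ)) ≤ v ϖ ^ (t + 1)) (i : Fin e) (hi : (i : ℕ) ≤ t) :
    v (x i) ≤ v ϖ ^ e := by
  have hpos : 0 < v ϖ := zero_lt_iff.2 h0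
  have h2 := (map_sum_mul_pow_le_iff v h0 h1 x hx _).1 hsum i
  rcases hx i with h | ⟨n, hn⟩
  · rw [h]
    exact zero_le
  · rw [map_mul, map_pow, hn, ← zpow_natCast, ← zpow_add₀ h0, ← zpow_natCast,
      zpow_le_zpow_iff_right_of_lt_one₀ hpos h1] at h2
    rw [hn, ← zpow_natCast, zpow_le_zpow_iff_right_of_lt_one₀ hpos h1]
    have he : (0 : ℤ) < e := by
      have : 0 < e := Fin.pos i
      exact_mod_cast this
    have h3 : ((i : ℕ) : ℤ) ≤ t := by exact_mod_cast hi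
    have h4 : 1 ≤ n := by
      by_contra h5
      have h6 : n ≤ 0 := by omega
      have h7 : (e : ℤ) * n ≤ 0 := mul_nonpos_of_nonneg_of_nonpos he.le h6
      push_cast at h2
      omega
    have h5 : (e : ℤ) * 1 ≤ (e : ℤ) * n := mul_le_mul_of_nonneg_left h4 he.le
    omega

end Abs

noncomputable section

variable {q : ℕ} {A : ValuationSubring Qb} {k : Type} [Field k] {π : A →+* k} {M : ℕ}
  [NeZero M] [NeZero q]
  {W : laurentBaseChange Qb (modularFunctionFieldFull (M * q)) ≃ₐ[Qb]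
    laurentBaseChange Qb (modularFunctionFieldFull (M * q))}

/-! ### The Gauss valuations are unramified on inertia-fixed functions -/

/-- **An inertia-fixed function is `q ^ n` times a unit of `O_∞`.** -/
theorem exists_zpow_scaling_OInf (hq : q.Prime) (hA : A.LiesOverPrime q) (h : BadSetup A π M q)
    {f : laurentBaseChange Qb (modularFunctionFieldFull (M * q))}
    (hf : f ∈ fixedFun A (M * q)) (hf0 : f ≠ 0) :
    ∃ n : ℤ,
      f / algebraMap Qb (laurentBaseChange Qb (modularFunctionFieldFull (M * q))) (q : Qb) ^ n ∈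
        OInf h ∧
      algebraMap Qb (laurentBaseChange Qb (modularFunctionFieldFull (M * q))) (q : Qb) ^ n / f ∈
        OInf h := by
  have h₀ := badSetup_K0 hq hA h
  obtain ⟨f₀, hf₀⟩ := mem_range_bcK (algebraMap (K₀ A) Qb) (modularFunctionFieldFull (M * q)) f
    (fun n => ⟨⟨_, coeff_mem_of_mem_fixedFun hf n⟩, rfl⟩)
  have hf₀0 : f₀ ≠ 0 := fun h0 => hf0 (by rw [← hf₀, h0, map_zero])
  obtain ⟨a₀, ha₀, hm, hne⟩ := exists_scaling_OInf h₀ f₀ hf₀0
  have hinv := inv_mem_OInf h₀ _ hm hne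
  have hu : algebraMap Qb (laurentBaseChange Qb (modularFunctionFieldFull (M * q))) (a₀ : Qb) * f
      ∈ OInf h := by
    have := bcK_mem_OInf h h₀ hm
    rwa [map_mul, bcK_algebraMap, hf₀] at this
  have hui : (algebraMap Qb (laurentBaseChange Qb (modularFunctionFieldFull (M * q))) (a₀ : Qb)
      * f)⁻¹ ∈ OInf h := by
    have := bcK_mem_OInf h h₀ hinv
    rwa [map_inv₀, map_mul, bcK_algebraMap, hf₀] at this
  have ha₀' : (a₀ : Qb) ≠ 0 := fun h0 => ha₀ (Subtype.ext h0)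
  have hq0 : (q : Qb) ≠ 0 := Nat.cast_ne_zero.2 hq.ne_zero
  obtain ⟨n, hn⟩ :=
    Fermat.Agent.CAR.K0.exists_zpow_valuation_eq_of_mem_inertiaField hq A hA a₀.2 ha₀'
  have hqn0 : (q : Qb) ^ n ≠ 0 := zpow_ne_zero _ hq0
  have hv0 : 0 < A.valuation ((q : Qb) ^ n) := zero_lt_iff.2 ((Valuation.ne_zero_iff _).2 hqn0)
  have h1 : (q : Qb) ^ n / (a₀ : Qb) ∈ A := by
    rw [← A.valuation_le_one_iff, map_div₀, hn, div_self hv0.ne']
  have h2 : (a₀ : Qb) / (q : Qb) ^ n ∈ A := by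
    rw [← A.valuation_le_one_iff, map_div₀, hn, div_self hv0.ne']
  have hAa₀ : algebraMap Qb (laurentBaseChange Qb (modularFunctionFieldFull (M * q)))
      (a₀ : Qb) ≠ 0 := (map_ne_zero _).2 ha₀'
  have hAq : algebraMap Qb (laurentBaseChange Qb (modularFunctionFieldFull (M * q)))
      (q : Qb) ≠ 0 := (map_ne_zero _).2 hq0
  have hAqn : algebraMap Qb (laurentBaseChange Qb (modularFunctionFieldFull (M * q)))
      (q : Qb) ^ n ≠ 0 := zpow_ne_zero _ hAq
  refine ⟨-n, ?_, ?_⟩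
  · have e : f / algebraMap Qb (laurentBaseChange Qb (modularFunctionFieldFull (M * q)))
        (q : Qb) ^ (-n) = (algebraMap Qb _ (a₀ : Qb) * f) *
          algebraMap Qb _ ((q : Qb) ^ n / (a₀ : Qb)) := by
      rw [zpow_neg, div_inv_eq_mul, map_div₀, map_zpow₀]
      field_simp
    rw [e]
    exact (OInf h).mul_mem _ _ hu ((algebraMap_mem_OInf_iff h _).2 h1)
  · have e : algebraMap Qb (laurentBaseChange Qb (modularFunctionFieldFull (M * q)))
        (q : Qb) ^ (-n) / f = (algebraMap Qb _ (a₀ : Qb) * f)⁻¹ *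
          algebraMap Qb _ ((a₀ : Qb) / (q : Qb) ^ n) := by
      rw [zpow_neg, map_div₀, map_zpow₀]
      field_simp
    rw [e]
    exact (OInf h).mul_mem _ _ hui ((algebraMap_mem_OInf_iff h _).2 h2)

/-- **An inertia-fixed function is `q ^ n` times a unit of `O_0`.** -/
theorem exists_zpow_scaling_OZero (hq : q.Prime) (hA : A.LiesOverPrime q) (h : BadSetup A π M q)
    (hW : IsAL M q W) {f : laurentBaseChange Qb (modularFunctionFieldFull (M * q))}
    (hf : f ∈ fixedFun A (M * q)) (hf0 : f ≠ 0) :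
    ∃ n : ℤ,
      f / algebraMap Qb (laurentBaseChange Qb (modularFunctionFieldFull (M * q))) (q : Qb) ^ n ∈
        OZero h W ∧
      algebraMap Qb (laurentBaseChange Qb (modularFunctionFieldFull (M * q))) (q : Qb) ^ n / f ∈
        OZero h W := by
  have hWf0 : W f ≠ 0 := fun h0 => hf0 (W.injective (by rw [h0, map_zero]))
  obtain ⟨n, h1, h2⟩ := exists_zpow_scaling_OInf hq hA h (al_mem_fixedFun h hW hf) hWf0
  refine ⟨n, ?_, ?_⟩
  · rw [mem_OZero_iff, map_div₀, map_zpow₀, W.commutes]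
    exact h1
  · rw [mem_OZero_iff, map_div₀, map_zpow₀, W.commutes]
    exact h2

/-! ### The constants `K'' = K0[ϖ]` -/

/-- The datum of (PL-A) used by the base change: `H` is a set of inertia elements, `ϖ` is
`H`-fixed with `v(ϖ)^e = v(q)`, and every `H`-fixed constant is a `K0`-combination of
`1, ϖ, …, ϖ^(e-1)` (so `ℚ̄^H = K0(ϖ)` is totally ramified of degree `e` over `K0`, with
uniformiser `ϖ`). -/
structure UnifDatum (A : ValuationSubring Qb) (q : ℕ) (H : Set GQ) (ϖ : Qb) (e : ℕ) : Prop where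
  le : ∀ σ ∈ H, σ ∈ A.inertiaSubgroupIn ℚ
  fixed : ∀ σ ∈ H, σ ϖ = ϖ
  val : A.valuation ϖ ^ e = A.valuation (q : Qb)
  expand : ∀ c : Qb, (∀ σ ∈ H, σ c = c) →
    ∃ a : Fin e → Qb, (∀ i, a i ∈ K₀ A) ∧ c = ∑ i, a i * ϖ ^ (i : ℕ)

namespace UnifDatum

variable {H : Set GQ} {ϖ : Qb} {e : ℕ}

theorem e_pos (D : UnifDatum A q H ϖ e) (hA : A.LiesOverPrime q) : 0 < e := by
  have hvq : A.valuation (q : Qb) < 1 := A.mem_nonunits_iff.mp hA
  rcases Nat.eq_zero_or_pos e with h0 | h0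
  · have := D.val
    rw [h0, pow_zero] at this
    exact absurd this.symm hvq.ne
  · exact h0

theorem ne_zero (D : UnifDatum A q H ϖ e) (hq : q.Prime) (hA : A.LiesOverPrime q) : ϖ ≠ 0 := by
  rintro rfl
  have hq0 : (q : Qb) ≠ 0 := Nat.cast_ne_zero.2 hq.ne_zero
  have := D.val
  rw [map_zero, zero_pow (D.e_pos hA).ne'] at this
  exact (Valuation.ne_zero_iff _).2 hq0 this.symm

theorem val_lt_one (D : UnifDatum A q H ϖ e) (hA : A.LiesOverPrime q) : A.valuation ϖ < 1 := by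
  have hvq : A.valuation (q : Qb) < 1 := A.mem_nonunits_iff.mp hA
  by_contra hcon
  have h1 : 1 ≤ A.valuation ϖ ^ e := one_le_pow₀ (not_lt.1 hcon)
  rw [D.val] at h1
  exact absurd hvq (not_lt.2 h1)

theorem mem (D : UnifDatum A q H ϖ e) (hA : A.LiesOverPrime q) : ϖ ∈ A :=
  (A.valuation_le_one_iff _).1 (D.val_lt_one hA).le

theorem pow_div_mem (D : UnifDatum A q H ϖ e) (hq : q.Prime) : ϖ ^ e / (q : Qb) ∈ A := by
  have hq0 : (q : Qb) ≠ 0 := Nat.cast_ne_zero.2 hq.ne_zero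
  rw [← A.valuation_le_one_iff, map_div₀, map_pow, D.val,
    div_self ((Valuation.ne_zero_iff _).2 hq0)]

theorem div_pow_mem (D : UnifDatum A q H ϖ e) (hq : q.Prime) : (q : Qb) / ϖ ^ e ∈ A := by
  have hq0 : (q : Qb) ≠ 0 := Nat.cast_ne_zero.2 hq.ne_zero
  rw [← A.valuation_le_one_iff, map_div₀, map_pow, D.val,
    div_self ((Valuation.ne_zero_iff _).2 hq0)]

/-- The value group of `K0` inside the value group of `K''`. -/
theorem val_K0 (D : UnifDatum A q H ϖ e) (hq : q.Prime) (hA : A.LiesOverPrime q) {x : Qb}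
    (hx : x ∈ K₀ A) :
    x = 0 ∨ ∃ n : ℤ, A.valuation x = A.valuation ϖ ^ ((e : ℤ) * n) := by
  by_cases hx0 : x = 0
  · exact Or.inl hx0
  · obtain ⟨n, hn⟩ :=
      Fermat.Agent.CAR.K0.exists_zpow_valuation_eq_of_mem_inertiaField hq A hA hx hx0
    exact Or.inr ⟨n, by rw [hn, map_zpow₀, ← D.val, zpow_mul, zpow_natCast]⟩

/-- **`A ∩ K'' = (A ∩ K0)[ϖ]`**: integrality of a constant is read off on its coefficients. -/
theorem sum_mem_iff (D : UnifDatum A q H ϖ e) (hq : q.Prime) (hA : A.LiesOverPrime q)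
    {a : Fin e → Qb} (ha : ∀ i, a i ∈ K₀ A) :
    ∑ i, a i * ϖ ^ (i : ℕ) ∈ A ↔ ∀ i, a i ∈ A :=
  sum_mul_pow_mem_iff A (D.ne_zero hq hA) (D.val_lt_one hA) a (fun i => D.val_K0 hq hA (ha i))

/-- Uniqueness of the expansion of constants. -/
theorem sum_eq_zero (D : UnifDatum A q H ϖ e) (hq : q.Prime) (hA : A.LiesOverPrime q)
    {a : Fin e → Qb} (ha : ∀ i, a i ∈ K₀ A) (h0 : ∑ i, a i * ϖ ^ (i : ℕ) = 0) :
    ∀ i, a i = 0 := by
  intro j
  by_contra hj
  obtain ⟨N, hN⟩ := Fermat.Agent.PT.Kummer.exists_pow_valuation_lt hq hA hj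
  have hq0 : (q : Qb) ≠ 0 := Nat.cast_ne_zero.2 hq.ne_zero
  have hqN : (q : Qb) ^ N ≠ 0 := pow_ne_zero _ hq0
  have hsum : ∑ i, a i / (q : Qb) ^ N * ϖ ^ (i : ℕ) ∈ A := by
    have e1 : ∑ i, a i / (q : Qb) ^ N * ϖ ^ (i : ℕ) = (∑ i, a i * ϖ ^ (i : ℕ)) / (q : Qb) ^ N := by
      rw [Finset.sum_div]
      exact Finset.sum_congr rfl (fun i _ => by ring)
    rw [e1, h0, zero_div]
    exact A.zero_mem
  have key := (D.sum_mem_iff hq hA (a := fun i => a i / (q : Qb) ^ N)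
    (fun i => div_mem (ha i) (pow_mem (natCast_mem _ q) N))).1 hsum j
  rw [← A.valuation_le_one_iff, map_div₀,
    div_le_one₀ (zero_lt_iff.2 ((Valuation.ne_zero_iff _).2 hqN))] at key
  exact absurd hN (not_lt.2 key)

/-- The datum from its integral form: it suffices to expand the `H`-fixed elements of `A`. -/
theorem of_integral (hq : q.Prime) (hA : A.LiesOverPrime q)
    (hle : ∀ σ ∈ H, σ ∈ A.inertiaSubgroupIn ℚ) (hfix : ∀ σ ∈ H, σ ϖ = ϖ)
    (hval : A.valuation ϖ ^ e = A.valuation (q : Qb))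
    (hexp : ∀ c : Qb, c ∈ A → (∀ σ ∈ H, σ c = c) →
      ∃ a : Fin e → Qb, (∀ i, a i ∈ K₀ A) ∧ c = ∑ i, a i * ϖ ^ (i : ℕ)) :
    UnifDatum A q H ϖ e := by
  refine ⟨hle, hfix, hval, fun c hc => ?_⟩
  have hq0 : (q : Qb) ≠ 0 := Nat.cast_ne_zero.2 hq.ne_zero
  by_cases hc0 : c = 0
  · exact ⟨fun _ => 0, fun _ => zero_mem _, by rw [hc0]; simp⟩
  obtain ⟨N, hN⟩ := Fermat.Agent.PT.Kummer.exists_pow_valuation_lt hq hA (inv_ne_zero hc0)
  have hqN : (q : Qb) ^ N ≠ 0 := pow_ne_zero _ hq0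
  have hmem : (q : Qb) ^ N * c ∈ A := by
    have hvc : 0 < A.valuation c := zero_lt_iff.2 ((Valuation.ne_zero_iff _).2 hc0)
    rw [← A.valuation_le_one_iff, map_mul]
    rw [map_inv₀, ← one_div, lt_div_iff₀ hvc] at hN
    exact hN.le
  obtain ⟨a, ha, hca⟩ := hexp _ hmem (fun σ hσ => by
    rw [map_mul, map_pow, map_natCast, hc σ hσ])
  refine ⟨fun i => a i / (q : Qb) ^ N, fun i => div_mem (ha i) (pow_mem (natCast_mem _ q) N), ?_⟩
  have e1 : ∑ i, a i / (q : Qb) ^ N * ϖ ^ (i : ℕ) = (∑ i, a i * ϖ ^ (i : ℕ)) / (q : Qb) ^ N := by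
    rw [Finset.sum_div]
    exact Finset.sum_congr rfl (fun i _ => by ring)
  rw [e1, ← hca, mul_div_cancel_left₀ _ hqN]

end UnifDatum

/-! ### Expansion of `H`-fixed functions -/

/-- The `n`-th `q`-expansion coefficient, as a linear form. -/
def coeffL (N : ℕ) (n : ℤ) : ↥(laurentBaseChange Qb (modularFunctionFieldFull N)) →ₗ[Qb] Qb where
  toFun f := (f : LaurentSeries Qb).coeff n
  map_add' f g := by
    show ((f + g : ↥(laurentBaseChange Qb (modularFunctionFieldFull N))) :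
      LaurentSeries Qb).coeff n = _
    rw [AddMemClass.coe_add, HahnSeries.coeff_add]
  map_smul' a f := by
    show ((a • f : ↥(laurentBaseChange Qb (modularFunctionFieldFull N))) :
      LaurentSeries Qb).coeff n = a * (f : LaurentSeries Qb).coeff n
    have h1 : ((a • f : ↥(laurentBaseChange Qb (modularFunctionFieldFull N))) :
        LaurentSeries Qb) = HahnSeries.C a * (f : LaurentSeries Qb) := by
      rw [Algebra.smul_def, Fermat.Agent.Lib.Red.C_eq_algebraMap]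
      rfl
    rw [h1, Fermat.Agent.Lib.Descent.coeff_C_mul]

theorem coeffL_apply (N : ℕ) (n : ℤ) (f : laurentBaseChange Qb (modularFunctionFieldFull N)) :
    coeffL N n f = (f : LaurentSeries Qb).coeff n := rfl

theorem eq_zero_of_coeffL {N : ℕ} {f : laurentBaseChange Qb (modularFunctionFieldFull N)}
    (hf : ∀ n, coeffL N n f = 0) : f = 0 := by
  apply Subtype.ext
  ext n
  exact hf n

/-- An `I`-stable finite-dimensional space has a basis of `I`-fixed functions. -/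
theorem exists_fixed_basis (N : ℕ)
    (V : Submodule Qb (laurentBaseChange Qb (modularFunctionFieldFull N)))
    [FiniteDimensional Qb V]
    (hV : ∀ σ ∈ A.inertiaSubgroupIn ℚ, ∀ f ∈ V,
      arithmeticGalois (modularFunctionFieldFull N) σ • f ∈ V) :
    ∃ (n : ℕ) (b : Fin n → laurentBaseChange Qb (modularFunctionFieldFull N)),
      (∀ i, b i ∈ fixedFun A N) ∧ LinearIndependent Qb b ∧
        Submodule.span Qb (Set.range b) = V := by
  classical
  obtain ⟨t, hts, hspan, hli⟩ := exists_linearIndependent Qb {f | f ∈ V ∧ f ∈ fixedFun A N}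
  have hspanV : Submodule.span Qb t = V := by
    rw [hspan]
    exact le_antisymm (Submodule.span_le.2 (fun f hf => hf.1)) (le_span_fixedFun N V hV)
  have htV : ∀ x : t, (x : laurentBaseChange Qb (modularFunctionFieldFull N)) ∈ V :=
    fun x => (hts x.2).1
  have hli' : LinearIndependent Qb (fun x : t => (⟨x, htV x⟩ : V)) := by
    refine LinearIndependent.of_comp V.subtype ?_
    exact hli
  have hfin : Finite t := hli'.finite
  obtain ⟨n, ⟨eqv⟩⟩ := Finite.exists_equiv_fin t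
  refine ⟨n, fun i => ((eqv.symm i : t) : laurentBaseChange Qb (modularFunctionFieldFull N)),
    fun i => (hts (eqv.symm i).2).2, hli.comp _ eqv.symm.injective, ?_⟩
  have hr : Set.range (fun i => ((eqv.symm i : t) :
      laurentBaseChange Qb (modularFunctionFieldFull N))) = t := by
    ext x
    constructor
    · rintro ⟨i, rfl⟩
      exact (eqv.symm i).2
    · intro hx
      exact ⟨eqv ⟨x, hx⟩, by simp⟩
  rw [hr, hspanV]

variable {H : Set GQ} {ϖ : Qb} {e : ℕ}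

/-- **Expansion.**  Every `H`-fixed function of an `I`-stable finite-dimensional space `V` is
`∑_{i<e} ϖ^i • c i` with `I`-fixed coefficients `c i ∈ V`. -/
theorem exists_expansion_of_mem {N : ℕ} (D : UnifDatum A q H ϖ e)
    (V : Submodule Qb (laurentBaseChange Qb (modularFunctionFieldFull N)))
    [FiniteDimensional Qb V]
    (hV : ∀ σ ∈ A.inertiaSubgroupIn ℚ, ∀ f ∈ V,
      arithmeticGalois (modularFunctionFieldFull N) σ • f ∈ V)
    {g : laurentBaseChange Qb (modularFunctionFieldFull N)} (hgV : g ∈ V)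
    (hg : g ∈ fixedFunOf H N) :
    ∃ c : Fin e → laurentBaseChange Qb (modularFunctionFieldFull N),
      (∀ i, c i ∈ fixedFun A N) ∧ (∀ i, c i ∈ V) ∧ g = ∑ i : Fin e, ϖ ^ (i : ℕ) • c i := by
  classical
  obtain ⟨n, b, hbfix, hli, hspan⟩ := exists_fixed_basis N V hV
  have hbV : ∀ j, b j ∈ V := fun j => hspan ▸ Submodule.subset_span ⟨j, rfl⟩
  rw [← hspan] at hgV
  obtain ⟨a, rfl⟩ := (Submodule.mem_span_range_iff_exists_fun Qb).1 hgV
  have haH : ∀ j, ∀ σ ∈ H, σ (a j) = a j := fun j σ hσ =>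
    (sum_fixed_iff_coeff hli (fun i => mem_fixedFun.1 (hbfix i)) (D.le σ hσ) a).1 (hg σ hσ) j
  choose α hα hαe using fun j => D.expand (a j) (haH j)
  refine ⟨fun i => ∑ j, α j i • b j, fun i => ?_, fun i => ?_, ?_⟩
  · exact (fixedFun A N).sum_mem (fun j _ => smul_mem_fixedFun (hα j i) (hbfix j))
  · exact V.sum_mem (fun j _ => V.smul_mem _ (hbV j))
  · calc ∑ j, a j • b j = ∑ j, ∑ i, (α j i * ϖ ^ (i : ℕ)) • b j := by
          refine Finset.sum_congr rfl (fun j _ => ?_)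
          conv_lhs => rw [hαe j]
          rw [Finset.sum_smul]
      _ = ∑ i : Fin e, ∑ j, (α j i * ϖ ^ (i : ℕ)) • b j := Finset.sum_comm
      _ = ∑ i : Fin e, ϖ ^ (i : ℕ) • ∑ j, α j i • b j := by
          refine Finset.sum_congr rfl (fun i _ => ?_)
          rw [Finset.smul_sum]
          exact Finset.sum_congr rfl (fun j _ => by rw [smul_smul, mul_comm])

/-- **Uniqueness of the expansion.** -/
theorem expansion_unique {N : ℕ} (D : UnifDatum A q H ϖ e) (hq : q.Prime)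
    (hA : A.LiesOverPrime q)
    {c : Fin e → laurentBaseChange Qb (modularFunctionFieldFull N)}
    (hc : ∀ i, c i ∈ fixedFun A N) (h0 : ∑ i : Fin e, ϖ ^ (i : ℕ) • c i = 0) : ∀ i, c i = 0 := by
  have key : ∀ n : ℤ, ∀ i, coeffL N n (c i) = 0 := by
    intro n
    refine D.sum_eq_zero hq hA (a := fun i => coeffL N n (c i))
      (fun i => coeff_mem_of_mem_fixedFun (hc i) n) ?_
    have h1 := congrArg (coeffL N n) h0
    rw [map_sum, map_zero] at h1
    rw [← h1]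
    refine Finset.sum_congr rfl (fun i _ => ?_)
    rw [map_smul, smul_eq_mul, mul_comm]
  intro i
  exact eq_zero_of_coeffL (fun n => key n i)

/-- Two expansions of the same function agree. -/
theorem expansion_ext {N : ℕ} (D : UnifDatum A q H ϖ e) (hq : q.Prime)
    (hA : A.LiesOverPrime q)
    {c c' : Fin e → laurentBaseChange Qb (modularFunctionFieldFull N)}
    (hc : ∀ i, c i ∈ fixedFun A N) (hc' : ∀ i, c' i ∈ fixedFun A N)
    (h0 : ∑ i : Fin e, ϖ ^ (i : ℕ) • c i = ∑ i : Fin e, ϖ ^ (i : ℕ) • c' i) : c = c' := by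
  funext i
  have h1 : ∑ i : Fin e, ϖ ^ (i : ℕ) • (c i - c' i) = 0 := by
    have : ∑ i : Fin e, ϖ ^ (i : ℕ) • (c i - c' i) =
        ∑ i : Fin e, ϖ ^ (i : ℕ) • c i - ∑ i : Fin e, ϖ ^ (i : ℕ) • c' i := by
      rw [← Finset.sum_sub_distrib]
      exact Finset.sum_congr rfl (fun i _ => smul_sub _ _ _)
    rw [this, h0, sub_self]
  exact sub_eq_zero.1
    (expansion_unique D hq hA (fun i => (fixedFun A N).sub_mem (hc i) (hc' i)) h1 i)

/-- An expansion with `I`-fixed coefficients is `H`-fixed. -/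
theorem sum_mem_fixedFunOf {N : ℕ} (D : UnifDatum A q H ϖ e)
    {c : Fin e → laurentBaseChange Qb (modularFunctionFieldFull N)}
    (hc : ∀ i, c i ∈ fixedFun A N) : ∑ i : Fin e, ϖ ^ (i : ℕ) • c i ∈ fixedFunOf H N := by
  refine (fixedFunOf H N).sum_mem (fun i _ => smul_mem_fixedFunOf ?_ ?_)
  · intro σ hσ
    rw [map_pow, D.fixed σ hσ]
  · intro σ hσ
    exact hc i σ (D.le σ hσ)

/-! ### `O'' = O⁰[ϖ]` -/

theorem valuation_algebraMap_lt_one (h : BadSetup A π M q) {a : Qb} (ha : A.valuation a < 1) :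
    (OInf h).valuation
      (algebraMap Qb (laurentBaseChange Qb (modularFunctionFieldFull (M * q))) a) < 1 := by
  by_cases ha0 : a = 0
  · rw [ha0, map_zero, map_zero]
    exact zero_lt_one
  rw [← not_le]
  intro hle
  have h1 : (algebraMap Qb (laurentBaseChange Qb (modularFunctionFieldFull (M * q))) a)⁻¹ ∈
      OInf h := by
    rw [← (OInf h).valuation_le_one_iff, map_inv₀]
    exact inv_le_one_of_one_le₀ hle
  rw [← map_inv₀, algebraMap_mem_OInf_iff] at h1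
  have h2 := (A.valuation_le_one_iff _).2 h1
  rw [map_inv₀, inv_le_one₀ (zero_lt_iff.2 ((Valuation.ne_zero_iff _).2 ha0))] at h2
  exact absurd ha (not_lt.2 h2)

/-- **`O_∞'' = O_∞⁰[ϖ]`**: an expansion with `I`-fixed coefficients lies in `O_∞` iff all its
coefficients do. -/
theorem sum_mem_OInf_iff (hq : q.Prime) (hA : A.LiesOverPrime q) (h : BadSetup A π M q)
    (D : UnifDatum A q H ϖ e)
    {c : Fin e → laurentBaseChange Qb (modularFunctionFieldFull (M * q))}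
    (hc : ∀ i, c i ∈ fixedFun A (M * q)) :
    ∑ i : Fin e, ϖ ^ (i : ℕ) • c i ∈ OInf h ↔ ∀ i, c i ∈ OInf h := by
  have e1 : ∑ i : Fin e, ϖ ^ (i : ℕ) • c i = ∑ i, c i *
      algebraMap Qb (laurentBaseChange Qb (modularFunctionFieldFull (M * q))) ϖ ^ (i : ℕ) :=
    Finset.sum_congr rfl (fun i _ => by rw [Algebra.smul_def, map_pow, mul_comm _ (c i)])
  rw [e1]
  have hq0 : (q : Qb) ≠ 0 := Nat.cast_ne_zero.2 hq.ne_zero
  refine sum_mul_pow_mem_iff_of_scaling (OInf h)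
    (p := algebraMap Qb (laurentBaseChange Qb (modularFunctionFieldFull (M * q))) (q : Qb))
    ((map_ne_zero _).2 hq0) ?_ ?_ ((map_ne_zero _).2 (D.ne_zero hq hA))
    (valuation_algebraMap_lt_one h (D.val_lt_one hA)) c (fun i => ?_)
  · rw [← map_pow, ← map_div₀]
    exact (algebraMap_mem_OInf_iff h _).2 (D.pow_div_mem hq)
  · rw [← map_pow, ← map_div₀]
    exact (algebraMap_mem_OInf_iff h _).2 (D.div_pow_mem hq)
  · by_cases hi : c i = 0
    · exact Or.inl hi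
    · exact Or.inr (exists_zpow_scaling_OInf hq hA h (hc i) hi)

/-- **`O_0'' = O_0⁰[ϖ]`.** -/
theorem sum_mem_OZero_iff (hq : q.Prime) (hA : A.LiesOverPrime q) (h : BadSetup A π M q)
    (hW : IsAL M q W) (D : UnifDatum A q H ϖ e)
    {c : Fin e → laurentBaseChange Qb (modularFunctionFieldFull (M * q))}
    (hc : ∀ i, c i ∈ fixedFun A (M * q)) :
    ∑ i : Fin e, ϖ ^ (i : ℕ) • c i ∈ OZero h W ↔ ∀ i, c i ∈ OZero h W := by
  rw [mem_OZero_iff, map_sum]
  have e1 : ∑ i : Fin e, W (ϖ ^ (i : ℕ) • c i) = ∑ i : Fin e, ϖ ^ (i : ℕ) • W (c i) :=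
    Finset.sum_congr rfl (fun i _ => by
      rw [Algebra.smul_def, Algebra.smul_def, map_mul, W.commutes])
  rw [e1, sum_mem_OInf_iff hq hA h D (fun i => al_mem_fixedFun h hW (hc i))]
  exact forall_congr' fun i => (mem_OZero_iff h (c i)).symm

/-- **`O'' = O⁰[ϖ]`** for `O = O_∞ ∩ O_0`. -/
theorem sum_mem_OPair_iff (hq : q.Prime) (hA : A.LiesOverPrime q) (h : BadSetup A π M q)
    (hW : IsAL M q W) (D : UnifDatum A q H ϖ e)
    {c : Fin e → laurentBaseChange Qb (modularFunctionFieldFull (M * q))}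
    (hc : ∀ i, c i ∈ fixedFun A (M * q)) :
    ∑ i : Fin e, ϖ ^ (i : ℕ) • c i ∈ OPair h W ↔ ∀ i, c i ∈ OPair h W := by
  rw [mem_OPair_iff, sum_mem_OInf_iff hq hA h D hc, sum_mem_OZero_iff hq hA h hW D hc]
  exact ⟨fun hh i => (mem_OPair_iff h _).2 ⟨hh.1 i, hh.2 i⟩,
    fun hh => ⟨fun i => ((mem_OPair_iff h _).1 (hh i)).1,
      fun i => ((mem_OPair_iff h _).1 (hh i)).2⟩⟩

/-- The reduction at `∞` of an expansion is the reduction of its constant coefficient. -/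
theorem redInf_sum (hA : A.LiesOverPrime q) (h : BadSetup A π M q) (D : UnifDatum A q H ϖ e)
    {c : Fin e → laurentBaseChange Qb (modularFunctionFieldFull (M * q))}
    (hcO : ∀ i, c i ∈ OInf h) (hsum : ∑ i : Fin e, ϖ ^ (i : ℕ) • c i ∈ OInf h) :
    redInf h ⟨_, hsum⟩ = redInf h ⟨c ⟨0, D.e_pos hA⟩, hcO _⟩ := by
  classical
  have hϖA : ϖ ∈ A := D.mem hA
  have hϖO : algebraMap Qb (laurentBaseChange Qb (modularFunctionFieldFull (M * q))) ϖ ∈
      OInf h := (algebraMap_mem_OInf_iff h ϖ).2 hϖA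
  have hred : redInf h ⟨_, hϖO⟩ = 0 := by
    rw [redInf_algebraMap h ⟨ϖ, hϖA⟩ hϖO, (h.pi_eq_zero_iff ⟨ϖ, hϖA⟩).2 (D.val_lt_one hA),
      map_zero]
  have e1 : (⟨∑ i : Fin e, ϖ ^ (i : ℕ) • c i, hsum⟩ : OInf h) =
      ∑ i : Fin e, (⟨_, hϖO⟩ : OInf h) ^ (i : ℕ) * ⟨c i, hcO i⟩ := by
    apply Subtype.ext
    show ∑ i : Fin e, ϖ ^ (i : ℕ) • c i =
      ((∑ i : Fin e, (⟨_, hϖO⟩ : OInf h) ^ (i : ℕ) * ⟨c i, hcO i⟩ : OInf h) :
        laurentBaseChange Qb (modularFunctionFieldFull (M * q)))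
    rw [AddSubmonoidClass.coe_finsetSum]
    refine Finset.sum_congr rfl (fun i _ => ?_)
    rw [Algebra.smul_def, map_pow]
    rfl
  rw [e1, map_sum, Finset.sum_eq_single ⟨0, D.e_pos hA⟩]
  · rw [map_mul, map_pow, pow_zero, one_mul]
  · intro i _ hi
    rw [map_mul, map_pow, hred, zero_pow (fun h0 => hi (Fin.ext h0)), zero_mul]
  · intro hh
    exact absurd (Finset.mem_univ _) hh

/-- The reduction at `0` of an expansion is the reduction of its constant coefficient. -/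
theorem redZero_sum (hA : A.LiesOverPrime q) (h : BadSetup A π M q) (D : UnifDatum A q H ϖ e)
    {c : Fin e → laurentBaseChange Qb (modularFunctionFieldFull (M * q))}
    (hcO : ∀ i, c i ∈ OZero h W) (hsum : ∑ i : Fin e, ϖ ^ (i : ℕ) • c i ∈ OZero h W) :
    redZero h W ⟨_, hsum⟩ = redZero h W ⟨c ⟨0, D.e_pos hA⟩, hcO _⟩ := by
  have e1 : W (∑ i : Fin e, ϖ ^ (i : ℕ) • c i) = ∑ i : Fin e, ϖ ^ (i : ℕ) • W (c i) := by
    rw [map_sum]
    exact Finset.sum_congr rfl (fun i _ => by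
      rw [Algebra.smul_def, Algebra.smul_def, map_mul, W.commutes])
  have hsum' : ∑ i : Fin e, ϖ ^ (i : ℕ) • W (c i) ∈ OInf h := by
    rw [← e1]
    exact hsum
  rw [redZero_mk, redZero_mk, redInf_congr h e1 hsum hsum']
  exact redInf_sum hA h D (c := fun i => W (c i)) (fun i => hcO i) hsum'

/-! ### (EXP) -/

/-- **(EXP), explicit form.**  For any automorphism `σ` fixing the coefficients,
`σ • (∑ ϖ^i • c i) − ∑ ϖ^i • c i = (σϖ − ϖ) • ∑ᵢ (∑_{k<i} (σϖ)^k ϖ^(i-1-k)) • c i`. -/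
theorem galois_smul_sum_sub {N : ℕ} (σ : GQ) (ϖ : Qb) {e : ℕ}
    {c : Fin e → laurentBaseChange Qb (modularFunctionFieldFull N)}
    (hc : ∀ i, arithmeticGalois (modularFunctionFieldFull N) σ • c i = c i) :
    arithmeticGalois (modularFunctionFieldFull N) σ • (∑ i : Fin e, ϖ ^ (i : ℕ) • c i) -
        ∑ i : Fin e, ϖ ^ (i : ℕ) • c i =
      (σ ϖ - ϖ) • ∑ i : Fin e,
        (∑ k ∈ Finset.range (i : ℕ), σ ϖ ^ k * ϖ ^ ((i : ℕ) - 1 - k)) • c i := by
  rw [Finset.smul_sum, ← Finset.sum_sub_distrib, Finset.smul_sum]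
  refine Finset.sum_congr rfl (fun i _ => ?_)
  have e2 : σ ϖ ^ (i : ℕ) - ϖ ^ (i : ℕ) =
      (σ ϖ - ϖ) * ∑ k ∈ Finset.range (i : ℕ), σ ϖ ^ k * ϖ ^ ((i : ℕ) - 1 - k) := by
    rw [mul_comm, geom_sum₂_mul]
  rw [Fermat.Agent.Padic.arithmeticGalois_smul_const_smul, hc i, map_pow, ← sub_smul, e2,
    mul_smul]

/-- The coefficients of (EXP) are integral. -/
theorem geom_coeff_mem {σ : GQ} (hσ : σ ∈ A.inertiaSubgroupIn ℚ) {ϖ : Qb} (hϖ : ϖ ∈ A) (i : ℕ) :
    ∑ k ∈ Finset.range i, σ ϖ ^ k * ϖ ^ (i - 1 - k) ∈ A := by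
  have hσϖ : σ ϖ ∈ A := (mem_iff_of_mem_inertia hσ ϖ).1 hϖ
  exact sum_mem (fun k _ => mul_mem (pow_mem hσϖ _) (pow_mem hϖ _))

/-- **(EXP)** for a subring `O'` containing `A` and a subspace `V`: for `σ ∈ I`,
`σ • g − g ∈ (σϖ − ϖ)·(O' ∩ V)` for every expansion `g = ∑ ϖ^i • c i` with `σ`-fixed coefficients
in `O' ∩ V`. -/
theorem galois_sum_sub_mem {N : ℕ}
    (O' : Subring (laurentBaseChange Qb (modularFunctionFieldFull N)))
    (hO' : ∀ a ∈ A, algebraMap Qb (laurentBaseChange Qb (modularFunctionFieldFull N)) a ∈ O')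
    (V : Submodule Qb (laurentBaseChange Qb (modularFunctionFieldFull N)))
    {σ : GQ} (hσ : σ ∈ A.inertiaSubgroupIn ℚ) {ϖ : Qb} (hϖ : ϖ ∈ A) {e : ℕ}
    {c : Fin e → laurentBaseChange Qb (modularFunctionFieldFull N)}
    (hc : ∀ i, arithmeticGalois (modularFunctionFieldFull N) σ • c i = c i)
    (hcO : ∀ i, c i ∈ O') (hcV : ∀ i, c i ∈ V) :
    ∃ y ∈ O', y ∈ V ∧
      arithmeticGalois (modularFunctionFieldFull N) σ • (∑ i : Fin e, ϖ ^ (i : ℕ) • c i) -
        ∑ i : Fin e, ϖ ^ (i : ℕ) • c i =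
      algebraMap Qb (laurentBaseChange Qb (modularFunctionFieldFull N)) (σ ϖ - ϖ) * y := by
  refine ⟨_, ?_, ?_, by rw [galois_smul_sum_sub σ ϖ hc, Algebra.smul_def]⟩
  · refine O'.sum_mem (fun i _ => ?_)
    rw [Algebra.smul_def]
    exact O'.mul_mem (hO' _ (geom_coeff_mem hσ hϖ _)) (hcO i)
  · exact V.sum_mem (fun i _ => V.smul_mem _ (hcV i))

/-! ### The statements for an `H`-fixed function -/

/-- **(PL-B) for `O_∞`**: the expansion of an `H`-fixed function of `V ∩ O_∞` has coefficients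
in `F0 ∩ V ∩ O_∞`. -/
theorem exists_expansion_OInf (hq : q.Prime) (hA : A.LiesOverPrime q) (h : BadSetup A π M q)
    (D : UnifDatum A q H ϖ e)
    (V : Submodule Qb (laurentBaseChange Qb (modularFunctionFieldFull (M * q))))
    [FiniteDimensional Qb V]
    (hV : ∀ σ ∈ A.inertiaSubgroupIn ℚ, ∀ f ∈ V,
      arithmeticGalois (modularFunctionFieldFull (M * q)) σ • f ∈ V)
    {g : laurentBaseChange Qb (modularFunctionFieldFull (M * q))} (hgV : g ∈ V)
    (hg : g ∈ fixedFunOf H (M * q)) (hgO : g ∈ OInf h) :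
    ∃ c : Fin e → laurentBaseChange Qb (modularFunctionFieldFull (M * q)),
      (∀ i, c i ∈ fixedFun A (M * q)) ∧ (∀ i, c i ∈ V) ∧ (∀ i, c i ∈ OInf h) ∧
        g = ∑ i : Fin e, ϖ ^ (i : ℕ) • c i := by
  obtain ⟨c, hc, hcV, rfl⟩ := exists_expansion_of_mem D V hV hgV hg
  exact ⟨c, hc, hcV, (sum_mem_OInf_iff hq hA h D hc).1 hgO, rfl⟩

/-- **(PL-B) for `O_0`.** -/
theorem exists_expansion_OZero (hq : q.Prime) (hA : A.LiesOverPrime q) (h : BadSetup A π M q)
    (hW : IsAL M q W) (D : UnifDatum A q H ϖ e)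
    (V : Submodule Qb (laurentBaseChange Qb (modularFunctionFieldFull (M * q))))
    [FiniteDimensional Qb V]
    (hV : ∀ σ ∈ A.inertiaSubgroupIn ℚ, ∀ f ∈ V,
      arithmeticGalois (modularFunctionFieldFull (M * q)) σ • f ∈ V)
    {g : laurentBaseChange Qb (modularFunctionFieldFull (M * q))} (hgV : g ∈ V)
    (hg : g ∈ fixedFunOf H (M * q)) (hgO : g ∈ OZero h W) :
    ∃ c : Fin e → laurentBaseChange Qb (modularFunctionFieldFull (M * q)),
      (∀ i, c i ∈ fixedFun A (M * q)) ∧ (∀ i, c i ∈ V) ∧ (∀ i, c i ∈ OZero h W) ∧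
        g = ∑ i : Fin e, ϖ ^ (i : ℕ) • c i := by
  obtain ⟨c, hc, hcV, rfl⟩ := exists_expansion_of_mem D V hV hgV hg
  exact ⟨c, hc, hcV, (sum_mem_OZero_iff hq hA h hW D hc).1 hgO, rfl⟩

/-- **(PL-B) for `O = O_∞ ∩ O_0`**: the `K''`-rational points of the lattice `V ∩ O` are
`⊕_{i<e} ϖ^i • (F0 ∩ V ∩ O)`. -/
theorem exists_expansion_OPair (hq : q.Prime) (hA : A.LiesOverPrime q) (h : BadSetup A π M q)
    (hW : IsAL M q W) (D : UnifDatum A q H ϖ e)
    (V : Submodule Qb (laurentBaseChange Qb (modularFunctionFieldFull (M * q))))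
    [FiniteDimensional Qb V]
    (hV : ∀ σ ∈ A.inertiaSubgroupIn ℚ, ∀ f ∈ V,
      arithmeticGalois (modularFunctionFieldFull (M * q)) σ • f ∈ V)
    {g : laurentBaseChange Qb (modularFunctionFieldFull (M * q))} (hgV : g ∈ V)
    (hg : g ∈ fixedFunOf H (M * q)) (hgO : g ∈ OPair h W) :
    ∃ c : Fin e → laurentBaseChange Qb (modularFunctionFieldFull (M * q)),
      (∀ i, c i ∈ fixedFun A (M * q)) ∧ (∀ i, c i ∈ V) ∧ (∀ i, c i ∈ OPair h W) ∧
        g = ∑ i : Fin e, ϖ ^ (i : ℕ) • c i := by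
  obtain ⟨c, hc, hcV, rfl⟩ := exists_expansion_of_mem D V hV hgV hg
  exact ⟨c, hc, hcV, (sum_mem_OPair_iff hq hA h hW D hc).1 hgO, rfl⟩

/-- **(PL-B) for chart lattices**: `V = L(B)` for an inertia-invariant divisor `B`. -/
theorem exists_expansion_rr (hq : q.Prime) (hA : A.LiesOverPrime q) (h : BadSetup A π M q)
    (hW : IsAL M q W) (D : UnifDatum A q H ϖ e)
    (B : Divisor Qb (laurentBaseChange Qb (modularFunctionFieldFull (M * q))))
    (hB : ∀ σ ∈ A.inertiaSubgroupIn ℚ,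
      arithmeticGalois (modularFunctionFieldFull (M * q)) σ • B = B)
    {g : laurentBaseChange Qb (modularFunctionFieldFull (M * q))}
    (hgB : g ∈ riemannRochSpace B) (hg : g ∈ fixedFunOf H (M * q)) (hgO : g ∈ OPair h W) :
    ∃ c : Fin e → laurentBaseChange Qb (modularFunctionFieldFull (M * q)),
      (∀ i, c i ∈ fixedFun A (M * q)) ∧ (∀ i, c i ∈ riemannRochSpace B) ∧
        (∀ i, c i ∈ OPair h W) ∧ g = ∑ i : Fin e, ϖ ^ (i : ℕ) • c i := by
  have hfin : FiniteDimensional Qb (riemannRochSpace B) :=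
    (Fermat.Agent.Lib.FF.isFF1_xL Qb (M * q)).finite_L B
  refine exists_expansion_OPair hq hA h hW D (riemannRochSpace B) (fun σ hσ f hf => ?_) hgB hg hgO
  refine Fermat.Agent.Padic.semilinear_smul_mem_rr _ (fun v => ?_) hf
  rw [← SemilinearAut.divisor_smul_apply, hB σ hσ]

/-- **Expansion, finite-index form**: if `H` is a subgroup with finitely many cosets in `I`, every
`H`-fixed function has an expansion. -/
theorem exists_expansion {N : ℕ} (H : Subgroup GQ) (D : UnifDatum A q (H : Set GQ) ϖ e)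
    {m : ℕ} (ρ : Fin m → GQ) (hρI : ∀ j, ρ j ∈ A.inertiaSubgroupIn ℚ)
    (hρ : ∀ σ ∈ A.inertiaSubgroupIn ℚ, ∃ j, ∃ τ ∈ H, σ = ρ j * τ)
    {g : laurentBaseChange Qb (modularFunctionFieldFull N)}
    (hg : g ∈ fixedFunOf (H : Set GQ) N) :
    ∃ c : Fin e → laurentBaseChange Qb (modularFunctionFieldFull N),
      (∀ i, c i ∈ fixedFun A N) ∧ g = ∑ i : Fin e, ϖ ^ (i : ℕ) • c i := by
  have hVH : ∀ σ ∈ H, ∀ f ∈ Submodule.span Qb {g},
      arithmeticGalois (L := Qb) (modularFunctionFieldFull N) σ • f ∈ Submodule.span Qb {g} := by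
    intro σ hσ f hf
    obtain ⟨a, rfl⟩ := Submodule.mem_span_singleton.1 hf
    rw [Fermat.Agent.Padic.arithmeticGalois_smul_const_smul, hg σ hσ]
    exact Submodule.smul_mem _ _ (Submodule.mem_span_singleton_self g)
  obtain ⟨V', hfin, hVV', hV'⟩ := exists_stable_superspace H ρ hρI hρ (Submodule.span Qb {g}) hVH
  obtain ⟨c, hc, -, hgc⟩ := exists_expansion_of_mem D V' hV'
    (hVV' (Submodule.mem_span_singleton_self g)) hg
  exact ⟨c, hc, hgc⟩

/-- **(EXP) for `O = O_∞ ∩ O_0`**: for `σ ∈ I` and an `H`-fixed `g ∈ V ∩ O`,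
`σ • g − g ∈ (σϖ − ϖ)·(V ∩ O)`. -/
theorem exists_galois_sub_OPair (hq : q.Prime) (hA : A.LiesOverPrime q) (h : BadSetup A π M q)
    (hW : IsAL M q W) (D : UnifDatum A q H ϖ e)
    (V : Submodule Qb (laurentBaseChange Qb (modularFunctionFieldFull (M * q))))
    [FiniteDimensional Qb V]
    (hV : ∀ σ ∈ A.inertiaSubgroupIn ℚ, ∀ f ∈ V,
      arithmeticGalois (modularFunctionFieldFull (M * q)) σ • f ∈ V)
    {g : laurentBaseChange Qb (modularFunctionFieldFull (M * q))} (hgV : g ∈ V)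
    (hg : g ∈ fixedFunOf H (M * q)) (hgO : g ∈ OPair h W)
    {σ : GQ} (hσ : σ ∈ A.inertiaSubgroupIn ℚ) :
    ∃ y ∈ OPair h W, y ∈ V ∧
      arithmeticGalois (modularFunctionFieldFull (M * q)) σ • g - g =
        algebraMap Qb (laurentBaseChange Qb (modularFunctionFieldFull (M * q))) (σ ϖ - ϖ) * y := by
  obtain ⟨c, hc, hcV, hcO, rfl⟩ := exists_expansion_OPair hq hA h hW D V hV hgV hg hgO
  exact galois_sum_sub_mem (OPair h W) (fun a ha => (OPair_hOA h a).2 ha) V hσ (D.mem hA)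
    (fun i => hc i σ hσ) hcO hcV

/-- **(EXP) for `O_∞`.** -/
theorem exists_galois_sub_OInf (hq : q.Prime) (hA : A.LiesOverPrime q) (h : BadSetup A π M q)
    (D : UnifDatum A q H ϖ e)
    (V : Submodule Qb (laurentBaseChange Qb (modularFunctionFieldFull (M * q))))
    [FiniteDimensional Qb V]
    (hV : ∀ σ ∈ A.inertiaSubgroupIn ℚ, ∀ f ∈ V,
      arithmeticGalois (modularFunctionFieldFull (M * q)) σ • f ∈ V)
    {g : laurentBaseChange Qb (modularFunctionFieldFull (M * q))} (hgV : g ∈ V)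
    (hg : g ∈ fixedFunOf H (M * q)) (hgO : g ∈ OInf h)
    {σ : GQ} (hσ : σ ∈ A.inertiaSubgroupIn ℚ) :
    ∃ y ∈ OInf h, y ∈ V ∧
      arithmeticGalois (modularFunctionFieldFull (M * q)) σ • g - g =
        algebraMap Qb (laurentBaseChange Qb (modularFunctionFieldFull (M * q))) (σ ϖ - ϖ) * y := by
  obtain ⟨c, hc, hcV, hcO, rfl⟩ := exists_expansion_OInf hq hA h D V hV hgV hg hgO
  exact galois_sum_sub_mem (OInf h).toSubring (fun a ha => (algebraMap_mem_OInf_iff h a).2 ha) V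
    hσ (D.mem hA) (fun i => hc i σ hσ) hcO hcV

/-- **(EXP) for `O_0`.** -/
theorem exists_galois_sub_OZero (hq : q.Prime) (hA : A.LiesOverPrime q) (h : BadSetup A π M q)
    (hW : IsAL M q W) (D : UnifDatum A q H ϖ e)
    (V : Submodule Qb (laurentBaseChange Qb (modularFunctionFieldFull (M * q))))
    [FiniteDimensional Qb V]
    (hV : ∀ σ ∈ A.inertiaSubgroupIn ℚ, ∀ f ∈ V,
      arithmeticGalois (modularFunctionFieldFull (M * q)) σ • f ∈ V)
    {g : laurentBaseChange Qb (modularFunctionFieldFull (M * q))} (hgV : g ∈ V)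
    (hg : g ∈ fixedFunOf H (M * q)) (hgO : g ∈ OZero h W)
    {σ : GQ} (hσ : σ ∈ A.inertiaSubgroupIn ℚ) :
    ∃ y ∈ OZero h W, y ∈ V ∧
      arithmeticGalois (modularFunctionFieldFull (M * q)) σ • g - g =
        algebraMap Qb (laurentBaseChange Qb (modularFunctionFieldFull (M * q))) (σ ϖ - ϖ) * y := by
  obtain ⟨c, hc, hcV, hcO, rfl⟩ := exists_expansion_OZero hq hA h hW D V hV hgV hg hgO
  exact galois_sum_sub_mem (OZero h W).toSubring
    (fun a ha => (algebraMap_mem_OZero_iff h a).2 ha) V hσ (D.mem hA) (fun i => hc i σ hσ) hcO hcV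

/-! ### Multiplication of expansions: the truncated expansion map is multiplicative -/

/-- The structure constants of `K'' = K0[ϖ]`: `ϖ ^ n = ∑_l γ n l · ϖ^l` with `γ n l ∈ K0`,
`γ n l = δ_{n l}` for `n < e` and `γ n l ∈ q·A` for `n ≥ e`. -/
theorem UnifDatum.exists_pow_coeffs (D : UnifDatum A q H ϖ e) (hq : q.Prime)
    (hA : A.LiesOverPrime q) :
    ∃ γ : ℕ → Fin e → Qb, (∀ n l, γ n l ∈ K₀ A) ∧ (∀ n, ϖ ^ n = ∑ l : Fin e, γ n l * ϖ ^ (l : ℕ)) ∧
      (∀ n l, n < e → γ n l = if (l : ℕ) = n then 1 else 0) ∧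
      (∀ n l, e ≤ n → γ n l / (q : Qb) ∈ A) := by
  classical
  have hq0 : (q : Qb) ≠ 0 := Nat.cast_ne_zero.2 hq.ne_zero
  have key : ∀ n, ∃ γ : Fin e → Qb, (∀ l, γ l ∈ K₀ A) ∧ ϖ ^ n = ∑ l : Fin e, γ l * ϖ ^ (l : ℕ) ∧
      (∀ l, n < e → γ l = if (l : ℕ) = n then 1 else 0) ∧
      (∀ l, e ≤ n → γ l / (q : Qb) ∈ A) := by
    intro n
    rcases lt_or_ge n e with hn | hn
    · refine ⟨fun l => if (l : ℕ) = n then 1 else 0, fun l => ?_, ?_, fun l _ => rfl,
        fun l h' => absurd hn (not_lt.2 h')⟩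
      · show (if (l : ℕ) = n then (1 : Qb) else 0) ∈ K₀ A
        split_ifs
        · exact one_mem _
        · exact zero_mem _
      · rw [Finset.sum_eq_single ⟨n, hn⟩]
        · show ϖ ^ n = (if n = n then (1 : Qb) else 0) * ϖ ^ n
          rw [if_pos rfl, one_mul]
        · intro l _ hl
          show (if (l : ℕ) = n then (1 : Qb) else 0) * ϖ ^ (l : ℕ) = 0
          rw [if_neg (fun h' => hl (Fin.ext h')), zero_mul]
        · intro h'
          exact absurd (Finset.mem_univ _) h'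
    · have hfix : ∀ σ ∈ H, σ (ϖ ^ n / (q : Qb)) = ϖ ^ n / (q : Qb) := by
        intro σ hσ
        rw [map_div₀, map_pow, D.fixed σ hσ, map_natCast]
      obtain ⟨β, hβ, hβe⟩ := D.expand _ hfix
      have hmem : ϖ ^ n / (q : Qb) ∈ A := by
        have e1 : ϖ ^ n / (q : Qb) = ϖ ^ e / (q : Qb) * ϖ ^ (n - e) := by
          rw [div_mul_eq_mul_div, ← _root_.pow_add, Nat.add_sub_cancel' hn]
        rw [e1]
        exact A.mul_mem _ _ (D.pow_div_mem hq) (A.pow_mem (D.mem hA) _)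
      have hβA : ∀ l, β l ∈ A := (D.sum_mem_iff hq hA hβ).1 (hβe ▸ hmem)
      refine ⟨fun l => (q : Qb) * β l, fun l => mul_mem (natCast_mem _ q) (hβ l), ?_,
        fun l h' => absurd h' (not_lt.2 hn), fun l _ => ?_⟩
      · calc ϖ ^ n = (q : Qb) * (ϖ ^ n / (q : Qb)) := by
              rw [mul_div_cancel₀ _ hq0]
          _ = (q : Qb) * ∑ l, β l * ϖ ^ (l : ℕ) := by rw [← hβe]
          _ = ∑ l, (q : Qb) * β l * ϖ ^ (l : ℕ) := by
              rw [Finset.mul_sum]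
              exact Finset.sum_congr rfl (fun l _ => by rw [mul_assoc])
      · show (q : Qb) * β l / (q : Qb) ∈ A
        rw [mul_div_cancel_left₀ _ hq0]
        exact hβA l
  choose γ h1 h2 h3 h4 using key
  exact ⟨γ, h1, h2, h3, h4⟩

/-- The product of two expansions, expanded through the structure constants. -/
theorem mul_expansion {N : ℕ} {γ : ℕ → Fin e → Qb}
    (hγ : ∀ n, ϖ ^ n = ∑ l : Fin e, γ n l * ϖ ^ (l : ℕ))
    (c c' : Fin e → laurentBaseChange Qb (modularFunctionFieldFull N)) :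
    (∑ i : Fin e, ϖ ^ (i : ℕ) • c i) * (∑ j : Fin e, ϖ ^ (j : ℕ) • c' j) =
      ∑ l : Fin e, ϖ ^ (l : ℕ) • ∑ i : Fin e, ∑ j : Fin e, γ ((i : ℕ) + (j : ℕ)) l • (c i * c' j) := by
  calc (∑ i : Fin e, ϖ ^ (i : ℕ) • c i) * (∑ j : Fin e, ϖ ^ (j : ℕ) • c' j)
      = ∑ i : Fin e, ∑ j : Fin e, ϖ ^ ((i : ℕ) + (j : ℕ)) • (c i * c' j) := by
        rw [Finset.sum_mul_sum]
        refine Finset.sum_congr rfl (fun i _ => Finset.sum_congr rfl (fun j _ => ?_))
        rw [smul_mul_smul_comm, ← _root_.pow_add]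
    _ = ∑ i : Fin e, ∑ j : Fin e, ∑ l : Fin e, ϖ ^ (l : ℕ) • (γ ((i : ℕ) + (j : ℕ)) l • (c i * c' j)) := by
        refine Finset.sum_congr rfl (fun i _ => Finset.sum_congr rfl (fun j _ => ?_))
        conv_lhs => rw [hγ ((i : ℕ) + (j : ℕ))]
        rw [Finset.sum_smul]
        exact Finset.sum_congr rfl (fun l _ => by rw [smul_smul, mul_comm])
    _ = ∑ i : Fin e, ∑ l : Fin e, ∑ j : Fin e, ϖ ^ (l : ℕ) • (γ ((i : ℕ) + (j : ℕ)) l • (c i * c' j)) :=
        Finset.sum_congr rfl (fun i _ => Finset.sum_comm)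
    _ = ∑ l : Fin e, ∑ i : Fin e, ∑ j : Fin e, ϖ ^ (l : ℕ) • (γ ((i : ℕ) + (j : ℕ)) l • (c i * c' j)) := Finset.sum_comm
    _ = ∑ l : Fin e, ϖ ^ (l : ℕ) • ∑ i : Fin e, ∑ j : Fin e, γ ((i : ℕ) + (j : ℕ)) l • (c i * c' j) := by
        refine Finset.sum_congr rfl (fun l _ => ?_)
        rw [Finset.smul_sum]
        exact Finset.sum_congr rfl (fun i _ => by rw [Finset.smul_sum])

theorem mul_mem_fixedFun {N : ℕ} {f g : laurentBaseChange Qb (modularFunctionFieldFull N)}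
    (hf : f ∈ fixedFun A N) (hg : g ∈ fixedFun A N) : f * g ∈ fixedFun A N := by
  intro σ hσ
  rw [smul_mul', hf σ hσ, hg σ hσ]

/-- **The truncated expansion map is multiplicative.**  Let `O'` be a subring containing `A` and
`ρ : O' →+* R` a ring homomorphism killing the constants of `𝔪_A` (e.g. `O_∞` with `redInf`,
`O_0` with `redZero`, `O` with `redPair`).  The product of two expansions with coefficients in
`F0 ∩ O'` is an expansion with coefficients `c''` in `F0 ∩ O'`, and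
`ρ (c'' l) = ∑_{i + j = l} ρ (c i) · ρ (c' j)`: the map `g ↦ ∑_l ρ(c_l) T^l` is multiplicative
modulo `T^e` (hence modulo `T^(t+1)` for every `t < e`). -/
theorem exists_mul_expansion {N : ℕ} {R : Type*} [CommRing R] (D : UnifDatum A q H ϖ e)
    (hq : q.Prime) (hA : A.LiesOverPrime q)
    (O' : Subring (laurentBaseChange Qb (modularFunctionFieldFull N)))
    (hO' : ∀ a ∈ A, algebraMap Qb (laurentBaseChange Qb (modularFunctionFieldFull N)) a ∈ O')
    (ρ : O' →+* R)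
    (hρ : ∀ (a : Qb) (ha : a ∈ A), A.valuation a < 1 → ρ ⟨_, hO' a ha⟩ = 0)
    {c c' : Fin e → laurentBaseChange Qb (modularFunctionFieldFull N)}
    (hc : ∀ i, c i ∈ fixedFun A N) (hc' : ∀ i, c' i ∈ fixedFun A N)
    (hcO : ∀ i, c i ∈ O') (hc'O : ∀ i, c' i ∈ O') :
    ∃ c'' : Fin e → laurentBaseChange Qb (modularFunctionFieldFull N),
      (∀ l, c'' l ∈ fixedFun A N) ∧ ∃ hO : ∀ l, c'' l ∈ O',
        (∑ i : Fin e, ϖ ^ (i : ℕ) • c i) * (∑ j : Fin e, ϖ ^ (j : ℕ) • c' j) = ∑ l : Fin e, ϖ ^ (l : ℕ) • c'' l ∧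
        ∀ l : Fin e, ρ ⟨c'' l, hO l⟩ =
          ∑ i : Fin e, ∑ j : Fin e, if (i : ℕ) + (j : ℕ) = (l : ℕ) then
            ρ ⟨c i, hcO i⟩ * ρ ⟨c' j, hc'O j⟩ else 0 := by
  classical
  obtain ⟨γ, hγK, hγ, hγlt, hγge⟩ := D.exists_pow_coeffs hq hA
  have hq0 : (q : Qb) ≠ 0 := Nat.cast_ne_zero.2 hq.ne_zero
  have hvq : A.valuation (q : Qb) < 1 := A.mem_nonunits_iff.mp hA
  have hγA : ∀ n l, γ n l ∈ A := by
    intro n l
    rcases lt_or_ge n e with hn | hn
    · rw [hγlt n l hn]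
      split_ifs
      · exact A.one_mem
      · exact A.zero_mem
    · have h1 : γ n l = (q : Qb) * (γ n l / (q : Qb)) := by rw [mul_div_cancel₀ _ hq0]
      rw [h1]
      exact A.mul_mem _ _ ((A.valuation_le_one_iff _).1 hvq.le) (hγge n l hn)
  have hγsmall : ∀ n l, e ≤ n → A.valuation (γ n l) < 1 := by
    intro n l hn
    have h1 : γ n l = (q : Qb) * (γ n l / (q : Qb)) := by rw [mul_div_cancel₀ _ hq0]
    rw [h1, map_mul]
    calc A.valuation (q : Qb) * A.valuation (γ n l / (q : Qb)) ≤ A.valuation (q : Qb) * 1 :=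
          mul_le_mul' le_rfl ((A.valuation_le_one_iff _).2 (hγge n l hn))
      _ = A.valuation (q : Qb) := mul_one _
      _ < 1 := hvq
  have hterm : ∀ (l i j : Fin e), γ ((i : ℕ) + (j : ℕ)) l • (c i * c' j) ∈ O' := by
    intro l i j
    rw [Algebra.smul_def]
    exact O'.mul_mem (hO' _ (hγA _ _)) (O'.mul_mem (hcO i) (hc'O j))
  have hO : ∀ l, ∑ i : Fin e, ∑ j : Fin e, γ ((i : ℕ) + (j : ℕ)) l • (c i * c' j) ∈ O' :=
    fun l => O'.sum_mem (fun i _ => O'.sum_mem (fun j _ => hterm l i j))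
  refine ⟨fun l => ∑ i : Fin e, ∑ j : Fin e, γ ((i : ℕ) + (j : ℕ)) l • (c i * c' j), fun l => ?_, hO,
    mul_expansion hγ c c', fun l => ?_⟩
  · exact (fixedFun A N).sum_mem (fun i _ => (fixedFun A N).sum_mem (fun j _ =>
      smul_mem_fixedFun (hγK _ _) (mul_mem_fixedFun (hc i) (hc' j))))
  · have e1 : (⟨∑ i : Fin e, ∑ j : Fin e, γ ((i : ℕ) + (j : ℕ)) l • (c i * c' j), hO l⟩ : O') =
        ∑ i : Fin e, ∑ j : Fin e, (⟨_, hO' _ (hγA ((i : ℕ) + (j : ℕ)) l)⟩ : O') *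
          (⟨c i, hcO i⟩ * ⟨c' j, hc'O j⟩) := by
      apply Subtype.ext
      show ∑ i : Fin e, ∑ j : Fin e, γ ((i : ℕ) + (j : ℕ)) l • (c i * c' j) =
        ((∑ i : Fin e, ∑ j : Fin e, (⟨_, hO' _ (hγA ((i : ℕ) + (j : ℕ)) l)⟩ : O') *
          (⟨c i, hcO i⟩ * ⟨c' j, hc'O j⟩) : O') :
            laurentBaseChange Qb (modularFunctionFieldFull N))
      rw [AddSubmonoidClass.coe_finsetSum]
      refine Finset.sum_congr rfl (fun i _ => ?_)
      rw [AddSubmonoidClass.coe_finsetSum]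
      refine Finset.sum_congr rfl (fun j _ => ?_)
      rw [Algebra.smul_def]
      rfl
    rw [e1, map_sum]
    refine Finset.sum_congr rfl (fun i _ => ?_)
    rw [map_sum]
    refine Finset.sum_congr rfl (fun j _ => ?_)
    rw [map_mul, map_mul]
    rcases lt_or_ge ((i : ℕ) + (j : ℕ)) e with hn | hn
    · by_cases hl : (i : ℕ) + (j : ℕ) = (l : ℕ)
      · rw [if_pos hl]
        have h1 : (⟨_, hO' _ (hγA ((i : ℕ) + (j : ℕ)) l)⟩ : O') = 1 := by
          apply Subtype.ext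
          show algebraMap Qb _ (γ ((i : ℕ) + (j : ℕ)) l) = 1
          rw [hγlt _ l hn, if_pos hl.symm, map_one]
        rw [h1, map_one, one_mul]
      · rw [if_neg hl]
        have h1 : (⟨_, hO' _ (hγA ((i : ℕ) + (j : ℕ)) l)⟩ : O') = 0 := by
          apply Subtype.ext
          show algebraMap Qb _ (γ ((i : ℕ) + (j : ℕ)) l) = 0
          rw [hγlt _ l hn, if_neg (fun h' => hl h'.symm), map_zero]
        rw [h1, map_zero, zero_mul]
    · have hl : (i : ℕ) + (j : ℕ) ≠ (l : ℕ) := fun h' => absurd l.2 (not_lt.2 (h' ▸ hn))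
      rw [if_neg hl, hρ _ (hγA _ l) (hγsmall _ l hn), zero_mul]

/-- Multiplicativity of the truncated expansion map at `∞` (`ρ = redInf`). -/
theorem exists_mul_expansion_OInf (hq : q.Prime) (hA : A.LiesOverPrime q) (h : BadSetup A π M q)
    (D : UnifDatum A q H ϖ e)
    {c c' : Fin e → laurentBaseChange Qb (modularFunctionFieldFull (M * q))}
    (hc : ∀ i, c i ∈ fixedFun A (M * q)) (hc' : ∀ i, c' i ∈ fixedFun A (M * q))
    (hcO : ∀ i, c i ∈ OInf h) (hc'O : ∀ i, c' i ∈ OInf h) :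
    ∃ c'' : Fin e → laurentBaseChange Qb (modularFunctionFieldFull (M * q)),
      (∀ l, c'' l ∈ fixedFun A (M * q)) ∧ ∃ hO : ∀ l, c'' l ∈ OInf h,
        (∑ i : Fin e, ϖ ^ (i : ℕ) • c i) * (∑ j : Fin e, ϖ ^ (j : ℕ) • c' j) = ∑ l : Fin e, ϖ ^ (l : ℕ) • c'' l ∧
        ∀ l : Fin e, redInf h ⟨c'' l, hO l⟩ =
          ∑ i : Fin e, ∑ j : Fin e, if (i : ℕ) + (j : ℕ) = (l : ℕ) then
            redInf h ⟨c i, hcO i⟩ * redInf h ⟨c' j, hc'O j⟩ else 0 := by
  obtain ⟨c'', h1, hO, h2, h3⟩ := exists_mul_expansion D hq hA (OInf h).toSubring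
    (fun a ha => (algebraMap_mem_OInf_iff h a).2 ha)
    ((redInf h).comp (((OInf h).toSubring.subtype).codRestrict (OInf h) (fun f => f.2)))
    (fun a ha hv => by
      show redInf h ⟨_, (algebraMap_mem_OInf_iff h a).2 ha⟩ = 0
      rw [redInf_algebraMap h ⟨a, ha⟩, (h.pi_eq_zero_iff ⟨a, ha⟩).2 hv, map_zero])
    hc hc' hcO hc'O
  exact ⟨c'', h1, hO, h2, h3⟩

/-- Multiplicativity of the truncated expansion map at `0` (`ρ = redZero`). -/
theorem exists_mul_expansion_OZero (hq : q.Prime) (hA : A.LiesOverPrime q)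
    (h : BadSetup A π M q) (D : UnifDatum A q H ϖ e)
    {c c' : Fin e → laurentBaseChange Qb (modularFunctionFieldFull (M * q))}
    (hc : ∀ i, c i ∈ fixedFun A (M * q)) (hc' : ∀ i, c' i ∈ fixedFun A (M * q))
    (hcO : ∀ i, c i ∈ OZero h W) (hc'O : ∀ i, c' i ∈ OZero h W) :
    ∃ c'' : Fin e → laurentBaseChange Qb (modularFunctionFieldFull (M * q)),
      (∀ l, c'' l ∈ fixedFun A (M * q)) ∧ ∃ hO : ∀ l, c'' l ∈ OZero h W,
        (∑ i : Fin e, ϖ ^ (i : ℕ) • c i) * (∑ j : Fin e, ϖ ^ (j : ℕ) • c' j) = ∑ l : Fin e, ϖ ^ (l : ℕ) • c'' l ∧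
        ∀ l : Fin e, redZero h W ⟨c'' l, hO l⟩ =
          ∑ i : Fin e, ∑ j : Fin e, if (i : ℕ) + (j : ℕ) = (l : ℕ) then
            redZero h W ⟨c i, hcO i⟩ * redZero h W ⟨c' j, hc'O j⟩ else 0 := by
  obtain ⟨c'', h1, hO, h2, h3⟩ := exists_mul_expansion D hq hA (OZero h W).toSubring
    (fun a ha => (algebraMap_mem_OZero_iff h a).2 ha)
    ((redZero h W).comp (((OZero h W).toSubring.subtype).codRestrict (OZero h W) (fun f => f.2)))
    (fun a ha hv => by
      show redZero h W ⟨_, (algebraMap_mem_OZero_iff h a).2 ha⟩ = 0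
      rw [redZero_algebraMap h ⟨a, ha⟩, (h.pi_eq_zero_iff ⟨a, ha⟩).2 hv, map_zero])
    hc hc' hcO hc'O
  exact ⟨c'', h1, hO, h2, h3⟩

/-- Multiplicativity of the truncated expansion map for the pair (`ρ = redPair`). -/
theorem exists_mul_expansion_OPair (hq : q.Prime) (hA : A.LiesOverPrime q)
    (h : BadSetup A π M q) (D : UnifDatum A q H ϖ e)
    {c c' : Fin e → laurentBaseChange Qb (modularFunctionFieldFull (M * q))}
    (hc : ∀ i, c i ∈ fixedFun A (M * q)) (hc' : ∀ i, c' i ∈ fixedFun A (M * q))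
    (hcO : ∀ i, c i ∈ OPair h W) (hc'O : ∀ i, c' i ∈ OPair h W) :
    ∃ c'' : Fin e → laurentBaseChange Qb (modularFunctionFieldFull (M * q)),
      (∀ l, c'' l ∈ fixedFun A (M * q)) ∧ ∃ hO : ∀ l, c'' l ∈ OPair h W,
        (∑ i : Fin e, ϖ ^ (i : ℕ) • c i) * (∑ j : Fin e, ϖ ^ (j : ℕ) • c' j) = ∑ l : Fin e, ϖ ^ (l : ℕ) • c'' l ∧
        ∀ l : Fin e, redPair h W ⟨c'' l, hO l⟩ =
          ∑ i : Fin e, ∑ j : Fin e, if (i : ℕ) + (j : ℕ) = (l : ℕ) then
            redPair h W ⟨c i, hcO i⟩ * redPair h W ⟨c' j, hc'O j⟩ else 0 :=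
  exists_mul_expansion D hq hA (OPair h W) (fun a ha => (OPair_hOA h a).2 ha) (redPair h W)
    (fun a ha hv => by
      rw [redPair_algebraMap h ⟨a, ha⟩, (h.pi_eq_zero_iff ⟨a, ha⟩).2 hv, map_zero]
      rfl)
    hc hc' hcO hc'O

/-! ### Truncation: divisibility by `ϖ ^ (t + 1)` is read off on the first `t + 1` coefficients -/

/-- The value group of `O_∞` on inertia-fixed functions is generated by `v(ϖ)^e = v(q)`. -/
theorem valuation_fixedFun_OInf (hq : q.Prime) (hA : A.LiesOverPrime q) (h : BadSetup A π M q)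
    (D : UnifDatum A q H ϖ e)
    {f : laurentBaseChange Qb (modularFunctionFieldFull (M * q))}
    (hf : f ∈ fixedFun A (M * q)) :
    (OInf h).valuation f = 0 ∨ ∃ n : ℤ, (OInf h).valuation f =
      (OInf h).valuation
        (algebraMap Qb (laurentBaseChange Qb (modularFunctionFieldFull (M * q))) ϖ) ^
          ((e : ℤ) * n) := by
  by_cases hf0 : f = 0
  · exact Or.inl (by rw [hf0, map_zero])
  obtain ⟨n, h1, h2⟩ := exists_zpow_scaling_OInf hq hA h hf hf0
  have hq0 : (q : Qb) ≠ 0 := Nat.cast_ne_zero.2 hq.ne_zero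
  refine Or.inr ⟨n, Fermat.Agent.TR.PL.BaseChangeAbs.valuation_eq_zpow_of_scaling (OInf h)
    ((map_ne_zero _).2 hq0) ((map_ne_zero _).2 (D.ne_zero hq hA)) ?_ ?_ h1 h2 hf0⟩
  · rw [← map_pow, ← map_div₀]
    exact (algebraMap_mem_OInf_iff h _).2 (D.pow_div_mem hq)
  · rw [← map_pow, ← map_div₀]
    exact (algebraMap_mem_OInf_iff h _).2 (D.div_pow_mem hq)

/-- **Truncation at `∞`.**  If an expansion with `I`-fixed coefficients is divisible in `O_∞` by a
constant `a` with `v(a) ≤ v(ϖ)^(t+1)`, then its coefficients `c i`, `i ≤ t`, are divisible by `q`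
in `O_∞`. -/
theorem coeff_dvd_of_sum_eq_OInf (hq : q.Prime) (hA : A.LiesOverPrime q) (h : BadSetup A π M q)
    (D : UnifDatum A q H ϖ e)
    {c : Fin e → laurentBaseChange Qb (modularFunctionFieldFull (M * q))}
    (hc : ∀ i, c i ∈ fixedFun A (M * q)) {t : ℕ} {a : Qb}
    (ha : A.valuation a ≤ A.valuation ϖ ^ (t + 1))
    {y : laurentBaseChange Qb (modularFunctionFieldFull (M * q))} (hy : y ∈ OInf h)
    (hg : ∑ i : Fin e, ϖ ^ (i : ℕ) • c i =
      algebraMap Qb (laurentBaseChange Qb (modularFunctionFieldFull (M * q))) a * y)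
    (i : Fin e) (hi : (i : ℕ) ≤ t) :
    ∃ z ∈ OInf h, c i =
      algebraMap Qb (laurentBaseChange Qb (modularFunctionFieldFull (M * q))) (q : Qb) * z := by
  have hq0 : (q : Qb) ≠ 0 := Nat.cast_ne_zero.2 hq.ne_zero
  have hϖ0 : ϖ ≠ 0 := D.ne_zero hq hA
  have hPi0 : algebraMap Qb (laurentBaseChange Qb (modularFunctionFieldFull (M * q))) ϖ ≠ 0 :=
    (map_ne_zero _).2 hϖ0
  have hQ0 : algebraMap Qb (laurentBaseChange Qb (modularFunctionFieldFull (M * q))) (q : Qb) ≠ 0 :=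
    (map_ne_zero _).2 hq0
  have hvPi0 : (OInf h).valuation
      (algebraMap Qb (laurentBaseChange Qb (modularFunctionFieldFull (M * q))) ϖ) ≠ 0 :=
    (Valuation.ne_zero_iff _).2 hPi0
  have hvPi1 := valuation_algebraMap_lt_one h (D.val_lt_one hA)
  have e1 : ∑ i : Fin e, ϖ ^ (i : ℕ) • c i = ∑ i, c i *
      algebraMap Qb (laurentBaseChange Qb (modularFunctionFieldFull (M * q))) ϖ ^ (i : ℕ) :=
    Finset.sum_congr rfl (fun i _ => by rw [Algebra.smul_def, map_pow, mul_comm _ (c i)])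
  have ha' : a / ϖ ^ (t + 1) ∈ A := by
    rw [← A.valuation_le_one_iff, map_div₀, map_pow,
      div_le_one₀ (pow_pos (zero_lt_iff.2 ((Valuation.ne_zero_iff _).2 hϖ0)) _)]
    exact ha
  have h3 : (OInf h).valuation
      (algebraMap Qb (laurentBaseChange Qb (modularFunctionFieldFull (M * q))) a) ≤
      (OInf h).valuation
        (algebraMap Qb (laurentBaseChange Qb (modularFunctionFieldFull (M * q))) ϖ) ^ (t + 1) := by
    have h4 := ((OInf h).valuation_le_one_iff _).2 ((algebraMap_mem_OInf_iff h _).2 ha')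
    rw [map_div₀, map_pow, map_div₀, map_pow,
      div_le_one₀ (pow_pos (zero_lt_iff.2 hvPi0) _)] at h4
    exact h4
  have hsum : (OInf h).valuation (∑ i, c i *
      algebraMap Qb (laurentBaseChange Qb (modularFunctionFieldFull (M * q))) ϖ ^ (i : ℕ)) ≤
      (OInf h).valuation
        (algebraMap Qb (laurentBaseChange Qb (modularFunctionFieldFull (M * q))) ϖ) ^ (t + 1) := by
    rw [← e1, hg, map_mul]
    calc (OInf h).valuation (algebraMap Qb _ a) * (OInf h).valuation y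
        ≤ (OInf h).valuation (algebraMap Qb
            (laurentBaseChange Qb (modularFunctionFieldFull (M * q))) ϖ) ^ (t + 1) * 1 :=
          mul_le_mul' h3 (((OInf h).valuation_le_one_iff _).2 hy)
      _ = _ := mul_one _
  have key := map_coeff_le_of_map_sum_le (OInf h).valuation hvPi0 hvPi1 c
    (fun i => valuation_fixedFun_OInf hq hA h D (hc i)) hsum i hi
  have hQ : (OInf h).valuation
      (algebraMap Qb (laurentBaseChange Qb (modularFunctionFieldFull (M * q))) ϖ) ^ e =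
      (OInf h).valuation
        (algebraMap Qb (laurentBaseChange Qb (modularFunctionFieldFull (M * q))) (q : Qb)) := by
    have h1 := ((OInf h).valuation_le_one_iff _).2
      ((algebraMap_mem_OInf_iff h _).2 (D.pow_div_mem hq))
    have h2 := ((OInf h).valuation_le_one_iff _).2
      ((algebraMap_mem_OInf_iff h _).2 (D.div_pow_mem hq))
    rw [map_div₀, map_pow, map_div₀, map_pow,
      div_le_one₀ (zero_lt_iff.2 ((Valuation.ne_zero_iff _).2 hQ0))] at h1
    rw [map_div₀, map_pow, map_div₀, map_pow,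
      div_le_one₀ (pow_pos (zero_lt_iff.2 hvPi0) _)] at h2
    exact le_antisymm h1 h2
  refine ⟨c i / algebraMap Qb _ (q : Qb), ?_, by rw [mul_div_cancel₀ _ hQ0]⟩
  rw [← (OInf h).valuation_le_one_iff, map_div₀,
    div_le_one₀ (zero_lt_iff.2 ((Valuation.ne_zero_iff _).2 hQ0)), ← hQ]
  exact key

/-- **Truncation at `∞`, residue form**: the reductions of the coefficients `c i`, `i ≤ t`, of an
expansion divisible by `ϖ ^ (t + 1)` vanish. -/
theorem redInf_coeff_eq_zero_of_sum_eq (hq : q.Prime) (hA : A.LiesOverPrime q)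
    (h : BadSetup A π M q) (D : UnifDatum A q H ϖ e)
    {c : Fin e → laurentBaseChange Qb (modularFunctionFieldFull (M * q))}
    (hc : ∀ i, c i ∈ fixedFun A (M * q)) {t : ℕ} {a : Qb}
    (ha : A.valuation a ≤ A.valuation ϖ ^ (t + 1))
    {y : laurentBaseChange Qb (modularFunctionFieldFull (M * q))} (hy : y ∈ OInf h)
    (hg : ∑ i : Fin e, ϖ ^ (i : ℕ) • c i =
      algebraMap Qb (laurentBaseChange Qb (modularFunctionFieldFull (M * q))) a * y)
    (i : Fin e) (hi : (i : ℕ) ≤ t) (hcO : c i ∈ OInf h) : redInf h ⟨c i, hcO⟩ = 0 := by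
  obtain ⟨z, hz, hcz⟩ := coeff_dvd_of_sum_eq_OInf hq hA h D hc ha hy hg i hi
  have hvq : A.valuation (q : Qb) < 1 := A.mem_nonunits_iff.mp hA
  have hqA : (q : Qb) ∈ A := (A.valuation_le_one_iff _).1 hvq.le
  have hQO : algebraMap Qb (laurentBaseChange Qb (modularFunctionFieldFull (M * q))) (q : Qb) ∈
      OInf h := (algebraMap_mem_OInf_iff h _).2 hqA
  have e1 : redInf h ⟨c i, hcO⟩ = redInf h (⟨_, hQO⟩ * ⟨z, hz⟩) :=
    redInf_congr h hcz hcO ((OInf h).mul_mem _ _ hQO hz)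
  rw [e1, map_mul, redInf_algebraMap h ⟨(q : Qb), hqA⟩ hQO,
    (h.pi_eq_zero_iff ⟨(q : Qb), hqA⟩).2 hvq, map_zero, zero_mul]

/-- **The inertia acts trivially on truncated expansions (at `∞`).**  If `σ ∈ I` moves `ϖ` by
`v(σϖ − ϖ) ≤ v(ϖ)^(t+1)` and `σ • g` is again an expansion, the reductions of the first `t + 1`
coefficients of `σ • g` and of `g` agree. -/
theorem redInf_coeff_galois_eq (hq : q.Prime) (hA : A.LiesOverPrime q) (h : BadSetup A π M q)
    (D : UnifDatum A q H ϖ e) {σ : GQ} (hσ : σ ∈ A.inertiaSubgroupIn ℚ) {t : ℕ}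
    (hσϖ : A.valuation (σ ϖ - ϖ) ≤ A.valuation ϖ ^ (t + 1))
    {c c' : Fin e → laurentBaseChange Qb (modularFunctionFieldFull (M * q))}
    (hc : ∀ i, c i ∈ fixedFun A (M * q)) (hc' : ∀ i, c' i ∈ fixedFun A (M * q))
    (hcO : ∀ i, c i ∈ OInf h) (hc'O : ∀ i, c' i ∈ OInf h)
    (hσg : arithmeticGalois (modularFunctionFieldFull (M * q)) σ • (∑ i : Fin e, ϖ ^ (i : ℕ) • c i) =
      ∑ i : Fin e, ϖ ^ (i : ℕ) • c' i) (i : Fin e) (hi : (i : ℕ) ≤ t) :
    redInf h ⟨c' i, hc'O i⟩ = redInf h ⟨c i, hcO i⟩ := by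
  obtain ⟨y, hy, -, hyg⟩ := galois_sum_sub_mem (OInf h).toSubring
    (fun a ha => (algebraMap_mem_OInf_iff h a).2 ha) ⊤ hσ (D.mem hA) (fun i => hc i σ hσ) hcO
    (fun _ => Submodule.mem_top)
  have hsub : ∑ i : Fin e, ϖ ^ (i : ℕ) • (c' i - c i) =
      algebraMap Qb (laurentBaseChange Qb (modularFunctionFieldFull (M * q))) (σ ϖ - ϖ) * y := by
    rw [← hyg, hσg, ← Finset.sum_sub_distrib]
    exact Finset.sum_congr rfl (fun i _ => smul_sub _ _ _)
  have h0 := redInf_coeff_eq_zero_of_sum_eq hq hA h D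
    (fun i => (fixedFun A (M * q)).sub_mem (hc' i) (hc i)) hσϖ hy hsub i hi
    (sub_mem (hc'O i) (hcO i))
  have e1 : (⟨c' i - c i, sub_mem (hc'O i) (hcO i)⟩ : OInf h) =
      ⟨c' i, hc'O i⟩ - ⟨c i, hcO i⟩ := rfl
  rw [e1, map_sub, sub_eq_zero] at h0
  exact h0

/-- **Chart lattices, multiplier form**: if `t₀` is `I`-fixed and `t₀ · g` lies in the chart
lattice `L(B) ∩ O` (`B` inertia-invariant) for an expansion `g = ∑ ϖ^i • c i`, then every
`t₀ · c i` lies in `L(B) ∩ O` (the node rings satisfy `R_Q'' = R_Q[ϖ]` coefficientwise). -/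
theorem mul_coeff_mem_rr (hq : q.Prime) (hA : A.LiesOverPrime q) (h : BadSetup A π M q)
    (hW : IsAL M q W) (D : UnifDatum A q H ϖ e)
    (B : Divisor Qb (laurentBaseChange Qb (modularFunctionFieldFull (M * q))))
    (hB : ∀ σ ∈ A.inertiaSubgroupIn ℚ,
      arithmeticGalois (modularFunctionFieldFull (M * q)) σ • B = B)
    {t₀ : laurentBaseChange Qb (modularFunctionFieldFull (M * q))}
    (ht₀ : t₀ ∈ fixedFun A (M * q))
    {c : Fin e → laurentBaseChange Qb (modularFunctionFieldFull (M * q))}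
    (hc : ∀ i, c i ∈ fixedFun A (M * q))
    (hB' : t₀ * ∑ i : Fin e, ϖ ^ (i : ℕ) • c i ∈ riemannRochSpace B)
    (hO : t₀ * ∑ i : Fin e, ϖ ^ (i : ℕ) • c i ∈ OPair h W) (i : Fin e) :
    t₀ * c i ∈ riemannRochSpace B ∧ t₀ * c i ∈ OPair h W := by
  have e1 : t₀ * ∑ i : Fin e, ϖ ^ (i : ℕ) • c i = ∑ i : Fin e, ϖ ^ (i : ℕ) • (t₀ * c i) := by
    rw [Finset.mul_sum]
    exact Finset.sum_congr rfl (fun i _ => by rw [mul_smul_comm])
  have hfix : ∀ i, t₀ * c i ∈ fixedFun A (M * q) := fun i => mul_mem_fixedFun ht₀ (hc i)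
  rw [e1] at hB' hO
  obtain ⟨d, hd, hdB, hdO, hde⟩ := exists_expansion_rr hq hA h hW D B hB hB'
    (sum_mem_fixedFunOf D hfix) hO
  have hcd : (fun i => t₀ * c i) = d := expansion_ext D hq hA hfix hd hde
  have hi : t₀ * c i = d i := congrFun hcd i
  rw [hi]
  exact ⟨hdB i, hdO i⟩

end

end Fermat.Agent.TR.PL.BaseChange
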