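/-
TR / (PL), bricks PL-A and PL-B, engine (helper37) — finite extensions of the inertia field
`K0 = ℚ̄^I` are totally ramified with an INTEGRAL power basis, and the wild congruences.

`A` a valuation subring of `ℚ̄` over the prime `q`, `K0 A = ℚ̄^I`, `K1` a finite extension of `K0`
inside `ℚ̄` (in (PL): `K1 = K'' = K0(V)`), `W1 = A ∩ K1`.

* `IsUnifOf A q K1 e ϖ` : `ϖ ∈ K1`, `|ϖ|^e = |q|`, `K1 = ⊕_{i<e} K0·ϖ^i`;
* `exists_isUnifOf` : such `(e, ϖ)` exist, with `e` conjugates of `ϖ` under the inertia group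
  (from `CAR.LiftK0.TotRam`);
* ORTHOGONALITY `IsUnifOf.le_valuation_sum` : `|a_i ϖ^i| ≤ |∑_j a_j ϖ^j|` for `a_j ∈ K0`; hence
  `IsUnifOf.coord_mem` (`W1 = W0[ϖ]`: integral elements have integral coordinates),
  `IsUnifOf.exists_zpow_eq` (`|c| = |ϖ|^n` for `c ∈ K1ˣ`), `IsUnifOf.coord_valuation_le`;
* WILD CONGRUENCES for `τ ∈ I` with `τ ϖ = ϖ (1 + η)`, `|η| ≤ |ϖ|^t`:
  `IsUnifOf.valuation_apply_sub_le` : `|τ c − c| ≤ |ϖ|^(t+1)` for `c ∈ W1`;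
  `IsUnifOf.valuation_apply_div_sub_zpow_le` : `|τ c / c − (1 + η)^n| ≤ |ϖ|^(t+1)` for `|c| = |ϖ|^n`;
  `IsUnifOf.valuation_apply_div_sub_le` : `|τ c / c − (1 + n η)| ≤ |ϖ|^(t+1)` (for `1 ≤ t`).
-/
import Mathlib
import Fermat.Agent.CAR.LiftK0.TotRam

set_option autoImplicit false
set_option linter.unusedSectionVars false

namespace Fermat.Agent.TR.PL.TotRam

open Fermat.Agent.CAR.K0 Fermat.Agent.CAR.LiftK0

local notation "Qb" => AlgebraicClosure ℚ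
local notation "GQ" => (AlgebraicClosure ℚ ≃ₐ[ℚ] AlgebraicClosure ℚ)

/-- `ϖ` is a uniformiser of the finite extension `K1` of `K0`, of ramification index `e`:
`ϖ ∈ K1`, `|ϖ|^e = |q|` and `K1 = ⊕_{i<e} K0·ϖ^i`. -/
structure IsUnifOf (A : ValuationSubring Qb) (q : ℕ) (K1 : IntermediateField (K0 A) Qb)
    (e : ℕ) (ϖ : Qb) : Prop where
  pos : 0 < e
  mem : ϖ ∈ K1
  ne_zero : ϖ ≠ 0
  lt_one : A.valuation ϖ < 1
  pow_eq : A.valuation ϖ ^ e = A.valuation (q : Qb)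
  repr : ∀ c : Qb, c ∈ K1 → ∃ a : Fin e → Qb, (∀ i, a i ∈ K0 A) ∧ c = ∑ i, a i * ϖ ^ (i : ℕ)

variable {q : ℕ} {A : ValuationSubring Qb}

/-- **Finite extensions of `K0` inside `ℚ̄` are totally ramified with a power basis**; the
uniformiser has `e` distinct conjugates under the inertia group. -/
theorem exists_isUnifOf (hq : q.Prime) (hA : A.LiesOverPrime q)
    (K1 : IntermediateField (K0 A) Qb) [FiniteDimensional (K0 A) K1] :
    ∃ (e : ℕ) (ϖ : Qb) (σ : Fin e → GQ), IsUnifOf A q K1 e ϖ ∧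
      (∀ j, σ j ∈ A.inertiaSubgroupIn ℚ) ∧ Function.Injective (fun j => σ j ϖ) := by
  have hq0 : (q : Qb) ≠ 0 := Nat.cast_ne_zero.mpr hq.ne_zero
  obtain ⟨ϖ, hϖK, hϖ0, hϖ1, hU⟩ := exists_uniformizer hq hA K1
  obtain ⟨e, he0, he⟩ := hU q (natCast_mem K1 q) hq0 (valuation_q_lt_one hq hA)
  have hUP : ∀ x : Qb, x ∈ K1 → x ≠ 0 → A.valuation x < 1 → A.valuation x ≤ A.valuation ϖ := by
    intro x hx hx0 hx1
    obtain ⟨j, hj0, hj⟩ := hU x hx hx0 hx1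
    rw [hj]
    exact pow_le_of_le_one zero_le hϖ1.le hj0.ne'
  obtain ⟨σ, hσ, hinj⟩ := exists_conjugates A ϖ e (le_natDegree_minpoly hq hA hϖ0 hϖ1 e he.symm)
  exact ⟨e, ϖ, σ, ⟨he0, hϖK, hϖ0, hϖ1, he.symm,
    fun c hc => exists_repr hq hA K1 hϖK hϖ0 hUP e he.symm c hc⟩, hσ, hinj⟩

namespace IsUnifOf

variable {K1 : IntermediateField (K0 A) Qb} {e : ℕ} {ϖ : Qb}

theorem valuation_ne_zero (h : IsUnifOf A q K1 e ϖ) : A.valuation ϖ ≠ 0 :=
  (Valuation.ne_zero_iff _).mpr h.ne_zero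

theorem valuation_pos (h : IsUnifOf A q K1 e ϖ) : 0 < A.valuation ϖ :=
  zero_lt_iff.mpr h.valuation_ne_zero

theorem mem_A (h : IsUnifOf A q K1 e ϖ) : ϖ ∈ A := (A.valuation_le_one_iff ϖ).mp h.lt_one.le

/-- `|ϖ|^m < |ϖ|^n` iff `n < m`. -/
theorem zpow_lt_zpow_iff (h : IsUnifOf A q K1 e ϖ) {m n : ℤ} :
    A.valuation ϖ ^ m < A.valuation ϖ ^ n ↔ n < m :=
  zpow_lt_zpow_iff_right_of_lt_one₀ h.valuation_pos h.lt_one

theorem zpow_le_zpow_iff (h : IsUnifOf A q K1 e ϖ) {m n : ℤ} :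
    A.valuation ϖ ^ m ≤ A.valuation ϖ ^ n ↔ n ≤ m :=
  zpow_le_zpow_iff_right_of_lt_one₀ h.valuation_pos h.lt_one

theorem zpow_injective (h : IsUnifOf A q K1 e ϖ) {m n : ℤ}
    (hmn : A.valuation ϖ ^ m = A.valuation ϖ ^ n) : m = n :=
  le_antisymm (h.zpow_le_zpow_iff.mp hmn.ge) (h.zpow_le_zpow_iff.mp hmn.le)

/-- The value group of `K0` is generated by `|q| = |ϖ|^e`. -/
theorem valuation_K0_eq (hq : q.Prime) (hA : A.LiesOverPrime q) (h : IsUnifOf A q K1 e ϖ)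
    {a : Qb} (ha : a ∈ K0 A) (ha0 : a ≠ 0) :
    ∃ m : ℤ, A.valuation a = A.valuation ϖ ^ ((e : ℤ) * m) := by
  obtain ⟨m, hm⟩ := exists_zpow_valuation_eq hq hA (⟨a, ha⟩ : K0 A)
    (fun h0 => ha0 (congrArg Subtype.val h0))
  refine ⟨m, ?_⟩
  have h1 : A.valuation a = A.valuation (q : Qb) ^ m := by
    rw [← map_zpow₀]
    exact hm
  rw [h1, ← h.pow_eq, zpow_mul, zpow_natCast]

/-- The valuation of a nonzero term `a ϖ^i`, `a ∈ K0`. -/
theorem valuation_term_eq (hq : q.Prime) (hA : A.LiesOverPrime q) (h : IsUnifOf A q K1 e ϖ)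
    {a : Qb} (ha : a ∈ K0 A) (ha0 : a ≠ 0) (i : ℕ) :
    ∃ m : ℤ, A.valuation a = A.valuation ϖ ^ ((e : ℤ) * m) ∧
      A.valuation (a * ϖ ^ i) = A.valuation ϖ ^ ((e : ℤ) * m + i) := by
  obtain ⟨m, hm⟩ := h.valuation_K0_eq hq hA ha ha0
  refine ⟨m, hm, ?_⟩
  rw [map_mul, map_pow, hm, zpow_add₀ h.valuation_ne_zero, zpow_natCast]

/-- **Orthogonality of the power basis** (main form): a nonzero `∑ a_j ϖ^j` (`a_j ∈ K0`) has the
valuation of ONE of its terms, and dominates all of them. -/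
theorem exists_term (hq : q.Prime) (hA : A.LiesOverPrime q) (h : IsUnifOf A q K1 e ϖ)
    (a : Fin e → Qb) (ha : ∀ i, a i ∈ K0 A) (hne : ∃ i, a i ≠ 0) :
    ∃ (i₀ : Fin e) (m : ℤ), a i₀ ≠ 0 ∧
      A.valuation (∑ j, a j * ϖ ^ (j : ℕ)) = A.valuation ϖ ^ ((e : ℤ) * m + (i₀ : ℕ)) ∧
      ∀ i, A.valuation (a i * ϖ ^ (i : ℕ)) ≤ A.valuation (∑ j, a j * ϖ ^ (j : ℕ)) := by
  classical
  have hnf : ∀ i : Fin e, a i ≠ 0 → ∃ m : ℤ,
      A.valuation (a i * ϖ ^ (i : ℕ)) = A.valuation ϖ ^ ((e : ℤ) * m + (i : ℕ)) := by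
    intro i hi
    obtain ⟨m, -, h2⟩ := h.valuation_term_eq hq hA (ha i) hi (i : ℕ)
    exact ⟨m, h2⟩
  choose! n hn using hnf
  obtain ⟨i1, hi1⟩ := hne
  obtain ⟨i0, hi0S, hmin⟩ := (Finset.univ.filter (fun i => a i ≠ 0)).exists_min_image
    (fun i => (e : ℤ) * n i + (i : ℕ)) ⟨i1, by simp [hi1]⟩
  have hi0 : a i0 ≠ 0 := (Finset.mem_filter.mp hi0S).2
  have hgt : ∀ i, a i ≠ 0 → i ≠ i0 →
      (e : ℤ) * n i0 + (i0 : ℕ) < (e : ℤ) * n i + (i : ℕ) := by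
    intro i hi hne
    rcases lt_or_eq_of_le (hmin i (by simp [hi])) with h' | h'
    · exact h'
    · exfalso
      have hi0e : ((i0 : ℕ) : ℤ) < e := by exact_mod_cast i0.2
      have hie : ((i : ℕ) : ℤ) < e := by exact_mod_cast i.2
      have h2 : (e : ℤ) * (n i0 - n i) = (i : ℕ) - (i0 : ℕ) := by
        have h2' : (e : ℤ) * n i0 + (i0 : ℕ) = (e : ℤ) * n i + (i : ℕ) := h'
        linarith
      have h3 : n i0 - n i = 0 := by
        by_contra hne0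
        have h4 : (e : ℤ) ≤ |(e : ℤ) * (n i0 - n i)| := by
          rw [abs_mul, abs_of_nonneg (by positivity : (0 : ℤ) ≤ e)]
          exact le_mul_of_one_le_right (by positivity) (Int.one_le_abs hne0)
        rw [h2] at h4
        have h5 : |(((i : ℕ) : ℤ)) - ((i0 : ℕ) : ℤ)| < e := by
          rw [abs_lt]
          constructor <;> omega
        omega
      rw [h3, mul_zero] at h2
      exact hne (Fin.ext (by omega))
  have hterm0 : A.valuation (a i0 * ϖ ^ (i0 : ℕ)) ≠ 0 :=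
    (Valuation.ne_zero_iff _).mpr (mul_ne_zero hi0 (pow_ne_zero _ h.ne_zero))
  have hlt : ∀ i ∈ Finset.univ.erase i0,
      A.valuation (a i * ϖ ^ (i : ℕ)) < A.valuation (a i0 * ϖ ^ (i0 : ℕ)) := by
    intro i hi
    have hne : i ≠ i0 := (Finset.mem_erase.mp hi).1
    rcases eq_or_ne (a i) 0 with h0 | h0
    · rw [h0, zero_mul, map_zero]
      exact zero_lt_iff.mpr hterm0
    · rw [hn i h0, hn i0 hi0]
      exact h.zpow_lt_zpow_iff.mpr (hgt i h0 hne)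
  have hrest : A.valuation (∑ i ∈ Finset.univ.erase i0, a i * ϖ ^ (i : ℕ))
      < A.valuation (a i0 * ϖ ^ (i0 : ℕ)) := Valuation.map_sum_lt _ hterm0 hlt
  have hsum : A.valuation (∑ j, a j * ϖ ^ (j : ℕ)) = A.valuation (a i0 * ϖ ^ (i0 : ℕ)) := by
    rw [← Finset.add_sum_erase Finset.univ _ (Finset.mem_univ i0)]
    exact Valuation.map_add_eq_of_lt_left _ hrest
  refine ⟨i0, n i0, hi0, by rw [hsum, hn i0 hi0], fun i => ?_⟩
  rw [hsum]
  rcases eq_or_ne i i0 with rfl | hne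
  · exact le_rfl
  · exact (hlt i (Finset.mem_erase.mpr ⟨hne, Finset.mem_univ i⟩)).le

/-- **Orthogonality**: every term is dominated by the sum. -/
theorem le_valuation_sum (hq : q.Prime) (hA : A.LiesOverPrime q) (h : IsUnifOf A q K1 e ϖ)
    (a : Fin e → Qb) (ha : ∀ i, a i ∈ K0 A) (i : Fin e) :
    A.valuation (a i * ϖ ^ (i : ℕ)) ≤ A.valuation (∑ j, a j * ϖ ^ (j : ℕ)) := by
  by_cases hne : ∃ i, a i ≠ 0
  · obtain ⟨_, _, _, _, h3⟩ := h.exists_term hq hA a ha hne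
    exact h3 i
  · push Not at hne
    rw [hne i, zero_mul, map_zero]
    exact zero_le

/-- **`W1 = W0[ϖ]`**: the coordinates of an integral element are integral. -/
theorem coord_mem (hq : q.Prime) (hA : A.LiesOverPrime q) (h : IsUnifOf A q K1 e ϖ)
    (a : Fin e → Qb) (ha : ∀ i, a i ∈ K0 A) (hc : ∑ j, a j * ϖ ^ (j : ℕ) ∈ A) (i : Fin e) :
    a i ∈ A := by
  rcases eq_or_ne (a i) 0 with h0 | h0
  · rw [h0]
    exact zero_mem _
  · obtain ⟨m, hm, hm2⟩ := h.valuation_term_eq hq hA (ha i) h0 (i : ℕ)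
    have h1 : A.valuation (a i * ϖ ^ (i : ℕ)) ≤ 1 :=
      (h.le_valuation_sum hq hA a ha i).trans ((A.valuation_le_one_iff _).mpr hc)
    rw [hm2, ← zpow_zero (A.valuation ϖ), h.zpow_le_zpow_iff] at h1
    have hie : ((i : ℕ) : ℤ) < e := by exact_mod_cast i.2
    have hm0 : 0 ≤ m := by
      by_contra hcon
      have h2 : (e : ℤ) * m ≤ (e : ℤ) * (-1) :=
        mul_le_mul_of_nonneg_left (by omega) (by positivity)
      omega
    rw [← A.valuation_le_one_iff, hm, ← zpow_zero (A.valuation ϖ), h.zpow_le_zpow_iff]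
    positivity

/-- Integral power basis: `c ∈ A ∩ K1` is `∑ a_i ϖ^i` with `a_i ∈ A ∩ K0`. -/
theorem repr_int (hq : q.Prime) (hA : A.LiesOverPrime q) (h : IsUnifOf A q K1 e ϖ)
    {c : Qb} (hc : c ∈ K1) (hcA : c ∈ A) :
    ∃ a : Fin e → Qb, (∀ i, a i ∈ K0 A) ∧ (∀ i, a i ∈ A) ∧ c = ∑ i, a i * ϖ ^ (i : ℕ) := by
  obtain ⟨a, ha, rfl⟩ := h.repr c hc
  exact ⟨a, ha, fun i => h.coord_mem hq hA a ha hcA i, rfl⟩

/-- The value group of `K1` is generated by `|ϖ|`. -/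
theorem exists_zpow_eq (hq : q.Prime) (hA : A.LiesOverPrime q) (h : IsUnifOf A q K1 e ϖ)
    {c : Qb} (hc : c ∈ K1) (hc0 : c ≠ 0) : ∃ n : ℤ, A.valuation c = A.valuation ϖ ^ n := by
  obtain ⟨a, ha, rfl⟩ := h.repr c hc
  have hne : ∃ i, a i ≠ 0 := by
    by_contra hcon
    push Not at hcon
    exact hc0 (by simp [hcon])
  obtain ⟨i0, m, _, h2, _⟩ := h.exists_term hq hA a ha hne
  exact ⟨_, h2⟩

/-- `c = ϖ^n · u` with `u` a unit of `A ∩ K1`. -/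
theorem exists_unit (h : IsUnifOf A q K1 e ϖ) {c : Qb} (hc : c ∈ K1) {n : ℤ}
    (hn : A.valuation c = A.valuation ϖ ^ n) :
    ∃ u : Qb, u ∈ K1 ∧ A.valuation u = 1 ∧ c = ϖ ^ n * u := by
  refine ⟨c / ϖ ^ n, div_mem hc (zpow_mem h.mem n), ?_, ?_⟩
  · rw [map_div₀, map_zpow₀, hn, div_self (zpow_ne_zero n h.valuation_ne_zero)]
  · rw [mul_div_cancel₀ _ (zpow_ne_zero n h.ne_zero)]

/-! ### The wild congruences -/

section Wild

variable {τ : GQ} {η : Qb}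

/-- `1 + η` is a unit when `τ ϖ = ϖ (1 + η)`, `τ ∈ I`. -/
theorem valuation_one_add (h : IsUnifOf A q K1 e ϖ) (hτ : τ ∈ A.inertiaSubgroupIn ℚ)
    (hη : τ ϖ = ϖ * (1 + η)) : A.valuation (1 + η) = 1 := by
  have h1 := valuation_inertia_apply A hτ ϖ
  rw [hη, map_mul] at h1
  exact mul_left_cancel₀ h.valuation_ne_zero (by rw [h1, mul_one])

theorem eta_mem (h : IsUnifOf A q K1 e ϖ) (hτ : τ ∈ A.inertiaSubgroupIn ℚ)
    (hη : τ ϖ = ϖ * (1 + η)) : η ∈ A := by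
  have h1 : (1 + η) ∈ A := (A.valuation_le_one_iff _).mp (h.valuation_one_add hτ hη).le
  have h2 : η = (1 + η) - 1 := by ring
  rw [h2]
  exact sub_mem h1 (one_mem _)

theorem one_add_ne_zero (h : IsUnifOf A q K1 e ϖ) (hτ : τ ∈ A.inertiaSubgroupIn ℚ)
    (hη : τ ϖ = ϖ * (1 + η)) : 1 + η ≠ 0 := by
  intro h0
  have := h.valuation_one_add hτ hη
  rw [h0, map_zero] at this
  exact zero_ne_one this

/-- `(1 + η)^i − 1 = η · s` with `s` integral. -/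
theorem one_add_pow_sub_one {η : Qb} (hη : η ∈ A) (i : ℕ) :
    ∃ s : Qb, s ∈ A ∧ (1 + η) ^ i - 1 = η * s := by
  refine ⟨∑ k ∈ Finset.range i, (1 + η) ^ k, sum_mem fun k _ =>
    pow_mem (add_mem (one_mem _) hη) k, ?_⟩
  have h1 := geom_sum_mul (1 + η) i
  rw [add_sub_cancel_left] at h1
  rw [← h1, mul_comm]

/-- **`τ ≡ id` on `W1` modulo `ϖ·η`**: `|τ c − c| ≤ |ϖ|·|η|` for `c ∈ A ∩ K1`. -/
theorem valuation_apply_sub_le' (hq : q.Prime) (hA : A.LiesOverPrime q)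
    (h : IsUnifOf A q K1 e ϖ) (hτ : τ ∈ A.inertiaSubgroupIn ℚ) (hη : τ ϖ = ϖ * (1 + η))
    {c : Qb} (hc : c ∈ K1) (hcA : c ∈ A) :
    A.valuation (τ c - c) ≤ A.valuation ϖ * A.valuation η := by
  obtain ⟨a, haK, haA, rfl⟩ := h.repr_int hq hA hc hcA
  have hηA := h.eta_mem hτ hη
  have h1 : τ (∑ i, a i * ϖ ^ (i : ℕ)) - ∑ i, a i * ϖ ^ (i : ℕ)
      = ∑ i : Fin e, a i * ϖ ^ (i : ℕ) * ((1 + η) ^ (i : ℕ) - 1) := by
    rw [map_sum, ← Finset.sum_sub_distrib]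
    refine Finset.sum_congr rfl fun i _ => ?_
    rw [map_mul, map_pow, inertia_apply_K0 A hτ (haK i), hη, mul_pow]
    ring
  rw [h1]
  refine Valuation.map_sum_le _ fun i _ => ?_
  rcases Nat.eq_zero_or_pos (i : ℕ) with hi | hi
  · rw [hi, pow_zero, pow_zero, sub_self, mul_zero, map_zero]
    exact zero_le
  · obtain ⟨s, hs, hs2⟩ := one_add_pow_sub_one hηA (i : ℕ)
    rw [hs2, map_mul, map_mul, map_mul, map_pow]
    have ha1 : A.valuation (a i) ≤ 1 := (A.valuation_le_one_iff _).mpr (haA i)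
    have hs1 : A.valuation s ≤ 1 := (A.valuation_le_one_iff _).mpr hs
    have hp : A.valuation ϖ ^ (i : ℕ) ≤ A.valuation ϖ := by
      calc A.valuation ϖ ^ (i : ℕ) ≤ A.valuation ϖ ^ 1 :=
            pow_le_pow_of_le_one zero_le h.lt_one.le hi
        _ = A.valuation ϖ := pow_one _
    calc A.valuation (a i) * A.valuation ϖ ^ (i : ℕ) * (A.valuation η * A.valuation s)
        ≤ 1 * A.valuation ϖ * (A.valuation η * 1) := by gcongr
      _ = A.valuation ϖ * A.valuation η := by rw [one_mul, mul_one]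

/-- **`τ c / c ≡ (1 + η)^n` modulo `ϖ·η`** for `c ∈ K1` with `|c| = |ϖ|^n`. -/
theorem valuation_apply_div_sub_zpow_le' (hq : q.Prime) (hA : A.LiesOverPrime q)
    (h : IsUnifOf A q K1 e ϖ) (hτ : τ ∈ A.inertiaSubgroupIn ℚ) (hη : τ ϖ = ϖ * (1 + η))
    {c : Qb} (hc : c ∈ K1) {n : ℤ} (hn : A.valuation c = A.valuation ϖ ^ n) :
    A.valuation (τ c / c - (1 + η) ^ n) ≤ A.valuation ϖ * A.valuation η := by
  obtain ⟨u, huK, hu1, rfl⟩ := h.exists_unit hc hn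
  have hu0 : u ≠ 0 := by
    intro h0
    rw [h0, map_zero] at hu1
    exact zero_ne_one hu1
  have huA : u ∈ A := (A.valuation_le_one_iff _).mp hu1.le
  have h1 : τ (ϖ ^ n * u) / (ϖ ^ n * u) - (1 + η) ^ n = (1 + η) ^ n * ((τ u - u) / u) := by
    rw [map_mul, map_zpow₀, hη, mul_zpow]
    have hϖn : ϖ ^ n ≠ 0 := zpow_ne_zero n h.ne_zero
    field_simp
  rw [h1, map_mul, map_zpow₀, h.valuation_one_add hτ hη, one_zpow, one_mul, map_div₀, hu1,
    div_one]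
  exact h.valuation_apply_sub_le' hq hA hτ hη huK huA

/-- `(1 + η)^k = 1 + k η + η² r` with `r` integral. -/
theorem one_add_pow_eq {η : Qb} (hη : η ∈ A) (k : ℕ) :
    ∃ r : Qb, r ∈ A ∧ (1 + η) ^ k = 1 + k * η + η ^ 2 * r := by
  induction k with
  | zero => exact ⟨0, zero_mem _, by simp⟩
  | succ k ih =>
    obtain ⟨r, hr, hk⟩ := ih
    refine ⟨k + r + η * r, add_mem (add_mem (natCast_mem A k) hr) (mul_mem hη hr), ?_⟩
    rw [pow_succ, hk]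
    push_cast
    ring

/-- Linearisation: `|(1 + η)^n − (1 + n η)| ≤ |η|²` for `n : ℤ`, `η` integral, `1 + η` a unit. -/
theorem valuation_one_add_zpow_sub_le {η : Qb} (hη : η ∈ A) (h1 : A.valuation (1 + η) = 1)
    (n : ℤ) : A.valuation ((1 + η) ^ n - (1 + n * η)) ≤ A.valuation η ^ 2 := by
  have hη1 : A.valuation η ≤ 1 := (A.valuation_le_one_iff _).mpr hη
  have h0 : (1 + η) ≠ 0 := by
    intro h0
    rw [h0, map_zero] at h1
    exact zero_ne_one h1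
  obtain ⟨k, rfl | rfl⟩ := Int.eq_nat_or_neg n
  · obtain ⟨r, hr, hk⟩ := one_add_pow_eq hη k
    rw [zpow_natCast, hk]
    have e1 : (1 + (k : Qb) * η + η ^ 2 * r) - (1 + ((k : ℕ) : ℤ) * η) = η ^ 2 * r := by
      push_cast
      ring
    rw [e1, map_mul, map_pow]
    exact mul_le_of_le_one_right' ((A.valuation_le_one_iff _).mpr hr)
  · obtain ⟨r, hr, hk⟩ := one_add_pow_eq hη k
    have e1 : (1 + η) ^ (-(k : ℤ)) - (1 + ((-(k : ℤ) : ℤ) : Qb) * η)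
        = η ^ 2 * ((k : Qb) ^ 2 - r + k * η * r) / (1 + η) ^ k := by
      rw [zpow_neg, zpow_natCast]
      have hk0 : (1 + η) ^ k ≠ 0 := pow_ne_zero k h0
      field_simp
      rw [hk]
      push_cast
      ring
    rw [e1, map_div₀, map_pow (A.valuation) (1 + η), h1, one_pow, div_one, map_mul, map_pow]
    refine mul_le_of_le_one_right' ((A.valuation_le_one_iff _).mpr ?_)
    exact add_mem (sub_mem (pow_mem (natCast_mem A k) 2) hr)
      (mul_mem (mul_mem (natCast_mem A k) hη) hr)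

/-- The `t`-forms (as in (PL-A)): `|η| ≤ |ϖ|^t` gives `τ ≡ id` on `W1` modulo `ϖ^(t+1)`. -/
theorem valuation_apply_sub_le (hq : q.Prime) (hA : A.LiesOverPrime q)
    (h : IsUnifOf A q K1 e ϖ) (hτ : τ ∈ A.inertiaSubgroupIn ℚ) (hη : τ ϖ = ϖ * (1 + η))
    {t : ℕ} (ht : A.valuation η ≤ A.valuation ϖ ^ t) {c : Qb} (hc : c ∈ K1) (hcA : c ∈ A) :
    A.valuation (τ c - c) ≤ A.valuation ϖ ^ (t + 1) := by
  refine (h.valuation_apply_sub_le' hq hA hτ hη hc hcA).trans ?_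
  rw [pow_succ, mul_comm]
  exact mul_le_mul_left ht _

theorem valuation_apply_div_sub_zpow_le (hq : q.Prime) (hA : A.LiesOverPrime q)
    (h : IsUnifOf A q K1 e ϖ) (hτ : τ ∈ A.inertiaSubgroupIn ℚ) (hη : τ ϖ = ϖ * (1 + η))
    {t : ℕ} (ht : A.valuation η ≤ A.valuation ϖ ^ t) {c : Qb} (hc : c ∈ K1) {n : ℤ}
    (hn : A.valuation c = A.valuation ϖ ^ n) :
    A.valuation (τ c / c - (1 + η) ^ n) ≤ A.valuation ϖ ^ (t + 1) := by
  refine (h.valuation_apply_div_sub_zpow_le' hq hA hτ hη hc hn).trans ?_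
  rw [pow_succ, mul_comm]
  exact mul_le_mul_left ht _

/-- **`τ c / c ≡ 1 + v(c)·η` modulo `ϖ^(t+1)`** (`1 ≤ t`). -/
theorem valuation_apply_div_sub_le (hq : q.Prime) (hA : A.LiesOverPrime q)
    (h : IsUnifOf A q K1 e ϖ) (hτ : τ ∈ A.inertiaSubgroupIn ℚ) (hη : τ ϖ = ϖ * (1 + η))
    {t : ℕ} (ht1 : 1 ≤ t) (ht : A.valuation η ≤ A.valuation ϖ ^ t) {c : Qb} (hc : c ∈ K1)
    {n : ℤ} (hn : A.valuation c = A.valuation ϖ ^ n) :
    A.valuation (τ c / c - (1 + n * η)) ≤ A.valuation ϖ ^ (t + 1) := by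
  have e1 : τ c / c - (1 + n * η)
      = (τ c / c - (1 + η) ^ n) + ((1 + η) ^ n - (1 + n * η)) := by ring
  rw [e1]
  refine (Valuation.map_add _ _ _).trans (max_le
    (h.valuation_apply_div_sub_zpow_le hq hA hτ hη ht hc hn) ?_)
  refine (valuation_one_add_zpow_sub_le (h.eta_mem hτ hη) (h.valuation_one_add hτ hη) n).trans ?_
  calc A.valuation η ^ 2 ≤ (A.valuation ϖ ^ t) ^ 2 := pow_le_pow_left₀ zero_le ht 2
    _ = A.valuation ϖ ^ (2 * t) := by rw [← pow_mul, mul_comm]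
    _ ≤ A.valuation ϖ ^ (t + 1) := pow_le_pow_of_le_one zero_le h.lt_one.le (by omega)

end Wild

end IsUnifOf

end Fermat.Agent.TR.PL.TotRam
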