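import Mathlib
import Fermat.Agent.TR.PL.BaseChange
import Fermat.Agent.TR.PL.LocalField
import Fermat.Agent.TR.PL.TotRam

/-!
# TR (PL-B): the datum `UnifDatum` of `TR/PL/BaseChange.lean` from the uniformisers of (PL-A)

`UnifDatum A q H ϖ e` (the hypothesis of the coefficientwise base change) is produced from

* `LocalField.IsUnif A E w` (helper26's PL-A) for a finite extension `E / K0` which is the fixed
  field of `H` (e.g. `E = Frame.fixK A H hH`, for which `hE` is `fun _ => Iff.rfl`), together with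
  `v(w)^e = v(p)`;
* `TotRam.IsUnifOf A q K1 e ϖ` (helper37's totally ramified power basis).
-/

set_option autoImplicit false

namespace Fermat.Agent.TR.PL.BaseChange

open Fermat.Agent.CAR.K0

local notation "Qb" => AlgebraicClosure ℚ
local notation "GQ" => (AlgebraicClosure ℚ ≃ₐ[ℚ] AlgebraicClosure ℚ)

variable {A : ValuationSubring Qb} {H : Set GQ}

/-- `UnifDatum` from a uniformiser `w` (in the sense of `LocalField.IsUnif`) of the fixed field
`E` of `H`, with `v(w)^e = v(p)`. -/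
theorem UnifDatum.of_isUnif {p : ℕ} (hp : p.Prime) (hA : A.LiesOverPrime p)
    (hH : ∀ σ ∈ H, σ ∈ A.inertiaSubgroupIn ℚ) (E : IntermediateField ↥(K0 A) Qb)
    [FiniteDimensional ↥(K0 A) ↥E] (hE : ∀ c : Qb, c ∈ E ↔ ∀ σ ∈ H, σ c = c) {w : Qb}
    (hU : Fermat.Agent.TR.PL.LocalField.IsUnif A E w) {e : ℕ}
    (he : A.valuation w ^ e = A.valuation (p : Qb)) : UnifDatum A p H w e := by
  have : NeZero p := ⟨hp.ne_zero⟩
  exact UnifDatum.of_integral hp hA hH (fun σ hσ => (hE w).1 hU.1 σ hσ) he (fun c hcA hc => by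
    obtain ⟨a, ha, hca⟩ := hU.exists_expansion hp hA he ((hE c).2 hc) hcA
    exact ⟨a, fun i => (ha i).1, hca⟩)

/-- `UnifDatum` from a totally ramified power basis (`TotRam.IsUnifOf`) of the fixed field `K1`
of `H`. -/
theorem UnifDatum.of_isUnifOf {q : ℕ} (hH : ∀ σ ∈ H, σ ∈ A.inertiaSubgroupIn ℚ)
    (K1 : IntermediateField ↥(K0 A) Qb) (hK1 : ∀ c : Qb, c ∈ K1 ↔ ∀ σ ∈ H, σ c = c)
    {e : ℕ} {ϖ : Qb} (h : Fermat.Agent.TR.PL.TotRam.IsUnifOf A q K1 e ϖ) :
    UnifDatum A q H ϖ e :=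
  ⟨hH, fun σ hσ => (hK1 ϖ).1 h.mem σ hσ, h.pow_eq, fun c hc => h.repr c ((hK1 c).2 hc)⟩

end Fermat.Agent.TR.PL.BaseChange
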