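/-
TR / PL-E (row 468), abstract core (C1): constancy of a function modulo `ϖ ^ (t + 1)` on a
component of the special fibre, by `ϖ`-adic induction.

`O ⊆ F` is a subring (a Gauss valuation ring), `red : O → κ` its reduction to the function field
`κ` of a component, `C ≤ S ≤ O` subrings (`C` = integral constants of the ramified field, `S` =
rational integral functions), `ϖ ∈ C` a uniformiser:

* `(disc)` an element of `S` with zero reduction is `ϖ` times an element of `S`;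
* `(lift)` every constant of `κ` is the reduction of an element of `C`;
* `(loc)` for every place `Q` of `κ`, `j ≤ t`, `B ∈ C`, `u ∈ S` with `Ψ - B = ϖ ^ j * u`, the
  reduction of `u` is regular at `Q`.

Then `Ψ ≡ B mod ϖ ^ (t + 1) S` for some `B ∈ C` (`const_of_loc`).  `loc_congr` : `(loc)` only
depends on `Ψ` modulo `ϖ ^ (t + 1) O`-multiples with zero reduction of `ϖ`.
-/
import Mathlib
import Fermat.Agent.Lib.FF.Setting

set_option autoImplicit false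

noncomputable section

namespace Fermat.Agent.TR.PL.ConstAbs

open AlgebraicCurve WithZero Fermat.Agent.Lib.FF

variable {F κ k : Type*} [Field F] [Field κ] [Field k] [Algebra k κ]

/-- A function without poles is a constant (valuation form). -/
theorem exists_const_of_forall_le_one {x₁ : κ} (h₁ : IsFF1 k κ x₁) (y : κ)
    (hy : ∀ Q : Place k κ, Q.adicValuation y ≤ 1) : ∃ c : k, y = algebraMap k κ c := by
  by_cases hy0 : y = 0
  · exact ⟨0, by rw [hy0, map_zero]⟩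
  · refine h₁.const_of_ord_nonneg y (fun Q => ?_)
    rcases (Q.adicValuation_le_one_iff).1 (hy Q) with h | h
    · exact absurd h hy0
    · exact h

/-- **(C1) Constancy modulo `ϖ ^ (t + 1)`** by `ϖ`-adic induction. -/
theorem const_of_loc {x₁ : κ} (h₁ : IsFF1 k κ x₁) (O : Subring F) (red : O →+* κ)
    (S C : Subring F) (hSO : S ≤ O) (hCS : C ≤ S) (ϖ : F) (hϖ : ϖ ∈ C) (t : ℕ)
    (hdisc : ∀ (g : F) (hg : g ∈ S), red ⟨g, hSO hg⟩ = 0 → ∃ g' ∈ S, g = ϖ * g')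
    (hlift : ∀ c : k, ∃ (b : F) (hb : b ∈ C), red ⟨b, hSO (hCS hb)⟩ = algebraMap k κ c)
    (Ψ : F) (hΨ : Ψ ∈ S)
    (hloc : ∀ (Q : Place k κ) (j : ℕ), j ≤ t → ∀ B ∈ C, ∀ (u : F) (hu : u ∈ S),
      Ψ - B = ϖ ^ j * u → Q.adicValuation (red ⟨u, hSO hu⟩) ≤ 1) :
    ∃ B ∈ C, ∃ u ∈ S, Ψ - B = ϖ ^ (t + 1) * u := by
  have key : ∀ j : ℕ, j ≤ t + 1 → ∃ B ∈ C, ∃ u ∈ S, Ψ - B = ϖ ^ j * u := by
    intro j
    induction j with
    | zero =>
      intro _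
      exact ⟨0, C.zero_mem, Ψ, hΨ, by rw [sub_zero, pow_zero, one_mul]⟩
    | succ j ih =>
      intro hj
      obtain ⟨B, hB, u, hu, huΨ⟩ := ih (by omega)
      obtain ⟨c, hc⟩ := exists_const_of_forall_le_one h₁ (red ⟨u, hSO hu⟩)
        (fun Q => hloc Q j (by omega) B hB u hu huΨ)
      obtain ⟨b, hb, hbc⟩ := hlift c
      have hub : u - b ∈ S := S.sub_mem hu (hCS hb)
      have hred : red ⟨u - b, hSO hub⟩ = 0 := by
        have e : (⟨u - b, hSO hub⟩ : O) = ⟨u, hSO hu⟩ - ⟨b, hSO (hCS hb)⟩ := rfl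
        rw [e, map_sub, hc, hbc, sub_self]
      obtain ⟨g', hg', hgg⟩ := hdisc (u - b) hub hred
      refine ⟨B + ϖ ^ j * b, C.add_mem hB (C.mul_mem (C.pow_mem hϖ j) hb), g', hg', ?_⟩
      have e1 : Ψ - (B + ϖ ^ j * b) = (Ψ - B) - ϖ ^ j * b := by ring
      rw [e1, huΨ, ← mul_sub, hgg, pow_succ, mul_assoc]
  exact key (t + 1) le_rfl

/-- `(loc)` at a place `Q` only depends on `Ψ` modulo `ϖ ^ (t + 1) O`: if `Ψ - Y = ϖ ^ (t + 1) w`
with `w ∈ O`, `red ϖ = 0`, and `Y` satisfies `(loc)` at `Q` (for `j ≤ t` and `B`), so does `Ψ`. -/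
theorem loc_congr (O : Subring F) (red : O →+* κ) (ϖ : F) (hϖO : ϖ ∈ O)
    (hredϖ : red ⟨ϖ, hϖO⟩ = 0) (t : ℕ) (Q : Place k κ) (Ψ Y w : F) (hw : w ∈ O)
    (hΨY : Ψ - Y = ϖ ^ (t + 1) * w) (j : ℕ) (hj : j ≤ t) (B : F)
    (hY : ∀ (u : F) (hu : u ∈ O), Y - B = ϖ ^ j * u → Q.adicValuation (red ⟨u, hu⟩) ≤ 1)
    (u : F) (hu : u ∈ O) (huΨ : Ψ - B = ϖ ^ j * u) :
    Q.adicValuation (red ⟨u, hu⟩) ≤ 1 := by
  have hm : ϖ ^ (t - j) * (ϖ * w) ∈ O := O.mul_mem (O.pow_mem hϖO _) (O.mul_mem hϖO hw)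
  have hu' : u - ϖ ^ (t - j) * (ϖ * w) ∈ O := O.sub_mem hu hm
  have hpow : ϖ ^ (t + 1) = ϖ ^ j * (ϖ ^ (t - j) * ϖ) := by
    rw [← mul_assoc, ← pow_add, ← pow_succ]
    congr 1
    omega
  have hYu : Y - B = ϖ ^ j * (u - ϖ ^ (t - j) * (ϖ * w)) := by
    have e : Y - B = (Ψ - B) - (Ψ - Y) := by ring
    rw [e, huΨ, hΨY, hpow]
    ring
  have h1 := hY _ hu' hYu
  have e2 : (⟨u - ϖ ^ (t - j) * (ϖ * w), hu'⟩ : O)
      = ⟨u, hu⟩ - ⟨ϖ ^ (t - j), O.pow_mem hϖO _⟩ * (⟨ϖ, hϖO⟩ * ⟨w, hw⟩) := rfl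
  rw [e2, map_sub, map_mul, map_mul, hredϖ, zero_mul, mul_zero, sub_zero] at h1
  exact h1

end Fermat.Agent.TR.PL.ConstAbs
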