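import Mathlib
import Fermat.Agent.TR.PL.ConstFrame

/-!
# TR / (PL): the constant-field block of `GlueNode.const_indep_node` /
`GlueNodeU.dvd_gamma_sub_node` at the objects of BAD

`K := fixedSubfieldOf H` (`= K'' = ℚ̄^H`), `Fx := ConstFrame.fixRing H (M * p)`, `w` a uniformiser
of `K''`.  `frame_block` is the conjunction of the binders
`hwK hw0 hw1 hunif hπK hKFx hdisc₁ hdisc₂` of those two theorems, in their literal shapes
(`L := ℚ̄`, `O₁ := OInf h`, `O₂ := OZero h W`).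
-/

set_option autoImplicit false
set_option linter.unusedSectionVars false

namespace Fermat.Agent.TR.PL.ConstFrame

open HahnSeries ModularCurve AlgebraicCurve Fermat.Agent.Lib.Red Fermat.Agent.BAD.TwoVal
open Fermat.Agent.BAD.LatFixed Fermat.Agent.BAD.LatFixedInst
open Fermat.Agent.TR.PL.Frame Fermat.Agent.TR.PL.LocalField Fermat.Agent.CAR.K0

local notation "Qb" => AlgebraicClosure ℚ
local notation "GQ" => (AlgebraicClosure ℚ ≃ₐ[ℚ] AlgebraicClosure ℚ)

variable {p : ℕ} [Fact p.Prime] [NeZero p] {A : ValuationSubring Qb} {k : Type} [Field k]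
  {π : A →+* k} {M : ℕ} [NeZero M]
  {W : laurentBaseChange Qb (modularFunctionFieldFull (M * p)) ≃ₐ[Qb]
    laurentBaseChange Qb (modularFunctionFieldFull (M * p))}

/-- **The constant-field block** (`hwK hw0 hw1 hunif hπK hKFx hdisc₁ hdisc₂`) of
`GlueNode.const_indep_node` / `GlueNodeU.dvd_gamma_sub_node`, for `K = ℚ̄^H`, `H ≤ I` of finite
relative index, `w` a uniformiser of `K`. -/
theorem frame_block (hA : A.LiesOverPrime p) (h : BadSetup A π M p)
    (hsurj : Function.Surjective π) (hW : IsAL M p W) {H : Subgroup GQ}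
    (hH : H ≤ A.inertiaSubgroupIn ℚ) (hidx : H.relIndex (A.inertiaSubgroupIn ℚ) ≠ 0)
    {w : Qb} (hU : IsUnif A (fixK A H hH) w) :
    w ∈ fixedSubfieldOf (H : Set GQ) ∧ w ≠ 0 ∧ A.valuation w < 1 ∧
    (∀ a ∈ fixedSubfieldOf (H : Set GQ), a ≠ 0 →
      ∃ j : ℤ, A.valuation a = A.valuation w ^ j) ∧
    (∀ c : k, ∃ a, a ∈ fixedSubfieldOf (H : Set GQ) ∧ ∃ ha : a ∈ A, π ⟨a, ha⟩ = c) ∧
    (∀ a ∈ fixedSubfieldOf (H : Set GQ),
      algebraMap Qb (laurentBaseChange Qb (modularFunctionFieldFull (M * p))) a ∈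
        fixRing H (M * p)) ∧
    (∀ g ∈ fixRing H (M * p), g ∈ (OInf h).nonunits →
      g / algebraMap Qb (laurentBaseChange Qb (modularFunctionFieldFull (M * p))) w ∈ OInf h) ∧
    (∀ g ∈ fixRing H (M * p), g ∈ (OZero h W).nonunits →
      g / algebraMap Qb (laurentBaseChange Qb (modularFunctionFieldFull (M * p))) w ∈
        OZero h W) := by
  refine ⟨hU.1, hU.2.1, hU.2.2.1, hU.2.2.2, fun c => ?_, fun a ha => algebraMap_mem_fixRing ha,
    disc_OInf hA h hsurj hW hH hidx hU, disc_OZero hA h hsurj hW hH hidx hU⟩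
  obtain ⟨a, ha, haK, hc⟩ := exists_fixed_const_lift hA h hsurj hH c
  exact ⟨a, haK, ha, hc⟩

end Fermat.Agent.TR.PL.ConstFrame
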