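/-
TR / (PL), brick (I4), abstract part (helper5): **equivariance of the node rings and of "through
the node" under a semilinear automorphism**.

Setting of `TR/Node/NodeRingAbs.lean`, `TR/PL/Through.lean`: a semilinear automorphism `g` which
preserves the lattice ring `O`, the reduction `red`, the chart divisor `E` and the subring `Fx`
preserves the node ring `nodeRing red Fx E e₁ e₂ i`; hence it permutes the places through the
node, and `g • F / F` lies in the node ring for every `F = Y · b · ξ ^ a` with `Y` a unit of the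
node ring, `b` a constant and `ξ` fixed by `g`.

The instance at the BAD objects (inertia acting by `arithmeticGalois`) is `TR/PL/GalNodeInst.lean`.
-/
import Mathlib
import Fermat.Agent.TR.PL.Through
import Fermat.Agent.BAD.HenselPlace
import Fermat.Agent.Padic.LatticeRat

set_option autoImplicit false

noncomputable section

namespace Fermat.Agent.TR.PL.GalNodeAbs

open AlgebraicCurve WithZero Fermat.Agent.Lib.FF Fermat.Agent.BAD.NodalRiemann
  Fermat.Agent.TR.Node.NodeRingAbs Fermat.Agent.TR.PL.Through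

section Abstract

variable {L F : Type*} [Field L] [Field F] [Algebra L F] {O : Subring F}
  {k F₁ F₂ : Type*} [Field k] [Field F₁] [Field F₂] [Algebra k F₁] [Algebra k F₂]
  {ι : Type*}

/-- **The node ring is stable** under a semilinear automorphism preserving `O`, `red`, the chart
divisor `E` and `Fx`. -/
theorem smul_mem_nodeRing {red : O →+* F₁ × F₂} {Fx : Subring F} {E : Divisor L F}
    {e₁ : ι → Place k F₁} {e₂ : ι → Place k F₂} {i : ι} (g : SemilinearAut L F)
    (hO : ∀ y ∈ O, g • y ∈ O)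
    (hred : ∀ (y : O) (hy : g • (y : F) ∈ O), red ⟨g • (y : F), hy⟩ = red y)
    (hgE : g • E = E) (hFx : ∀ f ∈ Fx, g • f ∈ Fx) {f : F}
    (hf : f ∈ nodeRing red Fx E e₁ e₂ i) : g • f ∈ nodeRing red Fx E e₁ e₂ i := by
  obtain ⟨hfF, N, t, htL, htF, ⟨c, hc0, hc1, hc2⟩, y, hy, hyL⟩ := hf
  refine ⟨hFx f hfF, N, ⟨g • (t : F), hO t t.2⟩,
    Fermat.Agent.BAD.HenselPlace.smul_mem_L_nsmul g hgE N htL, hFx _ htF, ⟨c, hc0, ?_, ?_⟩,
    ⟨g • (y : F), hO y y.2⟩, ?_, Fermat.Agent.BAD.HenselPlace.smul_mem_L_nsmul g hgE N hyL⟩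
  · rw [hred t (hO t t.2)]
    exact hc1
  · rw [hred t (hO t t.2)]
    exact hc2
  · show g • (y : F) = g • (t : F) * g • f
    rw [hy, smul_mul']

/-- A semilinear automorphism whose inverse preserves the subring `T` permutes the places
through `T`. -/
theorem through_smul {T : Subring F} (g : SemilinearAut L F) (hT : ∀ f ∈ T, g⁻¹ • f ∈ T)
    {P : Place L F} (hP : Through T P) : Through T (g • P) := by
  intro f hf
  have h := Fermat.Agent.Padic.adicValuation_semilinear_smul g P (g⁻¹ • f)
  rw [smul_inv_smul] at h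
  rw [h]
  exact hP _ (hT f hf)

/-- The converse direction, for `g` preserving `T`. -/
theorem through_of_through_smul {T : Subring F} (g : SemilinearAut L F) (hT : ∀ f ∈ T, g • f ∈ T)
    {P : Place L F} (hP : Through T (g • P)) : Through T P := by
  have h := through_smul (T := T) g⁻¹ (fun f hf => by rw [inv_inv]; exact hT f hf) hP
  rwa [inv_smul_smul] at h

/-- If both `g` and `g⁻¹` preserve `T`, then `P` is through `T` iff `g • P` is. -/
theorem through_smul_iff {T : Subring F} (g : SemilinearAut L F) (hT : ∀ f ∈ T, g • f ∈ T)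
    (hT' : ∀ f ∈ T, g⁻¹ • f ∈ T) (P : Place L F) : Through T (g • P) ↔ Through T P :=
  ⟨through_of_through_smul g hT, through_smul g hT'⟩

/-- **(REG), Galois form.**  If `Φ = Y · b · ξ ^ a` with `Y` a unit of the `g`-stable ring `T`,
`b` a constant with `g b / b ∈ T`, and `ξ` fixed by `g`, then `g • Φ / Φ ∈ T`. -/
theorem smul_div_mem_of_factor {T : Subring F} (g : SemilinearAut L F) (hT : ∀ f ∈ T, g • f ∈ T)
    {Y ξ Φ : F} {b : L} {a : ℤ} (hY : Y ∈ T) (hY' : Y⁻¹ ∈ T) (hξ : g • ξ = ξ)
    (hb : algebraMap L F (SemilinearAut.baseAut g b / b) ∈ T)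
    (hΦ : Φ = Y * algebraMap L F b * ξ ^ a) : g • Φ / Φ ∈ T := by
  by_cases hΦ0 : Φ = 0
  · rw [hΦ0, div_zero]
    exact T.zero_mem
  have hY0 : Y ≠ 0 := by
    rintro rfl
    exact hΦ0 (by rw [hΦ, zero_mul, zero_mul])
  have hb0 : b ≠ 0 := by
    rintro rfl
    exact hΦ0 (by rw [hΦ, map_zero, mul_zero, zero_mul])
  have hbF : algebraMap L F b ≠ 0 := (map_ne_zero _).mpr hb0
  have hξ0 : ξ ^ a ≠ 0 := by
    intro h0
    exact hΦ0 (by rw [hΦ, h0, mul_zero])
  have e : g • Φ / Φ = g • Y * Y⁻¹ * algebraMap L F (SemilinearAut.baseAut g b / b) := by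
    have h1 : g • Φ = g • Y * algebraMap L F (SemilinearAut.baseAut g b) * ξ ^ a := by
      rw [hΦ, smul_mul', smul_mul', SemilinearAut.smul_algebraMap]
      congr 1
      rw [SemilinearAut.smul_def, map_zpow₀, ← SemilinearAut.smul_def, hξ]
    rw [h1, hΦ, map_div₀]
    field_simp
  rw [e]
  exact T.mul_mem (T.mul_mem (hT Y hY) hY') hb

end Abstract

end Fermat.Agent.TR.PL.GalNodeAbs
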