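/-
TR / (PL), brick (I4), instance part (helper5): **the inertia group acts on the node rings of the
BAD model and on the places through the nodes; (REG) in Galois form**.

Setting of `BAD` / `TR/Node/NodeRing.lean`: `A` a valuation subring of `ℚ̄`, `h : BadSetup A π M q`,
`O = OPair h W`, `redPair h W`, `T_i := NodeRingAbs.nodeRing (redPair h W) ⊤ E e₁ e₂ i` the
`ℚ̄`-level local ring of the model at the node `i`; `σ` in the inertia group of `A`, acting on
`F = F_{Mq}` by `g := arithmeticGalois _ σ`, with `g • E = E`.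

* `smul_mem_nodeRing_inertia` : `f ∈ T_i → g • f ∈ T_i`;
* `through_smul_inertia`, `through_smul_inertia_iff` : `g` permutes the places through `T_i`;
* `const_div_mem` : `σ c / c ∈ T_i` for every constant `c ≠ 0`;
* `smul_div_mem_OPair` : `g • f / f ∈ O_∞ ∩ O_0` for every `f ≠ 0`;
* `smul_div_mem_nodeRing` : **(REG)** if `f ≠ 0` has neither zero nor pole at the places through
  `T_i`, then `g • f / f ∈ T_i`;
* `inv_smul_div_mem_nodeRing` : and `(g • f / f)⁻¹ ∈ T_i`.
-/
import Mathlib
import Fermat.Agent.TR.PL.GalNodeAbs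
import Fermat.Agent.BAD.HenselPlaceInst
import Fermat.Agent.TR.Node.NodeRing

set_option autoImplicit false

noncomputable section

namespace Fermat.Agent.TR.PL.GalNodeInst

open AlgebraicCurve ModularCurve WithZero Fermat.Agent.Lib.FF Fermat.Agent.Lib.Red.Deform
  Fermat.Agent.BAD.NodalRiemann Fermat.Agent.BAD.TwoVal Fermat.Agent.BAD.BadU
  Fermat.Agent.BAD.HenselPlace Fermat.Agent.BAD.HenselPlaceInst
  Fermat.Agent.TR.Node.NodeRingAbs Fermat.Agent.TR.PL.Through Fermat.Agent.TR.PL.GalNodeAbs

local notation "Qb" => AlgebraicClosure ℚ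

variable {A : ValuationSubring Qb} {k : Type} [Field k] {π : A →+* k} {M q : ℕ} [NeZero M]
  [NeZero q]

section

variable (h : BadSetup A π M q)
  {W : laurentBaseChange Qb (modularFunctionFieldFull (M * q)) ≃ₐ[Qb]
    laurentBaseChange Qb (modularFunctionFieldFull (M * q))} (hW : IsAL M q W)
  {E : Divisor Qb (laurentBaseChange Qb (modularFunctionFieldFull (M * q)))}
  {ι : Type} (e₁ e₂ : ι → Place k (modularFunctionFieldFullC k M)) (i : ι)
  {σ : Qb ≃ₐ[ℚ] Qb} (hσ : σ ∈ A.inertiaSubgroupIn ℚ)

include hW hσ in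
/-- **The node ring is inertia-stable.** -/
theorem smul_mem_nodeRing_inertia
    (hgE : arithmeticGalois (modularFunctionFieldFull (M * q)) σ • E = E)
    {f : laurentBaseChange Qb (modularFunctionFieldFull (M * q))}
    (hf : f ∈ nodeRing (redPair h W) ⊤ E e₁ e₂ i) :
    arithmeticGalois (modularFunctionFieldFull (M * q)) σ • f ∈
      nodeRing (redPair h W) ⊤ E e₁ e₂ i := by
  have hI := inert_of_mem_inertia h hW hσ
  exact smul_mem_nodeRing _ hI.memO hI.red hgE (fun _ _ => Subring.mem_top _) hf

include hW hσ in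
/-- The same for the inverse. -/
theorem inv_smul_mem_nodeRing_inertia
    (hgE : arithmeticGalois (modularFunctionFieldFull (M * q)) σ • E = E)
    {f : laurentBaseChange Qb (modularFunctionFieldFull (M * q))}
    (hf : f ∈ nodeRing (redPair h W) ⊤ E e₁ e₂ i) :
    (arithmeticGalois (modularFunctionFieldFull (M * q)) σ)⁻¹ • f ∈
      nodeRing (redPair h W) ⊤ E e₁ e₂ i := by
  have hσ' : σ⁻¹ ∈ A.inertiaSubgroupIn ℚ := inv_mem hσ
  have hgE' : arithmeticGalois (modularFunctionFieldFull (M * q)) σ⁻¹ • E = E := by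
    rw [map_inv]
    exact inv_smul_eq_self _ hgE
  have h1 := smul_mem_nodeRing_inertia h hW e₁ e₂ i hσ' hgE' hf
  rwa [map_inv] at h1

include hW hσ in
/-- **The inertia group permutes the places through the node.** -/
theorem through_smul_inertia
    (hgE : arithmeticGalois (modularFunctionFieldFull (M * q)) σ • E = E)
    {P : Place Qb (laurentBaseChange Qb (modularFunctionFieldFull (M * q)))}
    (hP : Through (nodeRing (redPair h W) ⊤ E e₁ e₂ i) P) :
    Through (nodeRing (redPair h W) ⊤ E e₁ e₂ i)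
      (arithmeticGalois (modularFunctionFieldFull (M * q)) σ • P) :=
  through_smul _ (fun _ hf => inv_smul_mem_nodeRing_inertia h hW e₁ e₂ i hσ hgE hf) hP

include hW hσ in
theorem through_inv_smul_inertia
    (hgE : arithmeticGalois (modularFunctionFieldFull (M * q)) σ • E = E)
    {P : Place Qb (laurentBaseChange Qb (modularFunctionFieldFull (M * q)))}
    (hP : Through (nodeRing (redPair h W) ⊤ E e₁ e₂ i) P) :
    Through (nodeRing (redPair h W) ⊤ E e₁ e₂ i)
      ((arithmeticGalois (modularFunctionFieldFull (M * q)) σ)⁻¹ • P) :=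
  through_smul _ (fun f hf => by
    rw [inv_inv]
    exact smul_mem_nodeRing_inertia h hW e₁ e₂ i hσ hgE hf) hP

include hW hσ in
theorem through_smul_inertia_iff
    (hgE : arithmeticGalois (modularFunctionFieldFull (M * q)) σ • E = E)
    (P : Place Qb (laurentBaseChange Qb (modularFunctionFieldFull (M * q)))) :
    Through (nodeRing (redPair h W) ⊤ E e₁ e₂ i)
        (arithmeticGalois (modularFunctionFieldFull (M * q)) σ • P) ↔
      Through (nodeRing (redPair h W) ⊤ E e₁ e₂ i) P :=
  through_smul_iff _ (fun _ hf => smul_mem_nodeRing_inertia h hW e₁ e₂ i hσ hgE hf)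
    (fun _ hf => inv_smul_mem_nodeRing_inertia h hW e₁ e₂ i hσ hgE hf) P

include hσ in
/-- `σ c / c` is an integral constant. -/
theorem const_div_mem_A {c : Qb} (hc : c ≠ 0) : σ c / c ∈ A :=
  have : Algebra.IsAlgebraic ℚ Qb := AlgebraicClosure.isAlgebraic ℚ
  decomp_div_mem σ (mem_iff_of_mem_inertia hσ) c hc

include hσ in
/-- `c / σ c` is an integral constant. -/
theorem const_div_mem_A' {c : Qb} (hc : c ≠ 0) : c / σ c ∈ A := by
  have hσ' : σ⁻¹ ∈ A.inertiaSubgroupIn ℚ := inv_mem hσ
  have hc' : σ c ≠ 0 := (map_ne_zero _).2 hc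
  have h1 := const_div_mem_A hσ' hc'
  have e : σ⁻¹ (σ c) = c := σ.symm_apply_apply c
  rwa [e] at h1

include hσ in
/-- **Constants**: `σ c / c` lies in the node ring. -/
theorem const_div_mem (hE : 0 ≤ E) {c : Qb} (hc : c ≠ 0) :
    algebraMap Qb (laurentBaseChange Qb (modularFunctionFieldFull (M * q))) (σ c / c) ∈
      nodeRing (redPair h W) ⊤ E e₁ e₂ i :=
  algebraMap_mem (OPair_hOA h) (redPair h W) ⊤ hE e₁ e₂ i (const_div_mem_A hσ hc)
    (Subring.mem_top _)

include hW hσ in
/-- `g • f / f` is integral for both Gauss valuations. -/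
theorem smul_div_mem_OPair
    {f : laurentBaseChange Qb (modularFunctionFieldFull (M * q))} (hf : f ≠ 0) :
    arithmeticGalois (modularFunctionFieldFull (M * q)) σ • f / f ∈ OPair h W := by
  have : Algebra.IsAlgebraic ℚ Qb := AlgebraicClosure.isAlgebraic ℚ
  obtain ⟨h1, h2, -, -, -⟩ := fixes_of_mem_inertia h hW hσ
  generalize hg : arithmeticGalois (modularFunctionFieldFull (M * q)) σ = g at h1 h2 ⊢
  have hgb : ∀ a : Qb, SemilinearAut.baseAut g a = σ a := by
    intro a
    rw [← hg]
    rfl
  have key : ∀ a : Qb, a ≠ 0 → g • f / f =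
      algebraMap Qb (laurentBaseChange Qb (modularFunctionFieldFull (M * q))) (a / σ a) *
        (g • (algebraMap Qb _ a * f) * (algebraMap Qb _ a * f)⁻¹) := by
    intro a ha
    have haF : algebraMap Qb (laurentBaseChange Qb (modularFunctionFieldFull (M * q))) a ≠ 0 :=
      (map_ne_zero _).2 ha
    have hσa : algebraMap Qb (laurentBaseChange Qb (modularFunctionFieldFull (M * q))) (σ a) ≠ 0 :=
      (map_ne_zero _).2 ((map_ne_zero _).2 ha)
    have e1 : g • (algebraMap Qb (laurentBaseChange Qb (modularFunctionFieldFull (M * q))) a * f)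
        = algebraMap Qb _ (σ a) * g • f := by
      rw [smul_mul', SemilinearAut.smul_algebraMap, hgb]
    rw [e1, map_div₀]
    field_simp
  refine (mem_OPair_iff h _).2 ⟨?_, ?_⟩
  · obtain ⟨a, ha, hm, hne⟩ := exists_scaling_OInf h f hf
    rw [key a ha]
    exact mul_mem ((algebraMap_mem_OInf_iff h _).2 (const_div_mem_A' hσ ha))
      (mul_mem (h1 _ hm) (inv_mem_OInf h _ hm hne))
  · obtain ⟨a, ha, hm, hne⟩ := exists_scaling_OZero (W := W) h f hf
    rw [key a ha]
    exact mul_mem ((algebraMap_mem_OZero_iff h _).2 (const_div_mem_A' hσ ha))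
      (mul_mem (h2 _ hm) (inv_mem_OZero h _ hm hne))

include hW hσ in
/-- **(REG), Galois form.**  If `f ≠ 0` has neither zero nor pole at the places through the node
`i`, then `σ • f / f` lies in the local ring of the model at the node `i`. -/
theorem smul_div_mem_nodeRing (hE : 0 ≤ E)
    (hgE : arithmeticGalois (modularFunctionFieldFull (M * q)) σ • E = E)
    {f : laurentBaseChange Qb (modularFunctionFieldFull (M * q))} (hf : f ≠ 0)
    (hord : ∀ P : Place Qb (laurentBaseChange Qb (modularFunctionFieldFull (M * q))),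
      Through (nodeRing (redPair h W) ⊤ E e₁ e₂ i) P → P.ord f = 0) :
    arithmeticGalois (modularFunctionFieldFull (M * q)) σ • f / f ∈
      nodeRing (redPair h W) ⊤ E e₁ e₂ i := by
  have hPD := (isFF1_xL Qb (M * q)).hasPrincipalDivisors
  set g := arithmeticGalois (modularFunctionFieldFull (M * q)) σ with hg
  have hgf : g • f ≠ 0 := (smul_ne_zero_iff_ne _).mpr hf
  have hΨ0 : g • f / f ≠ 0 := div_ne_zero hgf hf
  have hreg : ∀ P : Place Qb (laurentBaseChange Qb (modularFunctionFieldFull (M * q))),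
      Through (nodeRing (redPair h W) ⊤ E e₁ e₂ i) P → P.adicValuation (g • f / f) ≤ 1 := by
    intro P hP
    have hP' := through_inv_smul_inertia h hW e₁ e₂ i hσ hgE hP
    have v1 : P.adicValuation f = 1 := by
      rw [Place.adicValuation_eq_exp_neg_ord _ hf, hord P hP, neg_zero, exp_zero]
    have v2 : P.adicValuation (g • f) = 1 := by
      rw [Fermat.Agent.Padic.adicValuation_semilinear_smul',
        Place.adicValuation_eq_exp_neg_ord _ hf, hord _ hP', neg_zero, exp_zero]
    rw [map_div₀, v1, v2, div_one]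
  obtain ⟨c, hc0, hc⟩ := exists_smul_mem (red := redPair h W) (e₁ := e₁) (e₂ := e₂) (i := i)
    (OPair_hval h) hE hΨ0 (Res.Adele.finite_poles (K := Qb) _) hreg
  exact mem_of_mul_mem (redPair h W) ⊤ E e₁ e₂ i (fun _ _ => Subring.mem_top _) hc0
    (Subring.mem_top _) (smul_div_mem_OPair h hW hσ hf) hc

include hW hσ in
/-- **(REG), Galois form, inverse.** -/
theorem inv_smul_div_mem_nodeRing (hE : 0 ≤ E)
    (hgE : arithmeticGalois (modularFunctionFieldFull (M * q)) σ • E = E)
    {f : laurentBaseChange Qb (modularFunctionFieldFull (M * q))} (hf : f ≠ 0)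
    (hord : ∀ P : Place Qb (laurentBaseChange Qb (modularFunctionFieldFull (M * q))),
      Through (nodeRing (redPair h W) ⊤ E e₁ e₂ i) P → P.ord f = 0) :
    (arithmeticGalois (modularFunctionFieldFull (M * q)) σ • f / f)⁻¹ ∈
      nodeRing (redPair h W) ⊤ E e₁ e₂ i := by
  set g := arithmeticGalois (modularFunctionFieldFull (M * q)) σ with hg
  have hgf : g • f ≠ 0 := (smul_ne_zero_iff_ne _).mpr hf
  have hσ' : σ⁻¹ ∈ A.inertiaSubgroupIn ℚ := inv_mem hσ
  have hgE' : arithmeticGalois (modularFunctionFieldFull (M * q)) σ⁻¹ • E = E := by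
    rw [map_inv]
    exact inv_smul_eq_self _ hgE
  have hord' : ∀ P : Place Qb (laurentBaseChange Qb (modularFunctionFieldFull (M * q))),
      Through (nodeRing (redPair h W) ⊤ E e₁ e₂ i) P → P.ord (g • f) = 0 := by
    intro P hP
    have hP' := through_inv_smul_inertia h hW e₁ e₂ i hσ hgE hP
    have e := SemilinearAut.ord_smul g (g⁻¹ • P) f
    rw [smul_inv_smul] at e
    rw [e]
    exact hord _ hP'
  have h1 := smul_div_mem_nodeRing h hW e₁ e₂ i hσ' hE hgE' hgf hord'
  have e : arithmeticGalois (modularFunctionFieldFull (M * q)) σ⁻¹ • (g • f) = f := by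
    rw [map_inv, hg, inv_smul_smul]
  rw [e] at h1
  rwa [inv_div]

end

end Fermat.Agent.TR.PL.GalNodeInst
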