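/-
TR / (PL): the brick **`AsmMid.GenAt`** ((GEN), in the consumer literal of the middle
`AsmMid.plNumeric_of_bricks`) for an ARBITRARY `NodalDatum` whose chart `X ∖ E1` contains the
functions regular off the cusps (`NodePkgFull.ChartHyp E1`), at ALL nodes and the node rings
`T i = NodeRingAbs.nodeRing (redPair h W) ⊤ E1 e₁ e₂ i`, for every set `H` of inertia elements.

Pure wiring of landed theorems:
* `NodePkgFull.exists_nodePkg_deltaBar` — a node package at every node;
* `GenNode.exists_gen_node` — the local generator for one node package.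
-/
import Mathlib
import Fermat.Agent.TR.PL.AsmMid
import Fermat.Agent.TR.PL.GenNode
import Fermat.Agent.BAD.NodalPlus

set_option autoImplicit false
set_option linter.style.haveILetI false
set_option linter.unusedSectionVars false
set_option linter.unusedVariables false

noncomputable section

namespace Fermat.Agent.TR.PL.GenAtDatum

open AlgebraicCurve ModularCurve WithZero Fermat.Agent.Lib.FF Fermat.Agent.BAD.TwoVal
  Fermat.Agent.BAD.NodalPlus Fermat.Agent.BAD.LatFixed Fermat.Agent.BAD.LatFixedInst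
  Fermat.Agent.TR.Node.NodeRingAbs Fermat.Agent.BAD.NodalRiemann Fermat.Agent.TR.PL.Through

local notation "Qb" => AlgebraicClosure ℚ
local notation "GQ" => (AlgebraicClosure ℚ ≃ₐ[ℚ] AlgebraicClosure ℚ)

/-- **`AsmMid.GenAt` for an arbitrary nodal datum.**  For every `NodalDatum` of the BAD objects
whose chart `X ∖ E1` contains the functions regular off the cusps, and every set `H` of inertia
elements, every `H`-stable divisor has an `H`-fixed local generator at each node. -/
theorem genAt_of_datum {A : ValuationSubring Qb} {M p : ℕ} [NeZero M] [NeZero p]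
    (hA : A.LiesOverPrime p) (h : BadSetup A (IsLocalRing.residue A) M p)
    {W : laurentBaseChange Qb (modularFunctionFieldFull (M * p)) ≃ₐ[Qb]
      laurentBaseChange Qb (modularFunctionFieldFull (M * p))} (hW : IsAL M p W)
    {E1 E2 : Divisor Qb (laurentBaseChange Qb (modularFunctionFieldFull (M * p)))}
    {ι : Type} [Fintype ι]
    {e₁ e₂ : ι → Place (IsLocalRing.ResidueField A)
      (modularFunctionFieldFullC (IsLocalRing.ResidueField A) M)}
    {P₁ Z₁ P₂ Z₂ : Divisor (IsLocalRing.ResidueField A)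
      (modularFunctionFieldFullC (IsLocalRing.ResidueField A) M)}
    (hD : NodalDatum h W E1 E2 e₁ e₂ P₁ Z₁ P₂ Z₂)
    (hint : Fermat.Agent.TR.Node.NodePkgFull.ChartHyp E1)
    (H : Set GQ) (hH : ∀ σ ∈ H, σ ∈ A.inertiaSubgroupIn ℚ) :
    Fermat.Agent.TR.PL.AsmMid.GenAt M p H
      (fun i => nodeRing (redPair h W) ⊤ E1 e₁ e₂ i) := by
  haveI : IsAlgClosed (IsLocalRing.ResidueField A) := CharP.isAlgClosed_residueField A
  have hsurj : Function.Surjective (IsLocalRing.residue A) := IsLocalRing.residue_surjective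
  obtain ⟨hinj₁, hinj₂, hP₁, -, hP₂, -, -, -, hdegP₁, hdegP₂, hE1, hE2, -, hdegE1, -, hgalE,
    hS2⟩ := hD
  intro D hDfix i
  obtain ⟨k', x, y, u, v, -, -, -, hu, -, hxy, -, hx1, -, hy1, hy2, hgen, -⟩ :=
    Fermat.Agent.TR.Node.NodePkgFull.exists_nodePkg_deltaBar hA hsurj h W hW E1 E2 e₁ e₂
      P₁ Z₁ P₂ Z₂ hinj₁ hinj₂ hP₁ hP₂ hdegP₁ hdegP₂ hE1 hE2 hgalE hS2 i hint
  obtain ⟨g, hg0, hgfix, hgord⟩ :=
    Fermat.Agent.TR.PL.GenNode.exists_gen_node hA hsurj h W hW E1 E2 e₁ e₂ P₁ Z₁ P₂ Z₂ hE1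
      hdegE1 hgalE hS2 i k' x y u hu hxy hx1 hy1 hy2 hgen H hH D hDfix
  exact ⟨g, hg0, hgfix, hgord⟩

end Fermat.Agent.TR.PL.GenAtDatum
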