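/-
TR / (PL), brick (GEN) at the nodes, instance seam on ROUTE (B) (helper83).

For a nodal datum of the special fibre of `X₀(Mq)` at `q` (binders of `TR/Node/NodeRing.lean`),
`T_i := NodeRingAbs.nodeRing (redPair h W) ⊤ E1 e₁ e₂ i` the node ring over `ℚ̄` at the node `i`
and `Through T_i P` ("the place `P` of the generic fibre reduces to the node `i`"):

every divisor `D` of the generic fibre which is stable under a set `H` of inertia elements has an
`H`-fixed local generator at the node: `g ≠ 0`, `σ • g = g` for `σ ∈ H`, and `ord_P g = D P` at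
every place `P` through the node.

* `inv_smul_mem_top` : `T_i` is stable under the inverses of the inertia elements;
* `redNode_of_through`, `through_of_redNode` : `Through T_i P ↔ HorUnit.RedNode A T_i P`;
* `exists_gen_of` : the generator from (unr) and (inj) for an inertia-fixed coordinate of `T_i`
  (= `GenProd.exists_gen_through` at the modular objects);
* `exists_gen_node_of_pkg` : **(GEN)** for a node package `x * y = q ^ k * u` as produced by
  `NodeRing.exists_nodePkg` ((inj), (unr) = `AnnulusInst.node_inj`, `AnnulusInst.node_unr'`);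
* `exists_gen_node` : **(GEN)**, closed form for a nodal datum whose chart contains the functions
  regular off the cusps (`NodePkgFull.ChartHyp E1`); no node package in the statement.
-/
import Mathlib
import Fermat.Agent.BAD.NodalPlus
import Fermat.Agent.TR.Node.NodePkgFull
import Fermat.Agent.TR.Node.HorUnit
import Fermat.Agent.TR.PL.GenProd
import Fermat.Agent.TR.PL.GalNodeAbs
import Fermat.Agent.TR.Node.AnnulusInst

set_option autoImplicit false
set_option linter.unusedSectionVars false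
set_option linter.unusedVariables false

noncomputable section

namespace Fermat.Agent.TR.PL.GenNodeB

open AlgebraicCurve ModularCurve WithZero Fermat.Agent.Lib.FF Fermat.Agent.Lib.Red.Deform
  Fermat.Agent.BAD.NodalRiemann Fermat.Agent.BAD.TwoVal Fermat.Agent.BAD.LatFixedInst
  Fermat.Agent.BAD.LatFixedRing Fermat.Agent.TR.Node.NodeRing Fermat.Agent.TR.Node.NodePkgFull
  Fermat.Agent.TR.Node.HorUnit Fermat.Agent.TR.PL.Through Fermat.Agent.TR.Node

local notation "Qb" => AlgebraicClosure ℚ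

variable {A : ValuationSubring Qb} {k : Type} [Field k] {π : A →+* k} {M q : ℕ} [NeZero M]
  [NeZero q]

section Datum

variable [IsAlgClosed k] (hA : A.LiesOverPrime q) (hπ : Function.Surjective π)
  (h : BadSetup A π M q)
  (W : laurentBaseChange Qb (modularFunctionFieldFull (M * q)) ≃ₐ[Qb]
    laurentBaseChange Qb (modularFunctionFieldFull (M * q))) (hW : IsAL M q W)
  (E1 E2 : Divisor Qb (laurentBaseChange Qb (modularFunctionFieldFull (M * q))))
  {ι : Type}
  (e₁ e₂ : ι → Place k (modularFunctionFieldFullC k M))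
  (P₁ Z₁ P₂ Z₂ : Divisor k (modularFunctionFieldFullC k M))
  (hE1 : ∀ v, 0 ≤ E1 v)
  (hgalE : ∀ σ ∈ A.inertiaSubgroupIn ℚ,
    arithmeticGalois (modularFunctionFieldFull (M * q)) σ • E1 = E1 ∧
    arithmeticGalois (modularFunctionFieldFull (M * q)) σ • E2 = E2)
  (hS2 : ∃ N₀ : ℕ, ∀ n₁ n₂ : ℕ, N₀ ≤ n₁ + n₂ →
    ∀ t : ↥(modularFunctionFieldFullC k M) × ↥(modularFunctionFieldFullC k M),
      (∃ y : OPair h W,
          (y : laurentBaseChange Qb (modularFunctionFieldFull (M * q))) ∈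
            riemannRochSpace (n₁ • E1 + n₂ • E2) ∧ redPair h W y = t) ↔
        t ∈ gluedSpace e₁ e₂ (fun _ => (1 : k))
          (n₁ • P₁ + n₂ • Z₁) (n₁ • P₂ + n₂ • Z₂))
  (i : ι)

include hA hπ hW hgalE in
/-- The node ring over `ℚ̄` is stable under the inverses of the inertia elements. -/
theorem inv_smul_mem_top {σ : Qb ≃ₐ[ℚ] Qb} (hσ : σ ∈ A.inertiaSubgroupIn ℚ)
    {g : laurentBaseChange Qb (modularFunctionFieldFull (M * q))}
    (hg : g ∈ NodeRingAbs.nodeRing (redPair h W) ⊤ E1 e₁ e₂ i) :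
    (arithmeticGalois (modularFunctionFieldFull (M * q)) σ)⁻¹ • g ∈
      NodeRingAbs.nodeRing (redPair h W) ⊤ E1 e₁ e₂ i := by
  have hI := Fermat.Agent.BAD.NodalPlus.inertial_redPair hπ h W hW hA
  refine Fermat.Agent.TR.PL.GalNodeAbs.smul_mem_nodeRing _ (fun y hy => hI.mem σ hσ y hy)
    (fun y hy => hI.red_eq σ hσ y hy) ?_ (fun _ _ => Subring.mem_top _) hg
  rw [inv_smul_eq_iff]
  exact ((hgalE σ hσ).1).symm

include hE1 hS2 in
omit [IsAlgClosed k] in
/-- A place through the node reduces to the node: the values of the functions of the node ring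
are integral. -/
theorem redNode_of_through {P : Place Qb (laurentBaseChange Qb (modularFunctionFieldFull (M * q)))}
    (hP : Through (NodeRingAbs.nodeRing (redPair h W) ⊤ E1 e₁ e₂ i) P) :
    RedNode A (NodeRingAbs.nodeRing (redPair h W) ⊤ E1 e₁ e₂ i) P := by
  intro g hg
  obtain ⟨c, hc⟩ := exists_cong ((isFF1_xL Qb (M * q)).resK P) (hP g hg)
  exact ⟨c, Through.value_mem (fun x => OPair_hOA h x) (OPair_hval h) (redPair h W) π
    h.pi_eq_zero_iff (hconst h W) (redPair_eq_zero_iff h) ⊤ E1 e₁ e₂ i (E1_nonneg E1 hE1)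
    (charts_E1 h W E1 E2 e₁ e₂ P₁ Z₁ P₂ Z₂ hS2) (fun _ _ => Subring.mem_top _)
    (fun _ _ => Subring.mem_top _) hP hg hc, hc⟩

omit [NeZero M] [NeZero q] [IsAlgClosed k] in
/-- Conversely a place reducing to the node passes through it. -/
theorem through_of_redNode {R : Subring (laurentBaseChange Qb (modularFunctionFieldFull (M * q)))}
    {P : Place Qb (laurentBaseChange Qb (modularFunctionFieldFull (M * q)))}
    (hP : RedNode A R P) : Through R P := by
  intro g hg
  obtain ⟨c, -, hc⟩ := hP g hg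
  exact hc.le_one

include hA hπ hW hE1 hgalE hS2 in
/-- **(GEN) at the node `i`, from (unr) and (inj)** for an inertia-fixed coordinate `x` of the
node ring: every `H`-stable divisor (`H` a set of inertia elements) has an `H`-fixed local
generator at the places through the node. -/
theorem exists_gen_of {x : laurentBaseChange Qb (modularFunctionFieldFull (M * q))}
    (hxT : x ∈ NodeRingAbs.nodeRing (redPair h W) ⊤ E1 e₁ e₂ i)
    (hxfix : ∀ σ ∈ A.inertiaSubgroupIn ℚ,
      arithmeticGalois (modularFunctionFieldFull (M * q)) σ • x = x)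
    (hunr : ∀ (P : Place Qb (laurentBaseChange Qb (modularFunctionFieldFull (M * q)))) (c : Qb),
      RedNode A (NodeRingAbs.nodeRing (redPair h W) ⊤ E1 e₁ e₂ i) P → Cong P x c →
      P.ord (x - algebraMap Qb (laurentBaseChange Qb (modularFunctionFieldFull (M * q))) c) = 1)
    (hinj : ∀ (P P' : Place Qb (laurentBaseChange Qb (modularFunctionFieldFull (M * q))))
      (c : Qb), RedNode A (NodeRingAbs.nodeRing (redPair h W) ⊤ E1 e₁ e₂ i) P →
      RedNode A (NodeRingAbs.nodeRing (redPair h W) ⊤ E1 e₁ e₂ i) P' → Cong P x c →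
      Cong P' x c → P' = P)
    (H : Set (Qb ≃ₐ[ℚ] Qb)) (hH : ∀ σ ∈ H, σ ∈ A.inertiaSubgroupIn ℚ)
    (D : Divisor Qb (laurentBaseChange Qb (modularFunctionFieldFull (M * q))))
    (hD : ∀ σ ∈ H, arithmeticGalois (modularFunctionFieldFull (M * q)) σ • D = D) :
    ∃ g : laurentBaseChange Qb (modularFunctionFieldFull (M * q)), g ≠ 0 ∧
      (∀ σ ∈ H, arithmeticGalois (modularFunctionFieldFull (M * q)) σ • g = g) ∧
      ∀ P : Place Qb (laurentBaseChange Qb (modularFunctionFieldFull (M * q))),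
        Through (NodeRingAbs.nodeRing (redPair h W) ⊤ E1 e₁ e₂ i) P → P.ord g = D P := by
  obtain ⟨g, hg0, hgfix, hgord⟩ := Fermat.Agent.TR.PL.GenProd.exists_gen_through
    ((fun σ => arithmeticGalois (modularFunctionFieldFull (M * q)) σ) '' H)
    (NodeRingAbs.nodeRing (redPair h W) ⊤ E1 e₁ e₂ i)
    (by
      rintro _ ⟨σ, hσ, rfl⟩ g hg
      exact inv_smul_mem_top hA hπ h W hW E1 E2 e₁ e₂ hgalE i (hH σ hσ) hg)
    (fun Q _ => (isFF1_xL Qb (M * q)).resK Q) hxT
    (by
      rintro _ ⟨σ, hσ, rfl⟩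
      exact hxfix σ (hH σ hσ))
    (fun P c hP hc => hunr P c (redNode_of_through h W E1 E2 e₁ e₂ P₁ Z₁ P₂ Z₂ hE1 hS2 i hP) hc)
    (fun P P' c hP hP' hc hc' => hinj P P' c
      (redNode_of_through h W E1 E2 e₁ e₂ P₁ Z₁ P₂ Z₂ hE1 hS2 i hP)
      (redNode_of_through h W E1 E2 e₁ e₂ P₁ Z₁ P₂ Z₂ hE1 hS2 i hP') hc hc')
    D (by
      rintro _ ⟨σ, hσ, rfl⟩
      exact hD σ hσ)
  exact ⟨g, hg0, fun σ hσ => hgfix _ ⟨σ, hσ, rfl⟩, fun P hP => hgord P hP⟩

/-! ### The closed forms -/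

include hA hπ hW hE1 hgalE hS2 in
/-- **(GEN) at the node `i`** for node coordinates `x * y = q ^ k * u` as in
`NodeRing.exists_nodePkg`: every divisor stable under a set `H` of inertia elements has an
`H`-fixed local generator at the places through the node. -/
theorem exists_gen_node_of_pkg (hdegE1 : 0 < Divisor.degree E1)
    {k' : ℕ} {x y u : nodeRing h W E1 e₁ e₂ i} (hu : IsUnit u)
    (hxy : x * y = ((q : ℕ) : nodeRing h W E1 e₁ e₂ i) ^ k' * u)
    (hx1 : (e₁ i).ord (redInf h ⟨x, mem_OInf h W E1 e₁ e₂ i x.2⟩) = 1)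
    (hy0 : redInf h ⟨y, mem_OInf h W E1 e₁ e₂ i y.2⟩ = 0)
    (hy1 : (e₂ i).ord (redZero h W ⟨y, mem_OZero h W E1 e₁ e₂ i y.2⟩) = 1)
    (hgen : ∀ g : nodeRing h W E1 e₁ e₂ i,
      Cong (e₁ i) (redInf h ⟨g, mem_OInf h W E1 e₁ e₂ i g.2⟩) 0 →
      ∃ α β γ : nodeRing h W E1 e₁ e₂ i, g = α * x + β * y +
        γ * ((q : ℕ) : nodeRing h W E1 e₁ e₂ i))
    (H : Set (Qb ≃ₐ[ℚ] Qb)) (hH : ∀ σ ∈ H, σ ∈ A.inertiaSubgroupIn ℚ)
    (D : Divisor Qb (laurentBaseChange Qb (modularFunctionFieldFull (M * q))))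
    (hD : ∀ σ ∈ H, arithmeticGalois (modularFunctionFieldFull (M * q)) σ • D = D) :
    ∃ g : laurentBaseChange Qb (modularFunctionFieldFull (M * q)), g ≠ 0 ∧
      (∀ σ ∈ H, arithmeticGalois (modularFunctionFieldFull (M * q)) σ • g = g) ∧
      ∀ P : Place Qb (laurentBaseChange Qb (modularFunctionFieldFull (M * q))),
        Through (NodeRingAbs.nodeRing (redPair h W) ⊤ E1 e₁ e₂ i) P → P.ord g = D P :=
  exists_gen_of hA hπ h W hW E1 E2 e₁ e₂ P₁ Z₁ P₂ Z₂ hE1 hgalE hS2 i
    (nodeRing_le_top h W E1 e₁ e₂ i x.2)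
    (fun σ hσ => mem_fixed h W E1 e₁ e₂ i x.2 σ hσ)
    (fun P c hP hc => Fermat.Agent.TR.Node.AnnulusInst.node_unr' hA hπ h W hW E1 E2 e₁ e₂ P₁ Z₁
      P₂ Z₂ hgalE hS2 i hu hxy hx1 hy0 hgen hE1 hdegE1 hy1 hP hc)
    (fun P P' c hP hP' hc hc' => Fermat.Agent.TR.Node.AnnulusInst.node_inj hA hπ h W hW E1 E2 e₁
      e₂ P₁ Z₁ P₂ Z₂ hgalE hS2 i hu hxy hx1 hy0 hgen hE1 hdegE1 hP hP' hc hc')
    H hH D hD

end Datum

section Closed

variable [IsAlgClosed k] (hA : A.LiesOverPrime q) (hπ : Function.Surjective π)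
  (h : BadSetup A π M q)
  (W : laurentBaseChange Qb (modularFunctionFieldFull (M * q)) ≃ₐ[Qb]
    laurentBaseChange Qb (modularFunctionFieldFull (M * q))) (hW : IsAL M q W)
  (E1 E2 : Divisor Qb (laurentBaseChange Qb (modularFunctionFieldFull (M * q))))
  {ι : Type} [Fintype ι]
  (e₁ e₂ : ι → Place k (modularFunctionFieldFullC k M))
  (P₁ Z₁ P₂ Z₂ : Divisor k (modularFunctionFieldFullC k M))
  (hinj₁ : Function.Injective e₁) (hinj₂ : Function.Injective e₂)
  (hP₁ : ∀ i, P₁ (e₁ i) = 0) (hP₂ : ∀ i, P₂ (e₂ i) = 0)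
  (hdegP₁ : 0 < Divisor.degree P₁) (hdegP₂ : 0 < Divisor.degree P₂)
  (hE1 : ∀ v, 0 ≤ E1 v) (hE2 : ∀ v, 0 ≤ E2 v)
  (hgalE : ∀ σ ∈ A.inertiaSubgroupIn ℚ,
    arithmeticGalois (modularFunctionFieldFull (M * q)) σ • E1 = E1 ∧
    arithmeticGalois (modularFunctionFieldFull (M * q)) σ • E2 = E2)
  (hS2 : ∃ N₀ : ℕ, ∀ n₁ n₂ : ℕ, N₀ ≤ n₁ + n₂ →
    ∀ t : ↥(modularFunctionFieldFullC k M) × ↥(modularFunctionFieldFullC k M),
      (∃ y : OPair h W,
          (y : laurentBaseChange Qb (modularFunctionFieldFull (M * q))) ∈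
            riemannRochSpace (n₁ • E1 + n₂ • E2) ∧ redPair h W y = t) ↔
        t ∈ gluedSpace e₁ e₂ (fun _ => (1 : k))
          (n₁ • P₁ + n₂ • Z₁) (n₁ • P₂ + n₂ • Z₂))
  (i : ι)

include hA hπ hW hinj₁ hinj₂ hP₁ hP₂ hdegP₁ hdegP₂ hE1 hE2 hgalE hS2 in
/-- **(GEN) at the node `i`, closed form**: for a nodal datum of the special fibre of `X₀(Mq)`
at `q` whose chart `X ∖ E1` contains the functions regular off the cusps, every divisor `D` of
the generic fibre stable under a set `H` of inertia elements has an `H`-fixed local generator at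
the places through the node `i`. -/
theorem exists_gen_node (hdegE1 : 0 < Divisor.degree E1) (hint : ChartHyp E1)
    (H : Set (Qb ≃ₐ[ℚ] Qb)) (hH : ∀ σ ∈ H, σ ∈ A.inertiaSubgroupIn ℚ)
    (D : Divisor Qb (laurentBaseChange Qb (modularFunctionFieldFull (M * q))))
    (hD : ∀ σ ∈ H, arithmeticGalois (modularFunctionFieldFull (M * q)) σ • D = D) :
    ∃ g : laurentBaseChange Qb (modularFunctionFieldFull (M * q)), g ≠ 0 ∧
      (∀ σ ∈ H, arithmeticGalois (modularFunctionFieldFull (M * q)) σ • g = g) ∧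
      ∀ P : Place Qb (laurentBaseChange Qb (modularFunctionFieldFull (M * q))),
        Through (NodeRingAbs.nodeRing (redPair h W) ⊤ E1 e₁ e₂ i) P → P.ord g = D P := by
  obtain ⟨-, k', a, x, y, u, v, -, -, hu, -, hxy, -, hx1, -, hy0, hy1, -, hgen⟩ :=
    exists_nodePkg_delta hA hπ h W hW E1 E2 e₁ e₂ P₁ Z₁ P₂ Z₂ hinj₁ hinj₂ hP₁ hP₂ hdegP₁ hdegP₂
      hE1 hE2 hgalE hS2 i hint (f := Fermat.Agent.TR.Unit.FDelta.fDelta Qb M q h.hℓ) rfl
  exact exists_gen_node_of_pkg hA hπ h W hW E1 E2 e₁ e₂ P₁ Z₁ P₂ Z₂ hE1 hgalE hS2 i hdegE1 hu hxy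
    hx1 hy0 hy1 hgen H hH D hD

end Closed

end Fermat.Agent.TR.PL.GenNodeB
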