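/-
TR (PL), the `u`-route at the modular objects: `GlueNodeU.dvd_gamma_sub_node` in the setting of
`BAD` / `TR/Node/NodeRing.lean` (`A` a valuation subring of `ℚ̄` over `q`, `h : BadSetup A π M q`,
`O_∞ = OInf h`, `O_0 = OZero h W`, `redPair h W : O_∞ ∩ O_0 → κ × κ`, a nodal datum
`(ι, e₁, e₂, P₁, Z₁, P₂, Z₂, E1, E2)`), for a subgroup `H` of the inertia group with finitely
many cosets (coset representatives `ρ`) whose fixed field `K'' = fixedSubfieldOf H` has a
uniformiser `w`.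

Discharged here, besides the node hypotheses (already in `GlueNode`):
* the `Deform` binders, the wiring `O = O_∞ ∩ O_0`, `red = (red_∞, red_0)`, `IsFF1 k κ`;
* `hπK` : `K''` has the full residue field (`exists_fixed_lift_const`, from `K0`);
* `hdisc` : an `H`-fixed function in the maximal ideal of `O_∞` (resp. `O_0`) is divisible by `w`
  (`div_mem_OInf`, `div_mem_OZero`, from the norm form `BaseChangeSigma.exists_fixed_const_*`).

* `dvd_gamma_sub_bad` : **`q ∣ γ i - γ j`**.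
-/
import Mathlib
import Fermat.Agent.TR.PL.GlueNodeU
import Fermat.Agent.TR.PL.BaseChangeSigma
import Fermat.Agent.TR.Node.NodeRing

set_option autoImplicit false

noncomputable section

namespace Fermat.Agent.TR.PL.GlueBad

open AlgebraicCurve ModularCurve WithZero Fermat.Agent.Lib.FF Fermat.Agent.Lib.Red.Deform
  Fermat.Agent.BAD.NodalRiemann Fermat.Agent.BAD.TwoVal Fermat.Agent.BAD.LatFixedInst
  Fermat.Agent.TR.Node.NodalLocal

local notation "Qb" => AlgebraicClosure ℚ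
local notation "GQ" => (AlgebraicClosure ℚ ≃ₐ[ℚ] AlgebraicClosure ℚ)

/-! ### Abstract: divisibility by the uniformiser from the norm form -/

section Abs

variable {L F : Type*} [Field L] [Field F] [Algebra L F] {A : ValuationSubring L}

/-- If `g = a • U` with `U` a unit of the valuation ring `O'` and `a` a constant whose valuation
is a power of that of `w`, and `g` lies in the maximal ideal of `O'`, then `g / w ∈ O'`. -/
theorem div_mem_of_const {O' : ValuationSubring F}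
    (halg : ∀ x : L, algebraMap L F x ∈ O' ↔ x ∈ A) {w : L} (hw0 : w ≠ 0)
    (hw1 : A.valuation w < 1) {a : L} (ha0 : a ≠ 0)
    (hj : ∃ j : ℤ, A.valuation a = A.valuation w ^ j) {g : F} (hU : a⁻¹ • g ∈ O')
    (hUinv : (a⁻¹ • g)⁻¹ ∈ O') (hgn : g ∈ O'.nonunits) : g / algebraMap L F w ∈ O' := by
  by_cases hg0 : g = 0
  · rw [hg0, zero_div]
    exact O'.zero_mem
  have hvw0 : A.valuation w ≠ 0 := (Valuation.ne_zero_iff _).2 hw0
  have ha0' : algebraMap L F a ≠ 0 := by simpa using ha0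
  have hw0' : algebraMap L F w ≠ 0 := by simpa using hw0
  have hU0 : a⁻¹ • g ≠ 0 := by
    rw [Algebra.smul_def]
    exact mul_ne_zero (by simpa using ha0) hg0
  -- `v(a) < 1`
  have hva : A.valuation a < 1 := by
    by_contra hge
    rw [not_lt] at hge
    have hainv : a⁻¹ ∈ A := by
      rw [← A.valuation_le_one_iff, map_inv₀]
      exact inv_le_one_of_one_le₀ hge
    have h1 : a⁻¹ • g ∈ O'.nonunits := by
      rw [Algebra.smul_def]
      exact Fermat.Agent.TR.PL.GlueConst.nu_mul_left ((halg _).2 hainv) hgn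
    rw [O'.mem_nonunits_iff] at h1
    have h2 : O'.valuation (a⁻¹ • g)⁻¹ ≤ 1 := (O'.valuation_le_one_iff _).2 hUinv
    have h3 : O'.valuation ((a⁻¹ • g) * (a⁻¹ • g)⁻¹) < 1 := by
      rw [map_mul]
      exact (mul_le_of_le_one_right' h2).trans_lt h1
    rw [mul_inv_cancel₀ hU0, map_one] at h3
    exact lt_irrefl _ h3
  obtain ⟨j, hj⟩ := hj
  -- `j ≥ 1`, hence `a / w ∈ A`
  have hj1 : 1 ≤ j := by
    by_contra hlt
    have hj0 : j ≤ 0 := by omega
    obtain ⟨n, rfl⟩ : ∃ n : ℕ, j = -(n : ℤ) := ⟨(-j).toNat, by omega⟩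
    rw [zpow_neg, zpow_natCast] at hj
    have h1 : A.valuation w ^ n ≤ 1 := pow_le_one₀ zero_le hw1.le
    have h2 : 1 ≤ (A.valuation w ^ n)⁻¹ := by
      rw [one_le_inv₀ (zero_lt_iff.2 (pow_ne_zero n hvw0))]
      exact h1
    rw [← hj] at h2
    exact absurd hva (not_lt.2 h2)
  have haw : a / w ∈ A := by
    rw [← A.valuation_le_one_iff, map_div₀, hj]
    have e : A.valuation w ^ j / A.valuation w = A.valuation w ^ (j - 1) := by
      rw [zpow_sub₀ hvw0, zpow_one]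
    rw [e]
    obtain ⟨n, hn⟩ : ∃ n : ℕ, j - 1 = (n : ℤ) := ⟨(j - 1).toNat, by omega⟩
    rw [hn, zpow_natCast]
    exact pow_le_one₀ zero_le hw1.le
  have e : g / algebraMap L F w = algebraMap L F (a / w) * (a⁻¹ • g) := by
    rw [Algebra.smul_def, map_div₀, map_inv₀]
    field_simp
  rw [e]
  exact mul_mem ((halg _).2 haw) hU

end Abs

variable {A : ValuationSubring Qb} {k : Type} [Field k] {π : A →+* k} {M q : ℕ} [NeZero M]
  [NeZero q]

/-- The functions of level `N` fixed by a set of automorphisms, as a subring. -/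
def fixedRingOf (H : Set GQ) (N : ℕ) :
    Subring (laurentBaseChange Qb (modularFunctionFieldFull N)) where
  carrier := {f | f ∈ fixedFunOf H N}
  mul_mem' := fun {f g} hf hg σ hσ => by
    rw [smul_mul', hf σ hσ, hg σ hσ]
  one_mem' := fun σ _ => smul_one _
  add_mem' := fun hf hg => (fixedFunOf H N).add_mem hf hg
  zero_mem' := (fixedFunOf H N).zero_mem
  neg_mem' := fun hf => (fixedFunOf H N).neg_mem hf

omit [NeZero M] [NeZero q] in
theorem mem_fixedRingOf {H : Set GQ} {N : ℕ}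
    {f : laurentBaseChange Qb (modularFunctionFieldFull N)} :
    f ∈ fixedRingOf H N ↔ f ∈ fixedFunOf H N := Iff.rfl

omit [NeZero M] [NeZero q] in
/-- The constants of the fixed field are fixed functions. -/
theorem algebraMap_mem_fixedRingOf {H : Set GQ} {N : ℕ} {a : Qb}
    (ha : a ∈ fixedSubfieldOf H) :
    algebraMap Qb (laurentBaseChange Qb (modularFunctionFieldFull N)) a ∈ fixedRingOf H N := by
  rw [Algebra.algebraMap_eq_smul_one]
  exact smul_mem_fixedFunOf ha (fixedRingOf H N).one_mem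

omit [NeZero M] [NeZero q] in
/-- **`K''` has the full residue field**: every residue class has a representative in
`A ∩ K''` (already in `A ∩ K0`), for `H` contained in the inertia group. -/
theorem exists_fixed_lift_const (hq : q.Prime) (hA : A.LiesOverPrime q)
    (hπ : Function.Surjective π) (hπker : ∀ a : A, π a = 0 ↔ A.valuation (a : Qb) < 1)
    (H : Set GQ) (hH : ∀ σ ∈ H, σ ∈ A.inertiaSubgroupIn ℚ) (c : k) :
    ∃ a : Qb, a ∈ fixedSubfieldOf H ∧ ∃ ha : a ∈ A, π ⟨a, ha⟩ = c := by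
  obtain ⟨a, rfl⟩ := hπ c
  obtain ⟨w, hwI, hwA, hlt⟩ :=
    Fermat.Agent.CAR.K0.exists_mem_inertiaField_valuation_sub_lt_one hq A hA a.2
  refine ⟨w, fun σ hσ => (Fermat.Agent.CAR.K0.mem_inertiaField_iff A w).1 hwI σ (hH σ hσ),
    hwA, ?_⟩
  have h0 : π (a - ⟨w, hwA⟩) = 0 := (hπker _).2 hlt
  rw [map_sub, sub_eq_zero] at h0
  exact h0.symm

section Disc

variable {W : laurentBaseChange Qb (modularFunctionFieldFull (M * q)) ≃ₐ[Qb]
    laurentBaseChange Qb (modularFunctionFieldFull (M * q))}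
  (hq : q.Prime) (hA : A.LiesOverPrime q)
  (h : BadSetup A π M q) (hsurj : Function.Surjective π) (hW : IsAL M q W)
  (H : Subgroup GQ) (hH : ∀ σ ∈ H, σ ∈ A.inertiaSubgroupIn ℚ)
  {m : ℕ} (ρ : Fin m → GQ) (hρI : ∀ j, ρ j ∈ A.inertiaSubgroupIn ℚ)
  (hρ : ∀ σ ∈ A.inertiaSubgroupIn ℚ, ∃ j, ∃ τ ∈ H, σ = ρ j * τ)
  {w : Qb} (hw0 : w ≠ 0) (hw1 : A.valuation w < 1)
  (hunif : ∀ a ∈ fixedSubfieldOf (H : Set GQ), a ≠ 0 →
    ∃ j : ℤ, A.valuation a = A.valuation w ^ j)

include hq hA hsurj hW hH hρI hρ hw0 hw1 hunif in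
/-- **(disc∞)**: an `H`-fixed function in the maximal ideal of `O_∞` is divisible by the
uniformiser `w` of `K''`. -/
theorem div_mem_OInf {g : laurentBaseChange Qb (modularFunctionFieldFull (M * q))}
    (hg : g ∈ fixedFunOf (H : Set GQ) (M * q)) (hgn : g ∈ (OInf h).nonunits) :
    g / algebraMap Qb (laurentBaseChange Qb (modularFunctionFieldFull (M * q))) w ∈ OInf h := by
  by_cases hg0 : g = 0
  · rw [hg0, zero_div]
    exact (OInf h).zero_mem
  obtain ⟨a, ha0, haK, hU, hUinv⟩ :=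
    BaseChangeSigma.exists_fixed_const_inf hq hA h hsurj hW H hH ρ hρI hρ hg hg0
  exact div_mem_of_const (algebraMap_mem_OInf_iff h) hw0 hw1 ha0 (hunif a haK ha0) hU hUinv hgn

include hq hA hsurj hW hH hρI hρ hw0 hw1 hunif in
/-- **(disc0)**: an `H`-fixed function in the maximal ideal of `O_0` is divisible by the
uniformiser `w` of `K''`. -/
theorem div_mem_OZero {g : laurentBaseChange Qb (modularFunctionFieldFull (M * q))}
    (hg : g ∈ fixedFunOf (H : Set GQ) (M * q)) (hgn : g ∈ (OZero h W).nonunits) :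
    g / algebraMap Qb (laurentBaseChange Qb (modularFunctionFieldFull (M * q))) w ∈
      OZero h W := by
  by_cases hg0 : g = 0
  · rw [hg0, zero_div]
    exact (OZero h W).zero_mem
  obtain ⟨a, ha0, haK, hU, hUinv⟩ :=
    BaseChangeSigma.exists_fixed_const_zero hq hA h hsurj hW H hH ρ hρI hρ hg hg0
  exact div_mem_of_const (algebraMap_mem_OZero_iff h) hw0 hw1 ha0 (hunif a haK ha0) hU hUinv
    hgn

end Disc

section Main

variable [IsAlgClosed k] (hA : A.LiesOverPrime q) (hπ : Function.Surjective π)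
  (h : BadSetup A π M q)
  (W : laurentBaseChange Qb (modularFunctionFieldFull (M * q)) ≃ₐ[Qb]
    laurentBaseChange Qb (modularFunctionFieldFull (M * q))) (hW : IsAL M q W)
  (E1 E2 : Divisor Qb (laurentBaseChange Qb (modularFunctionFieldFull (M * q))))
  {ι : Type}
  (e₁ e₂ : ι → Place k (modularFunctionFieldFullC k M))
  (P₁ Z₁ P₂ Z₂ : Divisor k (modularFunctionFieldFullC k M))
  (hE1 : ∀ v, 0 ≤ E1 v)
  (hS2 : ∃ N₀ : ℕ, ∀ n₁ n₂ : ℕ, N₀ ≤ n₁ + n₂ →
    ∀ t : ↥(modularFunctionFieldFullC k M) × ↥(modularFunctionFieldFullC k M),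
      (∃ y : OPair h W,
          (y : laurentBaseChange Qb (modularFunctionFieldFull (M * q))) ∈
            riemannRochSpace (n₁ • E1 + n₂ • E2) ∧ redPair h W y = t) ↔
        t ∈ gluedSpace e₁ e₂ (fun _ => (1 : k))
          (n₁ • P₁ + n₂ • Z₁) (n₁ • P₂ + n₂ • Z₂))
  (H : Subgroup GQ) (hH : ∀ σ ∈ H, σ ∈ A.inertiaSubgroupIn ℚ)
  {m : ℕ} (ρ : Fin m → GQ) (hρI : ∀ j, ρ j ∈ A.inertiaSubgroupIn ℚ)
  (hρ : ∀ σ ∈ A.inertiaSubgroupIn ℚ, ∃ j, ∃ τ ∈ H, σ = ρ j * τ)
  {w : Qb} (hwK : w ∈ fixedSubfieldOf (H : Set GQ)) (hw0 : w ≠ 0) (hw1 : A.valuation w < 1)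
  (hunif : ∀ a ∈ fixedSubfieldOf (H : Set GQ), a ≠ 0 →
    ∃ j : ℤ, A.valuation a = A.valuation w ^ j)

include hA hπ hW hE1 hS2 hH hρI hρ hwK hw0 hw1 hunif in
/-- **(CONST) on the `u`-route at the modular objects: `q ∣ γ i - γ j`.**

`u` is an `H`-fixed unit of `O_∞` lying in `O_0` (think `u = σ₀ f₀ / f₀`); at every node `i`,
`u / Hn i ^ q` lies in the node ring (over the big field), `Hn i ≡ 1` modulo `w ^ (t + 1) O_∞`,
`Hn i ≡ c i` modulo `w ^ (t + 1) O_0` with `c i ∈ K''`, `c i ≡ 1 + γ i η` modulo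
`w ^ (t + 1) A`; `η = w ^ t * (unit)` and `q w ^ t ∈ w ^ (q t + 1) A`.  The smooth hypotheses
`hSm₁`, `hSm₂` say that the reductions of the successive quotients of `u` (levels `≤ q t`) are
regular away from the nodes. -/
theorem dvd_gamma_sub_bad {t : ℕ} (hqw : ∃ r ∈ A, (q : Qb) * w ^ t = w ^ (q * t + 1) * r)
    {η : Qb} (hη : ∃ u : Qb, A.valuation u = 1 ∧ η = w ^ t * u)
    {u : laurentBaseChange Qb (modularFunctionFieldFull (M * q))}
    (huH : u ∈ fixedFunOf (H : Set GQ) (M * q)) (hu0 : u ≠ 0) (hu₁ : u ∈ OInf h)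
    (huinv : u⁻¹ ∈ OInf h) (hu₂ : u ∈ OZero h W)
    (hSm₁ : ∀ m ≤ q * t, ∀ a ∈ fixedSubfieldOf (H : Set GQ), a ∈ A →
      ∀ (y : laurentBaseChange Qb (modularFunctionFieldFull (M * q))) (hy : y ∈ OInf h),
        u - algebraMap Qb (laurentBaseChange Qb (modularFunctionFieldFull (M * q))) a =
          algebraMap Qb (laurentBaseChange Qb (modularFunctionFieldFull (M * q))) w ^ m * y →
        ∀ Q : Place k (modularFunctionFieldFullC k M), (∀ i, e₁ i ≠ Q) →
          Q.adicValuation (redInf h ⟨y, hy⟩) ≤ 1)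
    (hSm₂ : ∀ m ≤ q * t, ∀ a ∈ fixedSubfieldOf (H : Set GQ), a ∈ A →
      ∀ (y : laurentBaseChange Qb (modularFunctionFieldFull (M * q))) (hy : y ∈ OZero h W),
        u - algebraMap Qb (laurentBaseChange Qb (modularFunctionFieldFull (M * q))) a =
          algebraMap Qb (laurentBaseChange Qb (modularFunctionFieldFull (M * q))) w ^ m * y →
        ∀ Q : Place k (modularFunctionFieldFullC k M), (∀ i, e₂ i ≠ Q) →
          Q.adicValuation (redZero h W ⟨y, hy⟩) ≤ 1)
    (Hn : ι → laurentBaseChange Qb (modularFunctionFieldFull (M * q))) (c : ι → Qb)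
    (γ : ι → ℤ)
    (hY : ∀ i, u / Hn i ^ q ∈
      Fermat.Agent.TR.Node.NodeRingAbs.nodeRing (redPair h W) ⊤ E1 e₁ e₂ i)
    (hH₁ : ∀ i, ∃ y ∈ OInf h, Hn i - 1 =
      algebraMap Qb (laurentBaseChange Qb (modularFunctionFieldFull (M * q))) w ^ (t + 1) * y)
    (hc : ∀ i, c i ∈ fixedSubfieldOf (H : Set GQ) ∧ A.valuation (c i - 1) < 1)
    (hH₂ : ∀ i, ∃ y ∈ OZero h W,
      Hn i - algebraMap Qb (laurentBaseChange Qb (modularFunctionFieldFull (M * q))) (c i) =
        algebraMap Qb (laurentBaseChange Qb (modularFunctionFieldFull (M * q))) w ^ (t + 1) * y)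
    (hcγ : ∀ i, ∃ b ∈ A, c i - (1 + (γ i : Qb) * η) = w ^ (t + 1) * b) (i j : ι) :
    (q : ℤ) ∣ γ i - γ j := by
  have hq : q.Prime := h.hℓ
  have hqA : A.valuation ((q : ℕ) : Qb) < 1 := by
    have hA' : ((q : ℕ) : Qb) ∈ A.nonunits := hA
    exact (A.mem_nonunits_iff).1 hA'
  have hw0' : algebraMap Qb (laurentBaseChange Qb (modularFunctionFieldFull (M * q))) w ≠ 0 := by
    simpa using hw0
  have huu : u ∉ (OInf h).nonunits := by
    intro hun
    rw [(OInf h).mem_nonunits_iff] at hun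
    have h2 : (OInf h).valuation u⁻¹ ≤ 1 := ((OInf h).valuation_le_one_iff _).2 huinv
    have h3 : (OInf h).valuation (u * u⁻¹) < 1 := by
      rw [map_mul]
      exact (mul_le_of_le_one_right' h2).trans_lt hun
    rw [mul_inv_cancel₀ hu0, map_one] at h3
    exact lt_irrefl _ h3
  refine Fermat.Agent.TR.PL.GlueNodeU.dvd_gamma_sub_node (fun x => OPair_hOA h x) (OPair_hval h)
    (redPair h W) π h.pi_eq_zero_iff (Fermat.Agent.TR.Node.NodeRing.hconst h W)
    (redPair_eq_zero_iff h) E1 e₁ e₂ (Fermat.Agent.TR.Node.NodeRing.E1_nonneg E1 hE1)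
    (Fermat.Agent.TR.Node.NodeRing.charts_E1 h W E1 E2 e₁ e₂ P₁ Z₁ P₂ Z₂ hS2)
    (OInf h) (OZero h W) (fun x hx => ((mem_OPair_iff h x).1 hx).1)
    (fun x hx => ((mem_OPair_iff h x).1 hx).2) (fun x h1 h2 => (mem_OPair_iff h x).2 ⟨h1, h2⟩)
    (redInf h) (redZero h W) (Fermat.Agent.TR.Node.NodeRing.redInf_eq_zero_iff_nonunit h)
    (Fermat.Agent.TR.Node.NodeRing.redZero_eq_zero_iff_nonunit h)
    (fun y => rfl) (fun y => rfl) (isFF1_xk k M) (isFF1_xk k M)
    (fixedSubfieldOf (H : Set GQ)) hwK hw0 hw1 hunif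
    (exists_fixed_lift_const hq hA hπ h.pi_eq_zero_iff (H : Set GQ) hH)
    (fixedRingOf (H : Set GQ) (M * q)) (fun a ha => algebraMap_mem_fixedRingOf ha)
    (fun g hg hgn => div_mem_OInf hq hA h hπ hW H hH ρ hρI hρ hw0 hw1 hunif hg hgn)
    (fun g hg hgn => div_mem_OZero hq hA h hπ hW H hH ρ hρI hρ hw0 hw1 hunif hg hgn)
    hq hqA hqw hη huH hu₁ huu hu₂ ?_ ?_ Hn c γ hY ?_ hc ?_ hcγ i j
  · intro m hm a haK haA hu Q hQ
    refine hSm₁ m hm a haK haA _ hu ?_ Q hQ
    rw [mul_div_cancel₀ _ (pow_ne_zero m hw0')]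
  · intro m hm a haK haA hu Q hQ
    refine hSm₂ m hm a haK haA _ hu ?_ Q hQ
    rw [mul_div_cancel₀ _ (pow_ne_zero m hw0')]
  · intro s
    obtain ⟨y, hy, e⟩ := hH₁ s
    rw [e, mul_div_cancel_left₀ _ (pow_ne_zero _ hw0')]
    exact hy
  · intro s
    obtain ⟨y, hy, e⟩ := hH₂ s
    rw [e, mul_div_cancel_left₀ _ (pow_ne_zero _ hw0')]
    exact hy

end Main

end Fermat.Agent.TR.PL.GlueBad
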