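import Mathlib
import Fermat.Agent.TR.PL.FrameWild
import Fermat.Agent.TR.PL.AsmKum
import Fermat.Agent.TR.PL.SigmaSeam

/-!
# TR / (PL), the middle: the FRONT END (independent second seat of the HEAD block)

Under the hypotheses of `TR.Top.TRKey` on `(A, M, p, h, W, V, L)` (binders verbatim, as in
`TR.PL.Asm.PLNumeric`) and for a class `x ∈ V`, ONE `obtain` gives everything the per-node loop,
the wild call and the packaging of `Asm.NumericAt` consume: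

* the wild frame `Frame.exists_wild_frame` at `H = stabV A V` (all clauses, verbatim): `s ≤ 1`,
  `[I : H] = (p - 1) p^s`, coset representatives `ρ`, `K'' = fixK A H`, its uniformiser `w`,
  `v(w)^((p-1) p^s) = v(p)`, `(Sa)`, `(Sb)`, the tame clause and the wild clause
  (`σ₀, t, η, u, r`, `(Sa)`, `(Sc)`);
* (B-norm) for the same `w`: every nonzero `K''`-rational function `g` is `w^(n_inf)` times a unit of
  `O_∞` and `w^(n0)` times a unit of `O_0`;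
* the `K''`-rational unit Kummer function of `x`: an `H`-stable divisor `D` of class `x`,
  `f₁` fixed by `H` with `ord_P f₁ = p · D(P)`, a unit of `O_∞`, and `N` with `w^(-N) f₁` a unit
  of `O_0`.

`exists_frontEnd` : the statement.  Producers: `Frame.exists_wild_frame` (helper93),
`AsmKum.exists_fixed_unit_kummer`, `SigmaSeam.exists_zpow_unif_inf/zero` (helper7).
-/

set_option autoImplicit false
set_option linter.unusedSectionVars false
set_option linter.unusedVariables false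
set_option linter.style.haveILetI false

namespace Fermat.Agent.TR.PL.HeadSh

open ModularCurve AlgebraicCurve Fermat.Agent.BAD.TwoVal Fermat.Agent.BAD.BadU
  Fermat.Agent.BAD.LatFixed Fermat.Agent.BAD.LatFixedInst Fermat.Agent.ESJ.Jac
  Fermat.Agent.TW.Flat.Loc.MonoPf Fermat.Agent.CAR.K0 Fermat.Agent.TR.PL.LocalField
  Fermat.Agent.TR.PL.Frame

local notation "Qb" => AlgebraicClosure ℚ
local notation "GQ" => (AlgebraicClosure ℚ ≃ₐ[ℚ] AlgebraicClosure ℚ)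

set_option maxHeartbeats 1000000 in
/-- **The front end of the middle of (PL)**: frame, (B-norm) and the `K''`-rational unit Kummer
function of a class `x ∈ V`, under the hypotheses of `TR.Top.TRKey` (binders verbatim). -/
theorem exists_frontEnd (A : ValuationSubring Qb) (M p : ℕ) [NeZero M] [NeZero p]
    (h : BadSetup A (IsLocalRing.residue A) M p) (hA : A.LiesOverPrime p) (hp5 : 5 ≤ p)
    (W : laurentBaseChange Qb (modularFunctionFieldFull (M * p)) ≃ₐ[Qb]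
      laurentBaseChange Qb (modularFunctionFieldFull (M * p))) (hW : IsAL M p W)
    (V L : AddSubgroup (JZero (M * p))) (hLV : L ≤ V) (hpV : ∀ x ∈ V, p • x = 0)
    (hcardV : Nat.card V = p ^ 2) (hcardL : Nat.card L = p)
    (hquot : ∀ σ ∈ A.inertiaSubgroupIn ℚ, ∀ v ∈ V, σ • v - v ∈ L)
    (hcyc : ∀ σ ∈ A.inertiaSubgroupIn ℚ, ∀ a : ℕ, (∀ μ : Qb, μ ^ p = 1 → σ μ = μ ^ a) →
      ∀ v ∈ L, σ • v = a • v)
    (hdeep : ∀ σ ∈ A.inertiaSubgroupIn ℚ, ∀ ρ : A.ValueGroup,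
      ρ ^ (p - 1) < A.valuation ((p : ℕ) : Qb) →
      (∀ c ∈ A, (∀ τ ∈ A.inertiaSubgroupIn ℚ, (∀ x ∈ V, τ • x = x) → τ c = c) →
        A.valuation (σ c - c) ≤ ρ) →
      ∀ x ∈ V, σ • x = x)
    (x : JZero (M * p)) (hx : x ∈ V) :
    ∃ (ζ : Qb) (s : ℕ) (w : Qb) (ρ : Fin ((p - 1) * p ^ s) → GQ),
      ζ ^ p = 1 ∧ ζ ≠ 1 ∧ s ≤ 1 ∧
      -- the group `H = stabV A V`
      (stabV A V).relIndex (A.inertiaSubgroupIn ℚ) = (p - 1) * p ^ s ∧
      (∀ j, ρ j ∈ A.inertiaSubgroupIn ℚ) ∧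
      (∀ σ ∈ A.inertiaSubgroupIn ℚ, ∃ j, ∃ h ∈ stabV A V, σ = ρ j * h) ∧
      (∀ σ ∈ A.inertiaSubgroupIn ℚ, ∀ h ∈ stabV A V, σ⁻¹ * h * σ ∈ stabV A V) ∧
      (∀ σ ∈ A.inertiaSubgroupIn ℚ, ∀ c : Qb, c ∈ fixK A (stabV A V) (stabV_le_inertia V) →
        σ c ∈ fixK A (stabV A V) (stabV_le_inertia V)) ∧
      -- the field `K''`
      FiniteDimensional ↥(K0 A) ↥(fixK A (stabV A V) (stabV_le_inertia V)) ∧
      IsUnif A (fixK A (stabV A V) (stabV_le_inertia V)) w ∧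
      A.valuation w ^ ((p - 1) * p ^ s) = A.valuation (p : Qb) ∧
      -- (Sa), valuation form, and (Sb)
      (∀ σ ∈ A.inertiaSubgroupIn ℚ, ∀ c : Qb, c ∈ A →
        c ∈ fixK A (stabV A V) (stabV_le_inertia V) →
        A.valuation (σ c - c) ≤ A.valuation (σ w - w)) ∧
      (∀ b : Qb, b ∈ fixK A (stabV A V) (stabV_le_inertia V) → A.valuation b < 1 →
        ∃ c : Qb, c ∈ fixK A (stabV A V) (stabV_le_inertia V) ∧ c ∈ A ∧ b = w * c) ∧
      -- the tame case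
      (s = 0 → GF A ζ ≤ stabV A V) ∧
      -- the wild case
      (s = 1 → ∃ σ₀ ∈ GF A ζ, σ₀ ∈ A.inertiaSubgroupIn ℚ ∧ σ₀ ∉ stabV A V ∧
        σ₀ ^ p ∈ stabV A V ∧
        (∀ σ ∈ GF A ζ, ∃ j < p, (σ₀ ^ j)⁻¹ * σ ∈ stabV A V) ∧
        ∃ (t : ℕ) (η u r : Qb), 1 ≤ t ∧ t ≤ p - 1 ∧ σ₀ w = w * (1 + η) ∧ η = w ^ t * u ∧
          A.valuation u = 1 ∧ A.valuation η = A.valuation w ^ t ∧
          u ∈ fixK A (stabV A V) (stabV_le_inertia V) ∧
          η ∈ fixK A (stabV A V) (stabV_le_inertia V) ∧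
          r ∈ A ∧ r ∈ fixK A (stabV A V) (stabV_le_inertia V) ∧
          (p : Qb) * w ^ t = w ^ (p * t + 1) * r ∧
          -- (Sa), divisibility form
          (∀ c : Qb, c ∈ fixK A (stabV A V) (stabV_le_inertia V) → c ∈ A →
            ∃ b : Qb, b ∈ fixK A (stabV A V) (stabV_le_inertia V) ∧ b ∈ A ∧
              σ₀ c - c = w ^ (t + 1) * b) ∧
          -- (Sc)
          (∀ (c : Qb) (n : ℤ), c ∈ fixK A (stabV A V) (stabV_le_inertia V) →
            A.valuation c = A.valuation w ^ n →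
            ∃ b : Qb, b ∈ fixK A (stabV A V) (stabV_le_inertia V) ∧ b ∈ A ∧
              σ₀ c = c * (1 + (n : Qb) * η + w ^ (t + 1) * b))) ∧
      -- (B-norm) for the `K''`-rational functions
      (∀ g ∈ fixedFunOf ((stabV A V : Subgroup GQ) : Set GQ) (M * p), g ≠ 0 →
        ∃ ni n0 : ℤ, ((w ^ ni)⁻¹ • g ∈ OInf h ∧ ((w ^ ni)⁻¹ • g)⁻¹ ∈ OInf h) ∧
          ((w ^ n0)⁻¹ • g ∈ OZero h W ∧ ((w ^ n0)⁻¹ • g)⁻¹ ∈ OZero h W)) ∧
      -- the `K''`-rational unit Kummer function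
      ∃ (D : Divisor.degZero (K := Qb)
          (F := laurentBaseChange Qb (modularFunctionFieldFull (M * p))))
        (f₁ : laurentBaseChange Qb (modularFunctionFieldFull (M * p))) (N : ℤ),
        Pic0.mk D = x ∧
        (∀ σ ∈ stabV A V, arithmeticGalois (L := Qb) (modularFunctionFieldFull (M * p)) σ •
          (D : Divisor Qb (laurentBaseChange Qb (modularFunctionFieldFull (M * p)))) = D) ∧
        f₁ ∈ fixedFunOf ((stabV A V : Subgroup GQ) : Set GQ) (M * p) ∧ f₁ ≠ 0 ∧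
        (∀ P : Place Qb (laurentBaseChange Qb (modularFunctionFieldFull (M * p))),
          P.ord f₁ = (p : ℤ) *
            (D : Divisor Qb (laurentBaseChange Qb (modularFunctionFieldFull (M * p)))) P) ∧
        IsKummerPair p x f₁ ∧ f₁ ∈ OInf h ∧ f₁⁻¹ ∈ OInf h ∧
        (w ^ N)⁻¹ • f₁ ∈ OZero h W ∧ ((w ^ N)⁻¹ • f₁)⁻¹ ∈ OZero h W := by
  have hp : p.Prime := h.hℓ
  haveI : Fact p.Prime := ⟨hp⟩
  have hp2 : p ≠ 2 := by omega
  haveI : NeZero ((p : ℕ) : Qb) := ⟨Nat.cast_ne_zero.mpr hp.ne_zero⟩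
  obtain ⟨ζ, hζ⟩ := HasEnoughRootsOfUnity.exists_primitiveRoot Qb p
  have hζp : ζ ^ p = 1 := hζ.pow_eq_one
  have hζ1 : ζ ≠ 1 := hζ.ne_one hp.one_lt
  have hsurj : Function.Surjective (IsLocalRing.residue A) := IsLocalRing.residue_surjective
  obtain ⟨s, w, ρ, hs, hidx, hρI, hρ, hconj, hσE, hfd, hU, hpow, hSa, hSb, htame, hwild⟩ :=
    exists_wild_frame hp2 hA hζp hζ1 hLV hpV hcardV hcardL hquot hcyc hdeep
  have hidx0 : (stabV A V).relIndex (A.inertiaSubgroupIn ℚ) ≠ 0 := by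
    rw [hidx]
    exact Nat.mul_ne_zero (Nat.sub_ne_zero_of_lt hp.one_lt) (pow_ne_zero s hp.ne_zero)
  obtain ⟨D, f₁, h1, h2, h3, h4, h5, h6, h7, h8⟩ :=
    Fermat.Agent.TR.PL.AsmKum.exists_fixed_unit_kummer hp hA h hsurj hW (stabV A V)
      (fun σ hσ => stabV_le_inertia V hσ) ρ hρI hρ p x (hpV x hx) (fun σ hσ => hσ.2 x hx)
  obtain ⟨N, hN1, hN2⟩ := Fermat.Agent.TR.PL.SigmaSeam.exists_zpow_unif_zero hA h hsurj hW
    (stabV_le_inertia V) hidx0 hU h3 h4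
  refine ⟨ζ, s, w, ρ, hζp, hζ1, hs, hidx, hρI, hρ, hconj, hσE, hfd, hU, hpow, hSa, hSb, htame,
    hwild, ?_, D, f₁, N, h1, h2, h3, h4, h5, h6, h7, h8, hN1, hN2⟩
  intro g hg hg0
  obtain ⟨ni, ha, hb⟩ := Fermat.Agent.TR.PL.SigmaSeam.exists_zpow_unif_inf hA h hsurj hW
    (stabV_le_inertia V) hidx0 hU hg hg0
  obtain ⟨n0, hc, hd⟩ := Fermat.Agent.TR.PL.SigmaSeam.exists_zpow_unif_zero hA h hsurj hW
    (stabV_le_inertia V) hidx0 hU hg hg0
  exact ⟨ni, n0, ⟨ha, hb⟩, ⟨hc, hd⟩⟩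

end Fermat.Agent.TR.PL.HeadSh
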