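import Mathlib
import Fermat.Agent.BAD.KerRedTriv
import Fermat.Agent.BAD.LatFixedSub
import Fermat.Agent.CAR.Formal.DescentCore

/-!
# TR / (PL), row 466 (PL-C): `K''`-rational normalised representatives of `(ρ - 1) x`

Setting of `BAD/KerRed.lean` (`A` over `q`, `I` its inertia group, `O = O_∞ ∩ O_0`, a nodal
datum `E1`, `E2`).  Let `H ≤ I` be a subgroup with finitely many cosets in `I` and a uniformiser
`ϖ` of its fixed field (`IsUnifSub`), `x` an `H`-fixed `q`-torsion class of `J₀(Mq)`, and `ρ ∈ I`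
normalising `H`.

* `exists_fixed_lift_rr` : for an `H`-fixed divisor `B`, every element of `L(B) ∩ O` has the same
  reduction as an `H`-FIXED element of `L(B) ∩ O`;
* `exists_fixed_normalized` : the class `α • (ρ • x - x)` (in the kernel of reduction) has an
  `H`-FIXED representative `D'` such that `D'` and `-D'` have `H`-FIXED sections in `O` of
  reduction exactly `1` on all large charts; moreover `D'` is effective off `E1`, and bounded
  there by the divisor of an `H`-fixed integral chart function `u` of reduction `1` (so `D'` has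
  no place at which `u` is a unit — in particular no place through a node).
-/

set_option autoImplicit false
set_option linter.unusedSectionVars false
set_option linter.unusedVariables false

namespace Fermat.Agent.TR.PL.KerRedDepth

open AlgebraicCurve ModularCurve Fermat.Agent.Lib.FF Fermat.Agent.Lib.Red.Deform
  Fermat.Agent.Lib.Red.CoordLat Fermat.Agent.BAD.NodalDiv Fermat.Agent.BAD.NodalRiemann
  Fermat.Agent.BAD.TwoVal Fermat.Agent.BAD.NodalAsm Fermat.Agent.BAD.BadU
  Fermat.Agent.BAD.NodalP1Asm Fermat.Agent.BAD.NodalBridge Fermat.Agent.BAD.KerRed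
  Fermat.Agent.BAD.LatFixedInst Fermat.Agent.BAD.LatFixed

local notation "Qb" => AlgebraicClosure ℚ
local notation "GQ" => (AlgebraicClosure ℚ ≃ₐ[ℚ] AlgebraicClosure ℚ)

/-- `H` is a subgroup of the inertia group `I` of `A` with finitely many cosets in `I`, and `ϖ`
is a uniformiser of the fixed field of `H`. -/
structure IsUnifSub (A : ValuationSubring Qb) (H : Subgroup GQ) (ϖ : Qb) : Prop where
  le : ∀ σ ∈ H, σ ∈ A.inertiaSubgroupIn ℚ
  cosets : ∃ (m : ℕ) (ρs : Fin m → GQ), (∀ j, ρs j ∈ A.inertiaSubgroupIn ℚ) ∧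
    ∀ σ ∈ A.inertiaSubgroupIn ℚ, ∃ j, ∃ τ ∈ H, σ = ρs j * τ
  fix : ∀ σ ∈ H, σ ϖ = ϖ
  ne_zero : ϖ ≠ 0
  lt_one : A.valuation ϖ < 1
  unif : ∀ a : Qb, (∀ σ ∈ H, σ a = a) → A.valuation a < 1 → A.valuation a ≤ A.valuation ϖ

variable {A : ValuationSubring Qb} {k : Type} [Field k] {π : A →+* k} {M q : ℕ} [NeZero M]
  [NeZero q]

/-- The divisors of a nodal datum are fixed by the inertia group. -/
theorem nodalFibreFor_galois {h : BadSetup A π M q}
    {W : laurentBaseChange Qb (modularFunctionFieldFull (M * q)) ≃ₐ[Qb]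
      laurentBaseChange Qb (modularFunctionFieldFull (M * q))}
    {E1 E2 : Divisor Qb (laurentBaseChange Qb (modularFunctionFieldFull (M * q)))}
    (hNF : NodalFibreFor h W E1 E2) :
    ∀ σ ∈ A.inertiaSubgroupIn ℚ,
      arithmeticGalois (modularFunctionFieldFull (M * q)) σ • E1 = E1 ∧
      arithmeticGalois (modularFunctionFieldFull (M * q)) σ • E2 = E2 := by
  obtain ⟨ι, _, _, e₁, e₂, P₁, Z₁, P₂, Z₂, -, -, -, -, -, -, -, -, -, -, -, -, -, -, -, hgalE, -⟩ :=
    hNF
  exact hgalE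

theorem hasSec_nsmul {h : BadSetup A π M q}
    {W : laurentBaseChange Qb (modularFunctionFieldFull (M * q)) ≃ₐ[Qb]
      laurentBaseChange Qb (modularFunctionFieldFull (M * q))}
    {E1 E2 D : Divisor Qb (laurentBaseChange Qb (modularFunctionFieldFull (M * q)))}
    (hE1 : ∀ v, 0 ≤ E1 v) (hE2 : ∀ v, 0 ≤ E2 v) (hD : HasSec h W E1 E2 D) (n : ℕ) :
    HasSec h W E1 E2 (n • D) := by
  induction n with
  | zero => rw [zero_smul]; exact hasSec_zero hE1 hE2
  | succ n ih => rw [succ_nsmul]; exact ih.add hD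

/-- A chart divisor over a fixed divisor is fixed. -/
theorem chart_fixed {L F : Type*} [Field L] [Field F] [Algebra L F] {g : SemilinearAut L F}
    {B E1 E2 : Divisor L F} (hB : g • B = B) (h1 : g • E1 = E1) (h2 : g • E2 = E2)
    (n₁ n₂ : ℕ) : g • (B + n₁ • E1 + n₂ • E2) = B + n₁ • E1 + n₂ • E2 := by
  rw [smul_add, smul_add, smul_comm g n₁ E1, smul_comm g n₂ E2, hB, h1, h2]

/-- **`K''`-rational lifts in `L(B)`.**  For an `H`-fixed divisor `B`, every element of
`L(B) ∩ O` has the same reduction as an `H`-fixed element of `L(B) ∩ O`. -/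
theorem exists_fixed_lift_rr (hπ : Function.Surjective π) (h : BadSetup A π M q)
    {W : laurentBaseChange Qb (modularFunctionFieldFull (M * q)) ≃ₐ[Qb]
      laurentBaseChange Qb (modularFunctionFieldFull (M * q))} (hW : IsAL M q W)
    (hA : A.LiesOverPrime q) {H : Subgroup GQ} {ϖ : Qb} (hd : IsUnifSub A H ϖ)
    (B : Divisor Qb (laurentBaseChange Qb (modularFunctionFieldFull (M * q))))
    (hB : ∀ σ ∈ H, arithmeticGalois (modularFunctionFieldFull (M * q)) σ • B = B)
    {f : laurentBaseChange Qb (modularFunctionFieldFull (M * q))}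
    (hfB : f ∈ riemannRochSpace B) (hfO : f ∈ OPair h W) :
    ∃ (f' : laurentBaseChange Qb (modularFunctionFieldFull (M * q))) (hf'O : f' ∈ OPair h W),
      f' ∈ riemannRochSpace B ∧
      (∀ σ ∈ H, arithmeticGalois (modularFunctionFieldFull (M * q)) σ • f' = f') ∧
      redPair h W ⟨f', hf'O⟩ = redPair h W ⟨f, hfO⟩ := by
  have hq : q.Prime := h.hℓ
  obtain ⟨m, ρs, hρI, hρs⟩ := hd.cosets
  have : FiniteDimensional Qb (riemannRochSpace B) := (isFF1_xL Qb (M * q)).finite_L B
  have hV : ∀ σ ∈ H, ∀ f ∈ riemannRochSpace B,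
      arithmeticGalois (L := Qb) (modularFunctionFieldFull (M * q)) σ • f ∈
        riemannRochSpace B :=
    fun σ hσ f hf => Fermat.Agent.Padic.semilinear_smul_mem_rr _
      (fun v => by rw [← SemilinearAut.divisor_smul_apply, hB σ hσ]) hf
  obtain ⟨V', hV'fin, hVV', hV'⟩ :=
    exists_stable_superspace (A := A) H ρs hρI hρs (riemannRochSpace B) hV
  have := hV'fin
  exact exists_fixed_lift_sub hq hA h hπ hW (H : Set GQ) hd.le ϖ hd.fix hd.ne_zero hd.lt_one
    hd.unif (riemannRochSpace B) V' hVV' hV hV' hfB hfO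

set_option maxHeartbeats 1600000 in
/-- **(PL-C), construction.**  Let `H ≤ I` with uniformiser `ϖ` (`IsUnifSub`), `x` an `H`-fixed
`q`-torsion class, `ρ ∈ I` normalising `H`.  The class `α • (ρ • x - x)` has an `H`-fixed
representative `D'` such that `D'` and `-D'` have `H`-fixed sections in `O` of reduction exactly
`1` on all large charts; `D'` is effective off `E1` and bounded there by the divisor of an
`H`-fixed chart function `u ∈ O ∩ L(m E1)` of reduction `1`. -/
theorem exists_fixed_normalized [IsAlgClosed k] (hπ : Function.Surjective π)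
    (h : BadSetup A π M q)
    (W : laurentBaseChange Qb (modularFunctionFieldFull (M * q)) ≃ₐ[Qb]
      laurentBaseChange Qb (modularFunctionFieldFull (M * q))) (hW : IsAL M q W)
    (hA : A.LiesOverPrime q) (H : Subgroup GQ) (ϖ : Qb) (hd : IsUnifSub A H ϖ)
    {E1 E2 : Divisor Qb (laurentBaseChange Qb (modularFunctionFieldFull (M * q)))}
    (hNF : NodalFibreFor h W E1 E2)
    (x : JZero (M * q)) (hxq : q • x = 0) (hxH : ∀ σ ∈ H, σ • x = x)
    (ρ : GQ) (hρ : ρ ∈ A.inertiaSubgroupIn ℚ) (hρH : ∀ σ ∈ H, ρ⁻¹ * σ * ρ ∈ H) (α : ℕ) :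
    ∃ D' : Divisor.degZero (K := Qb)
        (F := laurentBaseChange Qb (modularFunctionFieldFull (M * q))),
      Pic0.mk D' = α • (ρ • x - x) ∧
      (∀ σ ∈ H, arithmeticGalois (modularFunctionFieldFull (M * q)) σ •
        (D' : Divisor Qb (laurentBaseChange Qb (modularFunctionFieldFull (M * q)))) = D') ∧
      (∃ N : ℕ, ∀ n₁ n₂ : ℕ, N ≤ n₁ + n₂ →
        (∃ (s : laurentBaseChange Qb (modularFunctionFieldFull (M * q))) (hs : s ∈ OPair h W),
          s ∈ riemannRochSpace
            ((D' : Divisor Qb (laurentBaseChange Qb (modularFunctionFieldFull (M * q)))) +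
              n₁ • E1 + n₂ • E2) ∧ redPair h W ⟨s, hs⟩ = 1 ∧
          ∀ σ ∈ H, arithmeticGalois (modularFunctionFieldFull (M * q)) σ • s = s) ∧
        (∃ (s : laurentBaseChange Qb (modularFunctionFieldFull (M * q))) (hs : s ∈ OPair h W),
          s ∈ riemannRochSpace
            (-(D' : Divisor Qb (laurentBaseChange Qb (modularFunctionFieldFull (M * q)))) +
              n₁ • E1 + n₂ • E2) ∧ redPair h W ⟨s, hs⟩ = 1 ∧
          ∀ σ ∈ H, arithmeticGalois (modularFunctionFieldFull (M * q)) σ • s = s)) ∧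
      (∃ (m : ℕ) (u : laurentBaseChange Qb (modularFunctionFieldFull (M * q)))
          (hu : u ∈ OPair h W),
        u ∈ riemannRochSpace (m • E1) ∧ redPair h W ⟨u, hu⟩ = 1 ∧
        (∀ σ ∈ H, arithmeticGalois (modularFunctionFieldFull (M * q)) σ • u = u) ∧
        ∀ P : Place Qb (laurentBaseChange Qb (modularFunctionFieldFull (M * q))), E1 P = 0 →
          0 ≤ (D' : Divisor Qb (laurentBaseChange Qb (modularFunctionFieldFull (M * q)))) P ∧
          (D' : Divisor Qb (laurentBaseChange Qb (modularFunctionFieldFull (M * q)))) P ≤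
            P.ord u) := by
  classical
  have hq : q.Prime := h.hℓ
  have hchar := h.charP
  have hinj : ∀ c : k, c ^ q = 1 → c = 1 := fun c hc =>
    eq_one_of_pow_char_pow q hq 1 c (by rwa [pow_one])
  obtain ⟨hE1, hE2⟩ := hNF.nonneg
  have hgalE := nodalFibreFor_galois hNF
  have hE1H : ∀ σ ∈ H, arithmeticGalois (modularFunctionFieldFull (M * q)) σ • E1 = E1 :=
    fun σ hσ => (hgalE σ (hd.le σ hσ)).1
  have hE2H : ∀ σ ∈ H, arithmeticGalois (modularFunctionFieldFull (M * q)) σ • E2 = E2 :=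
    fun σ hσ => (hgalE σ (hd.le σ hσ)).2
  -- an `H`-fixed Kummer pair for `x`
  obtain ⟨D₁, f₁, rfl, hdiv1, hD₁H, hf₁H, -⟩ :=
    Fermat.Agent.CAR.Formal.DescentCore.exists_fixed_kummer (M * q) (H : Set GQ) q x hxq hxH
  have hdiv1' : ∀ P : Place Qb (laurentBaseChange Qb (modularFunctionFieldFull (M * q))),
      (q : ℤ) * (D₁ : Divisor Qb (laurentBaseChange Qb (modularFunctionFieldFull (M * q)))) P
        = P.ord f₁ := by
    intro P
    rw [← hdiv1.2 P, Finsupp.smul_apply, nsmul_eq_mul]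
  -- the divisor `X = ρ D₁ - D₁`
  obtain ⟨X, hX⟩ : ∃ X : Divisor Qb (laurentBaseChange Qb (modularFunctionFieldFull (M * q))),
      X = arithmeticGalois (modularFunctionFieldFull (M * q)) ρ •
        (D₁ : Divisor Qb (laurentBaseChange Qb (modularFunctionFieldFull (M * q)))) - D₁ :=
    ⟨_, rfl⟩
  have hS1 : HasSec h W E1 E2 X := by
    rw [hX]
    exact hasSec_smul_sub hπ h W hW hA hNF q hq.ne_zero hinj ρ hρ _ f₁ hdiv1.1 hdiv1'
  have hS1' : HasSec h W E1 E2 (-X) := by
    have := hasSec_smul_sub hπ h W hW hA hNF q hq.ne_zero hinj ρ hρ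
      (-(D₁ : Divisor Qb (laurentBaseChange Qb (modularFunctionFieldFull (M * q))))) f₁⁻¹
      (inv_ne_zero hdiv1.1) (fun P => by rw [Finsupp.neg_apply, P.ord_inv, ← hdiv1']; ring)
    rw [smul_neg_divisor, neg_sub_neg, ← neg_sub] at this
    rw [hX]
    exact this
  have hXH : ∀ σ ∈ H, arithmeticGalois (modularFunctionFieldFull (M * q)) σ • X = X := by
    intro σ hσ
    have e1 : arithmeticGalois (modularFunctionFieldFull (M * q)) σ •
        (arithmeticGalois (modularFunctionFieldFull (M * q)) ρ •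
          (D₁ : Divisor Qb (laurentBaseChange Qb (modularFunctionFieldFull (M * q))))) =
        arithmeticGalois (modularFunctionFieldFull (M * q)) ρ •
          (D₁ : Divisor Qb (laurentBaseChange Qb (modularFunctionFieldFull (M * q)))) := by
      have h1 : σ * ρ = ρ * (ρ⁻¹ * σ * ρ) := by group
      rw [← mul_smul, ← map_mul, h1, map_mul, mul_smul, hD₁H _ (hρH σ hσ)]
    rw [hX, smul_sub, e1, hD₁H σ hσ]
  have hSa : HasSec h W E1 E2 (α • X) := hasSec_nsmul hE1 hE2 hS1 α
  have hSa' : HasSec h W E1 E2 (-(α • X)) := by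
    rw [← neg_nsmul]
    exact hasSec_nsmul hE1 hE2 hS1' α
  have hXaH : ∀ σ ∈ H, arithmeticGalois (modularFunctionFieldFull (M * q)) σ • (α • X) =
      α • X := fun σ hσ => by rw [smul_comm, hXH σ hσ]
  obtain ⟨c₁, c₂, hc₁, hc₂, N, hN⟩ := hSa
  obtain ⟨c₁', c₂', hc₁', hc₂', N', hN'⟩ := hSa'
  obtain ⟨ι, _, hne, e₁, e₂, P₁, Z₁, P₂, Z₂, hinj₁, hinj₂, hP₁, hZ₁, hP₂, hZ₂, hd₁, hd₂,
    hdegP₁, hdegP₂, -, -, hdisj, hdegE1, hdegE2, -, N₀, hS2⟩ := hNF
  -- the `H`-fixed section `s₀`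
  obtain ⟨⟨t₀, ht₀O⟩, ht₀, hrt₀⟩ := hN N 0 (by omega)
  obtain ⟨s₀, hs₀O, hs₀, hs₀H, hrs₀⟩ := exists_fixed_lift_rr hπ h hW hA hd
    (α • X + N • E1 + 0 • E2)
    (fun σ hσ => chart_fixed (hXaH σ hσ) (hE1H σ hσ) (hE2H σ hσ) N 0) ht₀ ht₀O
  have hr₀ : redPair h W ⟨s₀, hs₀O⟩ = (algebraMap k ↥(modularFunctionFieldFullC k M) c₁,
      algebraMap k ↥(modularFunctionFieldFullC k M) c₂) := hrs₀.trans hrt₀
  have hs₀' : s₀ ∈ VB (α • X) E1 E2 N 0 := hs₀
  have hO1 : s₀ ∈ OInf h := ((mem_OPair_iff h _).1 hs₀O).1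
  have hO2 : s₀ ∈ OZero h W := ((mem_OPair_iff h _).1 hs₀O).2
  have hr₁ : redInf h ⟨s₀, hO1⟩ = algebraMap k ↥(modularFunctionFieldFullC k M) c₁ := by
    have := hr₀
    rw [redPair_mk] at this
    exact congrArg Prod.fst this
  have hr₂ : redZero h W ⟨s₀, hO2⟩ = algebraMap k ↥(modularFunctionFieldFullC k M) c₂ := by
    have := hr₀
    rw [redPair_mk] at this
    exact congrArg Prod.snd this
  have hs₀ne : s₀ ≠ 0 := by
    rintro rfl
    have h0 : redInf h ⟨0, hO1⟩ = 0 := map_zero (redInf h)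
    rw [hr₁] at h0
    exact hc₁ ((map_eq_zero _).1 h0)
  have hinv1 : s₀⁻¹ ∈ OInf h :=
    inv_mem_OInf h _ hO1 (by rw [hr₁]; exact (map_ne_zero _).2 hc₁)
  have hinv2 : s₀⁻¹ ∈ OZero h W :=
    inv_mem_OZero h _ hO2 (by rw [hr₂]; exact (map_ne_zero _).2 hc₂)
  have hinvO : s₀⁻¹ ∈ OPair h W := (mem_OPair_iff h _).2 ⟨hinv1, hinv2⟩
  have hrinv : redPair h W ⟨s₀⁻¹, hinvO⟩ =
      (algebraMap k ↥(modularFunctionFieldFullC k M) c₁⁻¹,
        algebraMap k ↥(modularFunctionFieldFullC k M) c₂⁻¹) := by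
    apply eq_inv_pair
    rw [← hr₀, ← map_mul]
    have : (⟨s₀, hs₀O⟩ : OPair h W) * ⟨s₀⁻¹, hinvO⟩ = 1 := Subtype.ext (mul_inv_cancel₀ hs₀ne)
    rw [this, map_one]
  -- the divisor of `s₀`
  have hPD := (isFF1_xL Qb (M * q)).hasPrincipalDivisors
  obtain ⟨Ds, hDs, hDsdeg⟩ := HasPrincipalDivisors.exists_divisor (K := Qb) s₀ hs₀ne
  have hDsmem : Ds ∈ Divisor.degZero (K := Qb)
      (F := laurentBaseChange Qb (modularFunctionFieldFull (M * q))) :=
    Divisor.mem_degZero.2 hDsdeg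
  have hDsH : ∀ σ ∈ H, arithmeticGalois (modularFunctionFieldFull (M * q)) σ • Ds = Ds := by
    intro σ hσ
    ext w
    rw [SemilinearAut.divisor_smul_apply, hDs, hDs]
    have h1 := SemilinearAut.ord_smul (arithmeticGalois (modularFunctionFieldFull (M * q)) σ)
      ((arithmeticGalois (modularFunctionFieldFull (M * q)) σ)⁻¹ • w) s₀
    rw [smul_inv_smul, hs₀H σ hσ] at h1
    exact h1.symm
  -- the constants agree at a node
  have hlam : c₁' * c₁ = c₂' * c₂ := by
    obtain ⟨y', hy', hry'⟩ := hN' (N' + N₀) 0 (by omega)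
    have hy'' : (y' : laurentBaseChange Qb (modularFunctionFieldFull (M * q))) ∈
        VB (-(α • X)) E1 E2 (N' + N₀) 0 := hy'
    have hm := mul_mem_VB hy'' hs₀'
    rw [neg_add_cancel, add_zero] at hm
    unfold VB at hm
    rw [zero_add] at hm
    have hm2 : ((y' * ⟨s₀, hs₀O⟩ : OPair h W) :
        laurentBaseChange Qb (modularFunctionFieldFull (M * q))) ∈
        riemannRochSpace ((N' + N₀ + N) • E1 + 0 • E2) := hm
    have hle : N₀ ≤ N' + N₀ + N + 0 := by omega
    have hiff := hS2 (N' + N₀ + N) 0 hle (redPair h W (y' * ⟨s₀, hs₀O⟩))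
    have hex : ∃ y : OPair h W, (y : laurentBaseChange Qb (modularFunctionFieldFull (M * q))) ∈
        riemannRochSpace ((N' + N₀ + N) • E1 + 0 • E2) ∧
        redPair h W y = redPair h W (y' * ⟨s₀, hs₀O⟩) := ⟨_, hm2, rfl⟩
    have hmem := hiff.1 hex
    rw [map_mul, hry', hr₀, Prod.mk_mul_mk, ← map_mul, ← map_mul] at hmem
    obtain ⟨i⟩ := hne
    obtain ⟨c, hc1, hc2⟩ := hmem.2.2 i
    have e1 := (cong_algebraMap_iff _).1 hc1
    have e2 := (cong_algebraMap_iff _).1 hc2
    rw [one_mul] at e2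
    rw [e1, e2]
  have hlam0 : c₁' * c₁ ≠ 0 := mul_ne_zero hc₁' hc₁
  obtain ⟨a, ha⟩ := hπ (c₁' * c₁)⁻¹
  -- the representative
  obtain ⟨D', hD'⟩ : ∃ D' : Divisor.degZero (K := Qb)
      (F := laurentBaseChange Qb (modularFunctionFieldFull (M * q))),
      D' = α • (SemilinearAut.degZeroSMulHom
        (arithmeticGalois (modularFunctionFieldFull (M * q)) ρ) D₁ - D₁) + ⟨Ds, hDsmem⟩ :=
    ⟨_, rfl⟩
  have hcoe : (D' : Divisor Qb (laurentBaseChange Qb (modularFunctionFieldFull (M * q)))) =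
      α • X + Ds := by
    rw [hD', hX]
    rfl
  have hmk : Pic0.mk D' = α • (ρ • Pic0.mk D₁ - Pic0.mk D₁) := by
    have hz : Pic0.mk (⟨Ds, hDsmem⟩ : Divisor.degZero (K := Qb)
        (F := laurentBaseChange Qb (modularFunctionFieldFull (M * q)))) = 0 :=
      (QuotientAddGroup.eq_zero_iff _).2 ⟨s₀, hs₀ne, hDs⟩
    rw [hD', Pic0.mk_add, hz, add_zero]
    rfl
  have hD'H : ∀ σ ∈ H, arithmeticGalois (modularFunctionFieldFull (M * q)) σ •
      (D' : Divisor Qb (laurentBaseChange Qb (modularFunctionFieldFull (M * q)))) = D' := by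
    intro σ hσ
    rw [hcoe, smul_add, hXaH σ hσ, hDsH σ hσ]
  -- sections of reduction `1`, not yet fixed
  have hsec : ∀ n₁ n₂ : ℕ, N + N' ≤ n₁ + n₂ →
      (∃ y : OPair h W,
        (y : laurentBaseChange Qb (modularFunctionFieldFull (M * q))) ∈ riemannRochSpace
          (α • X + Ds + n₁ • E1 + n₂ • E2) ∧ redPair h W y = 1) ∧
      (∃ y : OPair h W,
        (y : laurentBaseChange Qb (modularFunctionFieldFull (M * q))) ∈ riemannRochSpace
          (-(α • X + Ds) + n₁ • E1 + n₂ • E2) ∧ redPair h W y = 1) := by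
    intro n₁ n₂ hl
    constructor
    · obtain ⟨y, hy, hry⟩ := hN n₁ n₂ (by omega)
      have hy'' : (y : laurentBaseChange Qb (modularFunctionFieldFull (M * q))) ∈
          VB (α • X) E1 E2 n₁ n₂ := hy
      have hm := mul_mem_VB hy'' (inv_mem_VB_of_div E1 E2 hDs)
      rw [add_zero, add_zero] at hm
      unfold VB at hm
      have hm2 : ((y * ⟨s₀⁻¹, hinvO⟩ : OPair h W) :
          laurentBaseChange Qb (modularFunctionFieldFull (M * q))) ∈
          riemannRochSpace (α • X + Ds + n₁ • E1 + n₂ • E2) := hm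
      have hred : redPair h W (y * ⟨s₀⁻¹, hinvO⟩) = 1 := by
        rw [map_mul, hry, hrinv, Prod.mk_mul_mk, ← map_mul, ← map_mul, mul_inv_cancel₀ hc₁,
          mul_inv_cancel₀ hc₂, map_one]
        rfl
      exact ⟨_, hm2, hred⟩
    · obtain ⟨y', hy', hry'⟩ := hN' n₁ n₂ (by omega)
      have hy'' : (y' : laurentBaseChange Qb (modularFunctionFieldFull (M * q))) ∈
          VB (-(α • X)) E1 E2 n₁ n₂ := hy'
      have hm := mul_mem_VB hy'' (mem_VB_neg_of_div E1 E2 hDs)
      rw [add_zero, add_zero, ← neg_add] at hm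
      unfold VB at hm
      have haO : algebraMap Qb ↥(laurentBaseChange Qb (modularFunctionFieldFull (M * q))) (a : Qb)
          ∈ OPair h W := (OPair_hOA h _).2 a.2
      have hm2 : (((⟨_, haO⟩ : OPair h W) * (y' * ⟨s₀, hs₀O⟩) : OPair h W) :
          laurentBaseChange Qb (modularFunctionFieldFull (M * q))) ∈
          riemannRochSpace (-(α • X + Ds) + n₁ • E1 + n₂ • E2) := by
        show algebraMap Qb ↥(laurentBaseChange Qb (modularFunctionFieldFull (M * q))) (a : Qb) *
          ((y' : laurentBaseChange Qb (modularFunctionFieldFull (M * q))) * s₀) ∈ _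
        rw [← Algebra.smul_def]
        exact Submodule.smul_mem _ _ hm
      have hred : redPair h W ((⟨_, haO⟩ : OPair h W) * (y' * ⟨s₀, hs₀O⟩)) = 1 := by
        rw [map_mul, redPair_algebraMap h a haO, map_mul, hry', hr₀, Prod.mk_mul_mk,
          Prod.mk_mul_mk, ha, ← map_mul, ← map_mul, ← map_mul, ← map_mul, ← hlam,
          inv_mul_cancel₀ hlam0, map_one]
        rfl
      exact ⟨_, hm2, hred⟩
  -- the `H`-fixed sections
  have hD'fix : ∀ σ ∈ H, arithmeticGalois (modularFunctionFieldFull (M * q)) σ •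
      (α • X + Ds) = α • X + Ds := by
    intro σ hσ
    rw [smul_add, hXaH σ hσ, hDsH σ hσ]
  have hD'fixn : ∀ σ ∈ H, arithmeticGalois (modularFunctionFieldFull (M * q)) σ •
      (-(α • X + Ds)) = -(α • X + Ds) := by
    intro σ hσ
    rw [smul_neg, hD'fix σ hσ]
  have hsecH : ∀ n₁ n₂ : ℕ, N + N' ≤ n₁ + n₂ →
      (∃ (s : laurentBaseChange Qb (modularFunctionFieldFull (M * q))) (hs : s ∈ OPair h W),
        s ∈ riemannRochSpace (α • X + Ds + n₁ • E1 + n₂ • E2) ∧ redPair h W ⟨s, hs⟩ = 1 ∧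
        ∀ σ ∈ H, arithmeticGalois (modularFunctionFieldFull (M * q)) σ • s = s) ∧
      (∃ (s : laurentBaseChange Qb (modularFunctionFieldFull (M * q))) (hs : s ∈ OPair h W),
        s ∈ riemannRochSpace (-(α • X + Ds) + n₁ • E1 + n₂ • E2) ∧ redPair h W ⟨s, hs⟩ = 1 ∧
        ∀ σ ∈ H, arithmeticGalois (modularFunctionFieldFull (M * q)) σ • s = s) := by
    intro n₁ n₂ hl
    obtain ⟨⟨y, hy, hry⟩, ⟨y', hy', hry'⟩⟩ := hsec n₁ n₂ hl
    constructor
    · obtain ⟨s, hsO, hs, hsH, hrs⟩ := exists_fixed_lift_rr hπ h hW hA hd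
        (α • X + Ds + n₁ • E1 + n₂ • E2)
        (fun σ hσ => chart_fixed (hD'fix σ hσ) (hE1H σ hσ) (hE2H σ hσ) n₁ n₂) hy y.2
      exact ⟨s, hsO, hs, hrs.trans hry, hsH⟩
    · obtain ⟨s, hsO, hs, hsH, hrs⟩ := exists_fixed_lift_rr hπ h hW hA hd
        (-(α • X + Ds) + n₁ • E1 + n₂ • E2)
        (fun σ hσ => chart_fixed (hD'fixn σ hσ) (hE1H σ hσ) (hE2H σ hσ) n₁ n₂) hy' y'.2
      exact ⟨s, hsO, hs, hrs.trans hry', hsH⟩
  refine ⟨D', hmk, hD'H, ⟨N + N', fun n₁ n₂ hl => ?_⟩, ?_⟩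
  · rw [hcoe]
    exact hsecH n₁ n₂ hl
  · -- the bounding chart function
    obtain ⟨u, huO, hu, hru, huH⟩ := (hsecH (N + N') 0 (by omega)).2
    have hu' : u ∈ VB (-(α • X + Ds)) E1 E2 (N + N') 0 := hu
    have hune : u ≠ 0 := by
      rintro rfl
      have h0 : redPair h W ⟨0, huO⟩ = 0 := map_zero (redPair h W)
      rw [hru] at h0
      exact one_ne_zero h0
    have hlow : ∀ v : Place Qb (laurentBaseChange Qb (modularFunctionFieldFull (M * q))),
        -((N : ℤ) * E1 v) ≤ (α • X + Ds) v := by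
      intro v
      have h1 := ((mem_VB.1 hs₀') v).resolve_left hs₀ne
      rw [Nat.cast_zero, zero_mul, add_zero] at h1
      rw [Finsupp.add_apply, hDs v]
      linarith
    have hup : ∀ v : Place Qb (laurentBaseChange Qb (modularFunctionFieldFull (M * q))),
        (α • X + Ds) v - ((N : ℤ) + (N' : ℤ)) * E1 v ≤ v.ord u := by
      intro v
      have h1 := ((mem_VB.1 hu') v).resolve_left hune
      rw [Nat.cast_zero, zero_mul, add_zero, Finsupp.neg_apply, Nat.cast_add] at h1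
      linarith
    refine ⟨N + (N + N'), u, huO, ?_, hru, huH, fun P hP => ?_⟩
    · rw [mem_riemannRochSpace_iff]
      intro v
      right
      have h1 := hlow v
      have h2 := hup v
      rw [Finsupp.smul_apply, nsmul_eq_mul, Nat.cast_add, Nat.cast_add]
      linarith
    · rw [hcoe]
      have h1 := hlow P
      have h2 := hup P
      rw [hP] at h1 h2
      constructor
      · linarith
      · linarith

end Fermat.Agent.TR.PL.KerRedDepth
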