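/-
TR / (PL), brick PL-C (second seat, helper60): the Kr side.

Setting of `BAD/KerRed`: `A` a valuation subring of `ℚ̄` over `q`,
`h : BadSetup A (residue A) M q`, `O = OPair h W ⊆ F = F_{Mq}`, `redPair h W : O → κ × κ`.
`H ⊆ I` is a set of inertia elements (think `H = Gal(ℚ̄/K₁)`).

* `exists_fixed_normalized` : a class `y` of the kernel of reduction which is fixed by `H` has a
  representative `D'` which is fixed by `H` AS A DIVISOR and normalised: `D'` and `-D'` have
  sections in `O` with reduction exactly `1` on all large charts `n₁ E1 + n₂ E2`.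
  (`D' = D_y - B`, `D_y` the unique effective divisor of degree `g` with `l(D_y) = 1` in the class
  `y + [B]`, `B` the inertia-fixed base divisor of RC-2.)
-/
import Mathlib
import Fermat.Agent.BAD.SmoothLiftInst
import Fermat.Agent.BAD.KerRedKummer
import Fermat.Agent.BAD.LatFixedSub
import Fermat.Agent.Padic.S33.RC.KerDivFam
import Fermat.Agent.Padic.S33.RC.KDFormal
import Fermat.Agent.Padic.S33.RC.SmallBadB

set_option autoImplicit false

namespace Fermat.Agent.TR.PL.KerRedDepthB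

open AlgebraicCurve ModularCurve Module Fermat.Agent.Lib.FF Fermat.Agent.Lib.Red.Deform
  Fermat.Agent.Lib.Red.CoordLat Fermat.Agent.BAD.NodalDiv Fermat.Agent.BAD.NodalRiemann
  Fermat.Agent.BAD.TwoVal Fermat.Agent.BAD.NodalAsm Fermat.Agent.BAD.BadU Fermat.Agent.BAD.KerRed
  Fermat.Agent.Padic.S33.RC.OrthoFam Fermat.Agent.Padic.GenPosAbs
  Fermat.Agent.Padic.S33.RC

local notation "Qb" => AlgebraicClosure ℚ
local notation "GQ" => (AlgebraicClosure ℚ ≃ₐ[ℚ] AlgebraicClosure ℚ)

section Abstract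

variable {L F : Type*} [Field L] [Field F] [Algebra L F]
variable {A : ValuationSubring L} {O : Subring F}

/-- If `t ≡ 1 mod ϖ O` and `p ∈ ϖ ^ (p - 1) A`, then `t ^ p ≡ 1 mod ϖ ^ p O`. -/
theorem dvd_pow_sub_one (hOA : ∀ x : L, algebraMap L F x ∈ O ↔ x ∈ A) {p : ℕ} (hp : p.Prime)
    {ϖ : L} (hϖA : A.valuation ϖ ≤ 1)
    (hpϖ : A.valuation (p : L) ≤ A.valuation ϖ ^ (p - 1)) {t : F} (ht : Dvd O ϖ (t - 1)) :
    Dvd O (ϖ ^ p) (t ^ p - 1) := by
  obtain ⟨z, hz, htz⟩ := ht
  have ht' : t = algebraMap L F ϖ * z + 1 := by rw [← htz]; ring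
  have hϖO : algebraMap L F ϖ ∈ O := (hOA _).2 ((A.valuation_le_one_iff _).1 hϖA)
  rw [ht', add_pow, Finset.sum_range_succ', pow_zero, one_mul, Nat.choose_zero_right,
    Nat.cast_one, mul_one, one_pow, add_sub_cancel_right]
  refine Finset.sum_induction _ (Dvd O (ϖ ^ p)) (fun _ _ h1 h2 => h1.add h2) (dvd_zero _)
    (fun m hm => ?_)
  rw [Finset.mem_range] at hm
  rw [one_pow, mul_one, mul_pow]
  rcases Nat.lt_or_ge (m + 1) p with hlt | hge
  · -- `p ∣ choose p (m + 1)`
    obtain ⟨c, hc⟩ := hp.dvd_choose_self (Nat.succ_ne_zero m) hlt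
    have h1 : Dvd O (ϖ ^ (m + 1) * (p : L))
        (algebraMap L F ϖ ^ (m + 1) * z ^ (m + 1) * ((p.choose (m + 1) : ℕ) : F)) := by
      refine ⟨z ^ (m + 1) * ((c : ℕ) : F), O.mul_mem (O.pow_mem hz _) (natCast_mem O c), ?_⟩
      rw [hc, Nat.cast_mul, map_mul, map_pow, map_natCast]
      ring
    refine h1.mono hOA ?_
    rw [map_mul, map_pow, map_pow]
    calc A.valuation ϖ ^ (m + 1) * A.valuation (p : L)
        ≤ A.valuation ϖ ^ (m + 1) * A.valuation ϖ ^ (p - 1) := mul_le_mul' le_rfl hpϖ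
      _ = A.valuation ϖ ^ (m + 1 + (p - 1)) := (pow_add _ _ _).symm
      _ ≤ A.valuation ϖ ^ p := pow_le_pow_right_of_le_one' hϖA (by omega)
  · have hmp : m + 1 = p := by omega
    rw [hmp, Nat.choose_self, Nat.cast_one, mul_one]
    exact ⟨z ^ p, O.pow_mem hz _, by rw [map_pow]⟩

end Abstract

section Normalized

variable {A : ValuationSubring Qb} {M q : ℕ} [NeZero M] [NeZero q]

set_option synthInstance.maxHeartbeats 400000 in
set_option maxHeartbeats 1600000 in
/-- **An `H`-fixed normalised representative.**  A class of the kernel of reduction which is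
fixed by a set `H` of inertia elements has a representative which is fixed by `H` as a divisor,
and such that `D'` and `-D'` have sections in `O` of reduction exactly `1` on all large charts. -/
theorem exists_fixed_normalized (hA : A.LiesOverPrime q)
    (h : BadSetup A (IsLocalRing.residue A) M q)
    (W : laurentBaseChange Qb (modularFunctionFieldFull (M * q)) ≃ₐ[Qb]
      laurentBaseChange Qb (modularFunctionFieldFull (M * q))) (hW : IsAL M q W)
    {E1 E2 : Divisor Qb (laurentBaseChange Qb (modularFunctionFieldFull (M * q)))}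
    (hNF : NodalFibreFor h W E1 E2)
    (H : Set GQ) (hH : ∀ σ ∈ H, σ ∈ A.inertiaSubgroupIn ℚ)
    {y : JZero (M * q)} (hy : y ∈ kerRed h W) (hyH : ∀ σ ∈ H, σ • y = y) :
    ∃ D' : Divisor.degZero (K := Qb)
        (F := laurentBaseChange Qb (modularFunctionFieldFull (M * q))),
      Pic0.mk D' = y ∧
      (∀ σ ∈ H, arithmeticGalois (modularFunctionFieldFull (M * q)) σ •
        (D' : Divisor Qb (laurentBaseChange Qb (modularFunctionFieldFull (M * q)))) = D') ∧
      ∃ N : ℕ, ∀ n₁ n₂ : ℕ, N ≤ n₁ + n₂ →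
        (∃ s : OPair h W,
          (s : laurentBaseChange Qb (modularFunctionFieldFull (M * q))) ∈ riemannRochSpace
            ((D' : Divisor Qb (laurentBaseChange Qb (modularFunctionFieldFull (M * q)))) +
              n₁ • E1 + n₂ • E2) ∧ redPair h W s = 1) ∧
        (∃ s : OPair h W,
          (s : laurentBaseChange Qb (modularFunctionFieldFull (M * q))) ∈ riemannRochSpace
            (-(D' : Divisor Qb (laurentBaseChange Qb (modularFunctionFieldFull (M * q)))) +
              n₁ • E1 + n₂ • E2) ∧ redPair h W s = 1) := by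
  classical
  have : IsAlgClosed (IsLocalRing.ResidueField A) := CharP.isAlgClosed_residueField A
  have hπ : Function.Surjective (IsLocalRing.residue A) := IsLocalRing.residue_surjective
  have hPR := SmallBadB.pRed hπ h W
  have hF := isFF1_xL Qb (M * q)
  have hκ := isFF1_xk (IsLocalRing.ResidueField A) M
  have hLat : LatAt h W := latAt hπ h W hW
  have hNF' := hNF
  obtain ⟨ι, _, _, e₁, e₂, P₁, Z₁, P₂, Z₂, hinj₁, hinj₂, hP₁, hZ₁, hP₂, hZ₂, hd₁, hd₂,
    hdegP₁, hdegP₂, hE1, hE2, hdisj, hdegE1, hdegE2, hgalE, hS2⟩ := hNF'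
  obtain ⟨T, T₁, T₂, hTg, hTT, -, hTI, -, -, -, hT₁e, hT₂e, -, -, hns, hRC2⟩ :=
    Fermat.Agent.BAD.SmoothLiftInst.exists_basePoints_closed hπ h W hW hA E1 E2 e₁ e₂ P₁ Z₁ P₂ Z₂
      hinj₁ hinj₂ hP₁ hZ₁ hP₂ hZ₂ hdegP₁ hdegP₂ hE1 hE2 hdegE1 hdegE2 hgalE hS2 ∅ ∅
  obtain ⟨hP₁0, hZ₁0, hP₂0, hZ₂0⟩ := SmallBadB.datum_nonneg h W e₁ e₂ P₁ Z₁ P₂ Z₂ hE1 hE2 hS2
  obtain ⟨N₀, hN₀⟩ := hS2
  obtain ⟨c, N₁, hN₁⟩ := hRC2
  obtain ⟨c₁, hc₁⟩ := BasePoint.exists_NS hκ
  -- degrees
  have hdZ₁ : 0 ≤ Divisor.degree Z₁ :=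
    Fermat.Agent.Lib.FF.GenPos.degree_nonneg hκ fun v => by
      simpa using Finsupp.le_def.1 hZ₁0 v
  have hdZ₂ : 0 ≤ Divisor.degree Z₂ :=
    Fermat.Agent.Lib.FF.GenPos.degree_nonneg hκ fun v => by
      simpa using Finsupp.le_def.1 hZ₂0 v
  have hdQ₁ : 1 ≤ Divisor.degree (P₁ + Z₁) := by rw [map_add]; linarith
  have hdQ₂ : 1 ≤ Divisor.degree (P₂ + Z₂) := by rw [map_add]; linarith
  have hdegB : Divisor.degree (RR.sumPl T) =
      genusFF Qb ↥(laurentBaseChange Qb (modularFunctionFieldFull (M * q))) := by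
    rw [RR.degree_sumPl hF.resK]
    exact hTg
  have hdB₁ : Divisor.degree (RR.sumPl T₁) = T₁.card := RR.degree_sumPl hκ.resK T₁
  have hdB₂ : Divisor.degree (RR.sumPl T₂) = T₂.card := RR.degree_sumPl hκ.resK T₂
  have hB₁e : ∀ i, RR.sumPl T₁ (e₁ i) = 0 := fun i => RR.sumPl_apply_of_notMem (hT₁e i)
  have hB₂e : ∀ i, RR.sumPl T₂ (e₂ i) = 0 := fun i => RR.sumPl_apply_of_notMem (hT₂e i)
  have hQ₁e : ∀ (n : ℕ) (i : ι), (n • (P₁ + Z₁)) (e₁ i) = 0 := fun n i => by
    rw [Finsupp.smul_apply, Finsupp.add_apply, hP₁ i, hZ₁ i, add_zero, smul_zero]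
  have hQ₂e : ∀ (n : ℕ) (i : ι), (n • (P₂ + Z₂)) (e₂ i) = 0 := fun n i => by
    rw [Finsupp.smul_apply, Finsupp.add_apply, hP₂ i, hZ₂ i, add_zero, smul_zero]
  have hdeg₁ : ∀ n : ℕ, Divisor.degree (n • (P₁ + Z₁)) = n * Divisor.degree (P₁ + Z₁) :=
    fun n => by rw [map_nsmul, nsmul_eq_mul]
  have hdeg₂ : ∀ n : ℕ, Divisor.degree (n • (P₂ + Z₂)) = n * Divisor.degree (P₂ + Z₂) :=
    fun n => by rw [map_nsmul, nsmul_eq_mul]
  have hle₁ : ∀ n : ℕ, (n : ℤ) ≤ Divisor.degree (n • (P₁ + Z₁)) := fun n => by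
    rw [hdeg₁]
    have : (0 : ℤ) ≤ n := Int.natCast_nonneg n
    nlinarith
  have hle₂ : ∀ n : ℕ, (n : ℤ) ≤ Divisor.degree (n • (P₂ + Z₂)) := fun n => by
    rw [hdeg₂]
    have : (0 : ℤ) ≤ n := Int.natCast_nonneg n
    nlinarith
  have hS : ∀ n : ℕ, N₀ ≤ n → ∀ t,
      (∃ y : OPair h W, (y : laurentBaseChange Qb (modularFunctionFieldFull (M * q))) ∈
          riemannRochSpace (n • (E1 + E2)) ∧ redPair h W y = t) ↔
        t ∈ gluedSpace e₁ e₂ (fun _ => (1 : IsLocalRing.ResidueField A))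
          (n • (P₁ + Z₁)) (n • (P₂ + Z₂)) := by
    intro n hn t
    rw [smul_add n E1 E2, smul_add n P₁ Z₁, smul_add n P₂ Z₂]
    exact hN₀ n n (by omega) t
  have hRC : ∀ n : ℕ, N₁ ≤ n → c ≤ n → ∀ t,
      (∃ y : OPair h W, (y : laurentBaseChange Qb (modularFunctionFieldFull (M * q))) ∈
          riemannRochSpace (n • (E1 + E2) - RR.sumPl T) ∧ redPair h W y = t) ↔
        t ∈ gluedSpace e₁ e₂ (fun _ => (1 : IsLocalRing.ResidueField A))
          (n • (P₁ + Z₁) - RR.sumPl T₁) (n • (P₂ + Z₂) - RR.sumPl T₂) := by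
    intro n hn hcn t
    have h1 := hle₁ n
    have h2 := hle₂ n
    rw [smul_add n P₁ Z₁] at h1
    rw [smul_add n P₂ Z₂] at h2
    rw [smul_add n E1 E2, smul_add n P₁ Z₁, smul_add n P₂ Z₂]
    exact hN₁ n n (by omega) (hcn.trans h1) (hcn.trans h2) t
  -- the normalised representative
  obtain ⟨D₀, hD₀, N, hN⟩ := exists_normalized hπ h W hNF hy
  have hone : (1 : ↥(modularFunctionFieldFullC (IsLocalRing.ResidueField A) M) ×
      ↥(modularFunctionFieldFullC (IsLocalRing.ResidueField A) M)) =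
      (algebraMap (IsLocalRing.ResidueField A)
          ↥(modularFunctionFieldFullC (IsLocalRing.ResidueField A) M) 1,
        algebraMap (IsLocalRing.ResidueField A)
          ↥(modularFunctionFieldFullC (IsLocalRing.ResidueField A) M) 1) := by
    rw [map_one]; rfl
  have hdeg : Divisor.degree
      (D₀ : Divisor Qb (laurentBaseChange Qb (modularFunctionFieldFull (M * q)))) = 0 :=
    Divisor.mem_degZero.1 D₀.2
  obtain ⟨N₂, hN₂⟩ := triv_of_sections hπ h W hW hNF
    (D₀ : Divisor Qb (laurentBaseChange Qb (modularFunctionFieldFull (M * q)))) hdeg 1 1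
    one_ne_zero one_ne_zero N (fun n₁ n₂ hl => by
      obtain ⟨y, hy, hr⟩ := (hN n₁ n₂ hl).2
      exact ⟨y, hy, hr.trans hone⟩)
  -- the chart `C = a • (E1 + E2)`
  obtain ⟨a, haN₂, haN₀, haN₁, hac, hab⟩ : ∃ a : ℕ, N₂ ≤ a ∧ N₀ ≤ a ∧ N₁ ≤ a ∧ c ≤ a ∧
      c₁ + Fintype.card ι + 1 + T₁.card + T₂.card ≤ (a : ℤ) :=
    ⟨max (max N₂ N₀) (max (max N₁ c.toNat)
        (c₁ + Fintype.card ι + 1 + T₁.card + T₂.card).toNat),
      (le_max_left _ _).trans (le_max_left _ _), (le_max_right _ _).trans (le_max_left _ _),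
      ((le_max_left _ _).trans (le_max_left _ _)).trans (le_max_right _ _),
      Int.toNat_le.1 (((le_max_right _ _).trans (le_max_left _ _)).trans (le_max_right _ _)),
      Int.toNat_le.1 ((le_max_right _ _).trans (le_max_right _ _))⟩
  have hT₁0 : (0 : ℤ) ≤ T₁.card := Int.natCast_nonneg _
  have hT₂0 : (0 : ℤ) ≤ T₂.card := Int.natCast_nonneg _
  -- the section `f` of `B + D₀`
  obtain ⟨hfin, f, hfL, hfr⟩ := KerDivFam.exists_section hPR.hOA (redPair h W)
    (IsLocalRing.residue A) hPR.hπsurj hPR.hπ hPR.hredconst hPR.hker hF hκ hκ hinj₁ hinj₂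
    hc₁ hc₁ (B := RR.sumPl T) (B₁ := RR.sumPl T₁) (B₂ := RR.sumPl T₂) hB₁e hB₂e hdegB hns.le
    (C := a • (E1 + E2)) (C₁ := a • (P₁ + Z₁)) (C₂ := a • (P₂ + Z₂)) (hQ₁e a) (hQ₂e a)
    (by rw [map_sub, hdB₁]; have := hle₁ a; linarith)
    (by rw [map_sub, hdB₂]; have := hle₂ a; linarith)
    (fun t ht => (hRC a haN₁ hac t).2 ht)
    (D := (D₀ : Divisor Qb (laurentBaseChange Qb (modularFunctionFieldFull (M * q))))) hdeg
    (u := 1) (u' := 1) (one_mul 1)
    (fun s hs => by
      have h1 := (hN₂ a a (by omega) ((algebraMap (IsLocalRing.ResidueField A)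
          ↥(modularFunctionFieldFullC (IsLocalRing.ResidueField A) M) 1,
        algebraMap (IsLocalRing.ResidueField A)
          ↥(modularFunctionFieldFullC (IsLocalRing.ResidueField A) M) 1) * redPair h W s)).1
        ⟨s, by rw [smul_add a E1 E2, ← add_assoc] at hs; exact hs, rfl⟩
      rw [← hone] at h1
      have h2 := (hS a haN₀ (1 * redPair h W s)).1 (by
        rw [smul_add a E1 E2]; exact h1)
      exact h2)
    (hLat _)
  have hfr1 : redPair h W f = 1 := by rw [one_mul] at hfr; exact hfr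
  obtain ⟨hf0, hinvO, hrinv⟩ := inv_mem_OPair_of_red h W f.2 (u := 1) (u' := 1) (one_mul 1) hfr1
  have hPD := hF.hasPrincipalDivisors
  obtain ⟨Df, hDf, hDfdeg⟩ := HasPrincipalDivisors.exists_divisor (K := Qb)
    (f : laurentBaseChange Qb (modularFunctionFieldFull (M * q))) hf0
  have hDfp : Df ∈ Divisor.principal (K := Qb)
      (F := laurentBaseChange Qb (modularFunctionFieldFull (M * q))) := ⟨_, hf0, hDf⟩
  -- the canonical divisor `D_y = B + D₀ + div f`
  have hKD : KDFormal.IsKD (RR.sumPl T) (RR.sumPl T +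
      (D₀ : Divisor Qb (laurentBaseChange Qb (modularFunctionFieldFull (M * q)))) + Df) y := by
    refine ⟨?_, ?_, ?_, ?_⟩
    · refine Finsupp.le_def.2 fun v => ?_
      rcases (mem_riemannRochSpace_iff.1 hfL) v with h0 | h1
      · exact absurd h0 hf0
      · simp only [Finsupp.coe_zero, Pi.zero_apply, Finsupp.add_apply] at h1 ⊢
        rw [hDf v]
        omega
    · rw [map_add, map_add, hdegB, hdeg, hDfdeg, add_zero, add_zero]
    · have h1 := finrank_L_eq_of_principal (D := RR.sumPl T +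
          (D₀ : Divisor Qb (laurentBaseChange Qb (modularFunctionFieldFull (M * q)))))
        (D' := RR.sumPl T +
          (D₀ : Divisor Qb (laurentBaseChange Qb (modularFunctionFieldFull (M * q)))) + Df)
        (by rw [add_sub_cancel_left]; exact hDfp)
      rw [h1]
      exact hfin
    · have h1 : ClassEq
          (D₀ : Divisor Qb (laurentBaseChange Qb (modularFunctionFieldFull (M * q)))) y :=
        ⟨D₀.2, hD₀⟩
      refine h1.of_sub_mem_principal ?_ ?_
      · have e : RR.sumPl T +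
            (D₀ : Divisor Qb (laurentBaseChange Qb (modularFunctionFieldFull (M * q)))) + Df -
            RR.sumPl T - D₀ = Df := by abel
        rw [e]
        exact hDfp
      · rw [map_sub, map_add, map_add, hdeg, hDfdeg]
        ring
  have hfix : ∀ σ ∈ H, arithmeticGalois (modularFunctionFieldFull (M * q)) σ •
      ((D₀ : Divisor Qb (laurentBaseChange Qb (modularFunctionFieldFull (M * q)))) + Df) =
      (D₀ : Divisor Qb (laurentBaseChange Qb (modularFunctionFieldFull (M * q)))) + Df := by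
    intro σ hσ
    have hB := hTI σ (hH σ hσ)
    have h' : KDFormal.IsKD (RR.sumPl T) (RR.sumPl T +
        (D₀ : Divisor Qb (laurentBaseChange Qb (modularFunctionFieldFull (M * q)))) + Df)
        (arithmeticGalois (modularFunctionFieldFull (M * q)) σ • y) := by
      have e : arithmeticGalois (modularFunctionFieldFull (M * q)) σ • y = y := hyH σ hσ
      rw [e]
      exact hKD
    have h1 := hKD.eq_smul _ hB h'
    have e : (D₀ : Divisor Qb (laurentBaseChange Qb (modularFunctionFieldFull (M * q)))) + Df =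
        RR.sumPl T + D₀ + Df - RR.sumPl T := by abel
    rw [e, smul_sub, ← h1, hB]
  have hD'mem : (D₀ : Divisor Qb (laurentBaseChange Qb (modularFunctionFieldFull (M * q)))) + Df ∈
      Divisor.degZero (K := Qb)
        (F := laurentBaseChange Qb (modularFunctionFieldFull (M * q))) :=
    Divisor.mem_degZero.2 (by rw [map_add, hdeg, hDfdeg, add_zero])
  refine ⟨⟨_, hD'mem⟩, ?_, hfix, N, fun n₁ n₂ hl => ⟨?_, ?_⟩⟩
  · obtain ⟨hd, hm⟩ := hKD.cls
    rw [← hm]
    congr 1
    apply Subtype.ext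
    show (D₀ : Divisor Qb (laurentBaseChange Qb (modularFunctionFieldFull (M * q)))) + Df =
      RR.sumPl T + D₀ + Df - RR.sumPl T
    abel
  · obtain ⟨s, hs, hr⟩ := (hN n₁ n₂ hl).1
    have hs'' : (s : laurentBaseChange Qb (modularFunctionFieldFull (M * q))) ∈
        VB (D₀ : Divisor Qb (laurentBaseChange Qb (modularFunctionFieldFull (M * q))))
          E1 E2 n₁ n₂ := hs
    have hm := mul_mem_VB hs'' (inv_mem_VB_of_div E1 E2 hDf)
    rw [add_zero, add_zero] at hm
    unfold VB at hm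
    have hm2 : ((s * ⟨(f : laurentBaseChange Qb (modularFunctionFieldFull (M * q)))⁻¹, hinvO⟩ :
        OPair h W) : laurentBaseChange Qb (modularFunctionFieldFull (M * q))) ∈
        riemannRochSpace ((D₀ : Divisor Qb (laurentBaseChange Qb
          (modularFunctionFieldFull (M * q)))) + Df + n₁ • E1 + n₂ • E2) := hm
    refine ⟨_, hm2, ?_⟩
    rw [map_mul, hr, hrinv, one_mul]
  · obtain ⟨s, hs, hr⟩ := (hN n₁ n₂ hl).2
    have hs'' : (s : laurentBaseChange Qb (modularFunctionFieldFull (M * q))) ∈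
        VB (-(D₀ : Divisor Qb (laurentBaseChange Qb (modularFunctionFieldFull (M * q)))))
          E1 E2 n₁ n₂ := hs
    have hm := mul_mem_VB hs'' (mem_VB_neg_of_div E1 E2 hDf)
    rw [add_zero, add_zero, ← neg_add] at hm
    unfold VB at hm
    have hm2 : ((s * f : OPair h W) : laurentBaseChange Qb (modularFunctionFieldFull (M * q))) ∈
        riemannRochSpace (-((D₀ : Divisor Qb (laurentBaseChange Qb
          (modularFunctionFieldFull (M * q)))) + Df) + n₁ • E1 + n₂ • E2) := hm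
    refine ⟨_, hm2, ?_⟩
    rw [map_mul, hr, hfr1, one_mul]

end Normalized

end Fermat.Agent.TR.PL.KerRedDepthB
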