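/-
TR / (PL), brick PL-C (second seat, helper60), part 2: two-chart constancy and the `ϖ`-adic
induction.

* `red_const_of_two_charts` : an element of `O` whose reduction is the reduction of a chart
  function of `n E1` and also of a chart function of `n E2` reduces to a diagonal constant;
* `exists_const_of_two_charts` : if `G' (1 + ϖ ^ r₀ w_j)` is a chart function of `n E_j`
  (`j = 1, 2`, `w_j ∈ O`) and `G' ∈ O` is `H`-fixed, then `G' ≡ γ mod ϖ ^ r O` for every
  `r ≤ r₀`, with `γ ∈ A` fixed by `H`.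
-/
import Mathlib
import Fermat.Agent.TR.PL.KerRedDepthB

set_option autoImplicit false

namespace Fermat.Agent.TR.PL.KerRedDepthB

open AlgebraicCurve ModularCurve Module Fermat.Agent.Lib.FF Fermat.Agent.Lib.Red.Deform
  Fermat.Agent.Lib.Red.CoordLat Fermat.Agent.BAD.NodalDiv Fermat.Agent.BAD.NodalRiemann
  Fermat.Agent.BAD.TwoVal Fermat.Agent.BAD.NodalAsm Fermat.Agent.BAD.BadU Fermat.Agent.BAD.KerRed
  Fermat.Agent.Padic.S33.RC.OrthoFam Fermat.Agent.Padic.GenPosAbs
  Fermat.Agent.Padic.S33.RC Fermat.Agent.BAD.LatFixedInst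

local notation "Qb" => AlgebraicClosure ℚ
local notation "GQ" => (AlgebraicClosure ℚ ≃ₐ[ℚ] AlgebraicClosure ℚ)

section TwoCharts

variable {A : ValuationSubring Qb} {M q : ℕ} [NeZero M] [NeZero q]

set_option synthInstance.maxHeartbeats 400000 in
set_option maxHeartbeats 1600000 in
/-- **Two-chart constancy.**  An element of `O` whose reduction is the reduction of a chart
function of `n E1` and also of a chart function of `n E2` reduces to a (diagonal) constant. -/
theorem red_const_of_two_charts (h : BadSetup A (IsLocalRing.residue A) M q)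
    (W : laurentBaseChange Qb (modularFunctionFieldFull (M * q)) ≃ₐ[Qb]
      laurentBaseChange Qb (modularFunctionFieldFull (M * q)))
    {E1 E2 : Divisor Qb (laurentBaseChange Qb (modularFunctionFieldFull (M * q)))}
    {ι : Type} [Nonempty ι]
    (e₁ e₂ : ι → Place (IsLocalRing.ResidueField A)
      (modularFunctionFieldFullC (IsLocalRing.ResidueField A) M))
    (P₁ Z₁ P₂ Z₂ : Divisor (IsLocalRing.ResidueField A)
      (modularFunctionFieldFullC (IsLocalRing.ResidueField A) M))
    (hd₁ : ∀ v, P₁ v = 0 ∨ Z₁ v = 0) (hd₂ : ∀ v, P₂ v = 0 ∨ Z₂ v = 0)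
    {N₀ : ℕ} (hN₀ : ∀ n₁ n₂ : ℕ, N₀ ≤ n₁ + n₂ →
      ∀ t : ↥(modularFunctionFieldFullC (IsLocalRing.ResidueField A) M) ×
          ↥(modularFunctionFieldFullC (IsLocalRing.ResidueField A) M),
        (∃ y : OPair h W,
            (y : laurentBaseChange Qb (modularFunctionFieldFull (M * q))) ∈
              riemannRochSpace (n₁ • E1 + n₂ • E2) ∧ redPair h W y = t) ↔
          t ∈ gluedSpace e₁ e₂ (fun _ => (1 : IsLocalRing.ResidueField A))
            (n₁ • P₁ + n₂ • Z₁) (n₁ • P₂ + n₂ • Z₂))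
    {n : ℕ} (hn : N₀ ≤ n) {x b₁ b₂ : OPair h W}
    (hb₁ : (b₁ : laurentBaseChange Qb (modularFunctionFieldFull (M * q))) ∈
      riemannRochSpace (n • E1 + 0 • E2))
    (hb₂ : (b₂ : laurentBaseChange Qb (modularFunctionFieldFull (M * q))) ∈
      riemannRochSpace (0 • E1 + n • E2))
    (h1 : redPair h W b₁ = redPair h W x) (h2 : redPair h W b₂ = redPair h W x) :
    ∃ c : IsLocalRing.ResidueField A, redPair h W x =
      (algebraMap (IsLocalRing.ResidueField A)
          ↥(modularFunctionFieldFullC (IsLocalRing.ResidueField A) M) c,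
        algebraMap (IsLocalRing.ResidueField A)
          ↥(modularFunctionFieldFullC (IsLocalRing.ResidueField A) M) c) := by
  have : IsAlgClosed (IsLocalRing.ResidueField A) := CharP.isAlgClosed_residueField A
  have hκ := isFF1_xk (IsLocalRing.ResidueField A) M
  have m1 : redPair h W x ∈ gluedSpace e₁ e₂ (fun _ => (1 : IsLocalRing.ResidueField A))
      ((0 + n) • P₁ + 0 • Z₁) ((0 + n) • P₂ + 0 • Z₂) := by
    rw [zero_add]
    exact (hN₀ n 0 (by omega) _).1 ⟨b₁, hb₁, h1⟩
  have m2 : redPair h W x ∈ gluedSpace e₁ e₂ (fun _ => (1 : IsLocalRing.ResidueField A))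
      (0 • P₁ + (0 + n) • Z₁) (0 • P₂ + (0 + n) • Z₂) := by
    rw [zero_add]
    exact (hN₀ 0 n (by omega) _).1 ⟨b₂, hb₂, h2⟩
  have m3 := gluedSpace_inf_le e₁ e₂ _ P₁ Z₁ P₂ Z₂ hd₁ hd₂ 0 0 n ⟨m1, m2⟩
  rw [zero_smul, zero_smul, zero_smul, zero_smul, add_zero] at m3
  exact (gluedSpace_zero_one hκ hκ e₁ e₂).1 m3

set_option synthInstance.maxHeartbeats 400000 in
set_option maxHeartbeats 3200000 in
/-- **The `ϖ`-adic induction.**  Let `G' ∈ O` be `H`-fixed, and assume that
`G' (1 + ϖ ^ r₀ w₁)` is a chart function of `n E1` and `G' (1 + ϖ ^ r₀ w₂)` a chart function of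
`n E2` (`w_j ∈ O`).  Then for every `r ≤ r₀` there is an `H`-fixed `γ ∈ A` with
`G' ≡ γ mod ϖ ^ r O`. -/
theorem exists_const_of_two_charts (hq : q.Prime) (hA : A.LiesOverPrime q)
    (h : BadSetup A (IsLocalRing.residue A) M q)
    (W : laurentBaseChange Qb (modularFunctionFieldFull (M * q)) ≃ₐ[Qb]
      laurentBaseChange Qb (modularFunctionFieldFull (M * q))) (hW : IsAL M q W)
    {E1 E2 : Divisor Qb (laurentBaseChange Qb (modularFunctionFieldFull (M * q)))}
    (hE1 : ∀ v, 0 ≤ E1 v) (hE2 : ∀ v, 0 ≤ E2 v)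
    {ι : Type} [Nonempty ι]
    (e₁ e₂ : ι → Place (IsLocalRing.ResidueField A)
      (modularFunctionFieldFullC (IsLocalRing.ResidueField A) M))
    (P₁ Z₁ P₂ Z₂ : Divisor (IsLocalRing.ResidueField A)
      (modularFunctionFieldFullC (IsLocalRing.ResidueField A) M))
    (hd₁ : ∀ v, P₁ v = 0 ∨ Z₁ v = 0) (hd₂ : ∀ v, P₂ v = 0 ∨ Z₂ v = 0)
    {N₀ : ℕ} (hN₀ : ∀ n₁ n₂ : ℕ, N₀ ≤ n₁ + n₂ →
      ∀ t : ↥(modularFunctionFieldFullC (IsLocalRing.ResidueField A) M) ×
          ↥(modularFunctionFieldFullC (IsLocalRing.ResidueField A) M),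
        (∃ y : OPair h W,
            (y : laurentBaseChange Qb (modularFunctionFieldFull (M * q))) ∈
              riemannRochSpace (n₁ • E1 + n₂ • E2) ∧ redPair h W y = t) ↔
          t ∈ gluedSpace e₁ e₂ (fun _ => (1 : IsLocalRing.ResidueField A))
            (n₁ • P₁ + n₂ • Z₁) (n₁ • P₂ + n₂ • Z₂))
    (H : Set GQ) (hH : ∀ σ ∈ H, σ ∈ A.inertiaSubgroupIn ℚ)
    (ϖ : Qb) (hϖH : ∀ σ ∈ H, σ ϖ = ϖ) (hϖ0 : ϖ ≠ 0) (hϖ1 : A.valuation ϖ < 1)
    (hunif : ∀ a : Qb, (∀ σ ∈ H, σ a = a) → A.valuation a < 1 → A.valuation a ≤ A.valuation ϖ)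
    (V' : Submodule Qb (laurentBaseChange Qb (modularFunctionFieldFull (M * q))))
    [FiniteDimensional Qb V']
    (hV' : ∀ σ ∈ A.inertiaSubgroupIn ℚ, ∀ f ∈ V',
      arithmeticGalois (L := Qb) (modularFunctionFieldFull (M * q)) σ • f ∈ V')
    {G' : laurentBaseChange Qb (modularFunctionFieldFull (M * q))} (hG'O : G' ∈ OPair h W)
    (hG'H : ∀ σ ∈ H,
      arithmeticGalois (L := Qb) (modularFunctionFieldFull (M * q)) σ • G' = G')
    (hG'V : G' ∈ V')
    (h1V : (1 : laurentBaseChange Qb (modularFunctionFieldFull (M * q))) ∈ V')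
    {n : ℕ} (hn : N₀ ≤ n) (r₀ : ℕ)
    {w₁ w₂ : laurentBaseChange Qb (modularFunctionFieldFull (M * q))}
    (hw₁ : w₁ ∈ OPair h W) (hw₂ : w₂ ∈ OPair h W)
    (ha₁ : G' * (1 + algebraMap Qb (laurentBaseChange Qb (modularFunctionFieldFull (M * q)))
      (ϖ ^ r₀) * w₁) ∈ riemannRochSpace (n • E1 + 0 • E2))
    (ha₂ : G' * (1 + algebraMap Qb (laurentBaseChange Qb (modularFunctionFieldFull (M * q)))
      (ϖ ^ r₀) * w₂) ∈ riemannRochSpace (0 • E1 + n • E2)) :
    ∀ r : ℕ, r ≤ r₀ → ∃ γ : Qb, γ ∈ A ∧ (∀ σ ∈ H, σ γ = γ) ∧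
      Dvd (OPair h W) (ϖ ^ r)
        (G' - algebraMap Qb (laurentBaseChange Qb (modularFunctionFieldFull (M * q))) γ) := by
  have hπ : Function.Surjective (IsLocalRing.residue A) := IsLocalRing.residue_surjective
  have hϖA : ϖ ∈ A := (A.valuation_le_one_iff _).1 hϖ1.le
  intro r
  induction r with
  | zero =>
    intro _
    refine ⟨0, A.zero_mem, fun σ _ => map_zero σ, ?_⟩
    rw [pow_zero, map_zero, sub_zero]
    exact dvd_one_iff.2 hG'O
  | succ r ih =>
    intro hr
    obtain ⟨γ, hγA, hγH, x, hxO, hx⟩ := ih (by omega)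
    have hpr0 : algebraMap Qb (laurentBaseChange Qb (modularFunctionFieldFull (M * q)))
        (ϖ ^ r) ≠ 0 := (map_ne_zero _).2 (pow_ne_zero r hϖ0)
    -- `x` is `H`-fixed
    have hxH : ∀ σ ∈ H,
        arithmeticGalois (L := Qb) (modularFunctionFieldFull (M * q)) σ • x = x := by
      intro σ hσ
      have h1 : arithmeticGalois (L := Qb) (modularFunctionFieldFull (M * q)) σ •
          (G' - algebraMap Qb (laurentBaseChange Qb (modularFunctionFieldFull (M * q))) γ) =
          G' - algebraMap Qb (laurentBaseChange Qb (modularFunctionFieldFull (M * q))) γ := by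
        rw [smul_sub, hG'H σ hσ, SemilinearAut.smul_algebraMap]
        show G' - algebraMap Qb (laurentBaseChange Qb (modularFunctionFieldFull (M * q)))
          (σ γ) = _
        rw [hγH σ hσ]
      rw [hx, smul_mul', SemilinearAut.smul_algebraMap] at h1
      have h2 : SemilinearAut.baseAut
          (arithmeticGalois (L := Qb) (modularFunctionFieldFull (M * q)) σ) (ϖ ^ r) = ϖ ^ r := by
        show σ (ϖ ^ r) = ϖ ^ r
        rw [map_pow, hϖH σ hσ]
      rw [h2] at h1
      exact mul_left_cancel₀ hpr0 h1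
    -- `x ∈ V'`
    have hxV : x ∈ V' := by
      have e : x = (ϖ ^ r)⁻¹ • (G' - γ •
          (1 : laurentBaseChange Qb (modularFunctionFieldFull (M * q)))) := by
        rw [Algebra.smul_def, Algebra.smul_def, mul_one, hx, ← mul_assoc, ← map_mul,
          inv_mul_cancel₀ (pow_ne_zero r hϖ0), map_one, one_mul]
      rw [e]
      exact V'.smul_mem _ (V'.sub_mem hG'V (V'.smul_mem _ h1V))
    -- the chart functions `b_j`
    have hlt1 : A.valuation (ϖ ^ (r₀ - r)) < 1 := by
      rw [map_pow]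
      exact pow_lt_one' hϖ1 (by omega)
    have key : ∀ (w : laurentBaseChange Qb (modularFunctionFieldFull (M * q)))
        (_ : w ∈ OPair h W)
        (C : Divisor Qb (laurentBaseChange Qb (modularFunctionFieldFull (M * q))))
        (_ : (1 : laurentBaseChange Qb (modularFunctionFieldFull (M * q))) ∈
          riemannRochSpace C)
        (_ : G' * (1 + algebraMap Qb (laurentBaseChange Qb (modularFunctionFieldFull (M * q)))
          (ϖ ^ r₀) * w) ∈ riemannRochSpace C),
        ∃ b : OPair h W, (b : laurentBaseChange Qb (modularFunctionFieldFull (M * q))) ∈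
          riemannRochSpace C ∧ redPair h W b = redPair h W ⟨x, hxO⟩ := by
      intro w hw C hC ha
      have hsm : Small A (OPair h W)
          (algebraMap Qb (laurentBaseChange Qb (modularFunctionFieldFull (M * q)))
            (ϖ ^ (r₀ - r)) * (G' * w)) :=
        ⟨ϖ ^ (r₀ - r), hlt1, G' * w, (OPair h W).mul_mem hG'O hw, rfl⟩
      have hsmO := hsm.mem (OPair_hOA h)
      refine ⟨⟨x, hxO⟩ + ⟨_, hsmO⟩, ?_, ?_⟩
      · have e : x + algebraMap Qb (laurentBaseChange Qb (modularFunctionFieldFull (M * q)))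
              (ϖ ^ (r₀ - r)) * (G' * w) =
            (ϖ ^ r)⁻¹ • (G' * (1 + algebraMap Qb
              (laurentBaseChange Qb (modularFunctionFieldFull (M * q))) (ϖ ^ r₀) * w) -
              γ • (1 : laurentBaseChange Qb (modularFunctionFieldFull (M * q)))) := by
          have hsplit : ϖ ^ r₀ = ϖ ^ r * ϖ ^ (r₀ - r) := by
            rw [← pow_add]
            congr 1
            omega
          have e2 : G' * (1 + algebraMap Qb
                (laurentBaseChange Qb (modularFunctionFieldFull (M * q))) (ϖ ^ r₀) * w) -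
              algebraMap Qb (laurentBaseChange Qb (modularFunctionFieldFull (M * q))) γ =
              algebraMap Qb (laurentBaseChange Qb (modularFunctionFieldFull (M * q))) (ϖ ^ r) *
                (x + algebraMap Qb (laurentBaseChange Qb (modularFunctionFieldFull (M * q)))
                  (ϖ ^ (r₀ - r)) * (G' * w)) := by
            rw [mul_add _ x, ← hx, hsplit, map_mul]
            ring
          have hinv : algebraMap Qb (laurentBaseChange Qb (modularFunctionFieldFull (M * q)))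
              (ϖ ^ r)⁻¹ * algebraMap Qb (laurentBaseChange Qb (modularFunctionFieldFull (M * q)))
              (ϖ ^ r) = 1 := by
            rw [← map_mul, inv_mul_cancel₀ (pow_ne_zero r hϖ0), map_one]
          rw [Algebra.smul_def, Algebra.smul_def, mul_one, e2]
          rw [← mul_assoc (algebraMap Qb (laurentBaseChange Qb (modularFunctionFieldFull (M * q)))
            (ϖ ^ r)⁻¹), hinv, one_mul]
        show x + algebraMap Qb (laurentBaseChange Qb (modularFunctionFieldFull (M * q)))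
              (ϖ ^ (r₀ - r)) * (G' * w) ∈ riemannRochSpace C
        rw [e]
        exact Submodule.smul_mem _ _ (Submodule.sub_mem _ ha (Submodule.smul_mem _ _ hC))
      · rw [map_add, (redPair_eq_zero_iff h ⟨_, hsmO⟩).2 hsm, add_zero]
    obtain ⟨b₁, hb₁, hr₁⟩ := key w₁ hw₁ _ (Fermat.Agent.BAD.KerRed.one_mem_L hE1 hE2 n 0) ha₁
    obtain ⟨b₂, hb₂, hr₂⟩ := key w₂ hw₂ _ (Fermat.Agent.BAD.KerRed.one_mem_L hE1 hE2 0 n) ha₂
    obtain ⟨c, hc⟩ := red_const_of_two_charts h W e₁ e₂ P₁ Z₁ P₂ Z₂ hd₁ hd₂ hN₀ hn hb₁ hb₂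
      hr₁ hr₂
    -- the inertia-fixed lift of the constant
    obtain ⟨a, ha⟩ := hπ c
    obtain ⟨w, hw, hwA, hlt⟩ :=
      Fermat.Agent.CAR.K0.exists_mem_inertiaField_valuation_sub_lt_one hq A hA a.2
    have hwH : ∀ σ ∈ H, σ w = w := fun σ hσ =>
      (Fermat.Agent.CAR.K0.mem_inertiaField_iff A w).1 hw σ (hH σ hσ)
    have hπw : IsLocalRing.residue A ⟨w, hwA⟩ = c := by
      rw [← ha]
      symm
      rw [← sub_eq_zero, ← map_sub]
      exact (h.pi_eq_zero_iff _).2 hlt
    have hwO : algebraMap Qb (laurentBaseChange Qb (modularFunctionFieldFull (M * q))) w ∈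
        OPair h W := (OPair_hOA h _).2 hwA
    have hsm : Small A (OPair h W)
        (x - algebraMap Qb (laurentBaseChange Qb (modularFunctionFieldFull (M * q))) w) := by
      have h0 : redPair h W (⟨x, hxO⟩ - ⟨_, hwO⟩) = 0 := by
        rw [map_sub, hc, redPair_algebraMap h ⟨w, hwA⟩ hwO, hπw, sub_self]
      exact (redPair_eq_zero_iff h _).1 h0
    have hfix : x - algebraMap Qb (laurentBaseChange Qb (modularFunctionFieldFull (M * q))) w ∈
        fixedFunOf H (M * q) := by
      intro σ hσ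
      rw [smul_sub, hxH σ hσ, SemilinearAut.smul_algebraMap]
      show x - algebraMap Qb (laurentBaseChange Qb (modularFunctionFieldFull (M * q)))
        (σ w) = _
      rw [hwH σ hσ]
    have hmemV : x - algebraMap Qb (laurentBaseChange Qb (modularFunctionFieldFull (M * q))) w ∈
        V' := by
      refine V'.sub_mem hxV ?_
      rw [Algebra.algebraMap_eq_smul_one]
      exact V'.smul_mem _ h1V
    obtain ⟨o, hoO, ho⟩ := dvd_of_fixed_small_sub hq hA h hπ hW H hH ϖ hϖ0 hunif V' hV' hmemV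
      hfix hsm
    refine ⟨γ + ϖ ^ r * w, add_mem hγA (mul_mem (pow_mem hϖA _) hwA), fun σ hσ => by
      rw [map_add, map_mul, map_pow, hγH σ hσ, hϖH σ hσ, hwH σ hσ], o, hoO, ?_⟩
    have e3 : G' = algebraMap Qb (laurentBaseChange Qb (modularFunctionFieldFull (M * q)))
        (ϖ ^ r) * x + algebraMap Qb (laurentBaseChange Qb (modularFunctionFieldFull (M * q))) γ :=
      by rw [← hx]; ring
    have e4 : x = algebraMap Qb (laurentBaseChange Qb (modularFunctionFieldFull (M * q))) ϖ * o +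
        algebraMap Qb (laurentBaseChange Qb (modularFunctionFieldFull (M * q))) w := by
      rw [← ho]; ring
    rw [e3, e4, map_add, map_mul, pow_succ, map_mul]
    ring

end TwoCharts

end Fermat.Agent.TR.PL.KerRedDepthB
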