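/-
TR / (PL), brick PL-C (second seat, helper60), part 3: the assembly.

Setting of `BAD/KerRed` (`A` over `q`, `h : BadSetup A (residue A) M q`, `O = OPair h W`).
`H ⊆ I` is a subgroup of the inertia group with finitely many cosets (`H = Gal(ℚ̄/K₁)`), `ϖ` a
uniformiser of `ℚ̄^H` with `q ∈ ϖ ^ (q - 1) A` (for `K₁ = K₀(ζ_q)`: `ϖ = ζ_q - 1`).

* `exists_kummer_of_normalized` : for an `H`-fixed divisor `D'` with sections of reduction `1`
  on all large charts and `q D' = div G₀`: an `H`-fixed Kummer function `G'` of `D'`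
  (`div G' = q D'`), `G' ∈ O`, and an `H`-fixed unit `γ` of `A` with `G' ≡ γ mod ϖ ^ q O`;
* `exists_kummer_depth` : **PL-C** — for a class `y` of the kernel of reduction with `q y = 0`
  which is fixed by `H`: an `H`-fixed normalised representative `D'` with such a Kummer
  function.
-/
import Mathlib
import Fermat.Agent.TR.PL.KerRedDepthB2

set_option autoImplicit false

namespace Fermat.Agent.TR.PL.KerRedDepthB

open AlgebraicCurve ModularCurve Module Fermat.Agent.Lib.FF Fermat.Agent.Lib.Red.Deform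
  Fermat.Agent.Lib.Red.CoordLat Fermat.Agent.BAD.NodalDiv Fermat.Agent.BAD.NodalRiemann
  Fermat.Agent.BAD.TwoVal Fermat.Agent.BAD.NodalAsm Fermat.Agent.BAD.BadU Fermat.Agent.BAD.KerRed
  Fermat.Agent.Padic.S33.RC.OrthoFam Fermat.Agent.Padic.GenPosAbs
  Fermat.Agent.Padic.S33.RC Fermat.Agent.BAD.LatFixedInst

local notation "Qb" => AlgebraicClosure ℚ
local notation "GQ" => (AlgebraicClosure ℚ ≃ₐ[ℚ] AlgebraicClosure ℚ)

section Stable

variable {N : ℕ}

/-- `L(X)` is stable under the automorphisms fixing `X`. -/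
theorem rr_stable (H : Set GQ)
    {X : Divisor Qb (laurentBaseChange Qb (modularFunctionFieldFull N))}
    (hX : ∀ σ ∈ H, arithmeticGalois (modularFunctionFieldFull N) σ • X = X) :
    ∀ σ ∈ H, ∀ f ∈ riemannRochSpace X,
      arithmeticGalois (L := Qb) (modularFunctionFieldFull N) σ • f ∈ riemannRochSpace X := by
  intro σ hσ f hf
  have h1 := Fermat.Agent.Padic.GenPosGlue.smul_mem_rr
    (arithmeticGalois (modularFunctionFieldFull N) σ) hf
  rwa [hX σ hσ] at h1

/-- A sum of stable subspaces is stable. -/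
theorem sup_stable (H : Set GQ)
    {V₁ V₂ : Submodule Qb (laurentBaseChange Qb (modularFunctionFieldFull N))}
    (h₁ : ∀ σ ∈ H, ∀ f ∈ V₁,
      arithmeticGalois (L := Qb) (modularFunctionFieldFull N) σ • f ∈ V₁)
    (h₂ : ∀ σ ∈ H, ∀ f ∈ V₂,
      arithmeticGalois (L := Qb) (modularFunctionFieldFull N) σ • f ∈ V₂) :
    ∀ σ ∈ H, ∀ f ∈ V₁ ⊔ V₂,
      arithmeticGalois (L := Qb) (modularFunctionFieldFull N) σ • f ∈ V₁ ⊔ V₂ := by
  intro σ hσ f hf
  obtain ⟨f₁, hf₁, f₂, hf₂, rfl⟩ := Submodule.mem_sup.1 hf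
  rw [smul_add]
  exact Submodule.add_mem_sup (h₁ σ hσ f₁ hf₁) (h₂ σ hσ f₂ hf₂)

/-- `t ^ n ∈ L(n X)` for `t ∈ L(X)`. -/
theorem pow_mem_rr {K F : Type*} [Field K] [Field F] [Algebra K F] {X : Divisor K F} {t : F}
    (ht : t ∈ riemannRochSpace X) (n : ℕ) : t ^ n ∈ riemannRochSpace (n • X) := by
  induction n with
  | zero =>
    rw [pow_zero, zero_smul]
    exact Fermat.Agent.Padic.GenPosAbs.one_mem_L le_rfl
  | succ n ih =>
    rw [pow_succ, succ_nsmul]
    exact BasePoint.mul_mem_L_add ih ht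

end Stable

section Main

variable {A : ValuationSubring Qb} {M q : ℕ} [NeZero M] [NeZero q]

set_option synthInstance.maxHeartbeats 400000 in
set_option maxHeartbeats 3200000 in
/-- **The Kummer function of a normalised `H`-fixed divisor.**  Let `D'` be an `H`-fixed divisor
which has sections in `O` of reduction `1` on all large charts, with `q D' = div G₀`.  Then `D'`
has an `H`-fixed Kummer function `G' ∈ O` (`div G' = q D'`) which is congruent modulo `ϖ ^ q O`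
to an `H`-fixed unit `γ` of `A`. -/
theorem exists_kummer_of_normalized (hq : q.Prime) (hA : A.LiesOverPrime q)
    (h : BadSetup A (IsLocalRing.residue A) M q)
    (W : laurentBaseChange Qb (modularFunctionFieldFull (M * q)) ≃ₐ[Qb]
      laurentBaseChange Qb (modularFunctionFieldFull (M * q))) (hW : IsAL M q W)
    {E1 E2 : Divisor Qb (laurentBaseChange Qb (modularFunctionFieldFull (M * q)))}
    (hNF : NodalFibreFor h W E1 E2)
    (H : Subgroup GQ) (hH : ∀ σ ∈ H, σ ∈ A.inertiaSubgroupIn ℚ)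
    (ϖ : Qb) (hϖH : ∀ σ ∈ H, σ ϖ = ϖ) (hϖ0 : ϖ ≠ 0) (hϖ1 : A.valuation ϖ < 1)
    (hunif : ∀ a : Qb, (∀ σ ∈ H, σ a = a) → A.valuation a < 1 → A.valuation a ≤ A.valuation ϖ)
    {m : ℕ} (ρ : Fin m → GQ) (hρI : ∀ j, ρ j ∈ A.inertiaSubgroupIn ℚ)
    (hρ : ∀ σ ∈ A.inertiaSubgroupIn ℚ, ∃ j, ∃ τ ∈ H, σ = ρ j * τ)
    (hqϖ : A.valuation (q : Qb) ≤ A.valuation ϖ ^ (q - 1))
    (D' : Divisor Qb (laurentBaseChange Qb (modularFunctionFieldFull (M * q))))
    (hD'H : ∀ σ ∈ H, arithmeticGalois (modularFunctionFieldFull (M * q)) σ • D' = D')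
    {N : ℕ} (hsec : ∀ n₁ n₂ : ℕ, N ≤ n₁ + n₂ → ∃ s : OPair h W,
      (s : laurentBaseChange Qb (modularFunctionFieldFull (M * q))) ∈
        riemannRochSpace (D' + n₁ • E1 + n₂ • E2) ∧ redPair h W s = 1)
    {G₀ : laurentBaseChange Qb (modularFunctionFieldFull (M * q))} (hG₀ : G₀ ≠ 0)
    (hdiv : ∀ v : Place Qb (laurentBaseChange Qb (modularFunctionFieldFull (M * q))),
      (q • D') v = v.ord G₀) :
    ∃ (G' : laurentBaseChange Qb (modularFunctionFieldFull (M * q))) (γ : Qb),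
      G' ≠ 0 ∧
      (∀ v : Place Qb (laurentBaseChange Qb (modularFunctionFieldFull (M * q))),
        (q • D') v = v.ord G') ∧
      (∀ σ ∈ H, arithmeticGalois (L := Qb) (modularFunctionFieldFull (M * q)) σ • G' = G') ∧
      G' ∈ OPair h W ∧ γ ∈ A ∧ (∀ σ ∈ H, σ γ = γ) ∧ A.valuation γ = 1 ∧
      Dvd (OPair h W) (ϖ ^ q)
        (G' - algebraMap Qb (laurentBaseChange Qb (modularFunctionFieldFull (M * q))) γ) := by
  classical
  have hπ : Function.Surjective (IsLocalRing.residue A) := IsLocalRing.residue_surjective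
  have hF := isFF1_xL Qb (M * q)
  obtain ⟨ι, _, _, e₁, e₂, P₁, Z₁, P₂, Z₂, hinj₁, hinj₂, hP₁, hZ₁, hP₂, hZ₂, hd₁, hd₂,
    hdegP₁, hdegP₂, hE1, hE2, hdisj, hdegE1, hdegE2, hgalE, N₀, hN₀⟩ := hNF
  have hϖA : ϖ ∈ A := (A.valuation_le_one_iff _).1 hϖ1.le
  have hHs : ∀ σ ∈ (H : Set GQ), σ ∈ A.inertiaSubgroupIn ℚ := hH
  obtain ⟨a, haN, haN₀⟩ : ∃ a : ℕ, N ≤ a ∧ N₀ ≤ a := ⟨max N N₀, le_max_left _ _, le_max_right _ _⟩
  -- the `H`-fixed divisors
  have hE1H : ∀ σ ∈ (H : Set GQ),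
      arithmeticGalois (modularFunctionFieldFull (M * q)) σ • E1 = E1 :=
    fun σ hσ => (hgalE σ (hH σ hσ)).1
  have hE2H : ∀ σ ∈ (H : Set GQ),
      arithmeticGalois (modularFunctionFieldFull (M * q)) σ • E2 = E2 :=
    fun σ hσ => (hgalE σ (hH σ hσ)).2
  have hX : ∀ n₁ n₂ : ℕ, ∀ σ ∈ (H : Set GQ),
      arithmeticGalois (modularFunctionFieldFull (M * q)) σ • (D' + n₁ • E1 + n₂ • E2) =
        D' + n₁ • E1 + n₂ • E2 := by
    intro n₁ n₂ σ hσ
    rw [smul_add, smul_add, smul_comm _ n₁ E1, smul_comm _ n₂ E2, hD'H σ hσ, hE1H σ hσ,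
      hE2H σ hσ]
  have hX₃ : ∀ σ ∈ (H : Set GQ),
      arithmeticGalois (modularFunctionFieldFull (M * q)) σ • (-(q • D')) = -(q • D') := by
    intro σ hσ
    rw [smul_neg, smul_comm _ q D', hD'H σ hσ]
  have hX₄ : ∀ σ ∈ (H : Set GQ),
      arithmeticGalois (modularFunctionFieldFull (M * q)) σ • (0 • E1 + 0 • E2) =
        0 • E1 + 0 • E2 := by
    intro σ hσ
    rw [smul_add, smul_comm _ 0 E1, smul_comm _ 0 E2, hE1H σ hσ, hE2H σ hσ]
  -- the master space
  have hfin₁ : FiniteDimensional Qb (riemannRochSpace (D' + a • E1 + 0 • E2)) := hF.finite_L _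
  have hfin₂ : FiniteDimensional Qb (riemannRochSpace (D' + 0 • E1 + a • E2)) := hF.finite_L _
  have hfin₃ : FiniteDimensional Qb (riemannRochSpace (-(q • D'))) := hF.finite_L _
  have hfin₄ : FiniteDimensional Qb (riemannRochSpace (0 • E1 + 0 • E2)) := hF.finite_L _
  have hVm := sup_stable (H : Set GQ) (sup_stable (H : Set GQ) (sup_stable (H : Set GQ)
    (rr_stable (H : Set GQ) (hX a 0)) (rr_stable (H : Set GQ) (hX 0 a)))
    (rr_stable (H : Set GQ) hX₃)) (rr_stable (H : Set GQ) hX₄)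
  obtain ⟨V', hV'fin, hVmV', hV'⟩ := exists_stable_superspace H ρ hρI hρ
    (riemannRochSpace (D' + a • E1 + 0 • E2) ⊔ riemannRochSpace (D' + 0 • E1 + a • E2) ⊔
      riemannRochSpace (-(q • D')) ⊔ riemannRochSpace (0 • E1 + 0 • E2)) hVm
  have hle₁ : riemannRochSpace (D' + a • E1 + 0 • E2) ≤ V' :=
    (le_sup_of_le_left (le_sup_of_le_left le_sup_left)).trans hVmV'
  have hle₂ : riemannRochSpace (D' + 0 • E1 + a • E2) ≤ V' :=
    (le_sup_of_le_left (le_sup_of_le_left le_sup_right)).trans hVmV'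
  have hle₃ : riemannRochSpace (-(q • D')) ≤ V' :=
    (le_sup_of_le_left le_sup_right).trans hVmV'
  have hle₄ : riemannRochSpace (0 • E1 + 0 • E2) ≤ V' := le_sup_right.trans hVmV'
  have h1V : (1 : laurentBaseChange Qb (modularFunctionFieldFull (M * q))) ∈ V' :=
    hle₄ (Fermat.Agent.BAD.KerRed.one_mem_L hE1 hE2 0 0)
  -- the Kummer function `G'`
  obtain ⟨nb, b, hbfix, hbli, hbspan, hbO, hbortho⟩ :=
    exists_fixed_ortho_basis_sub hq hA h hπ hW (H : Set GQ) hHs ϖ hϖH hϖ0 hϖ1 hunif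
      (riemannRochSpace (-(q • D'))) V' hle₃ (rr_stable (H : Set GQ) hX₃) hV'
  have hG₀L : G₀ ∈ riemannRochSpace (-(q • D')) := by
    rw [mem_riemannRochSpace_iff]
    intro v
    right
    rw [Finsupp.neg_apply, neg_neg, hdiv v]
  have hnb : 0 < nb := by
    by_contra h0
    have h00 : nb = 0 := by omega
    subst h00
    rw [← hbspan] at hG₀L
    have he : Set.range b = ∅ := Set.range_eq_empty b
    rw [he, Submodule.span_empty, Submodule.mem_bot] at hG₀L
    exact hG₀ hG₀L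
  have hG'L : b ⟨0, hnb⟩ ∈ riemannRochSpace (-(q • D')) := by
    rw [← hbspan]
    exact Submodule.subset_span ⟨_, rfl⟩
  have hG'0 : b ⟨0, hnb⟩ ≠ 0 := hbli.ne_zero _
  have hG'O := hbO ⟨0, hnb⟩
  have hG'H := hbfix ⟨0, hnb⟩
  have hG'V : b ⟨0, hnb⟩ ∈ V' := hle₃ hG'L
  -- its divisor
  have hdivG' : ∀ v : Place Qb (laurentBaseChange Qb (modularFunctionFieldFull (M * q))),
      (q • D') v = v.ord (b ⟨0, hnb⟩) := by
    have hord : ∀ v : Place Qb (laurentBaseChange Qb (modularFunctionFieldFull (M * q))),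
        0 ≤ v.ord (b ⟨0, hnb⟩ * G₀⁻¹) := by
      intro v
      rw [v.ord_mul hG'0 (inv_ne_zero hG₀), v.ord_inv, ← hdiv v]
      rcases (mem_riemannRochSpace_iff.1 hG'L) v with h0 | h1
      · exact absurd h0 hG'0
      · rw [Finsupp.neg_apply, neg_neg] at h1
        omega
    obtain ⟨c, hc⟩ := hF.const_of_ord_nonneg _ hord
    have hc0 : c ≠ 0 := by
      rintro rfl
      rw [map_zero] at hc
      exact mul_ne_zero hG'0 (inv_ne_zero hG₀) hc
    have hG'eq : b ⟨0, hnb⟩ = algebraMap Qb _ c * G₀ := by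
      rw [← hc, mul_assoc, inv_mul_cancel₀ hG₀, mul_one]
    intro v
    rw [hdiv v, hG'eq, v.ord_mul ((map_ne_zero _).2 hc0) hG₀, Fermat.Agent.S24.ord_algebraMap,
      zero_add]
  -- it is not small
  have hG'ns : ¬ Small A (OPair h W) (b ⟨0, hnb⟩) := by
    rintro ⟨a', ha', o, hoO, ho⟩
    by_cases ha0 : a' = 0
    · rw [ha0, map_zero, zero_mul] at ho
      exact hG'0 ho
    · have h1 : ∑ i, (Pi.single (⟨0, hnb⟩ : Fin nb) a'⁻¹ : Fin nb → Qb) i • b i ∈ OPair h W := by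
        rw [Finset.sum_eq_single (⟨0, hnb⟩ : Fin nb) (fun i _ hi => by
          rw [Pi.single_eq_of_ne hi, zero_smul]) (fun hi => absurd (Finset.mem_univ _) hi),
          Pi.single_eq_same, ho, Algebra.smul_def, ← mul_assoc, ← map_mul,
          inv_mul_cancel₀ ha0, map_one, one_mul]
        exact hoO
      have h2 := hbortho _ h1 ⟨0, hnb⟩
      rw [Pi.single_eq_same, ← A.valuation_le_one_iff, map_inv₀] at h2
      have h3 : A.valuation a' ≠ 0 := (Valuation.ne_zero_iff _).2 ha0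
      have h4 : (1 : _) ≤ A.valuation a' := by
        have := mul_le_mul' (le_refl (A.valuation a')) h2
        rwa [mul_inv_cancel₀ h3, mul_one] at this
      exact absurd ha' (not_lt.2 h4)
  -- the `H`-fixed sections on the two charts
  have hsecfix : ∀ n₁ n₂ : ℕ, N ≤ n₁ + n₂ → riemannRochSpace (D' + n₁ • E1 + n₂ • E2) ≤ V' →
      ∃ w : laurentBaseChange Qb (modularFunctionFieldFull (M * q)), w ∈ OPair h W ∧
        b ⟨0, hnb⟩ * (1 + algebraMap Qb (laurentBaseChange Qb (modularFunctionFieldFull (M * q)))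
          (ϖ ^ q) * w) ∈ riemannRochSpace (-(q • D') + q • (D' + n₁ • E1 + n₂ • E2)) := by
    intro n₁ n₂ hl hle
    obtain ⟨s, hs, hr⟩ := hsec n₁ n₂ hl
    obtain ⟨t, htO, htV, htH, htr⟩ := exists_fixed_lift_sub hq hA h hπ hW (H : Set GQ) hHs ϖ hϖH
      hϖ0 hϖ1 hunif (riemannRochSpace (D' + n₁ • E1 + n₂ • E2)) V' hle
      (rr_stable (H : Set GQ) (hX n₁ n₂)) hV' hs s.2
    have htr1 : redPair h W ⟨t, htO⟩ = 1 := htr.trans hr
    have hsm : Small A (OPair h W) (t - 1) := by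
      have h0 : redPair h W (⟨t, htO⟩ - 1) = 0 := by rw [map_sub, htr1, map_one, sub_self]
      exact (redPair_eq_zero_iff h _).1 h0
    have hfix : t - 1 ∈ fixedFunOf (H : Set GQ) (M * q) := by
      intro σ hσ
      rw [smul_sub, htH σ hσ, smul_one]
    have hd1 := dvd_of_fixed_small_sub hq hA h hπ hW (H : Set GQ) hHs ϖ hϖ0 hunif V' hV'
      (V'.sub_mem (hle htV) h1V) hfix hsm
    obtain ⟨w, hwO, hw⟩ := dvd_pow_sub_one (fun x => OPair_hOA h x) hq hϖ1.le hqϖ hd1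
    refine ⟨w, hwO, ?_⟩
    have e : (1 : laurentBaseChange Qb (modularFunctionFieldFull (M * q))) +
        algebraMap Qb (laurentBaseChange Qb (modularFunctionFieldFull (M * q))) (ϖ ^ q) * w =
        t ^ q := by
      rw [← hw]
      ring
    rw [e]
    exact BasePoint.mul_mem_L_add hG'L (pow_mem_rr htV q)
  have hq1 : 1 ≤ q := hq.one_lt.le
  have hn : N₀ ≤ q * a := haN₀.trans (Nat.le_mul_of_pos_left a hq1)
  obtain ⟨w₁, hw₁O, ha₁⟩ := hsecfix a 0 (by omega) hle₁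
  obtain ⟨w₂, hw₂O, ha₂⟩ := hsecfix 0 a (by omega) hle₂
  have e₁' : -(q • D') + q • (D' + a • E1 + 0 • E2) = (q * a) • E1 + 0 • E2 := by
    rw [zero_smul, add_zero, add_zero, smul_add, mul_smul]
    abel
  have e₂' : -(q • D') + q • (D' + 0 • E1 + a • E2) = 0 • E1 + (q * a) • E2 := by
    rw [zero_smul, add_zero, zero_add, smul_add, mul_smul]
    abel
  rw [e₁'] at ha₁
  rw [e₂'] at ha₂
  obtain ⟨γ, hγA, hγH, hγd⟩ := exists_const_of_two_charts hq hA h W hW hE1 hE2 e₁ e₂ P₁ Z₁ P₂ Z₂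
    hd₁ hd₂ hN₀ (H : Set GQ) hHs ϖ hϖH hϖ0 hϖ1 hunif V' hV' hG'O hG'H hG'V h1V hn q
    hw₁O hw₂O ha₁ ha₂ q le_rfl
  refine ⟨b ⟨0, hnb⟩, γ, hG'0, hdivG', hG'H, hG'O, hγA, hγH, ?_, hγd⟩
  -- `γ` is a unit
  refine le_antisymm ((A.valuation_le_one_iff _).2 hγA) (not_lt.1 fun hlt => hG'ns ?_)
  have h1 : Small A (OPair h W)
      (algebraMap Qb (laurentBaseChange Qb (modularFunctionFieldFull (M * q))) γ) :=
    (small_algebraMap_iff (fun x => OPair_hOA h x) γ).2 hlt
  have h2 : Small A (OPair h W)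
      (b ⟨0, hnb⟩ - algebraMap Qb (laurentBaseChange Qb (modularFunctionFieldFull (M * q))) γ) :=
    hγd.small (by
      rw [map_pow]
      exact pow_lt_one' hϖ1 (by omega))
  have h3 := h2.add (fun x => OPair_hOA h x) h1
  rwa [sub_add_cancel] at h3

set_option synthInstance.maxHeartbeats 400000 in
set_option maxHeartbeats 3200000 in
/-- **PL-C (the Kr side).**  Let `y` be a class of the kernel of reduction with `q y = 0` which
is fixed by the subgroup `H ⊆ I`, and let `ϖ` be a uniformiser of `ℚ̄^H` with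
`q ∈ ϖ ^ (q - 1) A`.  Then `y` has a representative `D'` which is `H`-fixed as a divisor, with
sections of `D'` and `-D'` in `O` of reduction `1` on all large charts of the nodal datum, and an
`H`-fixed Kummer function `G' ∈ O`, `div G' = q D'`, congruent modulo `ϖ ^ q O` to an `H`-fixed
unit `γ` of `A`. -/
theorem exists_kummer_depth (hq : q.Prime) (hA : A.LiesOverPrime q)
    (h : BadSetup A (IsLocalRing.residue A) M q)
    (W : laurentBaseChange Qb (modularFunctionFieldFull (M * q)) ≃ₐ[Qb]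
      laurentBaseChange Qb (modularFunctionFieldFull (M * q))) (hW : IsAL M q W)
    {E1 E2 : Divisor Qb (laurentBaseChange Qb (modularFunctionFieldFull (M * q)))}
    (hNF : NodalFibreFor h W E1 E2)
    (H : Subgroup GQ) (hH : ∀ σ ∈ H, σ ∈ A.inertiaSubgroupIn ℚ)
    (ϖ : Qb) (hϖH : ∀ σ ∈ H, σ ϖ = ϖ) (hϖ0 : ϖ ≠ 0) (hϖ1 : A.valuation ϖ < 1)
    (hunif : ∀ a : Qb, (∀ σ ∈ H, σ a = a) → A.valuation a < 1 → A.valuation a ≤ A.valuation ϖ)
    {m : ℕ} (ρ : Fin m → GQ) (hρI : ∀ j, ρ j ∈ A.inertiaSubgroupIn ℚ)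
    (hρ : ∀ σ ∈ A.inertiaSubgroupIn ℚ, ∃ j, ∃ τ ∈ H, σ = ρ j * τ)
    (hqϖ : A.valuation (q : Qb) ≤ A.valuation ϖ ^ (q - 1))
    {y : JZero (M * q)} (hy : y ∈ kerRed h W) (hqy : q • y = 0) (hyH : ∀ σ ∈ H, σ • y = y) :
    ∃ D' : Divisor.degZero (K := Qb)
        (F := laurentBaseChange Qb (modularFunctionFieldFull (M * q))),
      Pic0.mk D' = y ∧
      (∀ σ ∈ H, arithmeticGalois (modularFunctionFieldFull (M * q)) σ •
        (D' : Divisor Qb (laurentBaseChange Qb (modularFunctionFieldFull (M * q)))) = D') ∧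
      (∃ N : ℕ, ∀ n₁ n₂ : ℕ, N ≤ n₁ + n₂ →
        (∃ s : OPair h W,
          (s : laurentBaseChange Qb (modularFunctionFieldFull (M * q))) ∈ riemannRochSpace
            ((D' : Divisor Qb (laurentBaseChange Qb (modularFunctionFieldFull (M * q)))) +
              n₁ • E1 + n₂ • E2) ∧ redPair h W s = 1) ∧
        (∃ s : OPair h W,
          (s : laurentBaseChange Qb (modularFunctionFieldFull (M * q))) ∈ riemannRochSpace
            (-(D' : Divisor Qb (laurentBaseChange Qb (modularFunctionFieldFull (M * q)))) +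
              n₁ • E1 + n₂ • E2) ∧ redPair h W s = 1)) ∧
      ∃ (G' : laurentBaseChange Qb (modularFunctionFieldFull (M * q))) (γ : Qb),
        G' ≠ 0 ∧
        (∀ v : Place Qb (laurentBaseChange Qb (modularFunctionFieldFull (M * q))),
          (q • (D' : Divisor Qb (laurentBaseChange Qb (modularFunctionFieldFull (M * q))))) v =
            v.ord G') ∧
        (∀ σ ∈ H, arithmeticGalois (L := Qb) (modularFunctionFieldFull (M * q)) σ • G' = G') ∧
        G' ∈ OPair h W ∧ γ ∈ A ∧ (∀ σ ∈ H, σ γ = γ) ∧ A.valuation γ = 1 ∧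
        Dvd (OPair h W) (ϖ ^ q)
          (G' - algebraMap Qb (laurentBaseChange Qb (modularFunctionFieldFull (M * q))) γ) := by
  obtain ⟨D', hD', hD'H, N, hN⟩ :=
    exists_fixed_normalized hA h W hW hNF (H : Set GQ) hH hy hyH
  have hprin : q • (D' : Divisor Qb (laurentBaseChange Qb (modularFunctionFieldFull (M * q)))) ∈
      Divisor.principal (K := Qb)
        (F := laurentBaseChange Qb (modularFunctionFieldFull (M * q))) := by
    have h1 : Pic0.mk (q • D') = 0 := by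
      rw [← hqy, ← hD']
      rfl
    have h2 := (QuotientAddGroup.eq_zero_iff _).1 h1
    rw [AddSubgroup.mem_addSubgroupOf] at h2
    exact h2
  obtain ⟨G₀, hG₀, hdiv⟩ := hprin
  obtain ⟨G', γ, hG'0, hdivG', hG'H, hG'O, hγA, hγH, hγ1, hγd⟩ :=
    exists_kummer_of_normalized hq hA h W hW hNF H hH ϖ hϖH hϖ0 hϖ1 hunif ρ hρI hρ hqϖ
      (D' : Divisor Qb (laurentBaseChange Qb (modularFunctionFieldFull (M * q)))) hD'H
      (fun n₁ n₂ hl => (hN n₁ n₂ hl).1) hG₀ hdiv
  exact ⟨D', hD', hD'H, ⟨N, hN⟩, G', γ, hG'0, hdivG', hG'H, hG'O, hγA, hγH, hγ1, hγd⟩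

set_option synthInstance.maxHeartbeats 400000 in
set_option maxHeartbeats 3200000 in
/-- **PL-C, closed form for `q ≥ 5`** (the nodal datum is supplied by
`NodalGood.nodalFibreAt_of_good`). -/
theorem exists_kummer_depth_good (hq : q.Prime) (hq5 : 5 ≤ q) (hA : A.LiesOverPrime q)
    (h : BadSetup A (IsLocalRing.residue A) M q)
    (W : laurentBaseChange Qb (modularFunctionFieldFull (M * q)) ≃ₐ[Qb]
      laurentBaseChange Qb (modularFunctionFieldFull (M * q))) (hW : IsAL M q W)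
    (H : Subgroup GQ) (hH : ∀ σ ∈ H, σ ∈ A.inertiaSubgroupIn ℚ)
    (ϖ : Qb) (hϖH : ∀ σ ∈ H, σ ϖ = ϖ) (hϖ0 : ϖ ≠ 0) (hϖ1 : A.valuation ϖ < 1)
    (hunif : ∀ a : Qb, (∀ σ ∈ H, σ a = a) → A.valuation a < 1 → A.valuation a ≤ A.valuation ϖ)
    {m : ℕ} (ρ : Fin m → GQ) (hρI : ∀ j, ρ j ∈ A.inertiaSubgroupIn ℚ)
    (hρ : ∀ σ ∈ A.inertiaSubgroupIn ℚ, ∃ j, ∃ τ ∈ H, σ = ρ j * τ)
    (hqϖ : A.valuation (q : Qb) ≤ A.valuation ϖ ^ (q - 1))
    {y : JZero (M * q)} (hy : y ∈ kerRed h W) (hqy : q • y = 0) (hyH : ∀ σ ∈ H, σ • y = y) :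
    ∃ (E1 E2 : Divisor Qb (laurentBaseChange Qb (modularFunctionFieldFull (M * q))))
      (D' : Divisor.degZero (K := Qb)
        (F := laurentBaseChange Qb (modularFunctionFieldFull (M * q)))),
      NodalFibreFor h W E1 E2 ∧ Pic0.mk D' = y ∧
      (∀ σ ∈ H, arithmeticGalois (modularFunctionFieldFull (M * q)) σ •
        (D' : Divisor Qb (laurentBaseChange Qb (modularFunctionFieldFull (M * q)))) = D') ∧
      (∃ N : ℕ, ∀ n₁ n₂ : ℕ, N ≤ n₁ + n₂ →
        (∃ s : OPair h W,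
          (s : laurentBaseChange Qb (modularFunctionFieldFull (M * q))) ∈ riemannRochSpace
            ((D' : Divisor Qb (laurentBaseChange Qb (modularFunctionFieldFull (M * q)))) +
              n₁ • E1 + n₂ • E2) ∧ redPair h W s = 1) ∧
        (∃ s : OPair h W,
          (s : laurentBaseChange Qb (modularFunctionFieldFull (M * q))) ∈ riemannRochSpace
            (-(D' : Divisor Qb (laurentBaseChange Qb (modularFunctionFieldFull (M * q)))) +
              n₁ • E1 + n₂ • E2) ∧ redPair h W s = 1)) ∧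
      ∃ (G' : laurentBaseChange Qb (modularFunctionFieldFull (M * q))) (γ : Qb),
        G' ≠ 0 ∧
        (∀ v : Place Qb (laurentBaseChange Qb (modularFunctionFieldFull (M * q))),
          (q • (D' : Divisor Qb (laurentBaseChange Qb (modularFunctionFieldFull (M * q))))) v =
            v.ord G') ∧
        (∀ σ ∈ H, arithmeticGalois (L := Qb) (modularFunctionFieldFull (M * q)) σ • G' = G') ∧
        G' ∈ OPair h W ∧ γ ∈ A ∧ (∀ σ ∈ H, σ γ = γ) ∧ A.valuation γ = 1 ∧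
        Dvd (OPair h W) (ϖ ^ q)
          (G' - algebraMap Qb (laurentBaseChange Qb (modularFunctionFieldFull (M * q))) γ) := by
  obtain ⟨E1, E2, hNF⟩ := (Fermat.Agent.BAD.KerRed.nodalFibreAt_iff h W).1
    (Fermat.Agent.BAD.NodalGood.nodalFibreAt_of_good A M q h hA (Or.inl hq5) W hW)
  obtain ⟨D', hrest⟩ := exists_kummer_depth hq hA h W hW hNF H hH ϖ hϖH hϖ0 hϖ1 hunif ρ hρI hρ
    hqϖ hy hqy hyH
  exact ⟨E1, E2, D', hNF, hrest⟩

end Main

end Fermat.Agent.TR.PL.KerRedDepthB
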