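/-
TR / (PL), brick PL-C (second seat, helper60), part 4: the canonical representative avoids the
nodes.

* `exists_unit_vanishing`, `exists_glued_unit_at_node` (abstract, nodal curve): for divisors
  `B_j` off the nodes, `G(N P₁ - B₁, N P₂ - B₂)` contains, for all large `N`, a section with a
  non-zero value at a given node.
-/
import Mathlib
import Fermat.Agent.TR.PL.KerRedDepthB3
import Fermat.Agent.TR.Node.NodalLocal

set_option autoImplicit false

namespace Fermat.Agent.TR.PL.KerRedDepthB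

open AlgebraicCurve ModularCurve Module Fermat.Agent.Lib.FF Fermat.Agent.Lib.Red.Deform
  Fermat.Agent.Lib.Red.CoordLat Fermat.Agent.BAD.NodalDiv Fermat.Agent.BAD.NodalRiemann
  Fermat.Agent.BAD.TwoVal Fermat.Agent.BAD.NodalAsm Fermat.Agent.BAD.BadU Fermat.Agent.BAD.KerRed
  Fermat.Agent.Padic.S33.RC.OrthoFam Fermat.Agent.Padic.GenPosAbs
  Fermat.Agent.Padic.S33.RC Fermat.Agent.BAD.LatFixedInst

local notation "Qb" => AlgebraicClosure ℚ
local notation "GQ" => (AlgebraicClosure ℚ ≃ₐ[ℚ] AlgebraicClosure ℚ)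

section NodalAbs

variable {K F : Type*} [Field K] [Field F] [Algebra K F] {x : F}

/-- For `deg P > 0` and a place `Q` off `P` and `D`: for all large `n` there is a function of
`L(n P - D)` with a non-zero value at `Q`. -/
theorem exists_unit_vanishing (h : IsFF1 K F x) {c₀ : ℤ} (hc : BasePoint.NS K F c₀)
    (P D : Divisor K F) (hdegP : 0 < Divisor.degree P) (Q : Place K F) (hPQ : P Q = 0)
    (hDQ : D Q = 0) :
    ∃ (n : ℕ) (a : F) (c : K), a ∈ riemannRochSpace (n • P - D) ∧ c ≠ 0 ∧ Cong Q a c := by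
  obtain ⟨n, hn⟩ : ∃ n : ℕ, c₀ + 1 + Divisor.degree D ≤ (n : ℤ) :=
    ⟨(c₀ + 1 + Divisor.degree D).toNat, Int.self_le_toNat _⟩
  have hdeg : c₀ + 1 ≤ Divisor.degree (n • P - D) := by
    rw [map_sub, map_nsmul, nsmul_eq_mul]
    have h0 : (0 : ℤ) ≤ n := Int.natCast_nonneg n
    nlinarith
  obtain ⟨a, haL, haQ⟩ := BasePoint.bpf_of_degree h hc hdeg Q
  have e0 : (n • P - D) Q = 0 := by
    rw [Finsupp.sub_apply, Finsupp.smul_apply, hPQ, hDQ, smul_zero, sub_zero]
  rw [e0, WithZero.exp_zero] at haQ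
  obtain ⟨c, hc'⟩ := exists_cong (h.resK Q) haQ.le
  refine ⟨n, a, c, haL, ?_, hc'⟩
  rintro rfl
  have h1 := Fermat.Agent.TR.Node.NodalLocal.cong_zero_iff'.1 hc'
  rw [haQ] at h1
  exact lt_irrefl _ h1

end NodalAbs

section GluedAbs

variable {K F₁ F₂ : Type*} [Field K] [Field F₁] [Field F₂] [Algebra K F₁] [Algebra K F₂]
  {x₁ : F₁} {x₂ : F₂} {ι : Type*}

/-- On the nodal curve: for effective `P_j` of positive degree and divisors `B_j`, all off the
nodes, `G(N P₁ - B₁, N P₂ - B₂)` contains for all large `N` a section with a non-zero value at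
the node `i₀`. -/
theorem exists_glued_unit_at_node [Fintype ι] (h₁ : IsFF1 K F₁ x₁) (h₂ : IsFF1 K F₂ x₂)
    {e₁ : ι → Place K F₁} {e₂ : ι → Place K F₂} (he₁ : Function.Injective e₁)
    (he₂ : Function.Injective e₂) {c₁ c₂ : ℤ} (hc₁ : BasePoint.NS K F₁ c₁)
    (hc₂ : BasePoint.NS K F₂ c₂)
    (P₁ : Divisor K F₁) (P₂ : Divisor K F₂) (hP₁ : ∀ i, P₁ (e₁ i) = 0) (hP₂ : ∀ i, P₂ (e₂ i) = 0)
    (hP₁0 : 0 ≤ P₁) (hP₂0 : 0 ≤ P₂) (hd₁ : 0 < Divisor.degree P₁) (hd₂ : 0 < Divisor.degree P₂)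
    (B₁ : Divisor K F₁) (B₂ : Divisor K F₂) (hB₁ : ∀ i, B₁ (e₁ i) = 0) (hB₂ : ∀ i, B₂ (e₂ i) = 0)
    (i₀ : ι) :
    ∃ N₀ : ℕ, ∀ N, N₀ ≤ N →
      ∃ t ∈ gluedSpace e₁ e₂ (fun _ => (1 : K)) (N • P₁ - B₁) (N • P₂ - B₂),
        ∃ c : K, c ≠ 0 ∧ Cong (e₁ i₀) t.1 c ∧ Cong (e₂ i₀) t.2 c := by
  obtain ⟨n₁, a, ca, haL, hca0, hca⟩ :=
    exists_unit_vanishing h₁ hc₁ P₁ B₁ hd₁ (e₁ i₀) (hP₁ i₀) (hB₁ i₀)
  obtain ⟨n₂, b, cb, hbL, hcb0, hcb⟩ :=
    exists_unit_vanishing h₂ hc₂ P₂ B₂ hd₂ (e₂ i₀) (hP₂ i₀) (hB₂ i₀)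
  have hb' : Cong (e₂ i₀) ((ca / cb) • b) ca := by
    have h := hcb.smul (ca / cb)
    rwa [div_mul_cancel₀ ca hcb0] at h
  have hb'L : (ca / cb) • b ∈ riemannRochSpace (n₂ • P₂ - B₂) := Submodule.smul_mem _ _ hbL
  obtain ⟨N, τ, hτ, hτ1, hτ2, -, hτab⟩ :=
    Fermat.Agent.TR.Node.NodalLocal.exists_denominator h₁ h₂ he₁ he₂ P₁ P₂ hP₁ hP₂ hP₁0 hP₂0
      hd₁ hd₂ i₀ hca hb'
  refine ⟨N + n₁ + n₂, fun N' hN' => ⟨τ * (a, (ca / cb) • b), ?_, ca, hca0, ?_, ?_⟩⟩
  · have hmem : τ * (a, (ca / cb) • b) ∈ gluedSpace e₁ e₂ (fun _ => (1 : K))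
        (N • P₁ + (n₁ • P₁ - B₁)) (N • P₂ + (n₂ • P₂ - B₂)) :=
      ⟨BasePoint.mul_mem_L_add hτ.1 haL, BasePoint.mul_mem_L_add hτ.2.1 hb'L, hτab.2.2⟩
    refine gluedSpace_mono ?_ ?_ hmem
    · refine Finsupp.le_def.2 fun v => ?_
      have h0 : (0 : ℤ) ≤ P₁ v := Finsupp.le_def.1 hP₁0 v
      simp only [Finsupp.add_apply, Finsupp.sub_apply, Finsupp.smul_apply, nsmul_eq_mul]
      have h1 : ((N : ℤ) + n₁) ≤ N' := by exact_mod_cast (by omega : N + n₁ ≤ N')
      nlinarith
    · refine Finsupp.le_def.2 fun v => ?_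
      have h0 : (0 : ℤ) ≤ P₂ v := Finsupp.le_def.1 hP₂0 v
      simp only [Finsupp.add_apply, Finsupp.sub_apply, Finsupp.smul_apply, nsmul_eq_mul]
      have h1 : ((N : ℤ) + n₂) ≤ N' := by exact_mod_cast (by omega : N + n₂ ≤ N')
      nlinarith
  · have h := hτ1.mul hca
    rwa [one_mul] at h
  · have h := hτ2.mul hb'
    rwa [one_mul] at h

end GluedAbs

section Avoid

variable {A : ValuationSubring Qb} {M q : ℕ} [NeZero M] [NeZero q]

set_option synthInstance.maxHeartbeats 400000 in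
set_option maxHeartbeats 6400000 in
/-- **An `H`-fixed normalised representative avoiding the nodes** (explicit nodal datum).  A class
of the kernel of reduction which is fixed by a set `H` of inertia elements has a representative
`D'` which is fixed by `H` as a divisor, normalised (sections of `D'` and `-D'` in `O` of
reduction `1` on all large charts), and such that every place `P` of its support off `E1` is a
zero of a chart denominator at every node `i` (a function of `Λ(N E1)` whose reduction has a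
non-zero value at the node): no point of `D'` reduces to a node. -/
theorem exists_fixed_normalized_den (hA : A.LiesOverPrime q)
    (h : BadSetup A (IsLocalRing.residue A) M q)
    (W : laurentBaseChange Qb (modularFunctionFieldFull (M * q)) ≃ₐ[Qb]
      laurentBaseChange Qb (modularFunctionFieldFull (M * q))) (hW : IsAL M q W)
    {E1 E2 : Divisor Qb (laurentBaseChange Qb (modularFunctionFieldFull (M * q)))}
    {ι : Type} [Fintype ι] [Nonempty ι]
    (e₁ e₂ : ι → Place (IsLocalRing.ResidueField A)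
      (modularFunctionFieldFullC (IsLocalRing.ResidueField A) M))
    (P₁ Z₁ P₂ Z₂ : Divisor (IsLocalRing.ResidueField A)
      (modularFunctionFieldFullC (IsLocalRing.ResidueField A) M))
    (hdat : SmallBadB.DatumFor h W E1 E2 e₁ e₂ P₁ Z₁ P₂ Z₂)
    (H : Set GQ) (hH : ∀ σ ∈ H, σ ∈ A.inertiaSubgroupIn ℚ)
    {y : JZero (M * q)} (hy : y ∈ kerRed h W) (hyH : ∀ σ ∈ H, σ • y = y) :
    ∃ D' : Divisor.degZero (K := Qb)
        (F := laurentBaseChange Qb (modularFunctionFieldFull (M * q))),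
      Pic0.mk D' = y ∧
      (∀ σ ∈ H, arithmeticGalois (modularFunctionFieldFull (M * q)) σ •
        (D' : Divisor Qb (laurentBaseChange Qb (modularFunctionFieldFull (M * q)))) = D') ∧
      (∃ N : ℕ, ∀ n₁ n₂ : ℕ, N ≤ n₁ + n₂ →
        (∃ s : OPair h W,
          (s : laurentBaseChange Qb (modularFunctionFieldFull (M * q))) ∈ riemannRochSpace
            ((D' : Divisor Qb (laurentBaseChange Qb (modularFunctionFieldFull (M * q)))) +
              n₁ • E1 + n₂ • E2) ∧ redPair h W s = 1) ∧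
        (∃ s : OPair h W,
          (s : laurentBaseChange Qb (modularFunctionFieldFull (M * q))) ∈ riemannRochSpace
            (-(D' : Divisor Qb (laurentBaseChange Qb (modularFunctionFieldFull (M * q)))) +
              n₁ • E1 + n₂ • E2) ∧ redPair h W s = 1)) ∧
      ∀ (i : ι) (P : Place Qb (laurentBaseChange Qb (modularFunctionFieldFull (M * q)))),
        (D' : Divisor Qb (laurentBaseChange Qb (modularFunctionFieldFull (M * q)))) P ≠ 0 →
        E1 P = 0 →
        ∃ (N : ℕ) (t : OPair h W),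
          (t : laurentBaseChange Qb (modularFunctionFieldFull (M * q))) ∈
            riemannRochSpace (N • E1) ∧
          (∃ c : IsLocalRing.ResidueField A, c ≠ 0 ∧ Cong (e₁ i) (redPair h W t).1 c ∧
            Cong (e₂ i) (redPair h W t).2 c) ∧
          P.adicValuation (t : laurentBaseChange Qb (modularFunctionFieldFull (M * q))) < 1 := by
  classical
  have : IsAlgClosed (IsLocalRing.ResidueField A) := CharP.isAlgClosed_residueField A
  have hπ : Function.Surjective (IsLocalRing.residue A) := IsLocalRing.residue_surjective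
  have hPR := SmallBadB.pRed hπ h W
  have hF := isFF1_xL Qb (M * q)
  have hκ := isFF1_xk (IsLocalRing.ResidueField A) M
  have hLat : LatAt h W := latAt hπ h W hW
  have hNF : NodalFibreFor h W E1 E2 :=
    ⟨ι, inferInstance, inferInstance, e₁, e₂, P₁, Z₁, P₂, Z₂, hdat⟩
  obtain ⟨hinj₁, hinj₂, hP₁, hZ₁, hP₂, hZ₂, hd₁, hd₂,
    hdegP₁, hdegP₂, hE1, hE2, hdisj, hdegE1, hdegE2, hgalE, hS2⟩ := hdat
  obtain ⟨T, T₁, T₂, hTg, hTT, -, hTI, hTE, -, -, hT₁e, hT₂e, -, -, hns, hRC2⟩ :=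
    Fermat.Agent.BAD.SmoothLiftInst.exists_basePoints_closed hπ h W hW hA E1 E2 e₁ e₂ P₁ Z₁ P₂ Z₂
      hinj₁ hinj₂ hP₁ hZ₁ hP₂ hZ₂ hdegP₁ hdegP₂ hE1 hE2 hdegE1 hdegE2 hgalE hS2 ∅ ∅
  obtain ⟨hP₁0, hZ₁0, hP₂0, hZ₂0⟩ := SmallBadB.datum_nonneg h W e₁ e₂ P₁ Z₁ P₂ Z₂ hE1 hE2 hS2
  obtain ⟨N₀, hN₀⟩ := hS2
  obtain ⟨c, N₁, hN₁⟩ := hRC2
  obtain ⟨c₁, hc₁⟩ := BasePoint.exists_NS hκ
  -- degrees
  have hdZ₁ : 0 ≤ Divisor.degree Z₁ :=
    Fermat.Agent.Lib.FF.GenPos.degree_nonneg hκ fun v => by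
      simpa using Finsupp.le_def.1 hZ₁0 v
  have hdZ₂ : 0 ≤ Divisor.degree Z₂ :=
    Fermat.Agent.Lib.FF.GenPos.degree_nonneg hκ fun v => by
      simpa using Finsupp.le_def.1 hZ₂0 v
  have hdQ₁ : 1 ≤ Divisor.degree (P₁ + Z₁) := by rw [map_add]; linarith
  have hdQ₂ : 1 ≤ Divisor.degree (P₂ + Z₂) := by rw [map_add]; linarith
  have hdegB : Divisor.degree (RR.sumPl T) =
      genusFF Qb ↥(laurentBaseChange Qb (modularFunctionFieldFull (M * q))) := by
    rw [RR.degree_sumPl hF.resK]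
    exact hTg
  have hdB₁ : Divisor.degree (RR.sumPl T₁) = T₁.card := RR.degree_sumPl hκ.resK T₁
  have hdB₂ : Divisor.degree (RR.sumPl T₂) = T₂.card := RR.degree_sumPl hκ.resK T₂
  have hB₁e : ∀ i, RR.sumPl T₁ (e₁ i) = 0 := fun i => RR.sumPl_apply_of_notMem (hT₁e i)
  have hB₂e : ∀ i, RR.sumPl T₂ (e₂ i) = 0 := fun i => RR.sumPl_apply_of_notMem (hT₂e i)
  have hQ₁e : ∀ (n : ℕ) (i : ι), (n • (P₁ + Z₁)) (e₁ i) = 0 := fun n i => by
    rw [Finsupp.smul_apply, Finsupp.add_apply, hP₁ i, hZ₁ i, add_zero, smul_zero]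
  have hQ₂e : ∀ (n : ℕ) (i : ι), (n • (P₂ + Z₂)) (e₂ i) = 0 := fun n i => by
    rw [Finsupp.smul_apply, Finsupp.add_apply, hP₂ i, hZ₂ i, add_zero, smul_zero]
  have hdeg₁ : ∀ n : ℕ, Divisor.degree (n • (P₁ + Z₁)) = n * Divisor.degree (P₁ + Z₁) :=
    fun n => by rw [map_nsmul, nsmul_eq_mul]
  have hdeg₂ : ∀ n : ℕ, Divisor.degree (n • (P₂ + Z₂)) = n * Divisor.degree (P₂ + Z₂) :=
    fun n => by rw [map_nsmul, nsmul_eq_mul]
  have hle₁ : ∀ n : ℕ, (n : ℤ) ≤ Divisor.degree (n • (P₁ + Z₁)) := fun n => by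
    rw [hdeg₁]
    have : (0 : ℤ) ≤ n := Int.natCast_nonneg n
    nlinarith
  have hle₂ : ∀ n : ℕ, (n : ℤ) ≤ Divisor.degree (n • (P₂ + Z₂)) := fun n => by
    rw [hdeg₂]
    have : (0 : ℤ) ≤ n := Int.natCast_nonneg n
    nlinarith
  have hS : ∀ n : ℕ, N₀ ≤ n → ∀ t,
      (∃ y : OPair h W, (y : laurentBaseChange Qb (modularFunctionFieldFull (M * q))) ∈
          riemannRochSpace (n • (E1 + E2)) ∧ redPair h W y = t) ↔
        t ∈ gluedSpace e₁ e₂ (fun _ => (1 : IsLocalRing.ResidueField A))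
          (n • (P₁ + Z₁)) (n • (P₂ + Z₂)) := by
    intro n hn t
    rw [smul_add n E1 E2, smul_add n P₁ Z₁, smul_add n P₂ Z₂]
    exact hN₀ n n (by omega) t
  have hRC : ∀ n : ℕ, N₁ ≤ n → c ≤ n → ∀ t,
      (∃ y : OPair h W, (y : laurentBaseChange Qb (modularFunctionFieldFull (M * q))) ∈
          riemannRochSpace (n • (E1 + E2) - RR.sumPl T) ∧ redPair h W y = t) ↔
        t ∈ gluedSpace e₁ e₂ (fun _ => (1 : IsLocalRing.ResidueField A))
          (n • (P₁ + Z₁) - RR.sumPl T₁) (n • (P₂ + Z₂) - RR.sumPl T₂) := by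
    intro n hn hcn t
    have h1 := hle₁ n
    have h2 := hle₂ n
    rw [smul_add n P₁ Z₁] at h1
    rw [smul_add n P₂ Z₂] at h2
    rw [smul_add n E1 E2, smul_add n P₁ Z₁, smul_add n P₂ Z₂]
    exact hN₁ n n (by omega) (hcn.trans h1) (hcn.trans h2) t
  -- the normalised representative
  obtain ⟨D₀, hD₀, N, hN⟩ := exists_normalized hπ h W hNF hy
  have hone : (1 : ↥(modularFunctionFieldFullC (IsLocalRing.ResidueField A) M) ×
      ↥(modularFunctionFieldFullC (IsLocalRing.ResidueField A) M)) =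
      (algebraMap (IsLocalRing.ResidueField A)
          ↥(modularFunctionFieldFullC (IsLocalRing.ResidueField A) M) 1,
        algebraMap (IsLocalRing.ResidueField A)
          ↥(modularFunctionFieldFullC (IsLocalRing.ResidueField A) M) 1) := by
    rw [map_one]; rfl
  have hdeg : Divisor.degree
      (D₀ : Divisor Qb (laurentBaseChange Qb (modularFunctionFieldFull (M * q)))) = 0 :=
    Divisor.mem_degZero.1 D₀.2
  obtain ⟨N₂, hN₂⟩ := triv_of_sections hπ h W hW hNF
    (D₀ : Divisor Qb (laurentBaseChange Qb (modularFunctionFieldFull (M * q)))) hdeg 1 1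
    one_ne_zero one_ne_zero N (fun n₁ n₂ hl => by
      obtain ⟨y, hy, hr⟩ := (hN n₁ n₂ hl).2
      exact ⟨y, hy, hr.trans hone⟩)
  -- the chart `C = a • (E1 + E2)`
  obtain ⟨a, haN₂, haN₀, haN₁, hac, hab⟩ : ∃ a : ℕ, N₂ ≤ a ∧ N₀ ≤ a ∧ N₁ ≤ a ∧ c ≤ a ∧
      c₁ + Fintype.card ι + 1 + T₁.card + T₂.card ≤ (a : ℤ) :=
    ⟨max (max N₂ N₀) (max (max N₁ c.toNat)
        (c₁ + Fintype.card ι + 1 + T₁.card + T₂.card).toNat),
      (le_max_left _ _).trans (le_max_left _ _), (le_max_right _ _).trans (le_max_left _ _),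
      ((le_max_left _ _).trans (le_max_left _ _)).trans (le_max_right _ _),
      Int.toNat_le.1 (((le_max_right _ _).trans (le_max_left _ _)).trans (le_max_right _ _)),
      Int.toNat_le.1 ((le_max_right _ _).trans (le_max_right _ _))⟩
  have hT₁0 : (0 : ℤ) ≤ T₁.card := Int.natCast_nonneg _
  have hT₂0 : (0 : ℤ) ≤ T₂.card := Int.natCast_nonneg _
  -- the section `f` of `B + D₀`
  obtain ⟨hfin, f, hfL, hfr⟩ := KerDivFam.exists_section hPR.hOA (redPair h W)
    (IsLocalRing.residue A) hPR.hπsurj hPR.hπ hPR.hredconst hPR.hker hF hκ hκ hinj₁ hinj₂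
    hc₁ hc₁ (B := RR.sumPl T) (B₁ := RR.sumPl T₁) (B₂ := RR.sumPl T₂) hB₁e hB₂e hdegB hns.le
    (C := a • (E1 + E2)) (C₁ := a • (P₁ + Z₁)) (C₂ := a • (P₂ + Z₂)) (hQ₁e a) (hQ₂e a)
    (by rw [map_sub, hdB₁]; have := hle₁ a; linarith)
    (by rw [map_sub, hdB₂]; have := hle₂ a; linarith)
    (fun t ht => (hRC a haN₁ hac t).2 ht)
    (D := (D₀ : Divisor Qb (laurentBaseChange Qb (modularFunctionFieldFull (M * q))))) hdeg
    (u := 1) (u' := 1) (one_mul 1)
    (fun s hs => by
      have h1 := (hN₂ a a (by omega) ((algebraMap (IsLocalRing.ResidueField A)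
          ↥(modularFunctionFieldFullC (IsLocalRing.ResidueField A) M) 1,
        algebraMap (IsLocalRing.ResidueField A)
          ↥(modularFunctionFieldFullC (IsLocalRing.ResidueField A) M) 1) * redPair h W s)).1
        ⟨s, by rw [smul_add a E1 E2, ← add_assoc] at hs; exact hs, rfl⟩
      rw [← hone] at h1
      have h2 := (hS a haN₀ (1 * redPair h W s)).1 (by
        rw [smul_add a E1 E2]; exact h1)
      exact h2)
    (hLat _)
  have hfr1 : redPair h W f = 1 := by rw [one_mul] at hfr; exact hfr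
  obtain ⟨hf0, hinvO, hrinv⟩ := inv_mem_OPair_of_red h W f.2 (u := 1) (u' := 1) (one_mul 1) hfr1
  have hPD := hF.hasPrincipalDivisors
  obtain ⟨Df, hDf, hDfdeg⟩ := HasPrincipalDivisors.exists_divisor (K := Qb)
    (f : laurentBaseChange Qb (modularFunctionFieldFull (M * q))) hf0
  have hDfp : Df ∈ Divisor.principal (K := Qb)
      (F := laurentBaseChange Qb (modularFunctionFieldFull (M * q))) := ⟨_, hf0, hDf⟩
  -- the canonical divisor `D_y = B + D₀ + div f`
  have hKD : KDFormal.IsKD (RR.sumPl T) (RR.sumPl T +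
      (D₀ : Divisor Qb (laurentBaseChange Qb (modularFunctionFieldFull (M * q)))) + Df) y := by
    refine ⟨?_, ?_, ?_, ?_⟩
    · refine Finsupp.le_def.2 fun v => ?_
      rcases (mem_riemannRochSpace_iff.1 hfL) v with h0 | h1
      · exact absurd h0 hf0
      · simp only [Finsupp.coe_zero, Pi.zero_apply, Finsupp.add_apply] at h1 ⊢
        rw [hDf v]
        omega
    · rw [map_add, map_add, hdegB, hdeg, hDfdeg, add_zero, add_zero]
    · have h1 := finrank_L_eq_of_principal (D := RR.sumPl T +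
          (D₀ : Divisor Qb (laurentBaseChange Qb (modularFunctionFieldFull (M * q)))))
        (D' := RR.sumPl T +
          (D₀ : Divisor Qb (laurentBaseChange Qb (modularFunctionFieldFull (M * q)))) + Df)
        (by rw [add_sub_cancel_left]; exact hDfp)
      rw [h1]
      exact hfin
    · have h1 : ClassEq
          (D₀ : Divisor Qb (laurentBaseChange Qb (modularFunctionFieldFull (M * q)))) y :=
        ⟨D₀.2, hD₀⟩
      refine h1.of_sub_mem_principal ?_ ?_
      · have e : RR.sumPl T +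
            (D₀ : Divisor Qb (laurentBaseChange Qb (modularFunctionFieldFull (M * q)))) + Df -
            RR.sumPl T - D₀ = Df := by abel
        rw [e]
        exact hDfp
      · rw [map_sub, map_add, map_add, hdeg, hDfdeg]
        ring
  have hfix : ∀ σ ∈ H, arithmeticGalois (modularFunctionFieldFull (M * q)) σ •
      ((D₀ : Divisor Qb (laurentBaseChange Qb (modularFunctionFieldFull (M * q)))) + Df) =
      (D₀ : Divisor Qb (laurentBaseChange Qb (modularFunctionFieldFull (M * q)))) + Df := by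
    intro σ hσ
    have hB := hTI σ (hH σ hσ)
    have h' : KDFormal.IsKD (RR.sumPl T) (RR.sumPl T +
        (D₀ : Divisor Qb (laurentBaseChange Qb (modularFunctionFieldFull (M * q)))) + Df)
        (arithmeticGalois (modularFunctionFieldFull (M * q)) σ • y) := by
      have e : arithmeticGalois (modularFunctionFieldFull (M * q)) σ • y = y := hyH σ hσ
      rw [e]
      exact hKD
    have h1 := hKD.eq_smul _ hB h'
    have e : (D₀ : Divisor Qb (laurentBaseChange Qb (modularFunctionFieldFull (M * q)))) + Df =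
        RR.sumPl T + D₀ + Df - RR.sumPl T := by abel
    rw [e, smul_sub, ← h1, hB]
  have hD'mem : (D₀ : Divisor Qb (laurentBaseChange Qb (modularFunctionFieldFull (M * q)))) + Df ∈
      Divisor.degZero (K := Qb)
        (F := laurentBaseChange Qb (modularFunctionFieldFull (M * q))) :=
    Divisor.mem_degZero.2 (by rw [map_add, hdeg, hDfdeg, add_zero])
  refine ⟨⟨_, hD'mem⟩, ?_, hfix, ⟨N, fun n₁ n₂ hl => ⟨?_, ?_⟩⟩, ?_⟩
  · obtain ⟨hd, hm⟩ := hKD.cls
    rw [← hm]
    congr 1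
    apply Subtype.ext
    show (D₀ : Divisor Qb (laurentBaseChange Qb (modularFunctionFieldFull (M * q)))) + Df =
      RR.sumPl T + D₀ + Df - RR.sumPl T
    abel
  · obtain ⟨s, hs, hr⟩ := (hN n₁ n₂ hl).1
    have hs'' : (s : laurentBaseChange Qb (modularFunctionFieldFull (M * q))) ∈
        VB (D₀ : Divisor Qb (laurentBaseChange Qb (modularFunctionFieldFull (M * q))))
          E1 E2 n₁ n₂ := hs
    have hm := mul_mem_VB hs'' (inv_mem_VB_of_div E1 E2 hDf)
    rw [add_zero, add_zero] at hm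
    unfold VB at hm
    have hm2 : ((s * ⟨(f : laurentBaseChange Qb (modularFunctionFieldFull (M * q)))⁻¹, hinvO⟩ :
        OPair h W) : laurentBaseChange Qb (modularFunctionFieldFull (M * q))) ∈
        riemannRochSpace ((D₀ : Divisor Qb (laurentBaseChange Qb
          (modularFunctionFieldFull (M * q)))) + Df + n₁ • E1 + n₂ • E2) := hm
    refine ⟨_, hm2, ?_⟩
    rw [map_mul, hr, hrinv, one_mul]
  · obtain ⟨s, hs, hr⟩ := (hN n₁ n₂ hl).2
    have hs'' : (s : laurentBaseChange Qb (modularFunctionFieldFull (M * q))) ∈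
        VB (-(D₀ : Divisor Qb (laurentBaseChange Qb (modularFunctionFieldFull (M * q)))))
          E1 E2 n₁ n₂ := hs
    have hm := mul_mem_VB hs'' (mem_VB_neg_of_div E1 E2 hDf)
    rw [add_zero, add_zero, ← neg_add] at hm
    unfold VB at hm
    have hm2 : ((s * f : OPair h W) : laurentBaseChange Qb (modularFunctionFieldFull (M * q))) ∈
        riemannRochSpace (-((D₀ : Divisor Qb (laurentBaseChange Qb
          (modularFunctionFieldFull (M * q)))) + Df) + n₁ • E1 + n₂ • E2) := hm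
    refine ⟨_, hm2, ?_⟩
    rw [map_mul, hr, hfr1, one_mul]

  · -- (AVOID): chart denominators vanishing on the support
    intro i P hP hPE
    have hP' : ((D₀ : Divisor Qb (laurentBaseChange Qb (modularFunctionFieldFull (M * q)))) +
        Df) P ≠ 0 := hP
    obtain ⟨Ni, hNi⟩ := exists_glued_unit_at_node hκ hκ hinj₁ hinj₂ hc₁ hc₁ P₁ P₂ hP₁ hP₂
      hP₁0 hP₂0 hdegP₁ hdegP₂ (RR.sumPl T₁) (RR.sumPl T₂) hB₁e hB₂e i
    obtain ⟨Nn, hNNi, hNN₁, hNc, hN3g⟩ : ∃ Nn : ℕ, Ni ≤ Nn ∧ N₁ ≤ Nn ∧ c ≤ Nn ∧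
        3 * genusFF Qb ↥(laurentBaseChange Qb (modularFunctionFieldFull (M * q))) ≤ Nn :=
      ⟨max (max Ni N₁) (max c.toNat
          (3 * genusFF Qb ↥(laurentBaseChange Qb (modularFunctionFieldFull (M * q))))),
        (le_max_left _ _).trans (le_max_left _ _), (le_max_right _ _).trans (le_max_left _ _),
        Int.toNat_le.1 ((le_max_left _ _).trans (le_max_right _ _)),
        (le_max_right _ _).trans (le_max_right _ _)⟩
    obtain ⟨tt, htt, cc, hcc0, hcc1, hcc2⟩ := hNi Nn hNNi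
    have htt' : tt ∈ gluedSpace e₁ e₂ (fun _ => (1 : IsLocalRing.ResidueField A))
        (Nn • P₁ + 0 • Z₁ - RR.sumPl T₁) (Nn • P₂ + 0 • Z₂ - RR.sumPl T₂) := by
      rw [zero_smul, zero_smul, add_zero, add_zero]
      exact htt
    have hdP₁ : (1 : ℤ) ≤ Divisor.degree P₁ := hdegP₁
    have hdP₂ : (1 : ℤ) ≤ Divisor.degree P₂ := hdegP₂
    have hNn0 : (0 : ℤ) ≤ Nn := Int.natCast_nonneg Nn
    have ha0 : (0 : ℤ) ≤ a := Int.natCast_nonneg a
    have hRCN := hN₁ Nn 0 (by omega)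
      (by rw [map_add, map_nsmul, map_nsmul, zero_smul, add_zero, nsmul_eq_mul]; nlinarith)
      (by rw [map_add, map_nsmul, map_nsmul, zero_smul, add_zero, nsmul_eq_mul]; nlinarith)
    have hL1 : ∀ X : Divisor Qb (laurentBaseChange Qb (modularFunctionFieldFull (M * q))),
        0 ≤ X → riemannRochSpace (Nn • E1 + 0 • E2 - X) ≤ riemannRochSpace (Nn • E1) := by
      intro X hX
      refine KMLemmas.L_mono (Finsupp.le_def.2 fun v => ?_)
      have := Finsupp.le_def.1 hX v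
      simp only [Finsupp.coe_zero, Pi.zero_apply, Finsupp.sub_apply, Finsupp.add_apply,
        Finsupp.smul_apply, zero_smul, add_zero] at this ⊢
      omega
    have hval : ∀ (X : Divisor Qb (laurentBaseChange Qb (modularFunctionFieldFull (M * q))))
        (t : laurentBaseChange Qb (modularFunctionFieldFull (M * q))),
        t ∈ riemannRochSpace (Nn • E1 + 0 • E2 - X) → 1 ≤ X P → P.adicValuation t < 1 := by
      intro X t ht hXP
      refine lt_of_le_of_lt (ht P) ?_
      rw [← WithZero.exp_zero, WithZero.exp_lt_exp]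
      simp only [Finsupp.sub_apply, Finsupp.add_apply, Finsupp.smul_apply, hPE, smul_zero,
        zero_smul, add_zero]
      omega
    by_cases hBP : RR.sumPl T P = 0
    · -- `P` is a point of `D_y`
      have hDy0 := Finsupp.le_def.1 hKD.nonneg P
      have hDy1 : 1 ≤ (RR.sumPl T +
          (D₀ : Divisor Qb (laurentBaseChange Qb (modularFunctionFieldFull (M * q)))) + Df) P := by
        simp only [Finsupp.coe_zero, Pi.zero_apply, Finsupp.add_apply] at hDy0 hP' ⊢
        rw [hBP] at hDy0 ⊢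
        omega
      obtain ⟨ty, htyL, htyr⟩ := (KerDivFam.redSub_sub_eq hPR.hOA (redPair h W)
        (IsLocalRing.residue A) hPR.hπsurj hPR.hπ hPR.hredconst hPR.hker hF hκ hκ hinj₁ hinj₂
        hc₁ hc₁ (B := RR.sumPl T) (B₁ := RR.sumPl T₁) (B₂ := RR.sumPl T₂) hB₁e hB₂e
        (C := a • (E1 + E2)) (C₁ := a • (P₁ + Z₁)) (C₂ := a • (P₂ + Z₂)) (hQ₁e a) (hQ₂e a)
        (by have := hle₁ a; linarith) (by have := hle₂ a; linarith)
        (D := (D₀ : Divisor Qb (laurentBaseChange Qb (modularFunctionFieldFull (M * q))))) hdeg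
        (u := 1) (u' := 1) (one_mul 1)
        (fun t ht => by
          obtain ⟨y0, hy0, hy0r⟩ := (hS a haN₀ t).2 ht
          have h1 := (hN₂ a a (by omega) t).2 ⟨y0, by
            rw [smul_add a E1 E2] at hy0; exact hy0, hy0r⟩
          rw [← hone] at h1
          obtain ⟨s, hs, hsr⟩ := h1
          exact ⟨s, by rw [smul_add a E1 E2, ← add_assoc]; exact hs, hsr⟩)
        f hf0 hfr hDf
        (C' := Nn • E1 + 0 • E2) (C₁' := Nn • P₁ + 0 • Z₁) (C₂' := Nn • P₂ + 0 • Z₂)
        (fun j => by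
          rw [Finsupp.add_apply, Finsupp.smul_apply, Finsupp.smul_apply, hP₁ j, hZ₁ j,
            smul_zero, smul_zero, add_zero])
        (fun j => by
          rw [Finsupp.add_apply, Finsupp.smul_apply, Finsupp.smul_apply, hP₂ j, hZ₂ j,
            smul_zero, smul_zero, add_zero])
        (by
          rw [map_sub, map_add, map_nsmul, map_nsmul, zero_smul, add_zero, nsmul_eq_mul, hdegB]
          have hg3 : (3 : ℤ) * genusFF Qb ↥(laurentBaseChange Qb
              (modularFunctionFieldFull (M * q))) ≤ Nn := by exact_mod_cast hN3g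
          have hdE : (1 : ℤ) ≤ Divisor.degree E1 := hdegE1
          nlinarith)
        hRCN
        (fun y0 hy0 => by
          have e : Nn • E1 + 0 • E2 + a • (E1 + E2) = (Nn + a) • E1 + a • E2 := by
            rw [zero_smul, add_zero, smul_add, add_smul]
            abel
          have e1 : Nn • P₁ + 0 • Z₁ + a • (P₁ + Z₁) = (Nn + a) • P₁ + a • Z₁ := by
            rw [zero_smul, add_zero, smul_add, add_smul]
            abel
          have e2 : Nn • P₂ + 0 • Z₂ + a • (P₂ + Z₂) = (Nn + a) • P₂ + a • Z₂ := by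
            rw [zero_smul, add_zero, smul_add, add_smul]
            abel
          rw [e] at hy0
          rw [e1, e2]
          exact (hN₁ (Nn + a) a (by omega)
            (by rw [map_add, map_nsmul, map_nsmul, nsmul_eq_mul, nsmul_eq_mul]; push_cast
                nlinarith)
            (by rw [map_add, map_nsmul, map_nsmul, nsmul_eq_mul, nsmul_eq_mul]; push_cast
                nlinarith) _).1 ⟨y0, hy0, rfl⟩)
        hLat tt).2 htt'
      exact ⟨Nn, ty, hL1 _ hKD.nonneg htyL,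
        ⟨cc, hcc0, by rw [htyr]; exact hcc1, by rw [htyr]; exact hcc2⟩, hval _ _ htyL hDy1⟩
    · -- `P` is a point of `B`
      have hB0 := Finsupp.le_def.1 (RR.sumPl_nonneg T) P
      have hB1 : 1 ≤ RR.sumPl T P := by
        simp only [Finsupp.coe_zero, Pi.zero_apply] at hB0
        omega
      obtain ⟨tb, htbL, htbr⟩ := (hRCN tt).2 htt'
      exact ⟨Nn, tb, hL1 _ (RR.sumPl_nonneg T) htbL,
        ⟨cc, hcc0, by rw [htbr]; exact hcc1, by rw [htbr]; exact hcc2⟩, hval _ _ htbL hB1⟩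

end Avoid

end Fermat.Agent.TR.PL.KerRedDepthB
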