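/-
TR / (PL), brick PL-C (second seat, helper60), part 5: the final package.

* `not_through_of_den`, `not_through_of_pos` (abstract, `TR/PL/Through` vocabulary): a place which
  is a zero of a chart denominator at the node `i`, or which lies on the chart divisor, does not
  pass through the node `i`;
* `exists_fixed_section` : an `H`-fixed lift `t` of a section of reduction `1` of an `H`-fixed
  divisor, with `t ≡ 1 mod ϖ O`;
* `exists_kummer_package` : **PL-C, final form** — for a class `y` of the kernel of reduction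
  fixed by `H`: ONE representative `D'` which is `H`-fixed as a divisor, has `H`-fixed sections
  `s ≡ 1 mod ϖ O` of `D'` and of `-D'` on every large chart, passes through no node, and (if
  `q y = 0` and `q ∈ ϖ ^ (q - 1) A`) has an `H`-fixed Kummer function `G' ≡ γ mod ϖ ^ q O`.
-/
import Mathlib
import Fermat.Agent.TR.PL.KerRedDepthB4
import Fermat.Agent.TR.PL.Through

set_option autoImplicit false

namespace Fermat.Agent.TR.PL.KerRedDepthB

open AlgebraicCurve ModularCurve Module Fermat.Agent.Lib.FF Fermat.Agent.Lib.Red.Deform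
  Fermat.Agent.Lib.Red.CoordLat Fermat.Agent.BAD.NodalDiv Fermat.Agent.BAD.NodalRiemann
  Fermat.Agent.BAD.TwoVal Fermat.Agent.BAD.NodalAsm Fermat.Agent.BAD.BadU Fermat.Agent.BAD.KerRed
  Fermat.Agent.Padic.S33.RC.OrthoFam Fermat.Agent.Padic.GenPosAbs
  Fermat.Agent.Padic.S33.RC Fermat.Agent.BAD.LatFixedInst
  Fermat.Agent.TR.Node.NodeRingAbs Fermat.Agent.TR.PL.Through

local notation "Qb" => AlgebraicClosure ℚ
local notation "GQ" => (AlgebraicClosure ℚ ≃ₐ[ℚ] AlgebraicClosure ℚ)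

section ThroughAbs

variable {L F : Type*} [Field L] [Field F] [Algebra L F] {A : ValuationSubring L} {O : Subring F}
  {k F₁ F₂ : Type*} [Field k] [Field F₁] [Field F₂] [Algebra k F₁] [Algebra k F₂]
  {ι : Type*}

/-- A zero of a chart denominator at the node `i` does not pass through the node `i`. -/
theorem not_through_of_den (red : O →+* F₁ × F₂) {E : Divisor L F} (hE : 0 ≤ E)
    (e₁ : ι → Place k F₁) (e₂ : ι → Place k F₂) (i : ι) {P : Place L F} {N : ℕ} {t : O}
    (htL : (t : F) ∈ riemannRochSpace (N • E))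
    (hc : ∃ c : k, c ≠ 0 ∧ Cong (e₁ i) (red t).1 c ∧ Cong (e₂ i) (red t).2 c)
    (hP : P.adicValuation (t : F) < 1) :
    ¬ Through (nodeRing red ⊤ E e₁ e₂ i) P := by
  intro hT
  have ht0 : (t : F) ≠ 0 := by
    obtain ⟨c, hc0, hc1, -⟩ := hc
    intro h0
    have e : t = 0 := Subtype.ext h0
    have h1 : (red t).1 ≠ 0 := ne_zero_of_cong hc1 hc0
    rw [e, map_zero] at h1
    exact h1 rfl
  have hmem : (t : F)⁻¹ ∈ nodeRing red ⊤ E e₁ e₂ i :=
    ⟨Subring.mem_top _, N, t, htL, Subring.mem_top _, hc, 1, by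
      show (1 : F) = (t : F) * (t : F)⁻¹
      rw [mul_inv_cancel₀ ht0], one_mem_L_nsmul hE N⟩
  have h1 := hT _ hmem
  rw [map_inv₀] at h1
  have hv0 : P.adicValuation (t : F) ≠ 0 := (Valuation.ne_zero_iff _).2 ht0
  have h2 : (1 : _) ≤ P.adicValuation (t : F) := by
    have := mul_le_mul' h1 (le_refl (P.adicValuation (t : F)))
    rwa [inv_mul_cancel₀ hv0, one_mul] at this
  exact absurd hP (not_lt.2 h2)

/-- A place on the chart divisor does not pass through any node. -/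
theorem not_through_of_pos {x : F} (hF : IsFF1 L F x)
    (hval : ∀ y : F, y ≠ 0 → ∃ c : L, c ≠ 0 ∧ algebraMap L F c * y ∈ O ∧
      ¬ Small A O (algebraMap L F c * y))
    (red : O →+* F₁ × F₂) {E : Divisor L F} (hE : 0 ≤ E) (hdeg : 0 < Divisor.degree E)
    (e₁ : ι → Place k F₁) (e₂ : ι → Place k F₂) (i : ι) {P : Place L F} (hP : E P ≠ 0) :
    ¬ Through (nodeRing red ⊤ E e₁ e₂ i) P := by
  intro hT
  have hEP0 : (0 : ℤ) ≤ E P := Finsupp.le_def.1 hE P
  have hEP : (1 : ℤ) ≤ E P := by omega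
  have hbpf := WeilCanonical.bpf_of_two_genus hF (D := (2 * genusFF L F + 1) • E) (by
    rw [map_nsmul, nsmul_eq_mul]
    have hd1 : (1 : ℤ) ≤ Divisor.degree E := hdeg
    have hg0 : (0 : ℤ) ≤ genusFF L F := Int.natCast_nonneg _
    push_cast
    nlinarith)
  obtain ⟨f, hfL, hfP⟩ := hbpf P
  have hf0 : f ≠ 0 := by
    rintro rfl
    rw [map_zero] at hfP
    exact WithZero.exp_ne_zero hfP.symm
  obtain ⟨c, hc0, hcO, -⟩ := hval f hf0
  have hmem : algebraMap L F c * f ∈ nodeRing red ⊤ E e₁ e₂ i :=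
    ⟨Subring.mem_top _, 2 * genusFF L F + 1, 1, one_mem_L_nsmul hE _, Subring.mem_top _,
      ⟨1, one_ne_zero, by rw [map_one]; exact cong_one'' _, by rw [map_one]; exact cong_one'' _⟩,
      ⟨_, hcO⟩, by
        show algebraMap L F c * f = (1 : F) * (algebraMap L F c * f)
        rw [one_mul], by
        show algebraMap L F c * f ∈ riemannRochSpace ((2 * genusFF L F + 1) • E)
        rw [← Algebra.smul_def]
        exact Submodule.smul_mem _ _ hfL⟩
  have h1 := hT _ hmem
  rw [map_mul, adicValuation_algebraMap_eq_one P hc0, one_mul, hfP, ← WithZero.exp_zero,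
    WithZero.exp_le_exp, Finsupp.smul_apply, nsmul_eq_mul] at h1
  have hg0 : (0 : ℤ) ≤ genusFF L F := Int.natCast_nonneg _
  push_cast at h1
  nlinarith

end ThroughAbs

section Package

variable {A : ValuationSubring Qb} {M q : ℕ} [NeZero M] [NeZero q]

set_option synthInstance.maxHeartbeats 400000 in
set_option maxHeartbeats 1600000 in
/-- **`H`-fixed sections `≡ 1 mod ϖ`.**  A section of reduction `1` of an `H`-fixed divisor `X`
can be replaced by an `H`-fixed one, which is then `≡ 1 mod ϖ O`. -/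
theorem exists_fixed_section (hq : q.Prime) (hA : A.LiesOverPrime q)
    (h : BadSetup A (IsLocalRing.residue A) M q)
    (W : laurentBaseChange Qb (modularFunctionFieldFull (M * q)) ≃ₐ[Qb]
      laurentBaseChange Qb (modularFunctionFieldFull (M * q))) (hW : IsAL M q W)
    (H : Subgroup GQ) (hH : ∀ σ ∈ H, σ ∈ A.inertiaSubgroupIn ℚ)
    (ϖ : Qb) (hϖH : ∀ σ ∈ H, σ ϖ = ϖ) (hϖ0 : ϖ ≠ 0) (hϖ1 : A.valuation ϖ < 1)
    (hunif : ∀ a : Qb, (∀ σ ∈ H, σ a = a) → A.valuation a < 1 → A.valuation a ≤ A.valuation ϖ)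
    {m : ℕ} (ρ : Fin m → GQ) (hρI : ∀ j, ρ j ∈ A.inertiaSubgroupIn ℚ)
    (hρ : ∀ σ ∈ A.inertiaSubgroupIn ℚ, ∃ j, ∃ τ ∈ H, σ = ρ j * τ)
    {X : Divisor Qb (laurentBaseChange Qb (modularFunctionFieldFull (M * q)))}
    (hXH : ∀ σ ∈ H, arithmeticGalois (modularFunctionFieldFull (M * q)) σ • X = X)
    {s : OPair h W}
    (hs : (s : laurentBaseChange Qb (modularFunctionFieldFull (M * q))) ∈ riemannRochSpace X)
    (hr : redPair h W s = 1) :
    ∃ (t : laurentBaseChange Qb (modularFunctionFieldFull (M * q))) (ht : t ∈ OPair h W),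
      t ∈ riemannRochSpace X ∧ redPair h W ⟨t, ht⟩ = 1 ∧
      (∀ σ ∈ H, arithmeticGalois (L := Qb) (modularFunctionFieldFull (M * q)) σ • t = t) ∧
      Dvd (OPair h W) ϖ (t - 1) := by
  have hπ : Function.Surjective (IsLocalRing.residue A) := IsLocalRing.residue_surjective
  have hF := isFF1_xL Qb (M * q)
  have hHs : ∀ σ ∈ (H : Set GQ), σ ∈ A.inertiaSubgroupIn ℚ := hH
  have hXHs : ∀ σ ∈ (H : Set GQ),
      arithmeticGalois (modularFunctionFieldFull (M * q)) σ • X = X := hXH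
  have h0H : ∀ σ ∈ (H : Set GQ), arithmeticGalois (modularFunctionFieldFull (M * q)) σ •
      (0 : Divisor Qb (laurentBaseChange Qb (modularFunctionFieldFull (M * q)))) = 0 :=
    fun σ _ => smul_zero _
  have hfin₁ : FiniteDimensional Qb (riemannRochSpace X) := hF.finite_L _
  have hfin₂ : FiniteDimensional Qb (riemannRochSpace
      (0 : Divisor Qb (laurentBaseChange Qb (modularFunctionFieldFull (M * q))))) := hF.finite_L _
  have hVm := sup_stable (H : Set GQ) (rr_stable (H : Set GQ) hXHs) (rr_stable (H : Set GQ) h0H)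
  obtain ⟨V', hV'fin, hVmV', hV'⟩ := exists_stable_superspace H ρ hρI hρ
    (riemannRochSpace X ⊔ riemannRochSpace
      (0 : Divisor Qb (laurentBaseChange Qb (modularFunctionFieldFull (M * q))))) hVm
  have hle₁ : riemannRochSpace X ≤ V' := le_sup_left.trans hVmV'
  have h1V : (1 : laurentBaseChange Qb (modularFunctionFieldFull (M * q))) ∈ V' :=
    hVmV' (Submodule.mem_sup_right (Fermat.Agent.Padic.GenPosAbs.one_mem_L le_rfl))
  obtain ⟨t, htO, htV, htH, htr⟩ := exists_fixed_lift_sub hq hA h hπ hW (H : Set GQ) hHs ϖ hϖH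
    hϖ0 hϖ1 hunif (riemannRochSpace X) V' hle₁ (rr_stable (H : Set GQ) hXHs) hV' hs s.2
  have htr1 : redPair h W ⟨t, htO⟩ = 1 := htr.trans hr
  have hsm : Small A (OPair h W) (t - 1) := by
    have h0 : redPair h W (⟨t, htO⟩ - 1) = 0 := by rw [map_sub, htr1, map_one, sub_self]
    exact (redPair_eq_zero_iff h _).1 h0
  have hfix : t - 1 ∈ fixedFunOf (H : Set GQ) (M * q) := by
    intro σ hσ
    rw [smul_sub, htH σ hσ, smul_one]
  exact ⟨t, htO, htV, htr1, htH, dvd_of_fixed_small_sub hq hA h hπ hW (H : Set GQ) hHs ϖ hϖ0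
    hunif V' hV' (V'.sub_mem (hle₁ htV) h1V) hfix hsm⟩

set_option synthInstance.maxHeartbeats 400000 in
set_option maxHeartbeats 3200000 in
/-- **PL-C, final form.**  Let `y` be a class of the kernel of reduction fixed by the subgroup
`H ⊆ I` (finitely many cosets, uniformiser `ϖ` of `ℚ̄^H`).  For a nodal datum there is ONE
representative `D'` of `y` such that

* `D'` is `H`-fixed as a divisor;
* `D'` and `-D'` have, on every large chart `n₁ E1 + n₂ E2`, an `H`-fixed section `s ∈ O` with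
  reduction `1` and `s ≡ 1 mod ϖ O`;
* no place of the support of `D'` passes through a node (node rings of the charts `N E1`,
  `TR/PL/Through`);
* if `q y = 0` and `q ∈ ϖ ^ (q - 1) A`: an `H`-fixed Kummer function `G' ∈ O`, `div G' = q D'`,
  congruent modulo `ϖ ^ q O` to an `H`-fixed unit `γ` of `A`. -/
theorem exists_kummer_package (hq : q.Prime) (hA : A.LiesOverPrime q)
    (h : BadSetup A (IsLocalRing.residue A) M q)
    (W : laurentBaseChange Qb (modularFunctionFieldFull (M * q)) ≃ₐ[Qb]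
      laurentBaseChange Qb (modularFunctionFieldFull (M * q))) (hW : IsAL M q W)
    {E1 E2 : Divisor Qb (laurentBaseChange Qb (modularFunctionFieldFull (M * q)))}
    {ι : Type} [Fintype ι] [Nonempty ι]
    (e₁ e₂ : ι → Place (IsLocalRing.ResidueField A)
      (modularFunctionFieldFullC (IsLocalRing.ResidueField A) M))
    (P₁ Z₁ P₂ Z₂ : Divisor (IsLocalRing.ResidueField A)
      (modularFunctionFieldFullC (IsLocalRing.ResidueField A) M))
    (hdat : SmallBadB.DatumFor h W E1 E2 e₁ e₂ P₁ Z₁ P₂ Z₂)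
    (H : Subgroup GQ) (hH : ∀ σ ∈ H, σ ∈ A.inertiaSubgroupIn ℚ)
    (ϖ : Qb) (hϖH : ∀ σ ∈ H, σ ϖ = ϖ) (hϖ0 : ϖ ≠ 0) (hϖ1 : A.valuation ϖ < 1)
    (hunif : ∀ a : Qb, (∀ σ ∈ H, σ a = a) → A.valuation a < 1 → A.valuation a ≤ A.valuation ϖ)
    {m : ℕ} (ρ : Fin m → GQ) (hρI : ∀ j, ρ j ∈ A.inertiaSubgroupIn ℚ)
    (hρ : ∀ σ ∈ A.inertiaSubgroupIn ℚ, ∃ j, ∃ τ ∈ H, σ = ρ j * τ)
    {y : JZero (M * q)} (hy : y ∈ kerRed h W) (hyH : ∀ σ ∈ H, σ • y = y) :
    ∃ D' : Divisor.degZero (K := Qb)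
        (F := laurentBaseChange Qb (modularFunctionFieldFull (M * q))),
      Pic0.mk D' = y ∧
      (∀ σ ∈ H, arithmeticGalois (modularFunctionFieldFull (M * q)) σ •
        (D' : Divisor Qb (laurentBaseChange Qb (modularFunctionFieldFull (M * q)))) = D') ∧
      (∃ N : ℕ, ∀ n₁ n₂ : ℕ, N ≤ n₁ + n₂ →
        (∃ (s : laurentBaseChange Qb (modularFunctionFieldFull (M * q))) (hs : s ∈ OPair h W),
          s ∈ riemannRochSpace
            ((D' : Divisor Qb (laurentBaseChange Qb (modularFunctionFieldFull (M * q)))) +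
              n₁ • E1 + n₂ • E2) ∧ redPair h W ⟨s, hs⟩ = 1 ∧
          (∀ σ ∈ H, arithmeticGalois (L := Qb) (modularFunctionFieldFull (M * q)) σ • s = s) ∧
          Dvd (OPair h W) ϖ (s - 1)) ∧
        (∃ (s : laurentBaseChange Qb (modularFunctionFieldFull (M * q))) (hs : s ∈ OPair h W),
          s ∈ riemannRochSpace
            (-(D' : Divisor Qb (laurentBaseChange Qb (modularFunctionFieldFull (M * q)))) +
              n₁ • E1 + n₂ • E2) ∧ redPair h W ⟨s, hs⟩ = 1 ∧
          (∀ σ ∈ H, arithmeticGalois (L := Qb) (modularFunctionFieldFull (M * q)) σ • s = s) ∧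
          Dvd (OPair h W) ϖ (s - 1))) ∧
      (∀ (i : ι) (P : Place Qb (laurentBaseChange Qb (modularFunctionFieldFull (M * q)))),
        (D' : Divisor Qb (laurentBaseChange Qb (modularFunctionFieldFull (M * q)))) P ≠ 0 →
        ¬ Through (nodeRing (redPair h W) ⊤ E1 e₁ e₂ i) P) ∧
      (q • y = 0 → A.valuation (q : Qb) ≤ A.valuation ϖ ^ (q - 1) →
        ∃ (G' : laurentBaseChange Qb (modularFunctionFieldFull (M * q))) (γ : Qb),
          G' ≠ 0 ∧
          (∀ v : Place Qb (laurentBaseChange Qb (modularFunctionFieldFull (M * q))),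
            (q • (D' : Divisor Qb (laurentBaseChange Qb (modularFunctionFieldFull (M * q))))) v =
              v.ord G') ∧
          (∀ σ ∈ H, arithmeticGalois (L := Qb) (modularFunctionFieldFull (M * q)) σ • G' = G') ∧
          G' ∈ OPair h W ∧ γ ∈ A ∧ (∀ σ ∈ H, σ γ = γ) ∧ A.valuation γ = 1 ∧
          Dvd (OPair h W) (ϖ ^ q)
            (G' - algebraMap Qb (laurentBaseChange Qb (modularFunctionFieldFull (M * q))) γ)) := by
  have hF := isFF1_xL Qb (M * q)
  have hNF : NodalFibreFor h W E1 E2 :=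
    ⟨ι, inferInstance, inferInstance, e₁, e₂, P₁, Z₁, P₂, Z₂, hdat⟩
  obtain ⟨D', hD', hD'H, ⟨N, hN⟩, hden⟩ :=
    exists_fixed_normalized_den hA h W hW e₁ e₂ P₁ Z₁ P₂ Z₂ hdat (H : Set GQ) hH hy hyH
  obtain ⟨-, -, -, -, -, -, -, -, -, -, hE1, hE2, -, hdegE1, -, hgalE, -⟩ := hdat
  have hE1nn : (0 : Divisor Qb (laurentBaseChange Qb (modularFunctionFieldFull (M * q)))) ≤ E1 :=
    Finsupp.le_def.2 fun v => by rw [Finsupp.zero_apply]; exact hE1 v
  have hE1H : ∀ σ ∈ H, arithmeticGalois (modularFunctionFieldFull (M * q)) σ • E1 = E1 :=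
    fun σ hσ => (hgalE σ (hH σ hσ)).1
  have hE2H : ∀ σ ∈ H, arithmeticGalois (modularFunctionFieldFull (M * q)) σ • E2 = E2 :=
    fun σ hσ => (hgalE σ (hH σ hσ)).2
  have hX : ∀ n₁ n₂ : ℕ, ∀ σ ∈ H, arithmeticGalois (modularFunctionFieldFull (M * q)) σ •
      ((D' : Divisor Qb (laurentBaseChange Qb (modularFunctionFieldFull (M * q)))) +
        n₁ • E1 + n₂ • E2) = (D' : Divisor Qb _) + n₁ • E1 + n₂ • E2 := by
    intro n₁ n₂ σ hσ
    rw [smul_add, smul_add, smul_comm _ n₁ E1, smul_comm _ n₂ E2, hD'H σ hσ, hE1H σ hσ,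
      hE2H σ hσ]
  have hX' : ∀ n₁ n₂ : ℕ, ∀ σ ∈ H, arithmeticGalois (modularFunctionFieldFull (M * q)) σ •
      (-(D' : Divisor Qb (laurentBaseChange Qb (modularFunctionFieldFull (M * q)))) +
        n₁ • E1 + n₂ • E2) = -(D' : Divisor Qb _) + n₁ • E1 + n₂ • E2 := by
    intro n₁ n₂ σ hσ
    rw [smul_add, smul_add, smul_neg, smul_comm _ n₁ E1, smul_comm _ n₂ E2, hD'H σ hσ,
      hE1H σ hσ, hE2H σ hσ]
  refine ⟨D', hD', hD'H, ⟨N, fun n₁ n₂ hl => ⟨?_, ?_⟩⟩, ?_, ?_⟩
  · obtain ⟨s, hs, hr⟩ := (hN n₁ n₂ hl).1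
    exact exists_fixed_section hq hA h W hW H hH ϖ hϖH hϖ0 hϖ1 hunif ρ hρI hρ (hX n₁ n₂) hs hr
  · obtain ⟨s, hs, hr⟩ := (hN n₁ n₂ hl).2
    exact exists_fixed_section hq hA h W hW H hH ϖ hϖH hϖ0 hϖ1 hunif ρ hρI hρ (hX' n₁ n₂) hs hr
  · intro i P hP
    by_cases hPE : E1 P = 0
    · obtain ⟨Nn, t, htL, hc, htP⟩ := hden i P hP hPE
      exact not_through_of_den (redPair h W) hE1nn e₁ e₂ i htL hc htP
    · exact not_through_of_pos hF (fun y hy => OPair_hval h y hy) (redPair h W) hE1nn hdegE1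
        e₁ e₂ i hPE
  · intro hqy hqϖ
    have hprin : q • (D' : Divisor Qb (laurentBaseChange Qb (modularFunctionFieldFull (M * q)))) ∈
        Divisor.principal (K := Qb)
          (F := laurentBaseChange Qb (modularFunctionFieldFull (M * q))) := by
      have h1 : Pic0.mk (q • D') = 0 := by
        rw [← hqy, ← hD']
        rfl
      have h2 := (QuotientAddGroup.eq_zero_iff _).1 h1
      rw [AddSubgroup.mem_addSubgroupOf] at h2
      exact h2
    obtain ⟨G₀, hG₀, hdiv⟩ := hprin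
    exact exists_kummer_of_normalized hq hA h W hW hNF H hH ϖ hϖH hϖ0 hϖ1 hunif ρ hρI hρ hqϖ
      (D' : Divisor Qb (laurentBaseChange Qb (modularFunctionFieldFull (M * q)))) hD'H
      (fun n₁ n₂ hl => (hN n₁ n₂ hl).1) hG₀ hdiv

end Package

end Fermat.Agent.TR.PL.KerRedDepthB
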