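/-
TR / (PL), row TR-PLA (helper26), third file: the first ramification step
`I₁ = {σ ∈ I | σ ζ = ζ}` (`ζ` a primitive `p`-th root of unity, `= GF A ζ`), whose fixed field is
`K1 = K0(ζ)`:

* `mem_inertiaFieldZeta_of_fixed` : an element of `ℚ̄` fixed by `I₁` lies in `K0(ζ)`;
* `valuation_le_of_fixed`         : `ζ - 1` is a uniformiser of `K1`: every `I₁`-fixed `a` with
                                    `v(a) < 1` has `v(a) ≤ v(ζ - 1)`;
* `valuation_zeta_sub_one_pow`    : `v(ζ - 1)^(p-1) = v(p)`;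
* `exists_coset_reps`             : finitely many representatives of `I / I₁`.

The `GF`-forms (`…_GF`) are the literal binders `hϖH hϖ0 hϖ1 hunif` of
`BAD.LatFixedSub.exists_fixed_lift_sub` for `H := GF A ζ`, `ϖ := ζ - 1`.
-/
import Mathlib
import Fermat.Agent.TR.PL.LocalField
import Fermat.Agent.TW.Flat.Local.Mono

set_option autoImplicit false

namespace Fermat.Agent.TR.PL.LocalFieldZeta

open Fermat.Agent.CAR.K0 Polynomial Fermat.Agent.TW.Flat.Loc.MonoPf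

local notation "Qb" => AlgebraicClosure ℚ
local notation "GQ" => (AlgebraicClosure ℚ ≃ₐ[ℚ] AlgebraicClosure ℚ)

/-- **The fixed field of `I₁ = {σ ∈ I | σ ζ = ζ}` is `K0(ζ)`**: an element of `ℚ̄` fixed by every
inertia element fixing `ζ` lies in `K0(ζ)`. -/
theorem mem_inertiaFieldZeta_of_fixed (A : ValuationSubring Qb) (ζ : Qb) {a : Qb}
    (ha : ∀ σ ∈ A.inertiaSubgroupIn ℚ, σ ζ = ζ → σ a = a) : a ∈ inertiaFieldZeta A ζ := by
  have : Algebra.IsAlgebraic ↥(inertiaField A) Qb := isAlgebraic_K0 A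
  have : Normal ↥(inertiaField A) Qb := normal_K0 A
  have : IsGalois ↥(inertiaField A) Qb := ⟨⟩
  rw [mem_inertiaFieldZeta_iff,
    ← InfiniteGalois.fixedField_fixingSubgroup (IntermediateField.adjoin ↥(inertiaField A) {ζ}),
    IntermediateField.mem_fixedField_iff]
  intro τ hτ
  have hτζ : τ ζ = ζ := (IntermediateField.mem_fixingSubgroup_iff _ τ).mp hτ ζ
    (IntermediateField.mem_adjoin_simple_self _ ζ)
  exact ha (τ.restrictScalars ℚ) (restrictScalars_mem_inertia A τ) hτζ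

variable {p : ℕ} {A : ValuationSubring Qb} {ζ : Qb}

theorem isPrimitiveRoot_of_pow_eq_one (hp : p.Prime) (hζ : ζ ^ p = 1) (hζ1 : ζ ≠ 1) :
    IsPrimitiveRoot ζ p := by
  have : Fact p.Prime := ⟨hp⟩
  have h := IsPrimitiveRoot.orderOf ζ
  rwa [orderOf_eq_prime hζ hζ1] at h

theorem valuation_zeta_sub_one (A : ValuationSubring Qb) (ζ : Qb) :
    A.valuation (ζ - 1) = A.valuation (1 - ζ) := by
  rw [← neg_sub, Valuation.map_neg]

theorem zeta_sub_one_ne_zero (hp : p.Prime) (hζ : IsPrimitiveRoot ζ p) : ζ - 1 ≠ 0 :=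
  sub_ne_zero.mpr (hζ.ne_one hp.one_lt)

theorem valuation_zeta_sub_one_lt_one (hp : p.Prime) (hA : A.LiesOverPrime p)
    (hζ : IsPrimitiveRoot ζ p) : A.valuation (ζ - 1) < 1 := by
  rw [valuation_zeta_sub_one]
  exact valuation_one_sub_zeta_lt_one A hp hA hζ

/-- `v(ζ - 1)^(p-1) = v(p)`. -/
theorem valuation_zeta_sub_one_pow (A : ValuationSubring Qb) (hp : p.Prime)
    (hζ : IsPrimitiveRoot ζ p) : A.valuation (ζ - 1) ^ (p - 1) = A.valuation (p : Qb) := by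
  rw [valuation_zeta_sub_one]
  exact valuation_one_sub_zeta_pow A hp hζ

theorem valuation_natCast_le_pow (A : ValuationSubring Qb) (hp : p.Prime)
    (hζ : IsPrimitiveRoot ζ p) : A.valuation (p : Qb) ≤ A.valuation (ζ - 1) ^ (p - 1) :=
  (valuation_zeta_sub_one_pow A hp hζ).ge

/-- The value group of the `I₁`-fixed elements is `v(ζ - 1)^ℤ`. -/
theorem exists_zpow_valuation_eq_of_fixed (hp : p.Prime) (hA : A.LiesOverPrime p)
    (hζ : IsPrimitiveRoot ζ p) {a : Qb}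
    (ha : ∀ σ ∈ A.inertiaSubgroupIn ℚ, σ ζ = ζ → σ a = a) (ha0 : a ≠ 0) :
    ∃ n : ℤ, A.valuation a = A.valuation (ζ - 1) ^ n := by
  rw [valuation_zeta_sub_one]
  exact exists_zpow_valuation_eq_of_mem_inertiaFieldZeta hp A hA hζ
    (mem_inertiaFieldZeta_of_fixed A ζ ha) ha0

/-- **`ζ - 1` is a uniformiser of the fixed field of `I₁`**: every `I₁`-fixed `a` with `v(a) < 1`
has `v(a) ≤ v(ζ - 1)`. -/
theorem valuation_le_of_fixed (hp : p.Prime) (hA : A.LiesOverPrime p)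
    (hζ : IsPrimitiveRoot ζ p) {a : Qb}
    (ha : ∀ σ ∈ A.inertiaSubgroupIn ℚ, σ ζ = ζ → σ a = a) (ha1 : A.valuation a < 1) :
    A.valuation a ≤ A.valuation (ζ - 1) := by
  rcases eq_or_ne a 0 with rfl | ha0
  · rw [map_zero]
    exact zero_le
  obtain ⟨n, hn⟩ := exists_zpow_valuation_eq_of_fixed hp hA hζ ha ha0
  have h0 : A.valuation (ζ - 1) ≠ 0 := (Valuation.ne_zero_iff _).mpr (zeta_sub_one_ne_zero hp hζ)
  have h1 := valuation_zeta_sub_one_lt_one hp hA hζ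
  have hn1 : 1 ≤ n := LocalField.one_le_of_zpow_lt_one h0 h1 (hn ▸ ha1)
  have hn' : n = ((n - 1).toNat : ℤ) + 1 := by
    rw [Int.toNat_of_nonneg (by omega)]
    ring
  rw [hn, hn', zpow_add₀ h0, zpow_one, zpow_natCast]
  exact mul_le_of_le_one_left zero_le (pow_le_one₀ zero_le h1.le)

/-! ### The literal binders for `H := GF A ζ`, `ϖ := ζ - 1` -/

theorem apply_zeta_sub_one_GF (A : ValuationSubring Qb) (ζ : Qb) :
    ∀ σ ∈ GF A ζ, σ (ζ - 1) = ζ - 1 := by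
  intro σ hσ
  rw [map_sub, map_one, hσ.2]

theorem GF_le_inertia (A : ValuationSubring Qb) (ζ : Qb) :
    ∀ σ ∈ GF A ζ, σ ∈ A.inertiaSubgroupIn ℚ := fun _ hσ => hσ.1

/-- `hunif` for `H := GF A ζ`, `ϖ := ζ - 1`. -/
theorem valuation_le_of_fixed_GF (hp : p.Prime) (hA : A.LiesOverPrime p)
    (hζ : IsPrimitiveRoot ζ p) :
    ∀ a : Qb, (∀ σ ∈ GF A ζ, σ a = a) → A.valuation a < 1 →
      A.valuation a ≤ A.valuation (ζ - 1) :=
  fun _ ha ha1 => valuation_le_of_fixed hp hA hζ (fun σ hσ hσζ => ha σ ⟨hσ, hσζ⟩) ha1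

theorem exists_zpow_valuation_eq_of_fixed_GF (hp : p.Prime) (hA : A.LiesOverPrime p)
    (hζ : IsPrimitiveRoot ζ p) :
    ∀ a : Qb, a ≠ 0 → (∀ σ ∈ GF A ζ, σ a = a) →
      ∃ n : ℤ, A.valuation a = A.valuation (ζ - 1) ^ n :=
  fun _ ha0 ha =>
    exists_zpow_valuation_eq_of_fixed hp hA hζ (fun σ hσ hσζ => ha σ ⟨hσ, hσζ⟩) ha0

/-- **Coset representatives of `I / I₁`** (finitely many, since `σ ↦ σ ζ` takes values in the
`p`-th roots of unity). -/
theorem exists_coset_reps (hp : p.Prime) (A : ValuationSubring Qb) (hζ : ζ ^ p = 1) :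
    ∃ (m : ℕ) (ρs : Fin m → GQ), (∀ j, ρs j ∈ A.inertiaSubgroupIn ℚ) ∧
      ∀ σ ∈ A.inertiaSubgroupIn ℚ, ∃ j, ∃ τ ∈ GF A ζ, σ = ρs j * τ := by
  classical
  let f : ↥(A.inertiaSubgroupIn ℚ) → Qb := fun σ => (σ : GQ) ζ
  have hfin : (Set.range f).Finite := by
    refine Set.Finite.subset (Finset.finite_toSet (nthRootsFinset p (1 : Qb))) ?_
    rintro _ ⟨σ, rfl⟩
    rw [Finset.mem_coe, mem_nthRootsFinset hp.pos]
    show ((σ : GQ) ζ) ^ p = 1
    rw [← map_pow, hζ, map_one]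
  have : Finite ↥(Set.range f) := hfin.to_subtype
  let e : ↥(Set.range f) ≃ Fin (Nat.card ↥(Set.range f)) := Finite.equivFin _
  let rep : ↥(Set.range f) → ↥(A.inertiaSubgroupIn ℚ) := fun t => Classical.choose t.2
  have hrep : ∀ t : ↥(Set.range f), f (rep t) = t := fun t => Classical.choose_spec t.2
  refine ⟨Nat.card ↥(Set.range f), fun j => ((rep (e.symm j) : ↥(A.inertiaSubgroupIn ℚ)) : GQ),
    fun j => (rep (e.symm j)).2, fun σ hσ => ?_⟩
  let t : ↥(Set.range f) := ⟨f ⟨σ, hσ⟩, ⟨σ, hσ⟩, rfl⟩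
  have ht : ((rep t : ↥(A.inertiaSubgroupIn ℚ)) : GQ) ζ = σ ζ := hrep t
  refine ⟨e t, ((rep t : ↥(A.inertiaSubgroupIn ℚ)) : GQ)⁻¹ * σ, ⟨?_, ?_⟩, ?_⟩
  · exact mul_mem (inv_mem (rep t).2) hσ
  · rw [AlgEquiv.mul_apply, ← ht, ← AlgEquiv.mul_apply, inv_mul_cancel, AlgEquiv.one_apply]
  · show σ = ((rep (e.symm (e t)) : ↥(A.inertiaSubgroupIn ℚ)) : GQ)
      * (((rep t : ↥(A.inertiaSubgroupIn ℚ)) : GQ)⁻¹ * σ)
    rw [Equiv.symm_apply_apply, mul_inv_cancel_left]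

end Fermat.Agent.TR.PL.LocalFieldZeta
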