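/-
TR / (PL), (I2) (helper67): the brick **`AsmMid.NewtAt`** ((NEWT), in the consumer literal of the
middle `AsmMid.plNumeric_of_bricks`) for an ARBITRARY `NodalDatum` with `ChartHyp E1`, at ALL
nodes and for an arbitrary set `H` of Galois automorphisms, at the node rings
`T i = NodeRingAbs.nodeRing (redPair h W) ⊤ E1 e₁ e₂ i`.

Pure wiring: `NewtonAt.newtAt_node` (= `NodePkgFull.exists_nodePkg_deltaBar` +
`NewtonInst.newt_inst_zpow`) at the conjuncts of the datum; the two fixedness premises of the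
brick are not used.
-/
import Mathlib
import Fermat.Agent.TR.PL.AsmMid
import Fermat.Agent.TR.PL.NewtonAt
import Fermat.Agent.BAD.NodalPlus

set_option autoImplicit false
set_option linter.style.haveILetI false
set_option linter.unusedSectionVars false
set_option linter.unusedVariables false

noncomputable section

namespace Fermat.Agent.TR.PL.NewtAtDatum

open AlgebraicCurve ModularCurve WithZero Fermat.Agent.Lib.FF Fermat.Agent.BAD.TwoVal
  Fermat.Agent.BAD.NodalPlus Fermat.Agent.TR.Node.NodeRingAbs Fermat.Agent.TR.Node.NodePkgFull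

local notation "Qb" => AlgebraicClosure ℚ
local notation "GQ" => (AlgebraicClosure ℚ ≃ₐ[ℚ] AlgebraicClosure ℚ)

/-- **`AsmMid.NewtAt` for an arbitrary nodal datum.**  For every `NodalDatum` of the BAD objects
with `ChartHyp E1` and every `H`, the brick (NEWT) of the middle holds at the node rings
`T i = nodeRing (redPair h W) ⊤ E1 e₁ e₂ i`. -/
theorem newtAt_of_datum {A : ValuationSubring Qb} {M p : ℕ} [NeZero M] [NeZero p]
    (hA : A.LiesOverPrime p) (h : BadSetup A (IsLocalRing.residue A) M p)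
    {W : laurentBaseChange Qb (modularFunctionFieldFull (M * p)) ≃ₐ[Qb]
      laurentBaseChange Qb (modularFunctionFieldFull (M * p))} (hW : IsAL M p W)
    (H : Set GQ)
    {E1 E2 : Divisor Qb (laurentBaseChange Qb (modularFunctionFieldFull (M * p)))}
    {ι : Type} [Fintype ι]
    {e₁ e₂ : ι → Place (IsLocalRing.ResidueField A)
      (modularFunctionFieldFullC (IsLocalRing.ResidueField A) M)}
    {P₁ Z₁ P₂ Z₂ : Divisor (IsLocalRing.ResidueField A)
      (modularFunctionFieldFullC (IsLocalRing.ResidueField A) M)}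
    (hD : NodalDatum h W E1 E2 e₁ e₂ P₁ Z₁ P₂ Z₂) (hint : ChartHyp E1) :
    Fermat.Agent.TR.PL.AsmMid.NewtAt h W H e₁
      (fun i => nodeRing (redPair h W) ⊤ E1 e₁ e₂ i) := by
  haveI : IsAlgClosed (IsLocalRing.ResidueField A) := CharP.isAlgClosed_residueField A
  have hsurj : Function.Surjective (IsLocalRing.residue A) := IsLocalRing.residue_surjective
  obtain ⟨hinj₁, hinj₂, hP₁, -, hP₂, -, -, -, hdegP₁, hdegP₂, hE1, hE2, -, -, -, hgalE, hS2⟩ := hD
  intro i w e hwe hw1 hw0 f₀ hf₀ hf₀i hf₀0 _ N hN hN' g hg0 _ hfg ni n0 h1 h1' h2 h2'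
  exact Fermat.Agent.TR.PL.NewtonAt.newtAt_node hA hsurj h W hW E1 E2 e₁ e₂ P₁ Z₁ P₂ Z₂ hinj₁
    hinj₂ hP₁ hP₂ hdegP₁ hdegP₂ hE1 hE2 hgalE hS2 i hint p w e hwe hw1 hw0 f₀ hf₀ hf₀i hf₀0 N hN
    hN' g hg0 hfg ni n0 h1 h1' h2 h2'

end Fermat.Agent.TR.PL.NewtAtDatum
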