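/-
TR / (PL), row 469 TR-PLF (helper67): **the Newton relation at a node, without discreteness**
(membership form; the two Gauss valuation rings `O₁`, `O₂` of the ambient field `F` need not be
discrete — e.g. `F` the function field over `ℚ̄`).

Setting (pure valuation-ring language, `ThickPlace`-style binders):
* `K ⊆ F` the constants, `O₁ O₂ : ValuationSubring F` (the components `C_∞`, `C_0`),
  `red₁ : O₁ →+* κ` with kernel the non-units, `V ⊆ κ` the (discrete) germ ring of the branch of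
  `C_∞` at the node;
* `T : Subring F` the local ring of the node (at the level of `F`, e.g. `NodeRingAbs.nodeRing`
  with `Fx = ⊤`), `T ⊆ O₁ ∩ O₂`, with (loc) and (sat) for all nonzero constants;
* `x ∈ T` a node coordinate: `red₁ x` a uniformiser of `V`, `x / ϖk` a unit of `O₂`
  (`ϖk = p ^ k`, `k` the thickness), and `x⁻¹` in `T` up to a constant.

`CU T g` : `g` is a unit of `T[1/K^×]` ("no horizontal zero or pole of `g` through the node").

* `exists_factor` : **vertical factorisation** — a `CU` function which is a unit of `O₁` is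
  `Y * x ^ a` with `Y` a unit of `T` and `a = ord_s (red₁ g)`.  (No division with remainder: put
  `g₂ = g / x ^ a`; if `g₂` or `g₂⁻¹` were a non-unit of `O₂` then (sat) puts it in `T` and (loc)
  makes it a unit of `T ⊆ O₂`.)
* `newton` : **the Newton relation**.  `Pts` a set of places of `F` (the places through the node)
  with coordinates `c P` (`0 < v (c P) < v ϖk`), `x - c P` a local parameter at `P` with no other
  zero in `Pts`, and (REG): a function with nonnegative order at all places of `Pts` has a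
  constant multiple in `T`.  Then every `f ≠ 0` is
  `f = Y * b * x ^ a * ∏_{P ∈ Z} (x - c P) ^ ord_P f`, `Y` a unit of `T`, `b` a constant, and
  - `f / b` is a unit of `O₁`;
  - `f / (b * ϖk ^ a * ∏ c P ^ ord_P f)` is a unit of `O₂`;
  - `ord_s (red₁ (f / b)) = a + ∑_{P ∈ Z} ord_P f`.
-/
import Mathlib
import Fermat.Prelude.Def_AlgebraicCurve_DivisorClassGroup
import Fermat.Agent.CAR.Formal.DiscVal
import Fermat.Agent.TR.Node.Newton

set_option autoImplicit false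
set_option linter.unusedSectionVars false
set_option linter.unusedVariables false

namespace Fermat.Agent.TR.PL.NewtonQ

open AlgebraicCurve Fermat.Agent.CAR.Formal Fermat.Agent.TR.Node.Newton

/-! ### Units of a valuation subring -/

section IsU

variable {F : Type*} [Field F]

/-- `g` is a unit of the valuation subring `O`. -/
def IsU (O : ValuationSubring F) (g : F) : Prop := g ∈ O ∧ g⁻¹ ∈ O ∧ g ≠ 0

variable {O : ValuationSubring F}

theorem IsU.one : IsU O (1 : F) := ⟨O.one_mem, by rw [inv_one]; exact O.one_mem, one_ne_zero⟩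

theorem IsU.mul {g g' : F} (h : IsU O g) (h' : IsU O g') : IsU O (g * g') :=
  ⟨O.mul_mem _ _ h.1 h'.1, by rw [mul_inv]; exact O.mul_mem _ _ h.2.1 h'.2.1,
    mul_ne_zero h.2.2 h'.2.2⟩

theorem IsU.inv {g : F} (h : IsU O g) : IsU O g⁻¹ :=
  ⟨h.2.1, by rw [inv_inv]; exact h.1, inv_ne_zero h.2.2⟩

theorem IsU.div {g g' : F} (h : IsU O g) (h' : IsU O g') : IsU O (g / g') := by
  rw [div_eq_mul_inv]; exact h.mul h'.inv

theorem IsU.pow {g : F} (h : IsU O g) (n : ℕ) : IsU O (g ^ n) := by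
  induction n with
  | zero => rw [pow_zero]; exact IsU.one
  | succ n ih => rw [pow_succ]; exact ih.mul h

theorem IsU.zpow {g : F} (h : IsU O g) (n : ℤ) : IsU O (g ^ n) := by
  obtain ⟨m, rfl | rfl⟩ := Int.eq_nat_or_neg n
  · rw [zpow_natCast]; exact h.pow m
  · rw [zpow_neg, zpow_natCast]; exact (h.pow m).inv

theorem IsU.prod {ι : Type*} (s : Finset ι) (g : ι → F) (h : ∀ j ∈ s, IsU O (g j)) :
    IsU O (∏ j ∈ s, g j) := by
  classical
  induction s using Finset.induction_on with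
  | empty => rw [Finset.prod_empty]; exact IsU.one
  | insert a s ha ih =>
    rw [Finset.prod_insert ha]
    exact (h a (Finset.mem_insert_self a s)).mul (ih fun j hj => h j (Finset.mem_insert_of_mem hj))

theorem IsU.notMem_nonunits {g : F} (h : IsU O g) : g ∉ O.nonunits := by
  intro hn
  rw [ValuationSubring.mem_nonunits_iff_or] at hn
  rcases hn with h0 | h1
  · exact h.2.2 h0
  · exact h1 h.2.1

theorem isU_of_notMem_nonunits {g : F} (hg : g ∈ O) (h : g ∉ O.nonunits) : IsU O g := by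
  rw [ValuationSubring.mem_nonunits_iff_or] at h
  push Not at h
  exact ⟨hg, h.2, h.1⟩

/-- A unit minus a non-unit is a unit. -/
theorem IsU.sub_nonunit {g m : F} (h : IsU O g) (hm : m ∈ O.nonunits) : IsU O (g - m) := by
  have hmO : m ∈ O := by
    rw [ValuationSubring.mem_nonunits_iff_or] at hm
    rcases hm with rfl | h1
    · exact O.zero_mem
    · exact (O.mem_or_inv_mem m).resolve_right h1
  refine isU_of_notMem_nonunits (O.sub_mem h.1 hmO) fun hn => h.notMem_nonunits ?_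
  have e : g = (g - m) + m := by ring
  rw [e]
  rw [ValuationSubring.mem_nonunits_iff] at hn hm ⊢
  exact Valuation.map_add_lt _ hn hm

end IsU

/-! ### The total reduction on units -/

section Red

variable {F κ : Type*} [Field F] [Field κ] {O₁ : ValuationSubring F} (red₁ : O₁ →+* κ)

theorem redT_inv {g : F} (h : IsU O₁ g) : redT red₁ g⁻¹ = (redT red₁ g)⁻¹ := by
  have h1 : redT red₁ g * redT red₁ g⁻¹ = 1 := by
    rw [← redT_mul red₁ h.1 h.2.1, mul_inv_cancel₀ h.2.2, redT_one]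
  exact eq_inv_of_mul_eq_one_right h1

theorem redT_div {g g' : F} (h : IsU O₁ g) (h' : IsU O₁ g') :
    redT red₁ (g / g') = redT red₁ g / redT red₁ g' := by
  rw [div_eq_mul_inv, redT_mul red₁ h.1 h'.2.1, redT_inv red₁ h', div_eq_mul_inv]

theorem redT_pow {g : F} (h : IsU O₁ g) (n : ℕ) : redT red₁ (g ^ n) = redT red₁ g ^ n := by
  induction n with
  | zero => rw [pow_zero, pow_zero, redT_one]
  | succ n ih => rw [pow_succ, pow_succ, redT_mul red₁ (h.pow n).1 h.1, ih]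

theorem redT_zpow {g : F} (h : IsU O₁ g) (n : ℤ) : redT red₁ (g ^ n) = redT red₁ g ^ n := by
  obtain ⟨m, rfl | rfl⟩ := Int.eq_nat_or_neg n
  · rw [zpow_natCast, zpow_natCast, redT_pow red₁ h]
  · rw [zpow_neg, zpow_neg, zpow_natCast, zpow_natCast, redT_inv red₁ (h.pow m),
      redT_pow red₁ h]

theorem redT_prod {ι : Type*} (s : Finset ι) (g : ι → F) (h : ∀ j ∈ s, IsU O₁ (g j)) :
    redT red₁ (∏ j ∈ s, g j) = ∏ j ∈ s, redT red₁ (g j) := by
  classical
  induction s using Finset.induction_on with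
  | empty => rw [Finset.prod_empty, Finset.prod_empty, redT_one]
  | insert a s ha ih =>
    have h1 : IsU O₁ (∏ j ∈ s, g j) :=
      IsU.prod s g fun j hj => h j (Finset.mem_insert_of_mem hj)
    rw [Finset.prod_insert ha, Finset.prod_insert ha,
      redT_mul red₁ (h a (Finset.mem_insert_self a s)).1 h1.1,
      ih fun j hj => h j (Finset.mem_insert_of_mem hj)]

theorem redT_ne_zero' {g : F} (h : IsU O₁ g) : redT red₁ g ≠ 0 :=
  redT_ne_zero red₁ h.1 h.2.1 h.2.2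

theorem redT_sub_nonunit (hred₁ : ∀ y : O₁, red₁ y = 0 ↔ (y : F) ∈ O₁.nonunits) {g m : F}
    (hg : g ∈ O₁) (hm : m ∈ O₁.nonunits) : redT red₁ (g - m) = redT red₁ g := by
  have hmO : m ∈ O₁ := by
    rw [ValuationSubring.mem_nonunits_iff_or] at hm
    rcases hm with rfl | h1
    · exact O₁.zero_mem
    · exact (O₁.mem_or_inv_mem m).resolve_right h1
  have h1 : redT red₁ m = 0 := by
    rw [redT_of_mem red₁ hmO]
    exact (hred₁ _).2 hm
  have h2 : redT red₁ (g - m + m) = redT red₁ (g - m) + redT red₁ m :=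
    redT_add red₁ (O₁.sub_mem hg hmO) hmO
  rw [sub_add_cancel, h1, add_zero] at h2
  exact h2.symm

end Red

/-! ### Orders of products -/

section Ord

variable {κ : Type*} [Field κ] {V : ValuationSubring κ} {t : κ} (hV : IsUnif V t)

theorem ord_prod_zpow {ι : Type*} (s : Finset ι) (g : ι → κ) (n : ι → ℤ)
    (hg : ∀ j ∈ s, g j ≠ 0) : hV.ord (∏ j ∈ s, g j ^ n j) = ∑ j ∈ s, n j * hV.ord (g j) := by
  classical
  induction s using Finset.induction_on with
  | empty => rw [Finset.prod_empty, Finset.sum_empty, hV.ord_one]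
  | insert a s ha ih =>
    have h1 : g a ^ n a ≠ 0 := zpow_ne_zero _ (hg a (Finset.mem_insert_self a s))
    have h2 : ∏ j ∈ s, g j ^ n j ≠ 0 :=
      Finset.prod_ne_zero_iff.2 fun j hj => zpow_ne_zero _ (hg j (Finset.mem_insert_of_mem hj))
    rw [Finset.prod_insert ha, Finset.sum_insert ha, hV.ord_mul h1 h2, hV.ord_zpow,
      ih fun j hj => hg j (Finset.mem_insert_of_mem hj)]

end Ord

section PlaceOrd

variable {K F : Type*} [Field K] [Field F] [Algebra K F]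

theorem place_ord_prod_zpow (P : Place K F) {ι : Type*} (s : Finset ι) (g : ι → F) (n : ι → ℤ)
    (hg : ∀ j ∈ s, g j ≠ 0) : P.ord (∏ j ∈ s, g j ^ n j) = ∑ j ∈ s, n j * P.ord (g j) := by
  classical
  induction s using Finset.induction_on with
  | empty => rw [Finset.prod_empty, Finset.sum_empty, P.ord_one]
  | insert a s ha ih =>
    have h1 : g a ^ n a ≠ 0 := zpow_ne_zero _ (hg a (Finset.mem_insert_self a s))
    have h2 : ∏ j ∈ s, g j ^ n j ≠ 0 :=
      Finset.prod_ne_zero_iff.2 fun j hj => zpow_ne_zero _ (hg j (Finset.mem_insert_of_mem hj))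
    rw [Finset.prod_insert ha, Finset.sum_insert ha, P.ord_mul h1 h2, P.ord_zpow,
      ih fun j hj => hg j (Finset.mem_insert_of_mem hj)]

end PlaceOrd

/-! ### Units of `T[1/K^×]` -/

section CU

variable {K F : Type*} [Field K] [Field F] [Algebra K F]

/-- `g` is a unit of `T[1/K^×]`: nonzero, and `g`, `g⁻¹` lie in `T` up to nonzero constants. -/
def CU (K : Type*) [Field K] [Algebra K F] (T : Subring F) (g : F) : Prop :=
  g ≠ 0 ∧ (∃ c : K, c ≠ 0 ∧ algebraMap K F c * g ∈ T) ∧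
    ∃ c : K, c ≠ 0 ∧ algebraMap K F c * g⁻¹ ∈ T

variable {T : Subring F}

theorem CU.inv {g : F} (h : CU K T g) : CU K T g⁻¹ :=
  ⟨inv_ne_zero h.1, h.2.2, by rw [inv_inv]; exact h.2.1⟩

theorem CU.mul {g g' : F} (h : CU K T g) (h' : CU K T g') : CU K T (g * g') := by
  obtain ⟨h0, ⟨c, hc0, hc⟩, ⟨d, hd0, hd⟩⟩ := h
  obtain ⟨h0', ⟨c', hc0', hc'⟩, ⟨d', hd0', hd'⟩⟩ := h'
  refine ⟨mul_ne_zero h0 h0', ⟨c * c', mul_ne_zero hc0 hc0', ?_⟩,
    ⟨d * d', mul_ne_zero hd0 hd0', ?_⟩⟩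
  · have e : algebraMap K F (c * c') * (g * g') =
        (algebraMap K F c * g) * (algebraMap K F c' * g') := by rw [map_mul]; ring
    rw [e]; exact T.mul_mem hc hc'
  · have e : algebraMap K F (d * d') * (g * g')⁻¹ =
        (algebraMap K F d * g⁻¹) * (algebraMap K F d' * g'⁻¹) := by rw [map_mul, mul_inv]; ring
    rw [e]; exact T.mul_mem hd hd'

theorem CU.div {g g' : F} (h : CU K T g) (h' : CU K T g') : CU K T (g / g') := by
  rw [div_eq_mul_inv]; exact h.mul h'.inv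

theorem CU.one : CU K T (1 : F) :=
  ⟨one_ne_zero, ⟨1, one_ne_zero, by rw [map_one, one_mul]; exact T.one_mem⟩,
    ⟨1, one_ne_zero, by rw [map_one, one_mul, inv_one]; exact T.one_mem⟩⟩

theorem CU.pow {g : F} (h : CU K T g) (n : ℕ) : CU K T (g ^ n) := by
  induction n with
  | zero => rw [pow_zero]; exact CU.one
  | succ n ih => rw [pow_succ]; exact ih.mul h

theorem CU.zpow {g : F} (h : CU K T g) (n : ℤ) : CU K T (g ^ n) := by
  obtain ⟨m, rfl | rfl⟩ := Int.eq_nat_or_neg n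
  · rw [zpow_natCast]; exact h.pow m
  · rw [zpow_neg, zpow_natCast]; exact (h.pow m).inv

/-- A nonzero constant. -/
theorem CU.const {c : K} (hc : c ≠ 0) : CU K T (algebraMap K F c) := by
  have h0 : algebraMap K F c ≠ 0 := by simpa using hc
  refine ⟨h0, ⟨c⁻¹, inv_ne_zero hc, ?_⟩, ⟨c, hc, ?_⟩⟩
  · rw [map_inv₀, inv_mul_cancel₀ h0]; exact T.one_mem
  · rw [mul_inv_cancel₀ h0]; exact T.one_mem

/-- A unit of `T`. -/
theorem CU.of_unit {g : F} (hg : g ∈ T) (hg' : g⁻¹ ∈ T) (h0 : g ≠ 0) : CU K T g :=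
  ⟨h0, ⟨1, one_ne_zero, by rw [map_one, one_mul]; exact hg⟩,
    ⟨1, one_ne_zero, by rw [map_one, one_mul]; exact hg'⟩⟩

end CU

/-! ### The vertical factorisation -/

section Node

variable {K F κ : Type*} [Field K] [Field F] [Algebra K F] [Field κ]
  {O₁ O₂ : ValuationSubring F}
  (red₁ : O₁ →+* κ) (hred₁ : ∀ y : O₁, red₁ y = 0 ↔ (y : F) ∈ O₁.nonunits)
  {V : ValuationSubring κ} {t : κ} (hV : IsUnif V t)
  {T : Subring F} (hT₁ : ∀ g ∈ T, g ∈ O₁) (hT₂ : ∀ g ∈ T, g ∈ O₂)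
  (hTV : ∀ g ∈ T, redT red₁ g ∈ V)
  (hloc : ∀ g ∈ T, redT red₁ g ∉ V.nonunits → g⁻¹ ∈ T)
  (hsat : ∀ (c : K) (g : F), c ≠ 0 → g ∈ O₁ → g ∈ O₂ → algebraMap K F c * g ∈ T → g ∈ T)
  (hval₂ : ∀ g : F, g ≠ 0 → ∃ c : K, c ≠ 0 ∧ IsU O₂ (algebraMap K F c * g))
  {x : F} (hx : x ∈ T) (hxU : CU K T x) (hρx : hV.ord (redT red₁ x) = 1)

include hred₁ hT₁ hρx hx in
/-- The node coordinate is a unit of `O₁`. -/
theorem isU_x : IsU O₁ x := by
  have h1 : redT red₁ x ≠ 0 := by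
    intro h0
    rw [h0, IsUnif.ord_zero] at hρx
    exact zero_ne_one hρx
  refine isU_of_notMem_nonunits (hT₁ x hx) fun hn => h1 ?_
  rw [redT_of_mem red₁ (hT₁ x hx)]
  exact (hred₁ _).2 hn

include hT₁ hT₂ hTV hloc hsat in
/-- A unit of `T[1/K^×]` which is a unit of `O₁`, integral for `O₂`, and whose reduction has
order `0` at the node, is a unit of `T`. -/
theorem inv_mem_of_ord_zero {g : F} (hgU : CU K T g) (hg₁ : IsU O₁ g) (hg₂ : g ∈ O₂)
    (hord : hV.ord (redT red₁ g) = 0) : g ∈ T ∧ g⁻¹ ∈ T := by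
  obtain ⟨c, hc0, hc⟩ := hgU.2.1
  have hgT : g ∈ T := hsat c g hc0 hg₁.1 hg₂ hc
  refine ⟨hgT, hloc g hgT fun hn => ?_⟩
  have h0 : redT red₁ g ≠ 0 := redT_ne_zero' red₁ hg₁
  have hpos := (hV.ord_pos_iff h0).2 hn
  omega

include hred₁ hT₁ hT₂ hTV hloc hsat hval₂ hx hxU hρx in
/-- **Vertical factorisation.**  A unit `g` of `T[1/K^×]` which is a unit of `O₁` is
`Y * x ^ a` with `Y` a unit of `T` and `a = ord_s (red₁ g)`. -/
theorem exists_factor {g : F} (hgU : CU K T g) (hg₁ : IsU O₁ g) :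
    ∃ Y : F, Y ∈ T ∧ Y⁻¹ ∈ T ∧ g = Y * x ^ hV.ord (redT red₁ g) := by
  set a : ℤ := hV.ord (redT red₁ g) with ha
  have hx₁ : IsU O₁ x := isU_x red₁ hred₁ hV hT₁ hx hρx
  have hx0 : x ≠ 0 := hx₁.2.2
  set g₂ : F := g / x ^ a with hg₂
  have hg₂U : CU K T g₂ := hgU.div (hxU.zpow a)
  have hg₂₁ : IsU O₁ g₂ := hg₁.div (hx₁.zpow a)
  have hord : hV.ord (redT red₁ g₂) = 0 := by
    rw [hg₂, redT_div red₁ hg₁ (hx₁.zpow a), redT_zpow red₁ hx₁,
      hV.ord_div (redT_ne_zero' red₁ hg₁) (zpow_ne_zero _ (redT_ne_zero' red₁ hx₁)),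
      hV.ord_zpow, hρx, ← ha]
    ring
  have hord' : hV.ord (redT red₁ g₂⁻¹) = 0 := by
    rw [redT_inv red₁ hg₂₁, hV.ord_inv, hord, neg_zero]
  have hgx : g = g₂ * x ^ a := by
    rw [hg₂, div_mul_cancel₀ _ (zpow_ne_zero _ hx0)]
  obtain ⟨c, hc0, hcU⟩ := hval₂ g₂ hg₂U.1
  have hc0' : algebraMap K F c ≠ 0 := by simpa using hc0
  -- `g₂ ∈ O₂` or `g₂⁻¹ ∈ O₂`
  rcases O₂.mem_or_inv_mem g₂ with h2 | h2
  · obtain ⟨hT, hT'⟩ := inv_mem_of_ord_zero red₁ hV hT₁ hT₂ hTV hloc hsat hg₂U hg₂₁ h2 hord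
    exact ⟨g₂, hT, hT', hgx⟩
  · obtain ⟨hT, hT'⟩ := inv_mem_of_ord_zero red₁ hV hT₁ hT₂ hTV hloc hsat hg₂U.inv hg₂₁.inv h2
      hord'
    rw [inv_inv] at hT'
    exact ⟨g₂, hT', hT, hgx⟩

end Node

/-! ### The Newton relation -/

section Newton

variable {K F κ : Type*} [Field K] [Field F] [Algebra K F] [Field κ]
  {O₁ O₂ : ValuationSubring F}
  (red₁ : O₁ →+* κ) (hred₁ : ∀ y : O₁, red₁ y = 0 ↔ (y : F) ∈ O₁.nonunits)
  {V : ValuationSubring κ} {t : κ} (hV : IsUnif V t)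
  {T : Subring F} (hT₁ : ∀ g ∈ T, g ∈ O₁) (hT₂ : ∀ g ∈ T, g ∈ O₂)
  (hTV : ∀ g ∈ T, redT red₁ g ∈ V)
  (hloc : ∀ g ∈ T, redT red₁ g ∉ V.nonunits → g⁻¹ ∈ T)
  (hsat : ∀ (c : K) (g : F), c ≠ 0 → g ∈ O₁ → g ∈ O₂ → algebraMap K F c * g ∈ T → g ∈ T)
  (hval₁ : ∀ g : F, g ≠ 0 → ∃ c : K, c ≠ 0 ∧ IsU O₁ (algebraMap K F c * g))
  (hval₂ : ∀ g : F, g ≠ 0 → ∃ c : K, c ≠ 0 ∧ IsU O₂ (algebraMap K F c * g))
  {x : F} (hx : x ∈ T) (hxU : CU K T x) (hρx : hV.ord (redT red₁ x) = 1)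
  {ϖk : K} (hϖk : ϖk ≠ 0) (hx₂ : IsU O₂ (x / algebraMap K F ϖk))
  (Pts : Set (Place K F)) (c : Place K F → K)
  (hc0 : ∀ P ∈ Pts, c P ≠ 0)
  (hc₁ : ∀ P ∈ Pts, algebraMap K F (c P) ∈ O₁.nonunits)
  (hc₂ : ∀ P ∈ Pts, x / algebraMap K F (c P) ∈ O₂.nonunits)
  (hord : ∀ P ∈ Pts, P.ord (x - algebraMap K F (c P)) = 1)
  (hinj : ∀ P ∈ Pts, ∀ P' ∈ Pts, P' ≠ P → P'.ord (x - algebraMap K F (c P)) = 0)
  (hreg : ∀ g : F, g ≠ 0 → (∀ P ∈ Pts, 0 ≤ P.ord g) →
    ∃ b : K, b ≠ 0 ∧ algebraMap K F b * g ∈ T)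

include hord in
theorem sub_ne_zero_of_mem {P : Place K F} (hP : P ∈ Pts) : x - algebraMap K F (c P) ≠ 0 := by
  intro h0
  have h := hord P hP
  rw [h0, Place.ord_zero] at h
  exact zero_ne_one h

include hreg in
/-- (REG) in the `CU` form. -/
theorem cu_of_ord_eq_zero {g : F} (hg0 : g ≠ 0) (hg : ∀ P ∈ Pts, P.ord g = 0) : CU K T g :=
  ⟨hg0, hreg g hg0 fun P hP => (hg P hP).ge, hreg g⁻¹ (inv_ne_zero hg0) fun P hP => by
    rw [Place.ord_inv, hg P hP, neg_zero]⟩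

open Classical in
include hord hinj in
/-- The order at a place of `Pts` of the horizontal part `∏_{P ∈ Z} (x - c P) ^ n P`. -/
theorem ord_horizontal (Z : Finset (Place K F)) (hZ : ∀ P ∈ Z, P ∈ Pts) (n : Place K F → ℤ)
    {Q : Place K F} (hQ : Q ∈ Pts) :
    Q.ord (∏ P ∈ Z, (x - algebraMap K F (c P)) ^ n P) = if Q ∈ Z then n Q else 0 := by
  classical
  rw [place_ord_prod_zpow Q Z _ n fun P hP => sub_ne_zero_of_mem Pts c hord (hZ P hP)]
  by_cases hQZ : Q ∈ Z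
  · rw [if_pos hQZ, Finset.sum_eq_single Q]
    · rw [hord Q hQ, mul_one]
    · intro P hP hPQ
      rw [hinj P (hZ P hP) Q hQ (Ne.symm hPQ), mul_zero]
    · intro h
      exact absurd hQZ h
  · rw [if_neg hQZ]
    refine Finset.sum_eq_zero fun P hP => ?_
    have hPQ : Q ≠ P := fun h => hQZ (h ▸ hP)
    rw [hinj P (hZ P hP) Q hQ hPQ, mul_zero]

include hred₁ hT₁ hT₂ hTV hloc hsat hval₁ hval₂ hx hxU hρx hϖk hx₂ hc0 hc₁ hc₂ hord hinj hreg in
/-- **The Newton relation at a node.**  `Z` a finite set of places through the node containing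
the zeros and poles of `f` among them. -/
theorem newton {f : F} (hf : f ≠ 0) (Z : Finset (Place K F)) (hZ : ∀ P ∈ Z, P ∈ Pts)
    (hZf : ∀ P ∈ Pts, P ∉ Z → P.ord f = 0) :
    ∃ (a : ℤ) (b : K) (Y : F), b ≠ 0 ∧ Y ∈ T ∧ Y⁻¹ ∈ T ∧
      f = Y * algebraMap K F b * x ^ a *
        ∏ P ∈ Z, (x - algebraMap K F (c P)) ^ P.ord f ∧
      IsU O₁ (f / algebraMap K F b) ∧
      IsU O₂ (f / algebraMap K F (b * ϖk ^ a * ∏ P ∈ Z, c P ^ P.ord f)) ∧
      hV.ord (redT red₁ (f / algebraMap K F b)) = a + ∑ P ∈ Z, P.ord f := by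
  classical
  have hx₁ : IsU O₁ x := isU_x red₁ hred₁ hV hT₁ hx hρx
  have hx0 : x ≠ 0 := hx₁.2.2
  set W : F := ∏ P ∈ Z, (x - algebraMap K F (c P)) ^ P.ord f with hW
  have hne : ∀ P ∈ Z, x - algebraMap K F (c P) ≠ 0 := fun P hP =>
    sub_ne_zero_of_mem Pts c hord (hZ P hP)
  have hW0 : W ≠ 0 := Finset.prod_ne_zero_iff.2 fun P hP => zpow_ne_zero _ (hne P hP)
  -- the horizontal factors are units of `O₁`
  have hfac₁ : ∀ P ∈ Z, IsU O₁ (x - algebraMap K F (c P)) := fun P hP =>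
    hx₁.sub_nonunit (hc₁ P (hZ P hP))
  have hW₁ : IsU O₁ W := IsU.prod Z _ fun P hP => (hfac₁ P hP).zpow _
  -- `g := f / W` has no zero or pole in `Pts`
  set g : F := f / W with hg
  have hg0 : g ≠ 0 := div_ne_zero hf hW0
  have hgord : ∀ Q ∈ Pts, Q.ord g = 0 := by
    intro Q hQ
    have h1 : Q.ord g = Q.ord f - Q.ord W := by
      rw [hg, div_eq_mul_inv, Q.ord_mul hf (inv_ne_zero hW0), Q.ord_inv]
      ring
    rw [h1, hW, ord_horizontal Pts c hord hinj Z hZ (fun P => P.ord f) hQ]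
    by_cases hQZ : Q ∈ Z
    · rw [if_pos hQZ, sub_self]
    · rw [if_neg hQZ, hZf Q hQ hQZ, sub_zero]
  have hgU : CU K T g := cu_of_ord_eq_zero Pts hreg hg0 hgord
  -- normalise at `O₁`
  obtain ⟨b', hb'0, hb'U⟩ := hval₁ g hg0
  have hb'0' : algebraMap K F b' ≠ 0 := by simpa using hb'0
  have hg'U : CU K T (algebraMap K F b' * g) := (CU.const hb'0).mul hgU
  obtain ⟨Y, hY, hY', hYe⟩ := exists_factor red₁ hred₁ hV hT₁ hT₂ hTV hloc hsat hval₂ hx hxU hρx
    hg'U hb'U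
  set a : ℤ := hV.ord (redT red₁ (algebraMap K F b' * g)) with ha
  have hY0 : Y ≠ 0 := by
    rintro rfl
    rw [zero_mul] at hYe
    exact hb'U.2.2 hYe
  have hY₁ : IsU O₁ Y := ⟨hT₁ Y hY, hT₁ _ hY', hY0⟩
  have hY₂ : IsU O₂ Y := ⟨hT₂ Y hY, hT₂ _ hY', hY0⟩
  have hbinv0 : b'⁻¹ ≠ 0 := inv_ne_zero hb'0
  -- the factorisation
  have hfe : f = Y * algebraMap K F b'⁻¹ * x ^ a * W := by
    have h1 : f = g * W := by rw [hg, div_mul_cancel₀ _ hW0]
    have h2 : g = (algebraMap K F b')⁻¹ * (Y * x ^ a) := by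
      rw [← hYe, ← mul_assoc, inv_mul_cancel₀ hb'0', one_mul]
    rw [h1, h2, map_inv₀]
    ring
  have hfb : f / algebraMap K F b'⁻¹ = Y * x ^ a * W := by
    have hb0 : algebraMap K F b'⁻¹ ≠ 0 := by simpa using hbinv0
    rw [hfe, div_eq_iff hb0]
    ring
  refine ⟨a, b'⁻¹, Y, hbinv0, hY, hY', hfe, ?_, ?_, ?_⟩
  · rw [hfb]
    exact (hY₁.mul (hx₁.zpow a)).mul hW₁
  · -- the `O₂`-side
    have hcP0 : ∀ P ∈ Z, algebraMap K F (c P) ≠ 0 := fun P hP => by
      simpa using hc0 P (hZ P hP)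
    have hfac₂ : ∀ P ∈ Z, IsU O₂ ((x - algebraMap K F (c P)) / algebraMap K F (c P)) := by
      intro P hP
      have e : (x - algebraMap K F (c P)) / algebraMap K F (c P) =
          -(1 - x / algebraMap K F (c P)) := by
        have h0 := hcP0 P hP
        field_simp
        ring
      rw [e]
      have h1 : IsU O₂ (1 - x / algebraMap K F (c P)) :=
        IsU.one.sub_nonunit (hc₂ P (hZ P hP))
      exact ⟨O₂.neg_mem _ h1.1, by rw [inv_neg]; exact O₂.neg_mem _ h1.2.1, neg_ne_zero.2 h1.2.2⟩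
    have hϖk0 : algebraMap K F ϖk ≠ 0 := by simpa using hϖk
    have e : f / algebraMap K F (b'⁻¹ * ϖk ^ a * ∏ P ∈ Z, c P ^ P.ord f) =
        Y * (x / algebraMap K F ϖk) ^ a *
          ∏ P ∈ Z, ((x - algebraMap K F (c P)) / algebraMap K F (c P)) ^ P.ord f := by
      have hprod : (∏ P ∈ Z, ((x - algebraMap K F (c P)) / algebraMap K F (c P)) ^ P.ord f) =
          W / algebraMap K F (∏ P ∈ Z, c P ^ P.ord f) := by
        rw [hW, map_prod, ← Finset.prod_div_distrib]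
        refine Finset.prod_congr rfl fun P _ => ?_
        rw [div_zpow, map_zpow₀]
      have hC0 : algebraMap K F (∏ P ∈ Z, c P ^ P.ord f) ≠ 0 := by
        rw [map_prod]
        exact Finset.prod_ne_zero_iff.2 fun P hP => by
          rw [map_zpow₀]
          exact zpow_ne_zero _ (hcP0 P hP)
      have hb0 : algebraMap K F b'⁻¹ ≠ 0 := by simpa using hbinv0
      have hϖa0 : algebraMap K F ϖk ^ a ≠ 0 := zpow_ne_zero _ hϖk0
      rw [hprod, map_mul, map_mul, map_zpow₀, div_zpow]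
      have key : ∀ (f' B C : F), B ≠ 0 → C ≠ 0 → f' = Y * B * x ^ a * W →
          f' / (B * algebraMap K F ϖk ^ a * C) =
            Y * (x ^ a / algebraMap K F ϖk ^ a) * (W / C) := by
        intro f' B C hB hC hf'
        rw [hf']
        field_simp
      exact key f _ _ hb0 hC0 hfe
    rw [e]
    exact (hY₂.mul (hx₂.zpow a)).mul (IsU.prod Z _ fun P hP => (hfac₂ P hP).zpow _)
  · rw [hfb, redT_mul red₁ (hY₁.mul (hx₁.zpow a)).1 hW₁.1, redT_mul red₁ hY₁.1 (hx₁.zpow a).1,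
      redT_zpow red₁ hx₁, hW, redT_prod red₁ Z _ fun P hP => (hfac₁ P hP).zpow _]
    have hYV : hV.ord (redT red₁ Y) = 0 := by
      have h1 : redT red₁ Y * redT red₁ Y⁻¹ = 1 := by
        rw [← redT_mul red₁ hY₁.1 hY₁.2.1, mul_inv_cancel₀ hY0, redT_one]
      have h0 : redT red₁ Y ≠ 0 := left_ne_zero_of_mul_eq_one h1
      exact hV.ord_unit (hTV Y hY) (by rw [← eq_inv_of_mul_eq_one_right h1]; exact hTV _ hY') h0
    have hxne : redT red₁ x ≠ 0 := redT_ne_zero' red₁ hx₁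
    have hWr : ∏ P ∈ Z, redT red₁ ((x - algebraMap K F (c P)) ^ P.ord f) =
        ∏ P ∈ Z, redT red₁ x ^ P.ord f := by
      refine Finset.prod_congr rfl fun P hP => ?_
      rw [redT_zpow red₁ (hfac₁ P hP), redT_sub_nonunit red₁ hred₁ hx₁.1 (hc₁ P (hZ P hP))]
    rw [hWr, hV.ord_mul (mul_ne_zero (redT_ne_zero' red₁ hY₁) (zpow_ne_zero _ hxne))
        (Finset.prod_ne_zero_iff.2 fun P _ => zpow_ne_zero _ hxne),
      hV.ord_mul (redT_ne_zero' red₁ hY₁) (zpow_ne_zero _ hxne), hYV, hV.ord_zpow, hρx,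
      ord_prod_zpow hV Z (fun _ => redT red₁ x) (fun P => P.ord f) fun _ _ => hxne]
    simp only [hρx, mul_one, zero_add]

end Newton

end Fermat.Agent.TR.PL.NewtonQ
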