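/-
TR / (PL), row 469 TR-PLF (helper67): **(NEWT) — the Newton relation in the Kummer form**
(architect's ruling #2, cut v2: local generators, no positions).

Abstract setting of `TR/PL/NewtonQ.lean` (constants `K ⊆ F`, Gauss valuation rings `O₁`, `O₂`,
node ring `T`, node coordinate `x` with `x / ϖk ∈ O₂^×`, `Pts` = the places through the node,
(REG)).

* `newton_vert` : a unit `G` of `O₁` with no zero or pole in `Pts` is `Y * x ^ a`, `Y ∈ T^×`,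
  `a = ord_s (red₁ G)`, and `G / ϖk ^ a` is a unit of `O₂`.
* `newton_kummer` : `f` a unit of `O₁`, `g` a local generator (`ord_P f = p * ord_P g` on `Pts`),
  `g / b₁ ∈ O₁^×`, `g / b₂ ∈ O₂^×`, `f / β ∈ O₂^×` (`b₁ b₂ β` constants).  Then with
  `a := ord_s (red₁ f) - p * ord_s (red₁ (g / b₁))`:
  `β / (ϖk ^ a * (b₂ / b₁) ^ p)` is a unit of `O₂`.
* `newton_kummer_val` : the same read through a valuation `v` of `K` with `v = 1` on the constants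
  which are units of `O₂`:  `v β = v ϖk ^ a * (v b₂ / v b₁) ^ p`.
* `newton_kummer_int` : the integer form.  `w` with `0 < w < 1` in the value group,
  `v β = w ^ N`, `v ϖk = w ^ (e * k)`, `v b₂ / v b₁ = w ^ γ`:
  **`N = e * k * m + p * (γ - e * k * o)`**, `m = ord_s (red₁ f)`, `o = ord_s (red₁ (g / b₁))`
  — the input `hrel` of `AssemblyArith.assembly` (with `γ' := γ - e * k * o`; if `p ∣ e` then
  `γ' ≡ γ mod p`, `newton_kummer_int_modEq`).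
-/
import Mathlib
import Fermat.Prelude.Def_AlgebraicCurve_DivisorClassGroup
import Fermat.Agent.TR.PL.NewtonQ

set_option autoImplicit false
set_option linter.unusedSectionVars false
set_option linter.unusedVariables false

namespace Fermat.Agent.TR.PL.NewtonKum

open AlgebraicCurve Fermat.Agent.CAR.Formal Fermat.Agent.TR.Node.Newton
  Fermat.Agent.TR.PL.NewtonQ

section

variable {K F κ : Type*} [Field K] [Field F] [Algebra K F] [Field κ]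

/-- The order of a nonzero constant at a place is `0`. -/
theorem ord_const (P : Place K F) {a : K} (ha : a ≠ 0) : P.ord (algebraMap K F a) = 0 := by
  have hu : IsUnit (algebraMap K P.toValuationSubring a) := (Ne.isUnit ha).map _
  have h := P.ord_coe_unit hu.unit
  rwa [IsUnit.unit_spec, Place.coe_algebraMap] at h

theorem ord_pow' (P : Place K F) (g : F) (n : ℕ) : P.ord (g ^ n) = n * P.ord g := by
  have h := P.ord_zpow g n
  rwa [zpow_natCast] at h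

theorem ord_div' (P : Place K F) {f g : F} (hf : f ≠ 0) (hg : g ≠ 0) :
    P.ord (f / g) = P.ord f - P.ord g := by
  rw [div_eq_mul_inv, P.ord_mul hf (inv_ne_zero hg), P.ord_inv]
  ring

variable {O₁ O₂ : ValuationSubring F}
  (red₁ : O₁ →+* κ) (hred₁ : ∀ y : O₁, red₁ y = 0 ↔ (y : F) ∈ O₁.nonunits)
  {V : ValuationSubring κ} {t : κ} (hV : IsUnif V t)
  {T : Subring F} (hT₁ : ∀ g ∈ T, g ∈ O₁) (hT₂ : ∀ g ∈ T, g ∈ O₂)
  (hTV : ∀ g ∈ T, redT red₁ g ∈ V)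
  (hloc : ∀ g ∈ T, redT red₁ g ∉ V.nonunits → g⁻¹ ∈ T)
  (hsat : ∀ (c : K) (g : F), c ≠ 0 → g ∈ O₁ → g ∈ O₂ → algebraMap K F c * g ∈ T → g ∈ T)
  (hval₂ : ∀ g : F, g ≠ 0 → ∃ c : K, c ≠ 0 ∧ IsU O₂ (algebraMap K F c * g))
  {x : F} (hx : x ∈ T) (hxU : CU K T x) (hρx : hV.ord (redT red₁ x) = 1)
  {ϖk : K} (hϖk : ϖk ≠ 0) (hx₂ : IsU O₂ (x / algebraMap K F ϖk))
  (Pts : Set (Place K F))
  (hreg : ∀ g : F, g ≠ 0 → (∀ P ∈ Pts, 0 ≤ P.ord g) →
    ∃ b : K, b ≠ 0 ∧ algebraMap K F b * g ∈ T)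

include hred₁ hT₁ hT₂ hTV hloc hsat hval₂ hx hxU hρx hϖk hx₂ hreg in
/-- **Vertical Newton relation.**  A unit `G` of `O₁` with no zero or pole through the node is
`Y * x ^ a` with `Y ∈ T^×` and `a = ord_s (red₁ G)`; hence `G / ϖk ^ a` is a unit of `O₂`. -/
theorem newton_vert {G : F} (hG₁ : IsU O₁ G) (hG : ∀ P ∈ Pts, P.ord G = 0) :
    ∃ Y : F, Y ∈ T ∧ Y⁻¹ ∈ T ∧ G = Y * x ^ hV.ord (redT red₁ G) ∧
      IsU O₂ (G / algebraMap K F ϖk ^ hV.ord (redT red₁ G)) := by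
  have hGU : CU K T G := cu_of_ord_eq_zero Pts hreg hG₁.2.2 hG
  obtain ⟨Y, hY, hY', hYe⟩ := exists_factor red₁ hred₁ hV hT₁ hT₂ hTV hloc hsat hval₂ hx hxU hρx
    hGU hG₁
  refine ⟨Y, hY, hY', hYe, ?_⟩
  set a : ℤ := hV.ord (redT red₁ G) with ha
  have hY0 : Y ≠ 0 := by
    rintro rfl
    rw [zero_mul] at hYe
    exact hG₁.2.2 hYe
  have hY₂ : IsU O₂ Y := ⟨hT₂ Y hY, hT₂ _ hY', hY0⟩
  have hϖk0 : algebraMap K F ϖk ≠ 0 := by simpa using hϖk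
  have e : G / algebraMap K F ϖk ^ a = Y * (x / algebraMap K F ϖk) ^ a := by
    rw [hYe, div_zpow, mul_div_assoc]
  rw [e]
  exact hY₂.mul (hx₂.zpow a)

include hred₁ hT₁ hT₂ hTV hloc hsat hval₂ hx hxU hρx hϖk hx₂ hreg in
/-- **(NEWT), Kummer form.**  `f ∈ O₁^×`, `g` a local generator at the node of the divisor `D`
with `div f = p • D` (`ord_P f = p * ord_P g` for `P` through the node), `g / b₁ ∈ O₁^×`,
`g / b₂ ∈ O₂^×`, `f / β ∈ O₂^×`.  Then `β = u * ϖk ^ a * (b₂ / b₁) ^ p` with `u` a constant unit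
of `O₂` and `a = ord_s (red₁ f) - p * ord_s (red₁ (g / b₁))`. -/
theorem newton_kummer {f g : F} {p : ℕ} (hf₁ : IsU O₁ f) (hg0 : g ≠ 0)
    (hfg : ∀ P ∈ Pts, P.ord f = p * P.ord g)
    {b₁ b₂ β : K} (hb₁ : b₁ ≠ 0) (hb₂ : b₂ ≠ 0) (hβ : β ≠ 0)
    (hg₁ : IsU O₁ (g / algebraMap K F b₁)) (hg₂ : IsU O₂ (g / algebraMap K F b₂))
    (hf₂ : IsU O₂ (f / algebraMap K F β)) :
    IsU O₂ (algebraMap K F (β / (ϖk ^ (hV.ord (redT red₁ f) -
      p * hV.ord (redT red₁ (g / algebraMap K F b₁))) * (b₂ / b₁) ^ p))) := by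
  have hb₁' : algebraMap K F b₁ ≠ 0 := by simpa using hb₁
  have hb₂' : algebraMap K F b₂ ≠ 0 := by simpa using hb₂
  have hβ' : algebraMap K F β ≠ 0 := by simpa using hβ
  have hϖk0 : algebraMap K F ϖk ≠ 0 := by simpa using hϖk
  have hf0 : f ≠ 0 := hf₁.2.2
  set g₁ : F := g / algebraMap K F b₁ with hg₁def
  have hg₁0 : g₁ ≠ 0 := hg₁.2.2
  set G : F := f / g₁ ^ p with hGdef
  have hG₁ : IsU O₁ G := hf₁.div (hg₁.pow p)
  have hG : ∀ P ∈ Pts, P.ord G = 0 := by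
    intro P hP
    rw [hGdef, ord_div' P hf0 (pow_ne_zero _ hg₁0), ord_pow', hg₁def, ord_div' P hg0 hb₁',
      ord_const P hb₁, sub_zero, hfg P hP, sub_self]
  obtain ⟨Y, hY, hY', hYe, hG₂⟩ := newton_vert red₁ hred₁ hV hT₁ hT₂ hTV hloc hsat hval₂ hx hxU
    hρx hϖk hx₂ Pts hreg hG₁ hG
  have ha : hV.ord (redT red₁ G) =
      hV.ord (redT red₁ f) - p * hV.ord (redT red₁ g₁) := by
    rw [hGdef, redT_div red₁ hf₁ (hg₁.pow p), redT_pow red₁ hg₁,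
      hV.ord_div (redT_ne_zero' red₁ hf₁) (pow_ne_zero _ (redT_ne_zero' red₁ hg₁)), hV.ord_pow]
  rw [ha] at hG₂
  set a : ℤ := hV.ord (redT red₁ f) - p * hV.ord (redT red₁ g₁) with hadef
  -- `f / β = (G / ϖk ^ a) * (g / b₂) ^ p * (ϖk ^ a * (b₂ / b₁) ^ p / β)`
  have hϖa0 : algebraMap K F ϖk ^ a ≠ 0 := zpow_ne_zero _ hϖk0
  have key : algebraMap K F (β / (ϖk ^ a * (b₂ / b₁) ^ p)) =
      (G / algebraMap K F ϖk ^ a) * (g / algebraMap K F b₂) ^ p / (f / algebraMap K F β) := by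
    rw [map_div₀, map_mul, map_zpow₀, map_pow, map_div₀]
    have hG' : f = G * g₁ ^ p := by rw [hGdef, div_mul_cancel₀ _ (pow_ne_zero _ hg₁0)]
    have hgp : g₁ ^ p =
        (algebraMap K F b₂ / algebraMap K F b₁) ^ p * (g / algebraMap K F b₂) ^ p := by
      rw [← mul_pow, hg₁def]
      congr 1
      field_simp
    have hG0 : G ≠ 0 := hG₁.2.2
    have hC0 : (g / algebraMap K F b₂) ^ p ≠ 0 := pow_ne_zero _ (div_ne_zero hg0 hb₂')
    have hB0 : (algebraMap K F b₂ / algebraMap K F b₁) ^ p ≠ 0 :=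
      pow_ne_zero _ (div_ne_zero hb₂' hb₁')
    have aux : ∀ A B C β' f' : F, A ≠ 0 → B ≠ 0 → C ≠ 0 → β' ≠ 0 → f' = G * (B * C) →
        β' / (A * B) = G / A * C / (f' / β') := by
      intro A B C β' f' hA hB hC hβ'' hf'
      rw [hf']
      field_simp
    exact aux _ _ _ _ f hϖa0 hB0 hC0 hβ' (by rw [← hgp]; exact hG')
  rw [key]
  exact (hG₂.mul (hg₂.pow p)).div hf₂

include hred₁ hT₁ hT₂ hTV hloc hsat hval₂ hx hxU hρx hϖk hx₂ hreg in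
/-- (NEWT) through a valuation `v` of the constants which is trivial on the constant units of
`O₂`. -/
theorem newton_kummer_val {Γ₀ : Type*} [LinearOrderedCommGroupWithZero Γ₀] (v : Valuation K Γ₀)
    (hv₂ : ∀ c : K, IsU O₂ (algebraMap K F c) → v c = 1)
    {f g : F} {p : ℕ} (hf₁ : IsU O₁ f) (hg0 : g ≠ 0)
    (hfg : ∀ P ∈ Pts, P.ord f = p * P.ord g)
    {b₁ b₂ β : K} (hb₁ : b₁ ≠ 0) (hb₂ : b₂ ≠ 0) (hβ : β ≠ 0)
    (hg₁ : IsU O₁ (g / algebraMap K F b₁)) (hg₂ : IsU O₂ (g / algebraMap K F b₂))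
    (hf₂ : IsU O₂ (f / algebraMap K F β)) :
    v β = v ϖk ^ (hV.ord (redT red₁ f) - p * hV.ord (redT red₁ (g / algebraMap K F b₁))) *
      (v b₂ / v b₁) ^ p := by
  have h := hv₂ _ (newton_kummer red₁ hred₁ hV hT₁ hT₂ hTV hloc hsat hval₂ hx hxU hρx hϖk hx₂ Pts
    hreg hf₁ hg0 hfg hb₁ hb₂ hβ hg₁ hg₂ hf₂)
  rw [map_div₀, map_mul, map_zpow₀, map_pow, map_div₀] at h
  have hden : v ϖk ^ (hV.ord (redT red₁ f) - p * hV.ord (redT red₁ (g / algebraMap K F b₁))) *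
      (v b₂ / v b₁) ^ p ≠ 0 := by
    have h1 : v ϖk ≠ 0 := (Valuation.ne_zero_iff _).2 hϖk
    have h2 : v b₂ ≠ 0 := (Valuation.ne_zero_iff _).2 hb₂
    have h3 : v b₁ ≠ 0 := (Valuation.ne_zero_iff _).2 hb₁
    exact mul_ne_zero (zpow_ne_zero _ h1) (pow_ne_zero _ (div_ne_zero h2 h3))
  exact (div_eq_one_iff_eq hden).1 h

include hred₁ hT₁ hT₂ hTV hloc hsat hval₂ hx hxU hρx hϖk hx₂ hreg in
/-- **(NEWT), integer form** — the relation `hrel` of `AssemblyArith.assembly`: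
`N = e * k * m + p * γ'` with `m = ord_s (red₁ f)` and `γ' = γ - e * k * ord_s (red₁ (g / b₁))`. -/
theorem newton_kummer_int {Γ₀ : Type*} [LinearOrderedCommGroupWithZero Γ₀] (v : Valuation K Γ₀)
    (hv₂ : ∀ c : K, IsU O₂ (algebraMap K F c) → v c = 1)
    {f g : F} {p : ℕ} (hf₁ : IsU O₁ f) (hg0 : g ≠ 0)
    (hfg : ∀ P ∈ Pts, P.ord f = p * P.ord g)
    {b₁ b₂ β : K} (hb₁ : b₁ ≠ 0) (hb₂ : b₂ ≠ 0) (hβ : β ≠ 0)
    (hg₁ : IsU O₁ (g / algebraMap K F b₁)) (hg₂ : IsU O₂ (g / algebraMap K F b₂))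
    (hf₂ : IsU O₂ (f / algebraMap K F β))
    {w : Γ₀} (hw0 : w ≠ 0) (hw1 : w < 1) {N e k γ : ℤ}
    (hβN : v β = w ^ N) (hϖe : v ϖk = w ^ (e * k)) (hγ : v b₂ / v b₁ = w ^ γ) :
    N = e * k * hV.ord (redT red₁ f) +
      p * (γ - e * k * hV.ord (redT red₁ (g / algebraMap K F b₁))) := by
  have h := newton_kummer_val red₁ hred₁ hV hT₁ hT₂ hTV hloc hsat hval₂ hx hxU hρx hϖk hx₂ Pts
    hreg v hv₂ hf₁ hg0 hfg hb₁ hb₂ hβ hg₁ hg₂ hf₂
  rw [hβN, hϖe, hγ, ← zpow_mul, ← zpow_natCast (w ^ γ) p, ← zpow_mul, ← zpow_add₀ hw0] at h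
  have hinj := zpow_right_injective₀ (zero_lt_iff.2 hw0) hw1.ne h
  rw [hinj]
  ring

/-- In the wild case (`p ∣ e`) the corrected constant is congruent to `γ`. -/
theorem gamma_modEq {p : ℕ} {e k o γ : ℤ} (he : (p : ℤ) ∣ e) :
    γ - e * k * o ≡ γ [ZMOD p] := by
  obtain ⟨e', rfl⟩ := he
  have h : γ - (p : ℤ) * e' * k * o = γ + (p : ℤ) * (-(e' * k * o)) := by ring
  rw [h]
  exact Int.modEq_iff_dvd.2 ⟨e' * k * o, by ring⟩

end

end Fermat.Agent.TR.PL.NewtonKum
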