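/-
TR / (PL), row 469 TR-PLF (helper67): **(NEWT) at a node of the abstract nodal setting**
(`TR/Node/NodeRingAbs.lean`, with `Fx = ⊤`: the node ring at the level of the ambient field).

Binders of `NodeRingAbs` (`L ⊆ F`, `A`, `O`, `red : O →+* F₁ × F₂`, `E`, `e₁ e₂ i`, `hS`) plus the two
components: valuation subrings `O₁ O₂` of `F` with `O = O₁ ∩ O₂`, the first residue map
`red₁ : O₁ →+* F₁` (kernel = non-units, `(red y).1 = red₁ y`), the Gauss property of `O₂`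
(`hval₂`), `O₂ ∩ L ⊆ A`, finiteness of poles.

With `T := nodeRing red ⊤ E e₁ e₂ i` and `Through T P` ("`P` reduces to the node `i`"), a node
coordinate `x ∈ T` (`ord_{e₁ i} (red₁ x) = 1`, `x / ϖk ∈ O₂^×`, `c * x⁻¹ ∈ T`):

* `newt_node_val` : `v β = v ϖk ^ (m - p * o) * (v b₂ / v b₁) ^ p`, `v = A.valuation`,
  `m = ord_{e₁ i} (red₁ f)`, `o = ord_{e₁ i} (red₁ (g / b₁))`;
* `newt_node_int` : `N = e * n * m + p * (γ - e * n * o)`.

Here `f ∈ O₁^×`, `g` a local generator (`ord_P f = p * ord_P g` for all `P` through the node),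
`g / b₁ ∈ O₁^×`, `g / b₂ ∈ O₂^×`, `f / β ∈ O₂^×`.
-/
import Mathlib
import Fermat.Agent.TR.PL.Through
import Fermat.Agent.TR.PL.NewtonKum
import Fermat.Agent.CAR.Local.Inst.PlaceBridge
import Fermat.Agent.Lib.Red.PlaceRedLocal

set_option autoImplicit false
set_option linter.unusedSectionVars false
set_option linter.unusedVariables false

namespace Fermat.Agent.TR.PL.NewtonNode

open AlgebraicCurve WithZero Fermat.Agent.Lib.FF Fermat.Agent.BAD.NodalRiemann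
  Fermat.Agent.Lib.Red.Deform Fermat.Agent.TR.Node.NodalLocal Fermat.Agent.TR.Node.NodeRingAbs
  Fermat.Agent.TR.PL.Through Fermat.Agent.TR.PL.NewtonQ Fermat.Agent.TR.PL.NewtonKum
  Fermat.Agent.TR.Node.Newton Fermat.Agent.CAR.Formal

variable {L F : Type*} [Field L] [Field F] [Algebra L F] {A : ValuationSubring L} {O : Subring F}
  {k F₁ F₂ : Type*} [Field k] [Field F₁] [Field F₂] [Algebra k F₁] [Algebra k F₂]
  {ι : Type*}

section

variable (hOA : ∀ x : L, algebraMap L F x ∈ O ↔ x ∈ A)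
  (hval : ∀ y : F, y ≠ 0 → ∃ c : L, c ≠ 0 ∧ algebraMap L F c * y ∈ O ∧
    ¬ Small A O (algebraMap L F c * y))
  (red : O →+* F₁ × F₂) (π : A →+* k)
  (hπker : ∀ a : A, π a = 0 ↔ A.valuation (a : L) < 1)
  (hconst : ∀ a : A, red ⟨algebraMap L F (a : L), (hOA _).2 a.2⟩ =
    algebraMap k (F₁ × F₂) (π a))
  (hker : ∀ y : O, red y = 0 ↔ Small A O (y : F))
  (E : Divisor L F) (e₁ : ι → Place k F₁) (e₂ : ι → Place k F₂) (i : ι)
  (hE : 0 ≤ E) {D₁ : Divisor k F₁} {D₂ : Divisor k F₂}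
  (hS : ∃ N₀ : ℕ, ∀ N, N₀ ≤ N → ∀ t : F₁ × F₂,
    (∃ y : O, (y : F) ∈ riemannRochSpace (N • E) ∧ red y = t) ↔
      t ∈ gluedSpace e₁ e₂ (fun _ => (1 : k)) (N • D₁) (N • D₂))
  {O₁ O₂ : ValuationSubring F} (hO : ∀ g : F, g ∈ O ↔ g ∈ O₁ ∧ g ∈ O₂)
  (red₁ : O₁ →+* F₁) (hred₁ : ∀ y : O₁, red₁ y = 0 ↔ (y : F) ∈ O₁.nonunits)
  (hfst : ∀ (y : O) (hy : (y : F) ∈ O₁), (red y).1 = red₁ ⟨y, hy⟩)

include hOA hval hπker hconst hker hO in
theorem mem_O₁ {g : F} (hg : g ∈ nodeRing red ⊤ E e₁ e₂ i) : g ∈ O₁ :=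
  ((hO g).1 (mem_O hOA hval red π hπker hconst hker ⊤ E e₁ e₂ i hg)).1

include hOA hval hπker hconst hker hO in
theorem mem_O₂ {g : F} (hg : g ∈ nodeRing red ⊤ E e₁ e₂ i) : g ∈ O₂ :=
  ((hO g).1 (mem_O hOA hval red π hπker hconst hker ⊤ E e₁ e₂ i hg)).2

include hOA hval hπker hconst hker hO hfst in
/-- The first reduction of a function of the node ring, in the `redT` form. -/
theorem redT_eq {g : F} (hg : g ∈ nodeRing red ⊤ E e₁ e₂ i) :
    redT red₁ g = (red ⟨g, mem_O hOA hval red π hπker hconst hker ⊤ E e₁ e₂ i hg⟩).1 := by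
  rw [redT_of_mem red₁ (mem_O₁ hOA hval red π hπker hconst hker E e₁ e₂ i hO hg)]
  exact (hfst ⟨g, mem_O hOA hval red π hπker hconst hker ⊤ E e₁ e₂ i hg⟩ _).symm

include hOA hval hπker hconst hker hO hfst hE hS in
/-- (`hTV`) the first reduction of a function of the node ring is regular at the node. -/
theorem redT_mem {g : F} (hg : g ∈ nodeRing red ⊤ E e₁ e₂ i) :
    redT red₁ g ∈ (e₁ i).toValuationSubring := by
  rw [redT_eq hOA hval red π hπker hconst hker E e₁ e₂ i hO red₁ hfst hg]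
  obtain ⟨c, hc, -⟩ := exists_cong hOA hval red π hπker hconst hker ⊤ E e₁ e₂ i hE hS hg
  exact (Fermat.Agent.Lib.Red.PlaceRed.adicValuation_le_one_iff_mem (e₁ i)).1 hc.le_one

include hOA hval hπker hconst hker hO hfst hE hS in
/-- (`hloc`) a function of the node ring whose first reduction is a unit at the node is a unit
of the node ring. -/
theorem inv_mem_of_notMem_nonunits {g : F} (hg : g ∈ nodeRing red ⊤ E e₁ e₂ i)
    (hu : redT red₁ g ∉ (e₁ i).toValuationSubring.nonunits) :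
    g⁻¹ ∈ nodeRing red ⊤ E e₁ e₂ i := by
  refine inv_mem hOA hval red π hπker hconst hker ⊤ E e₁ e₂ i hE hS
    (fun g _ => Subring.mem_top _) hg fun h0 => hu ?_
  rw [redT_eq hOA hval red π hπker hconst hker E e₁ e₂ i hO red₁ hfst hg]
  set r : F₁ := (red ⟨g, mem_O hOA hval red π hπker hconst hker ⊤ E e₁ e₂ i hg⟩).1 with hr
  have h1 : (e₁ i).adicValuation r < 1 := by
    have h2 := h0
    rw [cong_iff, map_zero, sub_zero] at h2
    exact h2
  by_cases hr0 : r = 0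
  · rw [hr0, ValuationSubring.mem_nonunits_iff_or]
    exact Or.inl rfl
  · exact Fermat.Agent.CAR.Local.Inst.PlaceBridge.mem_nonunits_of_ord_pos (e₁ i)
      ((Fermat.Agent.Lib.Red.PlaceRed.adicValuation_lt_one_iff (e₁ i) hr0).1 h1)

variable (hval₂ : ∀ g : F, g ≠ 0 → ∃ c : L, c ≠ 0 ∧ IsU O₂ (algebraMap L F c * g))
  (hO₂A : ∀ c : L, algebraMap L F c ∈ O₂ → c ∈ A)
  (hfin : ∀ g : F, g ≠ 0 → {P : Place L F | ¬ P.adicValuation g ≤ 1}.Finite)
  {x : F} (hx : x ∈ nodeRing red ⊤ E e₁ e₂ i)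
  (hxinv : ∃ c : L, c ≠ 0 ∧ algebraMap L F c * x⁻¹ ∈ nodeRing red ⊤ E e₁ e₂ i)
  (hρx : (e₁ i).ord (redT red₁ x) = 1)
  {ϖk : L} (hϖk : ϖk ≠ 0) (hx₂ : IsU O₂ (x / algebraMap L F ϖk))

include hO₂A in
/-- A constant which is a unit of `O₂` has valuation `1`. -/
theorem valuation_eq_one_of_isU {c : L} (hc : IsU O₂ (algebraMap L F c)) : A.valuation c = 1 := by
  have h1 : c ∈ A := hO₂A c hc.1
  have h2 : c⁻¹ ∈ A := hO₂A c⁻¹ (by rw [map_inv₀]; exact hc.2.1)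
  have h3 : A.valuation c ≤ 1 := (A.valuation_le_one_iff c).2 h1
  have h4 : A.valuation c⁻¹ ≤ 1 := (A.valuation_le_one_iff _).2 h2
  have hc0 : c ≠ 0 := by
    rintro rfl
    exact hc.2.2 (map_zero _)
  have h5 : A.valuation c ≠ 0 := (Valuation.ne_zero_iff _).2 hc0
  rw [map_inv₀] at h4
  exact le_antisymm h3 ((inv_le_one₀ (zero_lt_iff.2 h5)).1 h4)

include hOA hval hπker hconst hker hO hred₁ hfst hE hS hval₂ hO₂A hfin hx hxinv hρx hϖk hx₂ in
/-- **(NEWT) at the node `i`, valuation form.** -/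
theorem newt_node_val {f g : F} {p : ℕ} (hf₁ : IsU O₁ f) (hg0 : g ≠ 0)
    (hfg : ∀ P : Place L F, Through (nodeRing red ⊤ E e₁ e₂ i) P → P.ord f = p * P.ord g)
    {b₁ b₂ β : L} (hb₁ : b₁ ≠ 0) (hb₂ : b₂ ≠ 0) (hβ : β ≠ 0)
    (hg₁ : IsU O₁ (g / algebraMap L F b₁)) (hg₂ : IsU O₂ (g / algebraMap L F b₂))
    (hf₂ : IsU O₂ (f / algebraMap L F β)) :
    A.valuation β = A.valuation ϖk ^ ((e₁ i).ord (redT red₁ f) -
        p * (e₁ i).ord (redT red₁ (g / algebraMap L F b₁))) *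
      (A.valuation b₂ / A.valuation b₁) ^ p := by
  obtain ⟨t, hV⟩ := Fermat.Agent.CAR.Local.Inst.PlaceBridge.exists_isUnif (e₁ i)
  have hordeq : ∀ y : F₁, hV.ord y = (e₁ i).ord y :=
    Fermat.Agent.CAR.Local.Inst.PlaceBridge.isUnif_ord_eq (e₁ i) hV
  have hx0 : x ≠ 0 := by
    rintro rfl
    rw [redT_zero, Place.ord_zero] at hρx
    exact zero_ne_one hρx
  have hxU : CU L (nodeRing red ⊤ E e₁ e₂ i) x :=
    ⟨hx0, ⟨1, one_ne_zero, by rw [map_one, one_mul]; exact hx⟩, hxinv⟩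
  have h := newton_kummer_val (K := L) red₁ hred₁ hV
    (T := nodeRing red ⊤ E e₁ e₂ i)
    (fun g hg => mem_O₁ hOA hval red π hπker hconst hker E e₁ e₂ i hO hg)
    (fun g hg => mem_O₂ hOA hval red π hπker hconst hker E e₁ e₂ i hO hg)
    (fun g hg => redT_mem hOA hval red π hπker hconst hker E e₁ e₂ i hE hS hO red₁ hfst hg)
    (fun g hg hu => inv_mem_of_notMem_nonunits hOA hval red π hπker hconst hker E e₁ e₂ i hE hS
      hO red₁ hfst hg hu)
    (fun c g hc0 hg1 hg2 hcg => mem_of_mul_mem red ⊤ E e₁ e₂ i (fun g _ => Subring.mem_top _)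
      hc0 (Subring.mem_top _) ((hO g).2 ⟨hg1, hg2⟩) hcg)
    hval₂ hx hxU (by rw [hordeq]; exact hρx) hϖk hx₂
    {P : Place L F | Through (nodeRing red ⊤ E e₁ e₂ i) P}
    (fun g hg0 hg => exists_smul_mem hval hE hg0 (hfin g hg0) fun P hP =>
      (Fermat.Agent.Lib.Red.PlaceRed.adicValuation_le_one_iff_mem P).2
        (Fermat.Agent.S24.mem_of_ord_nonneg P (hg P hP)))
    A.valuation (fun c hc => valuation_eq_one_of_isU hO₂A hc)
    hf₁ hg0 (fun P hP => hfg P hP) hb₁ hb₂ hβ hg₁ hg₂ hf₂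
  rw [hordeq, hordeq] at h
  exact h

include hOA hval hπker hconst hker hO hred₁ hfst hE hS hval₂ hO₂A hfin hx hxinv hρx hϖk hx₂ in
/-- **(NEWT) at the node `i`, integer form**: the relation `hrel` of `AssemblyArith.assembly`. -/
theorem newt_node_int {f g : F} {p : ℕ} (hf₁ : IsU O₁ f) (hg0 : g ≠ 0)
    (hfg : ∀ P : Place L F, Through (nodeRing red ⊤ E e₁ e₂ i) P → P.ord f = p * P.ord g)
    {b₁ b₂ β : L} (hb₁ : b₁ ≠ 0) (hb₂ : b₂ ≠ 0) (hβ : β ≠ 0)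
    (hg₁ : IsU O₁ (g / algebraMap L F b₁)) (hg₂ : IsU O₂ (g / algebraMap L F b₂))
    (hf₂ : IsU O₂ (f / algebraMap L F β))
    {w : A.ValueGroup} (hw0 : w ≠ 0) (hw1 : w < 1) {N e n γ : ℤ}
    (hβN : A.valuation β = w ^ N) (hϖe : A.valuation ϖk = w ^ (e * n))
    (hγ : A.valuation b₂ / A.valuation b₁ = w ^ γ) :
    N = e * n * (e₁ i).ord (redT red₁ f) +
      p * (γ - e * n * (e₁ i).ord (redT red₁ (g / algebraMap L F b₁))) := by
  have h := newt_node_val hOA hval red π hπker hconst hker E e₁ e₂ i hE hS hO red₁ hred₁ hfst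
    hval₂ hO₂A hfin hx hxinv hρx hϖk hx₂ hf₁ hg0 hfg hb₁ hb₂ hβ hg₁ hg₂ hf₂
  rw [hβN, hϖe, hγ, ← zpow_mul, ← zpow_natCast (w ^ γ) p, ← zpow_mul, ← zpow_add₀ hw0] at h
  have hinj := zpow_right_injective₀ (zero_lt_iff.2 hw0) hw1.ne h
  rw [hinj]
  ring

end

end Fermat.Agent.TR.PL.NewtonNode
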