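/-
TR / (PL), row 469 TR-PLF = (I2) (helper67): **(NEWT) at the nodes of the special fibre of
`X₀(Mq)`** — the instance of `TR/PL/NewtonNode.lean` at the modular objects of
`TR/Node/NodeRing.lean`.

Setting = helper85's `NodeRing` (`h : BadSetup A π M q`, `W`, the nodal datum `E1 E2 e₁ e₂ P₁ Z₁
P₂ Z₂ hE1 hS2`, a node `i`).  `nodeRingQ h W E1 e₁ e₂ i` is the node ring at the level of `ℚ̄`
(`NodeRingAbs.nodeRing (redPair h W) ⊤ E1 e₁ e₂ i`, the `T_i` of the architect's ruling);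
`Through (nodeRingQ …) P` says that the place `P` of the generic fibre reduces to the node `i`.

The node coordinates enter in the literal shape of `NodeRing.exists_nodePkg(_delta)` /
`NodePkgFull.exists_nodePkg_deltaBar`: `x y u : NodeRing.nodeRing h W E1 e₁ e₂ i`, `IsUnit u`,
`x * y = q ^ kk * u`, `ord_{e₁ i} (red_∞ x) = 1`, `ord_{e₂ i} (red_0 y) = 1`.

* `nodeRing_le` : the inertia-fixed node ring is contained in `nodeRingQ`;
* `newt_inst_val`, `newt_inst` : **(NEWT)**.  For `f ∈ O_∞^×`, a local generator `g`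
  (`ord_P f = p * ord_P g` for all `P` through the node), constants `b₁ b₂ β` with
  `g / b₁ ∈ O_∞^×`, `g / b₂ ∈ O_0^×`, `f / β ∈ O_0^×`:
  `v β = (v q ^ kk) ^ (m - p * o) * (v b₂ / v b₁) ^ p`, and if `v β = w ^ N`, `v q = w ^ e`,
  `v b₂ / v b₁ = w ^ γ` (`0 < w < 1`) then `N = e * kk * m + p * (γ - e * kk * o)`,
  `m = ord_{e₁ i} (red_∞ f)`, `o = ord_{e₁ i} (red_∞ (g / b₁))`.
* `newt_inst_zpow` : the same with the normalising constants `w ^ n₁`, `w ^ n₂`, `w ^ N` of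
  `SigmaSeam.exists_zpow_unif_inf/zero` (`w` a uniformiser of `K''`, `v w ^ e = v q`):
  **`∃ a δ : ℤ, N = e * kk * a + p * (n₂ - n₁) ∧ ord_{e₁ i} (red_∞ f) = a + p * δ`**
  — the two per-node lines of `Asm.NumericAt` (`γ i = n₂ - n₁`).
-/
import Mathlib
import Fermat.Agent.TR.Node.NodeRing
import Fermat.Agent.TR.PL.NewtonNode

set_option autoImplicit false
set_option linter.unusedSectionVars false
set_option linter.unusedVariables false

noncomputable section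

namespace Fermat.Agent.TR.PL.NewtonInst

open AlgebraicCurve ModularCurve WithZero Fermat.Agent.Lib.FF Fermat.Agent.Lib.Red.Deform
  Fermat.Agent.BAD.NodalRiemann Fermat.Agent.BAD.TwoVal
  Fermat.Agent.TR.PL.Through Fermat.Agent.TR.PL.NewtonQ Fermat.Agent.TR.Node.Newton

local notation "Qb" => AlgebraicClosure ℚ

/-! ### Abstract preliminaries -/

section Abs

variable {L F : Type*} [Field L] [Field F] [Algebra L F]

/-- The node ring is monotone in the ring `Fx`. -/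
theorem nodeRingAbs_mono {O : Subring F} {k F₁ F₂ : Type*} [Field k] [Field F₁] [Field F₂]
    [Algebra k F₁] [Algebra k F₂] {ι : Type*} (red : O →+* F₁ × F₂) {Fx Fx' : Subring F}
    (hle : Fx ≤ Fx') (E : Divisor L F) (e₁ : ι → Place k F₁) (e₂ : ι → Place k F₂) (i : ι) :
    Fermat.Agent.TR.Node.NodeRingAbs.nodeRing red Fx E e₁ e₂ i ≤
      Fermat.Agent.TR.Node.NodeRingAbs.nodeRing red Fx' E e₁ e₂ i := by
  rintro g ⟨hgF, N, t, htL, htF, hc, y, hy, hyL⟩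
  exact ⟨hle hgF, N, t, htL, hle htF, hc, y, hy, hyL⟩

/-- A nonzero function has finitely many poles. -/
theorem finite_poles_of_ne_zero [HasPrincipalDivisors L F] {g : F} (hg : g ≠ 0) :
    {P : Place L F | ¬ P.adicValuation g ≤ 1}.Finite := by
  obtain ⟨D, hD, -⟩ := HasPrincipalDivisors.exists_divisor (K := L) g hg
  refine D.support.finite_toSet.subset fun P hP => ?_
  rw [Finset.mem_coe, Finsupp.mem_support_iff, hD P]
  intro h0
  apply hP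
  rw [Fermat.Agent.Lib.Red.PlaceRed.adicValuation_le_one_iff_mem]
  exact Fermat.Agent.S24.mem_of_ord_nonneg P h0.ge

/-- From the node relation `x * y = q ^ kk * u` in a subring `S ≤ T` (`u` a unit of `S`, `y` a
unit of `O₂`): `x⁻¹` lies in `T` up to the constant `q ^ kk`, and `x / q ^ kk` is a unit of
`O₂`. -/
theorem coord_facts {S T : Subring F} (hST : S ≤ T) {O₂ : ValuationSubring F}
    (hS₂ : ∀ g ∈ S, g ∈ O₂) {x y u : S} {q kk : ℕ} (hq : ((q : ℕ) : L) ≠ 0) (hu : IsUnit u)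
    (hxy : x * y = ((q : ℕ) : S) ^ kk * u) (hyinv : (y : F)⁻¹ ∈ O₂) :
    (∃ c : L, c ≠ 0 ∧ algebraMap L F c * (x : F)⁻¹ ∈ T) ∧
      IsU O₂ ((x : F) / algebraMap L F (((q : ℕ) : L) ^ kk)) := by
  obtain ⟨u', hu'⟩ := hu.exists_right_inv
  have huu' : (u : F) * (u' : F) = 1 := by
    have := congrArg Subtype.val hu'
    simpa using this
  have hxyF : (x : F) * (y : F) = ((q : ℕ) : F) ^ kk * (u : F) := by
    have := congrArg Subtype.val hxy
    simpa using this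
  have hcast : algebraMap L F (((q : ℕ) : L) ^ kk) = ((q : ℕ) : F) ^ kk := by
    rw [map_pow, map_natCast]
  have hqF : ((q : ℕ) : F) ≠ 0 := by
    intro h0
    apply hq
    have h1 : algebraMap L F ((q : ℕ) : L) = 0 := by rw [map_natCast]; exact h0
    exact (map_eq_zero _).1 h1
  have hqk0 : ((q : ℕ) : F) ^ kk ≠ 0 := pow_ne_zero _ hqF
  have hu0 : (u : F) ≠ 0 := left_ne_zero_of_mul_eq_one huu'
  have hx0 : (x : F) ≠ 0 := by
    intro h0
    rw [h0, zero_mul] at hxyF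
    exact mul_ne_zero hqk0 hu0 hxyF.symm
  have hy0 : (y : F) ≠ 0 := by
    intro h0
    rw [h0, mul_zero] at hxyF
    exact mul_ne_zero hqk0 hu0 hxyF.symm
  have hxinv : ((q : ℕ) : F) ^ kk * (x : F)⁻¹ = (y : F) * (u' : F) := by
    rw [mul_inv_eq_iff_eq_mul₀ hx0]
    calc ((q : ℕ) : F) ^ kk = ((q : ℕ) : F) ^ kk * ((u : F) * (u' : F)) := by
          rw [huu', mul_one]
      _ = ((x : F) * (y : F)) * (u' : F) := by rw [hxyF]; ring
      _ = (y : F) * (u' : F) * (x : F) := by ring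
  refine ⟨⟨((q : ℕ) : L) ^ kk, pow_ne_zero _ hq, ?_⟩, ?_, ?_, ?_⟩
  · rw [hcast, hxinv]
    exact hST (S.mul_mem y.2 u'.2)
  · rw [hcast]
    have e1 : (x : F) / ((q : ℕ) : F) ^ kk = (u : F) * (y : F)⁻¹ := by
      rw [div_eq_iff hqk0]
      calc (x : F) = ((x : F) * (y : F)) * (y : F)⁻¹ := by
            rw [mul_assoc, mul_inv_cancel₀ hy0, mul_one]
        _ = (u : F) * (y : F)⁻¹ * ((q : ℕ) : F) ^ kk := by rw [hxyF]; ring
    rw [e1]
    exact O₂.mul_mem _ _ (hS₂ _ u.2) hyinv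
  · rw [hcast, inv_div, div_eq_mul_inv, hxinv]
    exact O₂.mul_mem _ _ (hS₂ _ y.2) (hS₂ _ u'.2)
  · rw [hcast]
    exact div_ne_zero hx0 hqk0

theorem inv_smul_eq_div (b : L) (g : F) : b⁻¹ • g = g / algebraMap L F b := by
  rw [Algebra.smul_def, map_inv₀, inv_mul_eq_div]

/-- The integer read-off for normalising constants which are powers of a uniformiser. -/
theorem int_of_zpow {Γ₀ : Type*} [LinearOrderedCommGroupWithZero Γ₀] {v : Valuation L Γ₀}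
    {w : L} (hw0 : w ≠ 0) (hw1 : v w < 1) {q e kk p : ℕ} (hwe : v w ^ e = v ((q : ℕ) : L))
    {N n₁ n₂ m o : ℤ}
    (h : v (w ^ N) = (v ((q : ℕ) : L) ^ kk) ^ (m - p * o) * (v (w ^ n₂) / v (w ^ n₁)) ^ p) :
    N = e * kk * (m - p * o) + p * (n₂ - n₁) := by
  have hv0 : v w ≠ 0 := (Valuation.ne_zero_iff _).2 hw0
  rw [← hwe, map_zpow₀, map_zpow₀, map_zpow₀, ← zpow_sub₀ hv0, ← zpow_natCast (v w) e,
    ← zpow_natCast (v w ^ (e : ℤ)) kk, ← zpow_mul, ← zpow_mul,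
    ← zpow_natCast (v w ^ (n₂ - n₁)) p, ← zpow_mul, ← zpow_add₀ hv0] at h
  have hinj := zpow_right_injective₀ (zero_lt_iff.2 hv0) hw1.ne h
  rw [hinj]
  ring

end Abs

variable {A : ValuationSubring Qb} {k : Type} [Field k] {π : A →+* k} {M q : ℕ} [NeZero M]
  [NeZero q]

/-- **The node ring at the level of `ℚ̄`** at the node `i`: the functions `g` with `t * g ∈ Λ`
for some `t ∈ Λ` whose reduction has a non-zero value at the node, `Λ = O ∩ ⋃ L(n • E1)` (no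
inertia-invariance required). -/
def nodeRingQ (h : BadSetup A π M q)
    (W : laurentBaseChange Qb (modularFunctionFieldFull (M * q)) ≃ₐ[Qb]
      laurentBaseChange Qb (modularFunctionFieldFull (M * q)))
    (E1 : Divisor Qb (laurentBaseChange Qb (modularFunctionFieldFull (M * q))))
    {ι : Type} (e₁ e₂ : ι → Place k (modularFunctionFieldFullC k M)) (i : ι) :
    Subring (laurentBaseChange Qb (modularFunctionFieldFull (M * q))) :=
  Fermat.Agent.TR.Node.NodeRingAbs.nodeRing (redPair h W) ⊤ E1 e₁ e₂ i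

section Datum

variable (h : BadSetup A π M q)
  (W : laurentBaseChange Qb (modularFunctionFieldFull (M * q)) ≃ₐ[Qb]
    laurentBaseChange Qb (modularFunctionFieldFull (M * q)))
  (E1 E2 : Divisor Qb (laurentBaseChange Qb (modularFunctionFieldFull (M * q))))
  {ι : Type}
  (e₁ e₂ : ι → Place k (modularFunctionFieldFullC k M))
  (P₁ Z₁ P₂ Z₂ : Divisor k (modularFunctionFieldFullC k M))
  (hE1 : ∀ v, 0 ≤ E1 v)
  (hS2 : ∃ N₀ : ℕ, ∀ n₁ n₂ : ℕ, N₀ ≤ n₁ + n₂ →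
    ∀ t : ↥(modularFunctionFieldFullC k M) × ↥(modularFunctionFieldFullC k M),
      (∃ y : OPair h W,
          (y : laurentBaseChange Qb (modularFunctionFieldFull (M * q))) ∈
            riemannRochSpace (n₁ • E1 + n₂ • E2) ∧ redPair h W y = t) ↔
        t ∈ gluedSpace e₁ e₂ (fun _ => (1 : k))
          (n₁ • P₁ + n₂ • Z₁) (n₁ • P₂ + n₂ • Z₂))
  (i : ι)

/-- The inertia-fixed node ring is contained in the node ring at the level of `ℚ̄`. -/
theorem nodeRing_le :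
    Fermat.Agent.TR.Node.NodeRing.nodeRing h W E1 e₁ e₂ i ≤ nodeRingQ h W E1 e₁ e₂ i :=
  nodeRingAbs_mono (redPair h W) le_top E1 e₁ e₂ i

/-- The Gauss property of `O_0`, in the `IsU` form. -/
theorem exists_isU_OZero {g : laurentBaseChange Qb (modularFunctionFieldFull (M * q))}
    (hg : g ≠ 0) :
    ∃ c : Qb, c ≠ 0 ∧ IsU (OZero h W)
      (algebraMap Qb (laurentBaseChange Qb (modularFunctionFieldFull (M * q))) c * g) := by
  obtain ⟨a, ha, hm, hne⟩ := exists_scaling_OZero (W := W) h g hg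
  have ha' : algebraMap Qb (laurentBaseChange Qb (modularFunctionFieldFull (M * q))) a ≠ 0 := by
    simpa using ha
  exact ⟨a, ha, hm, inv_mem_OZero h _ hm hne, mul_ne_zero ha' hg⟩

include hE1 hS2 in
/-- **(NEWT) at the node `i`, valuation form.** -/
theorem newt_inst_val {kk : ℕ} {x y u : Fermat.Agent.TR.Node.NodeRing.nodeRing h W E1 e₁ e₂ i}
    (hu : IsUnit u)
    (hxy : x * y = ((q : ℕ) : Fermat.Agent.TR.Node.NodeRing.nodeRing h W E1 e₁ e₂ i) ^ kk * u)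
    (hx1 : (e₁ i).ord (redInf h ⟨x,
      Fermat.Agent.TR.Node.NodeRing.mem_OInf h W E1 e₁ e₂ i x.2⟩) = 1)
    (hy2 : (e₂ i).ord (redZero h W ⟨y,
      Fermat.Agent.TR.Node.NodeRing.mem_OZero h W E1 e₁ e₂ i y.2⟩) = 1)
    {f g : laurentBaseChange Qb (modularFunctionFieldFull (M * q))} {p : ℕ}
    (hf : f ∈ OInf h) (hf' : f⁻¹ ∈ OInf h) (hf0 : f ≠ 0) (hg0 : g ≠ 0)
    (hfg : ∀ P : Place Qb (laurentBaseChange Qb (modularFunctionFieldFull (M * q))),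
      Through (nodeRingQ h W E1 e₁ e₂ i) P → P.ord f = p * P.ord g)
    {b₁ b₂ β : Qb} (hb₁ : b₁ ≠ 0) (hb₂ : b₂ ≠ 0) (hβ : β ≠ 0)
    (hg₁ : g / algebraMap Qb _ b₁ ∈ OInf h) (hg₁' : (g / algebraMap Qb _ b₁)⁻¹ ∈ OInf h)
    (hg₂ : g / algebraMap Qb _ b₂ ∈ OZero h W) (hg₂' : (g / algebraMap Qb _ b₂)⁻¹ ∈ OZero h W)
    (hf₂ : f / algebraMap Qb _ β ∈ OZero h W) (hf₂' : (f / algebraMap Qb _ β)⁻¹ ∈ OZero h W) :
    A.valuation β = (A.valuation ((q : ℕ) : Qb) ^ kk) ^ ((e₁ i).ord (redInf h ⟨f, hf⟩) -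
        p * (e₁ i).ord (redInf h ⟨g / algebraMap Qb _ b₁, hg₁⟩)) *
      (A.valuation b₂ / A.valuation b₁) ^ p := by
  haveI : HasPrincipalDivisors Qb (laurentBaseChange Qb (modularFunctionFieldFull (M * q))) :=
    (isFF1_xL Qb (M * q)).hasPrincipalDivisors
  have hq0 : ((q : ℕ) : Qb) ≠ 0 := Nat.cast_ne_zero.2 (NeZero.ne q)
  -- `y` is a unit of `O_0`
  have hyne : redZero h W ⟨y, Fermat.Agent.TR.Node.NodeRing.mem_OZero h W E1 e₁ e₂ i y.2⟩ ≠ 0 := by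
    intro h0
    rw [h0, Place.ord_zero] at hy2
    exact zero_ne_one hy2
  have hyinv := inv_mem_OZero h _ (Fermat.Agent.TR.Node.NodeRing.mem_OZero h W E1 e₁ e₂ i y.2)
    hyne
  obtain ⟨hxinv, hx₂⟩ := coord_facts (L := Qb) (nodeRing_le h W E1 e₁ e₂ i)
    (fun g hg => Fermat.Agent.TR.Node.NodeRing.mem_OZero h W E1 e₁ e₂ i hg) hq0 hu hxy hyinv
  have hxO := Fermat.Agent.TR.Node.NodeRing.mem_OInf h W E1 e₁ e₂ i x.2
  have hmain := Fermat.Agent.TR.PL.NewtonNode.newt_node_val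
    (A := A) (O := OPair h W) (fun a => OPair_hOA h a) (OPair_hval h) (redPair h W) π
    h.pi_eq_zero_iff (Fermat.Agent.TR.Node.NodeRing.hconst h W) (redPair_eq_zero_iff h)
    E1 e₁ e₂ i (Fermat.Agent.TR.Node.NodeRing.E1_nonneg E1 hE1)
    (Fermat.Agent.TR.Node.NodeRing.charts_E1 h W E1 E2 e₁ e₂ P₁ Z₁ P₂ Z₂ hS2)
    (O₁ := OInf h) (O₂ := OZero h W) (fun g => mem_OPair_iff h g)
    (redInf h) (Fermat.Agent.TR.Node.NodeRing.redInf_eq_zero_iff_nonunit h)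
    (fun y hy => rfl)
    (fun g hg => exists_isU_OZero h W hg)
    (fun c hc => (algebraMap_mem_OZero_iff h c).1 hc)
    (fun g hg => finite_poles_of_ne_zero hg)
    (nodeRing_le h W E1 e₁ e₂ i x.2) hxinv
    (by rw [redT_of_mem (redInf h) hxO]; exact hx1)
    (pow_ne_zero _ hq0) hx₂
    (f := f) (g := g) (p := p) ⟨hf, hf', hf0⟩ hg0 hfg hb₁ hb₂ hβ
    ⟨hg₁, hg₁', div_ne_zero hg0 (by simpa using hb₁)⟩
    ⟨hg₂, hg₂', div_ne_zero hg0 (by simpa using hb₂)⟩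
    ⟨hf₂, hf₂', div_ne_zero hf0 (by simpa using hβ)⟩
  rw [redT_of_mem (redInf h) hf, redT_of_mem (redInf h) hg₁, map_pow] at hmain
  exact hmain

include hE1 hS2 in
/-- **(NEWT) at the node `i`, integer form** (`hrel` of `AssemblyArith.assembly`):
`N = e * kk * m + p * (γ - e * kk * o)`. -/
theorem newt_inst {kk : ℕ} {x y u : Fermat.Agent.TR.Node.NodeRing.nodeRing h W E1 e₁ e₂ i}
    (hu : IsUnit u)
    (hxy : x * y = ((q : ℕ) : Fermat.Agent.TR.Node.NodeRing.nodeRing h W E1 e₁ e₂ i) ^ kk * u)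
    (hx1 : (e₁ i).ord (redInf h ⟨x,
      Fermat.Agent.TR.Node.NodeRing.mem_OInf h W E1 e₁ e₂ i x.2⟩) = 1)
    (hy2 : (e₂ i).ord (redZero h W ⟨y,
      Fermat.Agent.TR.Node.NodeRing.mem_OZero h W E1 e₁ e₂ i y.2⟩) = 1)
    {f g : laurentBaseChange Qb (modularFunctionFieldFull (M * q))} {p : ℕ}
    (hf : f ∈ OInf h) (hf' : f⁻¹ ∈ OInf h) (hf0 : f ≠ 0) (hg0 : g ≠ 0)
    (hfg : ∀ P : Place Qb (laurentBaseChange Qb (modularFunctionFieldFull (M * q))),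
      Through (nodeRingQ h W E1 e₁ e₂ i) P → P.ord f = p * P.ord g)
    {b₁ b₂ β : Qb} (hb₁ : b₁ ≠ 0) (hb₂ : b₂ ≠ 0) (hβ : β ≠ 0)
    (hg₁ : g / algebraMap Qb _ b₁ ∈ OInf h) (hg₁' : (g / algebraMap Qb _ b₁)⁻¹ ∈ OInf h)
    (hg₂ : g / algebraMap Qb _ b₂ ∈ OZero h W) (hg₂' : (g / algebraMap Qb _ b₂)⁻¹ ∈ OZero h W)
    (hf₂ : f / algebraMap Qb _ β ∈ OZero h W) (hf₂' : (f / algebraMap Qb _ β)⁻¹ ∈ OZero h W)
    {w : A.ValueGroup} (hw0 : w ≠ 0) (hw1 : w < 1) {N e γ : ℤ}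
    (hβN : A.valuation β = w ^ N) (hqe : A.valuation ((q : ℕ) : Qb) = w ^ e)
    (hγ : A.valuation b₂ / A.valuation b₁ = w ^ γ) :
    N = e * kk * (e₁ i).ord (redInf h ⟨f, hf⟩) +
      p * (γ - e * kk * (e₁ i).ord (redInf h ⟨g / algebraMap Qb _ b₁, hg₁⟩)) := by
  have hval := newt_inst_val h W E1 E2 e₁ e₂ P₁ Z₁ P₂ Z₂ hE1 hS2 i hu hxy hx1 hy2 hf hf' hf0 hg0
    hfg hb₁ hb₂ hβ hg₁ hg₁' hg₂ hg₂' hf₂ hf₂'
  rw [hβN, hqe, hγ, ← zpow_natCast (w ^ e) kk, ← zpow_mul, ← zpow_mul,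
    ← zpow_natCast (w ^ γ) p, ← zpow_mul, ← zpow_add₀ hw0] at hval
  have hinj := zpow_right_injective₀ (zero_lt_iff.2 hw0) hw1.ne hval
  rw [hinj]
  ring

include hE1 hS2 in
/-- **(NEWT) at the node `i`, in the shape of `Asm.NumericAt`**: the normalising constants are
powers of a uniformiser `w` of `K''` (`SigmaSeam.exists_zpow_unif_inf/zero`), `v w ^ e = v q`.
Then `N = e * kk * a + p * (n₂ - n₁)` and `ord_{e₁ i} (red_∞ f) = a + p * δ`. -/
theorem newt_inst_zpow {kk : ℕ} {x y u : Fermat.Agent.TR.Node.NodeRing.nodeRing h W E1 e₁ e₂ i}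
    (hu : IsUnit u)
    (hxy : x * y = ((q : ℕ) : Fermat.Agent.TR.Node.NodeRing.nodeRing h W E1 e₁ e₂ i) ^ kk * u)
    (hx1 : (e₁ i).ord (redInf h ⟨x,
      Fermat.Agent.TR.Node.NodeRing.mem_OInf h W E1 e₁ e₂ i x.2⟩) = 1)
    (hy2 : (e₂ i).ord (redZero h W ⟨y,
      Fermat.Agent.TR.Node.NodeRing.mem_OZero h W E1 e₁ e₂ i y.2⟩) = 1)
    {f g : laurentBaseChange Qb (modularFunctionFieldFull (M * q))} {p : ℕ}
    (hf : f ∈ OInf h) (hf' : f⁻¹ ∈ OInf h) (hf0 : f ≠ 0) (hg0 : g ≠ 0)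
    (hfg : ∀ P : Place Qb (laurentBaseChange Qb (modularFunctionFieldFull (M * q))),
      Through (nodeRingQ h W E1 e₁ e₂ i) P → P.ord f = p * P.ord g)
    {w : Qb} (hw0 : w ≠ 0) (hw1 : A.valuation w < 1) {e : ℕ}
    (hwe : A.valuation w ^ e = A.valuation ((q : ℕ) : Qb)) {N n₁ n₂ : ℤ}
    (hg₁ : (w ^ n₁)⁻¹ • g ∈ OInf h) (hg₁' : ((w ^ n₁)⁻¹ • g)⁻¹ ∈ OInf h)
    (hg₂ : (w ^ n₂)⁻¹ • g ∈ OZero h W) (hg₂' : ((w ^ n₂)⁻¹ • g)⁻¹ ∈ OZero h W)
    (hf₂ : (w ^ N)⁻¹ • f ∈ OZero h W) (hf₂' : ((w ^ N)⁻¹ • f)⁻¹ ∈ OZero h W) :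
    ∃ a δ : ℤ, N = e * kk * a + p * (n₂ - n₁) ∧
      (e₁ i).ord (redInf h ⟨f, hf⟩) = a + p * δ := by
  rw [inv_smul_eq_div] at hg₁ hg₁' hg₂ hg₂' hf₂ hf₂'
  have hval := newt_inst_val h W E1 E2 e₁ e₂ P₁ Z₁ P₂ Z₂ hE1 hS2 i hu hxy hx1 hy2 hf hf' hf0 hg0
    hfg (zpow_ne_zero n₁ hw0) (zpow_ne_zero n₂ hw0) (zpow_ne_zero N hw0) hg₁ hg₁' hg₂ hg₂' hf₂
    hf₂'
  have hN := int_of_zpow hw0 hw1 hwe hval
  exact ⟨_, (e₁ i).ord (redInf h ⟨g / algebraMap Qb _ (w ^ n₁), hg₁⟩), hN, by ring⟩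

end Datum

end Fermat.Agent.TR.PL.NewtonInst
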