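/-
TR / (PL), instance chain (I2), second seat (helper16): **named suppliers for the instance of
`TR/PL/NewtonKum.lean` at BAD's objects** (helper67's list §3 (e), (g), (h), (i)).

Generic (`NodeRingAbs`/`Through` setting, `Fx = ⊤`):
* `finite_poles` : a nonzero function has finitely many poles (`HasPrincipalDivisors`);
* `hreg_through` : **(g)** the binder `hreg` of `NewtonKum` for `Pts = {P | Through T P}`:
  a nonzero function regular at every place through the node has a constant multiple in the node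
  ring (`Through.exists_smul_mem` + finiteness of the poles).

BAD objects (`h : BadSetup A π M q`, `O_∞ = OInf h`, `O_0 = OZero h W`):
* `hval_OInf`, `hval_OZero` : **(e)** the binder `hval₂`: every nonzero function is a nonzero
  constant times a unit of `O_∞` / `O_0`;
* `hv_OInf`, `hv_OZero` : **(h)** the binder `hv₂`: a constant which is a unit of `O_∞` / `O_0`
  has valuation one.

**(i)** (`IsUnif` for a place, with `hV.ord = Q.ord`) is `CAR.Local.Inst.PlaceBridge`:
`exists_isUnif`, `isUnif_ord_eq`; re-exported here as `exists_isUnif_ord`.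
-/
import Mathlib
import Fermat.Agent.BAD.TwoVal.Semilocal
import Fermat.Agent.Lib.FF.ModLRed
import Fermat.Agent.TR.PL.Through
import Fermat.Agent.TR.PL.NewtonKum
import Fermat.Agent.CAR.Local.Inst.PlaceBridge

set_option autoImplicit false
set_option linter.unusedSectionVars false
set_option linter.unusedVariables false

noncomputable section

namespace Fermat.Agent.TR.PL.NewtonSupply

open AlgebraicCurve ModularCurve WithZero Fermat.Agent.Lib.FF Fermat.Agent.BAD.NodalRiemann
  Fermat.Agent.Lib.Red.Deform Fermat.Agent.TR.Node.NodalLocal Fermat.Agent.TR.Node.NodeRingAbs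
  Fermat.Agent.TR.PL.Through Fermat.Agent.TR.PL.NewtonQ Fermat.Agent.BAD.TwoVal
  Fermat.Agent.CAR.Formal

/-! ### Generic: (REG) in the shape of `NewtonKum.hreg` -/

section Generic

variable {L F : Type*} [Field L] [Field F] [Algebra L F] {A : ValuationSubring L} {O : Subring F}
  {k F₁ F₂ : Type*} [Field k] [Field F₁] [Field F₂] [Algebra k F₁] [Algebra k F₂]
  {ι : Type*}

/-- A nonzero function has finitely many poles. -/
theorem finite_poles [HasPrincipalDivisors L F] {g : F} (hg : g ≠ 0) :
    {P : Place L F | ¬ P.adicValuation g ≤ 1}.Finite := by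
  obtain ⟨D, hD, -⟩ := HasPrincipalDivisors.exists_divisor (K := L) g hg
  refine D.support.finite_toSet.subset fun P hP => ?_
  rw [Set.mem_ofPred_eq, P.not_adicValuation_le_one_iff] at hP
  rw [Finset.mem_coe, Finsupp.mem_support_iff, hD P]
  omega

variable (red : O →+* F₁ × F₂) (E : Divisor L F) (e₁ : ι → Place k F₁) (e₂ : ι → Place k F₂)
  (i : ι)

/-- **(g)**: the binder `hreg` of `NewtonKum` for the places through the node ring
`nodeRing red ⊤ E e₁ e₂ i`. -/
theorem hreg_through [HasPrincipalDivisors L F]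
    (hval : ∀ y : F, y ≠ 0 → ∃ c : L, c ≠ 0 ∧ algebraMap L F c * y ∈ O ∧
      ¬ Small A O (algebraMap L F c * y))
    (hE : 0 ≤ E) :
    ∀ g : F, g ≠ 0 →
      (∀ P ∈ {P : Place L F | Through (nodeRing red ⊤ E e₁ e₂ i) P}, 0 ≤ P.ord g) →
      ∃ b : L, b ≠ 0 ∧ algebraMap L F b * g ∈ nodeRing red ⊤ E e₁ e₂ i := by
  intro g hg0 hg
  exact exists_smul_mem (red := red) (E := E) (e₁ := e₁) (e₂ := e₂) (i := i) hval hE hg0
    (finite_poles hg0) fun P hP => P.adicValuation_le_one_iff.2 (Or.inr (hg P hP))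

/-- **(i)**: a place `Q` has a uniformiser `t` in the sense of `CAR.Formal.IsUnif`, and the
order function of `IsUnif` is `Q.ord`. -/
theorem exists_isUnif_ord (Q : Place L F) :
    ∃ (t : F) (hV : IsUnif Q.toValuationSubring t), ∀ y : F, hV.ord y = Q.ord y := by
  obtain ⟨t, ht⟩ := Fermat.Agent.CAR.Local.Inst.PlaceBridge.exists_isUnif Q
  exact ⟨t, ht, fun y => Fermat.Agent.CAR.Local.Inst.PlaceBridge.isUnif_ord_eq Q ht y⟩

end Generic

/-! ### BAD objects: the two Gauss valuation rings -/

section Bad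

local notation "Qb" => AlgebraicClosure ℚ

variable {A : ValuationSubring Qb} {k : Type} [Field k] {π : A →+* k} {M q : ℕ} [NeZero M]
  [NeZero q]
  {W : laurentBaseChange Qb (modularFunctionFieldFull (M * q)) ≃ₐ[Qb]
    laurentBaseChange Qb (modularFunctionFieldFull (M * q))}

/-- **(e)** for `O_∞`: every nonzero function is a nonzero constant times a unit of `O_∞`. -/
theorem hval_OInf (h : BadSetup A π M q) :
    ∀ g : laurentBaseChange Qb (modularFunctionFieldFull (M * q)), g ≠ 0 →
      ∃ c : Qb, c ≠ 0 ∧ IsU (OInf h) (algebraMap Qb _ c * g) := by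
  intro g hg
  obtain ⟨a, ha, hm, hne⟩ := exists_scaling_OInf h g hg
  refine ⟨a, ha, isU_of_notMem_nonunits hm fun hn => hne ?_⟩
  rw [redInf_eq_zero_iff]
  rw [ValuationSubring.mem_nonunits_iff_exists_mem_maximalIdeal] at hn
  obtain ⟨ha', hmax⟩ := hn
  exact (IsLocalRing.mem_maximalIdeal _).1 hmax

/-- **(e)** for `O_0`: every nonzero function is a nonzero constant times a unit of `O_0`. -/
theorem hval_OZero (h : BadSetup A π M q) :
    ∀ g : laurentBaseChange Qb (modularFunctionFieldFull (M * q)), g ≠ 0 →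
      ∃ c : Qb, c ≠ 0 ∧ IsU (OZero h W) (algebraMap Qb _ c * g) := by
  intro g hg
  obtain ⟨a, ha, hm, hne⟩ := exists_scaling_OZero (W := W) h g hg
  refine ⟨a, ha, isU_of_notMem_nonunits hm fun hn => hne ?_⟩
  rw [redZero_eq_zero_iff]
  rw [ValuationSubring.mem_nonunits_iff_exists_mem_maximalIdeal] at hn
  obtain ⟨ha', hmax⟩ := hn
  exact (IsLocalRing.mem_maximalIdeal _).1 hmax

omit [NeZero M] [NeZero q] in
/-- A nonzero constant `c` with `c, c⁻¹ ∈ A` has valuation one. -/
theorem valuation_eq_one_of_mem {c : Qb} (hc0 : c ≠ 0) (hc : c ∈ A) (hc' : c⁻¹ ∈ A) :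
    A.valuation c = 1 := by
  have h1 := (A.valuation_le_one_iff c).2 hc
  have h2 := (A.valuation_le_one_iff c⁻¹).2 hc'
  rw [map_inv₀] at h2
  refine le_antisymm h1 ?_
  by_contra hlt
  push Not at hlt
  have hpos : 0 < A.valuation c := by
    rw [pos_iff_ne_zero]
    exact (Valuation.ne_zero_iff _).2 hc0
  exact absurd h2 (not_le.2 ((one_lt_inv₀ hpos).2 hlt))

/-- **(h)** for `O_∞`: a constant which is a unit of `O_∞` has valuation one. -/
theorem hv_OInf (h : BadSetup A π M q) :
    ∀ c : Qb, IsU (OInf h) (algebraMap Qb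
      (laurentBaseChange Qb (modularFunctionFieldFull (M * q))) c) → A.valuation c = 1 := by
  intro c hc
  have hc0 : c ≠ 0 := fun h0 => hc.2.2 (by rw [h0, map_zero])
  refine valuation_eq_one_of_mem hc0 ((algebraMap_mem_OInf_iff h c).1 hc.1) ?_
  have h2 := hc.2.1
  rw [← map_inv₀] at h2
  exact (algebraMap_mem_OInf_iff h c⁻¹).1 h2

/-- **(h)** for `O_0`: a constant which is a unit of `O_0` has valuation one. -/
theorem hv_OZero (h : BadSetup A π M q) :
    ∀ c : Qb, IsU (OZero h W) (algebraMap Qb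
      (laurentBaseChange Qb (modularFunctionFieldFull (M * q))) c) → A.valuation c = 1 := by
  intro c hc
  have hc0 : c ≠ 0 := fun h0 => hc.2.2 (by rw [h0, map_zero])
  refine valuation_eq_one_of_mem hc0 ((algebraMap_mem_OZero_iff h c).1 hc.1) ?_
  have h2 := hc.2.1
  rw [← map_inv₀] at h2
  exact (algebraMap_mem_OZero_iff h c⁻¹).1 h2

/-- **(g)** at BAD's objects: the binder `hreg` of `NewtonKum` for the `ℚ̄`-level node ring
`Fermat.Agent.TR.Node.NodeRingAbs.nodeRing (redPair h W) ⊤ E e₁ e₂ i` and `Pts = {P | Through T P}`. -/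
theorem hreg_bad (h : BadSetup A π M q)
    (E : Divisor Qb (laurentBaseChange Qb (modularFunctionFieldFull (M * q)))) (hE : 0 ≤ E)
    {ι : Type*} (e₁ e₂ : ι → Place k (modularFunctionFieldFullC k M)) (i : ι) :
    ∀ g : laurentBaseChange Qb (modularFunctionFieldFull (M * q)), g ≠ 0 →
      (∀ P ∈ {P : Place Qb (laurentBaseChange Qb (modularFunctionFieldFull (M * q))) |
          Through (Fermat.Agent.TR.Node.NodeRingAbs.nodeRing (redPair h W) ⊤ E e₁ e₂ i) P}, 0 ≤ P.ord g) →
      ∃ b : Qb, b ≠ 0 ∧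
        algebraMap Qb _ b * g ∈ Fermat.Agent.TR.Node.NodeRingAbs.nodeRing (redPair h W) ⊤ E e₁ e₂ i := by
  have := (Fermat.Agent.Lib.FF.isFF1_xL Qb (M * q)).hasPrincipalDivisors
  exact hreg_through (redPair h W) E e₁ e₂ i (OPair_hval h) hE

end Bad

end Fermat.Agent.TR.PL.NewtonSupply
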