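import Mathlib
import Fermat.Agent.TR.PL.NodeCong

/-!
# TR / (PL), wild case: NodeCong in the literal of `ConstInst.dvd_gamma_sub_bad`

* `node_cong_bad` : for ONE node, the conjunction of the four per-node binders
  `hH₁`, `hc`, `hH₂`, `hcγ` of `ConstInst.dvd_gamma_sub_bad`, verbatim, with
  `Hs := σ G / G`, `G := (w ^ n₁)⁻¹ • g`, `c := (1 + η) ^ (n₂ − n₁)`, `γ := n₂ − n₁`,
  from the clauses of the wild frame (`IsUnif`, `(Sa)` valuation form, `σ w = w (1 + η)`,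
  `η = w ^ t u`, `v(u) = 1`, `η ∈ K''`, `1 ≤ t`);
* `node_cong_family` : the same for a family of nodes, as the four `∀ i` binders.
-/

set_option autoImplicit false
set_option linter.unusedSectionVars false
set_option linter.style.haveILetI false

namespace Fermat.Agent.TR.PL.NodeCongBad

open HahnSeries ModularCurve AlgebraicCurve Fermat.Agent.Lib.Red Fermat.Agent.BAD.TwoVal
open Fermat.Agent.BAD.LatFixed Fermat.Agent.BAD.LatFixedInst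
open Fermat.Agent.TR.PL.Frame Fermat.Agent.TR.PL.LocalField Fermat.Agent.TR.PL.BaseChangeSigma
open Fermat.Agent.TR.PL.SigmaSeam Fermat.Agent.TR.PL.ConstFrame Fermat.Agent.CAR.K0
open Fermat.Agent.TR.PL.NodeCong

local notation "Qb" => AlgebraicClosure ℚ
local notation "GQ" => (AlgebraicClosure ℚ ≃ₐ[ℚ] AlgebraicClosure ℚ)

noncomputable section

variable {p : ℕ} [Fact p.Prime] [NeZero p] {A : ValuationSubring Qb} {k : Type} [Field k]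
  {π : A →+* k} {M : ℕ} [NeZero M]
  {W : laurentBaseChange Qb (modularFunctionFieldFull (M * p)) ≃ₐ[Qb]
    laurentBaseChange Qb (modularFunctionFieldFull (M * p))}
  (hA : A.LiesOverPrime p) (h : BadSetup A π M p) (hsurj : Function.Surjective π)
  (hW : IsAL M p W) {H : Subgroup GQ} (hH : H ≤ A.inertiaSubgroupIn ℚ)
  (hidx : H.relIndex (A.inertiaSubgroupIn ℚ) ≠ 0)

include hA hsurj hW hidx in
/-- **NodeCong, one node, in the literal of `ConstInst.dvd_gamma_sub_bad`**: the conjunction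
`hH₁ ∧ hc ∧ hH₂ ∧ hcγ` for `Hs := σ G / G`, `G := (w ^ n₁)⁻¹ • g`, `c := (1 + η) ^ (n₂ − n₁)`,
`γ := n₂ − n₁`. -/
theorem node_cong_bad {σ : GQ} (hσ : σ ∈ A.inertiaSubgroupIn ℚ) {w η u₀ : Qb} {t : ℕ}
    (hU : IsUnif A (fixK A H hH) w)
    (hlip : ∀ c : Qb, c ∈ A → c ∈ fixK A H hH →
      A.valuation (σ c - c) ≤ A.valuation (σ w - w))
    (hσw : σ w = w * (1 + η)) (hη : η = w ^ t * u₀) (hu₀ : A.valuation u₀ = 1)
    (hηK : η ∈ fixK A H hH) (ht : 1 ≤ t)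
    {g : laurentBaseChange Qb (modularFunctionFieldFull (M * p))}
    (hg : g ∈ fixedFunOf (H : Set GQ) (M * p)) (hg0 : g ≠ 0) {n₁ n₂ : ℤ}
    (hi : (w ^ n₁)⁻¹ • g ∈ OInf h) (hi' : ((w ^ n₁)⁻¹ • g)⁻¹ ∈ OInf h)
    (h0 : (w ^ n₂)⁻¹ • g ∈ OZero h W) (h0' : ((w ^ n₂)⁻¹ • g)⁻¹ ∈ OZero h W) :
    (arithmeticGalois (L := Qb) (modularFunctionFieldFull (M * p)) σ • ((w ^ n₁)⁻¹ • g) /
        ((w ^ n₁)⁻¹ • g) - 1) /
      algebraMap Qb (laurentBaseChange Qb (modularFunctionFieldFull (M * p))) w ^ (t + 1) ∈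
        OInf h ∧
    ((1 + η) ^ (n₂ - n₁) ∈ fixedSubfieldOf (H : Set GQ) ∧
      A.valuation ((1 + η) ^ (n₂ - n₁) - 1) < 1) ∧
    (arithmeticGalois (L := Qb) (modularFunctionFieldFull (M * p)) σ • ((w ^ n₁)⁻¹ • g) /
        ((w ^ n₁)⁻¹ • g) - algebraMap Qb _ ((1 + η) ^ (n₂ - n₁))) /
      algebraMap Qb (laurentBaseChange Qb (modularFunctionFieldFull (M * p))) w ^ (t + 1) ∈
        OZero h W ∧
    ∃ b ∈ A, (1 + η) ^ (n₂ - n₁) - (1 + ((n₂ - n₁ : ℤ) : Qb) * η) = w ^ (t + 1) * b := by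
  have hu₀A : u₀ ∈ A := (A.valuation_le_one_iff u₀).1 hu₀.le
  obtain ⟨h1, h2, h3, h4⟩ := node_cong hA h hsurj hW hH hidx hσ
    (mem_fixedSubfieldOf_iff_mem_fixK.2 hU.1) hU.2.1 hU.2.2.1 hlip hσw hη hu₀A ht hg hg0
    hi hi' h0 h0'
  have hcK : (1 + η) ^ (n₂ - n₁) ∈ fixedSubfieldOf (H : Set GQ) :=
    zpow_mem (add_mem (one_mem _) (mem_fixedSubfieldOf_iff_mem_fixK.2 hηK)) _
  exact ⟨h1, ⟨hcK, h4⟩, h2, h3⟩

include hA hsurj hW hidx in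
/-- **NodeCong for a family of nodes**: the four binders `hH₁`, `hc`, `hH₂`, `hcγ` of
`ConstInst.dvd_gamma_sub_bad` at
`Hs i := σ G_i / G_i`, `G_i := (w ^ n₁ i)⁻¹ • g i`, `c i := (1 + η) ^ (n₂ i − n₁ i)`,
`γ i := n₂ i − n₁ i`. -/
theorem node_cong_family {ι : Type*} {σ : GQ} (hσ : σ ∈ A.inertiaSubgroupIn ℚ) {w η u₀ : Qb}
    {t : ℕ} (hU : IsUnif A (fixK A H hH) w)
    (hlip : ∀ c : Qb, c ∈ A → c ∈ fixK A H hH →
      A.valuation (σ c - c) ≤ A.valuation (σ w - w))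
    (hσw : σ w = w * (1 + η)) (hη : η = w ^ t * u₀) (hu₀ : A.valuation u₀ = 1)
    (hηK : η ∈ fixK A H hH) (ht : 1 ≤ t)
    (g : ι → laurentBaseChange Qb (modularFunctionFieldFull (M * p))) (n₁ n₂ : ι → ℤ)
    (hg0 : ∀ i, g i ≠ 0) (hg : ∀ i, g i ∈ fixedFunOf (H : Set GQ) (M * p))
    (hi : ∀ i, (w ^ n₁ i)⁻¹ • g i ∈ OInf h) (hi' : ∀ i, ((w ^ n₁ i)⁻¹ • g i)⁻¹ ∈ OInf h)
    (h0 : ∀ i, (w ^ n₂ i)⁻¹ • g i ∈ OZero h W)
    (h0' : ∀ i, ((w ^ n₂ i)⁻¹ • g i)⁻¹ ∈ OZero h W) :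
    (∀ i, ((fun i => arithmeticGalois (L := Qb) (modularFunctionFieldFull (M * p)) σ •
          ((w ^ n₁ i)⁻¹ • g i) / ((w ^ n₁ i)⁻¹ • g i)) i - 1) /
        algebraMap Qb (laurentBaseChange Qb (modularFunctionFieldFull (M * p))) w ^ (t + 1) ∈
          OInf h) ∧
    (∀ i, (fun i => (1 + η) ^ (n₂ i - n₁ i)) i ∈ fixedSubfieldOf (H : Set GQ) ∧
      A.valuation ((fun i => (1 + η) ^ (n₂ i - n₁ i)) i - 1) < 1) ∧
    (∀ i, ((fun i => arithmeticGalois (L := Qb) (modularFunctionFieldFull (M * p)) σ •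
          ((w ^ n₁ i)⁻¹ • g i) / ((w ^ n₁ i)⁻¹ • g i)) i -
          algebraMap Qb _ ((fun i => (1 + η) ^ (n₂ i - n₁ i)) i)) /
        algebraMap Qb (laurentBaseChange Qb (modularFunctionFieldFull (M * p))) w ^ (t + 1) ∈
          OZero h W) ∧
    ∀ i, ∃ b ∈ A, (fun i => (1 + η) ^ (n₂ i - n₁ i)) i -
      (1 + (((fun i => n₂ i - n₁ i) i : ℤ) : Qb) * η) = w ^ (t + 1) * b :=
  ⟨fun i => (node_cong_bad hA h hsurj hW hH hidx hσ hU hlip hσw hη hu₀ hηK ht (hg i) (hg0 i)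
      (hi i) (hi' i) (h0 i) (h0' i)).1,
    fun i => (node_cong_bad hA h hsurj hW hH hidx hσ hU hlip hσw hη hu₀ hηK ht (hg i) (hg0 i)
      (hi i) (hi' i) (h0 i) (h0' i)).2.1,
    fun i => (node_cong_bad hA h hsurj hW hH hidx hσ hU hlip hσw hη hu₀ hηK ht (hg i) (hg0 i)
      (hi i) (hi' i) (h0 i) (h0' i)).2.2.1,
    fun i => (node_cong_bad hA h hsurj hW hH hidx hσ hU hlip hσw hη hu₀ hηK ht (hg i) (hg0 i)
      (hi i) (hi' i) (h0 i) (h0' i)).2.2.2⟩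

end

end Fermat.Agent.TR.PL.NodeCongBad
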