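/-
TR / (PL), row TR-PLD — THE NODE-LOCAL LEMMA, abstract form (Mathlib only).

Setting: `L ⊆ F` fields (`L` = constants, `F` = function field), `A` a valuation subring of `L`,
`O₁, O₂` valuation subrings of `F` with `O_j ∩ L = A` (the two Gauss valuations), `R` a subring of
`F` (the local ring of the model at a node `s`, over `A`) with

* (glue) no `g ∈ R` has `g ∈ 𝔪(O₁)` and `g - 1 ∈ 𝔪(O₂)` (both reductions have the same value at
  the node),
* (sat) `g ∈ O₁ ∩ O₂`, `c • g ∈ R` for a constant `c ≠ 0` implies `g ∈ R`.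

Results.
* `glue_const` : if `Y ∈ R`, `Y ≡ a₁ mod π·O₁`, `Y ≡ a₂ mod π·O₂` with constants `a₁ a₂ ∈ A`,
  then `a₁ ≡ a₂ mod π·A`.
* `orbit_congr` : for a node coordinate `ξ` (`ξ ∈ O₁ˣ`, `ξ = q·ω`, `ω ∈ O₂`), roots `a i` in the
  open annulus `|q| < |a i| < 1` whose polynomial `N = ∏ (X - a i)` has coefficients in a subfield
  `K₂`, and an automorphism `σ` of `L` with `σ ≡ id mod ϖη` on `K₂ ∩ A` and
  `σ c = c (1 + ord c · η + ϖη·w)` on `K₂ˣ`: the function `h = σN(ξ) / N(ξ)` satisfies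
  `h ≡ 1 mod ϖη·O₁` and `h ≡ 1 + ord (N 0) · η mod ϖη·O₂`.
* `node_local` : if `Ψ ≡ a₁ mod ϖη·O₁`, `Ψ ≡ a₂ mod ϖη·O₂` and
  `Ψ · ∏_j (N_j(ξ) / σN_j(ξ)) ^ n_j ∈ R`, then
  `a₁ ≡ a₂ · (1 - (∑_j n_j · ord (N_j 0)) · η) mod ϖη·A`.
-/
import Mathlib

set_option autoImplicit false

namespace Fermat.Agent.TR.PL.NodeLocalAbs

open Polynomial

variable {L F : Type*} [Field L] [Field F] [Algebra L F]

/-- `x ∈ c·O`: the element `x` of `F` is divisible by the constant `c` in `O`. -/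
def DvdC (O : ValuationSubring F) (c : L) (x : F) : Prop :=
  ∃ z ∈ O, x = algebraMap L F c * z

namespace DvdC

variable {O : ValuationSubring F} {c : L} {x y : F}

theorem zero : DvdC O c (0 : F) := ⟨0, O.zero_mem, by rw [mul_zero]⟩

theorem add (hx : DvdC O c x) (hy : DvdC O c y) : DvdC O c (x + y) := by
  obtain ⟨z, hz, rfl⟩ := hx
  obtain ⟨z', hz', rfl⟩ := hy
  exact ⟨z + z', O.add_mem _ _ hz hz', by rw [mul_add]⟩

theorem neg (hx : DvdC O c x) : DvdC O c (-x) := by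
  obtain ⟨z, hz, rfl⟩ := hx
  exact ⟨-z, O.neg_mem _ hz, by rw [mul_neg]⟩

theorem sub (hx : DvdC O c x) (hy : DvdC O c y) : DvdC O c (x - y) := by
  rw [sub_eq_add_neg]
  exact hx.add hy.neg

theorem mul_right (hx : DvdC O c x) (hy : y ∈ O) : DvdC O c (x * y) := by
  obtain ⟨z, hz, rfl⟩ := hx
  exact ⟨z * y, O.mul_mem _ _ hz hy, by rw [mul_assoc]⟩

theorem mul_left (hx : DvdC O c x) (hy : y ∈ O) : DvdC O c (y * x) := by
  rw [mul_comm]
  exact hx.mul_right hy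

theorem const_mul {d : L} (hd : algebraMap L F d ∈ O) (hz : y ∈ O) :
    DvdC O c (algebraMap L F (c * d) * y) :=
  ⟨algebraMap L F d * y, O.mul_mem _ _ hd hz, by rw [map_mul, mul_assoc]⟩

theorem of_mul {d : L} (hd : algebraMap L F d ∈ O) (hx : DvdC O (c * d) x) : DvdC O c x := by
  obtain ⟨z, hz, rfl⟩ := hx
  exact ⟨algebraMap L F d * z, O.mul_mem _ _ hd hz, by rw [map_mul, mul_assoc]⟩

theorem mem (hc : algebraMap L F c ∈ O) (hx : DvdC O c x) : x ∈ O := by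
  obtain ⟨z, hz, rfl⟩ := hx
  exact O.mul_mem _ _ hc hz

theorem sum {ι : Type*} (s : Finset ι) (f : ι → F) (h : ∀ i ∈ s, DvdC O c (f i)) :
    DvdC O c (∑ i ∈ s, f i) := by
  classical
  induction s using Finset.induction_on with
  | empty => simpa using (zero : DvdC O c (0 : F))
  | insert i s hi ih =>
    rw [Finset.sum_insert hi]
    exact (h i (Finset.mem_insert_self _ _)).add
      (ih fun j hj => h j (Finset.mem_insert_of_mem hj))

end DvdC

section Const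

variable (A : ValuationSubring L) (O : ValuationSubring F)
  (hO : ∀ a : L, algebraMap L F a ∈ O ↔ a ∈ A)

include hO

/-- A constant of absolute value `< 1` is a non-unit of `O`. -/
theorem const_val_lt_one {a : L} (ha : A.valuation a < 1) :
    O.valuation (algebraMap L F a) < 1 := by
  by_cases h0 : a = 0
  · rw [h0, map_zero, map_zero]
    exact zero_lt_one
  · by_contra hcon
    have h1 : O.valuation ((algebraMap L F a)⁻¹) ≤ 1 := by
      rw [map_inv₀]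
      exact inv_le_one_of_one_le₀ (not_lt.1 hcon)
    rw [← map_inv₀, ValuationSubring.valuation_le_one_iff, hO,
      ← ValuationSubring.valuation_le_one_iff, map_inv₀] at h1
    have h2 : (1 : A.ValueGroup) ≤ A.valuation a := by
      by_contra h3
      have h4 : A.valuation a ≠ 0 := (Valuation.ne_zero_iff _).2 h0
      have h5 : 1 < (A.valuation a)⁻¹ := (one_lt_inv₀ (zero_lt_iff.2 h4)).2 (not_le.1 h3)
      exact absurd h1 (not_le.2 h5)
    exact absurd ha (not_lt.2 h2)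

theorem const_mem {a : L} (ha : a ∈ A) : algebraMap L F a ∈ O := (hO a).2 ha

omit hO in
theorem mem_of_val_lt_one {a : L} (ha : A.valuation a < 1) : a ∈ A :=
  (ValuationSubring.valuation_le_one_iff A a).1 ha.le

end Const

/-! ### The gluing lemma -/

/-- **Gluing of constants at a node.** -/
theorem glue_const (A : ValuationSubring L) (O₁ O₂ : ValuationSubring F)
    (hO₁ : ∀ a : L, algebraMap L F a ∈ O₁ ↔ a ∈ A)
    (hO₂ : ∀ a : L, algebraMap L F a ∈ O₂ ↔ a ∈ A)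
    (R : Subring F) (hRA : ∀ a ∈ A, algebraMap L F a ∈ R)
    (hglue : ∀ g ∈ R, O₁.valuation g < 1 → O₂.valuation (g - 1) < 1 → False)
    (hsat : ∀ (c : L) (g : F), c ≠ 0 → g ∈ O₁ → g ∈ O₂ → algebraMap L F c * g ∈ R → g ∈ R)
    (π : L) {Y : F} (hY : Y ∈ R) {a₁ a₂ : L} (ha₁ : a₁ ∈ A) (_ha₂ : a₂ ∈ A)
    (h₁ : DvdC O₁ π (Y - algebraMap L F a₁)) (h₂ : DvdC O₂ π (Y - algebraMap L F a₂)) :
    ∃ w ∈ A, a₁ - a₂ = π * w := by
  obtain ⟨z₁, hz₁, e₁⟩ := h₁
  obtain ⟨z₂, hz₂, e₂⟩ := h₂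
  by_cases hc : a₂ - a₁ = 0
  · exact ⟨0, A.zero_mem, by rw [mul_zero, ← neg_sub, hc, neg_zero]⟩
  by_cases hπ : π = 0
  · exfalso
    rw [hπ, map_zero, zero_mul, sub_eq_zero] at e₁ e₂
    exact hc (sub_eq_zero.2 ((algebraMap L F).injective (e₂.symm.trans e₁)))
  by_cases h : (a₂ - a₁) / π ∈ A
  · exact ⟨-((a₂ - a₁) / π), A.neg_mem _ h, by field_simp; ring⟩
  exfalso
  -- `d := π / c` is a non-unit constant
  have hd1 : A.valuation (π / (a₂ - a₁)) < 1 := by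
    by_contra hcon
    apply h
    rw [← ValuationSubring.valuation_le_one_iff]
    have e : (a₂ - a₁) / π = (π / (a₂ - a₁))⁻¹ := by rw [inv_div]
    rw [e, map_inv₀]
    exact inv_le_one_of_one_le₀ (not_lt.1 hcon)
  have hd₁ := const_val_lt_one A O₁ hO₁ hd1
  have hd₂ := const_val_lt_one A O₂ hO₂ hd1
  have hcF : algebraMap L F (a₂ - a₁) ≠ 0 := by
    rw [Ne, map_eq_zero]; exact hc
  -- `g := (Y - a₁) / c`
  have hg₁ : algebraMap L F (π / (a₂ - a₁)) * z₁
      = (algebraMap L F (a₂ - a₁))⁻¹ * (Y - algebraMap L F a₁) := by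
    rw [e₁, map_div₀]; field_simp
  have hg₂ : algebraMap L F (π / (a₂ - a₁)) * z₁ - 1
      = algebraMap L F (π / (a₂ - a₁)) * z₂ := by
    have e₂' : algebraMap L F (π / (a₂ - a₁)) * z₂
        = (algebraMap L F (a₂ - a₁))⁻¹ * (Y - algebraMap L F a₂) := by
      rw [e₂, map_div₀]; field_simp
    rw [hg₁, e₂']
    have e3 : algebraMap L F a₂ = algebraMap L F (a₂ - a₁) + algebraMap L F a₁ := by
      rw [map_sub]; ring
    rw [e3]
    field_simp
    ring
  have hv₁ : O₁.valuation (algebraMap L F (π / (a₂ - a₁)) * z₁) < 1 := by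
    rw [map_mul]
    exact lt_of_le_of_lt (mul_le_of_le_one_right' ((ValuationSubring.valuation_le_one_iff O₁ _).2 hz₁))
      hd₁
  have hv₂ : O₂.valuation (algebraMap L F (π / (a₂ - a₁)) * z₁ - 1) < 1 := by
    rw [hg₂, map_mul]
    exact lt_of_le_of_lt (mul_le_of_le_one_right' ((ValuationSubring.valuation_le_one_iff O₂ _).2 hz₂))
      hd₂
  have hm₁ : algebraMap L F (π / (a₂ - a₁)) * z₁ ∈ O₁ :=
    (ValuationSubring.valuation_le_one_iff O₁ _).1 hv₁.le
  have hm₂ : algebraMap L F (π / (a₂ - a₁)) * z₁ ∈ O₂ := by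
    have : algebraMap L F (π / (a₂ - a₁)) * z₁
        = (algebraMap L F (π / (a₂ - a₁)) * z₁ - 1) + 1 := by ring
    rw [this]
    exact O₂.add_mem _ _ ((ValuationSubring.valuation_le_one_iff O₂ _).1 hv₂.le) O₂.one_mem
  have hR : algebraMap L F (a₂ - a₁) * (algebraMap L F (π / (a₂ - a₁)) * z₁) ∈ R := by
    rw [hg₁, ← mul_assoc, mul_inv_cancel₀ hcF, one_mul]
    exact R.sub_mem hY (hRA _ ha₁)
  exact hglue _ (hsat _ _ hc hm₁ hm₂ hR) hv₁ hv₂

/-! ### Congruences `u ≡ 1 + m·η mod ϖη·O` -/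

/-- `u ≡ 1 + m·η` modulo `ϖη·O`. -/
def E (O : ValuationSubring F) (ϖ η : L) (u : F) (m : ℤ) : Prop :=
  DvdC O (ϖ * η) (u - algebraMap L F (1 + (m : L) * η))

section E

variable (A : ValuationSubring L) (O : ValuationSubring F)
  (hO : ∀ a : L, algebraMap L F a ∈ O ↔ a ∈ A)
  {ϖ η : L} (hϖ : A.valuation ϖ < 1) (hη : ∃ w ∈ A, η = ϖ * w)

include hϖ hη in
theorem eta_mem : η ∈ A := by
  obtain ⟨w, hw, rfl⟩ := hη
  exact A.mul_mem _ _ (mem_of_val_lt_one A hϖ) hw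

include hϖ hη in
theorem one_add_mem (m : ℤ) : 1 + (m : L) * η ∈ A :=
  A.add_mem _ _ A.one_mem (A.mul_mem _ _ (intCast_mem A m) (eta_mem A hϖ hη))

include hϖ hη in
theorem pi_mem : ϖ * η ∈ A := A.mul_mem _ _ (mem_of_val_lt_one A hϖ) (eta_mem A hϖ hη)

variable {u u' : F} {m m' : ℤ}

include hO hϖ hη

theorem E.mem (h : E O ϖ η u m) : u ∈ O := by
  have h1 : u = (u - algebraMap L F (1 + (m : L) * η)) + algebraMap L F (1 + (m : L) * η) := by
    ring
  rw [h1]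
  exact O.add_mem _ _ (DvdC.mem (const_mem A O hO (pi_mem A hϖ hη)) h)
    (const_mem A O hO (one_add_mem A hϖ hη m))

theorem E.val_sub_one (h : E O ϖ η u m) : O.valuation (u - 1) < 1 := by
  obtain ⟨z, hz, e⟩ := h
  obtain ⟨w, hw, rfl⟩ := hη
  have h1 : u - 1 = algebraMap L F ϖ *
      (algebraMap L F (ϖ * w) * z + algebraMap L F ((m : L) * w)) := by
    have : u - 1 = (u - algebraMap L F (1 + (m : L) * (ϖ * w)))
        + algebraMap L F ((m : L) * (ϖ * w)) := by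
      rw [map_add, map_one]; ring
    rw [this, e]
    simp only [map_mul]
    ring
  rw [h1, map_mul]
  have hmem : algebraMap L F (ϖ * w) * z + algebraMap L F ((m : L) * w) ∈ O :=
    O.add_mem _ _ (O.mul_mem _ _ (const_mem A O hO
        (A.mul_mem _ _ (mem_of_val_lt_one A hϖ) hw)) hz)
      (const_mem A O hO (A.mul_mem _ _ (intCast_mem A m) hw))
  exact lt_of_le_of_lt
    (mul_le_of_le_one_right' ((ValuationSubring.valuation_le_one_iff O _).2 hmem))
    (const_val_lt_one A O hO hϖ)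

theorem E.val_eq_one (h : E O ϖ η u m) : O.valuation u = 1 := by
  have h1 : u = 1 + (u - 1) := by ring
  rw [h1]
  exact (O.valuation).map_one_add_of_lt (h.val_sub_one A O hO hϖ hη)

theorem E.ne_zero (h : E O ϖ η u m) : u ≠ 0 := by
  intro h0
  have := h.val_eq_one A O hO hϖ hη
  rw [h0, map_zero] at this
  exact zero_ne_one this

theorem E.inv_mem (h : E O ϖ η u m) : u⁻¹ ∈ O := by
  rw [← ValuationSubring.valuation_le_one_iff, map_inv₀, h.val_eq_one A O hO hϖ hη, inv_one]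

omit hO hϖ hη in
theorem E.one : E O ϖ η (1 : F) 0 := by
  unfold E
  have : (1 : F) - algebraMap L F (1 + ((0 : ℤ) : L) * η) = 0 := by simp
  rw [this]
  exact DvdC.zero

theorem E.mul (h : E O ϖ η u m) (h' : E O ϖ η u' m') : E O ϖ η (u * u') (m + m') := by
  have hu' := h'.mem A O hO hϖ hη
  obtain ⟨w, hw, hηw⟩ := hη
  have hηA : η ∈ A := eta_mem A hϖ ⟨w, hw, hηw⟩
  have e : u * u' - algebraMap L F (1 + ((m + m' : ℤ) : L) * η)
      = (u - algebraMap L F (1 + (m : L) * η)) * u'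
        + algebraMap L F (1 + (m : L) * η) * (u' - algebraMap L F (1 + (m' : L) * η))
        + algebraMap L F (ϖ * η * ((m : L) * (m' : L) * w)) * 1 := by
    have e2 : (ϖ * η * ((m : L) * (m' : L) * w)) = (m : L) * (m' : L) * η * η := by
      rw [hηw]; ring
    rw [e2]
    simp only [map_add, map_mul, map_one, Int.cast_add]
    ring
  unfold E
  rw [e]
  refine ((DvdC.mul_right h hu').add (DvdC.mul_left h'
    (const_mem A O hO (one_add_mem A hϖ ⟨w, hw, hηw⟩ m)))).add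
    (DvdC.const_mul (const_mem A O hO (A.mul_mem _ _ (A.mul_mem _ _ (intCast_mem A m)
      (intCast_mem A m')) hw)) O.one_mem)

theorem E.inv (h : E O ϖ η u m) : E O ϖ η u⁻¹ (-m) := by
  have hu0 := h.ne_zero A O hO hϖ hη
  have hinv := h.inv_mem A O hO hϖ hη
  obtain ⟨w, hw, hηw⟩ := hη
  have e : u⁻¹ - algebraMap L F (1 + ((-m : ℤ) : L) * η)
      = (algebraMap L F (ϖ * η * ((m : L) * (m : L) * w)) * 1
        - algebraMap L F (1 + ((-m : ℤ) : L) * η) * (u - algebraMap L F (1 + (m : L) * η)))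
        * u⁻¹ := by
    have e2 : (ϖ * η * ((m : L) * (m : L) * w)) = (m : L) * (m : L) * η * η := by
      rw [hηw]; ring
    rw [e2]
    simp only [map_add, map_mul, map_one, Int.cast_neg, map_neg]
    field_simp
    ring
  unfold E
  rw [e]
  refine DvdC.mul_right ((DvdC.const_mul (const_mem A O hO (A.mul_mem _ _ (A.mul_mem _ _
    (intCast_mem A m) (intCast_mem A m)) hw)) O.one_mem).sub (DvdC.mul_left h
    (const_mem A O hO (one_add_mem A hϖ ⟨w, hw, hηw⟩ (-m))))) hinv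

theorem E.pow (h : E O ϖ η u m) (n : ℕ) : E O ϖ η (u ^ n) (n * m) := by
  induction n with
  | zero =>
    rw [pow_zero, Nat.cast_zero, zero_mul]
    exact E.one O
  | succ n ih =>
    have := E.mul A O hO hϖ hη ih h
    rw [pow_succ]
    have e : ((n + 1 : ℕ) : ℤ) * m = n * m + m := by push_cast; ring
    rw [e]
    exact this

theorem E.zpow (h : E O ϖ η u m) (n : ℤ) : E O ϖ η (u ^ n) (n * m) := by
  cases n with
  | ofNat n =>
    rw [Int.ofNat_eq_natCast, zpow_natCast]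
    exact h.pow A O hO hϖ hη n
  | negSucc n =>
    rw [zpow_negSucc]
    have := (h.pow A O hO hϖ hη (n + 1)).inv A O hO hϖ hη
    have e : Int.negSucc n * m = -(((n + 1 : ℕ) : ℤ) * m) := by
      rw [Int.negSucc_eq]; push_cast; ring
    rw [e]
    exact this

theorem E.prod {J : Type*} (T : Finset J) (u : J → F) (m : J → ℤ)
    (h : ∀ j ∈ T, E O ϖ η (u j) (m j)) : E O ϖ η (∏ j ∈ T, u j) (∑ j ∈ T, m j) := by
  classical
  induction T using Finset.induction_on with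
  | empty =>
    rw [Finset.prod_empty, Finset.sum_empty]
    exact E.one O
  | insert j T hj ih =>
    rw [Finset.prod_insert hj, Finset.sum_insert hj]
    exact E.mul A O hO hϖ hη (h j (Finset.mem_insert_self _ _))
      (ih fun i hi => h i (Finset.mem_insert_of_mem hi))

end E

/-! ### Polynomial lemmas -/

section Poly

variable (A : ValuationSubring L)

/-- Evaluation of polynomials with congruent coefficients. -/
theorem dvdC_aeval_sub (O : ValuationSubring F) (hO : ∀ a : L, algebraMap L F a ∈ O ↔ a ∈ A)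
    {c : L} {P Q : L[X]} {ω : F} (hω : ω ∈ O)
    (h : ∀ n, ∃ w ∈ A, Q.coeff n - P.coeff n = c * w) :
    DvdC O c (aeval ω Q - aeval ω P) := by
  rw [← map_sub, aeval_def, eval₂_eq_sum, sum_def]
  refine DvdC.sum _ _ fun n _ => ?_
  obtain ⟨w, hw, e⟩ := h n
  rw [coeff_sub, e]
  exact DvdC.const_mul ((hO w).2 hw) (pow_mem hω n)

/-- The coefficients of `∏ (X - a i)` with `a i ∈ A` lie in `A`. -/
theorem coeff_prod_X_sub_C_mem {ι : Type*} (s : Finset ι) (a : ι → L)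
    (ha : ∀ i ∈ s, a i ∈ A) : ∀ n, (∏ i ∈ s, (X - C (a i))).coeff n ∈ A := by
  classical
  induction s using Finset.induction_on with
  | empty =>
    intro n
    rw [Finset.prod_empty, coeff_one]
    split_ifs
    · exact A.one_mem
    · exact A.zero_mem
  | insert i s hi ih =>
    intro n
    rw [Finset.prod_insert hi, mul_comm]
    have ih' := ih fun j hj => ha j (Finset.mem_insert_of_mem hj)
    have hai := ha i (Finset.mem_insert_self _ _)
    cases n with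
    | zero =>
      rw [mul_coeff_zero, coeff_sub, coeff_X_zero, coeff_C_zero, zero_sub]
      exact A.mul_mem _ _ (ih' 0) (A.neg_mem _ hai)
    | succ n =>
      rw [coeff_mul_X_sub_C]
      exact sub_mem (ih' n) (A.mul_mem _ _ (ih' (n + 1)) hai)

/-- The coefficients of `∏ (1 - b i X)` with `|b i| < 1`: constant term `1`, the others of
absolute value `< 1`. -/
theorem coeff_prod_one_sub {ι : Type*} (s : Finset ι) (b : ι → L)
    (hb : ∀ i ∈ s, A.valuation (b i) < 1) :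
    (∏ i ∈ s, (1 - C (b i) * X)).coeff 0 = 1 ∧
      ∀ n, A.valuation ((∏ i ∈ s, (1 - C (b i) * X)).coeff (n + 1)) < 1 := by
  classical
  induction s using Finset.induction_on with
  | empty =>
    refine ⟨by rw [Finset.prod_empty, coeff_one_zero], fun n => ?_⟩
    rw [Finset.prod_empty, coeff_one, if_neg (Nat.succ_ne_zero n), map_zero]
    exact zero_lt_one
  | insert i s hi ih =>
    obtain ⟨ih0, ih1⟩ := ih fun j hj => hb j (Finset.mem_insert_of_mem hj)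
    have hbi := hb i (Finset.mem_insert_self _ _)
    have e : ∏ j ∈ insert i s, (1 - C (b j) * X)
        = ∏ j ∈ s, (1 - C (b j) * X) - C (b i) * ((∏ j ∈ s, (1 - C (b j) * X)) * X) := by
      rw [Finset.prod_insert hi]; ring
    have hle : ∀ n, A.valuation ((∏ j ∈ s, (1 - C (b j) * X)).coeff n) ≤ 1 := by
      intro n
      cases n with
      | zero => rw [ih0, map_one]
      | succ n => exact (ih1 n).le
    refine ⟨?_, fun n => ?_⟩
    · rw [e, coeff_sub, coeff_C_mul, coeff_mul_X_zero, mul_zero, sub_zero, ih0]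
    · rw [e, coeff_sub, coeff_C_mul, coeff_mul_X]
      refine Valuation.map_sub_lt _ (ih1 n) ?_
      rw [map_mul]
      exact lt_of_le_of_lt (mul_le_of_le_one_right' (hle n)) hbi

omit A in
/-- `∏ (X - a i)` composed with `q X`. -/
theorem prod_comp_eq {ι : Type*} (s : Finset ι) (a : ι → L) (q : L) (ha : ∀ i ∈ s, a i ≠ 0) :
    C (∏ i ∈ s, -(a i)) * ∏ i ∈ s, (1 - C (q / a i) * X)
      = (∏ i ∈ s, (X - C (a i))).comp (C q * X) := by
  rw [prod_comp, map_prod, ← Finset.prod_mul_distrib]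
  refine Finset.prod_congr rfl fun i hi => ?_
  have h1 : C (-(a i)) * C (q / a i) = -C q := by
    rw [← C_mul, ← C_neg]
    congr 1
    have := ha i hi
    field_simp
  rw [mul_sub, mul_one, ← mul_assoc, h1, sub_comp, X_comp, C_comp, C_neg]
  ring

omit A in
/-- The coefficients of `∏ (1 - (q / a i) X)` lie in any subfield containing `q` and the
coefficients of `∏ (X - a i)`. -/
theorem coeff_prod_one_sub_mem (K₂ : Subfield L) {ι : Type*} (s : Finset ι) (a : ι → L) {q : L}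
    (hq : q ∈ K₂) (ha : ∀ i ∈ s, a i ≠ 0)
    (hK : ∀ n, (∏ i ∈ s, (X - C (a i))).coeff n ∈ K₂) :
    (∏ i ∈ s, -(a i)) ∈ K₂ ∧ ∀ n, (∏ i ∈ s, (1 - C (q / a i) * X)).coeff n ∈ K₂ := by
  have hc0 : (∏ i ∈ s, -(a i)) = (∏ i ∈ s, (X - C (a i))).coeff 0 := by
    rw [coeff_zero_eq_eval_zero, eval_prod]
    refine Finset.prod_congr rfl fun i _ => ?_
    rw [eval_sub, eval_X, eval_C, zero_sub]
  have hc0K : (∏ i ∈ s, -(a i)) ∈ K₂ := by rw [hc0]; exact hK 0
  refine ⟨hc0K, fun n => ?_⟩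
  have hne : (∏ i ∈ s, -(a i)) ≠ 0 :=
    Finset.prod_ne_zero_iff.2 fun i hi => neg_ne_zero.2 (ha i hi)
  have h := congrArg (fun P : L[X] => P.coeff n) (prod_comp_eq s a q ha)
  simp only [coeff_C_mul, comp_C_mul_X_coeff] at h
  have e : (∏ i ∈ s, (1 - C (q / a i) * X)).coeff n
      = (∏ i ∈ s, -(a i))⁻¹ * ((∏ i ∈ s, (X - C (a i))).coeff n * q ^ n) := by
    rw [← h, ← mul_assoc, inv_mul_cancel₀ hne, one_mul]
  rw [e]
  exact K₂.mul_mem (K₂.inv_mem hc0K) (K₂.mul_mem (hK n) (K₂.pow_mem hq n))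

omit A in
/-- `∏ (ξ - b i) = (∏ (-b i)) · ∏ (1 - (q / b i) ω)` for `ξ = q ω`. -/
theorem prod_sub_eq {ι : Type*} (s : Finset ι) (b : ι → L) (q : L) (ξ ω : F)
    (hξω : ξ = algebraMap L F q * ω) (hb : ∀ i ∈ s, b i ≠ 0) :
    ∏ i ∈ s, (ξ - algebraMap L F (b i))
      = algebraMap L F (∏ i ∈ s, -(b i)) * aeval ω (∏ i ∈ s, (1 - C (q / b i) * X)) := by
  rw [map_prod, map_prod, ← Finset.prod_mul_distrib]
  refine Finset.prod_congr rfl fun i hi => ?_
  have hbi : algebraMap L F (b i) ≠ 0 := (map_ne_zero (algebraMap L F)).2 (hb i hi)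
  simp only [map_sub, map_one, map_mul, aeval_C, aeval_X, map_neg, map_div₀]
  rw [hξω]
  field_simp
  ring

end Poly

/-! ### One orbit -/

/-- **The local equation of `σO - O` for one orbit `O` of points of the annulus.**
`h = σN(ξ) / N(ξ)` is `≡ 1` on the first branch and `≡ 1 + ord (N 0) · η` on the second one,
modulo `ϖη`. -/
theorem orbit_congr (A : ValuationSubring L) (O₁ O₂ : ValuationSubring F)
    (hO₁ : ∀ a : L, algebraMap L F a ∈ O₁ ↔ a ∈ A)
    (hO₂ : ∀ a : L, algebraMap L F a ∈ O₂ ↔ a ∈ A)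
    (K₂ : Subfield L) {ϖ η : L} (hϖ : A.valuation ϖ < 1) (hη : ∃ w ∈ A, η = ϖ * w)
    (σ : L →+* L) (ordϖ : L → ℤ)
    (hSa : ∀ c ∈ K₂, c ∈ A → ∃ w ∈ A, σ c = c + ϖ * η * w)
    (hSb : ∀ b ∈ K₂, A.valuation b < 1 → ∃ w ∈ A, b = ϖ * w)
    (hSc : ∀ c ∈ K₂, c ≠ 0 → ∃ w ∈ A, σ c = c * (1 + (ordϖ c : L) * η + ϖ * η * w))
    {q : L} (hq : q ∈ K₂) (hσq : σ q = q)
    {ξ ω : F} (hξ : O₁.valuation ξ = 1) (hω : ω ∈ O₂) (hξω : ξ = algebraMap L F q * ω)
    {ι : Type*} (s : Finset ι) (a : ι → L)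
    (ha : ∀ i ∈ s, A.valuation (a i) < 1 ∧ A.valuation q < A.valuation (a i))
    (hK : ∀ n, (∏ i ∈ s, (X - C (a i))).coeff n ∈ K₂) :
    E O₁ ϖ η ((∏ i ∈ s, (ξ - algebraMap L F (σ (a i)))) /
        ∏ i ∈ s, (ξ - algebraMap L F (a i))) 0 ∧
      E O₂ ϖ η ((∏ i ∈ s, (ξ - algebraMap L F (σ (a i)))) /
        ∏ i ∈ s, (ξ - algebraMap L F (a i))) (ordϖ (∏ i ∈ s, -(a i))) := by
  classical
  have ha0 : ∀ i ∈ s, a i ≠ 0 := fun i hi h0 => by
    have h1 := (ha i hi).2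
    rw [h0, map_zero] at h1
    exact not_lt_zero h1
  have hσa0 : ∀ i ∈ s, σ (a i) ≠ 0 := fun i hi => (map_ne_zero σ).2 (ha0 i hi)
  have hNmap : (∏ i ∈ s, (X - C (a i))).map σ = ∏ i ∈ s, (X - C (σ (a i))) := by
    rw [Polynomial.map_prod]
    refine Finset.prod_congr rfl fun i _ => ?_
    rw [Polynomial.map_sub, map_X, map_C]
  have hNξ : aeval ξ (∏ i ∈ s, (X - C (a i))) = ∏ i ∈ s, (ξ - algebraMap L F (a i)) := by
    rw [map_prod]
    refine Finset.prod_congr rfl fun i _ => ?_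
    rw [map_sub, aeval_X, aeval_C]
  have hN'ξ : aeval ξ ((∏ i ∈ s, (X - C (a i))).map σ)
      = ∏ i ∈ s, (ξ - algebraMap L F (σ (a i))) := by
    rw [hNmap, map_prod]
    refine Finset.prod_congr rfl fun i _ => ?_
    rw [map_sub, aeval_X, aeval_C]
  rw [← hNξ, ← hN'ξ]
  have hNA : ∀ n, (∏ i ∈ s, (X - C (a i))).coeff n ∈ A :=
    coeff_prod_X_sub_C_mem A s a fun i hi => mem_of_val_lt_one A (ha i hi).1
  have hξmem : ξ ∈ O₁ := (ValuationSubring.valuation_le_one_iff O₁ _).1 hξ.le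
  refine ⟨?_, ?_⟩
  · -- the first branch
    have hvN : O₁.valuation (aeval ξ (∏ i ∈ s, (X - C (a i)))) = 1 := by
      rw [hNξ, map_prod]
      refine Finset.prod_eq_one fun i hi => ?_
      rw [Valuation.map_sub_eq_of_lt_left, hξ]
      rw [hξ]
      exact const_val_lt_one A O₁ hO₁ (ha i hi).1
    have hNinv : (aeval ξ (∏ i ∈ s, (X - C (a i))))⁻¹ ∈ O₁ := by
      rw [← ValuationSubring.valuation_le_one_iff, map_inv₀, hvN, inv_one]
    have hN0 : aeval ξ (∏ i ∈ s, (X - C (a i))) ≠ 0 := fun h0 => by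
      rw [h0, map_zero] at hvN
      exact zero_ne_one hvN
    have hd : DvdC O₁ (ϖ * η) (aeval ξ ((∏ i ∈ s, (X - C (a i))).map σ)
        - aeval ξ (∏ i ∈ s, (X - C (a i)))) :=
      dvdC_aeval_sub A O₁ hO₁ hξmem fun n => by
        obtain ⟨w, hw, e⟩ := hSa _ (hK n) (hNA n)
        exact ⟨w, hw, by rw [coeff_map, e]; ring⟩
    unfold E
    have e : aeval ξ ((∏ i ∈ s, (X - C (a i))).map σ) / aeval ξ (∏ i ∈ s, (X - C (a i)))
          - algebraMap L F (1 + ((0 : ℤ) : L) * η)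
        = (aeval ξ ((∏ i ∈ s, (X - C (a i))).map σ) - aeval ξ (∏ i ∈ s, (X - C (a i))))
          * (aeval ξ (∏ i ∈ s, (X - C (a i))))⁻¹ := by
      rw [Int.cast_zero, zero_mul, add_zero, map_one]
      field_simp
    rw [e]
    exact hd.mul_right hNinv
  · -- the second branch
    have hGmap : (∏ i ∈ s, (1 - C (q / a i) * X)).map σ
        = ∏ i ∈ s, (1 - C (q / σ (a i)) * X) := by
      rw [Polynomial.map_prod]
      refine Finset.prod_congr rfl fun i _ => ?_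
      rw [Polynomial.map_sub, Polynomial.map_one, Polynomial.map_mul, map_C, map_X, map_div₀,
        hσq]
    have hqa : ∀ i ∈ s, A.valuation (q / a i) < 1 := fun i hi => by
      rw [map_div₀]
      exact (div_lt_one₀ (zero_lt_iff.2 ((Valuation.ne_zero_iff _).2 (ha0 i hi)))).2 (ha i hi).2
    obtain ⟨hG0, hG1⟩ := coeff_prod_one_sub A s (fun i => q / a i) hqa
    obtain ⟨hc0K, hGK⟩ := coeff_prod_one_sub_mem K₂ s a hq ha0 hK
    have hGw : ∀ n, ∃ w ∈ A, (∏ i ∈ s, (1 - C (q / a i) * X)).coeff (n + 1) = ϖ * w :=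
      fun n => hSb _ (hGK _) (hG1 n)
    -- `γ := G(ω) ≡ 1 mod ϖ`
    have hγ1 : DvdC O₂ ϖ (aeval ω (∏ i ∈ s, (1 - C (q / a i) * X)) - 1) := by
      have h1 := dvdC_aeval_sub A O₂ hO₂ (c := ϖ) (P := 1)
        (Q := ∏ i ∈ s, (1 - C (q / a i) * X)) hω fun n => by
          cases n with
          | zero => exact ⟨0, A.zero_mem, by rw [hG0, coeff_one_zero, sub_self, mul_zero]⟩
          | succ n =>
            obtain ⟨w, hw, e⟩ := hGw n
            exact ⟨w, hw, by rw [e, coeff_one, if_neg (Nat.succ_ne_zero n), sub_zero]⟩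
      rwa [map_one] at h1
    -- `γ' - γ ≡ 0 mod ϖη`
    have hγγ' : DvdC O₂ (ϖ * η) (aeval ω (∏ i ∈ s, (1 - C (q / σ (a i)) * X))
        - aeval ω (∏ i ∈ s, (1 - C (q / a i) * X))) := by
      rw [← hGmap]
      refine dvdC_aeval_sub A O₂ hO₂ hω fun n => ?_
      rw [coeff_map]
      cases n with
      | zero => exact ⟨0, A.zero_mem, by rw [hG0, map_one, sub_self, mul_zero]⟩
      | succ n =>
        obtain ⟨w, hw, e⟩ := hGw n
        by_cases h0 : (∏ i ∈ s, (1 - C (q / a i) * X)).coeff (n + 1) = 0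
        · exact ⟨0, A.zero_mem, by rw [h0, map_zero, sub_self, mul_zero]⟩
        · obtain ⟨w', hw', e'⟩ := hSc _ (hGK _) h0
          refine ⟨w * ((ordϖ ((∏ i ∈ s, (1 - C (q / a i) * X)).coeff (n + 1)) : L) + ϖ * w'),
            A.mul_mem _ _ hw (A.add_mem _ _ (intCast_mem A _)
              (A.mul_mem _ _ (mem_of_val_lt_one A hϖ) hw')), ?_⟩
          rw [e']
          generalize (∏ i ∈ s, (1 - C (q / a i) * X)).coeff (n + 1) = g at e
          linear_combination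
            (η * ((ordϖ g : L) + ϖ * w')) * e
    have hγv : O₂.valuation (aeval ω (∏ i ∈ s, (1 - C (q / a i) * X))) = 1 := by
      obtain ⟨z, hz, e⟩ := hγ1
      have h1 : aeval ω (∏ i ∈ s, (1 - C (q / a i) * X)) = 1 + algebraMap L F ϖ * z := by
        rw [← e]; ring
      rw [h1]
      refine (O₂.valuation).map_one_add_of_lt ?_
      rw [map_mul]
      exact lt_of_le_of_lt
        (mul_le_of_le_one_right' ((ValuationSubring.valuation_le_one_iff O₂ _).2 hz))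
        (const_val_lt_one A O₂ hO₂ hϖ)
    have hγinv : (aeval ω (∏ i ∈ s, (1 - C (q / a i) * X)))⁻¹ ∈ O₂ := by
      rw [← ValuationSubring.valuation_le_one_iff, map_inv₀, hγv, inv_one]
    have hγ0 : aeval ω (∏ i ∈ s, (1 - C (q / a i) * X)) ≠ 0 := fun h0 => by
      rw [h0, map_zero] at hγv
      exact zero_ne_one hγv
    have hγmem : aeval ω (∏ i ∈ s, (1 - C (q / a i) * X)) ∈ O₂ :=
      (ValuationSubring.valuation_le_one_iff O₂ _).1 hγv.le
    have hπA : ϖ * η ∈ A := pi_mem A hϖ hη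
    have hγ'mem : aeval ω (∏ i ∈ s, (1 - C (q / σ (a i)) * X)) ∈ O₂ := by
      have h1 : aeval ω (∏ i ∈ s, (1 - C (q / σ (a i)) * X))
          = (aeval ω (∏ i ∈ s, (1 - C (q / σ (a i)) * X))
            - aeval ω (∏ i ∈ s, (1 - C (q / a i) * X)))
            + aeval ω (∏ i ∈ s, (1 - C (q / a i) * X)) := by ring
      rw [h1]
      exact O₂.add_mem _ _ (DvdC.mem (const_mem A O₂ hO₂ hπA) hγγ') hγmem
    -- the factorisations
    have hNG := prod_sub_eq s a q ξ ω hξω ha0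
    have hN'G := prod_sub_eq s (fun i => σ (a i)) q ξ ω hξω hσa0
    have hc0 : (∏ i ∈ s, -(a i)) ≠ 0 :=
      Finset.prod_ne_zero_iff.2 fun i hi => neg_ne_zero.2 (ha0 i hi)
    have hσc0 : ∏ i ∈ s, -(σ (a i)) = σ (∏ i ∈ s, -(a i)) := by
      rw [map_prod]
      exact Finset.prod_congr rfl fun i _ => (map_neg σ _).symm
    obtain ⟨w, hw, ec⟩ := hSc _ hc0K hc0
    have hc0F : algebraMap L F (∏ i ∈ s, -(a i)) ≠ 0 := (map_ne_zero (algebraMap L F)).2 hc0
    unfold E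
    rw [hN'ξ, hNξ, hN'G, hNG, hσc0, ec]
    have e : algebraMap L F ((∏ i ∈ s, -(a i)) * (1 + (ordϖ (∏ i ∈ s, -(a i)) : L) * η
            + ϖ * η * w)) * aeval ω (∏ i ∈ s, (1 - C (q / σ (a i)) * X))
          / (algebraMap L F (∏ i ∈ s, -(a i)) * aeval ω (∏ i ∈ s, (1 - C (q / a i) * X)))
          - algebraMap L F (1 + (ordϖ (∏ i ∈ s, -(a i)) : L) * η)
        = algebraMap L F (1 + (ordϖ (∏ i ∈ s, -(a i)) : L) * η)
            * ((aeval ω (∏ i ∈ s, (1 - C (q / σ (a i)) * X))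
              - aeval ω (∏ i ∈ s, (1 - C (q / a i) * X)))
              * (aeval ω (∏ i ∈ s, (1 - C (q / a i) * X)))⁻¹)
          + algebraMap L F (ϖ * η * w) * (aeval ω (∏ i ∈ s, (1 - C (q / σ (a i)) * X))
              * (aeval ω (∏ i ∈ s, (1 - C (q / a i) * X)))⁻¹) := by
      simp only [map_mul, map_add, map_one]
      field_simp
      ring
    rw [e]
    exact (DvdC.mul_left (hγγ'.mul_right hγinv)
      (const_mem A O₂ hO₂ (one_add_mem A hϖ hη _))).add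
      (DvdC.const_mul (const_mem A O₂ hO₂ hw) (O₂.mul_mem _ _ hγ'mem hγinv))

/-! ### The node-local lemma -/

/-- **THE NODE-LOCAL LEMMA of (PL), abstract form.**  `Ψ ≡ a₁` on the first branch and
`Ψ ≡ a₂` on the second one modulo `ϖη`, and `Ψ · ∏_j (N_j(ξ) / σN_j(ξ)) ^ n_j` lies in the local
ring of the node: then `a₁ ≡ a₂ · (1 - (∑_j n_j · ord (N_j 0)) · η)` modulo `ϖη`. -/
theorem node_local (A : ValuationSubring L) (O₁ O₂ : ValuationSubring F)
    (hO₁ : ∀ a : L, algebraMap L F a ∈ O₁ ↔ a ∈ A)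
    (hO₂ : ∀ a : L, algebraMap L F a ∈ O₂ ↔ a ∈ A)
    (R : Subring F) (hRA : ∀ a ∈ A, algebraMap L F a ∈ R)
    (hglue : ∀ g ∈ R, O₁.valuation g < 1 → O₂.valuation (g - 1) < 1 → False)
    (hsat : ∀ (c : L) (g : F), c ≠ 0 → g ∈ O₁ → g ∈ O₂ → algebraMap L F c * g ∈ R → g ∈ R)
    (K₂ : Subfield L) {ϖ η : L} (hϖ : A.valuation ϖ < 1) (hη : ∃ w ∈ A, η = ϖ * w)
    (σ : L →+* L) (ordϖ : L → ℤ)
    (hSa : ∀ c ∈ K₂, c ∈ A → ∃ w ∈ A, σ c = c + ϖ * η * w)
    (hSb : ∀ b ∈ K₂, A.valuation b < 1 → ∃ w ∈ A, b = ϖ * w)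
    (hSc : ∀ c ∈ K₂, c ≠ 0 → ∃ w ∈ A, σ c = c * (1 + (ordϖ c : L) * η + ϖ * η * w))
    {q : L} (hq : q ∈ K₂) (hσq : σ q = q)
    {ξ ω : F} (hξ : O₁.valuation ξ = 1) (hω : ω ∈ O₂) (hξω : ξ = algebraMap L F q * ω)
    {J : Type*} (T : Finset J) {ι : J → Type*} (s : ∀ j, Finset (ι j)) (a : ∀ j, ι j → L)
    (ha : ∀ j ∈ T, ∀ i ∈ s j, A.valuation (a j i) < 1 ∧ A.valuation q < A.valuation (a j i))
    (hK : ∀ j ∈ T, ∀ n, (∏ i ∈ s j, (X - C (a j i))).coeff n ∈ K₂)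
    (n : J → ℤ) {Ψ : F} {a₁ a₂ : L} (ha₁ : a₁ ∈ A) (ha₂ : a₂ ∈ A)
    (hΨ₁ : DvdC O₁ (ϖ * η) (Ψ - algebraMap L F a₁))
    (hΨ₂ : DvdC O₂ (ϖ * η) (Ψ - algebraMap L F a₂))
    (hY : Ψ * ∏ j ∈ T, ((∏ i ∈ s j, (ξ - algebraMap L F (a j i))) /
        ∏ i ∈ s j, (ξ - algebraMap L F (σ (a j i)))) ^ n j ∈ R) :
    ∃ w ∈ A, a₁ - a₂ * (1 - ((∑ j ∈ T, n j * ordϖ (∏ i ∈ s j, -(a j i)) : ℤ) : L) * η)
      = ϖ * η * w := by
  classical
  have hc := fun j (hj : j ∈ T) => orbit_congr A O₁ O₂ hO₁ hO₂ K₂ hϖ hη σ ordϖ hSa hSb hSc hq hσq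
    hξ hω hξω (s j) (a j) (ha j hj) (hK j hj)
  -- `U := ∏ h_j ^ (-n_j)`
  have hU : ∏ j ∈ T, ((∏ i ∈ s j, (ξ - algebraMap L F (a j i))) /
        ∏ i ∈ s j, (ξ - algebraMap L F (σ (a j i)))) ^ n j
      = ∏ j ∈ T, ((∏ i ∈ s j, (ξ - algebraMap L F (σ (a j i)))) /
        ∏ i ∈ s j, (ξ - algebraMap L F (a j i))) ^ (-n j) := by
    refine Finset.prod_congr rfl fun j _ => ?_
    rw [zpow_neg, ← inv_zpow, inv_div]
  rw [hU] at hY
  have hU₁ := E.prod A O₁ hO₁ hϖ hη T _ _ fun j hj => (hc j hj).1.zpow A O₁ hO₁ hϖ hη (-n j)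
  have hU₂ := E.prod A O₂ hO₂ hϖ hη T _ _ fun j hj => (hc j hj).2.zpow A O₂ hO₂ hϖ hη (-n j)
  have hm₁ : ∑ j ∈ T, -n j * 0 = 0 := by simp
  rw [hm₁] at hU₁
  have hm₂ : ∑ j ∈ T, -n j * ordϖ (∏ i ∈ s j, -(a j i))
      = -∑ j ∈ T, n j * ordϖ (∏ i ∈ s j, -(a j i)) := by
    rw [← Finset.sum_neg_distrib]
    exact Finset.sum_congr rfl fun j _ => by ring
  rw [hm₂] at hU₂
  set U : F := ∏ j ∈ T, ((∏ i ∈ s j, (ξ - algebraMap L F (σ (a j i)))) /
        ∏ i ∈ s j, (ξ - algebraMap L F (a j i))) ^ (-n j) with hUdef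
  set m : ℤ := ∑ j ∈ T, n j * ordϖ (∏ i ∈ s j, -(a j i)) with hmdef
  have hUm₁ := hU₁.mem A O₁ hO₁ hϖ hη
  have hUm₂ := hU₂.mem A O₂ hO₂ hϖ hη
  -- the two congruences of `Y = Ψ U`
  have h₁ : DvdC O₁ (ϖ * η) (Ψ * U - algebraMap L F a₁) := by
    have e : Ψ * U - algebraMap L F a₁
        = (Ψ - algebraMap L F a₁) * U
          + algebraMap L F a₁ * (U - algebraMap L F (1 + ((0 : ℤ) : L) * η)) := by
      rw [Int.cast_zero, zero_mul, add_zero, map_one]; ring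
    rw [e]
    exact (hΨ₁.mul_right hUm₁).add (DvdC.mul_left hU₁ (const_mem A O₁ hO₁ ha₁))
  have h₂ : DvdC O₂ (ϖ * η) (Ψ * U - algebraMap L F (a₂ * (1 + ((-m : ℤ) : L) * η))) := by
    have e : Ψ * U - algebraMap L F (a₂ * (1 + ((-m : ℤ) : L) * η))
        = (Ψ - algebraMap L F a₂) * U
          + algebraMap L F a₂ * (U - algebraMap L F (1 + ((-m : ℤ) : L) * η)) := by
      rw [map_mul]; ring
    rw [e]
    exact (hΨ₂.mul_right hUm₂).add (DvdC.mul_left hU₂ (const_mem A O₂ hO₂ ha₂))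
  obtain ⟨w, hw, e⟩ := glue_const A O₁ O₂ hO₁ hO₂ R hRA hglue hsat (ϖ * η) hY ha₁
    (A.mul_mem _ _ ha₂ (one_add_mem A hϖ hη (-m))) h₁ h₂
  refine ⟨w, hw, ?_⟩
  rw [← e]
  push_cast
  ring

end Fermat.Agent.TR.PL.NodeLocalAbs
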