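/-
TR / (PL), brick (RAT) of the architect's ruling #2 (helper37): RATIONALITY of divisors and
functions over the fixed field of an arbitrary set `H ⊆ G_ℚ`.

Adapter over `CAR.Formal.DescentCore` (canonical representative: the section of maximal order at
the cusp `∞` with leading `q`-coefficient `1`), in the vocabulary of `BAD.LatFixedSub`
(`fixedFunOf H N`).

* `exists_fixed_divisor_kummer` : an `m`-torsion class of `J₀(N)` fixed by `H` is the class of an
  `H`-fixed divisor `D` of degree `0`, and `m • D = div f₀` with `f₀` an `H`-fixed function;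
* `exists_fixed_fun_of_mk_eq` : two `H`-fixed divisors of degree `0` in the same class differ by
  the divisor of an `H`-fixed function;
* `exists_fixed_fun_of_principal` : an `H`-fixed principal divisor is the divisor of an `H`-fixed
  function.

No hypothesis on `H` (no finite index, no inertia).
-/
import Mathlib
import Fermat.Agent.CAR.Formal.DescentCore
import Fermat.Agent.BAD.LatFixedSub

set_option autoImplicit false

namespace Fermat.Agent.TR.PL.RatDescent

open AlgebraicCurve ModularCurve Fermat.Agent.Lib.FF Fermat.Agent.BAD.Dict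
  Fermat.Agent.BAD.LatFixedInst Fermat.Agent.CAR.Formal.DescentCore

local notation "Qb" => AlgebraicClosure ℚ
local notation "GQ" => (AlgebraicClosure ℚ ≃ₐ[ℚ] AlgebraicClosure ℚ)

variable (N : ℕ) [NeZero N]

/-- **(RAT).**  An `m`-torsion class of `J₀(N)` fixed by `H` has an `H`-fixed divisor `D` and an
`H`-fixed Kummer function `f₀` (`div f₀ = m • D`). -/
theorem exists_fixed_divisor_kummer (H : Set GQ) (m : ℕ) (x : JZero N) (hx : m • x = 0)
    (hfix : ∀ σ ∈ H, σ • x = x) :
    ∃ D : Divisor.degZero (K := Qb) (F := laurentBaseChange Qb (modularFunctionFieldFull N)),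
      Pic0.mk D = x ∧
      (∀ σ ∈ H, arithmeticGalois (modularFunctionFieldFull N) σ •
        (D : Divisor Qb (laurentBaseChange Qb (modularFunctionFieldFull N))) = D) ∧
      ∃ f₀ : laurentBaseChange Qb (modularFunctionFieldFull N),
        f₀ ∈ fixedFunOf H N ∧ f₀ ≠ 0 ∧
        ∀ P : Place Qb (laurentBaseChange Qb (modularFunctionFieldFull N)),
          P.ord f₀ = (m : ℤ) * (D : Divisor Qb (laurentBaseChange Qb (modularFunctionFieldFull N))) P := by
  obtain ⟨D, f, h1, h2, h3, h4, -⟩ := exists_fixed_kummer N H m x hx hfix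
  refine ⟨D, h1.symm, h3, f, fun σ hσ => h4 σ hσ, h2.1, fun P => ?_⟩
  rw [← h2.2 P, Finsupp.smul_apply, nsmul_eq_mul]

/-- An `H`-fixed principal divisor is the divisor of an `H`-fixed function. -/
theorem exists_fixed_fun_of_principal (H : Set GQ)
    (E : Divisor Qb (laurentBaseChange Qb (modularFunctionFieldFull N)))
    (hE : E ∈ Divisor.principal (K := Qb) (F := laurentBaseChange Qb (modularFunctionFieldFull N)))
    (hfix : ∀ σ ∈ H, arithmeticGalois (modularFunctionFieldFull N) σ • E = E) :
    ∃ Ψ : laurentBaseChange Qb (modularFunctionFieldFull N),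
      Ψ ∈ fixedFunOf H N ∧ Ψ ≠ 0 ∧
      ∀ P : Place Qb (laurentBaseChange Qb (modularFunctionFieldFull N)), P.ord Ψ = E P := by
  obtain ⟨g, h1, -, h3⟩ := exists_fixed_generator_modular N H E hE hfix
  exact ⟨g, fun σ hσ => h3 σ hσ, h1.1, fun P => (h1.2 P).symm⟩

/-- **(RAT-Ψ).**  Two `H`-fixed divisors of degree `0` in the same class differ by the divisor of
an `H`-fixed function. -/
theorem exists_fixed_fun_of_mk_eq (H : Set GQ)
    (D₁ D₂ : Divisor.degZero (K := Qb) (F := laurentBaseChange Qb (modularFunctionFieldFull N)))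
    (h₁ : ∀ σ ∈ H, arithmeticGalois (modularFunctionFieldFull N) σ •
      (D₁ : Divisor Qb (laurentBaseChange Qb (modularFunctionFieldFull N))) = D₁)
    (h₂ : ∀ σ ∈ H, arithmeticGalois (modularFunctionFieldFull N) σ •
      (D₂ : Divisor Qb (laurentBaseChange Qb (modularFunctionFieldFull N))) = D₂)
    (h : Pic0.mk D₁ = Pic0.mk D₂) :
    ∃ Ψ : laurentBaseChange Qb (modularFunctionFieldFull N),
      Ψ ∈ fixedFunOf H N ∧ Ψ ≠ 0 ∧
      ∀ P : Place Qb (laurentBaseChange Qb (modularFunctionFieldFull N)),
        P.ord Ψ = (D₁ : Divisor Qb (laurentBaseChange Qb (modularFunctionFieldFull N))) P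
          - (D₂ : Divisor Qb (laurentBaseChange Qb (modularFunctionFieldFull N))) P := by
  have hE : ((D₁ - D₂ : Divisor.degZero (K := Qb)
      (F := laurentBaseChange Qb (modularFunctionFieldFull N))) :
      Divisor Qb (laurentBaseChange Qb (modularFunctionFieldFull N)))
      ∈ Divisor.principal (K := Qb) (F := laurentBaseChange Qb (modularFunctionFieldFull N)) := by
    rw [← mk_eq_zero_iff, mk_sub, h, sub_self]
  obtain ⟨Ψ, hΨ, hΨ0, hord⟩ := exists_fixed_fun_of_principal N H _ hE (fun σ hσ => by
    rw [AddSubgroup.coe_sub, smul_sub, h₁ σ hσ, h₂ σ hσ])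
  refine ⟨Ψ, hΨ, hΨ0, fun P => ?_⟩
  rw [hord P, AddSubgroup.coe_sub, Finsupp.sub_apply]

end Fermat.Agent.TR.PL.RatDescent
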