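/-
TR / (PL), wild call, input (e) (helper9): **the adapter from `hfg` to `hY`** of
`ConstInst.dvd_gamma_sub_bad`.

For `σ` in the inertia group, `f₀ ≠ 0`, a local generator `g ≠ 0` at the node `i`
(`ord_P f₀ = p · ord_P g` at the places through the node) and a constant `c ≠ 0`
(`c = (w ^ n∞)⁻¹`), with `G := c • g`, `u := σ • f₀ / f₀`, `Hs := σ • G / G`:

  `u / Hs ^ p ∈ T_i = nodeRing (redPair h W) ⊤ E1 e₁ e₂ i`.

Proof: `F := f₀ / G ^ p` has neither zero nor pole through the node, `u / Hs ^ p = σ • F / F`,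
and `ThroughReg.smul_div_mem_nodeRing` ((I4) + (REG) + (sat)).

* `smul_div_pow_eq`, `ord_div_smul_pow_eq_zero` : the two abstract computations;
* `hY_of_hfg` : the adapter at the modular objects, constant `c` arbitrary;
* `hY_of_hfg_zpow` : the same in the literal of the wild call, `G = (w ^ n)⁻¹ • g`, `n : ℤ`;
* `hY_of_gen` : from the (GEN) literal `ord_P g = D P` and `ord_P f₀ = p · D P`.
-/
import Mathlib
import Fermat.Agent.TR.PL.ThroughReg

set_option autoImplicit false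
set_option linter.unusedSectionVars false
set_option linter.unusedVariables false

noncomputable section

namespace Fermat.Agent.TR.PL.RegAdapter

open AlgebraicCurve ModularCurve WithZero Fermat.Agent.Lib.FF Fermat.Agent.Lib.Red.Deform
  Fermat.Agent.BAD.NodalRiemann Fermat.Agent.BAD.TwoVal Fermat.Agent.TR.Node.NodeRingAbs
  Fermat.Agent.TR.PL.Through

/-! ### Abstract part -/

section Abs

variable {L F : Type*} [Field L] [Field F] [Algebra L F]

/-- A field identity. -/
theorem div_div_pow_eq {F' : Type*} [Field F'] {a a' b b' : F'} (p : ℕ) (ha : a ≠ 0)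
    (hb : b ≠ 0) (hb' : b' ≠ 0) :
    (a' / b' ^ p) / (a / b ^ p) = (a' / a) / (b' / b) ^ p := by
  rw [div_pow]
  field_simp

/-- `g • F / F` for `F = f / G ^ p`. -/
theorem smul_div_pow_eq (g : SemilinearAut L F) {f G : F} (p : ℕ) (hf0 : f ≠ 0) (hG0 : G ≠ 0) :
    g • (f / G ^ p) / (f / G ^ p) = (g • f / f) / (g • G / G) ^ p := by
  have hgG0 : g • G ≠ 0 := (smul_ne_zero_iff_ne _).mpr hG0
  have e : g • (f / G ^ p) = g • f / (g • G) ^ p := by
    simp only [SemilinearAut.smul_def, map_div₀, map_pow]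
  rw [e]
  exact div_div_pow_eq p hf0 hG0 hgG0

/-- The order of a nonzero constant at a place is `0`. -/
theorem ord_algebraMap (P : Place L F) {a : L} (ha : a ≠ 0) : P.ord (algebraMap L F a) = 0 := by
  have hu : IsUnit (algebraMap L P.toValuationSubring a) := (Ne.isUnit ha).map _
  have h := P.ord_coe_unit hu.unit
  rwa [IsUnit.unit_spec, Place.coe_algebraMap] at h

/-- `F = f / (c • g) ^ p` has order `0` where `ord f = p · ord g`. -/
theorem ord_div_smul_pow_eq_zero (P : Place L F) {f g : F} {c : L} (p : ℕ) (hf0 : f ≠ 0)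
    (hg0 : g ≠ 0) (hc0 : c ≠ 0) (hfg : P.ord f = (p : ℤ) * P.ord g) :
    P.ord (f / (c • g) ^ p) = 0 := by
  have hc0' : algebraMap L F c ≠ 0 := (map_ne_zero _).2 hc0
  have hG0 : c • g ≠ 0 := by
    rw [Algebra.smul_def]
    exact mul_ne_zero hc0' hg0
  have h1 : P.ord (c • g) = P.ord g := by
    rw [Algebra.smul_def, P.ord_mul hc0' hg0, ord_algebraMap P hc0, zero_add]
  have h2 : P.ord ((c • g) ^ p) = (p : ℤ) * P.ord g := by
    have h := P.ord_zpow (c • g) (p : ℤ)
    rw [zpow_natCast] at h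
    rw [h, h1]
  rw [div_eq_mul_inv, P.ord_mul hf0 (inv_ne_zero (pow_ne_zero p hG0)), P.ord_inv, h2, hfg]
  ring

end Abs

/-! ### At the modular objects -/

section Inst

local notation "Qb" => AlgebraicClosure ℚ

variable {A : ValuationSubring Qb} {k : Type} [Field k] {π : A →+* k} {M q : ℕ} [NeZero M]
  [NeZero q]
  (h : BadSetup A π M q)
  {W : laurentBaseChange Qb (modularFunctionFieldFull (M * q)) ≃ₐ[Qb]
    laurentBaseChange Qb (modularFunctionFieldFull (M * q))} (hW : IsAL M q W)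
  (E1 : Divisor Qb (laurentBaseChange Qb (modularFunctionFieldFull (M * q))))
  {ι : Type} (e₁ e₂ : ι → Place k (modularFunctionFieldFullC k M))
  (hE1 : ∀ v, 0 ≤ E1 v)
  (hgalE1 : ∀ σ ∈ A.inertiaSubgroupIn ℚ,
    arithmeticGalois (modularFunctionFieldFull (M * q)) σ • E1 = E1)
  (i : ι) {σ : Qb ≃ₐ[ℚ] Qb}

include hW hE1 hgalE1 in
/-- **The input `hY` of the wild call** from `hfg`, with `G = c • g` for a constant `c ≠ 0`. -/
theorem hY_of_hfg (hσ : σ ∈ A.inertiaSubgroupIn ℚ)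
    {f g : laurentBaseChange Qb (modularFunctionFieldFull (M * q))} (hf0 : f ≠ 0) (hg0 : g ≠ 0)
    {c : Qb} (hc0 : c ≠ 0) (p : ℕ)
    (hfg : ∀ P : Place Qb (laurentBaseChange Qb (modularFunctionFieldFull (M * q))),
      Through (nodeRing (redPair h W) ⊤ E1 e₁ e₂ i) P → P.ord f = (p : ℤ) * P.ord g) :
    (arithmeticGalois (modularFunctionFieldFull (M * q)) σ • f / f) /
      (arithmeticGalois (modularFunctionFieldFull (M * q)) σ • (c • g) / (c • g)) ^ p ∈
      nodeRing (redPair h W) ⊤ E1 e₁ e₂ i := by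
  have hG0 : c • g ≠ 0 := by
    rw [Algebra.smul_def]
    exact mul_ne_zero ((map_ne_zero _).2 hc0) hg0
  have hF0 : f / (c • g) ^ p ≠ 0 := div_ne_zero hf0 (pow_ne_zero p hG0)
  have key := Fermat.Agent.TR.PL.ThroughReg.smul_div_mem_nodeRing h hW E1 e₁ e₂ hE1 hgalE1 i hσ
    hF0 (fun P hP => ord_div_smul_pow_eq_zero P p hf0 hg0 hc0 (hfg P hP))
  rw [smul_div_pow_eq _ p hf0 hG0] at key
  exact key

include hW hE1 hgalE1 in
/-- **The input `hY` of the wild call, in its literal**: `u := σ • f₀ / f₀`,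
`Hs := σ • G / G` with `G := (w ^ n)⁻¹ • g`, `n : ℤ`. -/
theorem hY_of_hfg_zpow (hσ : σ ∈ A.inertiaSubgroupIn ℚ)
    {f g : laurentBaseChange Qb (modularFunctionFieldFull (M * q))} (hf0 : f ≠ 0) (hg0 : g ≠ 0)
    {w : Qb} (hw0 : w ≠ 0) (n : ℤ) (p : ℕ)
    (hfg : ∀ P : Place Qb (laurentBaseChange Qb (modularFunctionFieldFull (M * q))),
      Through (nodeRing (redPair h W) ⊤ E1 e₁ e₂ i) P → P.ord f = (p : ℤ) * P.ord g) :
    (arithmeticGalois (modularFunctionFieldFull (M * q)) σ • f / f) /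
      (arithmeticGalois (modularFunctionFieldFull (M * q)) σ • ((w ^ n)⁻¹ • g) /
        ((w ^ n)⁻¹ • g)) ^ p ∈
      nodeRing (redPair h W) ⊤ E1 e₁ e₂ i :=
  hY_of_hfg h hW E1 e₁ e₂ hE1 hgalE1 i hσ hf0 hg0 (inv_ne_zero (zpow_ne_zero n hw0)) p hfg

include hW hE1 hgalE1 in
/-- The same from the (GEN) literal: `ord_P g = D P` at the places through the node and
`ord_P f₀ = p · D P`. -/
theorem hY_of_gen (hσ : σ ∈ A.inertiaSubgroupIn ℚ)
    {f g : laurentBaseChange Qb (modularFunctionFieldFull (M * q))} (hf0 : f ≠ 0) (hg0 : g ≠ 0)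
    {w : Qb} (hw0 : w ≠ 0) (n : ℤ) (p : ℕ)
    (D : Divisor Qb (laurentBaseChange Qb (modularFunctionFieldFull (M * q))))
    (hf : ∀ P : Place Qb (laurentBaseChange Qb (modularFunctionFieldFull (M * q))),
      P.ord f = (p : ℤ) * D P)
    (hg : ∀ P : Place Qb (laurentBaseChange Qb (modularFunctionFieldFull (M * q))),
      Through (nodeRing (redPair h W) ⊤ E1 e₁ e₂ i) P → P.ord g = D P) :
    (arithmeticGalois (modularFunctionFieldFull (M * q)) σ • f / f) /
      (arithmeticGalois (modularFunctionFieldFull (M * q)) σ • ((w ^ n)⁻¹ • g) /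
        ((w ^ n)⁻¹ • g)) ^ p ∈
      nodeRing (redPair h W) ⊤ E1 e₁ e₂ i :=
  hY_of_hfg_zpow h hW E1 e₁ e₂ hE1 hgalE1 i hσ hf0 hg0 hw0 n p
    (fun P hP => by rw [hf P, hg P hP])

end Inst

end Fermat.Agent.TR.PL.RegAdapter
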