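/-
TR / PL-E (row 468): the smooth points of the special fibre.  Abstract setting
`SmoothLift.Setup` of `BAD/SmoothLift.lean`, on top of the conservation of number
`BAD/SmoothOrd.lean`.

For a place `Q` of the first component which is not a node and is off `P₁`, `Z₁`, the *disc* of
`Q` is `{P | RedTo red E1 E2 N₀ Q P}`.

* `regular_of_no_pole` (S3): `f ∈ O` without poles in the disc of `Q` has a first reduction
  regular at `Q`.
* `regular_of_no_pole_fst` (S3, one-sided): the same for an element of a larger ring `OI ⊇ O`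
  (the Gauss ring of the first component) with its own reduction `redI`.
* `exists_disc_generator` (MOVE-Q): for a divisor `D` fixed by a set `H` of semilinear
  automorphisms preserving the data, an `H`-fixed function `g` with `ord_P g = D P` for every
  `P` in the disc of `Q`.
* `loc_of_disc` : the hypothesis `(loc)` of `ConstAbs.const_of_loc` at `Q` for a function
  congruent modulo `ϖ ^ (t + 1)` to a function without poles in the disc of `Q`.
-/
import Mathlib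
import Fermat.Agent.BAD.SmoothOrd
import Fermat.Agent.TR.PL.ConstAbs

set_option autoImplicit false
set_option linter.style.haveILetI false
set_option linter.unusedSectionVars false

noncomputable section

namespace Fermat.Agent.TR.PL.Smooth

open AlgebraicCurve WithZero Fermat.Agent.Lib.FF Fermat.Agent.Lib.Red.Deform
  Fermat.Agent.Lib.Red.CoordLat Fermat.Agent.BAD.NodalRiemann
  Fermat.Agent.Padic.S33.RC.NodalMul Fermat.Agent.Lib.FF.BasePoint Fermat.Agent.BAD.SmoothLift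
  Fermat.Agent.BAD.SmoothOrd

section Two

variable {L F : Type*} [Field L] [Field F] [Algebra L F]
variable {A : ValuationSubring L} {O : Subring F}
variable {k F₁ F₂ : Type*} [Field k] [Field F₁] [Field F₂] [Algebra k F₁] [Algebra k F₂]
variable {ι : Type*} [Fintype ι]
variable {red : O →+* F₁ × F₂} {π : A →+* k} {e₁ : ι → Place k F₁} {e₂ : ι → Place k F₂}
  {P₁ Z₁ : Divisor k F₁} {P₂ Z₂ : Divisor k F₂} {E1 E2 : Divisor L F} {N₀ : ℕ}

/-! ### Sections which are units at `Q` and vanish on the second component -/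

/-- Sections `(a, 0)` of the glued space with `a` a unit at the non-node place `Q`. -/
theorem exists_unit_section {x₁ : F₁} (h₁ : IsFF1 k F₁ x₁)
    {e₁ : ι → Place k F₁} {e₂ : ι → Place k F₂} (hinj₁ : Function.Injective e₁)
    {P₁ : Divisor k F₁} {P₂ : Divisor k F₂}
    (hP₁ : ∀ i, P₁ (e₁ i) = 0) (hdegP₁ : 0 < Divisor.degree P₁)
    {Q : Place k F₁} (hQ : ∀ i, e₁ i ≠ Q) (hQP : P₁ Q = 0) :
    ∃ n₀ : ℕ, ∀ n : ℕ, n₀ ≤ n →
      ∃ a : F₁, ((a, 0) : F₁ × F₂) ∈ gluedSpace e₁ e₂ (fun _ => (1 : k)) (n • P₁) (n • P₂) ∧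
        Q.adicValuation a = 1 := by
  classical
  obtain ⟨c₁, hc₁⟩ := h₁.exists_degree_bound
  refine ⟨(c₁ + 1 + Fintype.card ι).toNat, fun n hn => ?_⟩
  have hn1 : c₁ + 1 + Fintype.card ι ≤ (n : ℤ) := by
    have h1 := Int.self_le_toNat (c₁ + 1 + Fintype.card ι)
    have h2 : ((c₁ + 1 + Fintype.card ι).toNat : ℤ) ≤ n := by exact_mod_cast hn
    linarith
  have hn0 : (0 : ℤ) ≤ (n : ℤ) := Int.natCast_nonneg _
  have hnp₁ : (n : ℤ) ≤ n * Divisor.degree P₁ := by nlinarith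
  have hnQ : (n • P₁) Q = 0 := by
    rw [Finsupp.smul_apply, hQP, smul_zero]
  have hQnode : ∀ i, (Finsupp.single Q (1 : ℤ) : Divisor k F₁) (e₁ i) = 0 := by
    intro i
    rw [Finsupp.single_apply, if_neg (fun h => hQ i h.symm)]
  have hB0 : ∀ i, (n • P₁) (e₁ i) = 0 := by
    intro i
    rw [Finsupp.smul_apply, hP₁, smul_zero]
  have hB : ∀ i, (n • P₁ - Finsupp.single Q (1 : ℤ)) (e₁ i) = 0 := by
    intro i
    rw [Finsupp.sub_apply, Finsupp.smul_apply, hP₁, hQnode, smul_zero, sub_zero]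
  have hdegQ : Divisor.degree (Finsupp.single Q (1 : ℤ)) = 1 := by
    rw [Divisor.degree_single, h₁.deg_eq_one]
    simp
  set D1 : Divisor k F₁ := n • P₁ - nodeDiv e₁ with hD1
  set D2 : Divisor k F₁ := n • P₁ - Finsupp.single Q (1 : ℤ) - nodeDiv e₁ with hD2
  have hdegD1 : Divisor.degree D1 = n * Divisor.degree P₁ - Fintype.card ι := by
    rw [hD1, degree_sub_nodeDiv h₁, map_nsmul, nsmul_eq_mul]
  have hdegD2 : Divisor.degree D2 = n * Divisor.degree P₁ - 1 - Fintype.card ι := by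
    rw [hD2, degree_sub_nodeDiv h₁, map_sub, map_nsmul, hdegQ, nsmul_eq_mul]
  have hf1 := (hc₁ D1 (by rw [hdegD1]; linarith)).2
  have hf2 := (hc₁ D2 (by rw [hdegD2]; linarith)).2
  have hex : ∃ a ∈ riemannRochSpace D1, a ∉ riemannRochSpace D2 := by
    by_contra hall
    push Not at hall
    have hle : riemannRochSpace D1 ≤ riemannRochSpace D2 := hall
    haveI := h₁.finite_L D2
    have h3 := Submodule.finrank_mono hle
    have h4 : (Module.finrank k (riemannRochSpace D1) : ℤ)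
        ≤ Module.finrank k (riemannRochSpace D2) := by exact_mod_cast h3
    rw [hf1, hf2, hdegD1, hdegD2] at h4
    linarith
  obtain ⟨a, haD1, haD2⟩ := hex
  obtain ⟨haL, hacong⟩ := (mem_L_sub_nodeDiv_iff hinj₁ hB0).1 haD1
  have haν : ¬ Q.adicValuation a ≤ exp (-1 : ℤ) := by
    intro h
    apply haD2
    refine (mem_L_sub_nodeDiv_iff hinj₁ hB).2 ⟨?_, hacong⟩
    exact (mem_L_sub_single_iff hnQ).2 ⟨haL, h⟩
  have haQ : Q.adicValuation a ≤ exp (0 : ℤ) := by
    have := haL Q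
    rwa [hnQ] at this
  have haν1 : Q.adicValuation a = exp (0 : ℤ) :=
    eq_exp_of_le_of_not_le haQ (by simpa using haν)
  exact ⟨a, mk_zero_mem_gluedSpace haL hacong, by rw [haν1, exp_zero]⟩

/-! ### (S3): regularity of the reduction -/

/-- **(S3)**  A function of `O` without poles in the disc of `Q` has a first reduction which is
regular at `Q`. -/
theorem regular_of_no_pole (S : Setup A O red π e₁ e₂ P₁ Z₁ P₂ Z₂ E1 E2 N₀) {x : F}
    (hF : IsFF1 L F x) {x₁ : F₁} {x₂ : F₂} (h₁ : IsFF1 k F₁ x₁) (h₂ : IsFF1 k F₂ x₂)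
    [Infinite k] {Q : Place k F₁} (hQ : ∀ i, e₁ i ≠ Q) (hQP : P₁ Q = 0) (hQZ : Z₁ Q = 0)
    (f : O) (hf : ∀ P, RedTo red E1 E2 N₀ Q P → P.adicValuation (f : F) ≤ 1) :
    Q.adicValuation (red f).1 ≤ 1 := by
  classical
  by_cases hf1 : (red f).1 = 0
  · rw [hf1, map_zero]
    exact zero_le_one
  have hf0 : (f : F) ≠ 0 := by
    intro h0
    apply hf1
    have hf' : f = 0 := Subtype.ext h0
    rw [hf', map_zero]
    rfl
  haveI := hF.hasPrincipalDivisors
  obtain ⟨D, hD, -⟩ := HasPrincipalDivisors.exists_divisor (K := L) (f : F) hf0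
  have hT : ∀ P, P ∈ D.support.filter (fun P => RedTo red E1 E2 N₀ Q P) ↔
      D P ≠ 0 ∧ RedTo red E1 E2 N₀ Q P := by
    intro P
    rw [Finset.mem_filter, Finsupp.mem_support_iff]
  have h := adicValuation_red_le S hF h₁ h₂ hQ hQP hQZ f hf1 D hD _ hT
  refine h.trans ?_
  rw [← exp_zero, exp_le_exp]
  have hsum : 0 ≤ ∑ P ∈ D.support.filter (fun P => RedTo red E1 E2 N₀ Q P), D P := by
    refine Finset.sum_nonneg (fun P hP => ?_)
    rw [hD]
    rcases (P.adicValuation_le_one_iff).1 (hf P ((hT P).1 hP).2) with h0 | h0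
    · exact absurd h0 hf0
    · exact h0
  omega

/-- A chart function has no pole in the disc of `Q`. -/
theorem adicValuation_le_one_of_mem_chart (S : Setup A O red π e₁ e₂ P₁ Z₁ P₂ Z₂ E1 E2 N₀)
    {Q : Place k F₁} {P : Place L F} (hP : RedTo red E1 E2 N₀ Q P) {n : ℕ × ℕ} {y : F}
    (hy : y ∈ riemannRochSpace (cd E1 E2 n)) : P.adicValuation y ≤ 1 := by
  have h := hy P
  rwa [cd_apply_eq_zero (hP.apply_eq_zero S).1 (hP.apply_eq_zero S).2, exp_zero] at h

/-- **(S3), one-sided.**  `OI ⊇ O` a larger ring with a reduction `redI` extending the first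
component of `red` (the Gauss ring of the first component), such that every element of `OI`
is brought into `O` by a power of any element of `O` vanishing on the second component.  A
function of `OI` without poles in the disc of `Q` has a reduction regular at `Q`. -/
theorem regular_of_no_pole_fst (S : Setup A O red π e₁ e₂ P₁ Z₁ P₂ Z₂ E1 E2 N₀) {x : F}
    (hF : IsFF1 L F x) {x₁ : F₁} {x₂ : F₂} (h₁ : IsFF1 k F₁ x₁) (h₂ : IsFF1 k F₂ x₂)
    [Infinite k] {Q : Place k F₁} (hQ : ∀ i, e₁ i ≠ Q) (hQP : P₁ Q = 0) (hQZ : Z₁ Q = 0)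
    (OI : Subring F) (redI : OI →+* F₁) (hOI : ∀ y ∈ O, y ∈ OI)
    (hredI : ∀ y : O, redI ⟨(y : F), hOI _ y.2⟩ = (red y).1)
    (harch : ∀ u ∈ OI, ∀ β : O, (red β).2 = 0 → ∃ N : ℕ, u * (β : F) ^ N ∈ O)
    (u : F) (hu : u ∈ OI) (hpole : ∀ P, RedTo red E1 E2 N₀ Q P → P.adicValuation u ≤ 1) :
    Q.adicValuation (redI ⟨u, hu⟩) ≤ 1 := by
  classical
  obtain ⟨n₀, hn₀⟩ := exists_unit_section (e₂ := e₂) (P₂ := P₂) h₁ S.hinj₁ S.hP₁ S.hdegP₁ hQ hQP
  obtain ⟨a, ha, haQ⟩ := hn₀ (max n₀ N₀) (le_max_left _ _)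
  have hN : N₀ ≤ ((max n₀ N₀, 0) : ℕ × ℕ).1 + ((max n₀ N₀, 0) : ℕ × ℕ).2 := by simp
  have ha' : ((a, 0) : F₁ × F₂) ∈ gluedSpace e₁ e₂ (fun _ => (1 : k))
      (cd P₁ Z₁ (max n₀ N₀, 0)) (cd P₂ Z₂ (max n₀ N₀, 0)) := by
    rwa [cd_fst, cd_fst]
  obtain ⟨β, hβL, hβ⟩ := (S.hS2 _ hN _).2 ha'
  obtain ⟨N, hNO⟩ := harch u hu β (by rw [hβ])
  have hpole' : ∀ P, RedTo red E1 E2 N₀ Q P →
      P.adicValuation (((⟨u * (β : F) ^ N, hNO⟩ : O) : F)) ≤ 1 := by
    intro P hP
    show P.adicValuation (u * (β : F) ^ N) ≤ 1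
    rw [map_mul, map_pow]
    exact mul_le_one' (hpole P hP)
      (pow_le_one' (adicValuation_le_one_of_mem_chart S hP hβL) N)
  have h := regular_of_no_pole S hF h₁ h₂ hQ hQP hQZ ⟨u * (β : F) ^ N, hNO⟩ hpole'
  have e1 : (red ⟨u * (β : F) ^ N, hNO⟩).1 = redI ⟨u, hu⟩ * a ^ N := by
    rw [← hredI]
    have e2 : (⟨u * (β : F) ^ N, hOI _ hNO⟩ : OI) = ⟨u, hu⟩ * ⟨(β : F), hOI _ β.2⟩ ^ N := rfl
    rw [e2, map_mul, map_pow, hredI β, hβ]
  rw [e1, map_mul, map_pow, haQ, one_pow, mul_one] at h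
  exact h

/-! ### (MOVE-Q): a local generator of a divisor on the disc of `Q` -/

/-- The value at a place `P` of the disc of `Q` of a chart function `w` whose first reduction
vanishes at `Q`: a constant `c ∈ A` with `w - c ∈ O` vanishing at `P` and with the same
reduction as `w`. -/
theorem exists_value (S : Setup A O red π e₁ e₂ P₁ Z₁ P₂ Z₂ E1 E2 N₀) {x : F}
    (hF : IsFF1 L F x) {Q : Place k F₁} {n : ℕ × ℕ} (hn : N₀ ≤ n.1 + n.2) (w : O)
    (hwL : (w : F) ∈ riemannRochSpace (cd E1 E2 n))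
    (hwQ : Q.adicValuation (red w).1 = exp (-1 : ℤ)) {P : Place L F}
    (hP : RedTo red E1 E2 N₀ Q P) :
    ∃ (c : L) (hc : (w : F) - algebraMap L F c ∈ O),
      P.adicValuation ((w : F) - algebraMap L F c) ≤ exp (-1 : ℤ) ∧
        red ⟨(w : F) - algebraMap L F c, hc⟩ = red w := by
  classical
  have hPw : P.adicValuation (w : F) ≤ 1 := adicValuation_le_one_of_mem_chart S hP hwL
  obtain ⟨c, hc⟩ := exists_cong (hF.resK P) hPw
  have hc' : P.adicValuation ((w : F) - algebraMap L F c) ≤ exp (-1 : ℤ) :=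
    (val_lt_one_iff _ _).1 hc
  have hcd : cd E1 E2 n P = 0 :=
    cd_apply_eq_zero (hP.apply_eq_zero S).1 (hP.apply_eq_zero S).2 n
  have hconstL : ∀ a : L, algebraMap L F a ∈ riemannRochSpace (cd E1 E2 n) := by
    intro a
    rw [Algebra.algebraMap_eq_smul_one]
    exact Submodule.smul_mem _ a (one_mem_L (cd_nonneg S.hE1 S.hE2 n))
  have hyL : (w : F) - algebraMap L F c ∈
      riemannRochSpace (cd E1 E2 n - Finsupp.single P (1 : ℤ)) :=
    (mem_L_sub_single_iff hcd).2 ⟨sub_mem hwL (hconstL c), hc'⟩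
  have hno : ¬ (1 : ℤᵐ⁰) ≤ exp (-1 : ℤ) := by
    rw [← exp_zero, exp_le_exp]
    omega
  by_cases hcA : c ∈ A
  · have hcO : algebraMap L F c ∈ O := (S.hOA c).2 hcA
    have hyO : (w : F) - algebraMap L F c ∈ O := O.sub_mem w.2 hcO
    have h1 := hP n hn ⟨_, hyO⟩ hyL
    have e : red ⟨(w : F) - algebraMap L F c, hyO⟩
        = red w - algebraMap k (F₁ × F₂) (π ⟨c, hcA⟩) := by
      have e0 : (⟨(w : F) - algebraMap L F c, hyO⟩ : O) = w - ⟨algebraMap L F c, hcO⟩ := rfl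
      rw [e0, map_sub, S.hconst ⟨c, hcA⟩]
    have hπc : π ⟨c, hcA⟩ = 0 := by
      by_contra hne
      have h2 : Q.adicValuation (algebraMap k F₁ (π ⟨c, hcA⟩)) = 1 :=
        adicValuation_algebraMap_eq_one Q hne
      have h3 : algebraMap k F₁ (π ⟨c, hcA⟩)
          = (red w).1 - (red ⟨(w : F) - algebraMap L F c, hyO⟩).1 := by
        rw [e]
        simp
      have h4 : Q.adicValuation (algebraMap k F₁ (π ⟨c, hcA⟩)) ≤ exp (-1 : ℤ) := by
        rw [h3]
        exact (Valuation.map_sub _ _ _).trans (max_le hwQ.le h1)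
      rw [h2] at h4
      exact hno h4
    refine ⟨c, hyO, hc', ?_⟩
    rw [e, hπc, map_zero, sub_zero]
  · exfalso
    have hc0 : c ≠ 0 := fun h => hcA (h ▸ A.zero_mem)
    have hciA : c⁻¹ ∈ A := (A.mem_or_inv_mem c).resolve_left hcA
    have hcival : A.valuation (c⁻¹ : L) < 1 := by
      have h1 : ¬ A.valuation c ≤ 1 := fun h => hcA ((A.valuation_le_one_iff c).1 h)
      rw [map_inv₀]
      exact inv_lt_one_of_one_lt₀ (not_le.1 h1)
    have hπ0 : π ⟨c⁻¹, hciA⟩ = 0 := (S.hπker ⟨c⁻¹, hciA⟩).2 hcival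
    have hciO : algebraMap L F c⁻¹ ∈ O := (S.hOA _).2 hciA
    have hy'O : algebraMap L F c⁻¹ * (w : F) - 1 ∈ O :=
      O.sub_mem (O.mul_mem hciO w.2) O.one_mem
    have hy'eq : algebraMap L F c⁻¹ * ((w : F) - algebraMap L F c)
        = algebraMap L F c⁻¹ * (w : F) - 1 := by
      rw [mul_sub, ← map_mul, inv_mul_cancel₀ hc0, map_one]
    have hy'L : algebraMap L F c⁻¹ * (w : F) - 1 ∈
        riemannRochSpace (cd E1 E2 n - Finsupp.single P (1 : ℤ)) := by
      rw [← hy'eq, ← Algebra.smul_def]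
      exact Submodule.smul_mem _ _ hyL
    have h1 := hP n hn ⟨_, hy'O⟩ hy'L
    have e : red ⟨algebraMap L F c⁻¹ * (w : F) - 1, hy'O⟩ = -1 := by
      have e0 : (⟨algebraMap L F c⁻¹ * (w : F) - 1, hy'O⟩ : O)
          = ⟨algebraMap L F c⁻¹, hciO⟩ * w - 1 := rfl
      rw [e0, map_sub, map_mul, S.hconst ⟨c⁻¹, hciA⟩, hπ0, map_zero, zero_mul, map_one,
        zero_sub]
    rw [e, Prod.fst_neg, Prod.fst_one, Valuation.map_neg, map_one] at h1
    exact hno h1

/-- **Conservation of number for a simple zero.**  A chart function whose first reduction has a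
simple zero at `Q` and which vanishes at a place `P` of the disc of `Q` has a simple zero at `P`
and no other zero in the disc. -/
theorem disc_zero_unique (S : Setup A O red π e₁ e₂ P₁ Z₁ P₂ Z₂ E1 E2 N₀) {x : F}
    (hF : IsFF1 L F x) {x₁ : F₁} {x₂ : F₂} (h₁ : IsFF1 k F₁ x₁) (h₂ : IsFF1 k F₂ x₂)
    [Infinite k] {Q : Place k F₁} (hQ : ∀ i, e₁ i ≠ Q) (hQP : P₁ Q = 0) (hQZ : Z₁ Q = 0)
    {n : ℕ × ℕ} (y : O) (hyL : (y : F) ∈ riemannRochSpace (cd E1 E2 n))
    (hyQ : Q.adicValuation (red y).1 = exp (-1 : ℤ)) {P : Place L F}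
    (hP : RedTo red E1 E2 N₀ Q P) (hPy : P.adicValuation (y : F) ≤ exp (-1 : ℤ)) :
    P.adicValuation (y : F) = exp (-1 : ℤ) ∧
      ∀ P', RedTo red E1 E2 N₀ Q P' → P' ≠ P → P'.adicValuation (y : F) = 1 := by
  classical
  have hy1 : (red y).1 ≠ 0 := by
    intro h0
    rw [h0, map_zero] at hyQ
    exact exp_ne_zero hyQ.symm
  have hy0 : (y : F) ≠ 0 := by
    intro h0
    apply hy1
    have hy' : y = 0 := Subtype.ext h0
    rw [hy', map_zero]
    rfl
  haveI := hF.hasPrincipalDivisors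
  obtain ⟨D, hD, -⟩ := HasPrincipalDivisors.exists_divisor (K := L) (y : F) hy0
  set T : Finset (Place L F) := D.support.filter (fun P => RedTo red E1 E2 N₀ Q P) with hTdef
  have hT : ∀ P, P ∈ T ↔ D P ≠ 0 ∧ RedTo red E1 E2 N₀ Q P := by
    intro P
    rw [hTdef, Finset.mem_filter, Finsupp.mem_support_iff]
  have h := adicValuation_red_le S hF h₁ h₂ hQ hQP hQZ y hy1 D hD T hT
  rw [hyQ, exp_le_exp] at h
  have hnonneg : ∀ P', RedTo red E1 E2 N₀ Q P' → 0 ≤ D P' := by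
    intro P' hP'
    rw [hD]
    rcases (P'.adicValuation_le_one_iff).1 (adicValuation_le_one_of_mem_chart S hP' hyL)
      with h0 | h0
    · exact absurd h0 hy0
    · exact h0
  have hDP : 1 ≤ D P := by
    rw [hD]
    rcases (P.adicValuation_le_exp_iff).1 hPy with h0 | h0
    · exact absurd h0 hy0
    · simpa using h0
  have hPT : P ∈ T := (hT P).2 ⟨by omega, hP⟩
  have hsplit : D P + ∑ P' ∈ T.erase P, D P' = ∑ P' ∈ T, D P' :=
    Finset.add_sum_erase T (fun P => D P) hPT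
  have hrest : 0 ≤ ∑ P' ∈ T.erase P, D P' :=
    Finset.sum_nonneg (fun P' hP' => hnonneg P' ((hT P').1 (Finset.mem_of_mem_erase hP')).2)
  have hDP1 : D P = 1 := by omega
  refine ⟨?_, fun P' hP' hne => ?_⟩
  · rw [P.adicValuation_eq_exp_neg_ord hy0, ← hD, hDP1]
  · have hD0 : D P' = 0 := by
      by_contra hne0
      have hmem : P' ∈ T.erase P := Finset.mem_erase.2 ⟨hne, (hT P').2 ⟨hne0, hP'⟩⟩
      have hle := Finset.single_le_sum
        (fun P'' hP'' => hnonneg P'' ((hT P'').1 (Finset.mem_of_mem_erase hP'')).2) hmem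
      have := hnonneg P' hP'
      omega
    rw [P'.adicValuation_eq_exp_neg_ord hy0, ← hD, hD0, neg_zero, exp_zero]

/-- **(MOVE-Q).**  Let `w` be a chart function whose first reduction has a simple zero at `Q`.
For every divisor `D` there is a function `f ≠ 0` with `ord_P f = D P` for every place `P` of the
disc of `Q`, namely `f = ∏_{P ∈ supp D ∩ disc} (w - w(P)) ^ (D P)`; it is fixed by every semilinear
automorphism fixing `w`, `D` and preserving the data. -/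
theorem exists_disc_generator (S : Setup A O red π e₁ e₂ P₁ Z₁ P₂ Z₂ E1 E2 N₀) {x : F}
    (hF : IsFF1 L F x) {x₁ : F₁} {x₂ : F₂} (h₁ : IsFF1 k F₁ x₁) (h₂ : IsFF1 k F₂ x₂)
    [Infinite k] {Q : Place k F₁} (hQ : ∀ i, e₁ i ≠ Q) (hQP : P₁ Q = 0) (hQZ : Z₁ Q = 0)
    {n : ℕ × ℕ} (hn : N₀ ≤ n.1 + n.2) (w : O)
    (hwL : (w : F) ∈ riemannRochSpace (cd E1 E2 n))
    (hwQ : Q.adicValuation (red w).1 = exp (-1 : ℤ)) (D : Divisor L F) :
    ∃ f : F, f ≠ 0 ∧
      (∀ P, RedTo red E1 E2 N₀ Q P → P.adicValuation f = exp (-(D P))) ∧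
      ∀ g : SemilinearAut L F, g • (w : F) = w → (∀ y ∈ O, g⁻¹ • y ∈ O) →
        (∀ (y : O) (h : g⁻¹ • (y : F) ∈ O), red ⟨g⁻¹ • (y : F), h⟩ = red y) →
        g • E1 = E1 → g • E2 = E2 → g • D = D → g • f = f := by
  classical
  have hex : ∀ P : Place L F, ∃ c : L, RedTo red E1 E2 N₀ Q P →
      ∃ hc : (w : F) - algebraMap L F c ∈ O,
        P.adicValuation ((w : F) - algebraMap L F c) ≤ exp (-1 : ℤ) ∧
          red ⟨(w : F) - algebraMap L F c, hc⟩ = red w := by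
    intro P
    by_cases hP : RedTo red E1 E2 N₀ Q P
    · obtain ⟨c, hc, h1, h2⟩ := exists_value S hF hn w hwL hwQ hP
      exact ⟨c, fun _ => ⟨hc, h1, h2⟩⟩
    · exact ⟨0, fun h => absurd h hP⟩
  choose c hc using hex
  have hconstL : ∀ a : L, algebraMap L F a ∈ riemannRochSpace (cd E1 E2 n) := by
    intro a
    rw [Algebra.algebraMap_eq_smul_one]
    exact Submodule.smul_mem _ a (one_mem_L (cd_nonneg S.hE1 S.hE2 n))
  -- the factors
  have hfac : ∀ P, RedTo red E1 E2 N₀ Q P →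
      P.adicValuation ((w : F) - algebraMap L F (c P)) = exp (-1 : ℤ) ∧
        ∀ P', RedTo red E1 E2 N₀ Q P' → P' ≠ P →
          P'.adicValuation ((w : F) - algebraMap L F (c P)) = 1 := by
    intro P hP
    obtain ⟨hcO, h1, h2⟩ := hc P hP
    exact disc_zero_unique S hF h₁ h₂ hQ hQP hQZ ⟨_, hcO⟩ (sub_mem hwL (hconstL _))
      (by rw [h2]; exact hwQ) hP h1
  set T : Finset (Place L F) := D.support.filter (fun P => RedTo red E1 E2 N₀ Q P) with hTdef
  have hT : ∀ P, P ∈ T ↔ D P ≠ 0 ∧ RedTo red E1 E2 N₀ Q P := by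
    intro P
    rw [hTdef, Finset.mem_filter, Finsupp.mem_support_iff]
  have hne : ∀ P ∈ T, (w : F) - algebraMap L F (c P) ≠ 0 := by
    intro P hP h0
    have h1 := (hfac P ((hT P).1 hP).2).1
    rw [h0, map_zero] at h1
    exact exp_ne_zero h1.symm
  refine ⟨∏ P ∈ T, ((w : F) - algebraMap L F (c P)) ^ (D P), ?_, ?_, ?_⟩
  · exact Finset.prod_ne_zero_iff.2 (fun P hP => zpow_ne_zero _ (hne P hP))
  · intro P' hP'
    rw [map_prod]
    by_cases hP'T : P' ∈ T
    · rw [Finset.prod_eq_single P']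
      · rw [map_zpow₀, (hfac P' hP').1, ← exp_zsmul]
        congr 1
        simp
      · intro P _ hPP'
        rw [map_zpow₀, (hfac P ((hT P).1 ‹_›).2).2 P' hP' (Ne.symm hPP'), one_zpow]
      · intro h
        exact absurd hP'T h
    · have hD0 : D P' = 0 := by
        by_contra h0
        exact hP'T ((hT P').2 ⟨h0, hP'⟩)
      rw [hD0, neg_zero, exp_zero]
      refine Finset.prod_eq_one (fun P hP => ?_)
      have hPP' : P' ≠ P := fun h => hP'T (h ▸ hP)
      rw [map_zpow₀, (hfac P ((hT P).1 hP).2).2 P' hP' hPP', one_zpow]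
  · intro g hgw hgO hgred hgE1 hgE2 hgD
    -- the values are permuted
    have hDg : ∀ P, D (g • P) = D P := fun P => apply_smul_of_smul_eq hgD P
    have hcg : ∀ P, RedTo red E1 E2 N₀ Q P →
        SemilinearAut.baseAut g (c P) = c (g • P) := by
      intro P hP
      have hgP : RedTo red E1 E2 N₀ Q (g • P) := hP.smul g hgO hgred hgE1 hgE2
      obtain ⟨-, h1, -⟩ := hc P hP
      obtain ⟨-, h1', -⟩ := hc (g • P) hgP
      have h2 : (g • P).adicValuation
          ((w : F) - algebraMap L F (SemilinearAut.baseAut g (c P))) ≤ exp (-1 : ℤ) := by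
        have h3 := Fermat.Agent.Padic.adicValuation_semilinear_smul g P
          ((w : F) - algebraMap L F (c P))
        rw [smul_sub, hgw, SemilinearAut.smul_algebraMap] at h3
        rw [h3]
        exact h1
      have hC1 : Cong (g • P) (w : F) (SemilinearAut.baseAut g (c P)) :=
        (val_lt_one_iff _ _).2 h2
      have hC2 : Cong (g • P) (w : F) (c (g • P)) := (val_lt_one_iff _ _).2 h1'
      exact hC1.unique hC2
    have hgT : ∀ P ∈ T, g • P ∈ T := by
      intro P hP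
      obtain ⟨h1, h2⟩ := (hT P).1 hP
      exact (hT _).2 ⟨by rw [hDg]; exact h1, h2.smul g hgO hgred hgE1 hgE2⟩
    have himg : T.image (fun P => g • P) = T := by
      refine Finset.eq_of_subset_of_card_le ?_ ?_
      · intro P' hP'
        obtain ⟨P, hP, rfl⟩ := Finset.mem_image.1 hP'
        exact hgT P hP
      · rw [Finset.card_image_of_injective _ (MulAction.injective g)]
    have e1 : g • ∏ P ∈ T, ((w : F) - algebraMap L F (c P)) ^ (D P)
        = ∏ P ∈ T, ((w : F) - algebraMap L F (c (g • P))) ^ (D (g • P)) := by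
      rw [SemilinearAut.smul_def, map_prod]
      refine Finset.prod_congr rfl (fun P hP => ?_)
      rw [map_zpow₀, ← SemilinearAut.smul_def, smul_sub, hgw, SemilinearAut.smul_algebraMap,
        hcg P ((hT P).1 hP).2, hDg]
    rw [e1]
    have e2 := Finset.prod_image (s := T) (g := fun P : Place L F => g • P)
      (f := fun P => ((w : F) - algebraMap L F (c P)) ^ (D P))
      (fun P _ P' _ h => MulAction.injective g h)
    rw [himg] at e2
    exact e2.symm

/-! ### `(loc)` at a smooth point -/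

/-- **`(loc)` at `Q`.**  If `Ψ ≡ Y mod ϖ ^ (t + 1) OI` with `Y` without poles in the disc of `Q`,
then for `j ≤ t`, a constant `B` and `u ∈ OI` with `Ψ - B = ϖ ^ j u`, the reduction of `u` is
regular at `Q` (the hypothesis `hloc` of `ConstAbs.const_of_loc` at the place `Q`). -/
theorem loc_of_disc (S : Setup A O red π e₁ e₂ P₁ Z₁ P₂ Z₂ E1 E2 N₀) {x : F}
    (hF : IsFF1 L F x) {x₁ : F₁} {x₂ : F₂} (h₁ : IsFF1 k F₁ x₁) (h₂ : IsFF1 k F₂ x₂)
    [Infinite k] {Q : Place k F₁} (hQ : ∀ i, e₁ i ≠ Q) (hQP : P₁ Q = 0) (hQZ : Z₁ Q = 0)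
    (OI : Subring F) (redI : OI →+* F₁) (hOI : ∀ y ∈ O, y ∈ OI)
    (hredI : ∀ y : O, redI ⟨(y : F), hOI _ y.2⟩ = (red y).1)
    (harch : ∀ u ∈ OI, ∀ β : O, (red β).2 = 0 → ∃ N : ℕ, u * (β : F) ^ N ∈ O)
    (ϖ : L) (hϖ0 : ϖ ≠ 0) (hϖO : algebraMap L F ϖ ∈ OI)
    (hredϖ : redI ⟨algebraMap L F ϖ, hϖO⟩ = 0) (t : ℕ)
    (Ψ Y w : F) (hw : w ∈ OI) (hΨY : Ψ - Y = algebraMap L F ϖ ^ (t + 1) * w)
    (hY : ∀ P, RedTo red E1 E2 N₀ Q P → P.adicValuation Y ≤ 1)
    (j : ℕ) (hj : j ≤ t) (B : L) (u : F) (hu : u ∈ OI)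
    (huΨ : Ψ - algebraMap L F B = algebraMap L F ϖ ^ j * u) :
    Q.adicValuation (redI ⟨u, hu⟩) ≤ 1 := by
  refine ConstAbs.loc_congr OI redI (algebraMap L F ϖ) hϖO hredϖ t Q Ψ Y w hw hΨY j hj
    (algebraMap L F B) (fun u' hu' hu'Y => ?_) u hu huΨ
  refine regular_of_no_pole_fst S hF h₁ h₂ hQ hQP hQZ OI redI hOI hredI harch u' hu'
    (fun P hP => ?_)
  have h1 : P.adicValuation (Y - algebraMap L F B) ≤ 1 :=
    (Valuation.map_sub _ _ _).trans (max_le (hY P hP) (P.adicValuation_algebraMap_le_one B))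
  rw [hu'Y, map_mul, map_pow, adicValuation_algebraMap_eq_one P hϖ0, one_pow, one_mul] at h1
  exact h1

/-- **`(loc)` at `Q`, multiplicative form.**  If `G ≡ 1 mod ϖ ^ (t + 1) OI` and `Ψ G` has no
pole in the disc of `Q` (`Ψ ∈ OI`), then `Ψ` satisfies `(loc)` at `Q`. -/
theorem loc_of_disc_mul (S : Setup A O red π e₁ e₂ P₁ Z₁ P₂ Z₂ E1 E2 N₀) {x : F}
    (hF : IsFF1 L F x) {x₁ : F₁} {x₂ : F₂} (h₁ : IsFF1 k F₁ x₁) (h₂ : IsFF1 k F₂ x₂)
    [Infinite k] {Q : Place k F₁} (hQ : ∀ i, e₁ i ≠ Q) (hQP : P₁ Q = 0) (hQZ : Z₁ Q = 0)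
    (OI : Subring F) (redI : OI →+* F₁) (hOI : ∀ y ∈ O, y ∈ OI)
    (hredI : ∀ y : O, redI ⟨(y : F), hOI _ y.2⟩ = (red y).1)
    (harch : ∀ u ∈ OI, ∀ β : O, (red β).2 = 0 → ∃ N : ℕ, u * (β : F) ^ N ∈ O)
    (ϖ : L) (hϖ0 : ϖ ≠ 0) (hϖO : algebraMap L F ϖ ∈ OI)
    (hredϖ : redI ⟨algebraMap L F ϖ, hϖO⟩ = 0) (t : ℕ)
    (Ψ G z : F) (hΨ : Ψ ∈ OI) (hz : z ∈ OI) (hG : G - 1 = algebraMap L F ϖ ^ (t + 1) * z)
    (hΨG : ∀ P, RedTo red E1 E2 N₀ Q P → P.adicValuation (Ψ * G) ≤ 1)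
    (j : ℕ) (hj : j ≤ t) (B : L) (u : F) (hu : u ∈ OI)
    (huΨ : Ψ - algebraMap L F B = algebraMap L F ϖ ^ j * u) :
    Q.adicValuation (redI ⟨u, hu⟩) ≤ 1 := by
  refine loc_of_disc S hF h₁ h₂ hQ hQP hQZ OI redI hOI hredI harch ϖ hϖ0 hϖO hredϖ t Ψ
    (Ψ * G) (-(Ψ * z)) (OI.neg_mem (OI.mul_mem hΨ hz)) ?_ hΨG j hj B u hu huΨ
  have e : Ψ - Ψ * G = -(Ψ * (G - 1)) := by ring
  rw [e, hG]
  ring

end Two

end Fermat.Agent.TR.PL.Smooth
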