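import Mathlib
import Fermat.Agent.TR.PL.SigmaSeam
import Fermat.Agent.TR.Node.SigmaGluePow

/-!
# TR / (PL), (I5)(β): `(g / σ g) ^ p ≡ 1` modulo `w ^ (p t + 1)` for a `K''`-rational unit `g`

Setting of `TR/PL/SigmaSeam.lean`: `H ≤ I` of finite relative index, `σ ∈ I` with the Lipschitz
bound `v(σ c − c) ≤ v(σ w − w)` on `A ∩ K''`, and the numerics of the wild frame
`σ w = w (1 + η)`, `η = w ^ t u₀`, `p w ^ t = w ^ (p t + 1) r`.  For a `K''`-rational function `g`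
which is a unit of `O_∞` (resp. `O_0`):

* `pow_div_sub_one_inf` : `(g / σ g) ^ p − 1 ∈ w ^ (p t + 1) O_∞`;
* `pow_div_sub_one_zero` : `(g / σ g) ^ p − 1 ∈ w ^ (p t + 1) O_0`.

(`σ g − g = (σ w − w) y = w ^ (t + 1) u₀ y`, so `g / σ g ≡ 1 mod w ^ (t + 1)`, and `p`-th powers
gain depth: `SigmaGluePow.pow_congr`.)
-/

set_option autoImplicit false
set_option linter.unusedSectionVars false

namespace Fermat.Agent.TR.PL.SmoothI5x

open HahnSeries ModularCurve AlgebraicCurve Fermat.Agent.Lib.Red Fermat.Agent.BAD.TwoVal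
open Fermat.Agent.BAD.LatFixed Fermat.Agent.BAD.LatFixedInst
open Fermat.Agent.TR.PL.Frame Fermat.Agent.TR.PL.LocalField Fermat.Agent.TR.PL.BaseChangeSigma
open Fermat.Agent.CAR.K0
open Fermat.Agent.TR.Node.SigmaGlue Fermat.Agent.TR.Node.SigmaGluePow
open Fermat.Agent.TR.PL.SigmaSeam

local notation "Qb" => AlgebraicClosure ℚ
local notation "GQ" => (AlgebraicClosure ℚ ≃ₐ[ℚ] AlgebraicClosure ℚ)

/-! ### The abstract core -/

section Abs

variable {F : Type*} [Field F] {O : ValuationSubring F} {ϖ : F} {t q : ℕ}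

/-- If `s − g ∈ ϖ ^ (t + 1) O` and `s` is a unit of `O`, then `(g / s) ^ q − 1 ∈ ϖ ^ (q t + 1) O`
(`q` a prime with `q ϖ ^ t ∈ ϖ ^ (q t + 1) O`). -/
theorem pow_div_sub_one_abs (hq : q.Prime) (hϖ : ϖ ∈ O)
    (hqϖ : ∃ r ∈ O, (q : F) * ϖ ^ t = ϖ ^ (q * t + 1) * r) {g s y : F}
    (hs0 : s ≠ 0) (hsi : s⁻¹ ∈ O) (hy : y ∈ O) (e : s - g = ϖ ^ (t + 1) * y) :
    ∃ z ∈ O, (g / s) ^ q - 1 = ϖ ^ (q * t + 1) * z := by
  have h1 : Cg O ϖ (t + 1) (g / s) 1 := by
    refine ⟨-(y * s⁻¹), O.neg_mem _ (O.mul_mem _ _ hy hsi), ?_⟩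
    have hg : g = s - ϖ ^ (t + 1) * y := by rw [← e]; ring
    rw [hg]
    field_simp
    ring
  have h2 := pow_congr hq hϖ hqϖ O.one_mem h1
  rw [one_pow] at h2
  exact h2

end Abs

/-! ### At a valuation subring of the modular function field over `ℚ̄` -/

section Gen

variable {p N : ℕ} {A : ValuationSubring Qb}

/-- The common core of the two sides: `O` a valuation subring of the function field with
`O ∩ ℚ̄ = A` on which `σ g − g ∈ (σ w − w) O` for the `K''`-rational `g ∈ O`. -/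
theorem pow_div_sub_one_of (hp : p.Prime) {H : Set GQ}
    (O : ValuationSubring (laurentBaseChange Qb (modularFunctionFieldFull N)))
    (hOA : ∀ a : Qb, algebraMap Qb (laurentBaseChange Qb (modularFunctionFieldFull N)) a ∈ O ↔
      a ∈ A)
    {σ : GQ} {w : Qb}
    (hsub : ∀ g ∈ fixedFunOf H N, g ∈ O → ∃ y ∈ O,
      arithmeticGalois (L := Qb) (modularFunctionFieldFull N) σ • g - g = (σ w - w) • y)
    {η u₀ r : Qb} {t : ℕ}
    (hσw : σ w = w * (1 + η)) (hη : η = w ^ t * u₀) (hu₀ : u₀ ∈ A) (hr : r ∈ A)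
    (hpw : (p : Qb) * w ^ t = w ^ (p * t + 1) * r) (hw : w ∈ A)
    {g : laurentBaseChange Qb (modularFunctionFieldFull N)}
    (hg : g ∈ fixedFunOf H N) (hg0 : g ≠ 0) (hgO : g ∈ O) (hgi : g⁻¹ ∈ O) :
    ∃ z ∈ O,
      (g / (arithmeticGalois (L := Qb) (modularFunctionFieldFull N) σ • g)) ^ p - 1 =
        algebraMap Qb (laurentBaseChange Qb (modularFunctionFieldFull N)) w ^ (p * t + 1) * z := by
  have hd : σ w - w = w ^ (t + 1) * u₀ := by rw [hσw, hη]; ring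
  have hdA : σ w - w ∈ A := by
    rw [hd]
    exact A.mul_mem _ _ (pow_mem hw _) hu₀
  -- `σ g − g`
  obtain ⟨y, hy, ey⟩ := hsub g hg hgO
  -- `σ g⁻¹ − g⁻¹`
  have hgi' : g⁻¹ ∈ fixedFunOf H N := by
    intro τ hτ
    rw [smul_inv'', hg τ hτ]
  obtain ⟨y', hy', ey'⟩ := hsub g⁻¹ hgi' hgi
  have hsi : (arithmeticGalois (L := Qb) (modularFunctionFieldFull N) σ • g)⁻¹ ∈ O := by
    have e1 : (arithmeticGalois (L := Qb) (modularFunctionFieldFull N) σ • g)⁻¹ =
        g⁻¹ + (σ w - w) • y' := by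
      rw [← ey', smul_inv'']
      ring
    rw [e1, Algebra.smul_def]
    exact O.add_mem _ _ hgi (O.mul_mem _ _ ((hOA _).2 hdA) hy')
  have hs0 : arithmeticGalois (L := Qb) (modularFunctionFieldFull N) σ • g ≠ 0 :=
    (smul_ne_zero_iff_ne _).2 hg0
  have hqϖ : ∃ r' ∈ O, (p : laurentBaseChange Qb (modularFunctionFieldFull N)) *
      algebraMap Qb (laurentBaseChange Qb (modularFunctionFieldFull N)) w ^ t =
      algebraMap Qb (laurentBaseChange Qb (modularFunctionFieldFull N)) w ^ (p * t + 1) * r' := by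
    refine ⟨algebraMap Qb _ r, (hOA r).2 hr, ?_⟩
    have := congrArg (algebraMap Qb (laurentBaseChange Qb (modularFunctionFieldFull N))) hpw
    simpa only [map_mul, map_pow, map_natCast] using this
  refine pow_div_sub_one_abs hp ((hOA w).2 hw) hqϖ hs0 hsi
    (O.mul_mem _ _ ((hOA u₀).2 hu₀) hy) ?_
  rw [ey, hd, Algebra.smul_def, map_mul, map_pow]
  ring

end Gen

/-! ### At the two Gauss valuation rings of the bad fibre -/

section Inst

variable {p : ℕ} [Fact p.Prime] [NeZero p] {A : ValuationSubring Qb} {k : Type} [Field k]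
  {π : A →+* k} {M : ℕ} [NeZero M]
  {W : laurentBaseChange Qb (modularFunctionFieldFull (M * p)) ≃ₐ[Qb]
    laurentBaseChange Qb (modularFunctionFieldFull (M * p))}
  (hA : A.LiesOverPrime p) (h : BadSetup A π M p) (hsurj : Function.Surjective π)
  (hW : IsAL M p W) {H : Subgroup GQ} (hH : H ≤ A.inertiaSubgroupIn ℚ)
  (hidx : H.relIndex (A.inertiaSubgroupIn ℚ) ≠ 0)

include hA hsurj hW hidx in
/-- **(I5)(β), `∞`-side.** `(g / σ g) ^ p ≡ 1` modulo `w ^ (p t + 1) O_∞` for a `K''`-rational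
unit `g` of `O_∞`. -/
theorem pow_div_sub_one_inf {σ : GQ} (hσ : σ ∈ A.inertiaSubgroupIn ℚ) {w : Qb}
    (hlip : ∀ c : Qb, c ∈ A → c ∈ fixK A H hH →
      A.valuation (σ c - c) ≤ A.valuation (σ w - w))
    {η u₀ r : Qb} {t : ℕ}
    (hσw : σ w = w * (1 + η)) (hη : η = w ^ t * u₀) (hu₀ : u₀ ∈ A) (hr : r ∈ A)
    (hpw : (p : Qb) * w ^ t = w ^ (p * t + 1) * r) (hw : w ∈ A)
    {g : laurentBaseChange Qb (modularFunctionFieldFull (M * p))}
    (hg : g ∈ fixedFunOf (H : Set GQ) (M * p)) (hg0 : g ≠ 0) (hgO : g ∈ OInf h)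
    (hgi : g⁻¹ ∈ OInf h) :
    ∃ z ∈ OInf h,
      (g / (arithmeticGalois (L := Qb) (modularFunctionFieldFull (M * p)) σ • g)) ^ p - 1 =
        algebraMap Qb (laurentBaseChange Qb (modularFunctionFieldFull (M * p))) w ^ (p * t + 1) *
          z :=
  pow_div_sub_one_of Fact.out (OInf h) (algebraMap_mem_OInf_iff h)
    (fun _ hg' hgO' => galois_sub_mem_inf_of_lip hA h hsurj hW hH hidx hσ hlip hg' hgO')
    hσw hη hu₀ hr hpw hw hg hg0 hgO hgi

include hA hsurj hW hidx in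
/-- **(I5)(β), `0`-side.** `(g / σ g) ^ p ≡ 1` modulo `w ^ (p t + 1) O_0` for a `K''`-rational
unit `g` of `O_0`. -/
theorem pow_div_sub_one_zero {σ : GQ} (hσ : σ ∈ A.inertiaSubgroupIn ℚ) {w : Qb}
    (hlip : ∀ c : Qb, c ∈ A → c ∈ fixK A H hH →
      A.valuation (σ c - c) ≤ A.valuation (σ w - w))
    {η u₀ r : Qb} {t : ℕ}
    (hσw : σ w = w * (1 + η)) (hη : η = w ^ t * u₀) (hu₀ : u₀ ∈ A) (hr : r ∈ A)
    (hpw : (p : Qb) * w ^ t = w ^ (p * t + 1) * r) (hw : w ∈ A)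
    {g : laurentBaseChange Qb (modularFunctionFieldFull (M * p))}
    (hg : g ∈ fixedFunOf (H : Set GQ) (M * p)) (hg0 : g ≠ 0) (hgO : g ∈ OZero h W)
    (hgi : g⁻¹ ∈ OZero h W) :
    ∃ z ∈ OZero h W,
      (g / (arithmeticGalois (L := Qb) (modularFunctionFieldFull (M * p)) σ • g)) ^ p - 1 =
        algebraMap Qb (laurentBaseChange Qb (modularFunctionFieldFull (M * p))) w ^ (p * t + 1) *
          z :=
  pow_div_sub_one_of Fact.out (OZero h W) (algebraMap_mem_OZero_iff h)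
    (fun _ hg' hgO' => galois_sub_mem_zero_of_lip hA h hsurj hW hH hidx hσ hlip hg' hgO')
    hσw hη hu₀ hr hpw hw hg hg0 hgO hgi

end Inst

end Fermat.Agent.TR.PL.SmoothI5x
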