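/-
TR (row 38 through S44), node side: **the wild call**, compiled independently from the frame
(`FrameWild.exists_wild_frame`, clause 12) down to the binders of the constant argument
(`ConstInst.dvd_gamma_sub_bad`, i.e. `GlueNodeU.dvd_gamma_sub_node` at the BAD objects).

Setting: `A` a valuation subring of `ℚ̄` over `p`, `h : BadSetup A π M p`, `W` Atkin–Lehner,
`H ≤ I` of finite relative index, `K'' = ℚ̄^H`, `w` a uniformiser of `K''`, `σ ∈ I` normalising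
`H`, with the wild numerics of the frame `σ w = w (1 + η)`, `η = w^t u₀`, `v(u₀) = 1`, `1 ≤ t`,
`p w^t = w^(p t + 1) r`, and the Lipschitz bound `v(σ c − c) ≤ v(σ w − w)` on `A ∩ K''`.

* `gamma_congr_wild_core` : for a `K''`-rational `f₀ ≠ 0` (the Kummer function) with the smooth
  regularity (I5) of `u = σ f₀ / f₀`, and per node `i` a `K''`-rational `g i ≠ 0` (the local
  generator), `g i = w^(n∞ i) · unit` on the component `∞`, `g i = w^(n0 i) · unit` on the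
  component `0`, with `σ (f₀ / g i ^ p) / (f₀ / g i ^ p)` in the node ring: then
  `p ∣ (n0 i − n∞ i) − (n0 j − n∞ j)`.  All the per-node congruences (`hY`, `hH₁`, `hc`,
  `hH₂`, `hcγ` of `dvd_gamma_sub_bad`) are proved here from the frame.
* `gamma_congr_wild_frame` : the same with the frame data in the literal shape of clause 12 of
  `FrameWild.exists_wild_frame` at `H = stabV A V` (index `(p − 1) p^s`, conjugation of `H`
  by inertia, the Lipschitz bound for all of inertia).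
-/
import Mathlib
import Fermat.Agent.TR.PL.ConstInst
import Fermat.Agent.TR.PL.ConstFrame
import Fermat.Agent.TR.PL.SigmaSeam
import Fermat.Agent.TR.PL.FrameWild
import Fermat.Agent.TR.Node.SigmaGlue

set_option autoImplicit false
set_option linter.unusedSectionVars false

noncomputable section

namespace Fermat.Agent.TR.PL.WildCall93

open AlgebraicCurve ModularCurve WithZero Fermat.Agent.Lib.FF Fermat.Agent.BAD.NodalRiemann
  Fermat.Agent.Lib.Red Fermat.Agent.Lib.Red.Deform Fermat.Agent.BAD.TwoVal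
  Fermat.Agent.BAD.LatFixed Fermat.Agent.BAD.LatFixedInst Fermat.Agent.TR.Node.NodeRingAbs
  Fermat.Agent.TR.PL.LocalField Fermat.Agent.TR.PL.Frame Fermat.Agent.TR.PL.SigmaSeam

local notation "Qb" => AlgebraicClosure ℚ
local notation "GQ" => (AlgebraicClosure ℚ ≃ₐ[ℚ] AlgebraicClosure ℚ)

/-! ### Pure field identities -/

section Gen

variable {L F : Type*} [Field L] [Field F] [Algebra L F]

/-- `σ G / G` for `G = a⁻¹ • g`, `σ a = a d`. -/
theorem quot_twist {a d : L} {S g : F} (ha : a ≠ 0) :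
    ((a * d)⁻¹ • S) / (a⁻¹ • g) = d⁻¹ • (S / g) := by
  have ha' : algebraMap L F a ≠ 0 := (map_ne_zero _).2 ha
  rw [Algebra.smul_def, Algebra.smul_def, Algebra.smul_def, mul_inv, map_mul, map_inv₀, map_inv₀,
    mul_assoc, mul_div_mul_left _ _ (inv_ne_zero ha'), mul_div_assoc]

/-- `σ (f / g ^ p) / (f / g ^ p)` in terms of `σ f / f` and `σ g / g`. -/
theorem quot_pow (Sf S f g : F) (p : ℕ) :
    (Sf / S ^ p) / (f / g ^ p) = (Sf / f) / (S / g) ^ p := by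
  rw [div_pow, div_div_div_comm]

/-- Untwisting the `p`-th power. -/
theorem div_twist_pow {d : L} (hd : d ≠ 0) (u x : F) (p : ℕ) :
    u / (d⁻¹ • x) ^ p = algebraMap L F (d ^ p) * (u / x ^ p) := by
  have hd' : algebraMap L F d ≠ 0 := (map_ne_zero _).2 hd
  rw [Algebra.smul_def, mul_pow, map_inv₀, inv_pow, map_pow, div_mul_eq_div_div, div_inv_eq_mul]
  ring

/-- `(σ G / G − 1) / ϖ^(t+1)` from `σ G − G = (ϖ^(t+1) U) y`. -/
theorem quot_sub_one_div {SG G ϖ U y : F} (hG : G ≠ 0) (hϖ : ϖ ≠ 0) (t : ℕ)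
    (e : SG - G = (ϖ ^ (t + 1) * U) * y) :
    (SG / G - 1) / ϖ ^ (t + 1) = U * y * G⁻¹ := by
  have hϖt : ϖ ^ (t + 1) ≠ 0 := pow_ne_zero _ hϖ
  have e' : SG = G + ϖ ^ (t + 1) * U * y := by rw [← e]; ring
  rw [e']
  field_simp
  ring

/-- The twisted quotient minus its constant. -/
theorem twist_sub_div {c : L} {X ϖ : F} (t : ℕ) :
    (c • X - algebraMap L F c) / ϖ ^ (t + 1) = algebraMap L F c * ((X - 1) / ϖ ^ (t + 1)) := by
  rw [Algebra.smul_def, mul_div_assoc', mul_sub, mul_one]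

/-- Comparing the two normalisations. -/
theorem twist_twist {d₁ d₂ : L} (hd₂ : d₂ ≠ 0) (X : F) :
    d₁⁻¹ • X = (d₂ / d₁) • (d₂⁻¹ • X) := by
  rw [smul_smul, div_mul_eq_mul_div, mul_inv_cancel₀ hd₂, one_div]

end Gen

/-! ### The constants of the frame -/

section Const

variable {A : ValuationSubring Qb}

/-- `σ (w ^ n) = w ^ n * (1 + η) ^ n`. -/
theorem sigma_zpow {σ : GQ} {w η : Qb} (hσw : σ w = w * (1 + η)) (n : ℤ) :
    σ (w ^ n) = w ^ n * (1 + η) ^ n := by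
  rw [map_zpow₀, hσw, mul_zpow]

/-- `σ w − w = w ^ (t + 1) * u₀`. -/
theorem sigma_sub {σ : GQ} {w η u₀ : Qb} {t : ℕ} (hσw : σ w = w * (1 + η))
    (hη : η = w ^ t * u₀) : σ w - w = w ^ (t + 1) * u₀ := by
  rw [hσw, hη]
  ring

/-- `(1 + η) ^ n` is a unit of `A`. -/
theorem valuation_one_add_zpow {η : Qb} (hη : A.valuation η < 1) (n : ℤ) :
    A.valuation ((1 + η) ^ n) = 1 := by
  rw [map_zpow₀, A.valuation.map_one_add_of_lt hη, one_zpow]

theorem valuation_mul_lt_one {x y : Qb} (hx : x ∈ A) (hy : A.valuation y < 1) :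
    A.valuation (x * y) < 1 := by
  rw [map_mul]
  have h1 : A.valuation x ≤ 1 := (A.valuation_le_one_iff x).2 hx
  calc A.valuation x * A.valuation y ≤ 1 * A.valuation y := mul_le_mul' h1 le_rfl
    _ = A.valuation y := one_mul _
    _ < 1 := hy

/-- If `σ` normalises `H` and `σ w = w (1 + η)` with `w` fixed by `H`, then `η` is fixed by
`H`. -/
theorem eta_mem_fixed {H : Subgroup GQ} {σ : GQ} (hconj : ∀ τ ∈ H, σ⁻¹ * τ * σ ∈ H) {w η : Qb}
    (hw0 : w ≠ 0) (hwK : w ∈ fixedSubfieldOf (H : Set GQ)) (hσw : σ w = w * (1 + η)) :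
    η ∈ fixedSubfieldOf (H : Set GQ) := by
  have hηeq : η = σ w / w - 1 := by
    rw [hσw, mul_div_cancel_left₀ _ hw0, add_sub_cancel_left]
  intro τ hτ
  have e1 : τ (σ w) = σ ((σ⁻¹ * τ * σ) w) := by
    show (τ * σ) w = (σ * (σ⁻¹ * τ * σ)) w
    congr 1
    group
  have e2 : τ (σ w) = σ w := by rw [e1, hwK _ (hconj τ hτ)]
  rw [hηeq, map_sub, map_div₀, map_one, e2, hwK τ hτ]

end Const

/-! ### The wild call -/

section Main

variable {p : ℕ} [NeZero p] {A : ValuationSubring Qb} {k : Type} [Field k]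
  {π : A →+* k} {M : ℕ} [NeZero M]
  {W : laurentBaseChange Qb (modularFunctionFieldFull (M * p)) ≃ₐ[Qb]
    laurentBaseChange Qb (modularFunctionFieldFull (M * p))}

/-- The action of `σ` on a normalised function: `σ G / G = ((1 + η) ^ n)⁻¹ • (σ g / g)` for
`G = (w ^ n)⁻¹ • g`. -/
theorem galois_normalised_div {σ : GQ} {w η : Qb} (hw0 : w ≠ 0) (hσw : σ w = w * (1 + η))
    (n : ℤ) (g : laurentBaseChange Qb (modularFunctionFieldFull (M * p))) :
    arithmeticGalois (L := Qb) (modularFunctionFieldFull (M * p)) σ • ((w ^ n)⁻¹ • g) /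
        ((w ^ n)⁻¹ • g) =
      ((1 + η) ^ n)⁻¹ •
        (arithmeticGalois (L := Qb) (modularFunctionFieldFull (M * p)) σ • g / g) := by
  rw [Fermat.Agent.Padic.arithmeticGalois_smul_const_smul, map_inv₀, sigma_zpow hσw]
  exact quot_twist (zpow_ne_zero n hw0)

/-- A normalised nonzero function is nonzero. -/
theorem zpow_smul_ne_zero {w : Qb} (hw0 : w ≠ 0) (n : ℤ)
    {g : laurentBaseChange Qb (modularFunctionFieldFull (M * p))} (hg : g ≠ 0) :
    (w ^ n)⁻¹ • g ≠ 0 := by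
  rw [Algebra.smul_def]
  exact mul_ne_zero ((map_ne_zero _).2 (inv_ne_zero (zpow_ne_zero n hw0))) hg

/-- (`hY`) From (REG) for `f₀ / g ^ p` to the literal `u / Hs ^ p` of the constant argument. -/
theorem node_hY (h : BadSetup A π M p) {σ : GQ} {w η : Qb} (hw0 : w ≠ 0)
    (hσw : σ w = w * (1 + η)) (hη0 : (1 + η) ≠ 0) (hηA : ∀ n : ℤ, (1 + η) ^ n ∈ A)
    {ι : Type*} (E : Divisor Qb (laurentBaseChange Qb (modularFunctionFieldFull (M * p))))
    (e₁ e₂ : ι → Place k (modularFunctionFieldFullC k M)) (hE : 0 ≤ E) (i : ι)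
    {f₀ g : laurentBaseChange Qb (modularFunctionFieldFull (M * p))} (n : ℤ)
    (hY : arithmeticGalois (L := Qb) (modularFunctionFieldFull (M * p)) σ •
        (f₀ / g ^ p) / (f₀ / g ^ p) ∈ nodeRing (redPair h W) ⊤ E e₁ e₂ i) :
    arithmeticGalois (L := Qb) (modularFunctionFieldFull (M * p)) σ • f₀ / f₀ /
      (arithmeticGalois (L := Qb) (modularFunctionFieldFull (M * p)) σ • ((w ^ n)⁻¹ • g) /
        ((w ^ n)⁻¹ • g)) ^ p ∈ nodeRing (redPair h W) ⊤ E e₁ e₂ i := by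
  rw [galois_normalised_div hw0 hσw, div_twist_pow (zpow_ne_zero n hη0)]
  refine Subring.mul_mem _ ?_ ?_
  · exact Fermat.Agent.TR.Node.NodeRingAbs.algebraMap_mem (OPair_hOA h) (redPair h W) ⊤ hE
      e₁ e₂ i (pow_mem (hηA n) p) (Subring.mem_top _)
  · rw [smul_div₀', smul_pow', quot_pow] at hY
    exact hY

variable [Fact p.Prime]

/-- (`hH₁`) `σ G / G ≡ 1` modulo `w ^ (t + 1)` on the component `∞`, for `G` a `K''`-rational
unit of `O_∞`. -/
theorem node_hInf (hA : A.LiesOverPrime p) (h : BadSetup A π M p) (hsurj : Function.Surjective π)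
    (hW : IsAL M p W) {H : Subgroup GQ} (hH : H ≤ A.inertiaSubgroupIn ℚ)
    (hidx : H.relIndex (A.inertiaSubgroupIn ℚ) ≠ 0)
    {σ : GQ} (hσ : σ ∈ A.inertiaSubgroupIn ℚ) {w : Qb}
    (hlip : ∀ c : Qb, c ∈ A → c ∈ fixK A H hH →
      A.valuation (σ c - c) ≤ A.valuation (σ w - w))
    {t : ℕ} {u₀ : Qb} (hw0 : w ≠ 0) (hσsub : σ w - w = w ^ (t + 1) * u₀) (hu₀A : u₀ ∈ A)
    {G : laurentBaseChange Qb (modularFunctionFieldFull (M * p))}
    (hG : G ∈ fixedFunOf (H : Set GQ) (M * p)) (hG0 : G ≠ 0) (hGO : G ∈ OInf h)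
    (hGi : G⁻¹ ∈ OInf h) :
    (arithmeticGalois (L := Qb) (modularFunctionFieldFull (M * p)) σ • G / G - 1) /
      algebraMap Qb _ w ^ (t + 1) ∈ OInf h := by
  obtain ⟨y, hy, e⟩ := galois_sub_mem_inf_of_lip hA h hsurj hW hH hidx hσ hlip hG hGO
  rw [hσsub, Algebra.smul_def, map_mul, map_pow] at e
  rw [quot_sub_one_div hG0 ((map_ne_zero _).2 hw0) t e]
  exact (OInf h).mul_mem _ _
    ((OInf h).mul_mem _ _ ((algebraMap_mem_OInf_iff h u₀).2 hu₀A) hy) hGi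

/-- `σ G / G ≡ 1` modulo `w ^ (t + 1)` on the component `0`, for `G` a `K''`-rational unit of
`O_0`. -/
theorem node_hZero (hA : A.LiesOverPrime p) (h : BadSetup A π M p)
    (hsurj : Function.Surjective π)
    (hW : IsAL M p W) {H : Subgroup GQ} (hH : H ≤ A.inertiaSubgroupIn ℚ)
    (hidx : H.relIndex (A.inertiaSubgroupIn ℚ) ≠ 0)
    {σ : GQ} (hσ : σ ∈ A.inertiaSubgroupIn ℚ) {w : Qb}
    (hlip : ∀ c : Qb, c ∈ A → c ∈ fixK A H hH →
      A.valuation (σ c - c) ≤ A.valuation (σ w - w))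
    {t : ℕ} {u₀ : Qb} (hw0 : w ≠ 0) (hσsub : σ w - w = w ^ (t + 1) * u₀) (hu₀A : u₀ ∈ A)
    {G : laurentBaseChange Qb (modularFunctionFieldFull (M * p))}
    (hG : G ∈ fixedFunOf (H : Set GQ) (M * p)) (hG0 : G ≠ 0) (hGO : G ∈ OZero h W)
    (hGi : G⁻¹ ∈ OZero h W) :
    (arithmeticGalois (L := Qb) (modularFunctionFieldFull (M * p)) σ • G / G - 1) /
      algebraMap Qb _ w ^ (t + 1) ∈ OZero h W := by
  obtain ⟨y, hy, e⟩ := galois_sub_mem_zero_of_lip hA h hsurj hW hH hidx hσ hlip hG hGO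
  rw [hσsub, Algebra.smul_def, map_mul, map_pow] at e
  rw [quot_sub_one_div hG0 ((map_ne_zero _).2 hw0) t e]
  exact (OZero h W).mul_mem _ _
    ((OZero h W).mul_mem _ _ ((algebraMap_mem_OZero_iff h u₀).2 hu₀A) hy) hGi

/-- (`hH₂`) `σ G / G ≡ (1 + η) ^ (n0 − n∞)` modulo `w ^ (t + 1)` on the component `0`, for
`G = (w ^ n∞)⁻¹ • g` with `(w ^ n0)⁻¹ • g` a `K''`-rational unit of `O_0`. -/
theorem node_hZero_twist (hA : A.LiesOverPrime p) (h : BadSetup A π M p)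
    (hsurj : Function.Surjective π)
    (hW : IsAL M p W) {H : Subgroup GQ} (hH : H ≤ A.inertiaSubgroupIn ℚ)
    (hidx : H.relIndex (A.inertiaSubgroupIn ℚ) ≠ 0)
    {σ : GQ} (hσ : σ ∈ A.inertiaSubgroupIn ℚ) {w : Qb}
    (hlip : ∀ c : Qb, c ∈ A → c ∈ fixK A H hH →
      A.valuation (σ c - c) ≤ A.valuation (σ w - w))
    {t : ℕ} {η u₀ : Qb} (hw0 : w ≠ 0) (hσw : σ w = w * (1 + η))
    (hσsub : σ w - w = w ^ (t + 1) * u₀) (hu₀A : u₀ ∈ A)
    (hη0 : (1 + η) ≠ 0) (hηA : ∀ n : ℤ, (1 + η) ^ n ∈ A)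
    {g : laurentBaseChange Qb (modularFunctionFieldFull (M * p))} (nI nZ : ℤ)
    (hG : (w ^ nZ)⁻¹ • g ∈ fixedFunOf (H : Set GQ) (M * p)) (hG0 : (w ^ nZ)⁻¹ • g ≠ 0)
    (hGO : (w ^ nZ)⁻¹ • g ∈ OZero h W) (hGi : ((w ^ nZ)⁻¹ • g)⁻¹ ∈ OZero h W) :
    (arithmeticGalois (L := Qb) (modularFunctionFieldFull (M * p)) σ • ((w ^ nI)⁻¹ • g) /
        ((w ^ nI)⁻¹ • g) - algebraMap Qb _ ((1 + η) ^ (nZ - nI))) /
      algebraMap Qb _ w ^ (t + 1) ∈ OZero h W := by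
  have e1 : arithmeticGalois (L := Qb) (modularFunctionFieldFull (M * p)) σ •
      ((w ^ nI)⁻¹ • g) / ((w ^ nI)⁻¹ • g) =
      ((1 + η) ^ (nZ - nI)) •
        (arithmeticGalois (L := Qb) (modularFunctionFieldFull (M * p)) σ •
          ((w ^ nZ)⁻¹ • g) / ((w ^ nZ)⁻¹ • g)) := by
    rw [galois_normalised_div hw0 hσw, galois_normalised_div hw0 hσw, zpow_sub₀ hη0]
    exact twist_twist (zpow_ne_zero nZ hη0) _
  rw [e1, twist_sub_div]
  exact (OZero h W).mul_mem _ _ ((algebraMap_mem_OZero_iff h _).2 (hηA _))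
    (node_hZero hA h hsurj hW hH hidx hσ hlip hw0 hσsub hu₀A hG hG0 hGO hGi)

set_option maxHeartbeats 1000000 in
/-- **The wild call.**  From the frame numerics (`σ w = w (1 + η)`, `η = w ^ t u₀`, …), the smooth
regularity of `u = σ f₀ / f₀` and the node data (`g i`, `n∞ i`, `n0 i`, `hY`), the position
classes `n0 i − n∞ i` are congruent modulo `p`. -/
theorem gamma_congr_wild_core [IsAlgClosed k] {ι : Type*}
    (hA : A.LiesOverPrime p) (h : BadSetup A π M p) (hsurj : Function.Surjective π)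
    (hW : IsAL M p W) {H : Subgroup GQ} (hH : H ≤ A.inertiaSubgroupIn ℚ)
    (hidx : H.relIndex (A.inertiaSubgroupIn ℚ) ≠ 0)
    {w : Qb} (hU : IsUnif A (fixK A H hH) w)
    {σ : GQ} (hσ : σ ∈ A.inertiaSubgroupIn ℚ) (hconj : ∀ τ ∈ H, σ⁻¹ * τ * σ ∈ H)
    (hlip : ∀ c : Qb, c ∈ A → c ∈ fixK A H hH →
      A.valuation (σ c - c) ≤ A.valuation (σ w - w))
    {t : ℕ} {η u₀ r : Qb} (ht : 1 ≤ t) (hσw : σ w = w * (1 + η)) (hη : η = w ^ t * u₀)
    (hu₀ : A.valuation u₀ = 1) (hr : r ∈ A) (hpw : (p : Qb) * w ^ t = w ^ (p * t + 1) * r)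
    (E : Divisor Qb (laurentBaseChange Qb (modularFunctionFieldFull (M * p))))
    (e₁ e₂ : ι → Place k (modularFunctionFieldFullC k M)) (hE : 0 ≤ E)
    {D₁ D₂ : Divisor k (modularFunctionFieldFullC k M)}
    (hS : ∃ N₀ : ℕ, ∀ N, N₀ ≤ N →
      ∀ tt : modularFunctionFieldFullC k M × modularFunctionFieldFullC k M,
      (∃ y : OPair h W,
          (y : laurentBaseChange Qb (modularFunctionFieldFull (M * p))) ∈
            riemannRochSpace (N • E) ∧ redPair h W y = tt) ↔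
        tt ∈ gluedSpace e₁ e₂ (fun _ => (1 : k)) (N • D₁) (N • D₂))
    {f₀ : laurentBaseChange Qb (modularFunctionFieldFull (M * p))}
    (hf₀ : f₀ ∈ fixedFunOf (H : Set GQ) (M * p)) (hf₀0 : f₀ ≠ 0)
    (hSm₁ : ∀ m ≤ p * t, ∀ a ∈ fixedSubfieldOf (H : Set GQ), a ∈ A →
      ∀ hu : (arithmeticGalois (L := Qb) (modularFunctionFieldFull (M * p)) σ • f₀ / f₀ -
          algebraMap Qb _ a) / algebraMap Qb _ w ^ m ∈ OInf h,
      ∀ Q : Place k (modularFunctionFieldFullC k M), (∀ i, e₁ i ≠ Q) →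
        Q.adicValuation (redInf h ⟨_, hu⟩) ≤ 1)
    (hSm₂ : ∀ m ≤ p * t, ∀ a ∈ fixedSubfieldOf (H : Set GQ), a ∈ A →
      ∀ hu : (arithmeticGalois (L := Qb) (modularFunctionFieldFull (M * p)) σ • f₀ / f₀ -
          algebraMap Qb _ a) / algebraMap Qb _ w ^ m ∈ OZero h W,
      ∀ Q : Place k (modularFunctionFieldFullC k M), (∀ i, e₂ i ≠ Q) →
        Q.adicValuation (redZero h W ⟨_, hu⟩) ≤ 1)
    (g : ι → laurentBaseChange Qb (modularFunctionFieldFull (M * p)))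
    (hg : ∀ i, g i ∈ fixedFunOf (H : Set GQ) (M * p)) (hg0 : ∀ i, g i ≠ 0)
    (nInf nZero : ι → ℤ)
    (hgi : ∀ i, (w ^ nInf i)⁻¹ • g i ∈ OInf h ∧ ((w ^ nInf i)⁻¹ • g i)⁻¹ ∈ OInf h)
    (hgz : ∀ i, (w ^ nZero i)⁻¹ • g i ∈ OZero h W ∧ ((w ^ nZero i)⁻¹ • g i)⁻¹ ∈ OZero h W)
    (hY : ∀ i, arithmeticGalois (L := Qb) (modularFunctionFieldFull (M * p)) σ •
        (f₀ / g i ^ p) / (f₀ / g i ^ p) ∈ nodeRing (redPair h W) ⊤ E e₁ e₂ i)
    (i j : ι) : (p : ℤ) ∣ (nZero i - nInf i) - (nZero j - nInf j) := by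
  have hw0 : w ≠ 0 := hU.2.1
  have hw1 : A.valuation w < 1 := hU.2.2.1
  have hwK : w ∈ fixedSubfieldOf (H : Set GQ) := hU.1
  have hwnu : w ∈ A.nonunits := A.mem_nonunits_iff.mpr hw1
  have hu₀A : u₀ ∈ A := (A.valuation_le_one_iff u₀).1 hu₀.le
  have hηt : ∃ r ∈ A, η = w ^ t * r := ⟨u₀, hu₀A, hη⟩
  have hηnu : η ∈ A.nonunits := Fermat.Agent.TR.Node.SigmaGlue.eta_nonunit hwnu hηt ht
  have hηv : A.valuation η < 1 := A.mem_nonunits_iff.mp hηnu
  have hηK : η ∈ fixedSubfieldOf (H : Set GQ) := eta_mem_fixed hconj hw0 hwK hσw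
  have h1η0 : (1 + η) ≠ 0 := by
    intro h0
    have h1 := valuation_one_add_zpow (A := A) hηv 1
    rw [zpow_one, h0, map_zero] at h1
    exact zero_ne_one h1
  have hdA : ∀ n : ℤ, (1 + η) ^ n ∈ A := fun n =>
    (A.valuation_le_one_iff _).1 (valuation_one_add_zpow hηv n).le
  have hdK : ∀ n : ℤ, (1 + η) ^ n ∈ fixedSubfieldOf (H : Set GQ) := fun n =>
    zpow_mem (add_mem (one_mem _) hηK) n
  have hσsub : σ w - w = w ^ (t + 1) * u₀ := sigma_sub hσw hη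
  -- the unit `u = σ f₀ / f₀`
  obtain ⟨huFx, hu₁, hunu, hu₂, -⟩ :=
    Fermat.Agent.TR.PL.ConstFrame.unit_galois_div h hW hσ hconj hf₀ hf₀0
  have hu0 : arithmeticGalois (L := Qb) (modularFunctionFieldFull (M * p)) σ • f₀ / f₀ ≠ 0 :=
    div_ne_zero (Fermat.Agent.TR.PL.ConstFrame.galois_smul_ne_zero σ hf₀0) hf₀0
  have huinv : (arithmeticGalois (L := Qb) (modularFunctionFieldFull (M * p)) σ • f₀ / f₀)⁻¹ ∈
      OInf h := Fermat.Agent.TR.Node.Thickness.inv_mem_of_not_nonunit hunu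
  -- the normalised generators
  have hGfix : ∀ (n : ℤ) (i : ι), (w ^ n)⁻¹ • g i ∈ fixedFunOf (H : Set GQ) (M * p) :=
    fun n i => smul_mem_fixedFunOf (inv_mem (zpow_mem hwK n)) (hg i)
  have hG0 : ∀ (n : ℤ) (i : ι), (w ^ n)⁻¹ • g i ≠ 0 :=
    fun n i => zpow_smul_ne_zero hw0 n (hg0 i)
  -- the constants
  have hcγ : ∀ i, ∃ b ∈ A, (1 + η) ^ (nZero i - nInf i) -
      (1 + ((nZero i - nInf i : ℤ) : Qb) * η) = w ^ (t + 1) * b :=
    fun i => Fermat.Agent.TR.Node.SigmaGlue.one_add_zpow hwnu hηt ht (nZero i - nInf i)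
  have hc : ∀ i, (1 + η) ^ (nZero i - nInf i) ∈ fixedSubfieldOf (H : Set GQ) ∧
      A.valuation ((1 + η) ^ (nZero i - nInf i) - 1) < 1 := by
    intro i
    refine ⟨hdK _, ?_⟩
    obtain ⟨b, hb, e⟩ := hcγ i
    have e2 : (1 + η) ^ (nZero i - nInf i) - 1 =
        ((nZero i - nInf i : ℤ) : Qb) * η + w ^ (t + 1) * b := by
      rw [← e]
      ring
    rw [e2]
    refine lt_of_le_of_lt (Valuation.map_add _ _ _) (max_lt ?_ ?_)
    · exact valuation_mul_lt_one (intCast_mem A _) hηv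
    · rw [mul_comm]
      refine valuation_mul_lt_one hb ?_
      rw [map_pow]
      exact pow_lt_one₀ zero_le hw1 (Nat.succ_ne_zero t)
  exact Fermat.Agent.TR.PL.ConstInst.dvd_gamma_sub_bad hA h hsurj hW hH hidx E e₁ e₂ hE hS hU
    ⟨r, hr, hpw⟩ ⟨u₀, hu₀, hη⟩ huFx hu0 hu₁ huinv hu₂ hSm₁ hSm₂
    (fun i => arithmeticGalois (L := Qb) (modularFunctionFieldFull (M * p)) σ •
      ((w ^ nInf i)⁻¹ • g i) / ((w ^ nInf i)⁻¹ • g i))
    (fun i => (1 + η) ^ (nZero i - nInf i)) (fun i => nZero i - nInf i)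
    (fun i => node_hY h hw0 hσw h1η0 hdA E e₁ e₂ hE i (nInf i) (hY i))
    (fun i => node_hInf hA h hsurj hW hH hidx hσ hlip hw0 hσsub hu₀A (hGfix _ i) (hG0 _ i)
      (hgi i).1 (hgi i).2)
    hc
    (fun i => node_hZero_twist hA h hsurj hW hH hidx hσ hlip hw0 hσw hσsub hu₀A h1η0 hdA
      (nInf i) (nZero i) (hGfix _ i) (hG0 _ i) (hgz i).1 (hgz i).2)
    hcγ i j

/-- **The wild call at the frame** `H = stabV A V`: the frame facts are taken in the literal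
shape of the clauses of `FrameWild.exists_wild_frame` (index `(p − 1) p ^ s`, conjugation of `H`
by inertia, the Lipschitz bound (Sa) for all of inertia, and the numerics of the wild clause). -/
theorem gamma_congr_wild_frame [IsAlgClosed k] {ι : Type*} {N : ℕ} [NeZero N]
    (hA : A.LiesOverPrime p) (h : BadSetup A π M p) (hsurj : Function.Surjective π)
    (hW : IsAL M p W) {V : AddSubgroup (JZero N)} {s : ℕ} {w : Qb}
    (hidx : (stabV A V).relIndex (A.inertiaSubgroupIn ℚ) = (p - 1) * p ^ s)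
    (hconj : ∀ σ ∈ A.inertiaSubgroupIn ℚ, ∀ τ ∈ stabV A V, σ⁻¹ * τ * σ ∈ stabV A V)
    (hU : IsUnif A (fixK A (stabV A V) (stabV_le_inertia V)) w)
    (hlip : ∀ σ ∈ A.inertiaSubgroupIn ℚ, ∀ c : Qb, c ∈ A →
      c ∈ fixK A (stabV A V) (stabV_le_inertia V) →
      A.valuation (σ c - c) ≤ A.valuation (σ w - w))
    {σ₀ : GQ} (hσ₀ : σ₀ ∈ A.inertiaSubgroupIn ℚ)
    {t : ℕ} {η u₀ r : Qb} (ht : 1 ≤ t) (hσw : σ₀ w = w * (1 + η)) (hη : η = w ^ t * u₀)
    (hu₀ : A.valuation u₀ = 1) (hr : r ∈ A) (hpw : (p : Qb) * w ^ t = w ^ (p * t + 1) * r)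
    (E : Divisor Qb (laurentBaseChange Qb (modularFunctionFieldFull (M * p))))
    (e₁ e₂ : ι → Place k (modularFunctionFieldFullC k M)) (hE : 0 ≤ E)
    {D₁ D₂ : Divisor k (modularFunctionFieldFullC k M)}
    (hS : ∃ N₀ : ℕ, ∀ N, N₀ ≤ N →
      ∀ tt : modularFunctionFieldFullC k M × modularFunctionFieldFullC k M,
      (∃ y : OPair h W,
          (y : laurentBaseChange Qb (modularFunctionFieldFull (M * p))) ∈
            riemannRochSpace (N • E) ∧ redPair h W y = tt) ↔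
        tt ∈ gluedSpace e₁ e₂ (fun _ => (1 : k)) (N • D₁) (N • D₂))
    {f₀ : laurentBaseChange Qb (modularFunctionFieldFull (M * p))}
    (hf₀ : f₀ ∈ fixedFunOf (stabV A V : Set GQ) (M * p)) (hf₀0 : f₀ ≠ 0)
    (hSm₁ : ∀ m ≤ p * t, ∀ a ∈ fixedSubfieldOf (stabV A V : Set GQ), a ∈ A →
      ∀ hu : (arithmeticGalois (L := Qb) (modularFunctionFieldFull (M * p)) σ₀ • f₀ / f₀ -
          algebraMap Qb _ a) / algebraMap Qb _ w ^ m ∈ OInf h,
      ∀ Q : Place k (modularFunctionFieldFullC k M), (∀ i, e₁ i ≠ Q) →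
        Q.adicValuation (redInf h ⟨_, hu⟩) ≤ 1)
    (hSm₂ : ∀ m ≤ p * t, ∀ a ∈ fixedSubfieldOf (stabV A V : Set GQ), a ∈ A →
      ∀ hu : (arithmeticGalois (L := Qb) (modularFunctionFieldFull (M * p)) σ₀ • f₀ / f₀ -
          algebraMap Qb _ a) / algebraMap Qb _ w ^ m ∈ OZero h W,
      ∀ Q : Place k (modularFunctionFieldFullC k M), (∀ i, e₂ i ≠ Q) →
        Q.adicValuation (redZero h W ⟨_, hu⟩) ≤ 1)
    (g : ι → laurentBaseChange Qb (modularFunctionFieldFull (M * p)))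
    (hg : ∀ i, g i ∈ fixedFunOf (stabV A V : Set GQ) (M * p)) (hg0 : ∀ i, g i ≠ 0)
    (nInf nZero : ι → ℤ)
    (hgi : ∀ i, (w ^ nInf i)⁻¹ • g i ∈ OInf h ∧ ((w ^ nInf i)⁻¹ • g i)⁻¹ ∈ OInf h)
    (hgz : ∀ i, (w ^ nZero i)⁻¹ • g i ∈ OZero h W ∧ ((w ^ nZero i)⁻¹ • g i)⁻¹ ∈ OZero h W)
    (hY : ∀ i, arithmeticGalois (L := Qb) (modularFunctionFieldFull (M * p)) σ₀ •
        (f₀ / g i ^ p) / (f₀ / g i ^ p) ∈ nodeRing (redPair h W) ⊤ E e₁ e₂ i)
    (i j : ι) : (p : ℤ) ∣ (nZero i - nInf i) - (nZero j - nInf j) := by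
  have hp : p.Prime := Fact.out
  have hidx0 : (stabV A V).relIndex (A.inertiaSubgroupIn ℚ) ≠ 0 := by
    rw [hidx]
    exact Nat.mul_ne_zero (Nat.sub_ne_zero_of_lt hp.one_lt) (pow_ne_zero _ hp.ne_zero)
  exact gamma_congr_wild_core hA h hsurj hW (stabV_le_inertia V) hidx0 hU hσ₀ (hconj σ₀ hσ₀)
    (hlip σ₀ hσ₀) ht hσw hη hu₀ hr hpw E e₁ e₂ hE hS hf₀ hf₀0 hSm₁ hSm₂ g hg hg0 nInf nZero
    hgi hgz hY i j

end Main

end Fermat.Agent.TR.PL.WildCall93
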