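/-
TR (row 38 through S44), node side, WILD case: **a term of the consumer brick `AsmMid.WildAt`**
(helper20's middle `AsmMid.MidBricks`) for the node rings of ONE arbitrary nodal datum with
`0 < deg Z_j`.

Independent compile (architect's ruling #4 §3): the chain used is
`AsmMid.FrameClauses` (= `FrameWild.exists_wild_frame`, clause `s = 1`)
→ `WildCall93.gamma_congr_wild_frame` (→ `ConstInst.dvd_gamma_sub_bad`)
with (I5) from `SmoothULip.hSm_inf_of_lip / hSm_zero_of_lip` and (REG) from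
`ThroughReg.smul_div_mem_nodeRing`; no use of `WildGamma`, `WildSeam90`, `NodeCong`.

* `wildAt_of_datum` : `NodalDatum h W E1 E2 e₁ e₂ P₁ Z₁ P₂ Z₂ → 0 < deg Z₁ → 0 < deg Z₂ →
  AsmMid.WildAt h W V (fun i => nodeRing (redPair h W) ⊤ E1 e₁ e₂ i)`.
-/
import Mathlib
import Fermat.Agent.TR.PL.WildCall93
import Fermat.Agent.TR.PL.AsmMid
import Fermat.Agent.TR.PL.SmoothULip
import Fermat.Agent.TR.PL.RegAdapter

set_option autoImplicit false
set_option linter.style.haveILetI false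
set_option linter.unusedSectionVars false
set_option linter.unusedVariables false

noncomputable section

namespace Fermat.Agent.TR.PL.WildAt93

open AlgebraicCurve ModularCurve WithZero Fermat.Agent.Lib.FF Fermat.Agent.BAD.TwoVal
  Fermat.Agent.BAD.NodalPlus Fermat.Agent.BAD.LatFixed Fermat.Agent.BAD.LatFixedInst
  Fermat.Agent.TR.PL.Frame Fermat.Agent.TR.PL.SigmaSeam Fermat.Agent.TR.PL.LocalField
  Fermat.Agent.TR.PL.Through Fermat.Agent.TR.PL.AsmMid Fermat.Agent.ESJ.Jac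
  Fermat.Agent.TR.Node.NodeRingAbs

local notation "Qb" => AlgebraicClosure ℚ
local notation "GQ" => (AlgebraicClosure ℚ ≃ₐ[ℚ] AlgebraicClosure ℚ)

/-- The order of `f / g ^ p` at a place where `ord f = p · ord g`. -/
theorem ord_div_pow_eq_zero {L F : Type*} [Field L] [Field F] [Algebra L F] (P : Place L F)
    {f g : F} (p : ℕ) (hf0 : f ≠ 0) (hg0 : g ≠ 0) (hfg : P.ord f = (p : ℤ) * P.ord g) :
    P.ord (f / g ^ p) = 0 := by
  have h := Fermat.Agent.TR.PL.RegAdapter.ord_div_smul_pow_eq_zero P (c := (1 : L)) p hf0 hg0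
    one_ne_zero hfg
  rwa [one_smul] at h

set_option synthInstance.maxHeartbeats 400000 in
set_option maxHeartbeats 1000000 in
/-- **The wild brick of the middle, for the node rings of one nodal datum.** -/
theorem wildAt_of_datum {A : ValuationSubring Qb} {M p : ℕ} [NeZero M] [NeZero p]
    (h : BadSetup A (IsLocalRing.residue A) M p) (hA : A.LiesOverPrime p)
    {W : laurentBaseChange Qb (modularFunctionFieldFull (M * p)) ≃ₐ[Qb]
      laurentBaseChange Qb (modularFunctionFieldFull (M * p))} (hW : IsAL M p W)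
    (V : AddSubgroup (JZero (M * p)))
    {E1 E2 : Divisor Qb (laurentBaseChange Qb (modularFunctionFieldFull (M * p)))}
    {ι : Type} [Fintype ι]
    {e₁ e₂ : ι → Place (IsLocalRing.ResidueField A)
      (modularFunctionFieldFullC (IsLocalRing.ResidueField A) M)}
    {P₁ Z₁ P₂ Z₂ : Divisor (IsLocalRing.ResidueField A)
      (modularFunctionFieldFullC (IsLocalRing.ResidueField A) M)}
    (hD : NodalDatum h W E1 E2 e₁ e₂ P₁ Z₁ P₂ Z₂)
    (hdegZ₁ : 0 < Divisor.degree Z₁) (hdegZ₂ : 0 < Divisor.degree Z₂) :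
    WildAt h W V (fun i => nodeRing (redPair h W) ⊤ E1 e₁ e₂ i) := by
  classical
  have hpp : p.Prime := h.hℓ
  haveI : Fact p.Prime := ⟨hpp⟩
  haveI : IsAlgClosed (IsLocalRing.ResidueField A) :=
    Fermat.Agent.Lib.FF.CharP.isAlgClosed_residueField A
  have hsurj : Function.Surjective (IsLocalRing.residue A) := IsLocalRing.residue_surjective
  intro ζ hζ hζ1 w ρ hF x hx D hDx hDfix f₀ hf₀H hf₀0 hf₀D hf₀ hf₀i N hN1 hN2 g ni n0 hg0 hgH hgD
    hni1 hni2 hn01 hn02 i j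
  obtain ⟨hidx, hρI, hρ, hconj, hσK, hfin, hU, hval, hSa, hSb, htame, hwild⟩ := hF
  obtain ⟨σ₀, -, hσ₀I, -, -, -, t, η, u, r, ht1, htp, hσw, hη, hu1, hvη, huK, hηK, hrA, hrK,
    hpw, -, -⟩ := hwild rfl
  obtain ⟨-, -, -, -, -, -, -, -, -, -, hE1, -, -, -, -, hgal, N₀, hS2⟩ := id hD
  have hH : stabV A V ≤ A.inertiaSubgroupIn ℚ := stabV_le_inertia V
  have hidx0 : (stabV A V).relIndex (A.inertiaSubgroupIn ℚ) ≠ 0 := by
    rw [hidx]
    exact Nat.mul_ne_zero (Nat.sub_ne_zero_of_lt hpp.one_lt) (pow_ne_zero _ hpp.ne_zero)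
  have hw0 : w ≠ 0 := hU.2.1
  have hw1 : A.valuation w < 1 := hU.2.2.1
  have huA : u ∈ A := (A.valuation_le_one_iff u).1 hu1.le
  have hu₁ : arithmeticGalois (L := Qb) (modularFunctionFieldFull (M * p)) σ₀ • f₀ / f₀ ∈
      OInf h := Fermat.Agent.TR.PL.ConstFrame.galois_div_mem_OInf h hσ₀I hf₀0
  have hu₂ : arithmeticGalois (L := Qb) (modularFunctionFieldFull (M * p)) σ₀ • f₀ / f₀ ∈
      OZero h W := Fermat.Agent.TR.PL.ConstFrame.galois_div_mem_OZero h hW hσ₀I hf₀0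
  have hE : (0 : Divisor Qb (laurentBaseChange Qb (modularFunctionFieldFull (M * p)))) ≤ E1 :=
    Finsupp.le_def.mpr fun v => by rw [Finsupp.zero_apply]; exact hE1 v
  have hY : ∀ i, arithmeticGalois (L := Qb) (modularFunctionFieldFull (M * p)) σ₀ •
      (f₀ / g i ^ p) / (f₀ / g i ^ p) ∈ nodeRing (redPair h W) ⊤ E1 e₁ e₂ i := fun i =>
    Fermat.Agent.TR.PL.ThroughReg.smul_div_mem_nodeRing h hW E1 e₁ e₂ hE1
      (fun σ hσ => (hgal σ hσ).1) i hσ₀I (div_ne_zero hf₀0 (pow_ne_zero p (hg0 i)))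
      (fun P hP => ord_div_pow_eq_zero P p hf₀0 (hg0 i) (by rw [hf₀D P, hgD i P hP]))
  exact Fermat.Agent.TR.PL.WildCall93.gamma_congr_wild_frame hA h hsurj hW hidx hconj hU hSa
    hσ₀I ht1 hσw hη hu1 hrA hpw E1 e₁ e₂ hE (D₁ := P₁) (D₂ := P₂)
    ⟨N₀, fun N hN t' => by
      have h1 := hS2 N 0 (by omega) t'
      simpa using h1⟩
    hf₀H hf₀0
    (Fermat.Agent.TR.PL.SmoothULip.hSm_inf_of_lip hA hsurj hW hH hidx0 hD hdegZ₁ hdegZ₂ hσ₀I
      (hSa σ₀ hσ₀I) hw0 hw1 hσw hη huA ⟨r, hrA, hpw⟩ D hDfix f₀ hf₀0 hf₀D hu₁)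
    (Fermat.Agent.TR.PL.SmoothULip.hSm_zero_of_lip hA hsurj hW hH hidx0 hD hdegZ₁ hdegZ₂ hσ₀I
      (hSa σ₀ hσ₀I) hw0 hw1 hσw hη huA ⟨r, hrA, hpw⟩ D hDfix f₀ hf₀0 hf₀D hu₂)
    g hgH hg0 ni n0 (fun i => ⟨hni1 i, hni2 i⟩) (fun i => ⟨hn01 i, hn02 i⟩) hY i j

end Fermat.Agent.TR.PL.WildAt93
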