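/-
TR / (PL), WILD case, seam test made a theorem: the wild call `ConstInst.dvd_gamma_sub_bad` for
`u = σ₀ f₀ / f₀` with everything except the per-node data discharged.

* `wild_call` : for ANY subgroup `H ≤ I` of finite relative index with a uniformiser `w` of
  `K'' = ℚ̄^H`, `σ₀ ∈ I` normalising `H` with the Lipschitz bound and the wild numerics
  (`σ₀ w = w (1 + η)`, `η = w ^ t u`, `v(u) = 1`, `p w ^ t = w ^ (p t + 1) r`), ONE nodal datum
  with `0 < deg Z_j`, an `H`-fixed Kummer function `f₀` (`ord_P f₀ = p D P`, `D` fixed by `H`):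
  the node constants satisfy `p ∣ γ i - γ j` as soon as the per-node data
  `(Hs, c, γ, hY, hH₁, hc, hH₂, hcγ)` of `dvd_gamma_sub_bad` are given
  (`NodeCong.node_cong` gives `hH₁ hc hH₂ hcγ`; `hY` is (REG)).
  Inside: `hE hS` from the datum, `huFx hu0 hu₁ huinv hu₂` from `ConstFrame.unit_galois_div`,
  `hSm₁ hSm₂` from `SmoothULip.hSm_inf_of_lip / hSm_zero_of_lip`.
* `wild_of_frame` : the same at `H = stabV A V` from `Frame.exists_wild_frame` (clause `s = 1`),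
  i.e. the seam `exists_wild_frame` → `dvd_gamma_sub_bad` composes.
-/
import Mathlib
import Fermat.Agent.TR.PL.ConstInst
import Fermat.Agent.TR.PL.ConstFrameK
import Fermat.Agent.TR.PL.FrameWild
import Fermat.Agent.TR.PL.SmoothULip

set_option autoImplicit false
set_option linter.style.haveILetI false
set_option linter.unusedSectionVars false

noncomputable section

namespace Fermat.Agent.TR.PL.WildSeam90

open AlgebraicCurve ModularCurve WithZero Fermat.Agent.Lib.FF Fermat.Agent.BAD.TwoVal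
  Fermat.Agent.BAD.SmoothLift Fermat.Agent.BAD.NodalPlus Fermat.Agent.BAD.LatFixed
  Fermat.Agent.BAD.LatFixedInst Fermat.Agent.TR.PL.Frame Fermat.Agent.TR.PL.SigmaSeam
  Fermat.Agent.TR.PL.SmoothULip Fermat.Agent.TR.PL.ConstInst Fermat.Agent.TR.PL.ConstFrame
  Fermat.Agent.TR.PL.LocalField Fermat.Agent.Lib.Red.CoordLat Fermat.Agent.BAD.NodalDiv

local notation "Qb" => AlgebraicClosure ℚ
local notation "GQ" => (AlgebraicClosure ℚ ≃ₐ[ℚ] AlgebraicClosure ℚ)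

variable {p : ℕ} [Fact p.Prime] [NeZero p] {A : ValuationSubring Qb} {k : Type} [Field k]
  {π : A →+* k} {M : ℕ} [NeZero M]
  {W : laurentBaseChange Qb (modularFunctionFieldFull (M * p)) ≃ₐ[Qb]
    laurentBaseChange Qb (modularFunctionFieldFull (M * p))}
  [IsAlgClosed k]

set_option maxHeartbeats 1000000 in
/-- **The wild call, generic `H`.**  Everything of `ConstInst.dvd_gamma_sub_bad` for
`u = σ₀ f₀ / f₀` except the per-node data is discharged from one nodal datum, the frame numerics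
and the Kummer function. -/
theorem wild_call
    (hA : A.LiesOverPrime p) (h : BadSetup A π M p) (hsurj : Function.Surjective π)
    (hW : IsAL M p W) {H : Subgroup GQ} (hH : H ≤ A.inertiaSubgroupIn ℚ)
    (hidx : H.relIndex (A.inertiaSubgroupIn ℚ) ≠ 0)
    {w : Qb} (hU : IsUnif A (fixK A H hH) w)
    {σ₀ : GQ} (hσ₀ : σ₀ ∈ A.inertiaSubgroupIn ℚ) (hconj : ∀ τ ∈ H, σ₀⁻¹ * τ * σ₀ ∈ H)
    (hlip : ∀ c : Qb, c ∈ A → c ∈ fixK A H hH →
      A.valuation (σ₀ c - c) ≤ A.valuation (σ₀ w - w))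
    {t : ℕ} {η u r : Qb} (hσw : σ₀ w = w * (1 + η)) (hη : η = w ^ t * u)
    (hu1 : A.valuation u = 1) (hrA : r ∈ A) (hpw : (p : Qb) * w ^ t = w ^ (p * t + 1) * r)
    {E1 E2 : Divisor Qb (laurentBaseChange Qb (modularFunctionFieldFull (M * p)))}
    {ι : Type} [Fintype ι]
    {e₁ e₂ : ι → Place k (modularFunctionFieldFullC k M)}
    {P₁ Z₁ P₂ Z₂ : Divisor k (modularFunctionFieldFullC k M)}
    (hD : NodalDatum h W E1 E2 e₁ e₂ P₁ Z₁ P₂ Z₂)
    (hdegZ₁ : 0 < Divisor.degree Z₁) (hdegZ₂ : 0 < Divisor.degree Z₂)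
    (D : Divisor Qb (laurentBaseChange Qb (modularFunctionFieldFull (M * p))))
    (hDH : ∀ τ ∈ H, arithmeticGalois (modularFunctionFieldFull (M * p)) τ • D = D)
    (f₀ : laurentBaseChange Qb (modularFunctionFieldFull (M * p)))
    (hf₀H : f₀ ∈ fixedFunOf (H : Set GQ) (M * p)) (hf₀ : f₀ ≠ 0)
    (hdiv : ∀ P : Place Qb (laurentBaseChange Qb (modularFunctionFieldFull (M * p))),
      P.ord f₀ = p * D P)
    (Hs : ι → laurentBaseChange Qb (modularFunctionFieldFull (M * p))) (c : ι → Qb)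
    (γ : ι → ℤ)
    (hY : ∀ i, (arithmeticGalois (L := Qb) (modularFunctionFieldFull (M * p)) σ₀ • f₀ / f₀)
      / Hs i ^ p ∈ Fermat.Agent.TR.Node.NodeRingAbs.nodeRing (redPair h W) ⊤ E1 e₁ e₂ i)
    (hH₁ : ∀ i, (Hs i - 1) / algebraMap Qb _ w ^ (t + 1) ∈ OInf h)
    (hc : ∀ i, c i ∈ fixedSubfieldOf (H : Set GQ) ∧ A.valuation (c i - 1) < 1)
    (hH₂ : ∀ i, (Hs i - algebraMap Qb _ (c i)) / algebraMap Qb _ w ^ (t + 1) ∈ OZero h W)
    (hcγ : ∀ i, ∃ b ∈ A, c i - (1 + (γ i : Qb) * η) = w ^ (t + 1) * b) (i j : ι) :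
    (p : ℤ) ∣ γ i - γ j := by
  have hw0 : w ≠ 0 := hU.2.1
  have hw1 : A.valuation w < 1 := hU.2.2.1
  have huA : u ∈ A := by
    rw [← A.valuation_le_one_iff, hu1]
  obtain ⟨-, -, -, -, -, -, -, -, -, -, hE1, -, -, -, -, -, N₀, hS2⟩ := id hD
  obtain ⟨huFx, hu₁, huu, hu₂, -⟩ := unit_galois_div h hW hσ₀ hconj (H := H) hf₀H hf₀
  have hu0 : arithmeticGalois (L := Qb) (modularFunctionFieldFull (M * p)) σ₀ • f₀ / f₀ ≠ 0 :=
    div_ne_zero ((smul_ne_zero_iff_ne _).mpr hf₀) hf₀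
  have huinv : (arithmeticGalois (L := Qb) (modularFunctionFieldFull (M * p)) σ₀ • f₀ / f₀)⁻¹
      ∈ OInf h := by
    have h1 : (OInf h).valuation
        (arithmeticGalois (L := Qb) (modularFunctionFieldFull (M * p)) σ₀ • f₀ / f₀) = 1 :=
      le_antisymm (((OInf h).valuation_le_one_iff _).2 hu₁)
        (not_lt.1 (fun hlt => huu ((OInf h).mem_nonunits_iff.2 hlt)))
    rw [← (OInf h).valuation_le_one_iff, map_inv₀, h1, inv_one]
  exact dvd_gamma_sub_bad hA h hsurj hW hH hidx E1 e₁ e₂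
    (fun v => by simpa using hE1 v) (D₁ := P₁) (D₂ := P₂)
    ⟨N₀, fun N hN t' => by
      have h1 := hS2 N 0 (by omega) t'
      simpa using h1⟩
    hU ⟨r, hrA, hpw⟩ ⟨u, hu1, hη⟩ huFx hu0 hu₁ huinv hu₂
    (hSm_inf_of_lip hA hsurj hW hH hidx hD hdegZ₁ hdegZ₂ hσ₀ hlip hw0 hw1 hσw hη huA
      ⟨r, hrA, hpw⟩ D hDH f₀ hf₀ hdiv hu₁)
    (hSm_zero_of_lip hA hsurj hW hH hidx hD hdegZ₁ hdegZ₂ hσ₀ hlip hw0 hw1 hσw hη huA
      ⟨r, hrA, hpw⟩ D hDH f₀ hf₀ hdiv hu₂)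
    Hs c γ hY hH₁ hc hH₂ hcγ i j

set_option maxHeartbeats 1000000 in
/-- **The wild call at `TRKey`'s objects** (`H = stabV A V`): `Frame.exists_wild_frame` feeds
`wild_call` — the frame data `(s, w)` and, for `s = 1`, `(σ₀, t, η)` such that the node
constants of ANY per-node data are congruent modulo `p`. -/
theorem wild_of_frame
    (hA : A.LiesOverPrime p) (h : BadSetup A π M p) (hsurj : Function.Surjective π)
    (hW : IsAL M p W) (hp2 : p ≠ 2) {ζ : Qb} (hζ : ζ ^ p = 1) (hζ1 : ζ ≠ 1)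
    {V L : AddSubgroup (JZero (M * p))} (hLV : L ≤ V)
    (hpV : ∀ x ∈ V, p • x = 0) (hcardV : Nat.card V = p ^ 2) (hcardL : Nat.card L = p)
    (hquot : ∀ σ ∈ A.inertiaSubgroupIn ℚ, ∀ v ∈ V, σ • v - v ∈ L)
    (hcyc : ∀ σ ∈ A.inertiaSubgroupIn ℚ, ∀ a : ℕ, (∀ μ : Qb, μ ^ p = 1 → σ μ = μ ^ a) →
      ∀ v ∈ L, σ • v = a • v)
    (hdeep : ∀ σ ∈ A.inertiaSubgroupIn ℚ, ∀ ρ : A.ValueGroup,
      ρ ^ (p - 1) < A.valuation (p : Qb) →
      (∀ c : Qb, c ∈ A → (∀ τ' ∈ A.inertiaSubgroupIn ℚ, (∀ x ∈ V, τ' • x = x) → τ' c = c) →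
        A.valuation (σ c - c) ≤ ρ) → ∀ x ∈ V, σ • x = x)
    {E1 E2 : Divisor Qb (laurentBaseChange Qb (modularFunctionFieldFull (M * p)))}
    {ι : Type} [Fintype ι]
    {e₁ e₂ : ι → Place k (modularFunctionFieldFullC k M)}
    {P₁ Z₁ P₂ Z₂ : Divisor k (modularFunctionFieldFullC k M)}
    (hD : NodalDatum h W E1 E2 e₁ e₂ P₁ Z₁ P₂ Z₂)
    (hdegZ₁ : 0 < Divisor.degree Z₁) (hdegZ₂ : 0 < Divisor.degree Z₂)
    (D : Divisor Qb (laurentBaseChange Qb (modularFunctionFieldFull (M * p))))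
    (hDH : ∀ τ ∈ stabV A V, arithmeticGalois (modularFunctionFieldFull (M * p)) τ • D = D)
    (f₀ : laurentBaseChange Qb (modularFunctionFieldFull (M * p)))
    (hf₀H : f₀ ∈ fixedFunOf ((stabV A V : Subgroup GQ) : Set GQ) (M * p)) (hf₀ : f₀ ≠ 0)
    (hdiv : ∀ P : Place Qb (laurentBaseChange Qb (modularFunctionFieldFull (M * p))),
      P.ord f₀ = p * D P) :
    ∃ (s : ℕ) (w : Qb), s ≤ 1 ∧ IsUnif A (fixK A (stabV A V) (stabV_le_inertia V)) w ∧
      (s = 1 → ∃ σ₀ ∈ A.inertiaSubgroupIn ℚ, ∃ (t : ℕ) (η : Qb),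
        ∀ (Hs : ι → laurentBaseChange Qb (modularFunctionFieldFull (M * p))) (c : ι → Qb)
          (γ : ι → ℤ),
          (∀ i, (arithmeticGalois (L := Qb) (modularFunctionFieldFull (M * p)) σ₀ • f₀ / f₀)
            / Hs i ^ p ∈ Fermat.Agent.TR.Node.NodeRingAbs.nodeRing (redPair h W) ⊤ E1 e₁ e₂ i) →
          (∀ i, (Hs i - 1) / algebraMap Qb _ w ^ (t + 1) ∈ OInf h) →
          (∀ i, c i ∈ fixedSubfieldOf ((stabV A V : Subgroup GQ) : Set GQ) ∧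
            A.valuation (c i - 1) < 1) →
          (∀ i, (Hs i - algebraMap Qb _ (c i)) / algebraMap Qb _ w ^ (t + 1) ∈ OZero h W) →
          (∀ i, ∃ b ∈ A, c i - (1 + (γ i : Qb) * η) = w ^ (t + 1) * b) →
          ∀ i j, (p : ℤ) ∣ γ i - γ j) := by
  obtain ⟨s, w, ρ, hs, hidx, hρI, hρ, hconj, hσE, hfin, hU, hval, hlip, hSb, htame, hwild⟩ :=
    exists_wild_frame hp2 hA hζ hζ1 hLV hpV hcardV hcardL hquot hcyc hdeep
  refine ⟨s, w, hs, hU, fun hs1 => ?_⟩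
  obtain ⟨σ₀, -, hσ₀I, -, -, -, t, η, u, r, ht1, htp, hσw, hη, hu1, hvη, huK, hηK, hrA, hrK,
    hpw, hSa, hSc⟩ := hwild hs1
  have hpp : p.Prime := Fact.out
  have hidx0 : (stabV A V).relIndex (A.inertiaSubgroupIn ℚ) ≠ 0 := by
    rw [hidx]
    have h1 : 0 < p - 1 := by have := hpp.two_le; omega
    exact (Nat.mul_pos h1 (pow_pos hpp.pos s)).ne'
  exact ⟨σ₀, hσ₀I, t, η, fun Hs c γ hY hH₁ hc hH₂ hcγ i j =>
    wild_call hA h hsurj hW (stabV_le_inertia V) hidx0 hU hσ₀I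
      (fun τ hτ => hconj σ₀ hσ₀I τ hτ) (fun c hcA hcK => hlip σ₀ hσ₀I c hcA hcK) hσw hη hu1 hrA
      hpw hD hdegZ₁ hdegZ₂ D hDH f₀ hf₀H hf₀ hdiv Hs c γ hY hH₁ hc hH₂ hcγ i j⟩

end Fermat.Agent.TR.PL.WildSeam90
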